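import Fermat.Agent.S18.h53_CoreDefs

/-!
# S18 CORE: basic API (orders, `L`-spaces, tube inequality)
-/

set_option autoImplicit false

namespace Fermat.Agent.S18

open AlgebraicCurve Fermat.Agent.S24

variable {K F k Fb : Type*} [Field K] [Field F] [Algebra K F] [Field k] [Field Fb] [Algebra k Fb]

/-- `ord_P f ≥ n`, with the convention that `0` has infinite order. -/
def h53_OrdGE (P : Place K F) (f : F) (n : ℤ) : Prop := f = 0 ∨ n ≤ P.ord f

namespace h53_OrdGE

variable {P : Place K F} {f g : F} {n n' : ℤ}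

theorem zero : h53_OrdGE P 0 n := Or.inl rfl

theorem of_ne (hf : f ≠ 0) : h53_OrdGE P f n ↔ n ≤ P.ord f := by simp [h53_OrdGE, hf]

theorem mono (h : h53_OrdGE P f n) (hn : n' ≤ n) : h53_OrdGE P f n' := by
  rcases h with h | h
  · exact Or.inl h
  · exact Or.inr (hn.trans h)

theorem add (hf : h53_OrdGE P f n) (hg : h53_OrdGE P g n) : h53_OrdGE P (f + g) n := by
  by_cases hf0 : f = 0
  · rw [hf0, zero_add]; exact hg
  by_cases hg0 : g = 0
  · rw [hg0, add_zero]; exact hf
  by_cases hfg : f + g = 0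
  · exact Or.inl hfg
  refine Or.inr ?_
  have h1 := (of_ne hf0).1 hf
  have h2 := (of_ne hg0).1 hg
  have := h35_ord_add P hf0 hg0 hfg
  exact (le_min h1 h2).trans this

theorem neg (hf : h53_OrdGE P f n) : h53_OrdGE P (-f) n := by
  rcases hf with h | h
  · exact Or.inl (by rw [h, neg_zero])
  · exact Or.inr (by rwa [h35_ord_neg])

theorem sub (hf : h53_OrdGE P f n) (hg : h53_OrdGE P g n) : h53_OrdGE P (f - g) n := by
  rw [sub_eq_add_neg]; exact hf.add hg.neg

theorem mul (hf : h53_OrdGE P f n) (hg : h53_OrdGE P g n') : h53_OrdGE P (f * g) (n + n') := by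
  by_cases hf0 : f = 0
  · rw [hf0, zero_mul]; exact zero
  by_cases hg0 : g = 0
  · rw [hg0, mul_zero]; exact zero
  refine Or.inr ?_
  rw [P.ord_mul hf0 hg0]
  exact add_le_add ((of_ne hf0).1 hf) ((of_ne hg0).1 hg)

theorem const (a : K) : h53_OrdGE P (algebraMap K F a) 0 :=
  Or.inr (h35_ord_algebraMap P a).ge

theorem one : h53_OrdGE P (1 : F) 0 := Or.inr (by simp)

theorem pow (hf : h53_OrdGE P f n) (j : ℕ) : h53_OrdGE P (f ^ j) (j * n) := by
  induction j with
  | zero => simpa using (one : h53_OrdGE P (1 : F) 0)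
  | succ j ih =>
    rw [pow_succ]
    have := ih.mul hf
    convert this using 1
    push_cast; ring

theorem mem_iff : h53_OrdGE P f 0 ↔ f ∈ P.toValuationSubring := by
  by_cases hf : f = 0
  · simp [hf, zero, P.toValuationSubring.zero_mem]
  · rw [of_ne hf, h35_mem_iff_ord_nonneg P hf]

theorem smul (hf : h53_OrdGE P f n) (a : K) : h53_OrdGE P (a • f) n := by
  rw [Algebra.smul_def]
  have := (const (P := P) a).mul hf
  rwa [zero_add] at this

theorem sum {ι : Type*} (s : Finset ι) (f : ι → F) (h : ∀ i ∈ s, h53_OrdGE P (f i) n) :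
    h53_OrdGE P (∑ i ∈ s, f i) n := by
  classical
  induction s using Finset.induction_on with
  | empty => simpa using (zero : h53_OrdGE P (0 : F) n)
  | insert a s ha ih =>
    rw [Finset.sum_insert ha]
    exact (h a (Finset.mem_insert_self a s)).add
      (ih fun i hi => h i (Finset.mem_insert_of_mem hi))

/-- Dividing by an element of exact order. -/
theorem div_of_ord_eq (hf : h53_OrdGE P f n) :
    h53_OrdGE P (f / g) (n - P.ord g) := by
  rw [div_eq_mul_inv, sub_eq_add_neg]
  exact hf.mul (Or.inr (P.ord_inv g).ge)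

end h53_OrdGE

theorem h53_inL_iff {D : Divisor K F} {f : F} :
    h53_InL D f ↔ ∀ P : Place K F, h53_OrdGE P f (-D P) := by
  by_cases hf : f = 0
  · simp [h53_InL, h53_OrdGE, hf]
  · simp [h53_InL, h53_OrdGE, hf]

namespace h53_InL

variable {D D' : Divisor K F} {f g : F}

theorem zero : h53_InL D (0 : F) := Or.inl rfl

theorem add (hf : h53_InL D f) (hg : h53_InL D g) : h53_InL D (f + g) := by
  rw [h53_inL_iff] at *
  exact fun P => (hf P).add (hg P)

theorem neg (hf : h53_InL D f) : h53_InL D (-f) := by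
  rw [h53_inL_iff] at *
  exact fun P => (hf P).neg

theorem sub (hf : h53_InL D f) (hg : h53_InL D g) : h53_InL D (f - g) := by
  rw [h53_inL_iff] at *
  exact fun P => (hf P).sub (hg P)

theorem smul (hf : h53_InL D f) (a : K) : h53_InL D (a • f) := by
  rw [h53_inL_iff] at *
  exact fun P => (hf P).smul a

theorem const_mul (hf : h53_InL D f) (a : K) : h53_InL D (algebraMap K F a * f) := by
  rw [← Algebra.smul_def]; exact hf.smul a

theorem mul (hf : h53_InL D f) (hg : h53_InL D' g) : h53_InL (D + D') (f * g) := by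
  rw [h53_inL_iff] at *
  intro P
  have := (hf P).mul (hg P)
  convert this using 1
  rw [Finsupp.add_apply]; ring

theorem mono (hf : h53_InL D f) (h : D ≤ D') : h53_InL D' f := by
  rw [h53_inL_iff] at *
  exact fun P => (hf P).mono (neg_le_neg (h P))

theorem sum {ι : Type*} (s : Finset ι) (f : ι → F) (h : ∀ i ∈ s, h53_InL D (f i)) :
    h53_InL D (∑ i ∈ s, f i) := by
  rw [h53_inL_iff]
  exact fun P => h53_OrdGE.sum s f fun i hi => (h53_inL_iff.1 (h i hi)) P

theorem pow (hf : h53_InL D f) (j : ℕ) : h53_InL (j • D) (f ^ j) := by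
  rw [h53_inL_iff] at *
  intro P
  have := (hf P).pow j
  convert this using 1
  rw [Finsupp.smul_apply]; simp

end h53_InL

/-! ### `Finsupp.mapDomain` on fibres -/

theorem h53_mapDomain_apply {α β : Type*} [DecidableEq β] (f : α → β) (x : α →₀ ℤ) (b : β) :
    Finsupp.mapDomain f x b = ∑ a ∈ x.support, if f a = b then x a else 0 := by
  rw [Finsupp.mapDomain, Finsupp.sum, Finsupp.finsetSum_apply]
  refine Finset.sum_congr rfl fun a _ => ?_
  rw [Finsupp.single_apply]

theorem h53_mapDomain_nonneg {α β : Type*} (f : α → β) (x : α →₀ ℤ) (b : β)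
    (h : ∀ a, f a = b → 0 ≤ x a) : 0 ≤ Finsupp.mapDomain f x b := by
  classical
  rw [h53_mapDomain_apply]
  refine Finset.sum_nonneg fun a _ => ?_
  split_ifs with hab
  · exact h a hab
  · exact le_rfl

theorem h53_eq_zero_of_mapDomain_eq_zero {α β : Type*} (f : α → β) (x : α →₀ ℤ) (b : β)
    (h : ∀ a, f a = b → 0 ≤ x a) (h0 : Finsupp.mapDomain f x b = 0) (a : α) (ha : f a = b) :
    x a = 0 := by
  classical
  rw [h53_mapDomain_apply] at h0
  by_contra hne
  have hmem : a ∈ x.support := Finsupp.mem_support_iff.2 hne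
  have hnn : ∀ a' ∈ x.support, 0 ≤ (if f a' = b then x a' else 0) := by
    intro a' _
    split_ifs with hab
    · exact h a' hab
    · exact le_rfl
  have := (Finset.sum_eq_zero_iff_of_nonneg hnn).1 h0 a hmem
  rw [if_pos ha] at this
  exact hne this

/-! ### The reduction datum -/

namespace h53_RedDatum

variable (R : h53_RedDatum K F k Fb)

theorem red_ne_zero_iff (y : R.Ov) : R.red y ≠ 0 ↔ IsUnit y := by
  rw [Ne, R.red_eq_zero, ValuationSubring.coe_mem_nonunits_iff, IsLocalRing.mem_maximalIdeal,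
    mem_nonunits_iff, not_not]

theorem isUnit_of_red_eq_one {y : R.Ov} (hy : R.red y = 1) : IsUnit y :=
  (R.red_ne_zero_iff y).1 (by rw [hy]; exact one_ne_zero)

theorem coe_ne_zero_of_red_ne_zero {y : R.Ov} (hy : R.red y ≠ 0) : (y : F) ≠ 0 := by
  intro h
  apply hy
  have : y = 0 := Subtype.ext h
  rw [this, map_zero]

/-- **Tube inequality** (from step (6)): if a `v`-unit `y` has `ord_P y ≥ -D1 P` at all places
`P` reducing to `Q`, then `ord_Q (red y) ≥ -(r0_* D1) Q`. -/
theorem tube [HasPrincipalDivisors K F] (y : R.Ov) (hy : R.red y ≠ 0)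
    (D1 : Divisor K F) (Q : Place k Fb)
    (h : ∀ P : Place K F, R.r0 P = Q → -D1 P ≤ P.ord (y : F)) :
    -(Finsupp.mapDomain R.r0 D1 Q) ≤ Q.ord (R.red y) := by
  obtain ⟨Dy, hDy, -⟩ := HasPrincipalDivisors.exists_divisor (K := K) (y : F)
    (R.coe_ne_zero_of_red_ne_zero hy)
  have h1 := R.red_div y hy Dy hDy Q
  have h2 : 0 ≤ Finsupp.mapDomain R.r0 (Dy + D1) Q :=
    h53_mapDomain_nonneg _ _ _ fun P hP => by
      rw [Finsupp.add_apply, hDy P]
      have := h P hP
      omega
  rw [Finsupp.mapDomain_add, Finsupp.add_apply, h1] at h2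
  omega

/-- Reduction maps `L(D') ∩ Ov` into `Lbar(r0_* D')`. -/
theorem red_mem_L [HasPrincipalDivisors K F] (y : R.Ov) (D' : Divisor K F)
    (hy : h53_InL D' (y : F)) : h53_InL (Finsupp.mapDomain R.r0 D') (R.red y) := by
  by_cases h0 : R.red y = 0
  · exact Or.inl h0
  refine Or.inr fun Q => R.tube y h0 D' Q fun P _ => ?_
  rcases hy with hy | hy
  · exact absurd hy (R.coe_ne_zero_of_red_ne_zero h0)
  · exact hy P

end h53_RedDatum

end Fermat.Agent.S18
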