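import Fermat.Agent.S18.RR_Chi
import Fermat.Agent.S24.h35_PlaceBasic

/-!
# S18 / RR-B6: constants, principal divisors of degree 0, Riemann's inequality

Two-chart Riemann–Roch layer: consequences of the Euler characteristic formula
`χ(D) = χ(0) + deg D` (RR-B5).

* `h75_rrSpace_eq` : `L(D) = M_x(D) ⊓ M_{1/x}(D)`;
* `h75_hasPrincipalDivisors` : the divisor of a nonzero function exists and has degree `0`
  (multiplication by `f` is an isomorphism of the triple of `D` onto that of `D - div f`);
* `h75_finrank_rr_zero` : `L(0) = K`;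
* `h75_chiD_zero`, `h75_riemann`, `h75_rr_eq_bot_of_neg`.
-/

set_option autoImplicit false

open AlgebraicCurve IntermediateField

namespace Fermat.Agent.S18

variable {K F : Type*} [Field K] [Field F] [Algebra K F]

section B6pre

/-- Multiplication by `f` moves the order condition by `div f`. -/
theorem h7_mul_ord_iff {f : F} (hf : f ≠ 0) (Df : Divisor K F)
    (hDf : ∀ v : Place K F, Df v = v.ord f) (E : Divisor K F) (P : Place K F) (g : F) :
    (f * g = 0 ∨ -(E - Df) P ≤ P.ord (f * g)) ↔ (g = 0 ∨ -E P ≤ P.ord g) := by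
  rcases eq_or_ne g 0 with rfl | hg
  · simp
  · have hfg : f * g ≠ 0 := mul_ne_zero hf hg
    rw [or_iff_right hfg, or_iff_right hg, P.ord_mul hf hg, Finsupp.coe_sub, Pi.sub_apply, hDf P]
    constructor <;> intro h <;> linarith

theorem h7_mul_mem_chart_iff {f : F} (hf : f ≠ 0) (Df : Divisor K F)
    (hDf : ∀ v : Place K F, Df v = v.ord f) (t : F) (E : Divisor K F) (g : F) :
    f * g ∈ h75_chart t (E - Df) ↔ g ∈ h75_chart t E := by
  rw [h75_mem_chart_iff, h75_mem_chart_iff]
  exact forall_congr' fun P => imp_congr_right fun _ => h7_mul_ord_iff hf Df hDf E P g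

theorem h7_mul_mem_overlap_iff {f : F} (hf : f ≠ 0) (Df : Divisor K F)
    (hDf : ∀ v : Place K F, Df v = v.ord f) (t : F) (E : Divisor K F) (g : F) :
    f * g ∈ h75_overlap t (E - Df) ↔ g ∈ h75_overlap t E := by
  rw [h75_mem_overlap_iff, h75_mem_overlap_iff]
  exact forall_congr' fun P => imp_congr_right fun _ => imp_congr_right fun _ =>
    h7_mul_ord_iff hf Df hDf E P g

theorem h7_map_chart {f : F} (hf : f ≠ 0) (Df : Divisor K F)
    (hDf : ∀ v : Place K F, Df v = v.ord f) (t : F) (E : Divisor K F) :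
    (h75_chart t E).map ((h75_mulEquiv K f hf : F ≃ₗ[K] F) : F →ₗ[K] F)
      = h75_chart t (E - Df) := by
  ext g
  rw [Submodule.mem_map]
  constructor
  · rintro ⟨h, hh, rfl⟩
    exact (h7_mul_mem_chart_iff hf Df hDf t E h).mpr hh
  · intro hg
    refine ⟨f⁻¹ * g, ?_, ?_⟩
    · apply (h7_mul_mem_chart_iff hf Df hDf t E _).mp
      rwa [mul_inv_cancel_left₀ hf]
    · show f * (f⁻¹ * g) = g
      exact mul_inv_cancel_left₀ hf g

theorem h7_map_overlap {f : F} (hf : f ≠ 0) (Df : Divisor K F)
    (hDf : ∀ v : Place K F, Df v = v.ord f) (t : F) (E : Divisor K F) :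
    (h75_overlap t E).map ((h75_mulEquiv K f hf : F ≃ₗ[K] F) : F →ₗ[K] F)
      = h75_overlap t (E - Df) := by
  ext g
  rw [Submodule.mem_map]
  constructor
  · rintro ⟨h, hh, rfl⟩
    exact (h7_mul_mem_overlap_iff hf Df hDf t E h).mpr hh
  · intro hg
    refine ⟨f⁻¹ * g, ?_, ?_⟩
    · apply (h7_mul_mem_overlap_iff hf Df hDf t E _).mp
      rwa [mul_inv_cancel_left₀ hf]
    · show f * (f⁻¹ * g) = g
      exact mul_inv_cancel_left₀ hf g

/-- The degree as a sum. -/
theorem h7_degree_eq_sum (E : Divisor K F) :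
    Divisor.degree E = ∑ v ∈ E.support, E v * (v.deg : ℤ) := by
  simp [Divisor.degree, Finsupp.liftAddHom_apply, Finsupp.sum]

theorem h7_degree_nonneg (E : Divisor K F) (hE : ∀ v, 0 ≤ E v) : 0 ≤ Divisor.degree E := by
  rw [h7_degree_eq_sum]
  exact Finset.sum_nonneg fun v _ => mul_nonneg (hE v) (Int.natCast_nonneg _)

end B6pre

section B6
variable [IsAlgClosed K]

/-- Every valuation ring contains `x` or `x⁻¹`. -/
theorem h75_rrSpace_eq (x : F) (D : Divisor K F) :
    riemannRochSpace D = h75_chart x D ⊓ h75_chart x⁻¹ D := by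
  ext f
  rw [Submodule.mem_inf]
  constructor
  · intro hf
    exact ⟨fun P _ => hf P, fun P _ => hf P⟩
  · rintro ⟨h1, h2⟩ P
    rcases P.toValuationSubring.mem_or_inv_mem x with h | h
    · exact h1 P h
    · exact h2 P h

theorem h7_degree_pos {x : F} (hx : h75_IsChart K x) (E : Divisor K F) (hE : ∀ v, 0 ≤ E v)
    (P₀ : Place K F) (h0 : 0 < E P₀) : 0 < Divisor.degree E := by
  rw [h7_degree_eq_sum]
  apply Finset.sum_pos' (fun v _ => mul_nonneg (hE v) (Int.natCast_nonneg _))
  refine ⟨P₀, Finsupp.mem_support_iff.mpr h0.ne', ?_⟩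
  rw [h75_deg_eq_one hx P₀]
  simpa using h0

/-- The divisor of a nonzero function. -/
theorem h7_exists_div {x : F} (hx : h75_IsChart K x) (f : F) (hf : f ≠ 0) :
    ∃ D : Divisor K F, ∀ v : Place K F, D v = v.ord f := by
  classical
  exact ⟨Finsupp.ofSupportFinite (fun v : Place K F => v.ord f) (h75_finite_ord_ne hx f hf),
    fun v => rfl⟩

/-- `χ(E - div f) = χ(E)`. -/
theorem h7_chiD_sub_div {x : F} (hx : h75_IsChart K x) {f : F} (hf : f ≠ 0)
    (Df : Divisor K F) (hDf : ∀ v : Place K F, Df v = v.ord f) (E : Divisor K F) :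
    h75_chiD x (E - Df) = h75_chiD x E := by
  have h := (h75_fred_map (h75_mulEquiv K f hf) (h75_fred_D hx E)).2
  rw [h7_map_chart hf Df hDf, h7_map_chart hf Df hDf, h7_map_overlap hf Df hDf] at h
  exact h

/-- Principal divisors have degree `0`. -/
theorem h7_degree_div {x : F} (hx : h75_IsChart K x) {f : F} (hf : f ≠ 0)
    (Df : Divisor K F) (hDf : ∀ v : Place K F, Df v = v.ord f) : Divisor.degree Df = 0 := by
  have h1 := h7_chiD_sub_div hx hf Df hDf Df
  rw [sub_self] at h1
  have h2 := h75_chiD_eq hx Df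
  linarith

theorem h75_hasPrincipalDivisors {x : F} (hx : h75_IsChart K x) : HasPrincipalDivisors K F := by
  refine ⟨fun f hf => ?_⟩
  obtain ⟨D, hD⟩ := h7_exists_div hx f hf
  exact ⟨D, hD, h7_degree_div hx hf D hD⟩

/-- There is at least one place. -/
theorem h7_exists_place {x : F} (hx : h75_IsChart K x) : Nonempty (Place K F) := by
  classical
  by_contra hne
  rw [not_nonempty_iff] at hne
  have h := h75_fibre_sum hx 0 ∅ (fun P => (hne.false P).elim)
  rw [Finset.sum_empty] at h
  have hpos : 0 < Module.finrank K⟮x⟯ F := by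
    have := hx.fin
    exact Module.finrank_pos
  omega

/-- Functions without poles are constant. -/
theorem h7_rr_zero_eq {x : F} (hx : h75_IsChart K x) :
    riemannRochSpace (0 : Divisor K F) = Submodule.span K {(1 : F)} := by
  apply le_antisymm
  · intro f hf
    obtain ⟨P₀⟩ := h7_exists_place hx
    have hfO : f ∈ P₀.toValuationSubring := by
      rcases eq_or_ne f 0 with rfl | hf0
      · exact zero_mem _
      · rw [Fermat.Agent.S24.h35_mem_iff_ord_nonneg P₀ hf0]
        rcases (mem_riemannRochSpace_iff.mp hf) P₀ with h | h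
        · exact absurd h hf0
        · simpa using h
    obtain ⟨a, ha | ha⟩ := h75_exists_const hx P₀ f hfO
    · rw [ha, Algebra.algebraMap_eq_smul_one]
      exact Submodule.smul_mem _ _ (Submodule.subset_span rfl)
    · exfalso
      have hg0 : f - algebraMap K F a ≠ 0 := by
        intro h
        rw [h] at ha
        simp at ha
      obtain ⟨D, hD⟩ := h7_exists_div hx (f - algebraMap K F a) hg0
      have hdeg := h7_degree_div hx hg0 D hD
      have hgL : f - algebraMap K F a ∈ riemannRochSpace (0 : Divisor K F) := by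
        refine sub_mem hf ?_
        intro v
        simpa using v.adicValuation_algebraMap_le_one a
      have hpos := h7_degree_pos hx D (fun v => by
        rw [hD]
        rcases (mem_riemannRochSpace_iff.mp hgL) v with h | h
        · exact absurd h hg0
        · simpa using h) P₀ (by rw [hD]; exact ha)
      omega
  · rw [Submodule.span_singleton_le_iff_mem]
    intro v
    simp

theorem h75_finrank_rr_zero {x : F} (hx : h75_IsChart K x) :
    Module.finrank K ↥(riemannRochSpace (0 : Divisor K F)) = 1 := by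
  rw [h7_rr_zero_eq hx]
  exact finrank_span_singleton one_ne_zero

theorem h75_chiD_zero {x : F} (hx : h75_IsChart K x) :
    h75_chiD x (0 : Divisor K F) = 1 - (h75_genus K x : ℤ) := by
  unfold h75_chiD h75_chi h75_genus
  rw [← h75_rrSpace_eq x (0 : Divisor K F), h75_finrank_rr_zero hx]
  simp

theorem h75_riemann {x : F} (hx : h75_IsChart K x) (D : Divisor K F) :
    Module.Finite K ↥(riemannRochSpace D) ∧
      Divisor.degree D + 1 - (h75_genus K x : ℤ) ≤
        (Module.finrank K ↥(riemannRochSpace D) : ℤ) := by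
  have hfred := h75_fred_D hx D
  have hchi := h75_chiD_eq hx D
  rw [h75_chiD_zero hx] at hchi
  unfold h75_chiD h75_chi at hchi
  rw [h75_rrSpace_eq x D]
  refine ⟨hfred.2.2.1, ?_⟩
  have hnn : (0 : ℤ) ≤ (h75_relDim (h75_chart x D ⊔ h75_chart x⁻¹ D) (h75_overlap x D) : ℤ) :=
    Int.natCast_nonneg _
  linarith

theorem h75_rr_eq_bot_of_neg {x : F} (hx : h75_IsChart K x) (D : Divisor K F)
    (hD : Divisor.degree D < 0) : riemannRochSpace D = ⊥ := by
  rw [eq_bot_iff]
  intro f hf
  rw [Submodule.mem_bot]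
  by_contra hf0
  obtain ⟨Df, hDf⟩ := h7_exists_div hx f hf0
  have hdeg := h7_degree_div hx hf0 Df hDf
  have hnn := h7_degree_nonneg (Df + D) (fun v => by
    rw [Finsupp.add_apply, hDf]
    rcases (mem_riemannRochSpace_iff.mp hf) v with h | h
    · exact absurd h hf0
    · linarith)
  rw [map_add, hdeg] at hnn
  linarith

end B6

end Fermat.Agent.S18
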