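import Fermat.Agent.S18.h75_RRDefs
import Fermat.Agent.S24.h24_Fibre

/-!
# S18 / RR-B2: functions with prescribed orders on a chart

`h75_exists_exact`: on the chart `x ≠ ∞` of a chart function `x`, there is a nonzero function
with prescribed orders at finitely many places of the chart and no poles at the other places of
the chart.  The proof is the Chinese remainder theorem in the Dedekind domain
`B = integralClosure K[x] F`.
-/

set_option autoImplicit false

open AlgebraicCurve IntermediateField IsDedekindDomain WithZero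
open Fermat.Agent.S24 (h24_ofHeightOneSpectrum_ord h24_exists_heightOneSpectrum
  h24_ofHeightOneSpectrum_injective h24_integral_mem h24_placeSubalgebra)

namespace Fermat.Agent.S18

section Dedekind

variable {R : Type*} [CommRing R] [IsDedekindDomain R]

/-- An element of `w ^ a` outside `w ^ (a + 1)` has `w`-adic valuation exactly `exp (-a)`. -/
theorem h89_intValuation_eq_exp (w : HeightOneSpectrum R) {y : R} {a : ℕ}
    (h1 : y ∈ w.asIdeal ^ a) (h2 : y ∉ w.asIdeal ^ (a + 1)) :
    w.intValuation y = exp (-(a : ℤ)) := by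
  have hy0 : y ≠ 0 := by
    rintro rfl
    exact h2 (Submodule.zero_mem _)
  have hne : w.intValuation y ≠ 0 := w.intValuation_ne_zero y hy0
  have hle : w.intValuation y ≤ exp (-(a : ℤ)) := (w.intValuation_le_pow_iff_mem y a).mpr h1
  have hnle : ¬ w.intValuation y ≤ exp (-((a + 1 : ℕ) : ℤ)) := fun h =>
    h2 ((w.intValuation_le_pow_iff_mem y (a + 1)).mp h)
  rw [← exp_log hne] at hle hnle ⊢
  rw [exp_le_exp] at hle hnle
  rw [exp_inj]
  push_cast at hnle
  omega

/-- Chinese remainder theorem: prescribed exact orders on `S`, lower bounds on `T \ S`. -/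
theorem h89_exists_intValuation (S T : Finset (HeightOneSpectrum R))
    (a b : HeightOneSpectrum R → ℕ) :
    ∃ y : R, (∀ w ∈ S, w.intValuation y = exp (-(a w : ℤ))) ∧
      ∀ w ∈ T, w ∉ S → w.intValuation y ≤ exp (-(b w : ℤ)) := by
  classical
  have hex : ∀ w : HeightOneSpectrum R, ∃ t ∈ w.asIdeal ^ a w, t ∉ w.asIdeal ^ (a w + 1) :=
    fun w => Ideal.exists_mem_pow_notMem_pow_succ w.asIdeal w.ne_bot w.isPrime.ne_top (a w)
  choose t ht1 ht2 using hex
  obtain ⟨y, hy⟩ := IsDedekindDomain.exists_forall_sub_mem_ideal (s := S ∪ T)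
    (fun w : HeightOneSpectrum R => w.asIdeal)
    (fun w => if w ∈ S then a w + 1 else b w)
    (fun w _ => w.prime)
    (fun w _ w' _ hww' h => hww' (HeightOneSpectrum.ext h))
    (fun w => if (w : HeightOneSpectrum R) ∈ S then t w else 0)
  refine ⟨y, fun w hw => ?_, fun w hwT hwS => ?_⟩
  · have h := hy w (Finset.mem_union_left T hw)
    simp only [if_pos hw] at h
    have h1 : y ∈ w.asIdeal ^ a w := by
      have h' : y - t w ∈ w.asIdeal ^ a w := Ideal.pow_le_pow_right (Nat.le_succ _) h
      have := Ideal.add_mem _ h' (ht1 w)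
      simpa using this
    have h2 : y ∉ w.asIdeal ^ (a w + 1) := by
      intro hmem
      apply ht2 w
      have := Ideal.sub_mem _ hmem h
      simpa using this
    exact h89_intValuation_eq_exp w h1 h2
  · have h := hy w (Finset.mem_union_right S hwT)
    simp only [if_neg hwS, sub_zero] at h
    exact (w.intValuation_le_pow_iff_mem y (b w)).mpr h

/-- A nonzero element lying in prescribed powers of finitely many primes. -/
theorem h89_exists_denominator (S : Finset (HeightOneSpectrum R))
    (k : HeightOneSpectrum R → ℕ) :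
    ∃ z : R, z ≠ 0 ∧ ∀ w ∈ S, z ∈ w.asIdeal ^ k w := by
  classical
  have hex : ∀ w : HeightOneSpectrum R, ∃ p ∈ w.asIdeal, p ≠ 0 :=
    fun w => Submodule.exists_mem_ne_zero_of_ne_bot w.ne_bot
  choose p hp1 hp2 using hex
  refine ⟨∏ w ∈ S, p w ^ k w, ?_, fun w hw => ?_⟩
  · exact Finset.prod_ne_zero_iff.mpr fun w _ => pow_ne_zero _ (hp2 w)
  · have hdvd : p w ^ k w ∣ ∏ w ∈ S, p w ^ k w := Finset.dvd_prod_of_mem _ hw
    obtain ⟨c, hc⟩ := hdvd
    rw [hc]
    exact Ideal.mul_mem_right _ _ (Ideal.pow_mem_pow (hp1 w) _)

variable {F : Type*} [Field F] [Algebra R F] [IsFractionRing R F]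

/-- Approximation in the fraction field of a Dedekind domain: prescribed valuations at finitely
many primes, integrality at all other primes. -/
theorem h89_exists_valuation (S : Finset (HeightOneSpectrum R)) (n : HeightOneSpectrum R → ℤ) :
    ∃ f : F, f ≠ 0 ∧ (∀ w ∈ S, w.valuation F f = exp (-(n w))) ∧
      ∀ w : HeightOneSpectrum R, w ∉ S → w.valuation F f ≤ 1 := by
  classical
  rcases S.eq_empty_or_nonempty with hS | ⟨w₀, hw₀⟩
  · subst hS
    exact ⟨1, one_ne_zero, fun w hw => absurd hw (Finset.notMem_empty w),
      fun w _ => by rw [map_one]⟩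
  obtain ⟨z, hz0, hz⟩ := h89_exists_denominator S (fun w => (-(n w)).toNat)
  -- the exact orders of `z`
  have hzval : ∀ w : HeightOneSpectrum R,
      w.intValuation z = exp (-(((-(log (w.intValuation z))).toNat : ℕ) : ℤ)) := by
    intro w
    have hne : w.intValuation z ≠ 0 := w.intValuation_ne_zero z hz0
    have hle : w.intValuation z ≤ 1 := w.intValuation_le_one z
    have hlog : log (w.intValuation z) ≤ 0 := by
      rw [← exp_log hne, ← exp_zero, exp_le_exp] at hle
      exact hle
    conv_lhs => rw [← exp_log hne]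
    rw [exp_inj]
    omega
  set c : HeightOneSpectrum R → ℕ := fun w => (-(log (w.intValuation z))).toNat with hc
  have hck : ∀ w ∈ S, -(n w) ≤ (c w : ℤ) := by
    intro w hw
    have h1 : w.intValuation z ≤ exp (-(((-(n w)).toNat : ℕ) : ℤ)) :=
      (w.intValuation_le_pow_iff_mem z _).mpr (hz w hw)
    rw [hzval w, exp_le_exp] at h1
    have h2 : (-(n w)) ≤ (((-(n w)).toNat : ℕ) : ℤ) := Int.self_le_toNat _
    have h3 : (((-(n w)).toNat : ℕ) : ℤ) ≤ (c w : ℤ) := by
      have := neg_le_neg_iff.mp h1
      exact this
    exact h2.trans h3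
  have hspan : (Ideal.span {z} : Ideal R) ≠ 0 := by
    rw [Ne, Ideal.zero_eq_bot, Ideal.span_singleton_eq_bot]
    exact hz0
  set T : Finset (HeightOneSpectrum R) := (Ideal.finite_factors hspan).toFinset with hT
  obtain ⟨y, hyS, hyT⟩ := h89_exists_intValuation S T (fun w => (n w + c w).toNat) c
  have hy0 : y ≠ 0 := by
    rintro rfl
    have := hyS w₀ hw₀
    rw [map_zero] at this
    exact exp_ne_zero this.symm
  have hzF : algebraMap R F z ≠ 0 := by
    rw [Ne, map_eq_zero_iff _ (IsFractionRing.injective R F)]
    exact hz0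
  have hyF : algebraMap R F y ≠ 0 := by
    rw [Ne, map_eq_zero_iff _ (IsFractionRing.injective R F)]
    exact hy0
  refine ⟨algebraMap R F y / algebraMap R F z, div_ne_zero hyF hzF, fun w hw => ?_,
    fun w hw => ?_⟩
  · rw [map_div₀, HeightOneSpectrum.valuation_of_algebraMap,
      HeightOneSpectrum.valuation_of_algebraMap, hyS w hw, hzval w, ← exp_sub, exp_inj]
    have := hck w hw
    simp only [hc] at this ⊢
    omega
  · rw [map_div₀, HeightOneSpectrum.valuation_of_algebraMap,
      HeightOneSpectrum.valuation_of_algebraMap]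
    have hzpos : 0 < w.intValuation z := zero_lt_iff.mpr (w.intValuation_ne_zero z hz0)
    rw [div_le_one₀ hzpos]
    by_cases hwT : w ∈ T
    · have := hyT w hwT hw
      rw [hzval w]
      exact this
    · have hnd : ¬ w.asIdeal ∣ Ideal.span {z} := by
        intro hd
        apply hwT
        rw [hT, Set.Finite.mem_toFinset]
        exact hd
      have hzw : z ∉ w.asIdeal := by
        intro hmem
        exact hnd (Ideal.dvd_span_singleton.mpr hmem)
      have h1 : w.intValuation z = 1 := by
        have hnlt : ¬ w.intValuation z < 1 := fun h =>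
          hzw ((w.intValuation_lt_one_iff_mem z).mp h)
        exact le_antisymm (w.intValuation_le_one z) (not_lt.mp hnlt)
      rw [h1]
      exact w.intValuation_le_one y

end Dedekind

section Places

variable {K F : Type*} [Field K] [Field F] [Algebra K F]
variable {R : Type*} [CommRing R] [IsDedekindDomain R] [Algebra R F] [IsFractionRing R F]
  [Algebra K R] [IsScalarTower K R F]

/-- Approximation in the language of places attached to the primes of a Dedekind domain. -/
theorem h89_exists_exact_dedekind (S : Finset (HeightOneSpectrum R))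
    (n : HeightOneSpectrum R → ℤ) :
    ∃ f : F, f ≠ 0 ∧
      (∀ w ∈ S, (Place.ofHeightOneSpectrum (K := K) (F := F) w).ord f = n w) ∧
      ∀ w : HeightOneSpectrum R, w ∉ S →
        0 ≤ (Place.ofHeightOneSpectrum (K := K) (F := F) w).ord f := by
  obtain ⟨f, hf0, hfS, hfT⟩ := h89_exists_valuation (F := F) S n
  refine ⟨f, hf0, fun w hw => ?_, fun w hw => ?_⟩
  · rw [h24_ofHeightOneSpectrum_ord, hfS w hw, log_exp, neg_neg]
  · rw [h24_ofHeightOneSpectrum_ord]
    have hne : w.valuation F f ≠ 0 := (Valuation.ne_zero_iff _).mpr hf0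
    have hle := hfT w hw
    rw [← exp_log hne, ← exp_zero, exp_le_exp] at hle
    omega

end Places

section Chart

open scoped IntermediateField.algebraAdjoinAdjoin

variable {K F : Type*} [Field K] [Field F] [Algebra K F] [IsAlgClosed K]

set_option linter.unusedSectionVars false in
/-- (RR-B2) functions with prescribed orders at finitely many places of a chart, without poles
at the other places of the chart. -/
theorem h75_exists_exact {x : F} (hx : h75_IsChart K x) (S : Finset (Place K F))
    (hS : ∀ P ∈ S, x ∈ P.toValuationSubring) (n : Place K F → ℤ) :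
    ∃ f : F, f ≠ 0 ∧ (∀ P ∈ S, P.ord f = n P) ∧
      ∀ P : Place K F, x ∈ P.toValuationSubring → P ∉ S → 0 ≤ P.ord f := by
  classical
  let A : Subalgebra K F := Algebra.adjoin K {x}
  let e : Polynomial K ≃ₐ[K] A := Polynomial.algEquivOfTranscendental K x hx.tr
  have : IsPrincipalIdealRing A :=
    IsPrincipalIdealRing.of_surjective (e : Polynomial K →+* A) e.surjective
  have : FiniteDimensional K⟮x⟯ F := hx.fin
  have : Algebra.IsSeparable K⟮x⟯ F := hx.sep
  let B : Subalgebra A F := integralClosure A F
  have : IsDedekindDomain B := IsIntegralClosure.isDedekindDomain A K⟮x⟯ F B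
  have : IsFractionRing B F := IsIntegralClosure.isFractionRing_of_finite_extension A K⟮x⟯ F B
  -- the dictionary: places of the chart are the primes of `B`
  have hdict : ∀ P : Place K F, x ∈ P.toValuationSubring →
      ∃ w : HeightOneSpectrum B, P = Place.ofHeightOneSpectrum (K := K) (F := F) w := by
    intro P hP
    apply h24_exists_heightOneSpectrum (K := K) (F := F) (R := B) P
    have hA : ∀ y ∈ A, y ∈ P.toValuationSubring := by
      have hle : A ≤ h24_placeSubalgebra P :=
        Algebra.adjoin_le (by
          intro y hy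
          rw [Set.mem_singleton_iff] at hy
          rw [hy]
          exact hP)
      exact fun y hy => hle hy
    intro b
    exact h24_integral_mem P A hA _ b.2
  have hinj : Function.Injective (Place.ofHeightOneSpectrum (K := K) (F := F) (R := B)) :=
    h24_ofHeightOneSpectrum_injective
  let S' : Finset (HeightOneSpectrum B) :=
    S.preimage (Place.ofHeightOneSpectrum (K := K) (F := F) (R := B)) hinj.injOn
  obtain ⟨f, hf0, hfS, hfT⟩ := h89_exists_exact_dedekind (K := K) (F := F) S'
    (fun w => n (Place.ofHeightOneSpectrum (K := K) (F := F) w))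
  refine ⟨f, hf0, fun P hP => ?_, fun P hPx hP => ?_⟩
  · obtain ⟨w, rfl⟩ := hdict P (hS P hP)
    exact hfS w (Finset.mem_preimage.mpr hP)
  · obtain ⟨w, rfl⟩ := hdict P hPx
    exact hfT w (fun hw => hP (Finset.mem_preimage.mp hw))

end Chart

end Fermat.Agent.S18
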