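import Fermat.Agent.S18.h75_RRBasic
import Fermat.Agent.S24.h24_Fibre
import Fermat.Agent.S24.h35_Places

/-!
# S18 / RR-B1: charts and the place dictionary (char-free)

`x : F` a chart (`h75_IsChart K x`): `x` transcendental over `K`, `F / K(x)` finite separable.
`A = K[x] = h75_ringA K x`, `B = h75_ringB K x` the integral closure of `A` in `F`: a Dedekind
domain with fraction field `F`, finite over `A`; the places `P` of `F / K` with `x ∈ O_P` are
exactly the primes of `B`.
-/

set_option autoImplicit false

open AlgebraicCurve IntermediateField IsDedekindDomain WithZero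
open Fermat.Agent.S24

namespace Fermat.Agent.S18

open scoped IntermediateField.algebraAdjoinAdjoin

variable {K F : Type*} [Field K] [Field F] [Algebra K F]

/-! ### The ring package -/

/-- The polynomial ring `K[x]` inside `F`. -/
abbrev h75_ringA (K : Type*) {F : Type*} [Field K] [Field F] [Algebra K F] (x : F) :
    Subalgebra K F :=
  Algebra.adjoin K {x}

/-- The integral closure of `K[x]` in `F`. -/
abbrev h75_ringB (K : Type*) {F : Type*} [Field K] [Field F] [Algebra K F] (x : F) :
    Subalgebra (h75_ringA K x) F :=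
  integralClosure (h75_ringA K x) F

/-- `x` as an element of `K[x]`. -/
def h75_genA (K : Type*) {F : Type*} [Field K] [Field F] [Algebra K F] (x : F) : h75_ringA K x :=
  ⟨x, Algebra.self_mem_adjoin_singleton K x⟩

theorem h75_ringA_isPrincipalIdealRing {x : F} (hx : Transcendental K x) :
    IsPrincipalIdealRing (h75_ringA K x) :=
  IsPrincipalIdealRing.of_surjective
    ((Polynomial.algEquivOfTranscendental K x hx : Polynomial K ≃ₐ[K] h75_ringA K x) :
      Polynomial K →+* h75_ringA K x)
    (Polynomial.algEquivOfTranscendental K x hx).surjective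

theorem h75_ringB_isDedekindDomain {x : F} (hx : h75_IsChart K x) :
    IsDedekindDomain (h75_ringB K x) := by
  have := h75_ringA_isPrincipalIdealRing hx.tr
  have := hx.fin
  have := hx.sep
  exact IsIntegralClosure.isDedekindDomain (h75_ringA K x) K⟮x⟯ F (h75_ringB K x)

theorem h75_ringB_isFractionRing {x : F} (hx : h75_IsChart K x) :
    IsFractionRing (h75_ringB K x) F := by
  have := h75_ringA_isPrincipalIdealRing hx.tr
  have := hx.fin
  have := hx.sep
  exact IsIntegralClosure.isFractionRing_of_finite_extension (h75_ringA K x) K⟮x⟯ F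
    (h75_ringB K x)

theorem h75_ringB_finite {x : F} (hx : h75_IsChart K x) :
    Module.Finite (h75_ringA K x) (h75_ringB K x) := by
  have := h75_ringA_isPrincipalIdealRing hx.tr
  have := hx.fin
  have := hx.sep
  exact IsIntegralClosure.finite (h75_ringA K x) K⟮x⟯ F (h75_ringB K x)

theorem h75_ringB_finrank {x : F} (hx : h75_IsChart K x) :
    Module.finrank K⟮x⟯ F = Module.finrank (h75_ringA K x) (h75_ringB K x) := by
  have := h75_ringA_isPrincipalIdealRing hx.tr
  have := hx.fin
  have := hx.sep
  have := h75_ringB_isFractionRing hx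
  exact IsFractionRing.finrank_eq (h75_ringA K x) K⟮x⟯ (h75_ringB K x) F

theorem h75_ringB_free {x : F} (hx : h75_IsChart K x) :
    Module.Free (h75_ringA K x) (h75_ringB K x) := by
  have := h75_ringA_isPrincipalIdealRing hx.tr
  have := h75_ringB_finite hx
  infer_instance

theorem h75_mem_ringB_iff {x f : F} : f ∈ h75_ringB K x ↔ IsIntegral (h75_ringA K x) f :=
  Iff.rfl

/-- `K[x]` lies in the valuation ring of every place of the chart. -/
theorem h75_ringA_le {x : F} (P : Place K F) (hP : x ∈ P.toValuationSubring) :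
    ∀ y ∈ h75_ringA K x, y ∈ P.toValuationSubring := by
  have hle : h75_ringA K x ≤ h24_placeSubalgebra P :=
    Algebra.adjoin_le (by
      intro y hy
      rw [Set.mem_singleton_iff] at hy
      rw [hy]
      exact hP)
  exact fun y hy => hle hy

/-- `B` lies in the valuation ring of every place of the chart. -/
theorem h75_ringB_le {x : F} (P : Place K F) (hP : x ∈ P.toValuationSubring)
    (b : h75_ringB K x) : (b : F) ∈ P.toValuationSubring :=
  h24_integral_mem P (h75_ringA K x) (h75_ringA_le P hP) _ b.2

/-- The dictionary: a place of the chart is a prime of `B`. -/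
theorem h75_exists_heightOneSpectrum {x : F} [IsDedekindDomain (h75_ringB K x)]
    [IsFractionRing (h75_ringB K x) F] (P : Place K F) (hP : x ∈ P.toValuationSubring) :
    ∃ w : HeightOneSpectrum (h75_ringB K x),
      P = Place.ofHeightOneSpectrum (K := K) (F := F) w :=
  h24_exists_heightOneSpectrum (K := K) (F := F) (R := h75_ringB K x) P
    (fun b => h75_ringB_le P hP b)

/-- The dictionary, converse: the place of a prime of `B` is a place of the chart. -/
theorem h75_mem_ofHeightOneSpectrum {x : F} [IsDedekindDomain (h75_ringB K x)]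
    [IsFractionRing (h75_ringB K x) F] (w : HeightOneSpectrum (h75_ringB K x))
    (b : h75_ringB K x) :
    (b : F) ∈ (Place.ofHeightOneSpectrum (K := K) (F := F) w).toValuationSubring := by
  rw [Place.ofHeightOneSpectrum_toValuationSubring]
  exact (Valuation.mem_valuationSubring_iff _ _).mpr (w.valuation_le_one b)

theorem h75_self_mem_ringB (x : F) : x ∈ h75_ringB K x :=
  (h75_mem_ringB_iff).mpr (isIntegral_algebraMap (R := h75_ringA K x) (x := h75_genA K x))

theorem h75_self_mem_ofHeightOneSpectrum {x : F} [IsDedekindDomain (h75_ringB K x)]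
    [IsFractionRing (h75_ringB K x) F] (w : HeightOneSpectrum (h75_ringB K x)) :
    x ∈ (Place.ofHeightOneSpectrum (K := K) (F := F) w).toValuationSubring :=
  h75_mem_ofHeightOneSpectrum w ⟨x, h75_self_mem_ringB x⟩

section B1

variable [IsAlgClosed K]

omit [IsAlgClosed K] in
/-- the chart of `x⁻¹`. -/
theorem h75_isChart_inv {x : F} (hx : h75_IsChart K x) : h75_IsChart K x⁻¹ := by
  have hK : K⟮x⁻¹⟯ = K⟮x⟯ := h24_adjoin_inv_eq x
  refine ⟨h35_transcendental_inv hx.tr, ?_, ?_⟩
  · rw [hK]
    exact hx.fin
  · rw [hK]
    exact hx.sep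

omit [IsAlgClosed K] in
/-- integrality over `K[x]` is regularity at all places of the chart. -/
theorem h75_isIntegral_iff {x : F} (hx : h75_IsChart K x) (f : F) :
    IsIntegral (Algebra.adjoin K {x}) f ↔
      ∀ P : Place K F, x ∈ P.toValuationSubring → f ∈ P.toValuationSubring := by
  constructor
  · intro hf P hP
    exact h24_integral_mem P (h75_ringA K x) (h75_ringA_le P hP) f hf
  · intro h
    have := h75_ringB_isDedekindDomain hx
    have := h75_ringB_isFractionRing hx
    have hval : ∀ w : HeightOneSpectrum (h75_ringB K x), w.valuation F f ≤ 1 := by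
      intro w
      have h1 := h (Place.ofHeightOneSpectrum (K := K) (F := F) w)
        (h75_self_mem_ofHeightOneSpectrum w)
      rw [Place.ofHeightOneSpectrum_toValuationSubring] at h1
      exact (Valuation.mem_valuationSubring_iff _ _).mp h1
    obtain ⟨b, hb⟩ := HeightOneSpectrum.mem_integers_of_valuation_le_one (K := F) f hval
    rw [← hb]
    exact b.2

theorem h75_exists_value {x : F} (hx : h75_IsChart K x) (P : Place K F)
    (hP : x ∈ P.toValuationSubring) : ∃ a : K, 0 < P.ord (x - algebraMap K F a) := by
  have := hx.fin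
  exact h35_exists_value_of_transcendental P hx.tr hP

/-- The fibre of a chart function over a point of the line, with the fundamental identity. -/
theorem h75_fibre_main {x : F} (hx : h75_IsChart K x) (a : K) :
    ∃ s : Finset (Place K F),
      (∀ P : Place K F, P ∈ s ↔ 0 < P.ord (x - algebraMap K F a)) ∧
      ∑ P ∈ s, P.ord (x - algebraMap K F a) = (Module.finrank K⟮x⟯ F : ℤ) := by
  classical
  let e : Polynomial K ≃ₐ[K] h75_ringA K x := Polynomial.algEquivOfTranscendental K x hx.tr
  have := h75_ringA_isPrincipalIdealRing hx.tr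
  have := h75_ringB_isDedekindDomain hx
  have := h75_ringB_isFractionRing hx
  have := h75_ringB_finite hx
  let x₀ : h75_ringA K x := h75_genA K x - algebraMap K (h75_ringA K x) a
  have heC : ∀ c : K, e (Polynomial.C c) = algebraMap K (h75_ringA K x) c := fun c => e.commutes c
  have hex : e (Polynomial.X - Polynomial.C a) = x₀ := by
    rw [map_sub, heC]
    exact congrArg (· - algebraMap K (h75_ringA K x) a)
      (Polynomial.algEquivOfTranscendental_apply_X K x hx.tr)
  have hx₀ : x₀ ≠ 0 := by
    rw [← hex]
    exact (map_ne_zero_iff e e.injective).mpr (Polynomial.X_sub_C_ne_zero a)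
  have hres : Function.Surjective
      (algebraMap K (h75_ringA K x ⧸ (Ideal.span {x₀} : Ideal (h75_ringA K x)))) := by
    intro y
    obtain ⟨y, rfl⟩ := Ideal.Quotient.mk_surjective y
    obtain ⟨P, rfl⟩ := e.surjective y
    refine ⟨P.eval a, ?_⟩
    change Ideal.Quotient.mk _ (algebraMap K (h75_ringA K x) (P.eval a)) =
      Ideal.Quotient.mk _ (e P)
    rw [Ideal.Quotient.eq, Ideal.mem_span_singleton']
    obtain ⟨Q, hQ⟩ := Polynomial.X_sub_C_dvd_sub_C_eval (a := a) (p := P)
    refine ⟨-e Q, ?_⟩
    have h2 : e (P - Polynomial.C (P.eval a)) = e (Polynomial.X - Polynomial.C a) * e Q := by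
      rw [hQ, map_mul]
    rw [hex, map_sub] at h2
    rw [heC] at h2
    rw [neg_mul, mul_comm, ← h2]
    ring
  have hmax : (Ideal.span {x₀} : Ideal (h75_ringA K x)).IsMaximal := by
    have hnt : (Ideal.span {x₀} : Ideal (h75_ringA K x)) ≠ ⊤ := by
      rw [Ne, Ideal.eq_top_iff_one, Ideal.mem_span_singleton']
      rintro ⟨y, hy⟩
      obtain ⟨Q, rfl⟩ := e.surjective y
      rw [← hex, ← map_mul] at hy
      have h1 : Q * (Polynomial.X - Polynomial.C a) = 1 := e.injective (by rw [hy, map_one])
      have := congrArg (Polynomial.eval a) h1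
      simp at this
    have : Nontrivial (h75_ringA K x ⧸ (Ideal.span {x₀} : Ideal (h75_ringA K x))) :=
      Ideal.Quotient.nontrivial_iff.mpr hnt
    exact Ideal.Quotient.maximal_of_isField _ (MulEquiv.isField (Field.toIsField K)
      (RingEquiv.ofBijective
        (algebraMap K (h75_ringA K x ⧸ (Ideal.span {x₀} : Ideal (h75_ringA K x))))
        ⟨(algebraMap K _).injective, hres⟩).symm.toMulEquiv)
  obtain ⟨s, hs, hsum⟩ := h24_fibre_abstract (K := K) (F := F) (A := h75_ringA K x)
    (B := h75_ringB K x) x₀ hx₀ hmax hres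
  refine ⟨s, ?_, ?_⟩
  · intro v
    rw [hs]
    constructor
    · rintro ⟨_, h⟩
      exact h
    · intro h
      refine ⟨?_, h⟩
      have hmem : x - algebraMap K F a ∈ v.toValuationSubring := h24_mem_of_ord_nonneg v h.le
      have ht_mem : x ∈ v.toValuationSubring := by
        have := add_mem hmem (v.algebraMap_mem' a)
        simpa using this
      intro b
      exact h75_ringB_le v ht_mem b
  · rw [h75_ringB_finrank hx]
    exact hsum

theorem h75_fibre_finite {x : F} (hx : h75_IsChart K x) (a : K) :
    {P : Place K F | 0 < P.ord (x - algebraMap K F a)}.Finite := by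
  obtain ⟨s, hs, -⟩ := h75_fibre_main hx a
  exact s.finite_toSet.subset fun v hv => (hs v).mpr hv

theorem h75_fibre_sum {x : F} (hx : h75_IsChart K x) (a : K) (s : Finset (Place K F))
    (hs : ∀ P : Place K F, P ∈ s ↔ 0 < P.ord (x - algebraMap K F a)) :
    ∑ P ∈ s, P.ord (x - algebraMap K F a) = (Module.finrank K⟮x⟯ F : ℤ) := by
  obtain ⟨s', hs', hsum⟩ := h75_fibre_main hx a
  have : s = s' := by
    ext v
    rw [hs, hs']
  rw [this]
  exact hsum

theorem h75_deg_eq_one {x : F} (hx : h75_IsChart K x) (P : Place K F) : P.deg = 1 := by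
  have := hx.fin
  exact h35_deg_eq_one hx.tr P

omit [IsAlgClosed K] in
/-- On the chart of `x`, a nonzero function has finitely many zeros and poles. -/
theorem h75_finite_ord_ne_chart {x : F} (hx : h75_IsChart K x) (f : F) (hf : f ≠ 0) :
    {P : Place K F | x ∈ P.toValuationSubring ∧ P.ord f ≠ 0}.Finite := by
  classical
  have := h75_ringB_isDedekindDomain hx
  have := h75_ringB_isFractionRing hx
  obtain ⟨b, c, hc, rfl⟩ := IsFractionRing.div_surjective (A := h75_ringB K x) f
  have hc0 : c ≠ 0 := nonZeroDivisors.ne_zero hc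
  have hcF : algebraMap (h75_ringB K x) F c ≠ 0 :=
    (map_ne_zero_iff _ (IsFractionRing.injective (h75_ringB K x) F)).mpr hc0
  have hb0 : b ≠ 0 := by
    rintro rfl
    simp at hf
  have hfinset : ∀ y : h75_ringB K x, y ≠ 0 →
      {w : HeightOneSpectrum (h75_ringB K x) | y ∈ w.asIdeal}.Finite := by
    intro y hy
    have h1 := Ideal.finite_factors (R := h75_ringB K x) (I := Ideal.span {y})
      (by rw [Ne, Ideal.zero_eq_bot, Ideal.span_singleton_eq_bot]; exact hy)
    refine h1.subset fun w hw => ?_
    exact Ideal.dvd_span_singleton.mpr hw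
  have hfin := ((hfinset b hb0).union (hfinset c hc0)).image
    (Place.ofHeightOneSpectrum (K := K) (F := F))
  refine hfin.subset ?_
  rintro P ⟨hPx, hPf⟩
  obtain ⟨w, rfl⟩ := h75_exists_heightOneSpectrum P hPx
  refine ⟨w, ?_, rfl⟩
  by_contra hcon
  rw [Set.mem_union, not_or] at hcon
  obtain ⟨hbw, hcw⟩ := hcon
  have hvb : w.valuation F (algebraMap (h75_ringB K x) F b) = 1 := by
    refine le_antisymm (w.valuation_le_one b) (not_lt.mp fun hlt => hbw ?_)
    exact (w.valuation_lt_one_iff_mem b).mp hlt
  have hvc : w.valuation F (algebraMap (h75_ringB K x) F c) = 1 := by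
    refine le_antisymm (w.valuation_le_one c) (not_lt.mp fun hlt => hcw ?_)
    exact (w.valuation_lt_one_iff_mem c).mp hlt
  apply hPf
  rw [h24_ofHeightOneSpectrum_ord, map_div₀, hvb, hvc, div_one, log_one, neg_zero]

omit [IsAlgClosed K] in
/-- a nonzero function has finitely many zeros and poles. -/
theorem h75_finite_ord_ne {x : F} (hx : h75_IsChart K x) (f : F) (hf : f ≠ 0) :
    {P : Place K F | P.ord f ≠ 0}.Finite := by
  refine ((h75_finite_ord_ne_chart hx f hf).union
    (h75_finite_ord_ne_chart (h75_isChart_inv hx) f hf)).subset ?_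
  intro P hP
  rcases P.toValuationSubring.mem_or_inv_mem x with h | h
  · exact Or.inl ⟨h, hP⟩
  · exact Or.inr ⟨h, hP⟩

/-- the residue field of every place is `K`. -/
theorem h75_exists_const {x : F} (hx : h75_IsChart K x) (P : Place K F) (f : F)
    (hf : f ∈ P.toValuationSubring) :
    ∃ a : K, f = algebraMap K F a ∨ 0 < P.ord (f - algebraMap K F a) := by
  have := hx.fin
  exact h35_exists_value hx.tr P hf

end B1

end Fermat.Agent.S18
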