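import Fermat.Agent.S18.Defs

/-!
# S18 / [GR] part 2: definitions (owner helper39)

Predicates for the construction of the reduction map on places.
-/

set_option autoImplicit false

noncomputable section

open AlgebraicCurve

namespace Fermat.Agent.S18

variable {K F k Fb : Type*} [Field K] [Field F] [Algebra K F] [Field k] [Field Fb] [Algebra k Fb]

/-- `f` is regular on the chart `t`: at all places where `t` is finite. -/
def h39_Reg (K : Type*) {F : Type*} [Field K] [Field F] [Algebra K F] (t f : F) : Prop :=
  ∀ P : Place K F, t ∈ P.toValuationSubring → f ∈ P.toValuationSubring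

/-- The value of `f` at the place `P` is the constant `b`. -/
def h39_Val (P : Place K F) (f : F) (b : K) : Prop :=
  f = algebraMap K F b ∨ 0 < P.ord (f - algebraMap K F b)

/-- `P` lies in the closed unit disc of the chart `t`: the value `t(P)` exists and lies in
`A`. -/
def h39_InDisc (R : h39_RedDatum K F k Fb) (t : F) (P : Place K F) : Prop :=
  ∃ a : K, a ∈ R.A ∧ h39_Val P t a

/-- `r` is a reduction map on the unit disc of the chart `t`: for `P` in the disc, `r P` lies
on the chart `t̄`, and `f̄ (r P) = res (f (P))` for every `f ∈ O` regular on the chart `t`. -/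
def h39_IsChartRed (R : h39_RedDatum K F k Fb) (t : F) (r : Place K F → Place k Fb) : Prop :=
  ∀ P : Place K F, h39_InDisc R t P →
    R.redF t ∈ (r P).toValuationSubring ∧
    ∀ f : F, f ∈ R.O → h39_Reg K t f → ∀ b : K, h39_Val P f b →
      h39_Val (r P) (R.redF f) (R.resK b)

/-- The ring of functions regular on the chart `t`. -/
def h39_chartRing (K : Type*) {F : Type*} [Field K] [Field F] [Algebra K F] (t : F) :
    Subalgebra K F where
  carrier := {f | h39_Reg K t f}
  mul_mem' := fun hf hg P hP => P.toValuationSubring.mul_mem _ _ (hf P hP) (hg P hP)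
  one_mem' := fun P _ => P.toValuationSubring.one_mem
  add_mem' := fun hf hg P hP => P.toValuationSubring.add_mem _ _ (hf P hP) (hg P hP)
  zero_mem' := fun P _ => P.toValuationSubring.zero_mem
  algebraMap_mem' := fun a P _ => P.algebraMap_mem' a

theorem h39_mem_chartRing {t f : F} : f ∈ h39_chartRing K t ↔ h39_Reg K t f := Iff.rfl

end Fermat.Agent.S18

end
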