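import Mathlib

/-!
# S18 / RR-A interface: Fredholm triples and frames (definitions)

Abstract linear algebra for the two-chart Riemann–Roch layer.  `V` is a `K`-vector space
(in the application: the function field `F`), `T : V ≃ₗ[K] V` (multiplication by the chart
function `x`).  A *triple* is `(M, L, W)` with `M ⊔ L ≤ W` (`M` = sections on the chart
`x ≠ ∞`, `L` = sections on the chart `x ≠ 0`, `W` = sections on the overlap), and
`h⁰ = dim (M ⊓ L)`, `h¹ = dim W / (M ⊔ L)`.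
-/

set_option autoImplicit false

namespace Fermat.Agent.S18

open Module

section Fredholm

variable {K V : Type*} [Field K] [AddCommGroup V] [Module K V]

/-- Relative dimension `dim Q / (P ⊓ Q)` (the dimension of the image of `Q` in `V ⧸ P`). -/
noncomputable def h75_relDim (P Q : Submodule K V) : ℕ :=
  Module.finrank K (Q.map P.mkQ)

/-- `Q / (P ⊓ Q)` is finite-dimensional. -/
def h75_RelFin (P Q : Submodule K V) : Prop :=
  FiniteDimensional K (Q.map P.mkQ)

/-- `(M, L, W)` is a Fredholm triple: `M, L ≤ W`, `M ⊓ L` and `W / (M ⊔ L)` finite-dimensional. -/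
def h75_IsFred (M L W : Submodule K V) : Prop :=
  M ≤ W ∧ L ≤ W ∧ FiniteDimensional K ↥(M ⊓ L) ∧ h75_RelFin (M ⊔ L) W

/-- The Euler characteristic `h⁰ - h¹` of a triple. -/
noncomputable def h75_chi (M L W : Submodule K V) : ℤ :=
  (Module.finrank K ↥(M ⊓ L) : ℤ) - (h75_relDim (M ⊔ L) W : ℤ)

end Fredholm

section Frame

variable {K V : Type*} [Field K] [AddCommGroup V] [Module K V]

/-- `Mstd a = span {T^s e_j : s ≥ a}`. -/
def h75_Mstd (T : V ≃ₗ[K] V) {n : ℕ} (e : Fin n → V) (a : ℤ) : Submodule K V :=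
  Submodule.span K {v | ∃ (j : Fin n) (s : ℤ), a ≤ s ∧ v = (T ^ s) (e j)}

/-- `Lstd a = span {T^s e_j : s ≤ a}`. -/
def h75_Lstd (T : V ≃ₗ[K] V) {n : ℕ} (e : Fin n → V) (a : ℤ) : Submodule K V :=
  Submodule.span K {v | ∃ (j : Fin n) (s : ℤ), s ≤ a ∧ v = (T ^ s) (e j)}

/-- `Wstd = span {T^s e_j : s ∈ ℤ}`. -/
def h75_Wstd (T : V ≃ₗ[K] V) {n : ℕ} (e : Fin n → V) : Submodule K V :=
  Submodule.span K {v | ∃ (j : Fin n) (s : ℤ), v = (T ^ s) (e j)}

/-- `e` is a frame for `T`: the vectors `T^s e_j` (`s : ℤ`) are linearly independent. -/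
def h75_IsFrame (T : V ≃ₗ[K] V) {n : ℕ} (e : Fin n → V) : Prop :=
  LinearIndependent K (fun p : Fin n × ℤ => (T ^ p.2) (e p.1))

/-- `M` is commensurable with the standard `M`-lattice of the frame. -/
def h75_IsSandM (T : V ≃ₗ[K] V) {n : ℕ} (e : Fin n → V) (M : Submodule K V) : Prop :=
  ∃ a : ℤ, h75_Mstd T e a ≤ M ∧ M ≤ h75_Mstd T e (-a)

/-- `L` is commensurable with the standard `L`-lattice of the frame. -/
def h75_IsSandL (T : V ≃ₗ[K] V) {n : ℕ} (e : Fin n → V) (L : Submodule K V) : Prop :=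
  ∃ a : ℤ, h75_Lstd T e (-a) ≤ L ∧ L ≤ h75_Lstd T e a

/-- The annihilator of `M` inside `W'` with respect to a pairing `B : V' × V → K`. -/
def h75_perp {V' : Type*} [AddCommGroup V'] [Module K V'] (B : V' →ₗ[K] V →ₗ[K] K)
    (W' : Submodule K V') (M : Submodule K V) : Submodule K V' where
  carrier := {w | w ∈ W' ∧ ∀ m ∈ M, B w m = 0}
  zero_mem' := ⟨W'.zero_mem, fun m _ => by simp⟩
  add_mem' := by
    rintro a b ⟨ha, ha'⟩ ⟨hb, hb'⟩
    exact ⟨W'.add_mem ha hb, fun m hm => by simp [ha' m hm, hb' m hm]⟩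
  smul_mem' := by
    rintro c a ⟨ha, ha'⟩
    exact ⟨W'.smul_mem c ha, fun m hm => by simp [ha' m hm]⟩

end Frame

end Fermat.Agent.S18
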