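import Mathlib
import Fermat.Prelude.Def_AlgebraicCurve_Repartitions
import Fermat.Agent.S18.h75_TateDefs

/-!
# S18 / RR-B: the function-field Riemann–Roch layer in prelude language (definitions)

`K` a field, `F / K` a function field, `x : F` a *chart* (`x` transcendental, `F / K(x)` finite
separable).  The two charts are `x ≠ ∞` and `x ≠ 0` (i.e. the chart of `t = x⁻¹`).

* `h75_chart t D` : `M_t(D) = {f | ord_P f ≥ -D(P) for all places P with t ∈ O_P}`;
* `h75_overlap t D` : the same over the places with `t, t⁻¹ ∈ O_P`;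
* `riemannRochSpace D = h75_chart x D ⊓ h75_chart x⁻¹ D`, `H¹(D) = overlap / (chart ⊔ chart')`;
* `h75_chiD x D = h⁰(D) - h¹(D)`, `h75_genus K x = h¹(0)`;
* `h75_Omega x D` : `{w | Tr(w M_x(D)) ⊆ K[x], Tr(w M_{1/x}(D)) ⊆ x⁻² K[x⁻¹]}` (the differentials
  `w dx` with divisor `≥ D`).
-/

set_option autoImplicit false

open AlgebraicCurve IntermediateField

namespace Fermat.Agent.S18

section Defs

variable {K F : Type*} [Field K] [Field F] [Algebra K F]

/-- `M_t(D)`: functions whose divisor is `≥ -D` on the chart `t ≠ ∞`. -/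
def h75_chart (t : F) (D : Divisor K F) : Submodule K F where
  carrier := {f | ∀ P : Place K F, t ∈ P.toValuationSubring →
    P.adicValuation f ≤ WithZero.exp (D P)}
  zero_mem' := by
    intro P _
    simp
  add_mem' := by
    intro f g hf hg P hP
    exact (Valuation.map_add _ _ _).trans (max_le (hf P hP) (hg P hP))
  smul_mem' := by
    intro c f hf P hP
    show P.adicValuation (c • f) ≤ WithZero.exp (D P)
    rw [Algebra.smul_def, map_mul]
    exact (mul_le_of_le_one_left' (P.adicValuation_algebraMap_le_one c)).trans (hf P hP)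

/-- The sections on the overlap of the two charts of `t`. -/
def h75_overlap (t : F) (D : Divisor K F) : Submodule K F where
  carrier := {f | ∀ P : Place K F, t ∈ P.toValuationSubring → t⁻¹ ∈ P.toValuationSubring →
    P.adicValuation f ≤ WithZero.exp (D P)}
  zero_mem' := by
    intro P _ _
    simp
  add_mem' := by
    intro f g hf hg P hP hP'
    exact (Valuation.map_add _ _ _).trans (max_le (hf P hP hP') (hg P hP hP'))
  smul_mem' := by
    intro c f hf P hP hP'
    show P.adicValuation (c • f) ≤ WithZero.exp (D P)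
    rw [Algebra.smul_def, map_mul]
    exact (mul_le_of_le_one_left' (P.adicValuation_algebraMap_le_one c)).trans (hf P hP hP')

theorem h75_mem_chart_iff {t : F} {D : Divisor K F} {f : F} :
    f ∈ h75_chart t D ↔ ∀ P : Place K F, t ∈ P.toValuationSubring → f = 0 ∨ -D P ≤ P.ord f := by
  show (∀ P : Place K F, t ∈ P.toValuationSubring →
    P.adicValuation f ≤ WithZero.exp (D P)) ↔ _
  exact forall_congr' fun P => imp_congr_right fun _ => P.adicValuation_le_exp_iff

theorem h75_mem_overlap_iff {t : F} {D : Divisor K F} {f : F} :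
    f ∈ h75_overlap t D ↔ ∀ P : Place K F, t ∈ P.toValuationSubring →
      t⁻¹ ∈ P.toValuationSubring → f = 0 ∨ -D P ≤ P.ord f := by
  show (∀ P : Place K F, t ∈ P.toValuationSubring → t⁻¹ ∈ P.toValuationSubring →
    P.adicValuation f ≤ WithZero.exp (D P)) ↔ _
  exact forall_congr' fun P => imp_congr_right fun _ => imp_congr_right fun _ =>
    P.adicValuation_le_exp_iff

theorem h75_chart_le_overlap (t : F) (D : Divisor K F) : h75_chart t D ≤ h75_overlap t D :=
  fun _ hf P hP _ => hf P hP

theorem h75_chart_inv_le_overlap (t : F) (D : Divisor K F) :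
    h75_chart t⁻¹ D ≤ h75_overlap t D :=
  fun _ hf P _ hP' => hf P hP'

/-- Multiplication by `x ≠ 0` as a `K`-linear automorphism of `F`. -/
def h75_mulEquiv (K : Type*) {F : Type*} [Field K] [Field F] [Algebra K F] (x : F)
    (hx : x ≠ 0) : F ≃ₗ[K] F :=
  LinearEquiv.ofLinearMap (LinearMap.mulLeft K x) (LinearMap.mulLeft K x⁻¹)
    (by ext y; simp [hx]) (by ext y; simp [hx])

@[simp]
theorem h75_mulEquiv_apply (x : F) (hx : x ≠ 0) (y : F) : h75_mulEquiv K x hx y = x * y := rfl

/-- `x` is a chart: transcendental over `K` with `F / K(x)` finite separable. -/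
structure h75_IsChart (K : Type*) {F : Type*} [Field K] [Field F] [Algebra K F] (x : F) :
    Prop where
  tr : Transcendental K x
  fin : FiniteDimensional K⟮x⟯ F
  sep : Algebra.IsSeparable K⟮x⟯ F

theorem h75_IsChart.ne_zero {x : F} (hx : h75_IsChart K x) : x ≠ 0 := by
  rintro rfl
  exact hx.tr isAlgebraic_zero

/-- The Euler characteristic `h⁰(D) - h¹(D)` computed in the two charts of `x`. -/
noncomputable def h75_chiD (x : F) (D : Divisor K F) : ℤ :=
  h75_chi (h75_chart x D) (h75_chart x⁻¹ D) (h75_overlap x D)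

/-- The genus `h¹(0)` computed in the two charts of `x`. -/
noncomputable def h75_genus (K : Type*) {F : Type*} [Field K] [Field F] [Algebra K F] (x : F) :
    ℕ :=
  h75_relDim (h75_chart x (0 : Divisor K F) ⊔ h75_chart x⁻¹ (0 : Divisor K F))
    (h75_overlap x (0 : Divisor K F))

/-- The polynomial ring `K[x]` inside `K(x)`. -/
def h75_poly (K : Type*) {F : Type*} [Field K] [Field F] [Algebra K F] (x : F) :
    Subalgebra K K⟮x⟯ :=
  Algebra.adjoin K {AdjoinSimple.gen K x}

/-- The polynomial ring `K[x⁻¹]` inside `K(x)`. -/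
def h75_polyInv (K : Type*) {F : Type*} [Field K] [Field F] [Algebra K F] (x : F) :
    Subalgebra K K⟮x⟯ :=
  Algebra.adjoin K {(AdjoinSimple.gen K x)⁻¹}

/-- `Ω(x, D)`: the `w` with `Tr(w M_x(D)) ⊆ K[x]` and `Tr(w M_{1/x}(D)) ⊆ x⁻² K[x⁻¹]`
(the differentials `w dx` with divisor `≥ D`). -/
def h75_Omega (x : F) (D : Divisor K F) : Submodule K F where
  carrier := {w | (∀ m ∈ h75_chart x D, Algebra.trace K⟮x⟯ F (w * m) ∈ h75_poly K x) ∧
    (∀ l ∈ h75_chart x⁻¹ D,
      AdjoinSimple.gen K x ^ 2 * Algebra.trace K⟮x⟯ F (w * l) ∈ h75_polyInv K x)}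
  zero_mem' := by
    refine ⟨fun m _ => ?_, fun l _ => ?_⟩
    · simp
    · simp
  add_mem' := by
    rintro a b ⟨ha, ha'⟩ ⟨hb, hb'⟩
    refine ⟨fun m hm => ?_, fun l hl => ?_⟩
    · rw [add_mul, map_add]
      exact add_mem (ha m hm) (hb m hm)
    · rw [add_mul, map_add, mul_add]
      exact add_mem (ha' l hl) (hb' l hl)
  smul_mem' := by
    rintro c a ⟨ha, ha'⟩
    refine ⟨fun m hm => ?_, fun l hl => ?_⟩
    · rw [smul_mul_assoc, ← IsScalarTower.algebraMap_smul K⟮x⟯ c (a * m), map_smul, smul_eq_mul]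
      exact mul_mem (Subalgebra.algebraMap_mem _ c) (ha m hm)
    · rw [smul_mul_assoc, ← IsScalarTower.algebraMap_smul K⟮x⟯ c (a * l), map_smul, smul_eq_mul,
        mul_left_comm]
      exact mul_mem (Subalgebra.algebraMap_mem _ c) (ha' l hl)

end Defs

end Fermat.Agent.S18
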