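import Fermat.Agent.S18.Defs
import Fermat.Agent.S18.h75_RRDefs
import Fermat.Agent.S18.h39_GRDefs
import Fermat.Agent.S18.RR_Chart
import Fermat.Agent.S18.RR_Approx

/-!
# S18 / [GR] GR5a : values at places, `K`-points of the chart ring, separation, uniformizers

Generic (no reduction, any characteristic).  `x : F` a chart (`h75_IsChart K x`).

* calculus of `h39_Val P f b` ("the value of `f` at `P` is `b`");
* `h39_exists_place_of_algHom`: `K`-points of the chart ring are the places of the chart;
* `h39_place_eq_of_val`, `h39_exists_separating`, `h39_exists_uniformizer`.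
-/

set_option autoImplicit false

noncomputable section

open AlgebraicCurve IntermediateField IsDedekindDomain WithZero
open Fermat.Agent.S24

namespace Fermat.Agent.S18

open scoped IntermediateField.algebraAdjoinAdjoin

variable {K F : Type*} [Field K] [Field F] [Algebra K F]

/-! ### The calculus of values -/

theorem h39_val_mem (P : Place K F) {f : F} {b : K} (hf : h39_Val P f b) :
    f ∈ P.toValuationSubring := by
  rcases hf with h | h
  · rw [h]
    exact P.algebraMap_mem' b
  · have h1 : f - algebraMap K F b ∈ P.toValuationSubring := h24_mem_of_ord_nonneg P h.le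
    have h2 := P.toValuationSubring.add_mem _ _ h1 (P.algebraMap_mem' b)
    rwa [sub_add_cancel] at h2

/-- Values in terms of the residue map of the place. -/
theorem h64_val_iff_residue (P : Place K F) {f : F} (hf : f ∈ P.toValuationSubring) (b : K) :
    h39_Val P f b ↔
      IsLocalRing.residue P.toValuationSubring ⟨f, hf⟩ = algebraMap K P.ResidueField b := by
  have hb : algebraMap K P.ResidueField b
      = IsLocalRing.residue P.toValuationSubring (algebraMap K P.toValuationSubring b) := rfl
  rw [hb, ← sub_eq_zero, ← map_sub]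
  constructor
  · rintro (h | h)
    · have : (⟨f, hf⟩ : P.toValuationSubring) - algebraMap K P.toValuationSubring b = 0 := by
        apply Subtype.ext
        show f - algebraMap K F b = 0
        rw [h, sub_self]
      rw [this, map_zero]
    · exact h35_residue_eq_zero_of_ord_pos P _ h
  · intro h
    by_cases h0 : f = algebraMap K F b
    · exact Or.inl h0
    · exact Or.inr (h35_ord_pos_of_residue_eq_zero P
        ((⟨f, hf⟩ : P.toValuationSubring) - algebraMap K P.toValuationSubring b)
        (sub_ne_zero.mpr h0) h)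

theorem h39_val_unique (P : Place K F) {f : F} {b b' : K} (h : h39_Val P f b)
    (h' : h39_Val P f b') : b = b' := by
  have hf := h39_val_mem P h
  rw [h64_val_iff_residue P hf] at h h'
  exact (algebraMap K P.ResidueField).injective (h.symm.trans h')

theorem h39_val_algebraMap (P : Place K F) (a : K) : h39_Val P (algebraMap K F a) a :=
  Or.inl rfl

theorem h39_val_add (P : Place K F) {f g : F} {b c : K} (hf : h39_Val P f b)
    (hg : h39_Val P g c) : h39_Val P (f + g) (b + c) := by
  have hf' := h39_val_mem P hf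
  have hg' := h39_val_mem P hg
  rw [h64_val_iff_residue P hf'] at hf
  rw [h64_val_iff_residue P hg'] at hg
  rw [h64_val_iff_residue P (P.toValuationSubring.add_mem _ _ hf' hg'), map_add, ← hf, ← hg,
    ← map_add]
  rfl

theorem h39_val_mul (P : Place K F) {f g : F} {b c : K} (hf : h39_Val P f b)
    (hg : h39_Val P g c) : h39_Val P (f * g) (b * c) := by
  have hf' := h39_val_mem P hf
  have hg' := h39_val_mem P hg
  rw [h64_val_iff_residue P hf'] at hf
  rw [h64_val_iff_residue P hg'] at hg
  rw [h64_val_iff_residue P (P.toValuationSubring.mul_mem _ _ hf' hg'), map_mul, ← hf, ← hg,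
    ← map_mul]
  rfl

theorem h39_val_zero_iff (P : Place K F) {f : F} : h39_Val P f 0 ↔ f = 0 ∨ 0 < P.ord f := by
  unfold h39_Val
  rw [map_zero, sub_zero]

/-- a regular function with nonzero value is a unit at `P` -/
theorem h39_ord_eq_zero_of_val (P : Place K F) {f : F} {b : K} (hf : h39_Val P f b)
    (hb : b ≠ 0) : P.ord f = 0 := by
  have hf' := h39_val_mem P hf
  rw [h64_val_iff_residue P hf'] at hf
  have hne : IsLocalRing.residue P.toValuationSubring ⟨f, hf'⟩ ≠ 0 := by
    rw [hf]
    exact (map_ne_zero (algebraMap K P.ResidueField)).mpr hb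
  have hu : IsUnit (⟨f, hf'⟩ : P.toValuationSubring) := by
    by_contra hnu
    exact hne ((IsLocalRing.residue_eq_zero_iff _).mpr ((IsLocalRing.mem_maximalIdeal _).mpr hnu))
  have := P.ord_coe_unit hu.unit
  rwa [IsUnit.unit_spec] at this


/-! ### Dictionary helpers -/

/-- For an element of the chart ring `B`: membership in a prime is positivity of the order at
the corresponding place. -/
theorem h64_mem_prime_iff {x : F} [IsDedekindDomain (h75_ringB K x)]
    [IsFractionRing (h75_ringB K x) F] (w : HeightOneSpectrum (h75_ringB K x))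
    (b : h75_ringB K x) :
    b ∈ w.asIdeal ↔
      (b : F) = 0 ∨ 0 < (Place.ofHeightOneSpectrum (K := K) (F := F) w).ord (b : F) := by
  rw [← w.valuation_lt_one_iff_mem (K := F), h24_ofHeightOneSpectrum_ord (K := K) w (b : F)]
  show w.valuation F (Subtype.val b) < 1 ↔ Subtype.val b = 0 ∨
    0 < -(log (w.valuation F (Subtype.val b)))
  by_cases h0 : Subtype.val b = 0
  · simp [h0]
  · have hv : w.valuation F (Subtype.val b) ≠ 0 := (Valuation.ne_zero_iff _).mpr h0
    rw [← h35_log_neg_iff hv]
    constructor
    · intro h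
      exact Or.inr (by omega)
    · rintro (h | h)
      · exact absurd h h0
      · omega

theorem h64_reg_iff_mem_ringB {x : F} (hx : h75_IsChart K x) (f : F) :
    h39_Reg K x f ↔ f ∈ h75_ringB K x :=
  (h75_isIntegral_iff hx f).symm

section AlgClosed

variable [IsAlgClosed K]

theorem h39_exists_val {x : F} (hx : h75_IsChart K x) (P : Place K F) {f : F}
    (hf : f ∈ P.toValuationSubring) : ∃ b : K, h39_Val P f b :=
  h75_exists_const hx P f hf

omit [IsAlgClosed K] in
/-- `K`-points of the chart ring are the places of the chart. -/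
theorem h39_exists_place_of_algHom {x : F} (hx : h75_IsChart K x)
    (φ : h39_chartRing K x →ₐ[K] K) :
    ∃ P : Place K F, x ∈ P.toValuationSubring ∧
      ∀ f : h39_chartRing K x, h39_Val P (f : F) (φ f) := by
  have := h75_ringB_isDedekindDomain hx
  have := h75_ringB_isFractionRing hx
  have hmem : ∀ b : h75_ringB K x, (b : F) ∈ h39_chartRing K x :=
    fun b => (h64_reg_iff_mem_ringB hx _).mpr b.2
  let ι : h75_ringB K x →+* h39_chartRing K x :=
    { toFun := fun b => ⟨(b : F), hmem b⟩
      map_one' := rfl
      map_mul' := fun _ _ => rfl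
      map_zero' := rfl
      map_add' := fun _ _ => rfl }
  let ψ : h75_ringB K x →+* K := (φ : h39_chartRing K x →+* K).comp ι
  -- the key: `f - φ f` lies in the kernel
  have hker : ∀ f : h39_chartRing K x,
      ∀ hb : (f : F) - algebraMap K F (φ f) ∈ h75_ringB K x,
        (⟨(f : F) - algebraMap K F (φ f), hb⟩ : h75_ringB K x) ∈ RingHom.ker ψ := by
    intro f hb
    rw [RingHom.mem_ker]
    show φ (⟨(f : F) - algebraMap K F (φ f), _⟩ : h39_chartRing K x) = 0
    have h1 : (⟨(f : F) - algebraMap K F (φ f), hmem ⟨_, hb⟩⟩ : h39_chartRing K x)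
        = f - algebraMap K (h39_chartRing K x) (φ f) := Subtype.ext rfl
    rw [h1, map_sub, AlgHom.commutes]
    exact sub_self _
  have hsub : ∀ f : h39_chartRing K x, (f : F) - algebraMap K F (φ f) ∈ h75_ringB K x := by
    intro f
    refine (h64_reg_iff_mem_ringB hx _).mp ?_
    exact (h39_chartRing K x).sub_mem f.2 ((h39_chartRing K x).algebraMap_mem (φ f))
  have hprime : (RingHom.ker ψ).IsPrime := RingHom.ker_isPrime ψ
  have hne : RingHom.ker ψ ≠ ⊥ := by
    intro hbot
    let fx : h39_chartRing K x := ⟨x, (h64_reg_iff_mem_ringB hx x).mpr (h75_self_mem_ringB x)⟩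
    have h1 := hker fx (hsub fx)
    rw [hbot, Ideal.mem_bot] at h1
    have h2 : x - algebraMap K F (φ fx) = 0 := congrArg Subtype.val h1
    apply hx.tr
    rw [sub_eq_zero.mp h2]
    exact isAlgebraic_algebraMap _
  let w : HeightOneSpectrum (h75_ringB K x) := ⟨RingHom.ker ψ, hprime, hne⟩
  refine ⟨Place.ofHeightOneSpectrum (K := K) (F := F) w, h75_self_mem_ofHeightOneSpectrum w, ?_⟩
  intro f
  have h1 : (⟨(f : F) - algebraMap K F (φ f), hsub f⟩ : h75_ringB K x) ∈ w.asIdeal :=
    hker f (hsub f)
  rw [h64_mem_prime_iff] at h1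
  rcases h1 with h1 | h1
  · exact Or.inl (sub_eq_zero.mp h1)
  · exact Or.inr h1

omit [IsAlgClosed K] in
/-- two places of the chart with the same values on the chart ring are equal -/
theorem h39_place_eq_of_val {x : F} (hx : h75_IsChart K x) (P P' : Place K F)
    (hP : x ∈ P.toValuationSubring) (hP' : x ∈ P'.toValuationSubring)
    (h : ∀ f : F, h39_Reg K x f → ∀ b : K, h39_Val P f b → h39_Val P' f b) : P = P' := by
  have := h75_ringB_isDedekindDomain hx
  have := h75_ringB_isFractionRing hx
  obtain ⟨w, rfl⟩ := h75_exists_heightOneSpectrum P hP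
  obtain ⟨w', rfl⟩ := h75_exists_heightOneSpectrum P' hP'
  have hle : w.asIdeal ≤ w'.asIdeal := by
    intro b hb
    rw [h64_mem_prime_iff] at hb ⊢
    have h1 := h (b : F) ((h64_reg_iff_mem_ringB hx _).mpr b.2) 0
      ((h39_val_zero_iff _).mpr hb)
    exact (h39_val_zero_iff _).mp h1
  have heq : w.asIdeal = w'.asIdeal := w.isMaximal.eq_of_le w'.isPrime.ne_top hle
  have : w = w' := HeightOneSpectrum.ext heq
  rw [this]

omit [IsAlgClosed K] in
theorem h39_exists_separating {x : F} (hx : h75_IsChart K x) (Q Q' : Place K F)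
    (hQ : x ∈ Q.toValuationSubring) (hQ' : x ∈ Q'.toValuationSubring) (hne : Q ≠ Q') :
    ∃ h : F, h39_Reg K x h ∧ h39_Val Q h 1 ∧ h39_Val Q' h 0 := by
  have := h75_ringB_isDedekindDomain hx
  have := h75_ringB_isFractionRing hx
  obtain ⟨w, rfl⟩ := h75_exists_heightOneSpectrum Q hQ
  obtain ⟨w', rfl⟩ := h75_exists_heightOneSpectrum Q' hQ'
  have hww : w.asIdeal ≠ w'.asIdeal := by
    intro heq
    apply hne
    rw [HeightOneSpectrum.ext heq]
  have hsup : w.asIdeal ⊔ w'.asIdeal = ⊤ := w.isMaximal.coprime_of_ne w'.isMaximal hww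
  obtain ⟨u, hu, v, hv, huv⟩ := Submodule.mem_sup.mp
    (show (1 : h75_ringB K x) ∈ w.asIdeal ⊔ w'.asIdeal by rw [hsup]; exact Submodule.mem_top)
  refine ⟨(v : F), (h64_reg_iff_mem_ringB hx _).mpr v.2, ?_, ?_⟩
  · -- `v - 1 = -u ∈ w`
    have h1 : -u ∈ w.asIdeal := w.asIdeal.neg_mem hu
    rw [h64_mem_prime_iff] at h1
    have h2 : ((-u : h75_ringB K x) : F) = (v : F) - algebraMap K F 1 := by
      have h3 : ((u + v : h75_ringB K x) : F) = ((1 : h75_ringB K x) : F) := by rw [huv]
      have h4 : ((u + v : h75_ringB K x) : F) = (u : F) + (v : F) := rfl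
      have h5 : ((1 : h75_ringB K x) : F) = 1 := rfl
      have h6 : ((-u : h75_ringB K x) : F) = -(u : F) := rfl
      rw [h6, map_one]
      rw [h4, h5] at h3
      linear_combination -h3
    rw [h2] at h1
    rcases h1 with h1 | h1
    · exact Or.inl (sub_eq_zero.mp h1)
    · exact Or.inr h1
  · exact (h39_val_zero_iff _).mpr ((h64_mem_prime_iff w' v).mp hv)

/-- a function regular on the chart with a simple zero at `Q` and no other zero on the
fibre of `x` through `Q` -/
theorem h39_exists_uniformizer {x : F} (hx : h75_IsChart K x) (Q : Place K F) (b : K)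
    (hQ : h39_Val Q x b) :
    ∃ π : F, h39_Reg K x π ∧ Q.ord π = 1 ∧
      ∀ Q' : Place K F, Q' ≠ Q → h39_Val Q' x b → Q'.ord π = 0 := by
  classical
  have hxb : x ≠ algebraMap K F b := by
    intro h
    apply hx.tr
    rw [h]
    exact isAlgebraic_algebraMap _
  have hval : ∀ P : Place K F, h39_Val P x b ↔ 0 < P.ord (x - algebraMap K F b) := by
    intro P
    constructor
    · rintro (h | h)
      · exact absurd h hxb
      · exact h
    · exact fun h => Or.inr h
  let S : Finset (Place K F) := (h75_fibre_finite hx b).toFinset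
  have hS : ∀ P : Place K F, P ∈ S ↔ h39_Val P x b := by
    intro P
    rw [Set.Finite.mem_toFinset, hval]
    rfl
  obtain ⟨f, -, hf1, hf2⟩ := h75_exists_exact hx S
    (fun P hP => h39_val_mem P ((hS P).mp hP)) (fun P => if P = Q then 1 else 0)
  refine ⟨f, ?_, ?_, ?_⟩
  · intro P hP
    by_cases hPS : P ∈ S
    · apply h24_mem_of_ord_nonneg
      rw [hf1 P hPS]
      split_ifs <;> norm_num
    · exact h24_mem_of_ord_nonneg P (hf2 P hP hPS)
  · rw [hf1 Q ((hS Q).mpr hQ), if_pos rfl]
  · intro Q' hne hQ'
    rw [hf1 Q' ((hS Q').mpr hQ'), if_neg hne]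

end AlgClosed

end Fermat.Agent.S18
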