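import Mathlib
import Fermat.Prelude.Def_AlgebraicCurve_Repartitions

/-!
# S18 project: shared definitions (owner helper39)

Abstract "reduction datum" language for the good-reduction argument.  No q-expansions and no
number fields occur here; the modular layer instantiates `h39_RedDatum`.
-/

set_option autoImplicit false

noncomputable section

open AlgebraicCurve IntermediateField

namespace Fermat.Agent.S18

/-- A reduction datum: a valuation ring `A` of the constant field `K` with residue map
`res : A → k`, a valuation ring `O` of the function field `F` with residue map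
`red : O → Fb`, compatible with each other, such that the value group of `O` is the one of
`A` (`exists_scale`). -/
structure h39_RedDatum (K F k Fb : Type*) [Field K] [Field F] [Algebra K F]
    [Field k] [Field Fb] [Algebra k Fb] where
  /-- valuation ring of the constants -/
  A : ValuationSubring K
  /-- valuation ring of the function field -/
  O : ValuationSubring F
  /-- residue map of the constants -/
  res : A →+* k
  /-- residue map of the function field -/
  red : O →+* Fb
  res_surjective : Function.Surjective res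
  red_surjective : Function.Surjective red
  mem_iff : ∀ a : K, a ∈ A ↔ algebraMap K F a ∈ O
  red_algebraMap : ∀ (a : K) (ha : a ∈ A) (ha' : algebraMap K F a ∈ O),
    red ⟨algebraMap K F a, ha'⟩ = algebraMap k Fb (res ⟨a, ha⟩)
  exists_scale : ∀ f : F, f ≠ 0 →
    ∃ c : K, c ≠ 0 ∧ algebraMap K F c * f ∈ O ∧ (algebraMap K F c * f)⁻¹ ∈ O

namespace h39_RedDatum

variable {K F k Fb : Type*} [Field K] [Field F] [Algebra K F] [Field k] [Field Fb] [Algebra k Fb]

/-- The reduction map extended by zero outside `O`. -/
def redF (R : h39_RedDatum K F k Fb) (f : F) : Fb :=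
  letI := Classical.propDecidable
  if h : f ∈ R.O then R.red ⟨f, h⟩ else 0

theorem redF_of_mem (R : h39_RedDatum K F k Fb) {f : F} (h : f ∈ R.O) :
    R.redF f = R.red ⟨f, h⟩ := by
  unfold redF
  rw [dif_pos h]

/-- The residue map of the constants extended by zero outside `A`. -/
def resK (R : h39_RedDatum K F k Fb) (a : K) : k :=
  letI := Classical.propDecidable
  if h : a ∈ R.A then R.res ⟨a, h⟩ else 0

theorem resK_of_mem (R : h39_RedDatum K F k Fb) {a : K} (h : a ∈ R.A) :
    R.resK a = R.res ⟨a, h⟩ := by
  unfold resK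
  rw [dif_pos h]

end h39_RedDatum

/-- Rank one ("archimedean"): powers of a non-unit of `A` become divisible by any nonzero
element. -/
def h39_RankOne {K : Type*} [Field K] (A : ValuationSubring K) : Prop :=
  ∀ a : K, a ∈ A → a⁻¹ ∉ A → ∀ δ : K, δ ≠ 0 → ∃ n : ℕ, a ^ n * δ⁻¹ ∈ A

variable {K F k Fb : Type*} [Field K] [Field F] [Algebra K F] [Field k] [Field Fb] [Algebra k Fb]

/-- The weak chart hypothesis on a function `x : F`: `x` lies in `O` with transcendental
reduction, and the residue extension `Fb / k(x̄)` has full degree and is separable.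
(So `O` restricted to `K(x)` is the Gauss valuation, and `O` is its only extension.) -/
structure h39_WeakChart (R : h39_RedDatum K F k Fb) (x : F) : Prop where
  mem : x ∈ R.O
  transcendental : Transcendental k (R.redF x)
  finite : Module.Finite K⟮x⟯ F
  finrank_eq : Module.finrank k⟮R.redF x⟯ Fb = Module.finrank K⟮x⟯ F
  separable : Algebra.IsSeparable k⟮R.redF x⟯ Fb

/-- The chart hypothesis on a function `x : F` (see board post ARCH v1): a weak chart whose
finite branch values lie in `A` and stay distinct modulo the maximal ideal. -/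
structure h39_Chart (R : h39_RedDatum K F k Fb) (x : F) : Prop extends h39_WeakChart R x where
  branch : ∃ Z : Finset K, (∀ z ∈ Z, z ∈ R.A) ∧
    (∀ z ∈ Z, ∀ z' ∈ Z, R.resK z = R.resK z' → z = z') ∧
    ∀ (P : Place K F) (a : K), 2 ≤ P.ord (x - algebraMap K F a) → a ∈ Z

/-- The space of `φ` such that `φ dx` has no pole, measured with `e - 1` in place of the
different exponent: `ord_P φ ≥ 1 - e_P` at finite places, `ord_P φ ≥ 1 + e_P` at the poles of
`x`.  In characteristic zero this is the space of holomorphic differentials `φ dx`. -/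
def h39_holo (K : Type*) {F : Type*} [Field K] [Field F] [Algebra K F] (x : F) :
    Submodule K F where
  carrier := {φ | ∀ P : Place K F,
    (∀ a : K, 0 < P.ord (x - algebraMap K F a) →
      P.adicValuation φ ≤ WithZero.exp (P.ord (x - algebraMap K F a) - 1)) ∧
    (P.ord x < 0 → P.adicValuation φ ≤ WithZero.exp (P.ord x - 1))}
  zero_mem' := by
    intro P
    exact ⟨fun a _ => by simp, fun _ => by simp⟩
  add_mem' := by
    intro f g hf hg P
    exact ⟨fun a ha => (Valuation.map_add _ _ _).trans (max_le ((hf P).1 a ha) ((hg P).1 a ha)),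
      fun hx => (Valuation.map_add _ _ _).trans (max_le ((hf P).2 hx) ((hg P).2 hx))⟩
  smul_mem' := by
    intro c f hf P
    have key : ∀ n : ℤ, P.adicValuation f ≤ WithZero.exp n →
        P.adicValuation (c • f) ≤ WithZero.exp n := by
      intro n hn
      rw [Algebra.smul_def, map_mul]
      exact (mul_le_of_le_one_left' (P.adicValuation_algebraMap_le_one c)).trans hn
    exact ⟨fun a ha => key _ ((hf P).1 a ha), fun hx => key _ ((hf P).2 hx)⟩

theorem h39_mem_holo_iff {x φ : F} :
    φ ∈ h39_holo K x ↔ ∀ P : Place K F,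
      (∀ a : K, 0 < P.ord (x - algebraMap K F a) →
        φ = 0 ∨ 1 - P.ord (x - algebraMap K F a) ≤ P.ord φ) ∧
      (P.ord x < 0 → φ = 0 ∨ 1 - P.ord x ≤ P.ord φ) := by
  refine forall_congr' fun P => ?_
  constructor
  · rintro ⟨h1, h2⟩
    refine ⟨fun a ha => ?_, fun hx => ?_⟩
    · have := P.adicValuation_le_exp_iff.mp (h1 a ha)
      rcases this with h | h
      · exact Or.inl h
      · exact Or.inr (by omega)
    · have := P.adicValuation_le_exp_iff.mp (h2 hx)
      rcases this with h | h
      · exact Or.inl h
      · exact Or.inr (by omega)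
  · rintro ⟨h1, h2⟩
    refine ⟨fun a ha => ?_, fun hx => ?_⟩
    · refine P.adicValuation_le_exp_iff.mpr ?_
      rcases h1 a ha with h | h
      · exact Or.inl h
      · exact Or.inr (by omega)
    · refine P.adicValuation_le_exp_iff.mpr ?_
      rcases h2 hx with h | h
      · exact Or.inl h
      · exact Or.inr (by omega)

/-- `B₀ ∩ xⁿ B_∞` in place language: functions regular at the finite places of the chart `x`
(those with `0 ≤ ord_P x`) and with `ord_P f ≥ n · ord_P x` at the poles of `x`.
This is `L(n · (x)_∞)`. -/
def h39_Lx (K : Type*) {F : Type*} [Field K] [Field F] [Algebra K F] (x : F) (n : ℕ) :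
    Submodule K F where
  carrier := {f | ∀ P : Place K F,
    (0 ≤ P.ord x → P.adicValuation f ≤ 1) ∧
    (P.ord x < 0 → P.adicValuation f ≤ WithZero.exp (-(n : ℤ) * P.ord x))}
  zero_mem' := by
    intro P
    exact ⟨fun _ => by simp, fun _ => by simp⟩
  add_mem' := by
    intro f g hf hg P
    exact ⟨fun hx => (Valuation.map_add _ _ _).trans (max_le ((hf P).1 hx) ((hg P).1 hx)),
      fun hx => (Valuation.map_add _ _ _).trans (max_le ((hf P).2 hx) ((hg P).2 hx))⟩
  smul_mem' := by
    intro c f hf P
    refine ⟨fun hx => ?_, fun hx => ?_⟩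
    · rw [Algebra.smul_def, map_mul]
      exact (mul_le_of_le_one_left' (P.adicValuation_algebraMap_le_one c)).trans ((hf P).1 hx)
    · rw [Algebra.smul_def, map_mul]
      exact (mul_le_of_le_one_left' (P.adicValuation_algebraMap_le_one c)).trans ((hf P).2 hx)

theorem h39_mem_Lx_iff {x f : F} {n : ℕ} :
    f ∈ h39_Lx K x n ↔ ∀ P : Place K F,
      (0 ≤ P.ord x → f = 0 ∨ 0 ≤ P.ord f) ∧
      (P.ord x < 0 → f = 0 ∨ (n : ℤ) * P.ord x ≤ P.ord f) := by
  refine forall_congr' fun P => ?_
  constructor
  · rintro ⟨h1, h2⟩
    refine ⟨fun hx => P.adicValuation_le_one_iff.mp (h1 hx), fun hx => ?_⟩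
    rcases P.adicValuation_le_exp_iff.mp (h2 hx) with h | h
    · exact Or.inl h
    · exact Or.inr (by linarith)
  · rintro ⟨h1, h2⟩
    refine ⟨fun hx => P.adicValuation_le_one_iff.mpr (h1 hx), fun hx => ?_⟩
    refine P.adicValuation_le_exp_iff.mpr ?_
    rcases h2 hx with h | h
    · exact Or.inl h
    · exact Or.inr (by linarith)

/-- Interface GOODRED → CORE: a reduction map on places with
(6) compatibility with divisors of units of `O`, and (✱) lifting of Riemann–Roch spaces in
large degree. -/
structure h39_PlaceRed (R : h39_RedDatum K F k Fb) where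
  /-- the reduction map on places -/
  r0 : Place K F → Place k Fb
  /-- the degree bound for lifting -/
  c : ℤ
  compat : ∀ (y : F) (hy : y ∈ R.O), R.red ⟨y, hy⟩ ≠ 0 → ∀ D : Divisor K F,
    (∀ P, D P = P.ord y) → ∀ Q : Place k Fb, Finsupp.mapDomain r0 D Q = Q.ord (R.red ⟨y, hy⟩)
  lift : ∀ D : Divisor K F, c ≤ Divisor.degree D →
    ∀ fb ∈ riemannRochSpace (Finsupp.mapDomain r0 D),
      ∃ (f : F) (hf : f ∈ R.O), f ∈ riemannRochSpace D ∧ R.red ⟨f, hf⟩ = fb
  finrank_eq : ∀ D : Divisor K F, c ≤ Divisor.degree D →
    Module.finrank K (riemannRochSpace D) =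
      Module.finrank k (riemannRochSpace (Finsupp.mapDomain r0 D))
  two : ∃ P₁ P₂ : Place K F, r0 P₁ ≠ r0 P₂

end Fermat.Agent.S18

end
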