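import Mathlib
import Fermat.Agent.S18.Defs
import Fermat.Agent.S18.h75_RRDefs

/-!
# S18 / [GR] GOODRED, row GR0: calculus of `redF`, `resK`; weak charts

Statements verbatim from the GR skeleton (owner helper39), section GR0.
-/

set_option autoImplicit false

noncomputable section

open AlgebraicCurve IntermediateField Polynomial

namespace Fermat.Agent.S18

variable {K F k Fb : Type*} [Field K] [Field F] [Algebra K F] [Field k] [Field Fb] [Algebra k Fb]

section GR0

variable (R : h39_RedDatum K F k Fb)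

theorem h62_redF_of_not_mem {f : F} (h : f ∉ R.O) : R.redF f = 0 := by
  unfold h39_RedDatum.redF
  rw [dif_neg h]

theorem h62_resK_of_not_mem {a : K} (h : a ∉ R.A) : R.resK a = 0 := by
  unfold h39_RedDatum.resK
  rw [dif_neg h]

theorem h39_redF_zero : R.redF 0 = 0 := by
  rw [R.redF_of_mem R.O.zero_mem]
  exact map_zero R.red

theorem h39_redF_one : R.redF 1 = 1 := by
  rw [R.redF_of_mem R.O.one_mem]
  exact map_one R.red

theorem h39_redF_add {f g : F} (hf : f ∈ R.O) (hg : g ∈ R.O) :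
    R.redF (f + g) = R.redF f + R.redF g := by
  rw [R.redF_of_mem hf, R.redF_of_mem hg, R.redF_of_mem (R.O.add_mem _ _ hf hg), ← map_add]
  rfl

theorem h39_redF_neg {f : F} (hf : f ∈ R.O) : R.redF (-f) = -R.redF f := by
  rw [R.redF_of_mem hf, R.redF_of_mem (R.O.neg_mem _ hf), ← map_neg]
  rfl

theorem h39_redF_sub {f g : F} (hf : f ∈ R.O) (hg : g ∈ R.O) :
    R.redF (f - g) = R.redF f - R.redF g := by
  rw [sub_eq_add_neg, h39_redF_add R hf (R.O.neg_mem _ hg), h39_redF_neg R hg, ← sub_eq_add_neg]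

theorem h39_redF_mul {f g : F} (hf : f ∈ R.O) (hg : g ∈ R.O) :
    R.redF (f * g) = R.redF f * R.redF g := by
  rw [R.redF_of_mem hf, R.redF_of_mem hg, R.redF_of_mem (R.O.mul_mem _ _ hf hg), ← map_mul]
  rfl

theorem h39_redF_pow {f : F} (hf : f ∈ R.O) (n : ℕ) : R.redF (f ^ n) = R.redF f ^ n := by
  induction n with
  | zero => simp [h39_redF_one]
  | succ n ih => rw [pow_succ, pow_succ, h39_redF_mul R (R.O.pow_mem hf n) hf, ih]

theorem h39_redF_sum {ι : Type*} (s : Finset ι) (f : ι → F) (hf : ∀ i ∈ s, f i ∈ R.O) :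
    R.redF (∑ i ∈ s, f i) = ∑ i ∈ s, R.redF (f i) := by
  classical
  induction s using Finset.induction_on with
  | empty => simp [h39_redF_zero]
  | insert a s ha ih =>
    rw [Finset.sum_insert ha, Finset.sum_insert ha,
      h39_redF_add R (hf a (Finset.mem_insert_self a s))
        (R.O.sum_mem (fun i hi => hf i (Finset.mem_insert_of_mem hi))),
      ih (fun i hi => hf i (Finset.mem_insert_of_mem hi))]

theorem h39_redF_algebraMap {a : K} (ha : a ∈ R.A) :
    R.redF (algebraMap K F a) = algebraMap k Fb (R.resK a) := by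
  have ha' : algebraMap K F a ∈ R.O := (R.mem_iff a).mp ha
  rw [R.redF_of_mem ha', R.resK_of_mem ha, R.red_algebraMap a ha ha']

theorem h39_resK_add {a b : K} (ha : a ∈ R.A) (hb : b ∈ R.A) :
    R.resK (a + b) = R.resK a + R.resK b := by
  rw [R.resK_of_mem ha, R.resK_of_mem hb, R.resK_of_mem (R.A.add_mem _ _ ha hb), ← map_add]
  rfl

theorem h39_resK_mul {a b : K} (ha : a ∈ R.A) (hb : b ∈ R.A) :
    R.resK (a * b) = R.resK a * R.resK b := by
  rw [R.resK_of_mem ha, R.resK_of_mem hb, R.resK_of_mem (R.A.mul_mem _ _ ha hb), ← map_mul]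
  rfl

theorem h39_resK_one : R.resK 1 = 1 := by
  rw [R.resK_of_mem R.A.one_mem]
  exact map_one R.res

theorem h39_resK_surjective (c : k) : ∃ a : K, a ∈ R.A ∧ R.resK a = c := by
  obtain ⟨a, rfl⟩ := R.res_surjective c
  exact ⟨(a : K), a.2, by rw [R.resK_of_mem a.2]⟩

/-- the kernel of `res` is the maximal ideal -/
theorem h39_resK_eq_zero_iff {a : K} (ha : a ∈ R.A) : R.resK a = 0 ↔ a = 0 ∨ a⁻¹ ∉ R.A := by
  rw [R.resK_of_mem ha, ← ValuationSubring.mem_nonunits_iff_or]
  have := IsLocalRing.ker_eq_maximalIdeal R.res R.res_surjective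
  rw [← RingHom.mem_ker, this]
  exact (ValuationSubring.coe_mem_nonunits_iff (A := R.A) (a := ⟨a, ha⟩)).symm

/-- the kernel of `red` is the maximal ideal -/
theorem h39_redF_eq_zero_iff {f : F} (hf : f ∈ R.O) : R.redF f = 0 ↔ f = 0 ∨ f⁻¹ ∉ R.O := by
  rw [R.redF_of_mem hf, ← ValuationSubring.mem_nonunits_iff_or]
  have := IsLocalRing.ker_eq_maximalIdeal R.red R.red_surjective
  rw [← RingHom.mem_ker, this]
  exact (ValuationSubring.coe_mem_nonunits_iff (A := R.O) (a := ⟨f, hf⟩)).symm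

theorem h39_mem_of_redF_ne_zero {f : F} (h : R.redF f ≠ 0) : f ∈ R.O := by
  by_contra hf
  exact h (h62_redF_of_not_mem R hf)

theorem h39_inv_of_redF_ne_zero {f : F} (h : R.redF f ≠ 0) :
    f⁻¹ ∈ R.O ∧ R.redF f⁻¹ = (R.redF f)⁻¹ := by
  have hf : f ∈ R.O := h39_mem_of_redF_ne_zero R h
  have hf0 : f ≠ 0 := by
    rintro rfl
    exact h (h39_redF_zero R)
  have hinv : f⁻¹ ∈ R.O := by
    by_contra hcon
    exact h ((h39_redF_eq_zero_iff R hf).mpr (Or.inr hcon))
  refine ⟨hinv, ?_⟩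
  have h1 : R.redF f * R.redF f⁻¹ = 1 := by
    rw [← h39_redF_mul R hf hinv, mul_inv_cancel₀ hf0, h39_redF_one]
  exact eq_inv_of_mul_eq_one_right h1

theorem h39_redF_surjective (fb : Fb) : ∃ f : F, f ∈ R.O ∧ R.redF f = fb := by
  obtain ⟨a, rfl⟩ := R.red_surjective fb
  exact ⟨(a : F), a.2, by rw [R.redF_of_mem a.2]⟩

/-- (VG) every nonzero `f` is a constant times a unit of `O` -/
theorem h39_exists_scale_unit {f : F} (hf : f ≠ 0) :
    ∃ c : K, c ≠ 0 ∧ R.redF (algebraMap K F c * f) ≠ 0 := by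
  obtain ⟨c, hc, h1, h2⟩ := R.exists_scale f hf
  refine ⟨c, hc, fun h0 => ?_⟩
  rcases (h39_redF_eq_zero_iff R h1).mp h0 with h | h
  · exact (mul_ne_zero (by simpa using hc) hf) h
  · exact h h2

/-- the maximal ideal of `O` is generated by the maximal ideal of `A` -/
theorem h39_exists_factor_of_redF_eq_zero {f : F} (hf : f ∈ R.O) (h0 : R.redF f = 0) :
    ∃ (c : K) (f' : F), c ∈ R.A ∧ R.resK c = 0 ∧ f' ∈ R.O ∧ f = algebraMap K F c * f' := by
  by_cases hf0 : f = 0
  · refine ⟨0, 0, R.A.zero_mem, ?_, R.O.zero_mem, by simp [hf0]⟩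
    rw [R.resK_of_mem R.A.zero_mem]
    exact map_zero R.res
  · obtain ⟨c, hc, h1, h2⟩ := R.exists_scale f hf0
    have hcF : algebraMap K F c ≠ 0 := by simpa using hc
    have hfinv : f⁻¹ ∉ R.O := by
      rcases (h39_redF_eq_zero_iff R hf).mp h0 with h | h
      · exact absurd h hf0
      · exact h
    -- `c⁻¹ ∈ A` because `algebraMap c⁻¹ = f * (algebraMap c * f)⁻¹ ∈ O`
    have hcinv : algebraMap K F c⁻¹ = f * (algebraMap K F c * f)⁻¹ := by
      rw [map_inv₀]
      field_simp
    have hcA : c⁻¹ ∈ R.A := by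
      rw [R.mem_iff, hcinv]
      exact R.O.mul_mem _ _ hf h2
    refine ⟨c⁻¹, algebraMap K F c * f, hcA, ?_, h1, ?_⟩
    · rw [h39_resK_eq_zero_iff R hcA, inv_inv]
      right
      intro hcA'
      apply hfinv
      have : f⁻¹ = algebraMap K F c * (algebraMap K F c * f)⁻¹ := by
        field_simp
      rw [this]
      exact R.O.mul_mem _ _ ((R.mem_iff c).mp hcA') h2
    · rw [map_inv₀]
      field_simp

/-- an algebraic `x` is a constant, whose reduction is a constant or `0` -/
theorem h39_transcendental_of_redF [IsAlgClosed K] {x : F}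
    (hx : Transcendental k (R.redF x)) : Transcendental K x := by
  intro halg
  have hdeg := IsAlgClosed.degree_eq_one_of_irreducible K (minpoly.irreducible halg.isIntegral)
  obtain ⟨a, rfl⟩ := minpoly.mem_range_of_degree_eq_one K x hdeg
  apply hx
  by_cases ha : a ∈ R.A
  · rw [h39_redF_algebraMap R ha]
    exact isAlgebraic_algebraMap _
  · have ha' : algebraMap K F a ∉ R.O := fun h => ha ((R.mem_iff a).mpr h)
    rw [h62_redF_of_not_mem R ha']
    exact isAlgebraic_zero

omit [Field k] [Field Fb] [Algebra k Fb] in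
/-- `K(x⁻¹) = K(x)`. -/
theorem h62_adjoin_inv (x : F) : K⟮x⁻¹⟯ = K⟮x⟯ := by
  apply le_antisymm
  · rw [adjoin_simple_le_iff]
    exact inv_mem (mem_adjoin_simple_self K x)
  · rw [adjoin_simple_le_iff]
    have := inv_mem (mem_adjoin_simple_self K x⁻¹)
    rwa [inv_inv] at this

theorem h39_weakChart_inv {x : F} (hx : h39_WeakChart R x) : h39_WeakChart R x⁻¹ := by
  have hne : R.redF x ≠ 0 := by
    intro h0
    exact hx.transcendental (h0 ▸ isAlgebraic_zero)
  obtain ⟨hmem, hred⟩ := h39_inv_of_redF_ne_zero R hne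
  have hK : K⟮x⁻¹⟯ = K⟮x⟯ := h62_adjoin_inv x
  have hk : k⟮R.redF x⁻¹⟯ = k⟮R.redF x⟯ := by rw [hred]; exact h62_adjoin_inv _
  refine ⟨hmem, ?_, ?_, ?_, ?_⟩
  · rw [hred]
    intro h
    exact hx.transcendental (by simpa using h.inv)
  · rw [hK]; exact hx.finite
  · rw [hK, hk]; exact hx.finrank_eq
  · rw [hk]; exact hx.separable

theorem h39_weakChart_isChart [IsAlgClosed K] [CharZero K] {x : F} (hx : h39_WeakChart R x) :
    h75_IsChart K x := by
  have : Module.Finite K⟮x⟯ F := hx.finite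
  exact ⟨h39_transcendental_of_redF R hx.transcendental, hx.finite, inferInstance⟩

theorem h39_weakChart_isChart_red {x : F} (hx : h39_WeakChart R x) :
    h75_IsChart k (R.redF x) := by
  have : Module.Finite K⟮x⟯ F := hx.finite
  have hfin : Module.Finite k⟮R.redF x⟯ Fb :=
    Module.finite_of_finrank_pos (by rw [hx.finrank_eq]; exact Module.finrank_pos)
  exact ⟨hx.transcendental, hfin, hx.separable⟩

end GR0

end Fermat.Agent.S18

end
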