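import Mathlib
import Fermat.Prelude.Def_ModularCurve_ArithmeticGalois
import Fermat.Agent.S24.h78_Fibres
import Fermat.Agent.S24.h29_Index
import Fermat.Agent.S24.h56_Count
import Fermat.Agent.S24.h35_PlaceBasic

/-!
# S18, layer MOD, row MOD-LT: level transfer `F N ⊆ F N₁`

* `h46_ord_dvd_of_algHom` : (generic) for function fields `E → L` over `K` and a place `P'` of
  `L`, divisibility by `m` of all orders of `u ∈ E` passes to `ord_{P'} u`.
* `h46_bar_le` : `modularFunctionFieldBar N ≤ modularFunctionFieldBar N₁` for `N ∣ N₁`.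
* `h46_level_descent` : norm descent from level `p N` to level `N` (`p ∤ N` prime,
  `[F(pN) : F(N)] = p + 1`).
* `h46_level_ord_dvd` : restriction of places.
-/

set_option autoImplicit false

noncomputable section

open ModularCurve AlgebraicCurve IntermediateField CongruenceSubgroup
open scoped MatrixGroups

namespace Fermat.Agent.S18

open Fermat.Agent.S24

local notation "Qb" => AlgebraicClosure ℚ

section Generic

variable {K E L : Type*} [Field K] [Field E] [Field L] [Algebra K E] [Algebra K L]

/-- The order function of a place of `L`, restricted along a `K`-algebra homomorphism `E → L`,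
is an integer-valued valuation of `E` trivial on `K`. -/
theorem h46_isOrd_comp (φ : E →ₐ[K] L) (P' : Place K L) :
    h56_IsOrd K (fun f : E => P'.ord (φ f)) where
  map_mul f g hf hg := by
    show P'.ord (φ (f * g)) = P'.ord (φ f) + P'.ord (φ g)
    rw [map_mul]
    exact P'.ord_mul ((map_ne_zero φ).mpr hf) ((map_ne_zero φ).mpr hg)
  map_add f g hf hg hfg := by
    show min (P'.ord (φ f)) (P'.ord (φ g)) ≤ P'.ord (φ (f + g))
    rw [map_add]
    exact h35_ord_add P' ((map_ne_zero φ).mpr hf) ((map_ne_zero φ).mpr hg)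
      (by rw [← map_add]; exact (map_ne_zero φ).mpr hfg)
  map_algebraMap c _ := by
    show P'.ord (φ (algebraMap K E c)) = 0
    rw [φ.commutes]
    exact h35_ord_algebraMap P' c

/-- **Restriction of places (generic).** If `m` divides the order of `u ∈ E` at every place of
`E`, then `m` divides the order of the image of `u` at every place of `L`. -/
theorem h46_ord_dvd_of_algHom (φ : E →ₐ[K] L) (P' : Place K L) (m : ℤ) (u : E)
    (hm : ∀ P : Place K E, m ∣ P.ord u) : m ∣ P'.ord (φ u) := by
  by_cases hu : u = 0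
  · subst hu
    simp
  by_cases hnt : ∃ f : E, f ≠ 0 ∧ P'.ord (φ f) ≠ 0
  · obtain ⟨e, -, -, hef⟩ := h56_placeOfOrd_ord (h46_isOrd_comp φ P') hnt
    have h1 : P'.ord (φ u) = e * (h56_placeOfOrd _ (h46_isOrd_comp φ P') hnt).ord u := hef u hu
    rw [h1]
    exact Dvd.dvd.mul_left (hm _) e
  · push Not at hnt
    rw [hnt u hu]
    exact dvd_zero m

end Generic

/-- **LT** the function fields grow with the level. -/
theorem h46_bar_le {N N₁ : ℕ} [NeZero N] [NeZero N₁] (h : N ∣ N₁) :
    modularFunctionFieldBar N ≤ modularFunctionFieldBar N₁ := by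
  show laurentBaseChange Qb (modularFunctionFieldFull N) ≤
    laurentBaseChange Qb (modularFunctionFieldFull N₁)
  rw [laurentBaseChange, IntermediateField.adjoin_le_iff]
  rintro _ ⟨y, hy, rfl⟩
  exact coeffEmb_mem_laurentBaseChange Qb (full_degeneracy_le h hy)

/-- The degree of `F M` over `Qb(j)`, in the lattice of subfields of `Qb((q))`. -/
theorem h46_relfinrank_bar (M : ℕ) [NeZero M] :
    (Qb⟮coeffEmb Qb jq⟯).relfinrank (modularFunctionFieldBar M) = dedekindPsi M := by
  have h1 := IntermediateField.relfinrank_map_map (A := Qb⟮h59_jbar M⟯)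
    (B := (⊤ : IntermediateField Qb ↥(modularFunctionFieldBar M)))
    (modularFunctionFieldBar M).val
  rw [IntermediateField.relfinrank_top_right, h78_finrank M, h29_card_quotient_Gamma0 M] at h1
  have e1 : (Qb⟮h59_jbar M⟯).map (modularFunctionFieldBar M).val = Qb⟮coeffEmb Qb jq⟯ := by
    rw [IntermediateField.adjoin_map, Set.image_singleton]
    rfl
  have e2 : (⊤ : IntermediateField Qb ↥(modularFunctionFieldBar M)).map
      (modularFunctionFieldBar M).val = modularFunctionFieldBar M := by
    rw [← AlgHom.fieldRange_eq_map, IntermediateField.fieldRange_val]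
  rw [e1, e2] at h1
  exact h1

/-- `[F(pN) : F(N)] = p + 1` for a prime `p ∤ N`. -/
theorem h46_relfinrank_level (N : ℕ) [NeZero N] (p : ℕ) [NeZero (p * N)] (hp : p.Prime)
    (hpN : ¬ p ∣ N) :
    (modularFunctionFieldBar N).relfinrank (modularFunctionFieldBar (p * N)) = p + 1 := by
  have hN : 0 < N := Nat.pos_of_ne_zero (NeZero.ne N)
  have hJE : Qb⟮coeffEmb Qb jq⟯ ≤ modularFunctionFieldBar N := by
    rw [IntermediateField.adjoin_le_iff]
    rintro _ rfl
    exact (h59_jbar N).2
  have hEL : modularFunctionFieldBar N ≤ modularFunctionFieldBar (p * N) :=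
    h46_bar_le (dvd_mul_left N p)
  have hmul := IntermediateField.relfinrank_mul_relfinrank hJE hEL
  rw [h46_relfinrank_bar N, h46_relfinrank_bar (p * N), h29_psi_mul_of_not_dvd p N hp hN hpN]
    at hmul
  have hψ : 0 < dedekindPsi N := by
    rw [← h29_index_Gamma0 N hN]
    exact Nat.pos_of_ne_zero (Subgroup.FiniteIndex.index_ne_zero)
  exact Nat.eq_of_mul_eq_mul_left hψ (by rw [hmul, mul_comm])

/-- **LT-N** norm descent: an `m`-th root at level `p N` gives an `m`-th root of the
`(p+1)`-th power at level `N` (`[F(pN) : F(N)] = p + 1` for a prime `p ∤ N`). -/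
theorem h46_level_descent (N : ℕ) [NeZero N] (p : ℕ) [NeZero (p * N)] (hp : p.Prime)
    (hpN : ¬ p ∣ N) (m : ℕ) (u g : LaurentSeries Qb) (hu : u ∈ modularFunctionFieldBar N)
    (hg : g ∈ modularFunctionFieldBar (p * N)) (h : g ^ m = u) :
    ∃ g' ∈ modularFunctionFieldBar N, g' ^ m = u ^ (p + 1) := by
  have hEL : modularFunctionFieldBar N ≤ modularFunctionFieldBar (p * N) :=
    h46_bar_le (dvd_mul_left N p)
  have hrel := h46_relfinrank_level N p hp hpN
  rw [IntermediateField.relfinrank_eq_finrank_of_le hEL] at hrel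
  let gL : ↥(IntermediateField.extendScalars hEL) := ⟨g, hg⟩
  let uE : ↥(modularFunctionFieldBar N) := ⟨u, hu⟩
  have hpow : gL ^ m = algebraMap ↥(modularFunctionFieldBar N)
      ↥(IntermediateField.extendScalars hEL) uE := Subtype.ext h
  have : Module.Free ↥(modularFunctionFieldBar N) ↥(IntermediateField.extendScalars hEL) :=
    Module.Free.of_divisionRing _ _
  have h1 := congrArg (Algebra.norm ↥(modularFunctionFieldBar N)) hpow
  rw [map_pow, Algebra.norm_algebraMap, hrel] at h1
  refine ⟨((Algebra.norm ↥(modularFunctionFieldBar N) gL : ↥(modularFunctionFieldBar N)) :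
    LaurentSeries Qb), SetLike.coe_mem _, ?_⟩
  have h2 := congrArg (fun x : ↥(modularFunctionFieldBar N) => (x : LaurentSeries Qb)) h1
  simpa using h2

/-- **LT-P** restriction of places: divisibility of all orders passes to the bigger field. -/
theorem h46_level_ord_dvd {N N₁ : ℕ} [NeZero N] [NeZero N₁] (h : N ∣ N₁) (m : ℤ)
    (u : LaurentSeries Qb) (hu : u ∈ modularFunctionFieldBar N)
    (hm : ∀ P : Place Qb ↥(modularFunctionFieldBar N), m ∣ P.ord ⟨u, hu⟩)
    (P' : Place Qb ↥(modularFunctionFieldBar N₁)) :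
    m ∣ P'.ord ⟨u, h46_bar_le h hu⟩ :=
  h46_ord_dvd_of_algHom (IntermediateField.inclusion (h46_bar_le h)) P' m ⟨u, hu⟩ hm

end Fermat.Agent.S18
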