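/-
S18 / MOD layer (helper54): shared definitions of the modular layer.

`Qb = AlgebraicClosure ℚ`, `F N = modularFunctionFieldBar N ⊆ Qb((q))`, `A` a valuation ring of
`Qb`, `k = A/𝔪`, `Fb N = modularFunctionFieldFullC k N ⊆ k((q))`.

* `h54_IsModRed N A R` : the characterising properties of the modular reduction datum.
* `h54_jk k N` : `j̄` as an element of `Fb N`.
* `h54_hm2 R`, `h54_hm3 R` : the Hauptmoduln of `X₀(2)`, `X₀(3)` as `q`-series over any ring.
-/
import Mathlib
import Fermat.Agent.S18.Defs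
import Fermat.Agent.S28.Defs
import Fermat.Prelude.Def_ModularCurve_ReductionModL

set_option autoImplicit false
set_option synthInstance.maxHeartbeats 400000

noncomputable section

open ModularCurve AlgebraicCurve IntermediateField

namespace Fermat.Agent.S18

open Fermat.Agent.S28

local notation "Qb" => AlgebraicClosure ℚ

/-- The characterising properties of the modular reduction datum of level `N` at `A`:
`O` is the ring of ratios `y₁/y₂` of `A`-integral `q`-series with `ȳ₂ ≠ 0`, and `red` is the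
coefficientwise reduction of such ratios. -/
structure h54_IsModRed (N : ℕ) [NeZero N] (A : ValuationSubring Qb)
    (R : h39_RedDatum Qb ↥(modularFunctionFieldBar N) (IsLocalRing.ResidueField A)
      ↥(modularFunctionFieldFullC (IsLocalRing.ResidueField A) N)) : Prop where
  A_eq : R.A = A
  res_eq : ∀ (a : Qb) (ha : a ∈ R.A) (ha' : a ∈ A),
    R.res ⟨a, ha⟩ = IsLocalRing.residue A ⟨a, ha'⟩
  mem_iff : ∀ f : ↥(modularFunctionFieldBar N), f ∈ R.O ↔ ∃ y₁ y₂ : LaurentSeries A,
    coeffMap (IsLocalRing.residue A) y₂ ≠ 0 ∧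
      (f : LaurentSeries Qb) * coeffMap A.subtype y₂ = coeffMap A.subtype y₁
  red_eq : ∀ (f : ↥(modularFunctionFieldBar N)) (hf : f ∈ R.O) (y₁ y₂ : LaurentSeries A),
    (f : LaurentSeries Qb) * coeffMap A.subtype y₂ = coeffMap A.subtype y₁ →
      ((R.red ⟨f, hf⟩ : ↥(modularFunctionFieldFullC (IsLocalRing.ResidueField A) N)) :
          LaurentSeries (IsLocalRing.ResidueField A)) * coeffMap (IsLocalRing.residue A) y₂
        = coeffMap (IsLocalRing.residue A) y₁

namespace h54_IsModRed

variable {N : ℕ} [NeZero N] {A : ValuationSubring Qb}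
  {R : h39_RedDatum Qb ↥(modularFunctionFieldBar N) (IsLocalRing.ResidueField A)
      ↥(modularFunctionFieldFullC (IsLocalRing.ResidueField A) N)}

/-- An element of `F N` with `A`-integral `q`-expansion lies in `O`. -/
theorem mem_of_integral (h : h54_IsModRed N A R) (f : ↥(modularFunctionFieldBar N))
    (y : LaurentSeries A) (hy : (f : LaurentSeries Qb) = coeffMap A.subtype y) : f ∈ R.O := by
  rw [h.mem_iff]
  refine ⟨y, 1, ?_, ?_⟩
  · rw [map_one]
    exact one_ne_zero
  · rw [map_one, mul_one, hy]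

/-- ... and its reduction is the coefficientwise reduction. -/
theorem red_of_integral (h : h54_IsModRed N A R) (f : ↥(modularFunctionFieldBar N))
    (y : LaurentSeries A) (hy : (f : LaurentSeries Qb) = coeffMap A.subtype y) (hf : f ∈ R.O) :
    ((R.red ⟨f, hf⟩ : ↥(modularFunctionFieldFullC (IsLocalRing.ResidueField A) N)) :
        LaurentSeries (IsLocalRing.ResidueField A)) = coeffMap (IsLocalRing.residue A) y := by
  have := h.red_eq f hf y 1 (by rw [map_one, mul_one, hy])
  rwa [map_one, mul_one] at this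

theorem redF_of_integral (h : h54_IsModRed N A R) (f : ↥(modularFunctionFieldBar N))
    (y : LaurentSeries A) (hy : (f : LaurentSeries Qb) = coeffMap A.subtype y) :
    ((R.redF f : ↥(modularFunctionFieldFullC (IsLocalRing.ResidueField A) N)) :
        LaurentSeries (IsLocalRing.ResidueField A)) = coeffMap (IsLocalRing.residue A) y := by
  rw [R.redF_of_mem (h.mem_of_integral f y hy)]
  exact h.red_of_integral f y hy _

end h54_IsModRed

/-- `j̄` as an element of `Fb N`. -/
def h54_jk (k : Type) [Field k] (N : ℕ) [NeZero N] : ↥(modularFunctionFieldFullC k N) :=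
  ⟨jqModC k, jqModC_mem_full k N⟩

/-! ## The Hauptmoduln of `X₀(2)`, `X₀(3)` as `q`-series over any ring -/

/-- `h₂ = Δ(q)/Δ(q²) = q⁻¹ ∏ (1 + qⁿ)⁻²⁴`. -/
def h54_hm2 (R : Type) [CommRing R] : LaurentSeries R := deltaHat R * expand R 2 (deltaHatInv R)

/-- `∏ (1 - qⁿ)¹²` as a Laurent series over `R`. -/
def h54_eta12 (R : Type) [CommRing R] : LaurentSeries R :=
  HahnSeries.ofPowerSeries ℤ R ((etaProd ^ 12).map (Int.castRingHom R))

/-- `∏ (1 - qⁿ)⁻¹²` as a Laurent series over `R`. -/
def h54_eta12Inv (R : Type) [CommRing R] : LaurentSeries R :=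
  HahnSeries.ofPowerSeries ℤ R ((etaProd ^ 12 * dedekindEtaUnitInv).map (Int.castRingHom R))

/-- `h₃ = q⁻¹ ∏ ((1 - qⁿ)/(1 - q³ⁿ))¹²`  (`h₃² = Δ(q)/Δ(q³)`). -/
def h54_hm3 (R : Type) [CommRing R] : LaurentSeries R :=
  HahnSeries.single (-1 : ℤ) 1 * h54_eta12 R * expand R 3 (h54_eta12Inv R)

end Fermat.Agent.S18
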