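import Fermat.Agent.S18.h60_TopGT
import Fermat.Agent.S18.RR_Riemann
import Fermat.Agent.S18.GR_RedAPI
import Fermat.Agent.S18.h46_LevelTransfer
import Fermat.Agent.S18.h54_ModDefs
import Fermat.Agent.S24.h59_Gen

/-!
# S18: final assembly with the MOD exports and the place reduction as hypotheses (owner helper39)

* `h39_S18_of_charts` : the frozen conclusion at level `N` from a weak chart at level `N`, a weak
  chart and a place reduction at an auxiliary level `N₁`, and level transfer `N → N₁`.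
* `h39_S18_of_mod` : the frozen statement S18 from the MOD exports (reduction datum of every
  level prime to `ℓ`, the weak chart `j`, the charts `j` (`ℓ ≥ 5`), `h₂` (`2 ∣ N`), `h₃` (`3 ∣ N`))
  and the existence of a place reduction for every chart ([GR]).
-/

set_option autoImplicit false
set_option synthInstance.maxHeartbeats 400000

noncomputable section

open AlgebraicCurve IntermediateField ModularCurve HahnSeries CongruenceSubgroup
open scoped MatrixGroups

namespace Fermat.Agent.S18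

local notation "Qb" => AlgebraicClosure ℚ

set_option maxHeartbeats 2000000 in
/-- **S18 from charts.** -/
theorem h39_S18_of_charts (N N₁ : ℕ) [NeZero N] [NeZero N₁] {ℓ : ℕ} [Fact ℓ.Prime]
    (A : ValuationSubring Qb) (hA : A.LiesOverPrime ℓ)
    (R : h39_RedDatum Qb ↥(modularFunctionFieldBar N) (IsLocalRing.ResidueField A)
      ↥(modularFunctionFieldFullC (IsLocalRing.ResidueField A) N))
    (hR : h54_IsModRed N A R) {x : ↥(modularFunctionFieldBar N)} (hx : h39_WeakChart R x)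
    (R₁ : h39_RedDatum Qb ↥(modularFunctionFieldBar N₁) (IsLocalRing.ResidueField A)
      ↥(modularFunctionFieldFullC (IsLocalRing.ResidueField A) N₁))
    (hR₁ : h54_IsModRed N₁ A R₁) {x₁ : ↥(modularFunctionFieldBar N₁)}
    (hx₁ : h39_WeakChart R₁ x₁) (PR₁ : h39_PlaceRed R₁)
    (h : ReductionInputsModL A N) (m : ℕ) (hm : ¬ ℓ ∣ m) (e : ℕ) (hcop : Nat.Coprime e m)
    (hle : modularFunctionFieldBar N ≤ modularFunctionFieldBar N₁)
    (hdesc : ∀ u g : LaurentSeries Qb, u ∈ modularFunctionFieldBar N →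
      g ∈ modularFunctionFieldBar N₁ → g ^ m = u →
      ∃ g' ∈ modularFunctionFieldBar N, g' ^ m = u ^ e)
    (hord : ∀ (u : LaurentSeries Qb) (hu : u ∈ modularFunctionFieldBar N),
      (∀ P : Place Qb ↥(modularFunctionFieldBar N),
        (m : ℤ) ∣ P.ord (⟨u, hu⟩ : ↥(modularFunctionFieldBar N))) →
      ∀ P' : Place Qb ↥(modularFunctionFieldBar N₁),
        (m : ℤ) ∣ P'.ord (⟨u, hle hu⟩ : ↥(modularFunctionFieldBar N₁)))
    (z : JZero N) (hmz : m • z = 0) (hz : reductionModL A N z = 0) : z = 0 := by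
  have hk : IsAlgClosed (IsLocalRing.ResidueField A) := h19_residueField_isAlgClosed A
  have hxK : h75_IsChart Qb x := h39_weakChart_isChart R hx
  have hxk : h75_IsChart (IsLocalRing.ResidueField A) (R.redF x) :=
    h39_weakChart_isChart_red R hx
  have hx₁K : h75_IsChart Qb x₁ := h39_weakChart_isChart R₁ hx₁
  have hx₁k : h75_IsChart (IsLocalRing.ResidueField A) (R₁.redF x₁) :=
    h39_weakChart_isChart_red R₁ hx₁
  have hP : HasPrincipalDivisors Qb ↥(modularFunctionFieldBar N) := h75_hasPrincipalDivisors hxK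
  have hP₁ : HasPrincipalDivisors Qb ↥(modularFunctionFieldBar N₁) :=
    h75_hasPrincipalDivisors hx₁K
  exact h60_S18_of_GT N N₁ A hA h m hm e hcop hle R ⟨hR.mem_iff, hR.red_eq⟩
    (h75_finrank_rr_zero hxk) R₁ ⟨hR₁.mem_iff, hR₁.red_eq⟩ hR₁.A_eq PR₁
    (fun D => (h75_riemann hx₁K D).1) (fun D => (h75_riemann hx₁k D).1)
    (h75_deg_eq_one hx₁K) hdesc hord z hmz hz

open Fermat.Agent.S24

set_option maxHeartbeats 2000000 in
/-- **S18 from the MOD exports and the place reduction of a chart.** -/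
theorem h39_S18_of_mod
    (Rd : ∀ (N : ℕ) [NeZero N] {ℓ : ℕ} [Fact ℓ.Prime] (_ : ¬ ℓ ∣ N) (A : ValuationSubring Qb)
      (_ : A.LiesOverPrime ℓ),
      h39_RedDatum Qb ↥(modularFunctionFieldBar N) (IsLocalRing.ResidueField A)
        ↥(modularFunctionFieldFullC (IsLocalRing.ResidueField A) N))
    (hRd : ∀ (N : ℕ) [NeZero N] {ℓ : ℕ} [Fact ℓ.Prime] (hℓN : ¬ ℓ ∣ N) (A : ValuationSubring Qb)
      (hA : A.LiesOverPrime ℓ), h54_IsModRed N A (Rd N hℓN A hA))
    (hwj : ∀ (N : ℕ) [NeZero N] {ℓ : ℕ} [Fact ℓ.Prime] (hℓN : ¬ ℓ ∣ N) (A : ValuationSubring Qb)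
      (hA : A.LiesOverPrime ℓ), ∃ x : ↥(modularFunctionFieldBar N),
        h39_WeakChart (Rd N hℓN A hA) x)
    (hcj : ∀ (N : ℕ) [NeZero N] {ℓ : ℕ} [Fact ℓ.Prime] (hℓN : ¬ ℓ ∣ N) (_ : 5 ≤ ℓ)
      (A : ValuationSubring Qb) (hA : A.LiesOverPrime ℓ),
      ∃ x : ↥(modularFunctionFieldBar N), h39_Chart (Rd N hℓN A hA) x)
    (hc2 : ∀ (N : ℕ) [NeZero N] (_ : 2 ∣ N) {ℓ : ℕ} [Fact ℓ.Prime] (hℓN : ¬ ℓ ∣ N)
      (A : ValuationSubring Qb) (hA : A.LiesOverPrime ℓ),
      ∃ x : ↥(modularFunctionFieldBar N), h39_Chart (Rd N hℓN A hA) x)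
    (hc3 : ∀ (N : ℕ) [NeZero N] (_ : 3 ∣ N) {ℓ : ℕ} [Fact ℓ.Prime] (hℓN : ¬ ℓ ∣ N)
      (A : ValuationSubring Qb) (hA : A.LiesOverPrime ℓ),
      ∃ x : ↥(modularFunctionFieldBar N), h39_Chart (Rd N hℓN A hA) x)
    (hPR : ∀ (N : ℕ) [NeZero N] (A : ValuationSubring Qb)
      (R : h39_RedDatum Qb ↥(modularFunctionFieldBar N) (IsLocalRing.ResidueField A)
        ↥(modularFunctionFieldFullC (IsLocalRing.ResidueField A) N))
      (x : ↥(modularFunctionFieldBar N)), h39_Chart R x → Nonempty (h39_PlaceRed R))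
    (N : ℕ) [NeZero N] {ℓ : ℕ}
    [Fact ℓ.Prime] (hℓN : ¬ ℓ ∣ N) (A : ValuationSubring (AlgebraicClosure ℚ))
    (hA : A.LiesOverPrime ℓ)
    (h : ModularCurve.ReductionInputsModL A N) (m : ℕ) (hm : ¬ ℓ ∣ m) (z : ModularCurve.JZero N)
    (hmz : m • z = 0) (hz : ModularCurve.reductionModL A N z = 0) :
    z = 0 := by
  have hℓp : ℓ.Prime := Fact.out
  obtain ⟨x, hx⟩ := hwj N hℓN A hA
  -- the direct case: a chart at level `N`
  have direct : (∃ y : ↥(modularFunctionFieldBar N), h39_Chart (Rd N hℓN A hA) y) → z = 0 := by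
    rintro ⟨y, hy⟩
    obtain ⟨PR⟩ := hPR N A (Rd N hℓN A hA) y hy
    exact h39_S18_of_charts N N A hA (Rd N hℓN A hA) (hRd N hℓN A hA) hx (Rd N hℓN A hA)
      (hRd N hℓN A hA) hy.toh39_WeakChart PR h m hm 1 (Nat.coprime_one_left m) le_rfl
      (fun u g _ hg hgu => ⟨g, hg, by rw [pow_one]; exact hgu⟩)
      (fun u hu hdv P' => hdv P') z hmz hz
  -- the level-raising case: a chart at level `p N`, `p ∈ {2, 3}` prime, `p ∤ N`, `p + 1` prime to `m`
  have raise : ∀ (p : ℕ) (hp : p.Prime) (_ : ¬ p ∣ N) [NeZero (p * N)] (hℓN₁ : ¬ ℓ ∣ p * N)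
      (_ : Nat.Coprime (p + 1) m),
      (∃ y : ↥(modularFunctionFieldBar (p * N)), h39_Chart (Rd (p * N) hℓN₁ A hA) y) → z = 0 := by
    intro p hp hpN _ hℓN₁ hcop hch
    obtain ⟨y, hy⟩ := hch
    obtain ⟨PR⟩ := hPR (p * N) A (Rd (p * N) hℓN₁ A hA) y hy
    exact h39_S18_of_charts N (p * N) A hA (Rd N hℓN A hA) (hRd N hℓN A hA) hx
      (Rd (p * N) hℓN₁ A hA) (hRd (p * N) hℓN₁ A hA) hy.toh39_WeakChart PR h m hm (p + 1) hcop
      (h46_bar_le (dvd_mul_left N p))
      (fun u g hu hg hgu => h46_level_descent N p hp hpN m u g hu hg hgu)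
      (fun u hu hdv P' => h46_level_ord_dvd (dvd_mul_left N p) (m : ℤ) u hu hdv P') z hmz hz
  by_cases h5 : 5 ≤ ℓ
  · exact direct (hcj N hℓN h5 A hA)
  · have hℓ : ℓ = 2 ∨ ℓ = 3 := by
      have h2 := hℓp.two_le
      have : ℓ < 5 := by omega
      interval_cases ℓ
      · exact Or.inl rfl
      · exact Or.inr rfl
      · exact absurd hℓp (by decide)
    rcases hℓ with rfl | rfl
    · -- `ℓ = 2`: the Hauptmodul `h₃`, at level `N` if `3 ∣ N`, at level `3 N` otherwise
      by_cases h3 : 3 ∣ N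
      · exact direct (hc3 N h3 hℓN A hA)
      · have : NeZero (3 * N) := ⟨mul_ne_zero (by norm_num) (NeZero.ne N)⟩
        have hℓN₁ : ¬ 2 ∣ 3 * N := by
          intro h2
          rcases (Nat.Prime.dvd_mul Nat.prime_two).mp h2 with h' | h'
          · omega
          · exact hℓN h'
        have hcop : Nat.Coprime (3 + 1) m := by
          have : Nat.Coprime 2 m := (Nat.Prime.coprime_iff_not_dvd Nat.prime_two).mpr hm
          exact Nat.Coprime.pow_left 2 this
        exact raise 3 Nat.prime_three h3 hℓN₁ hcop (hc3 (3 * N) (dvd_mul_right 3 N) hℓN₁ A hA)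
    · -- `ℓ = 3`: the Hauptmodul `h₂`, at level `N` if `2 ∣ N`, at level `2 N` otherwise
      by_cases h2 : 2 ∣ N
      · exact direct (hc2 N h2 hℓN A hA)
      · have : NeZero (2 * N) := ⟨mul_ne_zero (by norm_num) (NeZero.ne N)⟩
        have hℓN₁ : ¬ 3 ∣ 2 * N := by
          intro h3
          rcases (Nat.Prime.dvd_mul Nat.prime_three).mp h3 with h' | h'
          · omega
          · exact hℓN h'
        have hcop : Nat.Coprime (2 + 1) m :=
          (Nat.Prime.coprime_iff_not_dvd Nat.prime_three).mpr hm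
        exact raise 2 Nat.prime_two h2 hℓN₁ hcop (hc2 (2 * N) (dvd_mul_right 2 N) hℓN₁ A hA)

end Fermat.Agent.S18

end
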