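import Mathlib
import Fermat.Prelude.Def_FLTPrelim_Ramification

set_option autoImplicit false

namespace Fermat.Agent.S18

open Polynomial

/-- The residue field of a valuation subring of an algebraically closed field is algebraically
closed. -/
theorem h19_residueField_isAlgClosed {K : Type*} [Field K] [IsAlgClosed K]
    (A : ValuationSubring K) : IsAlgClosed (IsLocalRing.ResidueField A) := by
  refine IsAlgClosed.of_exists_root _ fun p hpm hpi => ?_
  have hsurj : Function.Surjective (IsLocalRing.residue A) := IsLocalRing.residue_surjective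
  have hlift : p ∈ Polynomial.lifts (IsLocalRing.residue A) := by
    rw [Polynomial.mem_lifts]
    exact Polynomial.map_surjective _ hsurj p
  obtain ⟨q, hq, hqdeg, hqm⟩ := Polynomial.lifts_and_natDegree_eq_and_monic hlift hpm
  have hpdeg : p.natDegree ≠ 0 := fun h0 => by
    have : p = 1 := by
      rw [Polynomial.eq_C_of_natDegree_eq_zero h0]
      have h1 : p.coeff 0 = 1 := by
        have := hpm.coeff_natDegree
        rwa [h0] at this
      rw [h1, Polynomial.C_1]
    exact hpi.not_isUnit (this ▸ isUnit_one)
  have hinj : Function.Injective (algebraMap A K) := Subtype.val_injective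
  have hdeg : (q.map (algebraMap A K)).degree ≠ 0 := by
    rw [Polynomial.degree_map_eq_of_injective hinj, Polynomial.degree_eq_natDegree hqm.ne_zero,
      hqdeg]
    exact_mod_cast hpdeg
  obtain ⟨x, hx⟩ := IsAlgClosed.exists_root _ hdeg
  have hxint : IsIntegral A x := ⟨q, hqm, by rwa [Polynomial.IsRoot.def, Polynomial.eval_map] at hx⟩
  obtain ⟨y, rfl⟩ := (IsIntegrallyClosed.isIntegral_iff (R := A) (K := K)).1 hxint
  refine ⟨IsLocalRing.residue A y, ?_⟩
  rw [Polynomial.IsRoot.def, Polynomial.eval_map, ← Polynomial.aeval_def,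
    Polynomial.aeval_algebraMap_apply] at hx
  have h0 : Polynomial.eval y q = 0 := by
    rw [← Polynomial.coe_aeval_eq_eval]
    exact hinj (by rw [hx, map_zero])
  rw [← hq, Polynomial.eval_map, Polynomial.eval₂_hom, h0, map_zero]

/-- The residue field of a valuation subring lying over the prime `ℓ` has characteristic `ℓ`. -/
theorem h19_residueField_charP {K : Type*} [Field K] (A : ValuationSubring K) (ℓ : ℕ)
    [Fact ℓ.Prime] (hA : A.LiesOverPrime ℓ) : CharP (IsLocalRing.ResidueField A) ℓ := by
  have h0 : ((ℓ : ℕ) : IsLocalRing.ResidueField A) = 0 := by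
    have hmem : ((ℓ : ℕ) : A) ∈ IsLocalRing.maximalIdeal A := by
      rw [IsLocalRing.mem_maximalIdeal, mem_nonunits_iff]
      intro hu
      have hA' : ((ℓ : ℕ) : K) ∈ A.nonunits := hA
      rw [ValuationSubring.mem_nonunits_iff_exists_mem_maximalIdeal] at hA'
      obtain ⟨ha, hmem⟩ := hA'
      rw [IsLocalRing.mem_maximalIdeal, mem_nonunits_iff] at hmem
      apply hmem
      convert hu using 1
      exact Subtype.ext (by simp)
    have := (IsLocalRing.residue_eq_zero_iff (R := A) _).2 hmem
    rwa [map_natCast] at this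
  exact (CharP.charP_iff_prime_eq_zero (Fact.out : ℓ.Prime)).2 h0

/-- A natural number prime to `ℓ` is nonzero in the residue field. -/
theorem h19_natCast_residueField_ne_zero {K : Type*} [Field K] (A : ValuationSubring K) (ℓ : ℕ)
    [Fact ℓ.Prime] (hA : A.LiesOverPrime ℓ) (m : ℕ) (hm : ¬ ℓ ∣ m) :
    (m : IsLocalRing.ResidueField A) ≠ 0 := by
  have := h19_residueField_charP A ℓ hA
  rwa [Ne, CharP.cast_eq_zero_iff (IsLocalRing.ResidueField A) ℓ]

end Fermat.Agent.S18
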