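import Mathlib
import Fermat.Prelude.Def_ModularCurve_X0

/-!
# S18 / MOD-QC (helper6): first `q`-coefficients of `j`, truncation of the eta product

* `h6_Cong m f g` : congruence of integral power series modulo `X ^ m`, with a small calculus
  (`refl`, `symm`, `trans`, `add`, `neg`, `sub`, `mul`, `pow`, `mono`, `iff_coeff`, `iff_dvd`,
  `inv`).
* `h6_etaProd_trunc` : `∏ (1 - qⁿ) ≡ ∏_{n ≤ m} (1 - qⁿ) (mod q^(m+1))`.
* `h6_jNum_trunc` : `q·j ≡ 1 + 744 q + 196884 q² (mod q³)`.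
-/

set_option autoImplicit false

open scoped PowerSeries.WithPiTopology
open PowerSeries ModularCurve

namespace Fermat.Agent.S18

/-- Congruence of integral power series modulo `X ^ m`. -/
def h6_Cong (m : ℕ) (f g : PowerSeries ℤ) : Prop := ∃ S : PowerSeries ℤ, f = g + X ^ m * S

namespace h6_Cong

variable {m : ℕ} {f g h f' g' : PowerSeries ℤ}

theorem refl (m : ℕ) (f : PowerSeries ℤ) : h6_Cong m f f := ⟨0, by simp⟩

theorem of_eq (hfg : f = g) : h6_Cong m f g := hfg ▸ refl m f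

theorem symm (h1 : h6_Cong m f g) : h6_Cong m g f := by
  obtain ⟨S, hS⟩ := h1
  exact ⟨-S, by rw [hS]; ring⟩

theorem trans (h1 : h6_Cong m f g) (h2 : h6_Cong m g h) : h6_Cong m f h := by
  obtain ⟨S, hS⟩ := h1
  obtain ⟨T, hT⟩ := h2
  exact ⟨T + S, by rw [hS, hT]; ring⟩

theorem add (h1 : h6_Cong m f g) (h2 : h6_Cong m f' g') : h6_Cong m (f + f') (g + g') := by
  obtain ⟨S, hS⟩ := h1
  obtain ⟨T, hT⟩ := h2
  exact ⟨S + T, by rw [hS, hT]; ring⟩

theorem neg (h1 : h6_Cong m f g) : h6_Cong m (-f) (-g) := by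
  obtain ⟨S, hS⟩ := h1
  exact ⟨-S, by rw [hS]; ring⟩

theorem sub (h1 : h6_Cong m f g) (h2 : h6_Cong m f' g') : h6_Cong m (f - f') (g - g') := by
  obtain ⟨S, hS⟩ := h1
  obtain ⟨T, hT⟩ := h2
  exact ⟨S - T, by rw [hS, hT]; ring⟩

theorem mul (h1 : h6_Cong m f g) (h2 : h6_Cong m f' g') : h6_Cong m (f * f') (g * g') := by
  obtain ⟨S, hS⟩ := h1
  obtain ⟨T, hT⟩ := h2
  exact ⟨S * g' + g * T + X ^ m * S * T, by rw [hS, hT]; ring⟩

theorem pow (h1 : h6_Cong m f g) (n : ℕ) : h6_Cong m (f ^ n) (g ^ n) := by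
  induction n with
  | zero => simpa using refl m 1
  | succ n ih =>
    rw [pow_succ, pow_succ]
    exact ih.mul h1

theorem mono {m' : ℕ} (hm : m' ≤ m) (h1 : h6_Cong m f g) : h6_Cong m' f g := by
  obtain ⟨S, hS⟩ := h1
  refine ⟨X ^ (m - m') * S, ?_⟩
  rw [hS, ← mul_assoc, ← pow_add, Nat.add_sub_cancel' hm]

theorem iff_dvd : h6_Cong m f g ↔ X ^ m ∣ f - g := by
  constructor
  · rintro ⟨S, hS⟩
    exact ⟨S, by rw [hS]; ring⟩
  · rintro ⟨S, hS⟩
    exact ⟨S, by rw [← hS]; ring⟩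

theorem iff_coeff : h6_Cong m f g ↔ ∀ n < m, coeff n f = coeff n g := by
  rw [iff_dvd, PowerSeries.X_pow_dvd_iff]
  simp [sub_eq_zero]

/-- inverses of congruent units are congruent. -/
theorem inv {u v u' v' : PowerSeries ℤ} (huv : u * v = 1) (hu : h6_Cong m u u')
    (h1 : h6_Cong m (u' * v') 1) : h6_Cong m v v' := by
  have h2 : h6_Cong m (u * v') 1 := (hu.mul (refl m v')).trans h1
  have h3 : h6_Cong m (v * (u * v')) (v * 1) := (refl m v).mul h2
  have h4 : v * (u * v') = v' := by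
    rw [← mul_assoc, mul_comm v u, huv, one_mul]
  rw [h4, mul_one] at h3
  exact h3.symm

end h6_Cong

/-- `E₄ ≡ 1 + 240 q + 2160 q² (mod q³)`. -/
theorem h6_cong_eisenstein4 : h6_Cong 3 eisenstein4 (1 + 240 * X + 2160 * X ^ 2) := by
  have e : (1 + 240 * X + 2160 * X ^ 2 : PowerSeries ℤ)
      = C (1 : ℤ) + C (240 : ℤ) * X + C (2160 : ℤ) * X ^ 2 := by
    simp [map_ofNat]
  have hd1 : ∑ d ∈ Nat.divisors 1, (d : ℤ) ^ 3 = 1 := by decide
  have hd2 : ∑ d ∈ Nat.divisors 2, (d : ℤ) ^ 3 = 9 := by decide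
  rw [e, h6_Cong.iff_coeff]
  intro n hn
  interval_cases n
  · simp only [map_add, coeff_C_mul, coeff_X, coeff_X_pow, coeff_C, eisenstein4, coeff_mk]
    norm_num
  · simp only [map_add, coeff_C_mul, coeff_X, coeff_X_pow, coeff_C, eisenstein4, coeff_mk, hd1]
    norm_num
  · simp only [map_add, coeff_C_mul, coeff_X, coeff_X_pow, coeff_C, eisenstein4, coeff_mk, hd2]
    norm_num

theorem h6_cong_one_sub_X_pow (m i : ℕ) (hi : m ≤ i) :
    h6_Cong (m + 1) ((1 : PowerSeries ℤ) - X ^ (i + 1)) 1 := by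
  refine ⟨-X ^ (i - m), ?_⟩
  have h1 : i + 1 = (m + 1) + (i - m) := by omega
  rw [h1, pow_add]
  ring

/-- `∏ (1 - qⁿ) ≡ ∏_{n ≤ m} (1 - qⁿ) (mod q^(m+1))`, congruence form. -/
theorem h6_cong_etaProd (m : ℕ) :
    h6_Cong (m + 1) etaProd (∏ n ∈ Finset.range m, (1 - X ^ (n + 1))) := by
  have hprod : Filter.Tendsto
      (fun s : Finset ℕ => ∏ b ∈ s, ((1 : PowerSeries ℤ) - X ^ (b + 1))) Filter.atTop
      (nhds etaProd) :=
    (PowerSeries.WithPiTopology.multipliable_one_sub_X_pow ℤ).hasProd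
  have hclosed : IsClosed {g : PowerSeries ℤ |
      h6_Cong (m + 1) g (∏ n ∈ Finset.range m, (1 - X ^ (n + 1)))} := by
    have h1 : {g : PowerSeries ℤ |
        h6_Cong (m + 1) g (∏ n ∈ Finset.range m, (1 - X ^ (n + 1)))} =
        ⋂ n ∈ Finset.range (m + 1), (coeff n) ⁻¹'
          {coeff n (∏ n ∈ Finset.range m, ((1 : PowerSeries ℤ) - X ^ (n + 1)))} := by
      ext g
      simp [h6_Cong.iff_coeff]
    rw [h1]
    exact isClosed_biInter (fun n _ =>
      isClosed_singleton.preimage (PowerSeries.WithPiTopology.continuous_coeff ℤ n))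
  refine hclosed.mem_of_tendsto hprod ?_
  filter_upwards [Filter.eventually_ge_atTop (Finset.range m)] with s hs
  show h6_Cong (m + 1) (∏ b ∈ s, ((1 : PowerSeries ℤ) - X ^ (b + 1)))
    (∏ n ∈ Finset.range m, (1 - X ^ (n + 1)))
  rw [← Finset.prod_sdiff hs]
  have h1 : h6_Cong (m + 1) (∏ b ∈ s \ Finset.range m, ((1 : PowerSeries ℤ) - X ^ (b + 1))) 1 := by
    apply Finset.prod_induction _ (fun g => h6_Cong (m + 1) g 1)
    · intro a b ha hb
      simpa using ha.mul hb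
    · exact h6_Cong.refl _ _
    · intro i hi
      rw [Finset.mem_sdiff, Finset.mem_range, not_lt] at hi
      exact h6_cong_one_sub_X_pow m i hi.2
  simpa using h1.mul (h6_Cong.refl (m + 1) (∏ n ∈ Finset.range m, (1 - X ^ (n + 1))))

/-- **QC** `∏ (1 - qⁿ) ≡ ∏_{n ≤ m} (1 - qⁿ) (mod q^(m+1))`. -/
theorem h6_etaProd_trunc (m : ℕ) : ∃ S : PowerSeries ℤ,
    etaProd = (∏ n ∈ Finset.range m, (1 - PowerSeries.X ^ (n + 1)))
      + PowerSeries.X ^ (m + 1) * S :=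
  h6_cong_etaProd m

/-- `∏ (1 - qⁿ) ≡ 1 - q - q² (mod q³)`. -/
theorem h6_cong_etaProd_three : h6_Cong 3 etaProd (1 - X - X ^ 2) := by
  refine (h6_cong_etaProd 2).trans ⟨1, ?_⟩
  simp only [Finset.prod_range_succ, Finset.prod_range_zero]
  ring

/-- `η-unit = ∏ (1 - qⁿ)^24 ≡ 1 - 24 q + 252 q² (mod q³)`. -/
theorem h6_cong_dedekindEtaUnit : h6_Cong 3 dedekindEtaUnit (1 - 24 * X + 252 * X ^ 2) := by
  have h1 := h6_cong_etaProd_three
  have h2 : h6_Cong 3 (etaProd ^ 2) (1 - 2 * X - X ^ 2) :=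
    (h1.pow 2).trans ⟨2 + X, by ring⟩
  have h3 : h6_Cong 3 (etaProd ^ 3) (1 - 3 * X) := by
    have h := h2.mul h1
    rw [← pow_succ] at h
    exact h.trans ⟨3 + X, by ring⟩
  have h6 : h6_Cong 3 (etaProd ^ 6) (1 - 6 * X + 9 * X ^ 2) := by
    have h := h3.pow 2
    rw [← pow_mul] at h
    exact h.trans ⟨0, by ring⟩
  have h12 : h6_Cong 3 (etaProd ^ 12) (1 - 12 * X + 54 * X ^ 2) := by
    have h := h6.pow 2
    rw [← pow_mul] at h
    exact h.trans ⟨-108 + 81 * X, by ring⟩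
  have h24 : h6_Cong 3 (etaProd ^ 24) (1 - 24 * X + 252 * X ^ 2) := by
    have h := h12.pow 2
    rw [← pow_mul] at h
    exact h.trans ⟨-1296 + 2916 * X, by ring⟩
  exact h24

/-- `1/η-unit ≡ 1 + 24 q + 324 q² (mod q³)`. -/
theorem h6_cong_dedekindEtaUnitInv :
    h6_Cong 3 dedekindEtaUnitInv (1 + 24 * X + 324 * X ^ 2) :=
  h6_Cong.inv dedekindEtaUnit_mul_inv h6_cong_dedekindEtaUnit ⟨-1728 + 81648 * X, by ring⟩

/-- `q·j ≡ 1 + 744 q + 196884 q² (mod q³)`, congruence form. -/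
theorem h6_cong_jNum : h6_Cong 3 jNum (1 + 744 * X + 196884 * X ^ 2) := by
  have h1 : h6_Cong 3 (eisenstein4 ^ 3) (1 + 720 * X + 179280 * X ^ 2) :=
    (h6_cong_eisenstein4.pow 3).trans
      ⟨16934400 + 387244800 * X + 3359232000 * X ^ 2 + 10077696000 * X ^ 3, by ring⟩
  exact (h1.mul h6_cong_dedekindEtaUnitInv).trans ⟨4536000 + 58086720 * X, by ring⟩

/-- **QC** the first coefficients of `j`: `q·j ≡ 1 + 744 q + 196884 q² (mod q³)`. -/
theorem h6_jNum_trunc : ∃ S : PowerSeries ℤ,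
    jNum = 1 + 744 * PowerSeries.X + 196884 * PowerSeries.X ^ 2 + PowerSeries.X ^ 3 * S :=
  h6_cong_jNum

end Fermat.Agent.S18
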