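import Mathlib
import Fermat.Agent.S28.Defs
import Fermat.Agent.S28.Formal
import Fermat.Agent.S28.Orders
import Fermat.Agent.S18.h6_ModQC

/-!
# S18 / MOD-H3 (helper24): the Hauptmodul of `X₀(3)` as a `q`-series

`h₃ = q⁻¹ ∏ ((1 - qⁿ)/(1 - q³ⁿ))¹²` satisfies

* `j h₃³ = (h₃ + 27)(h₃ + 243)³`,
* `j(q³) h₃ = (h₃ + 27)(h₃ + 3)³`.

`h24_hm3_rel_of` proves both relations from the product trick (MOD-PT) at `p = 3`, taken as an
explicit hypothesis; `h24_coeffMap_hm3` is the base change of `h₃`.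
-/

set_option autoImplicit false

noncomputable section

namespace Fermat.Agent.S18

open ModularCurve Fermat.Agent.S28

/-- `∏ (1 - qⁿ)¹²` as a Laurent series over `R`. -/
def h24_eta12 (R : Type) [CommRing R] : LaurentSeries R :=
  HahnSeries.ofPowerSeries ℤ R ((etaProd ^ 12).map (Int.castRingHom R))

/-- `∏ (1 - qⁿ)⁻¹²` as a Laurent series over `R`. -/
def h24_eta12Inv (R : Type) [CommRing R] : LaurentSeries R :=
  HahnSeries.ofPowerSeries ℤ R ((etaProd ^ 12 * dedekindEtaUnitInv).map (Int.castRingHom R))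

/-- `h₃ = q⁻¹ ∏ ((1 - qⁿ)/(1 - q³ⁿ))¹²`  (`h₃² = Δ(q)/Δ(q³)`). -/
def h24_hm3 (R : Type) [CommRing R] : LaurentSeries R :=
  HahnSeries.single (-1 : ℤ) 1 * h24_eta12 R * expand R 3 (h24_eta12Inv R)

theorem h24_map_map_int {A B : Type*} [CommRing A] [CommRing B] (φ : A →+* B)
    (p : PowerSeries ℤ) :
    (p.map (Int.castRingHom A)).map φ = p.map (Int.castRingHom B) := by
  rw [← RingHom.comp_apply (PowerSeries.map φ) (PowerSeries.map (Int.castRingHom A)),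
    ← PowerSeries.map_comp, RingHom.ext_int (φ.comp (Int.castRingHom A)) (Int.castRingHom B)]

/-- Base change of `h₃`. -/
theorem h24_coeffMap_hm3 {R S : Type} [CommRing R] [CommRing S] (f : R →+* S) :
    coeffMap f (h24_hm3 R) = h24_hm3 S := by
  rw [h24_hm3, map_mul, map_mul, coeffMap_single, map_one, coeffMap_expand, h24_eta12,
    h24_eta12Inv, coeffMap_ofPowerSeries, coeffMap_ofPowerSeries, h24_map_map_int,
    h24_map_map_int]
  rfl

/-! ### power series congruences -/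

section Cong

open PowerSeries

theorem h24_cong_expand (p : ℕ) (hp : p ≠ 0) {m : ℕ} {f g : PowerSeries ℤ}
    (h : h6_Cong m f g) :
    h6_Cong (p * m) (PowerSeries.expand p hp f) (PowerSeries.expand p hp g) := by
  obtain ⟨S, rfl⟩ := h
  exact ⟨PowerSeries.expand p hp S, by
    rw [map_add, map_mul, map_pow, PowerSeries.expand_X, ← pow_mul]⟩

/-- `∏ (1 - qⁿ) ≡ 1 - q - q² + q⁵ (mod q⁶)`. -/
theorem h24_cong_etaProd_six : h6_Cong 6 etaProd (1 - X - X ^ 2 + X ^ 5) := by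
  refine (h6_cong_etaProd 5).trans
    ⟨1 + X - X ^ 2 - X ^ 3 - X ^ 4 + X ^ 7 + X ^ 8 - X ^ 9, ?_⟩
  simp only [Finset.prod_range_succ, Finset.prod_range_zero]
  ring

/-- `∏ (1 - qⁿ)¹² (mod q⁶)`. -/
theorem h24_cong_eta12_six : h6_Cong 6 (etaProd ^ 12)
    (1 - 12 * X + 54 * X ^ 2 - 88 * X ^ 3 - 99 * X ^ 4 + 540 * X ^ 5) := by
  have h1 := h24_cong_etaProd_six
  have h2 : h6_Cong 6 (etaProd ^ 2) (1 - 2 * X - X ^ 2 + 2 * X ^ 3 + X ^ 4 + 2 * X ^ 5) :=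
    (h1.pow 2).trans ⟨-2 - 2 * X + X ^ 4, by ring⟩
  have h4 : h6_Cong 6 (etaProd ^ 4)
      (1 - 4 * X + 2 * X ^ 2 + 8 * X ^ 3 - 5 * X ^ 4 - 4 * X ^ 5) := by
    have h := h2.pow 2
    rw [← pow_mul] at h
    exact h.trans ⟨-6 + 9 * X ^ 2 + 4 * X ^ 3 + 4 * X ^ 4, by ring⟩
  have h8 : h6_Cong 6 (etaProd ^ 8) (1 - 8 * X + 20 * X ^ 2 - 70 * X ^ 4 + 64 * X ^ 5) := by
    have h := h4.pow 2
    rw [← pow_mul] at h
    exact h.trans ⟨76 - 96 * X - 39 * X ^ 2 + 40 * X ^ 3 + 16 * X ^ 4, by ring⟩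
  have h := h8.mul h4
  rw [← pow_add] at h
  exact h.trans ⟨-464 - 512 * X + 862 * X ^ 2 - 40 * X ^ 3 - 256 * X ^ 4, by ring⟩

theorem h24_eta12_mul_inv : etaProd ^ 12 * (etaProd ^ 12 * dedekindEtaUnitInv) = 1 := by
  have h := dedekindEtaUnit_mul_inv
  rw [dedekindEtaUnit] at h
  rw [← mul_assoc, ← pow_add]
  exact h

/-- `∏ (1 - qⁿ)⁻¹² ≡ 1 + 12 q (mod q²)`. -/
theorem h24_cong_eta12Inv : h6_Cong 2 (etaProd ^ 12 * dedekindEtaUnitInv) (1 + 12 * X) := by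
  have hu : h6_Cong 2 (etaProd ^ 12) (1 - 12 * X) :=
    (h24_cong_eta12_six.mono (by norm_num)).trans
      ⟨54 - 88 * X - 99 * X ^ 2 + 540 * X ^ 3, by ring⟩
  exact h6_Cong.inv h24_eta12_mul_inv hu ⟨-144, by ring⟩

/-- The numerator `q h₃` of `h₃`, as an integral power series. -/
def h24_H : PowerSeries ℤ :=
  etaProd ^ 12 * PowerSeries.expand 3 three_ne_zero (etaProd ^ 12 * dedekindEtaUnitInv)

/-- `q h₃ (mod q⁶)`. -/
theorem h24_cong_H_six : h6_Cong 6 h24_H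
    (1 - 12 * X + 54 * X ^ 2 - 76 * X ^ 3 - 243 * X ^ 4 + 1188 * X ^ 5) := by
  have hV : h6_Cong 6 (PowerSeries.expand 3 three_ne_zero (etaProd ^ 12 * dedekindEtaUnitInv))
      (1 + 12 * X ^ 3) := by
    have h := h24_cong_expand 3 three_ne_zero h24_cong_eta12Inv
    have e : PowerSeries.expand 3 three_ne_zero (1 + 12 * X : PowerSeries ℤ) = 1 + 12 * X ^ 3 := by
      rw [map_add, map_mul, map_one, map_ofNat, PowerSeries.expand_X]
    rw [e] at h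
    exact h
  exact (h24_cong_eta12_six.mul hV).trans ⟨-1056 - 1188 * X + 6480 * X ^ 2, by ring⟩

/-- `q h₃ (mod q³)`. -/
theorem h24_cong_H_three : h6_Cong 3 h24_H (1 - 12 * X + 54 * X ^ 2) :=
  (h24_cong_H_six.mono (by norm_num)).trans ⟨-76 - 243 * X + 1188 * X ^ 2, by ring⟩

/-- `q³ j(q³) (mod q⁶)`. -/
theorem h24_cong_J3 : h6_Cong 6 (PowerSeries.expand 3 three_ne_zero jNum) (1 + 744 * X ^ 3) := by
  have h := (h24_cong_expand 3 three_ne_zero h6_cong_jNum).mono (show 6 ≤ 3 * 3 by norm_num)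
  have e : PowerSeries.expand 3 three_ne_zero (1 + 744 * X + 196884 * X ^ 2 : PowerSeries ℤ)
      = 1 + 744 * X ^ 3 + 196884 * (X ^ 3) ^ 2 := by
    rw [map_add, map_add, map_mul, map_mul, map_one, map_ofNat, map_ofNat, map_pow,
      PowerSeries.expand_X]
  rw [e] at h
  exact h.trans ⟨196884, by ring⟩

/-- the first relation, modulo `q³` (after clearing `q⁻⁴`). -/
theorem h24_cong_G : ∃ S : PowerSeries ℤ,
    jNum * h24_H ^ 3 - (h24_H + 27 * X) * (h24_H + 243 * X) ^ 3 = X ^ 3 * S := by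
  have h := ((h6_cong_jNum.mul (h24_cong_H_three.pow 3)).sub
    ((h24_cong_H_three.add (h6_Cong.refl 3 (27 * X))).mul
      ((h24_cong_H_three.add (h6_Cong.refl 3 (243 * X))).pow 3))).trans
    (⟨-21493836 - 90522117 * X - 1883426904 * X ^ 2 + 5739562800 * X ^ 3
      - 20662426080 * X ^ 4 + 30993639120 * X ^ 5, by ring⟩ : h6_Cong 3 _ 0)
  obtain ⟨S, hS⟩ := h
  exact ⟨S, by rw [hS, zero_add]⟩

/-- the second relation, modulo `q⁶` (after clearing `q⁻⁴`). -/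
theorem h24_cong_D : ∃ S : PowerSeries ℤ,
    PowerSeries.expand 3 three_ne_zero jNum * h24_H
      - (h24_H + 27 * X) * (h24_H + 3 * X) ^ 3 = X ^ 6 * S := by
  have h := ((h24_cong_J3.mul h24_cong_H_six).sub
    ((h24_cong_H_six.add (h6_Cong.refl 6 (27 * X))).mul
      ((h24_cong_H_six.add (h6_Cong.refl 6 (3 * X))).pow 3))).trans
    (⟨-201036 + 2403684 * X - 10939374 * X ^ 2 - 4302572 * X ^ 3 + 289897098 * X ^ 4
      - 1283540040 * X ^ 5 + 810375620 * X ^ 6 + 12732975468 * X ^ 7 - 47208668616 * X ^ 8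
      + 20642585616 * X ^ 9 + 253934662959 * X ^ 10 - 606752566992 * X ^ 11
      + 9678997152 * X ^ 12 + 1629729725184 * X ^ 13 - 1991891886336 * X ^ 14, by ring⟩ :
      h6_Cong 6 _ 0)
  obtain ⟨S, hS⟩ := h
  exact ⟨S, by rw [hS, zero_add]⟩

theorem h24_constantCoeff_H : PowerSeries.constantCoeff h24_H = 1 := by
  rw [h24_H, map_mul, map_pow, constantCoeff_etaProd, PowerSeries.constantCoeff_expand, map_mul,
    map_pow, constantCoeff_etaProd, constantCoeff_dedekindEtaUnitInv]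
  norm_num

theorem h24_H_sq :
    h24_H ^ 2 = dedekindEtaUnit * PowerSeries.expand 3 three_ne_zero dedekindEtaUnitInv := by
  have h := dedekindEtaUnit_mul_inv
  rw [dedekindEtaUnit] at h
  have h1 : (etaProd ^ 12 * dedekindEtaUnitInv) ^ 2 = dedekindEtaUnitInv := by
    calc (etaProd ^ 12 * dedekindEtaUnitInv) ^ 2
        = (etaProd ^ 24 * dedekindEtaUnitInv) * dedekindEtaUnitInv := by ring
      _ = dedekindEtaUnitInv := by rw [h, one_mul]
  rw [h24_H, mul_pow, ← map_pow, h1, ← pow_mul, dedekindEtaUnit]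

end Cong

/-! ### transfer to Laurent series over `ℤ` -/

section Laurent

/-- the formal substitution `q ↦ q^m` on Laurent series restricts to `PowerSeries.expand`. -/
theorem h24_expand_ofPowerSeries {A : Type} [CommRing A] (m : ℕ) (hm : m ≠ 0)
    (P : PowerSeries A) :
    expand A m (HahnSeries.ofPowerSeries ℤ A P) =
      HahnSeries.ofPowerSeries ℤ A (PowerSeries.expand m hm P) := by
  have hm' : (0 : ℤ) < m := by exact_mod_cast Nat.pos_of_ne_zero hm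
  ext k
  by_cases hdvd : (m : ℤ) ∣ k
  · obtain ⟨j, rfl⟩ := hdvd
    rw [expand_coeff_mul m hm]
    rcases lt_or_ge j 0 with hj | hj
    · rw [ofPowerSeries_coeff_of_neg _ hj,
        ofPowerSeries_coeff_of_neg _ (mul_neg_of_pos_of_neg hm' hj)]
    · lift j to ℕ using hj
      rw [HahnSeries.ofPowerSeries_apply_coeff, ← Nat.cast_mul,
        HahnSeries.ofPowerSeries_apply_coeff, PowerSeries.coeff_expand_mul]
  · rw [expand_coeff_of_not_dvd m hm _ hdvd]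
    rcases lt_or_ge k 0 with hk | hk
    · rw [ofPowerSeries_coeff_of_neg _ hk]
    · lift k to ℕ using hk
      rw [HahnSeries.ofPowerSeries_apply_coeff, PowerSeries.coeff_expand_of_not_dvd]
      intro h
      exact hdvd (Int.natCast_dvd_natCast.2 h)

theorem h24_map_int_id (p : PowerSeries ℤ) : p.map (Int.castRingHom ℤ) = p := by
  have h : Int.castRingHom ℤ = RingHom.id ℤ := RingHom.ext_int _ _
  rw [h, PowerSeries.map_id]
  rfl

local notation "Ti" => (HahnSeries.single (-1 : ℤ) (1 : ℤ) : LaurentSeries ℤ)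

local notation "Tt" => (HahnSeries.single (1 : ℤ) (1 : ℤ) : LaurentSeries ℤ)

local notation "ι" => HahnSeries.ofPowerSeries ℤ ℤ

theorem h24_Ti_mul_T : Ti * Tt = 1 := by
  rw [HahnSeries.single_mul_single, mul_one]
  rfl

theorem h24_hm3_eq : h24_hm3 ℤ = Ti * ι h24_H := by
  rw [h24_hm3, h24_eta12, h24_eta12Inv, h24_map_int_id, h24_map_int_id,
    h24_expand_ofPowerSeries 3 three_ne_zero, mul_assoc, ← map_mul]
  rfl

theorem h24_jq_eq : jqModC ℤ = Ti * ι jNum := by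
  rw [jqModC, h24_map_int_id]

theorem h24_Ti_expand : expand ℤ 3 Ti = Ti ^ 3 := by
  rw [expand_single 3 three_ne_zero, HahnSeries.single_pow, one_pow]
  norm_num

theorem h24_jq3_eq :
    expand ℤ 3 (jqModC ℤ) = Ti ^ 3 * ι (PowerSeries.expand 3 three_ne_zero jNum) := by
  rw [h24_jq_eq, map_mul, h24_expand_ofPowerSeries 3 three_ne_zero, h24_Ti_expand]

theorem h24_deltaHat_eq : deltaHat ℤ = Tt * ι dedekindEtaUnit := by
  rw [deltaHat, h24_map_int_id]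

theorem h24_deltaHatInv3_eq : expand ℤ 3 (deltaHatInv ℤ) =
    Ti ^ 3 * ι (PowerSeries.expand 3 three_ne_zero dedekindEtaUnitInv) := by
  rw [deltaHatInv, h24_map_int_id, map_mul, h24_expand_ofPowerSeries 3 three_ne_zero,
    h24_Ti_expand]

/-- `h₃² = Δ(q)/Δ(q³)`. -/
theorem h24_hm3_sq : h24_hm3 ℤ ^ 2 = deltaHat ℤ * expand ℤ 3 (deltaHatInv ℤ) := by
  have e1 : (ι h24_H) ^ 2 = ι dedekindEtaUnit *
      ι (PowerSeries.expand 3 three_ne_zero dedekindEtaUnitInv) := by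
    rw [← map_pow, h24_H_sq, map_mul]
  rw [h24_hm3_eq, h24_deltaHat_eq, h24_deltaHatInv3_eq, mul_pow, e1]
  linear_combination (-(Ti ^ 2 * ι dedekindEtaUnit *
    ι (PowerSeries.expand 3 three_ne_zero dedekindEtaUnitInv))) * h24_Ti_mul_T

/-! #### lowest terms -/

theorem h24_LT_Ti_pow (k : ℕ) (P : PowerSeries ℤ) :
    h33_LT (Ti ^ k * ι P) (-(k : ℤ)) (PowerSeries.constantCoeff P) := by
  have h := h33_LT_mul (h33_LT_pow (h33_LT_single (-1 : ℤ) (1 : ℤ)) k) (h33_LT_ofPowerSeries P)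
  exact h33_LT_congr h (by ring) (by rw [one_pow, one_mul])

theorem h24_LT_Ti_pow_X (k m : ℕ) (S : PowerSeries ℤ) :
    h33_LT (Ti ^ k * ι (PowerSeries.X ^ m * S)) ((m : ℤ) - k) (PowerSeries.constantCoeff S) := by
  have h := h33_LT_mul (h33_LT_pow (h33_LT_single (-1 : ℤ) (1 : ℤ)) k)
    (h33_LT_mul (h33_LT_pow (h33_LT_single (1 : ℤ) (1 : ℤ)) m) (h33_LT_ofPowerSeries S))
  rw [map_mul, map_pow, HahnSeries.ofPowerSeries_X]
  exact h33_LT_congr h (by ring) (by rw [one_pow, one_pow, one_mul, one_mul])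

theorem h24_le_order {f : LaurentSeries ℤ} {n : ℤ} {c : ℤ} (hf : h33_LT f n c) (h0 : f ≠ 0) :
    n ≤ f.order := by
  by_contra hlt
  exact h0 (HahnSeries.coeff_order_eq_zero.mp (hf.2 _ (not_le.mp hlt)))

/-! #### clearing the powers of `q` -/

theorem h24_alg_G {R : Type*} [CommRing R] (ti t a b : R) (h : ti * t = 1) :
    ti * b * (ti * a) ^ 3 - (ti * a + 27) * (ti * a + 243) ^ 3 =
      ti ^ 4 * (b * a ^ 3 - (a + 27 * t) * (a + 243 * t) ^ 3) := by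
  have e : ti * b * (ti * a) ^ 3 - (ti * a + 27 * (ti * t)) * (ti * a + 243 * (ti * t)) ^ 3 =
      ti ^ 4 * (b * a ^ 3 - (a + 27 * t) * (a + 243 * t) ^ 3) := by ring
  rw [h, mul_one, mul_one] at e
  exact e

theorem h24_alg_Gm {R : Type*} [CommRing R] (ti t a b : R) (h : ti * t = 1) :
    -(ti * b * (ti * a) ^ 3) - (27 - ti * a) * (243 - ti * a) ^ 3 =
      ti ^ 4 * (-(b * a ^ 3) - (27 * t - a) * (243 * t - a) ^ 3) := by
  have e : -(ti * b * (ti * a) ^ 3) - (27 * (ti * t) - ti * a) * (243 * (ti * t) - ti * a) ^ 3 =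
      ti ^ 4 * (-(b * a ^ 3) - (27 * t - a) * (243 * t - a) ^ 3) := by ring
  rw [h, mul_one, mul_one] at e
  exact e

theorem h24_alg_D {R : Type*} [CommRing R] (ti t a c : R) (h : ti * t = 1) :
    ti ^ 3 * c * (ti * a) - (ti * a + 27) * (ti * a + 3) ^ 3 =
      ti ^ 4 * (c * a - (a + 27 * t) * (a + 3 * t) ^ 3) := by
  have e : ti ^ 3 * c * (ti * a) - (ti * a + 27 * (ti * t)) * (ti * a + 3 * (ti * t)) ^ 3 =
      ti ^ 4 * (c * a - (a + 27 * t) * (a + 3 * t) ^ 3) := by ring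
  rw [h, mul_one, mul_one] at e
  exact e

theorem h24_alg_Dm {R : Type*} [CommRing R] (ti t a c : R) (h : ti * t = 1) :
    -(ti ^ 3 * c * (ti * a)) - (27 - ti * a) * (3 - ti * a) ^ 3 =
      ti ^ 4 * (-(c * a) - (27 * t - a) * (3 * t - a) ^ 3) := by
  have e : -(ti ^ 3 * c * (ti * a)) - (27 * (ti * t) - ti * a) * (3 * (ti * t) - ti * a) ^ 3 =
      ti ^ 4 * (-(c * a) - (27 * t - a) * (3 * t - a) ^ 3) := by ring
  rw [h, mul_one, mul_one] at e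
  exact e

theorem h24_G_eq :
    jqModC ℤ * h24_hm3 ℤ ^ 3 - (h24_hm3 ℤ + 27) * (h24_hm3 ℤ + 243) ^ 3 =
      Ti ^ 4 * ι (jNum * h24_H ^ 3
        - (h24_H + 27 * PowerSeries.X) * (h24_H + 243 * PowerSeries.X) ^ 3) := by
  simp only [map_sub, map_mul, map_pow, map_add, map_ofNat, HahnSeries.ofPowerSeries_X]
  rw [h24_jq_eq, h24_hm3_eq]
  exact h24_alg_G _ _ _ _ h24_Ti_mul_T

theorem h24_Gm_eq :
    -(jqModC ℤ * h24_hm3 ℤ ^ 3) - (27 - h24_hm3 ℤ) * (243 - h24_hm3 ℤ) ^ 3 =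
      Ti ^ 4 * ι (-(jNum * h24_H ^ 3)
        - (27 * PowerSeries.X - h24_H) * (243 * PowerSeries.X - h24_H) ^ 3) := by
  simp only [map_sub, map_neg, map_mul, map_pow, map_ofNat, HahnSeries.ofPowerSeries_X]
  rw [h24_jq_eq, h24_hm3_eq]
  exact h24_alg_Gm _ _ _ _ h24_Ti_mul_T

theorem h24_D_eq :
    expand ℤ 3 (jqModC ℤ) * h24_hm3 ℤ - (h24_hm3 ℤ + 27) * (h24_hm3 ℤ + 3) ^ 3 =
      Ti ^ 4 * ι (PowerSeries.expand 3 three_ne_zero jNum * h24_H
        - (h24_H + 27 * PowerSeries.X) * (h24_H + 3 * PowerSeries.X) ^ 3) := by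
  simp only [map_sub, map_mul, map_pow, map_add, map_ofNat, HahnSeries.ofPowerSeries_X]
  rw [h24_jq3_eq, h24_hm3_eq]
  exact h24_alg_D _ _ _ _ h24_Ti_mul_T

theorem h24_Dm_eq :
    -(expand ℤ 3 (jqModC ℤ) * h24_hm3 ℤ) - (27 - h24_hm3 ℤ) * (3 - h24_hm3 ℤ) ^ 3 =
      Ti ^ 4 * ι (-(PowerSeries.expand 3 three_ne_zero jNum * h24_H)
        - (27 * PowerSeries.X - h24_H) * (3 * PowerSeries.X - h24_H) ^ 3) := by
  simp only [map_sub, map_neg, map_mul, map_pow, map_ofNat, HahnSeries.ofPowerSeries_X]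
  rw [h24_jq3_eq, h24_hm3_eq]
  exact h24_alg_Dm _ _ _ _ h24_Ti_mul_T

/-- `G = j h₃³ - (h₃+27)(h₃+243)³` has order at least `-1`. -/
theorem h24_G_LT : ∃ c : ℤ, h33_LT
    (jqModC ℤ * h24_hm3 ℤ ^ 3 - (h24_hm3 ℤ + 27) * (h24_hm3 ℤ + 243) ^ 3) (-1) c := by
  obtain ⟨S, hS⟩ := h24_cong_G
  rw [h24_G_eq, hS]
  exact ⟨_, h33_LT_congr (h24_LT_Ti_pow_X 4 3 S) (by norm_num) rfl⟩

/-- `D = j(q³) h₃ - (h₃+27)(h₃+3)³` has order at least `2`. -/
theorem h24_D_LT : ∃ c : ℤ, h33_LT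
    (expand ℤ 3 (jqModC ℤ) * h24_hm3 ℤ - (h24_hm3 ℤ + 27) * (h24_hm3 ℤ + 3) ^ 3) 2 c := by
  obtain ⟨S, hS⟩ := h24_cong_D
  rw [h24_D_eq, hS]
  exact ⟨_, h33_LT_congr (h24_LT_Ti_pow_X 4 6 S) (by norm_num) rfl⟩

/-- The conjugate `G⁻` (`h₃ ↦ -h₃`) has lowest term `-2 q⁻⁴`. -/
theorem h24_Gm_LT : h33_LT
    (-(jqModC ℤ * h24_hm3 ℤ ^ 3) - (27 - h24_hm3 ℤ) * (243 - h24_hm3 ℤ) ^ 3) (-4) (-2) := by
  rw [h24_Gm_eq]
  refine h33_LT_congr (h24_LT_Ti_pow 4 _) (by norm_num) ?_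
  simp only [map_sub, map_neg, map_mul, map_pow, map_ofNat, constantCoeff_jNum,
    h24_constantCoeff_H, PowerSeries.constantCoeff_X]
  norm_num

/-- The conjugate `D⁻` (`h₃ ↦ -h₃`) has lowest term `-2 q⁻⁴`. -/
theorem h24_Dm_LT : h33_LT
    (-(expand ℤ 3 (jqModC ℤ) * h24_hm3 ℤ) - (27 - h24_hm3 ℤ) * (3 - h24_hm3 ℤ) ^ 3) (-4) (-2) := by
  rw [h24_Dm_eq]
  refine h33_LT_congr (h24_LT_Ti_pow 4 _) (by norm_num) ?_
  simp only [map_sub, map_neg, map_mul, map_pow, map_ofNat, PowerSeries.constantCoeff_expand,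
    constantCoeff_jNum, h24_constantCoeff_H, PowerSeries.constantCoeff_X]
  norm_num

/-! #### the two polynomial identities behind the product trick -/

theorem h24_key_inf {R : Type*} [CommRing R] (U x j : R) (h : U * x ^ 2 = 3 ^ 12) :
    ((3 : R) ^ 24 + 196830 * 3 ^ 12 * U + 3 ^ 18 * U ^ 2) ^ 2
        - 3 ^ 12 * U * (3 ^ 12 * j - 756 * 3 ^ 12 - 19131876 * U) ^ 2 =
      U ^ 4 * (j * x ^ 3 - (x + 27) * (x + 243) ^ 3)
        * (-(j * x ^ 3) - (27 - x) * (243 - x) ^ 3) := by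
  have e : ∀ c : R, U * x ^ 2 = c →
      (c ^ 2 + 196830 * c * U + 3 ^ 18 * U ^ 2) ^ 2
        - c * U * (c * j - 756 * c - 19131876 * U) ^ 2 =
      U ^ 4 * (j * x ^ 3 - (x + 27) * (x + 243) ^ 3)
        * (-(j * x ^ 3) - (27 - x) * (243 - x) ^ 3) := by
    rintro c rfl
    ring
  rw [← e _ h]
  ring

theorem h24_key_zero {R : Type*} [CommRing R] (x j3 : R) :
    ((3 : R) ^ 24 + 196830 * 3 ^ 12 * x ^ 2 + 3 ^ 18 * (x ^ 2) ^ 2) ^ 2
        - 3 ^ 12 * x ^ 2 * (3 ^ 12 * j3 - 756 * 3 ^ 12 - 19131876 * x ^ 2) ^ 2 =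
      3 ^ 36 * (j3 * x - (x + 27) * (x + 3) ^ 3) * (-(j3 * x) - (27 - x) * (3 - x) ^ 3) := by
  ring

/-- **MOD-H3**, from the product trick (MOD-PT) at `p = 3`: `j h₃³ = (h₃ + 27)(h₃ + 243)³` and
`j(q³) h₃ = (h₃ + 27)(h₃ + 3)³`.  `cInf`, `cZero` are the expansions of the coordinates at the
two cusps; only the values at `U₃` and `X₁` are used. -/
theorem h24_hm3_rel_of (cInf cZero : Coord 3 → LaurentSeries ℤ)
    (hInfU : cInf (true, ⟨3, dvd_rfl⟩) =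
      ((3 : ℕ) : LaurentSeries ℤ) ^ 12 * expand ℤ 3 (deltaHat ℤ) * deltaHatInv ℤ)
    (hInfX : cInf (false, ⟨1, one_dvd 3⟩) = expand ℤ 1 (jqModC ℤ))
    (hZeroU : cZero (true, ⟨3, dvd_rfl⟩) = deltaHat ℤ * expand ℤ 3 (deltaHatInv ℤ))
    (hZeroX : cZero (false, ⟨1, one_dvd 3⟩) = expand ℤ 3 (jqModC ℤ))
    (hPT : ∀ y : MvPolynomial (Coord 3) ℤ,
      (MvPolynomial.aeval cInf y ≠ 0 → MvPolynomial.aeval cZero y ≠ 0 →
        0 < (MvPolynomial.aeval cInf y).order + (MvPolynomial.aeval cZero y).order) →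
      MvPolynomial.aeval cInf y = 0 ∧ MvPolynomial.aeval cZero y = 0) :
    jqModC ℤ * h24_hm3 ℤ ^ 3 = (h24_hm3 ℤ + 27) * (h24_hm3 ℤ + 243) ^ 3 ∧
      expand ℤ 3 (jqModC ℤ) * h24_hm3 ℤ = (h24_hm3 ℤ + 27) * (h24_hm3 ℤ + 3) ^ 3 := by
  have hx2 := h24_hm3_sq
  -- the coordinate `U₃` at infinity
  have h3LT : h33_LT (3 : LaurentSeries ℤ) 0 3 := by
    have h := h33_LT_natCast (A := ℤ) 3
    rwa [Nat.cast_ofNat, Nat.cast_ofNat] at h
  have hΔ : deltaHat ℤ * deltaHatInv ℤ = 1 := deltaHat_mul_deltaHatInv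
  have hΔ3 : expand ℤ 3 (deltaHat ℤ) * expand ℤ 3 (deltaHatInv ℤ) = 1 := by
    rw [← map_mul, hΔ, map_one]
  rw [Nat.cast_ofNat] at hInfU
  have hUx : (3 : LaurentSeries ℤ) ^ 12 * expand ℤ 3 (deltaHat ℤ) * deltaHatInv ℤ
      * h24_hm3 ℤ ^ 2 = 3 ^ 12 := by
    rw [hx2]
    linear_combination (3 : LaurentSeries ℤ) ^ 12 *
      (expand ℤ 3 (deltaHat ℤ) * expand ℤ 3 (deltaHatInv ℤ)) * hΔ + 3 ^ 12 * hΔ3
  have hU_LT : h33_LT ((3 : LaurentSeries ℤ) ^ 12 * expand ℤ 3 (deltaHat ℤ) * deltaHatInv ℤ)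
      2 (3 ^ 12) :=
    h33_LT_congr (h33_LT_mul (h33_LT_mul (h33_LT_pow h3LT 12)
      (h33_LT_expand h33_LT_deltaHat 3 three_ne_zero)) h33_LT_deltaHatInv)
      (by norm_num) (by norm_num)
  -- the polynomial
  obtain ⟨y, hy⟩ : ∃ y : MvPolynomial (Coord 3) ℤ, y =
      ((3 : MvPolynomial (Coord 3) ℤ) ^ 24
          + 196830 * 3 ^ 12 * MvPolynomial.X (true, ⟨3, dvd_rfl⟩)
          + 3 ^ 18 * MvPolynomial.X (true, ⟨3, dvd_rfl⟩) ^ 2) ^ 2
        - 3 ^ 12 * MvPolynomial.X (true, ⟨3, dvd_rfl⟩)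
          * (3 ^ 12 * MvPolynomial.X (false, ⟨1, one_dvd 3⟩) - 756 * 3 ^ 12
            - 19131876 * MvPolynomial.X (true, ⟨3, dvd_rfl⟩)) ^ 2 := ⟨_, rfl⟩
  have hyInf : MvPolynomial.aeval cInf y =
      ((3 : LaurentSeries ℤ) ^ 12 * expand ℤ 3 (deltaHat ℤ) * deltaHatInv ℤ) ^ 4
        * (jqModC ℤ * h24_hm3 ℤ ^ 3 - (h24_hm3 ℤ + 27) * (h24_hm3 ℤ + 243) ^ 3)
        * (-(jqModC ℤ * h24_hm3 ℤ ^ 3) - (27 - h24_hm3 ℤ) * (243 - h24_hm3 ℤ) ^ 3) := by
    rw [hy]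
    simp only [map_sub, map_add, map_mul, map_pow, map_ofNat, MvPolynomial.aeval_X, hInfU,
      hInfX, expand_one]
    exact h24_key_inf _ _ _ hUx
  have hyZero : MvPolynomial.aeval cZero y =
      3 ^ 36 * (expand ℤ 3 (jqModC ℤ) * h24_hm3 ℤ - (h24_hm3 ℤ + 27) * (h24_hm3 ℤ + 3) ^ 3)
        * (-(expand ℤ 3 (jqModC ℤ) * h24_hm3 ℤ) - (27 - h24_hm3 ℤ) * (3 - h24_hm3 ℤ) ^ 3) := by
    rw [hy]
    simp only [map_sub, map_add, map_mul, map_pow, map_ofNat, MvPolynomial.aeval_X, hZeroU,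
      hZeroX, ← hx2]
    exact h24_key_zero _ _
  obtain ⟨cG, hG⟩ := h24_G_LT
  obtain ⟨cD, hD⟩ := h24_D_LT
  have hGm := h24_Gm_LT
  have hDm := h24_Dm_LT
  have hInfLT := h33_LT_mul (h33_LT_mul (h33_LT_pow hU_LT 4) hG) hGm
  have hZeroLT := h33_LT_mul (h33_LT_mul (h33_LT_pow h3LT 36) hD) hDm
  obtain ⟨h1, h2⟩ := hPT y (by
    intro hne1 hne2
    rw [hyInf] at hne1 ⊢
    rw [hyZero] at hne2 ⊢
    have a := h24_le_order hInfLT hne1
    have b := h24_le_order hZeroLT hne2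
    push_cast at a b
    linarith)
  rw [hyInf] at h1
  rw [hyZero] at h2
  have hU0 := (h33_LT_order hU_LT (by norm_num)).2
  have h30 := (h33_LT_order h3LT (by norm_num)).2
  have hGm0 := (h33_LT_order hGm (by norm_num)).2
  have hDm0 := (h33_LT_order hDm (by norm_num)).2
  constructor
  · rcases mul_eq_zero.1 h1 with h | h
    · rcases mul_eq_zero.1 h with h | h
      · exact absurd ((pow_eq_zero_iff (by norm_num)).1 h) hU0
      · exact sub_eq_zero.1 h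
    · exact absurd h hGm0
  · rcases mul_eq_zero.1 h2 with h | h
    · rcases mul_eq_zero.1 h with h | h
      · exact absurd ((pow_eq_zero_iff (by norm_num)).1 h) h30
      · exact sub_eq_zero.1 h
    · exact absurd h hDm0

end Laurent

end Fermat.Agent.S18
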