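import Mathlib
import Fermat.Agent.S28.h64_ConjExists
import Fermat.Agent.S28.Formal
import Fermat.Agent.S24.h29_Index

set_option autoImplicit false

/-!
# S18 / MOD-PT: the product trick (valence formula for `Γ₀(p)` in formal dress)

For a prime `p`, the coordinates `X_d = j(q^d)`, `U_d = d^12 Δ(q^d)/Δ(q)` (`d ∣ p`) have the
expansions `h64_coordInf` at the cusp `∞` (in `q`) and `h64_coordZero` at the cusp `0`
(in `t = q^(1/p)`).  A polynomial `y` over `ℤ` in the coordinates whose two expansions have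
orders with positive sum vanishes identically: `h64_product_trick`.
-/

noncomputable section

namespace Fermat.Agent.S18

open ModularCurve UpperHalfPlane CongruenceSubgroup Fermat.Agent.S24 Fermat.Agent.S28
open scoped MatrixGroups

/-- the `q`-expansions at `∞` of the coordinates `X_d = j(q^d)`, `U_d = d^12 Δ(q^d)/Δ(q)` -/
def h64_coordInf (p : ℕ) (R : Type) [CommRing R] (x : Coord p) : LaurentSeries R :=
  bif x.1 then ((x.2 : ℕ) : LaurentSeries R) ^ 12 * expand R x.2 (deltaHat R) * deltaHatInv R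
  else expand R x.2 (jqModC R)

/-- the expansions at the cusp `0` (in `t = q^(1/p)`, `p` prime): `X_1 ↦ j(t^p)`, `X_p ↦ j(t)`,
`U_1 ↦ 1`, `U_p ↦ Δ(t)/Δ(t^p)`. -/
def h64_coordZero (p : ℕ) (R : Type) [CommRing R] (x : Coord p) : LaurentSeries R :=
  bif x.1 then (if (x.2 : ℕ) = 1 then 1 else deltaHat R * expand R p (deltaHatInv R))
  else (if (x.2 : ℕ) = 1 then expand R p (jqModC R) else jqModC R)

theorem h64_coeffMap_coordInf (p : ℕ) {R S : Type} [CommRing R] [CommRing S] (φ : R →+* S)
    (x : Coord p) : coeffMap φ (h64_coordInf p R x) = h64_coordInf p S x := by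
  obtain ⟨b, d⟩ := x
  cases b
  · show coeffMap φ (expand R d (jqModC R)) = expand S d (jqModC S)
    rw [coeffMap_expand, coeffMap_jqModC]
  · show coeffMap φ (((d : ℕ) : LaurentSeries R) ^ 12 * expand R d (deltaHat R) * deltaHatInv R)
      = ((d : ℕ) : LaurentSeries S) ^ 12 * expand S d (deltaHat S) * deltaHatInv S
    rw [map_mul, map_mul, map_pow, map_natCast, coeffMap_expand, coeffMap_deltaHat,
      coeffMap_deltaHatInv]

theorem h64_coeffMap_coordZero (p : ℕ) {R S : Type} [CommRing R] [CommRing S] (φ : R →+* S)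
    (x : Coord p) : coeffMap φ (h64_coordZero p R x) = h64_coordZero p S x := by
  obtain ⟨b, d⟩ := x
  cases b
  · show coeffMap φ (if (d : ℕ) = 1 then expand R p (jqModC R) else jqModC R)
      = if (d : ℕ) = 1 then expand S p (jqModC S) else jqModC S
    split_ifs
    · rw [coeffMap_expand, coeffMap_jqModC]
    · rw [coeffMap_jqModC]
  · show coeffMap φ (if (d : ℕ) = 1 then 1 else deltaHat R * expand R p (deltaHatInv R))
      = if (d : ℕ) = 1 then 1 else deltaHat S * expand S p (deltaHatInv S)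
    split_ifs
    · rw [map_one]
    · rw [map_mul, coeffMap_expand, coeffMap_deltaHat, coeffMap_deltaHatInv]

/-- Evaluation of an integer polynomial commutes with every ring homomorphism. -/
theorem h64_ev_comp {X : Type*} {S T : Type*} [CommRing S] [CommRing T] (k : S →+* T)
    (c : X → S) (y : MvPolynomial X ℤ) :
    k (MvPolynomial.eval₂ (Int.castRingHom S) c y)
      = MvPolynomial.eval₂ (Int.castRingHom T) (fun x => k (c x)) y := by
  rw [MvPolynomial.eval₂_comp_left]
  congr 1
  exact RingHom.ext_int _ _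

theorem h64_aeval_eq_ev {X : Type*} {S : Type*} [CommRing S] [Algebra ℤ S]
    (c : X → S) (y : MvPolynomial X ℤ) :
    MvPolynomial.aeval c y = MvPolynomial.eval₂ (Int.castRingHom S) c y := by
  rw [MvPolynomial.aeval_def]
  congr 1
  exact RingHom.ext_int _ _

theorem h64_aeval_map_eq_ev {X : Type*} {O S : Type*} [CommRing O] [CommRing S] [Algebra O S]
    (c : X → S) (y : MvPolynomial X ℤ) :
    MvPolynomial.aeval c (MvPolynomial.map (Int.castRingHom O) y)
      = MvPolynomial.eval₂ (Int.castRingHom S) c y := by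
  rw [MvPolynomial.aeval_def, MvPolynomial.eval₂_map]
  congr 1
  exact RingHom.ext_int _ _


/-! ### The conjugates at prime level -/

theorem h64_dvd_prime_pos {p : ℕ} [NeZero p] (d : {d : ℕ // d ∣ p}) : 0 < (d : ℕ) :=
  Nat.pos_of_dvd_of_pos d.2 (Nat.pos_of_ne_zero (NeZero.ne p))

/-- (a1) the conjugate at the identity coset is the expansion at `∞`, in `t = q^(1/p)`. -/
theorem h64_c_one (p : ℕ) [NeZero p] (x : Coord p) :
    h64_c p ((1 : SL(2, ℤ)) : SL(2, ℤ) ⧸ Gamma0 p) x
      = expand (cycO p) p (h64_coordInf p (cycO p) x) := by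
  have hp0 : p ≠ 0 := NeZero.ne p
  obtain ⟨b, d⟩ := x
  have hd : 0 < (d : ℕ) := h64_dvd_prime_pos d
  obtain ⟨hA, hD, hB⟩ := h64_data_of_mem hd d.2 (h64_rep_one_mem p)
  have hm : h64_hm p d (h64_rep p ((1 : SL(2, ℤ)) : SL(2, ℤ) ⧸ Gamma0 p)) = 0 := by
    rw [h64_hm, hB, mul_zero]
  have he : p * (d : ℕ) ^ 2 / d = p * d := by
    rw [pow_two, ← mul_assoc, Nat.mul_div_cancel _ hd]
  cases b
  · show Jc (cycO p) p (h64_hA d (h64_rep p _)) d (h64_hm p d (h64_rep p _)) (zetaO p)
      = expand (cycO p) p (expand (cycO p) d (jqModC (cycO p)))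
    rw [hA, hm, Jc, pow_zero, subst_apply, twist_one, he, expand_expand p d hp0 hd.ne']
  · show Uc (cycO p) p (h64_hA d (h64_rep p _)) d (h64_hm p d (h64_rep p _)) (zetaO p)
      = expand (cycO p) p (((d : ℕ) : LaurentSeries (cycO p)) ^ 12 *
          expand (cycO p) d (deltaHat (cycO p)) * deltaHatInv (cycO p))
    rw [hA, hm, Uc, pow_zero, subst_apply, twist_one, he, map_mul, map_mul, map_pow, map_natCast,
      expand_expand p d hp0 hd.ne']

theorem h64_zetaO_pow (p : ℕ) [NeZero p] : (zetaO p) ^ p = 1 := by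
  apply Units.ext
  apply Subtype.ext
  rw [Units.val_pow_eq_pow_val, Units.val_one]
  show ((((zetaO p : (cycO p)ˣ) : cycO p) ^ p : cycO p) : ℂ) = ((1 : cycO p) : ℂ)
  rw [Subring.coe_pow, zetaO_coe, zetaC_pow]
  rfl

theorem h64_rep_not_mem (p : ℕ) (r : SL(2, ℤ) ⧸ Gamma0 p)
    (hr : r ≠ ((1 : SL(2, ℤ)) : SL(2, ℤ) ⧸ Gamma0 p)) : h64_rep p r ∉ Gamma0 p := by
  intro h
  apply hr
  have h1 : Quotient.out r ∈ Gamma0 p := by
    have := (Gamma0 p).inv_mem h
    rwa [h64_rep, inv_inv] at this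
  have h2 : ((Quotient.out r : SL(2, ℤ)) : SL(2, ℤ) ⧸ Gamma0 p) = r := QuotientGroup.out_eq' r
  rw [← h2, QuotientGroup.eq, mul_one]
  exact (Gamma0 p).inv_mem h1

/-- (a2) the other conjugates are twists of the expansion at the cusp `0`. -/
theorem h64_c_ne_one (p : ℕ) [NeZero p] (hp : p.Prime) (r : SL(2, ℤ) ⧸ Gamma0 p)
    (hr : r ≠ ((1 : SL(2, ℤ)) : SL(2, ℤ) ⧸ Gamma0 p)) :
    ∃ u : (cycO p)ˣ, ∀ x : Coord p,
      h64_c p r x = twist u (h64_coordZero p (cycO p) x) := by
  have hp0 : p ≠ 0 := NeZero.ne p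
  have hppos : 0 < p := Nat.pos_of_ne_zero hp0
  set γ := h64_rep p r with hγ
  have hnot : ¬ (p : ℤ) ∣ γ 1 0 := by
    intro hdvd
    apply h64_rep_not_mem p r hr
    rw [Gamma0_mem, ZMod.intCast_zmod_eq_zero_iff_dvd]
    exact hdvd
  -- data for `d = 1`
  have hA1 : h64_hA 1 γ = 1 := by
    rw [h64_hA]
    simp
  have hD1 : h64_hD 1 γ = 1 := by rw [h64_hD, hA1]
  have hB1 : h64_hB 1 γ = 0 := by
    have := h64_hB_lt one_pos γ
    rw [hD1] at this
    omega
  have hm1 : h64_hm p 1 γ = 0 := by rw [h64_hm, hB1, mul_zero]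
  -- data for `d = p`
  have hAp : h64_hA p γ = 1 := by
    rw [h64_hA, Int.gcd_eq_natAbs_gcd_natAbs, Int.natAbs_natCast]
    have : Nat.Coprime p (γ 1 0).natAbs := by
      rw [Nat.Prime.coprime_iff_not_dvd hp]
      intro h
      exact hnot (Int.natCast_dvd.mpr h)
    exact this
  have hDp : h64_hD p γ = p := by rw [h64_hD, hAp, Nat.div_one]
  have hmp : h64_hm p p γ = h64_hB p γ := by rw [h64_hm, hDp, Nat.div_self hppos, one_mul]
  set u : (cycO p)ˣ := zetaO p ^ h64_hB p γ with hu
  have hup : u ^ p = 1 := by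
    rw [hu, ← pow_mul, mul_comm, pow_mul, h64_zetaO_pow, one_pow]
  refine ⟨u, ?_⟩
  rintro ⟨b, d, hdp⟩
  rcases (Nat.dvd_prime hp).mp hdp with rfl | rfl
  · -- `d = 1`
    cases b
    · show Jc (cycO p) p (h64_hA 1 γ) 1 (h64_hm p 1 γ) (zetaO p)
        = twist u (if (1 : ℕ) = 1 then expand (cycO p) p (jqModC (cycO p)) else jqModC (cycO p))
      rw [if_pos rfl, hA1, hm1, Jc, pow_zero, subst_apply, twist_one, twist_expand u p hp0, hup,
        twist_one]
      simp
    · show Uc (cycO p) p (h64_hA 1 γ) 1 (h64_hm p 1 γ) (zetaO p)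
        = twist u (if (1 : ℕ) = 1 then 1
            else deltaHat (cycO p) * expand (cycO p) p (deltaHatInv (cycO p)))
      rw [if_pos rfl, hA1, hm1, Uc, pow_zero, subst_apply, twist_one, map_one]
      simp only [one_pow, Nat.cast_one, one_mul, mul_one, Nat.div_one]
      rw [← map_mul, deltaHat_mul_deltaHatInv, map_one]
  · -- `d = p`
    have hp1 : d ≠ 1 := hp.one_lt.ne'
    cases b
    · show Jc (cycO d) d (h64_hA d γ) d (h64_hm d d γ) (zetaO d)
        = twist u (if (d : ℕ) = 1 then expand (cycO d) d (jqModC (cycO d)) else jqModC (cycO d))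
      rw [if_neg hp1, hAp, hmp, Jc, subst_apply]
      simp only [one_pow, mul_one, Nat.div_self hppos]
      rw [expand_one]
    · show Uc (cycO d) d (h64_hA d γ) d (h64_hm d d γ) (zetaO d)
        = twist u (if (d : ℕ) = 1 then 1
            else deltaHat (cycO d) * expand (cycO d) d (deltaHatInv (cycO d)))
      rw [if_neg hp1, hAp, hmp, Uc, subst_apply, map_mul, twist_expand u d hp0, hup, twist_one]
      simp only [one_pow, mul_one, Nat.div_self hppos, Nat.cast_one, one_mul]
      rw [expand_one]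


/-! ### Orders -/

theorem h64_order_coeffMap {A B : Type} [CommRing A] [CommRing B] (φ : A →+* B)
    (hφ : Function.Injective φ) (f : LaurentSeries A) : (coeffMap φ f).order = f.order := by
  by_cases hf : f = 0
  · subst hf
    rw [map_zero, HahnSeries.order_zero, HahnSeries.order_zero]
  · have hf' : coeffMap φ f ≠ 0 := fun h => hf (coeffMap_injective φ hφ (h.trans (map_zero _).symm))
    apply le_antisymm
    · apply HahnSeries.order_le_of_coeff_ne_zero
      rw [coeffMap_coeff]
      intro h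
      exact hf (HahnSeries.coeff_order_eq_zero.mp (hφ (h.trans (map_zero φ).symm)))
    · apply HahnSeries.order_le_of_coeff_ne_zero
      intro h
      have h2 : (coeffMap φ f).coeff (coeffMap φ f).order = 0 := by
        rw [coeffMap_coeff, h, map_zero]
      exact hf' (HahnSeries.coeff_order_eq_zero.mp h2)

theorem h64_order_mul {R : Type*} [CommRing R] [IsDomain R] {f g : LaurentSeries R}
    (hf : f ≠ 0) (hg : g ≠ 0) : (f * g).order = f.order + g.order :=
  HahnSeries.order_mul_of_ne_zero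
    (mul_ne_zero (HahnSeries.leadingCoeff_ne_zero.mpr hf) (HahnSeries.leadingCoeff_ne_zero.mpr hg))

theorem h64_order_prod {R : Type*} [CommRing R] [IsDomain R] {ι : Type*} (s : Finset ι)
    (f : ι → LaurentSeries R) (hf : ∀ i ∈ s, f i ≠ 0) :
    (∏ i ∈ s, f i).order = ∑ i ∈ s, (f i).order := by
  classical
  induction s using Finset.induction_on with
  | empty => simp
  | insert a s ha ih =>
    rw [Finset.prod_insert ha, Finset.sum_insert ha,
      h64_order_mul (hf a (Finset.mem_insert_self a s))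
        (Finset.prod_ne_zero_iff.mpr fun i hi => hf i (Finset.mem_insert_of_mem hi)),
      ih fun i hi => hf i (Finset.mem_insert_of_mem hi)]

theorem h64_card_quotient_prime (p : ℕ) [NeZero p] (hp : p.Prime) :
    Nat.card (SL(2, ℤ) ⧸ Gamma0 p) = p + 1 := by
  rw [h29_card_quotient_Gamma0]
  have := h29_psi_mul_of_not_dvd p 1 hp one_pos (by simpa using hp.one_lt.ne')
  rwa [mul_one, dedekindPsi_one, mul_one] at this


/-! ### The product trick -/

/-- The conjugates of an integer polynomial in the coordinates. -/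
def h64_conj (p : ℕ) [NeZero p] (y : MvPolynomial (Coord p) ℤ) (r : SL(2, ℤ) ⧸ Gamma0 p) :
    LaurentSeries (cycO p) :=
  MvPolynomial.eval₂ (Int.castRingHom (LaurentSeries (cycO p))) (h64_c p r) y

theorem h64_cast_injective (p : ℕ) : Function.Injective (Int.castRingHom (cycO p)) := by
  intro a b h
  have h2 : (((Int.castRingHom (cycO p)) a : cycO p) : ℂ) = ((Int.castRingHom (cycO p)) b : cycO p) :=
    congrArg Subtype.val h
  simpa using h2

theorem h64_conj_one (p : ℕ) [NeZero p] (y : MvPolynomial (Coord p) ℤ) :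
    h64_conj p y ((1 : SL(2, ℤ)) : SL(2, ℤ) ⧸ Gamma0 p)
      = expand (cycO p) p (coeffMap (Int.castRingHom (cycO p))
          (MvPolynomial.eval₂ (Int.castRingHom (LaurentSeries ℤ)) (h64_coordInf p ℤ) y)) := by
  rw [h64_ev_comp (coeffMap (Int.castRingHom (cycO p))), h64_ev_comp (expand (cycO p) p), h64_conj]
  congr 1
  funext x
  rw [h64_c_one, h64_coeffMap_coordInf]

theorem h64_conj_ne_one (p : ℕ) [NeZero p] (hp : p.Prime) (y : MvPolynomial (Coord p) ℤ)
    (r : SL(2, ℤ) ⧸ Gamma0 p) (hr : r ≠ ((1 : SL(2, ℤ)) : SL(2, ℤ) ⧸ Gamma0 p)) :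
    ∃ u : (cycO p)ˣ, h64_conj p y r
      = twist u (coeffMap (Int.castRingHom (cycO p))
          (MvPolynomial.eval₂ (Int.castRingHom (LaurentSeries ℤ)) (h64_coordZero p ℤ) y)) := by
  obtain ⟨u, hu⟩ := h64_c_ne_one p hp r hr
  refine ⟨u, ?_⟩
  rw [h64_ev_comp (coeffMap (Int.castRingHom (cycO p))), h64_ev_comp (twist u), h64_conj]
  congr 1
  funext x
  rw [hu, h64_coeffMap_coordZero]

/-- The function on the upper half plane attached to `y`. -/
def h64_fun (p : ℕ) [NeZero p] (y : MvPolynomial (Coord p) ℤ) (τ : ℍ) : ℂ :=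
  MvPolynomial.eval₂ (cycO p).subtype (fun x => h64_Y p x τ)
    (MvPolynomial.map (Int.castRingHom (cycO p)) y)

theorem h64_conj_isQExp (p : ℕ) [NeZero p] (y : MvPolynomial (Coord p) ℤ)
    (r : SL(2, ℤ) ⧸ Gamma0 p) :
    h77_IsQExp p (coeffMap (cycO p).subtype (h64_conj p y r))
      (fun τ => h64_fun p y (h64_rep p r • τ)) := by
  have := h64_isQExp_mvAeval (cycO p).subtype p (h64_c p r)
    (fun x τ => h64_Y p x (h64_rep p r • τ)) (h64_c_isQExp p r)
    (MvPolynomial.map (Int.castRingHom (cycO p)) y)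
  rw [h64_aeval_map_eq_ev] at this
  exact this

/-- (d) if one conjugate vanishes, all of them do. -/
theorem h64_conj_all_zero (p : ℕ) [NeZero p] (y : MvPolynomial (Coord p) ℤ)
    (r : SL(2, ℤ) ⧸ Gamma0 p) (hr : h64_conj p y r = 0) (r' : SL(2, ℤ) ⧸ Gamma0 p) :
    h64_conj p y r' = 0 := by
  have hp0 : (0 : ℝ) < (p : ℝ) := by
    exact_mod_cast Nat.pos_of_ne_zero (NeZero.ne p)
  have h1 := h64_conj_isQExp p y r
  rw [hr, map_zero] at h1
  have hG : ∀ τ, h64_fun p y τ = 0 := by
    intro τ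
    have := congrFun (h1.unique_fun (h77_isQExp_zero p)) ((h64_rep p r)⁻¹ • τ)
    simpa [smul_smul] using this
  have h2 := (h64_conj_isQExp p y r').congr (g' := fun _ => 0) (fun τ => hG _)
  have h3 := h77_IsQExp.eq_zero hp0 h2
  exact coeffMap_injective (cycO p).subtype Subtype.val_injective (h3.trans (map_zero _).symm)

/-- (c) the sum of the orders of the conjugates is `≤ 0` if none of them vanishes. -/
theorem h64_conj_sum_order_le (p : ℕ) [NeZero p] (y : MvPolynomial (Coord p) ℤ)
    (hne : ∀ r, h64_conj p y r ≠ 0) :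
    letI := h64_fin p
    ∑ r, (h64_conj p y r).order ≤ 0 := by
  letI := h64_fin p
  have hp0 : p ≠ 0 := NeZero.ne p
  obtain ⟨Q, hQ⟩ := h64_F1_generic (cycO p).subtype Subtype.val_injective (N := p) (h64_c p)
    (fun r x τ => h64_Y p x (h64_rep p r • τ)) (h64_c_isQExp p) (h64_perm p)
    (MvPolynomial.map (Int.castRingHom (cycO p)) y)
  have h0 := congrArg (Polynomial.eval 0) hQ
  rw [Polynomial.eval_prod] at h0
  simp only [Polynomial.eval_sub, Polynomial.eval_X, Polynomial.eval_C, zero_sub,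
    h64_aeval_map_eq_ev] at h0
  rw [← Polynomial.coeff_zero_eq_eval_zero, Polynomial.coeff_map] at h0
  have h1 : ∏ r, (- h64_conj p y r)
      = expand (cycO p) p (Polynomial.aeval (jqModC (cycO p)) (Q.coeff 0)) := by
    rw [expand_eq_qExpand, h64_qExpand_aeval]
    exact h0
  have hprod_ne : ∏ r, (- h64_conj p y r) ≠ 0 :=
    Finset.prod_ne_zero_iff.mpr (fun r _ => neg_ne_zero.mpr (hne r))
  have hord_prod : (∏ r, (- h64_conj p y r)).order = ∑ r, (h64_conj p y r).order := by
    rw [h64_order_prod Finset.univ _ (fun r _ => neg_ne_zero.mpr (hne r))]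
    exact Finset.sum_congr rfl fun r _ => HahnSeries.order_neg
  have hP : Q.coeff 0 ≠ 0 := by
    intro hP
    rw [hP, map_zero, map_zero] at h1
    exact hprod_ne h1
  have hle : (Polynomial.aeval (jqModC (cycO p)) (Q.coeff 0)).order ≤ 0 := by
    have hc := h64_coeff_aeval_jq (Q.coeff 0) (Q.coeff 0).natDegree le_rfl
    have hc' : (Polynomial.aeval (jqModC (cycO p)) (Q.coeff 0)).coeff
        (-((Q.coeff 0).natDegree : ℤ)) ≠ 0 := by
      rw [hc]
      exact Polynomial.leadingCoeff_ne_zero.mpr hP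
    exact (HahnSeries.order_le_of_coeff_ne_zero hc').trans (by simp)
  rw [← hord_prod, h1, order_expand p hp0]
  exact mul_nonpos_of_nonneg_of_nonpos (Nat.cast_nonneg p) hle

/-- **MOD-PT** valence formula for `Γ₀(p)` in formal dress: a polynomial `y` in the coordinates
whose expansions at the two cusps have orders `a` (in `q`) and `b` (in `t`) with `a + b > 0`
vanishes identically. -/
theorem h64_product_trick (p : ℕ) [NeZero p] (hp : p.Prime) (y : MvPolynomial (Coord p) ℤ)
    (hord : MvPolynomial.aeval (h64_coordInf p ℤ) y ≠ 0 →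
      MvPolynomial.aeval (h64_coordZero p ℤ) y ≠ 0 →
      0 < (MvPolynomial.aeval (h64_coordInf p ℤ) y).order
        + (MvPolynomial.aeval (h64_coordZero p ℤ) y).order) :
    MvPolynomial.aeval (h64_coordInf p ℤ) y = 0 ∧
      MvPolynomial.aeval (h64_coordZero p ℤ) y = 0 := by
  classical
  letI := h64_fin p
  have hp0 : p ≠ 0 := NeZero.ne p
  have hφ := h64_cast_injective p
  have hI : MvPolynomial.aeval (h64_coordInf p ℤ) y
      = MvPolynomial.eval₂ (Int.castRingHom (LaurentSeries ℤ)) (h64_coordInf p ℤ) y :=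
    h64_aeval_eq_ev _ _
  have hZ : MvPolynomial.aeval (h64_coordZero p ℤ) y
      = MvPolynomial.eval₂ (Int.castRingHom (LaurentSeries ℤ)) (h64_coordZero p ℤ) y :=
    h64_aeval_eq_ev _ _
  rw [hI, hZ] at hord ⊢
  set yI := MvPolynomial.eval₂ (Int.castRingHom (LaurentSeries ℤ)) (h64_coordInf p ℤ) y with hyI
  set yZ := MvPolynomial.eval₂ (Int.castRingHom (LaurentSeries ℤ)) (h64_coordZero p ℤ) y with hyZ
  set r₀ : SL(2, ℤ) ⧸ Gamma0 p := ((1 : SL(2, ℤ)) : SL(2, ℤ) ⧸ Gamma0 p) with hr₀
  have hC0 : h64_conj p y r₀ = expand (cycO p) p (coeffMap (Int.castRingHom (cycO p)) yI) :=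
    h64_conj_one p y
  have hC1 : ∀ r, r ≠ r₀ → ∃ u : (cycO p)ˣ,
      h64_conj p y r = twist u (coeffMap (Int.castRingHom (cycO p)) yZ) :=
    fun r hr => h64_conj_ne_one p hp y r hr
  have hcard : Fintype.card (SL(2, ℤ) ⧸ Gamma0 p) = p + 1 := by
    rw [← Nat.card_eq_fintype_card]
    exact h64_card_quotient_prime p hp
  have hcard' : (Finset.univ.erase r₀).card = p := by
    rw [Finset.card_erase_of_mem (Finset.mem_univ r₀), Finset.card_univ, hcard]
    rfl
  obtain ⟨r₁, hr₁⟩ : ∃ r₁, r₁ ≠ r₀ := by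
    have hpos : 0 < (Finset.univ.erase r₀).card := by
      rw [hcard']
      exact Nat.pos_of_ne_zero hp0
    obtain ⟨r₁, hr₁⟩ := Finset.card_pos.mp hpos
    exact ⟨r₁, (Finset.mem_erase.mp hr₁).1⟩
  by_contra hcon
  have hne : ∀ r, h64_conj p y r ≠ 0 := by
    intro r hr
    apply hcon
    have h0 := h64_conj_all_zero p y r hr
    constructor
    · have h := h0 r₀
      rw [hC0] at h
      have h' := (expand_eq_zero_iff p _).mp h
      exact coeffMap_injective _ hφ (h'.trans (map_zero _).symm)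
    · obtain ⟨u, hu⟩ := hC1 r₁ hr₁
      have h := h0 r₁
      rw [hu] at h
      have h' := (twist_eq_zero_iff u _).mp h
      exact coeffMap_injective _ hφ (h'.trans (map_zero _).symm)
  have hyI0 : yI ≠ 0 := by
    intro h
    apply hne r₀
    rw [hC0, h, map_zero, map_zero]
  have hyZ0 : yZ ≠ 0 := by
    intro h
    obtain ⟨u, hu⟩ := hC1 r₁ hr₁
    apply hne r₁
    rw [hu, h, map_zero, map_zero]
  have hpos := hord hyI0 hyZ0
  have hsum : ∑ r, (h64_conj p y r).order = (p : ℤ) * (yI.order + yZ.order) := by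
    rw [← Finset.add_sum_erase Finset.univ _ (Finset.mem_univ r₀)]
    have h1 : (h64_conj p y r₀).order = (p : ℤ) * yI.order := by
      rw [hC0, order_expand p hp0, h64_order_coeffMap _ hφ]
    have h2 : ∑ r ∈ Finset.univ.erase r₀, (h64_conj p y r).order = (p : ℤ) * yZ.order := by
      rw [Finset.sum_congr rfl (g := fun _ => yZ.order)]
      · rw [Finset.sum_const, hcard', nsmul_eq_mul]
      · intro r hr
        obtain ⟨u, hu⟩ := hC1 r (Finset.mem_erase.mp hr).1
        rw [hu, order_twist, h64_order_coeffMap _ hφ]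
    rw [h1, h2]
    ring
  have hle := h64_conj_sum_order_le p y hne
  rw [hsum] at hle
  have hppos : (0 : ℤ) < (p : ℤ) := by exact_mod_cast Nat.pos_of_ne_zero hp0
  nlinarith

end Fermat.Agent.S18
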