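import Mathlib
import Fermat.Agent.S18.h24_Hm3
import Fermat.Agent.S18.h54_ModDefs
import Fermat.Agent.S18.h64_ProductTrick

/-!
# S18 / MOD-H3 (helper24), unconditional form

The Hauptmodul `h₃ = h54_hm3` of `X₀(3)` satisfies `j h₃³ = (h₃ + 27)(h₃ + 243)³` and
`j(q³) h₃ = (h₃ + 27)(h₃ + 3)³` (`h24_hm3_rel`), and commutes with base change
(`h24_coeffMap_hm3_h54`).  This is `h24_hm3_rel_of` fed with the product trick
`h64_product_trick` at `p = 3`.
-/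

set_option autoImplicit false

noncomputable section

namespace Fermat.Agent.S18

open ModularCurve Fermat.Agent.S28

/-- The two definitions of `h₃` agree. -/
theorem h24_hm3_eq_h54 (R : Type) [CommRing R] : h24_hm3 R = h54_hm3 R := rfl

/-- **MOD-H3**: `j h₃³ = (h₃ + 27)(h₃ + 243)³` and `j(q³) h₃ = (h₃ + 27)(h₃ + 3)³`. -/
theorem h24_hm3_rel : jqModC ℤ * h54_hm3 ℤ ^ 3 = (h54_hm3 ℤ + 27) * (h54_hm3 ℤ + 243) ^ 3 ∧
    expand ℤ 3 (jqModC ℤ) * h54_hm3 ℤ = (h54_hm3 ℤ + 27) * (h54_hm3 ℤ + 3) ^ 3 :=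
  h24_hm3_rel_of (h64_coordInf 3 ℤ) (h64_coordZero 3 ℤ) rfl rfl rfl rfl
    (fun y hy => h64_product_trick 3 Nat.prime_three y hy)

/-- Base change of `h₃`. -/
theorem h24_coeffMap_hm3_h54 {R S : Type} [CommRing R] [CommRing S] (f : R →+* S) :
    coeffMap f (h54_hm3 R) = h54_hm3 S :=
  h24_coeffMap_hm3 f

end Fermat.Agent.S18
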