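import Mathlib
import Fermat.Agent.S18.h24_Hm3Final

/-!
# S18 / MOD-H3 (helper24): the relations of `h₃` over an arbitrary commutative ring

`j h₃³ = (h₃ + 27)(h₃ + 243)³` and `j(q³) h₃ = (h₃ + 27)(h₃ + 3)³` in `R((q))` for every
commutative ring `R` (base change of `h24_hm3_rel` along `ℤ → R`), and `h₃² = Δ(q)/Δ(q³)`.
-/

set_option autoImplicit false

noncomputable section

namespace Fermat.Agent.S18

open ModularCurve Fermat.Agent.S28

/-- **MOD-H3** over any commutative ring `R`. -/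
theorem h24_hm3_rel_ring (R : Type) [CommRing R] :
    jqModC R * h54_hm3 R ^ 3 = (h54_hm3 R + 27) * (h54_hm3 R + 243) ^ 3 ∧
      expand R 3 (jqModC R) * h54_hm3 R = (h54_hm3 R + 27) * (h54_hm3 R + 3) ^ 3 := by
  obtain ⟨h1, h2⟩ := h24_hm3_rel
  have e1 := congrArg (coeffMap (Int.castRingHom R)) h1
  have e2 := congrArg (coeffMap (Int.castRingHom R)) h2
  simp only [map_mul, map_pow, map_add, map_ofNat, coeffMap_jqModC, coeffMap_expand,
    h24_coeffMap_hm3_h54] at e1 e2
  exact ⟨e1, e2⟩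

/-- `h₃² = Δ(q)/Δ(q³)` over any commutative ring `R`. -/
theorem h24_hm3_sq_ring (R : Type) [CommRing R] :
    h54_hm3 R ^ 2 = deltaHat R * expand R 3 (deltaHatInv R) := by
  have e := congrArg (coeffMap (Int.castRingHom R)) h24_hm3_sq
  simp only [map_mul, map_pow, coeffMap_expand, coeffMap_deltaHat, coeffMap_deltaHatInv,
    h24_coeffMap_hm3] at e
  exact e

end Fermat.Agent.S18
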