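import Mathlib
import Fermat.Prelude.Def_ModularCurve_X0
import Fermat.Prelude.Thm_ModularForm_sturm_bound_Gamma0
import Fermat.Agent.S16.h79_LevelOne
import Fermat.Agent.S24.h77_QBridge
import Fermat.Agent.S24.h29_Index

/-!
# S18 [MOD] M3, analytic input: two weight-12 identities on `Γ₀(2)`

With `E = eisenstein4`, `E' = E(q²)`, `U = dedekindEtaUnit` (so `Δ = q U`), as integer power
series:

* `h3_sturm1 : (16 E' - E)² (E - E') = 54000 · q U`,
* `h3_sturm2 : (16 E' - E) (E - E')² = 864000 · q² U(q²)`.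

Both sides are `q`-expansions of modular forms of weight 12 on `Γ₀(2)`; the prelude Sturm bound
reduces the identities to the coefficients of `q⁰, …, q³`.
-/

set_option autoImplicit false

open PowerSeries ModularCurve UpperHalfPlane ModularForm CongruenceSubgroup EisensteinSeries
  ModularFormClass
open scoped MatrixGroups ModularForm Manifold

namespace Fermat.Agent.S18

open Fermat.Agent.S16 Fermat.Agent.S24 Fermat.Agent.S23

/-! ### Four-coefficient truncations of integer power series -/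


/-- The first four coefficients of an integer power series. -/
def h3_T4 (a : PowerSeries ℤ) (c0 c1 c2 c3 : ℤ) : Prop :=
  coeff 0 a = c0 ∧ coeff 1 a = c1 ∧ coeff 2 a = c2 ∧ coeff 3 a = c3

theorem h3_T4.mul {a b : PowerSeries ℤ} {a0 a1 a2 a3 b0 b1 b2 b3 : ℤ}
    (ha : h3_T4 a a0 a1 a2 a3) (hb : h3_T4 b b0 b1 b2 b3) :
    h3_T4 (a * b) (a0 * b0) (a0 * b1 + a1 * b0) (a0 * b2 + a1 * b1 + a2 * b0)
      (a0 * b3 + a1 * b2 + a2 * b1 + a3 * b0) := by
  obtain ⟨ha0, ha1, ha2, ha3⟩ := ha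
  obtain ⟨hb0, hb1, hb2, hb3⟩ := hb
  refine ⟨?_, ?_, ?_, ?_⟩ <;>
  · rw [PowerSeries.coeff_mul, Finset.Nat.sum_antidiagonal_eq_sum_range_succ_mk]
    simp only [Finset.sum_range_succ, Finset.sum_range_zero, Nat.sub_zero, Nat.sub_self,
      zero_add, Nat.reduceSub, ha0, ha1, ha2, ha3, hb0, hb1, hb2, hb3]

theorem h3_T4.add {a b : PowerSeries ℤ} {a0 a1 a2 a3 b0 b1 b2 b3 : ℤ}
    (ha : h3_T4 a a0 a1 a2 a3) (hb : h3_T4 b b0 b1 b2 b3) :
    h3_T4 (a + b) (a0 + b0) (a1 + b1) (a2 + b2) (a3 + b3) := by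
  obtain ⟨ha0, ha1, ha2, ha3⟩ := ha
  obtain ⟨hb0, hb1, hb2, hb3⟩ := hb
  exact ⟨by rw [map_add, ha0, hb0], by rw [map_add, ha1, hb1], by rw [map_add, ha2, hb2],
    by rw [map_add, ha3, hb3]⟩

theorem h3_T4.sub {a b : PowerSeries ℤ} {a0 a1 a2 a3 b0 b1 b2 b3 : ℤ}
    (ha : h3_T4 a a0 a1 a2 a3) (hb : h3_T4 b b0 b1 b2 b3) :
    h3_T4 (a - b) (a0 - b0) (a1 - b1) (a2 - b2) (a3 - b3) := by
  obtain ⟨ha0, ha1, ha2, ha3⟩ := ha
  obtain ⟨hb0, hb1, hb2, hb3⟩ := hb
  exact ⟨by rw [map_sub, ha0, hb0], by rw [map_sub, ha1, hb1], by rw [map_sub, ha2, hb2],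
    by rw [map_sub, ha3, hb3]⟩

theorem h3_T4_C (c : ℤ) : h3_T4 (PowerSeries.C c) c 0 0 0 := by
  refine ⟨?_, ?_, ?_, ?_⟩ <;> rw [PowerSeries.coeff_C] <;> simp

theorem h3_T4_X : h3_T4 (PowerSeries.X : PowerSeries ℤ) 0 1 0 0 := by
  refine ⟨?_, ?_, ?_, ?_⟩ <;> rw [PowerSeries.coeff_X] <;> simp

theorem h3_T4.expand2 {a : PowerSeries ℤ} {a0 a1 a2 a3 : ℤ} (ha : h3_T4 a a0 a1 a2 a3) :
    h3_T4 (PowerSeries.expand 2 two_ne_zero a) a0 0 a1 0 := by
  obtain ⟨ha0, ha1, ha2, ha3⟩ := ha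
  refine ⟨?_, ?_, ?_, ?_⟩
  · rw [PowerSeries.coeff_expand, if_pos (by norm_num), ← ha0]
  · rw [PowerSeries.coeff_expand, if_neg (by norm_num)]
  · rw [PowerSeries.coeff_expand, if_pos (by norm_num), ← ha1]
  · rw [PowerSeries.coeff_expand, if_neg (by norm_num)]

theorem h3_T4.congr {a : PowerSeries ℤ} {a0 a1 a2 a3 b0 b1 b2 b3 : ℤ}
    (ha : h3_T4 a a0 a1 a2 a3) (h0 : a0 = b0) (h1 : a1 = b1) (h2 : a2 = b2) (h3 : a3 = b3) :
    h3_T4 a b0 b1 b2 b3 := by
  subst h0 h1 h2 h3; exact ha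

theorem h3_T4_eisenstein4 : h3_T4 eisenstein4 1 240 2160 6720 := by
  refine ⟨?_, ?_, ?_, ?_⟩ <;>
  · rw [eisenstein4, PowerSeries.coeff_mk]
    decide


/-! ### Coefficients of the Euler product -/


theorem h3_etaProd_eq : etaProd = PowerSeries.pentagonalSeries ℤ :=
  PowerSeries.WithPiTopology.tprod_one_sub_X_pow ℤ

theorem h3_three_not_pentagonal : (3 : ℕ) ∉ Set.range pentagonal := by
  rintro ⟨k, hk⟩
  unfold pentagonal at hk
  have h1 : k * (3 * k - 1) / 2 = 3 := by omega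
  have h2 : 6 ≤ k * (3 * k - 1) ∧ k * (3 * k - 1) < 8 := by omega
  have hk1 : -2 ≤ k ∧ k ≤ 2 := by constructor <;> nlinarith
  obtain ⟨l, u⟩ := hk1
  interval_cases k <;> omega

theorem h3_coeff_etaProd_zero : PowerSeries.coeff 0 etaProd = 1 := by
  have h := PowerSeries.coeff_pentagonalSeries_pentagonal ℤ 0
  rw [h3_etaProd_eq]
  simpa [pentagonal] using h

theorem h3_coeff_etaProd_one : PowerSeries.coeff 1 etaProd = -1 := by
  have h := PowerSeries.coeff_pentagonalSeries_pentagonal ℤ 1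
  rw [h3_etaProd_eq]
  have h1 : pentagonal 1 = 1 := by decide
  rw [h1] at h
  simpa using h

theorem h3_coeff_etaProd_two : PowerSeries.coeff 2 etaProd = -1 := by
  have h := PowerSeries.coeff_pentagonalSeries_pentagonal ℤ (-1)
  rw [h3_etaProd_eq]
  have h1 : pentagonal (-1) = 2 := by decide
  rw [h1] at h
  simpa using h

theorem h3_coeff_etaProd_three : PowerSeries.coeff 3 etaProd = 0 := by
  rw [h3_etaProd_eq]
  exact PowerSeries.coeff_pentagonalSeries_eq_zero ℤ h3_three_not_pentagonal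


/-! ### The analytic bridge at level 2 -/



/-- The cast of integer power series to complex power series. -/
noncomputable abbrev h3_cast : PowerSeries ℤ →+* PowerSeries ℂ := PowerSeries.map (Int.castRingHom ℂ)

theorem h3_cast_injective : Function.Injective h3_cast := by
  intro a b hab
  ext n
  have := congrArg (PowerSeries.coeff n) hab
  simpa [h3_cast] using this

theorem h3_qExp_E4 : qExpansion 1 E₄ = h3_cast eisenstein4 := by
  ext n
  exact (h77_coeff_cast_eisenstein4 n).symm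

theorem h3_qExp_delta : qExpansion 1 h79_delta = h3_cast (PowerSeries.X * dedekindEtaUnit) := by
  ext n
  symm
  refine ModularFormClass.qExpansion_coeff_unique (f := h79_delta) one_pos
    _root_.one_mem_strictPeriods_SL (c := fun n => (h3_cast (PowerSeries.X * dedekindEtaUnit)).coeff n)
    (fun τ => ?_) n
  have hq := h77_norm_qParam_lt_one one_pos τ
  have h1 : h77_IsPS (h3_cast (PowerSeries.X * dedekindEtaUnit))
      (fun q => q ^ 1 * h77_euler q ^ 24) := by
    have := (h77_isPS_X_pow 1).mul h77_isPS_etaUnit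
    rw [map_mul, PowerSeries.map_X]
    simpa using this
  have h2 := h1 _ hq
  rw [h79_delta_apply, h77_discriminant_eq]
  simpa using h2

/-- The `q`-expansion of `A(2τ)`, for a level one form `A` with integral expansion. -/
theorem h3_qExp_raise {k : ℤ} (A : ModularForm 𝒮ℒ k) (a : PowerSeries ℤ)
    (h : qExpansion 1 A = h3_cast a) :
    qExpansion 1 (h97_levelRaise 2 A) = h3_cast (PowerSeries.expand 2 two_ne_zero a) := by
  ext n
  rw [h97_qExpansion_levelRaise, h, h3_cast, PowerSeries.coeff_map, PowerSeries.coeff_map,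
    PowerSeries.coeff_expand]
  split_ifs <;> simp

theorem h3_hΓ : (1 : ℝ) ∈ ((Gamma0 2 : Subgroup SL(2, ℤ)) : Subgroup (GL (Fin 2) ℝ)).strictPeriods :=
  h79_one_mem_strictPeriods 2

theorem h3_index : (Gamma0 2).index = 3 := by
  rw [h29_index_Gamma0 2 (by norm_num), dedekindPsi, show Nat.divisors 2 = {1, 2} from rfl,
    Finset.filter_insert, Finset.filter_singleton]
  simp [Nat.squarefree_two]

/-- Sturm at level 2, weight 12: a form whose `q`-expansion is the cast of an integer series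
with vanishing coefficients `0, 1, 2, 3` has zero expansion. -/
theorem h3_sturm (F : ModularForm (Gamma0 2) 12) (G : PowerSeries ℤ)
    (hFG : qExpansion 1 F = h3_cast G)
    (h0 : PowerSeries.coeff 0 G = 0) (h1 : PowerSeries.coeff 1 G = 0)
    (h2 : PowerSeries.coeff 2 G = 0) (h3 : PowerSeries.coeff 3 G = 0) : G = 0 := by
  have hF : F = 0 := by
    apply ModularForm.sturm_bound_Gamma0 2
    intro n hn
    rw [h3_index] at hn
    have hn3 : n ≤ 3 := by
      have : ((12 : ℤ) * ((3 : ℕ) : ℤ)).toNat / 12 = 3 := by rfl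
      omega
    rw [hFG, h3_cast, PowerSeries.coeff_map]
    interval_cases n <;> simp [h0, h1, h2, h3]
  have hq : qExpansion 1 F = 0 := (ModularForm.qExpansion_eq_zero_iff one_pos h3_hΓ F).mpr hF
  rw [hFG] at hq
  exact h3_cast_injective (hq.trans (map_zero _).symm)

section qexp

variable {k k' : ℤ}

theorem h3_qE_smul (c : ℂ) (f : ModularForm (Gamma0 2) k) :
    qExpansion 1 (⇑(c • f)) = PowerSeries.C c * qExpansion 1 f := by
  rw [FunLike.coe_smul, ModularForm.qExpansion_smul one_pos h3_hΓ, PowerSeries.smul_eq_C_mul]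

theorem h3_qE_sub (f g : ModularForm (Gamma0 2) k) :
    qExpansion 1 (⇑(f - g)) = qExpansion 1 f - qExpansion 1 g := by
  rw [FunLike.coe_sub]
  exact ModularForm.qExpansion_sub one_pos h3_hΓ f g

theorem h3_qE_mul (f : ModularForm (Gamma0 2) k) (g : ModularForm (Gamma0 2) k') :
    qExpansion 1 (⇑(f.mul g)) = qExpansion 1 f * qExpansion 1 g :=
  ModularForm.qExpansion_mul one_pos h3_hΓ f g

end qexp

/-- `E₄(τ)` on `Γ₀(2)`. -/
noncomputable def h3_A : ModularForm (Gamma0 2) 4 := h79_res 2 E₄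
/-- `E₄(2τ)` on `Γ₀(2)`. -/
noncomputable def h3_B : ModularForm (Gamma0 2) 4 := h97_levelRaise 2 E₄
/-- `Δ(τ)` on `Γ₀(2)`. -/
noncomputable def h3_D : ModularForm (Gamma0 2) 12 := h79_res 2 h79_delta
/-- `Δ(2τ)` on `Γ₀(2)`. -/
noncomputable def h3_D' : ModularForm (Gamma0 2) 12 := h97_levelRaise 2 h79_delta

theorem h3_qExp_A : qExpansion 1 h3_A = h3_cast eisenstein4 := h3_qExp_E4
theorem h3_qExp_B : qExpansion 1 h3_B = h3_cast (PowerSeries.expand 2 two_ne_zero eisenstein4) :=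
  h3_qExp_raise E₄ _ h3_qExp_E4
theorem h3_qExp_D : qExpansion 1 h3_D = h3_cast (PowerSeries.X * dedekindEtaUnit) := h3_qExp_delta
theorem h3_qExp_D' : qExpansion 1 h3_D'
    = h3_cast (PowerSeries.expand 2 two_ne_zero (PowerSeries.X * dedekindEtaUnit)) :=
  h3_qExp_raise h79_delta _ h3_qExp_delta

/-- `16 E₄(2τ) - E₄(τ)`. -/
noncomputable def h3_P : ModularForm (Gamma0 2) 4 := (16 : ℂ) • h3_B - h3_A
/-- `E₄(τ) - E₄(2τ)`. -/
noncomputable def h3_Q : ModularForm (Gamma0 2) 4 := h3_A - h3_B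

theorem h3_qExp_P : qExpansion 1 h3_P
    = h3_cast (16 * PowerSeries.expand 2 two_ne_zero eisenstein4 - eisenstein4) := by
  rw [h3_P, h3_qE_sub, h3_qE_smul, h3_qExp_A, h3_qExp_B]
  simp only [map_sub, map_mul, map_ofNat]

theorem h3_qExp_Q : qExpansion 1 h3_Q
    = h3_cast (eisenstein4 - PowerSeries.expand 2 two_ne_zero eisenstein4) := by
  rw [h3_Q, h3_qE_sub, h3_qExp_A, h3_qExp_B, map_sub]

noncomputable def h3_F1 : ModularForm (Gamma0 2) 12 :=
  ModularForm.mcast (by norm_num) ((h3_P.mul h3_P).mul h3_Q) - (54000 : ℂ) • h3_D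

noncomputable def h3_F2 : ModularForm (Gamma0 2) 12 :=
  ModularForm.mcast (by norm_num) ((h3_P.mul h3_Q).mul h3_Q) - (864000 : ℂ) • h3_D'

theorem h3_qExp_F1 : qExpansion 1 h3_F1
    = h3_cast ((16 * PowerSeries.expand 2 two_ne_zero eisenstein4 - eisenstein4) ^ 2
        * (eisenstein4 - PowerSeries.expand 2 two_ne_zero eisenstein4)
        - 54000 * (PowerSeries.X * dedekindEtaUnit)) := by
  rw [h3_F1, h3_qE_sub, h3_qE_smul, ModularForm.qExpansion_mcast, h3_qE_mul, h3_qE_mul,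
    h3_qExp_P, h3_qExp_Q, h3_qExp_D]
  simp only [map_sub, map_mul, map_pow, map_ofNat]
  ring

theorem h3_qExp_F2 : qExpansion 1 h3_F2
    = h3_cast ((16 * PowerSeries.expand 2 two_ne_zero eisenstein4 - eisenstein4)
        * (eisenstein4 - PowerSeries.expand 2 two_ne_zero eisenstein4) ^ 2
        - 864000 * (PowerSeries.X ^ 2 * PowerSeries.expand 2 two_ne_zero dedekindEtaUnit)) := by
  rw [h3_F2, h3_qE_sub, h3_qE_smul, ModularForm.qExpansion_mcast, h3_qE_mul, h3_qE_mul,
    h3_qExp_P, h3_qExp_Q, h3_qExp_D']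
  simp only [map_sub, map_mul, map_pow, map_ofNat, PowerSeries.expand_X]
  ring


/-! ### The truncations of the series involved -/

theorem h3_T4_ofNat (n : ℕ) [n.AtLeastTwo] :
    h3_T4 (OfNat.ofNat n : PowerSeries ℤ) (OfNat.ofNat n) 0 0 0 := by
  have h : (OfNat.ofNat n : PowerSeries ℤ) = PowerSeries.C (OfNat.ofNat n : ℤ) :=
    (map_ofNat (PowerSeries.C (R := ℤ)) n).symm
  rw [h]
  exact h3_T4_C _

theorem h3_T4_etaProd : h3_T4 etaProd 1 (-1) (-1) 0 :=
  ⟨h3_coeff_etaProd_zero, h3_coeff_etaProd_one, h3_coeff_etaProd_two, h3_coeff_etaProd_three⟩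

theorem h3_T4_etaUnit : h3_T4 dedekindEtaUnit 1 (-24) 252 (-1472) := by
  have h1 := h3_T4_etaProd
  have h2 : h3_T4 (etaProd * etaProd) 1 (-2) (-1) 2 :=
    (h1.mul h1).congr (by norm_num) (by norm_num) (by norm_num) (by norm_num)
  have h4 : h3_T4 (etaProd * etaProd * (etaProd * etaProd)) 1 (-4) 2 8 :=
    (h2.mul h2).congr (by norm_num) (by norm_num) (by norm_num) (by norm_num)
  have h8 : h3_T4 (etaProd * etaProd * (etaProd * etaProd)
      * (etaProd * etaProd * (etaProd * etaProd))) 1 (-8) 20 0 :=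
    (h4.mul h4).congr (by norm_num) (by norm_num) (by norm_num) (by norm_num)
  have h16 := (h8.mul h8).congr (b0 := 1) (b1 := -16) (b2 := 104) (b3 := -320)
    (by norm_num) (by norm_num) (by norm_num) (by norm_num)
  have h24 := (h16.mul h8).congr (b0 := 1) (b1 := -24) (b2 := 252) (b3 := -1472)
    (by norm_num) (by norm_num) (by norm_num) (by norm_num)
  have he : dedekindEtaUnit = etaProd * etaProd * (etaProd * etaProd)
      * (etaProd * etaProd * (etaProd * etaProd)) * (etaProd * etaProd * (etaProd * etaProd)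
      * (etaProd * etaProd * (etaProd * etaProd))) * (etaProd * etaProd * (etaProd * etaProd)
      * (etaProd * etaProd * (etaProd * etaProd))) := by
    rw [dedekindEtaUnit]; ring
  rw [he]
  exact h24

theorem h3_T4_P : h3_T4 (16 * PowerSeries.expand 2 two_ne_zero eisenstein4 - eisenstein4)
    15 (-240) 1680 (-6720) :=
  (((h3_T4_ofNat 16).mul h3_T4_eisenstein4.expand2).sub h3_T4_eisenstein4).congr
    (by norm_num) (by norm_num) (by norm_num) (by norm_num)

theorem h3_T4_Q : h3_T4 (eisenstein4 - PowerSeries.expand 2 two_ne_zero eisenstein4)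
    0 240 1920 6720 :=
  (h3_T4_eisenstein4.sub h3_T4_eisenstein4.expand2).congr
    (by norm_num) (by norm_num) (by norm_num) (by norm_num)

/-! ### The two identities -/

/-- `(16 E₄(q²) - E₄(q))² (E₄(q) - E₄(q²)) = 54000 Δ(q)` as integer power series. -/
theorem h3_sturm1 :
    (16 * PowerSeries.expand 2 two_ne_zero eisenstein4 - eisenstein4) ^ 2
        * (eisenstein4 - PowerSeries.expand 2 two_ne_zero eisenstein4)
      = 54000 * (PowerSeries.X * dedekindEtaUnit) := by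
  have hPP := (h3_T4_P.mul h3_T4_P).congr (b0 := 225) (b1 := -7200) (b2 := 108000)
    (b3 := -1008000) (by norm_num) (by norm_num) (by norm_num) (by norm_num)
  have hPPQ := (hPP.mul h3_T4_Q).congr (b0 := 0) (b1 := 54000) (b2 := -1296000)
    (b3 := 13608000) (by norm_num) (by norm_num) (by norm_num) (by norm_num)
  have hD := ((h3_T4_ofNat 54000).mul (h3_T4_X.mul h3_T4_etaUnit)).congr (b0 := 0) (b1 := 54000)
    (b2 := -1296000) (b3 := 13608000) (by norm_num) (by norm_num) (by norm_num) (by norm_num)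
  have hG := (hPPQ.sub hD).congr (b0 := 0) (b1 := 0) (b2 := 0) (b3 := 0)
    (by norm_num) (by norm_num) (by norm_num) (by norm_num)
  rw [← pow_two] at hG
  exact sub_eq_zero.mp (h3_sturm h3_F1 _ h3_qExp_F1 hG.1 hG.2.1 hG.2.2.1 hG.2.2.2)

/-- `(16 E₄(q²) - E₄(q)) (E₄(q) - E₄(q²))² = 864000 Δ(q²)` as integer power series. -/
theorem h3_sturm2 :
    (16 * PowerSeries.expand 2 two_ne_zero eisenstein4 - eisenstein4)
        * (eisenstein4 - PowerSeries.expand 2 two_ne_zero eisenstein4) ^ 2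
      = 864000 * (PowerSeries.X ^ 2 * PowerSeries.expand 2 two_ne_zero dedekindEtaUnit) := by
  have hQQ := (h3_T4_Q.mul h3_T4_Q).congr (b0 := 0) (b1 := 0) (b2 := 57600)
    (b3 := 921600) (by norm_num) (by norm_num) (by norm_num) (by norm_num)
  have hPQQ := (h3_T4_P.mul hQQ).congr (b0 := 0) (b1 := 0) (b2 := 864000)
    (b3 := 0) (by norm_num) (by norm_num) (by norm_num) (by norm_num)
  have hXX := (h3_T4_X.mul h3_T4_X).congr (b0 := 0) (b1 := 0) (b2 := 1) (b3 := 0)
    (by norm_num) (by norm_num) (by norm_num) (by norm_num)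
  have hD := ((h3_T4_ofNat 864000).mul (hXX.mul h3_T4_etaUnit.expand2)).congr (b0 := 0) (b1 := 0)
    (b2 := 864000) (b3 := 0) (by norm_num) (by norm_num) (by norm_num) (by norm_num)
  have hG := (hPQQ.sub hD).congr (b0 := 0) (b1 := 0) (b2 := 0) (b3 := 0)
    (by norm_num) (by norm_num) (by norm_num) (by norm_num)
  rw [← pow_two, ← pow_two] at hG
  exact sub_eq_zero.mp (h3_sturm h3_F2 _ h3_qExp_F2 hG.1 hG.2.1 hG.2.2.1 hG.2.2.2)

end Fermat.Agent.S18
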