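import Mathlib
import Fermat.Agent.S28.Formal
import Fermat.Agent.S18.h3_H2Sturm

/-!
# S18 [MOD] row MOD-H2: the Hauptmodul of `X₀(2)` as a formal `q`-series

`h3_hm2 R = Δ(q)/Δ(q²) = q⁻¹ ∏ (1 + qⁿ)⁻²⁴ ∈ R((q))` (the same body as `h54_hm2` of the MOD
skeleton), with

* `h3_hm2_rel : j h₂² = (h₂ + 256)³ ∧ j(q²) h₂ = (h₂ + 16)³` over `ℤ` (row statement verbatim),
* `h3_coeffMap_hm2`, and the relations over every ring (`h3_hm2_rel1`, `h3_hm2_rel2`,
  `h3_hm2_rel1728`).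

Proof: the two Sturm identities of `h3_H2Sturm.lean`, then ring algebra in the domain `ℤ((q))`:
with `P = 16 E₄(q²) - E₄(q)`, `Q = E₄(q) - E₄(q²)` one has `P² Q = 54000 Δ(q)`,
`P Q² = 864000 Δ(q²)`, hence `h₂ Q = 16 P`, `16 P + 256 Q = 240 E₄(q)`, `16 P + 16 Q = 240 E₄(q²)`.
-/

set_option autoImplicit false

noncomputable section

open ModularCurve HahnSeries

namespace Fermat.Agent.S18

open Fermat.Agent.S28

/-! ### Ring algebra -/

section alg

variable {R : Type*} [CommRing R] [IsDomain R]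

theorem h3_alg_hQ {D D' D'i h E E' : R} (h54 : (54000 : R) ≠ 0) (hh : h = D * D'i)
    (hDD : D' * D'i = 1)
    (ha : (16 * E' - E) ^ 2 * (E - E') = 54000 * D)
    (hb : (16 * E' - E) * (E - E') ^ 2 = 864000 * D') :
    h * (E - E') = 16 * (16 * E' - E) := by
  have key : (54000 : R) * (D * (E - E')) = 54000 * (16 * D' * (16 * E' - E)) := by
    calc (54000 : R) * (D * (E - E')) = (54000 * D) * (E - E') := by ring
      _ = (16 * E' - E) ^ 2 * (E - E') * (E - E') := by rw [← ha]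
      _ = (16 * E' - E) * ((16 * E' - E) * (E - E') ^ 2) := by ring
      _ = (16 * E' - E) * (864000 * D') := by rw [hb]
      _ = 54000 * (16 * D' * (16 * E' - E)) := by ring
  have key2 : D * (E - E') = 16 * D' * (16 * E' - E) := mul_left_cancel₀ h54 key
  calc h * (E - E') = D'i * (D * (E - E')) := by rw [hh]; ring
    _ = D'i * (16 * D' * (16 * E' - E)) := by rw [key2]
    _ = 16 * (16 * E' - E) * (D' * D'i) := by ring
    _ = 16 * (16 * E' - E) := by rw [hDD, mul_one]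

theorem h3_alg_rel1 {j h E E' D : R} (hjD : j * D = E ^ 3)
    (hhQ : h * (E - E') = 16 * (16 * E' - E))
    (ha : (16 * E' - E) ^ 2 * (E - E') = 54000 * D) (hQ : E - E' ≠ 0) (hD : D ≠ 0) :
    j * h ^ 2 = (h + 256) ^ 3 := by
  apply mul_right_cancel₀ (mul_ne_zero (pow_ne_zero 3 hQ) hD)
  calc j * h ^ 2 * ((E - E') ^ 3 * D) = (j * D) * (h * (E - E')) ^ 2 * (E - E') := by ring
    _ = E ^ 3 * (16 * (16 * E' - E)) ^ 2 * (E - E') := by rw [hjD, hhQ]
    _ = 256 * E ^ 3 * ((16 * E' - E) ^ 2 * (E - E')) := by ring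
    _ = 256 * E ^ 3 * (54000 * D) := by rw [ha]
    _ = (16 * (16 * E' - E) + 256 * (E - E')) ^ 3 * D := by ring
    _ = (h * (E - E') + 256 * (E - E')) ^ 3 * D := by rw [hhQ]
    _ = (h + 256) ^ 3 * ((E - E') ^ 3 * D) := by ring

theorem h3_alg_rel2 {j2 h E E' D' : R} (hjD' : j2 * D' = E' ^ 3)
    (hhQ : h * (E - E') = 16 * (16 * E' - E))
    (hb : (16 * E' - E) * (E - E') ^ 2 = 864000 * D') (hQ : E - E' ≠ 0) (hD' : D' ≠ 0) :
    j2 * h = (h + 16) ^ 3 := by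
  apply mul_right_cancel₀ (mul_ne_zero (pow_ne_zero 3 hQ) hD')
  calc j2 * h * ((E - E') ^ 3 * D') = (j2 * D') * (h * (E - E')) * (E - E') ^ 2 := by ring
    _ = E' ^ 3 * (16 * (16 * E' - E)) * (E - E') ^ 2 := by rw [hjD', hhQ]
    _ = 16 * E' ^ 3 * ((16 * E' - E) * (E - E') ^ 2) := by ring
    _ = 16 * E' ^ 3 * (864000 * D') := by rw [hb]
    _ = (16 * (16 * E' - E) + 16 * (E - E')) ^ 3 * D' := by ring
    _ = (h * (E - E') + 16 * (E - E')) ^ 3 * D' := by rw [hhQ]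
    _ = (h + 16) ^ 3 * ((E - E') ^ 3 * D') := by ring

end alg

/-! ### `ofPowerSeries` and `expand` -/

theorem h3_ofPS_expand (R : Type) [CommRing R] (p : PowerSeries R) :
    HahnSeries.ofPowerSeries ℤ R (PowerSeries.expand 2 two_ne_zero p)
      = expand R 2 (HahnSeries.ofPowerSeries ℤ R p) := by
  rw [expand_eq_qExpand]
  ext k
  by_cases hk : ((2 : ℕ) : ℤ) ∣ k
  · obtain ⟨m, rfl⟩ := hk
    rw [qExpand_coeff_mul]
    rcases le_or_gt 0 m with hm | hm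
    · lift m to ℕ using hm
      rw [show ((2 : ℕ) : ℤ) * (m : ℤ) = ((2 * m : ℕ) : ℤ) by push_cast; ring,
        HahnSeries.ofPowerSeries_apply_coeff, HahnSeries.ofPowerSeries_apply_coeff,
        PowerSeries.coeff_expand_mul]
    · rw [ofPowerSeries_coeff_of_neg _ hm, ofPowerSeries_coeff_of_neg _ (by omega)]
  · rw [qExpand_coeff_of_not_dvd 2 _ hk]
    rcases le_or_gt 0 k with hk0 | hk0
    · lift k to ℕ using hk0
      rw [HahnSeries.ofPowerSeries_apply_coeff, PowerSeries.coeff_expand_of_not_dvd]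
      intro h2
      exact hk (by exact_mod_cast h2)
    · exact ofPowerSeries_coeff_of_neg _ hk0


/-! ### The Hauptmodul -/

/-- `h₂ = Δ(q)/Δ(q²) = q⁻¹ ∏ (1 + qⁿ)⁻²⁴`, over any commutative ring. -/
def h3_hm2 (R : Type) [CommRing R] : LaurentSeries R := deltaHat R * expand R 2 (deltaHatInv R)

theorem h3_coeffMap_hm2 {R S : Type} [CommRing R] [CommRing S] (f : R →+* S) :
    coeffMap f (h3_hm2 R) = h3_hm2 S := by
  rw [h3_hm2, map_mul, coeffMap_expand, coeffMap_deltaHat, coeffMap_deltaHatInv, h3_hm2]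

theorem h3_map_int (p : PowerSeries ℤ) : p.map (Int.castRingHom ℤ) = p := by
  ext n
  simp

theorem h3_ofNat_ne_zero (n : ℕ) [n.AtLeastTwo] : (OfNat.ofNat n : LaurentSeries ℤ) ≠ 0 := by
  rw [← map_ofNat (HahnSeries.C (Γ := ℤ) (R := ℤ)) n]
  intro h
  have h2 := HahnSeries.C_injective (h.trans (map_zero _).symm)
  exact (OfNat.ofNat_ne_zero (R := ℤ) n) h2

theorem h3_deltaHat_int :
    deltaHat ℤ = HahnSeries.ofPowerSeries ℤ ℤ (PowerSeries.X * dedekindEtaUnit) := by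
  rw [deltaHat, h3_map_int, map_mul, HahnSeries.ofPowerSeries_X]

theorem h3_expand_deltaHat_int : expand ℤ 2 (deltaHat ℤ)
    = HahnSeries.ofPowerSeries ℤ ℤ
        (PowerSeries.X ^ 2 * PowerSeries.expand 2 two_ne_zero dedekindEtaUnit) := by
  rw [h3_deltaHat_int, ← h3_ofPS_expand, map_mul, PowerSeries.expand_X]

/-- `E₄(q)` as a Laurent series over `ℤ`. -/
def h3_E : LaurentSeries ℤ := HahnSeries.ofPowerSeries ℤ ℤ eisenstein4

theorem h3_ofPS_expand_E :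
    HahnSeries.ofPowerSeries ℤ ℤ (PowerSeries.expand 2 two_ne_zero eisenstein4)
      = expand ℤ 2 h3_E := h3_ofPS_expand ℤ eisenstein4

theorem h3_a : (16 * expand ℤ 2 h3_E - h3_E) ^ 2 * (h3_E - expand ℤ 2 h3_E)
    = 54000 * deltaHat ℤ := by
  have h := congrArg (HahnSeries.ofPowerSeries ℤ ℤ) h3_sturm1
  simp only [map_mul, map_sub, map_pow, map_ofNat] at h
  rw [h3_ofPS_expand_E, ← map_mul, ← h3_deltaHat_int] at h
  exact h

theorem h3_b : (16 * expand ℤ 2 h3_E - h3_E) * (h3_E - expand ℤ 2 h3_E) ^ 2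
    = 864000 * expand ℤ 2 (deltaHat ℤ) := by
  have h := congrArg (HahnSeries.ofPowerSeries ℤ ℤ) h3_sturm2
  simp only [map_mul, map_sub, map_pow, map_ofNat] at h
  rw [h3_ofPS_expand_E, ← map_pow, ← map_mul, ← h3_expand_deltaHat_int] at h
  exact h

theorem h3_Q_ne_zero : h3_E - expand ℤ 2 h3_E ≠ 0 := by
  rw [← h3_ofPS_expand_E, h3_E, ← map_sub]
  intro h
  have h0 := HahnSeries.ofPowerSeries_injective (h.trans (map_zero _).symm)
  have h1 := h3_T4_Q.2.1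
  rw [h0] at h1
  simp at h1

theorem h3_jD : jqModC ℤ * deltaHat ℤ = h3_E ^ 3 := by
  rw [jqModC_mul_deltaHat, h3_map_int, map_pow, h3_E]

theorem h3_jD' : expand ℤ 2 (jqModC ℤ) * expand ℤ 2 (deltaHat ℤ) = expand ℤ 2 h3_E ^ 3 := by
  rw [← map_mul, h3_jD, map_pow]

theorem h3_hQ : h3_hm2 ℤ * (h3_E - expand ℤ 2 h3_E) = 16 * (16 * expand ℤ 2 h3_E - h3_E) := by
  refine h3_alg_hQ (D := deltaHat ℤ) (D' := expand ℤ 2 (deltaHat ℤ))
    (D'i := expand ℤ 2 (deltaHatInv ℤ)) (h3_ofNat_ne_zero 54000) rfl ?_ h3_a h3_b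
  rw [← map_mul, deltaHat_mul_deltaHatInv, map_one]

/-- **MOD-H2** (row statement verbatim): `j h₂² = (h₂ + 256)³` and `j(q²) h₂ = (h₂ + 16)³`. -/
theorem h3_hm2_rel : jqModC ℤ * h3_hm2 ℤ ^ 2 = (h3_hm2 ℤ + 256) ^ 3 ∧
    expand ℤ 2 (jqModC ℤ) * h3_hm2 ℤ = (h3_hm2 ℤ + 16) ^ 3 := by
  have hD : deltaHat ℤ ≠ 0 := (isUnit_deltaHat (A := ℤ)).ne_zero
  have hD' : expand ℤ 2 (deltaHat ℤ) ≠ 0 := fun h => hD ((expand_eq_zero_iff 2 _).1 h)
  exact ⟨h3_alg_rel1 h3_jD h3_hQ h3_a h3_Q_ne_zero hD,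
    h3_alg_rel2 h3_jD' h3_hQ h3_b h3_Q_ne_zero hD'⟩

/-! ### The relations over every ring -/

theorem h3_hm2_rel1 (R : Type) [CommRing R] : jqModC R * h3_hm2 R ^ 2 = (h3_hm2 R + 256) ^ 3 := by
  have h := congrArg (coeffMap (Int.castRingHom R)) h3_hm2_rel.1
  simpa only [map_mul, map_pow, map_add, map_ofNat, coeffMap_jqModC, h3_coeffMap_hm2] using h

theorem h3_hm2_rel2 (R : Type) [CommRing R] :
    expand R 2 (jqModC R) * h3_hm2 R = (h3_hm2 R + 16) ^ 3 := by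
  have h := congrArg (coeffMap (Int.castRingHom R)) h3_hm2_rel.2
  simpa only [map_mul, map_pow, map_add, map_ofNat, coeffMap_expand, coeffMap_jqModC,
    h3_coeffMap_hm2] using h

/-- `(j - 1728) h₂² = (h₂ - 512)² (h₂ + 64)`. -/
theorem h3_hm2_rel1728 (R : Type) [CommRing R] :
    (jqModC R - 1728) * h3_hm2 R ^ 2 = (h3_hm2 R - 512) ^ 2 * (h3_hm2 R + 64) := by
  have h := h3_hm2_rel1 R
  linear_combination h

end Fermat.Agent.S18
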