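import Mathlib
import Fermat.Agent.S28.Core
import Fermat.Agent.S28.h64_ConjExists

/-!
# S18, layer MOD, row IG-E : `j(q^N)` is separable over `k(j)`

For an algebraically closed field `k` of characteristic `ℓ ∤ N`, the Laurent series
`qExpand k N (jqModC k) = j(q^N)` is separable over the subfield `k(j)` of `k((q))`.

The proof uses the conjugate family of S28: the product `∏_r (X - j_r)` over the conjugates of
`j(q^N)` has coefficients in `k₀[j(t^N)]` and pairwise distinct roots.
-/

set_option autoImplicit false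
set_option synthInstance.maxHeartbeats 400000

noncomputable section

open ModularCurve IntermediateField Polynomial

namespace Fermat.Agent.S18

open Fermat.Agent.S28

/-- Over a field `k` carrying a conjugate family, `j(q^N)` is a root of a polynomial with
coefficients in `k[j]` whose image in `k((q))[X]` is separable. -/
theorem h21_sep_core {k : Type} [Field k] (N : ℕ) [NeZero N] (z : kˣ) (hz : orderOf z = N)
    (F : ConjFamily k N z) :
    ∃ Q : Polynomial (Polynomial k),
      (Q.map (Polynomial.aeval (jqModC k)).toRingHom).Separable ∧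
      (Q.map (Polynomial.aeval (jqModC k)).toRingHom).eval (qExpand k N (jqModC k)) = 0 := by
  classical
  let _ := F.fin
  have hN0 : N ≠ 0 := NeZero.ne N
  let iN : Coord N := (false, ⟨N, dvd_rfl⟩)
  set jh : LaurentSeries k := S28.expand k N (jqModC k) with hjh
  let ψ : k[X] →+* LaurentSeries k := (aeval jh).toRingHom
  have hψC : ∀ c : k, ψ (C c) = HahnSeries.C c := by
    intro c
    show aeval jh (C c) = _
    rw [aeval_C, h98_algebraMap_eq_C]
  let ρ : F.ι → LaurentSeries k := fun r => F.c r iN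
  have hρinj : Function.Injective ρ := by
    intro r r' h
    have h' : Jc k N (F.a r) N (F.a r * F.b r) z = Jc k N (F.a r') N (F.a r' * F.b r') z := by
      rw [← F.cXN r, ← F.cXN r']; exact h
    obtain ⟨h1, h2⟩ := Jc_injective N hN0 z hz (F.a_dvd r) (F.a_dvd r') (F.b_lt r) (F.b_lt r') h'
    exact F.inj r r' h1 h2
  obtain ⟨Q, hQ⟩ := F.F1 (MvPolynomial.X iN)
  have hQ' : ∏ r, (X - C (ρ r)) = Q.map ψ := by
    have h := hQ
    simp only [MvPolynomial.aeval_X] at h
    exact h
  have hρ₀ : ρ F.r₀ = S28.expand k N (qExpand k N (jqModC k)) := by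
    show F.c F.r₀ iN = _
    rw [F.cX_r₀ ⟨N, dvd_rfl⟩]
    have : NeZero (N * N) := ⟨Nat.mul_ne_zero hN0 hN0⟩
    rw [expand_eq_qExpand, expand_eq_qExpand, qExpand_qExpand]
  have hcomp : (S28.expand k N).comp (Polynomial.aeval (jqModC k)).toRingHom = ψ := by
    apply Polynomial.ringHom_ext
    · intro c
      rw [hψC]
      show S28.expand k N (aeval (jqModC k) (C c)) = _
      rw [aeval_C, h98_algebraMap_eq_C, expand_eq_qExpand, qExpand_C]
    · show S28.expand k N (aeval (jqModC k) X) = aeval jh X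
      rw [aeval_X, aeval_X]
  have hsep : (Q.map ψ).Separable := by
    rw [← hQ']
    exact separable_prod_X_sub_C_iff.mpr hρinj
  have hroot : (Q.map ψ).eval (ρ F.r₀) = 0 := by
    rw [← hQ', eval_prod]
    exact Finset.prod_eq_zero (Finset.mem_univ F.r₀) (by simp)
  have hmm : (Q.map (Polynomial.aeval (jqModC k)).toRingHom).map (S28.expand k N) = Q.map ψ := by
    rw [Polynomial.map_map, hcomp]
  refine ⟨Q, ?_, ?_⟩
  · rw [← hmm] at hsep
    exact (Polynomial.separable_map (S28.expand k N)).mp hsep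
  · have hinj : Function.Injective (S28.expand k N) := (S28.expand k N).injective
    apply hinj
    rw [map_zero, ← hroot, hρ₀, ← hmm, Polynomial.eval_map, Polynomial.eval_map,
      Polynomial.eval₂_map, ← Polynomial.hom_eval₂]

/-- An algebraic extension of a field embeds into any algebraically closed extension. -/
theorem h21_exists_ringHom_of_isAlgebraic (K k₀ k : Type) [Field K] [Field k₀] [Field k]
    [IsAlgClosed k] [Algebra K k₀] [Algebra K k] [Algebra.IsAlgebraic K k₀] :
    Nonempty (k₀ →+* k) :=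
  ⟨(IsAlgClosed.lift : k₀ →ₐ[K] k).toRingHom⟩

/-- The residue fields of `ℤ[ζ_N]` are algebraic over the prime field. -/
theorem h21_isIntegral_of_cycO (N : ℕ) [NeZero N] (R k₀ : Type) [CommRing R] [Field k₀]
    [Algebra R k₀] (φ : cycO N →+* k₀) (hφ : Function.Surjective φ) (y : k₀) :
    IsIntegral R y := by
  obtain ⟨x, rfl⟩ := hφ y
  have hx : IsIntegral ℤ (x : ℂ) := h1_cycO_isIntegral N _ x.2
  have hx' : IsIntegral ℤ x := by
    obtain ⟨p, hp, hpx⟩ := hx
    refine ⟨p, hp, ?_⟩
    apply Subtype.ext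
    have h := Polynomial.hom_eval₂ p (algebraMap ℤ (cycO N)) (cycO N).subtype x
    rw [RingHom.ext_int ((cycO N).subtype.comp (algebraMap ℤ (cycO N))) (algebraMap ℤ ℂ)] at h
    rw [← Subring.subtype_apply, h]
    exact hpx
  have h1 : IsIntegral ℤ (φ x) := hx'.map φ.toIntAlgHom
  exact h1.tower_top

/-- Over an algebraically closed field of characteristic `ℓ ∤ N`, `j(q^N)` is a root of a
polynomial with coefficients in `k[j]` whose image in `k((q))[X]` is separable. -/
theorem h21_sep_exists (N : ℕ) [NeZero N] (ℓ : ℕ) [Fact ℓ.Prime] (hℓN : ¬ ℓ ∣ N) (k : Type)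
    [Field k] [CharP k ℓ] [IsAlgClosed k] :
    ∃ Q : Polynomial (Polynomial k),
      (Q.map (Polynomial.aeval (jqModC k)).toRingHom).Separable ∧
      (Q.map (Polynomial.aeval (jqModC k)).toRingHom).eval (qExpand k N (jqModC k)) = 0 := by
  obtain ⟨k₀, hk₀, hchar, φ, hφ, hord⟩ := exists_reduction N ℓ hℓN
  obtain ⟨F⟩ := exists_conjFamily N
  obtain ⟨Q₀, hsep, hroot⟩ := h21_sep_core N _ hord (F.map φ hφ)
  let a₀ : Algebra (ZMod ℓ) k₀ := ZMod.algebra k₀ ℓ
  let a₁ : Algebra (ZMod ℓ) k := ZMod.algebra k ℓ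
  have halg : @Algebra.IsAlgebraic (ZMod ℓ) k₀ _ _ a₀ :=
    ⟨fun y => (@h21_isIntegral_of_cycO N _ (ZMod ℓ) k₀ _ _ a₀ φ hφ y).isAlgebraic⟩
  obtain ⟨θ⟩ := @h21_exists_ringHom_of_isAlgebraic (ZMod ℓ) k₀ k _ _ _ _ a₀ a₁ halg
  refine ⟨Q₀.map (Polynomial.mapRingHom θ), ?_, ?_⟩
  · have h := hsep.map (f := coeffMap θ)
    rw [Polynomial.map_map, h1_coeffMap_comp_aeval, coeffMap_jqModC, ← Polynomial.map_map] at h
    exact h
  · have h := congrArg (coeffMap θ) hroot
    rw [map_zero, h1_coeffMap_eval_map, coeffMap_jqModC, coeffMap_qExpand, coeffMap_jqModC] at h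
    exact h

/-- **IG-E** `j(q^N)` is separable over `k(j) ⊆ k((q))`, for `k` algebraically closed of
characteristic `ℓ ∤ N`. -/
theorem h21_jN_separable (N : ℕ) [NeZero N] (ℓ : ℕ) [Fact ℓ.Prime] (hℓN : ¬ ℓ ∣ N) (k : Type)
    [Field k] [CharP k ℓ] [IsAlgClosed k] :
    IsSeparable ↥(k⟮jqModC k⟯) (qExpand k N (jqModC k)) := by
  obtain ⟨Q, hsep, hroot⟩ := h21_sep_exists N ℓ hℓN k
  let jK : ↥(k⟮jqModC k⟯) := ⟨jqModC k, mem_adjoin_simple_self k _⟩
  let QK : Polynomial ↥(k⟮jqModC k⟯) := Q.map (Polynomial.aeval jK).toRingHom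
  have hmap : QK.map (algebraMap ↥(k⟮jqModC k⟯) (LaurentSeries k)) =
      Q.map (Polynomial.aeval (jqModC k)).toRingHom := by
    rw [Polynomial.map_map]
    congr 1
    apply Polynomial.ringHom_ext
    · intro c
      simp
    · simp [jK]
  have hsepK : QK.Separable := by
    rw [← hmap] at hsep
    exact (Polynomial.separable_map (algebraMap ↥(k⟮jqModC k⟯) (LaurentSeries k))).mp hsep
  have hrootK : Polynomial.aeval (qExpand k N (jqModC k)) QK = 0 := by
    rw [Polynomial.aeval_def, ← Polynomial.eval_map, hmap]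
    exact hroot
  exact hsepK.of_dvd (minpoly.dvd _ _ hrootK)

end Fermat.Agent.S18
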