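/-
S18 / MOD layer (helper54): generic field theory for the separability of the residue extension.

`Fb ⊆ L` fields over `k`, `j y ∈ Fb`.  If `[Fb : k(j)] = n`, the powers `1, y, …, y^(n-1)` are
linearly independent over `k(j)` and `y` is separable over `k(j)`, then `Fb / k(j)` is separable
(because `Fb = k(j)(y)`).
-/
import Mathlib

set_option autoImplicit false

noncomputable section

open IntermediateField

namespace Fermat.Agent.S18

variable {k L : Type*} [Field k] [Field L] [Algebra k L]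

/-- The canonical isomorphism between `k(j)` inside `Fb` and `k(j)` inside `L`. -/
def h54_adjoinEquiv (Fb : IntermediateField k L) (j : L) (hj : j ∈ Fb) :
    ↥(k⟮(⟨j, hj⟩ : Fb)⟯) ≃ₐ[k] ↥(k⟮j⟯) :=
  (IntermediateField.equivMap k⟮(⟨j, hj⟩ : Fb)⟯ Fb.val).trans
    (IntermediateField.equivOfEq (by
      rw [IntermediateField.adjoin_map]
      simp))

theorem h54_adjoinEquiv_coe (Fb : IntermediateField k L) (j : L) (hj : j ∈ Fb)
    (c : ↥(k⟮(⟨j, hj⟩ : Fb)⟯)) :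
    ((h54_adjoinEquiv Fb j hj c : ↥(k⟮j⟯)) : L) = ((c : Fb) : L) := rfl

theorem h54_adjoinEquiv_symm_coe (Fb : IntermediateField k L) (j : L) (hj : j ∈ Fb)
    (c : ↥(k⟮j⟯)) :
    ((((h54_adjoinEquiv Fb j hj).symm c : ↥(k⟮(⟨j, hj⟩ : Fb)⟯)) : Fb) : L) = (c : L) := by
  rw [← h54_adjoinEquiv_coe, AlgEquiv.apply_symm_apply]

/-- Linear independence of the powers of `y` over `k(j)` passes from `L` to `Fb`. -/
theorem h54_linearIndependent_pow (Fb : IntermediateField k L) (j y : L) (hj : j ∈ Fb)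
    (hy : y ∈ Fb) (n : ℕ)
    (hlin : LinearIndependent ↥(k⟮j⟯) (fun i : Fin n => y ^ (i : ℕ))) :
    LinearIndependent ↥(k⟮(⟨j, hj⟩ : Fb)⟯) (fun i : Fin n => (⟨y, hy⟩ : Fb) ^ (i : ℕ)) := by
  classical
  rw [Fintype.linearIndependent_iff] at hlin ⊢
  intro g hg i
  have h1 : ∑ i, h54_adjoinEquiv Fb j hj (g i) • y ^ (i : ℕ) = 0 := by
    have h2 := congrArg (fun x : Fb => (x : L)) hg
    simp only [ZeroMemClass.coe_zero] at h2
    rw [← h2, AddSubmonoidClass.coe_finsetSum]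
    refine Finset.sum_congr rfl fun i _ => ?_
    rw [IntermediateField.smul_def, IntermediateField.smul_def]
    simp [h54_adjoinEquiv_coe]
  have h3 := hlin _ h1 i
  exact (map_eq_zero_iff _ (h54_adjoinEquiv Fb j hj).injective).1 h3

/-- Separability of `y` over `k(j)` passes from `L` to `Fb`. -/
theorem h54_isSeparable_transfer (Fb : IntermediateField k L) (j y : L) (hj : j ∈ Fb)
    (hy : y ∈ Fb) (hsep : IsSeparable ↥(k⟮j⟯) y) :
    IsSeparable ↥(k⟮(⟨j, hj⟩ : Fb)⟯) (⟨y, hy⟩ : Fb) := by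
  set ψ : ↥(k⟮j⟯) →+* ↥(k⟮(⟨j, hj⟩ : Fb)⟯) :=
    ((h54_adjoinEquiv Fb j hj).symm : ↥(k⟮j⟯) →+* ↥(k⟮(⟨j, hj⟩ : Fb)⟯)) with hψ
  have hq : ((minpoly ↥(k⟮j⟯) y).map ψ).Separable := Polynomial.Separable.map hsep
  have hroot : Polynomial.aeval (⟨y, hy⟩ : Fb) ((minpoly ↥(k⟮j⟯) y).map ψ) = 0 := by
    apply Subtype.ext
    have h0 := minpoly.aeval ↥(k⟮j⟯) y
    have hcomp : ((Fb.val : ↥Fb →+* L).comp
        ((algebraMap ↥(k⟮(⟨j, hj⟩ : Fb)⟯) ↥Fb).comp ψ)) = algebraMap ↥(k⟮j⟯) L := by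
      ext c
      exact h54_adjoinEquiv_symm_coe Fb j hj c
    have h1 : ((Polynomial.aeval (⟨y, hy⟩ : Fb) ((minpoly ↥(k⟮j⟯) y).map ψ) : Fb) : L)
        = Polynomial.eval₂ ((Fb.val : ↥Fb →+* L).comp
            ((algebraMap ↥(k⟮(⟨j, hj⟩ : Fb)⟯) ↥Fb).comp ψ)) y (minpoly ↥(k⟮j⟯) y) := by
      rw [Polynomial.aeval_def, Polynomial.eval₂_map]
      exact Polynomial.hom_eval₂ _ _ (Fb.val : ↥Fb →+* L) _
    rw [h1, hcomp, ZeroMemClass.coe_zero]
    exact h0
  exact hq.of_dvd (minpoly.dvd _ _ hroot)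

/-- **SEP** `Fb / k(j)` is separable as soon as `[Fb : k(j)] = n`, the powers `y^i` (`i < n`)
are independent over `k(j)` and `y` is separable over `k(j)`. -/
theorem h54_isSeparable_of_powers (Fb : IntermediateField k L) (j y : L) (hj : j ∈ Fb)
    (hy : y ∈ Fb) (n : ℕ) (hn : 0 < n)
    (hfin : Module.finrank ↥(k⟮(⟨j, hj⟩ : Fb)⟯) ↥Fb = n)
    (hlin : LinearIndependent ↥(k⟮j⟯) (fun i : Fin n => y ^ (i : ℕ)))
    (hsep : IsSeparable ↥(k⟮j⟯) y) :
    Algebra.IsSeparable ↥(k⟮(⟨j, hj⟩ : Fb)⟯) ↥Fb := by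
  have : Module.Finite ↥(k⟮(⟨j, hj⟩ : Fb)⟯) ↥Fb :=
    Module.finite_of_finrank_pos (by rw [hfin]; exact hn)
  have hli := h54_linearIndependent_pow Fb j y hj hy n hlin
  have hspan := hli.span_eq_top_of_card_eq_finrank' (by rw [Fintype.card_fin, hfin])
  have hsepy := h54_isSeparable_transfer Fb j y hj hy hsep
  rw [← separableClosure.eq_top_iff]
  rw [eq_top_iff]
  intro x _
  have hx : x ∈ Submodule.span ↥(k⟮(⟨j, hj⟩ : Fb)⟯)
      (Set.range fun i : Fin n => (⟨y, hy⟩ : Fb) ^ (i : ℕ)) := by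
    rw [hspan]
    exact Submodule.mem_top
  refine Submodule.span_induction ?_ ?_ ?_ ?_ hx
  · rintro _ ⟨i, rfl⟩
    exact pow_mem (mem_separableClosure_iff.2 hsepy) _
  · exact zero_mem _
  · intro a b _ _ ha hb
    exact add_mem ha hb
  · intro c a _ ha
    rw [Algebra.smul_def]
    exact mul_mem (IntermediateField.algebraMap_mem _ c) ha

end Fermat.Agent.S18
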