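/-
S18 / MOD-PP (helper54): pointwise ramification of `F = modularFunctionFieldBar N` over the
`j`-line in characteristic zero.  Every place over `j = a` has ramification index dividing
`3` (`a = 0`), `2` (`a = 1728`), and is unramified otherwise.
-/
import Fermat.Agent.S24.h78_Fibres

set_option autoImplicit false

open UpperHalfPlane ModularCurve AlgebraicCurve IntermediateField
open scoped Manifold MatrixGroups

namespace Fermat.Agent.S18

open Fermat.Agent.S24

/-- Every place of `F` over `j = a` is the place of one of the analytic order functions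
`h54_w ι N τ₀ x` (`j τ₀ = ι a`), and its ramification index divides `E = 3, 2, 1`. -/
theorem h54_ord_j_sub_dvd_aux (N : ℕ) [NeZero N]
    (v : Place (AlgebraicClosure ℚ) ↥(modularFunctionFieldBar N)) (a : AlgebraicClosure ℚ)
    (h : 0 < v.ord (h59_jbar N
      - algebraMap (AlgebraicClosure ℚ) ↥(modularFunctionFieldBar N) a)) :
    v.ord (h59_jbar N - algebraMap (AlgebraicClosure ℚ) ↥(modularFunctionFieldBar N) a)
      ∣ (if h78_iota a = 0 then 3 else if h78_iota a = 1728 then 2 else 1 : ℤ) := by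
  classical
  haveI := h78_finiteDimensional N
  have hdeg := h78_finrank N
  let _ : Fintype (SL(2, ℤ) ⧸ CongruenceSubgroup.Gamma0 N) := Fintype.ofFinite _
  obtain ⟨τ₀, hτ⟩ := h54_exists_point (h78_iota a)
  set t := h59_jbar N with ht
  set E : ℤ := (if h78_iota a = 0 then 3 else if h78_iota a = 1728 then 2 else 1 : ℤ) with hEdef
  have hE : 0 < E := by
    rw [hEdef]; split_ifs <;> norm_num
  have hj : h78_j (AlgebraicClosure ℚ) N = h59_jbar N := rfl
  have hcard : Fintype.card (SL(2, ℤ) ⧸ CongruenceSubgroup.Gamma0 N)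
      = Module.finrank (AlgebraicClosure ℚ)⟮h59_jbar N⟯ ↥(modularFunctionFieldBar N) := by
    rw [hdeg, Nat.card_eq_fintype_card]
  have hXne : Nonempty (SL(2, ℤ) ⧸ CongruenceSubgroup.Gamma0 N) := ⟨((1 : SL(2, ℤ)) : _)⟩
  set w : SL(2, ℤ) ⧸ CongruenceSubgroup.Gamma0 N → ↥(modularFunctionFieldBar N) → ℤ :=
    h54_w h78_iota N τ₀ with hwdef
  have hw : ∀ x, h56_IsOrd (AlgebraicClosure ℚ) (w x) := fun x =>
    ⟨fun f₁ f₂ h₁ h₂ => h54_w_mul h78_iota N τ₀ x h₁ h₂,
      fun f₁ f₂ _ _ h => h54_w_add h78_iota N τ₀ x h, fun c _ => h54_w_const h78_iota N τ₀ x c⟩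
  have hwE : ∀ x, w x (t - algebraMap (AlgebraicClosure ℚ) ↥(modularFunctionFieldBar N) a) = E := by
    intro x
    have := h54_w_j_sub_of_eq h78_iota N τ₀ x a hτ
    rw [hj] at this
    exact this
  have hnorm : ∀ h : ↥(modularFunctionFieldBar N), h ≠ 0 → ∀ x₀,
      w x₀ (algebraMap (AlgebraicClosure ℚ)⟮t⟯ ↥(modularFunctionFieldBar N)
        (Algebra.norm (AlgebraicClosure ℚ)⟮t⟯ h)) = ∑ x, w x h := by
    intro h hh x₀
    have hE' : ∀ (x y : SL(2, ℤ) ⧸ CongruenceSubgroup.Gamma0 N)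
        (e : (AlgebraicClosure ℚ)⟮h59_jbar N⟯),
        h54_sigma h78_iota N τ₀ x (algebraMap (AlgebraicClosure ℚ)⟮h59_jbar N⟯
            ↥(modularFunctionFieldBar N) e)
          = h54_sigma h78_iota N τ₀ y (algebraMap (AlgebraicClosure ℚ)⟮h59_jbar N⟯
            ↥(modularFunctionFieldBar N) e) := by
      intro x y e
      exact h54_sigma_eqOn_adjoin h78_iota N τ₀ x y
        (show ((e : ↥(modularFunctionFieldBar N))) ∈
          IntermediateField.adjoin (AlgebraicClosure ℚ) {h78_j (AlgebraicClosure ℚ) N} from e.2)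
    have : CharZero ↥(modularFunctionFieldBar N) :=
      charZero_of_injective_algebraMap
        (algebraMap (AlgebraicClosure ℚ) ↥(modularFunctionFieldBar N)).injective
    have : CharZero ↥((AlgebraicClosure ℚ)⟮h59_jbar N⟯) :=
      charZero_of_injective_algebraMap
        (algebraMap (AlgebraicClosure ℚ) ↥((AlgebraicClosure ℚ)⟮h59_jbar N⟯)).injective
    have : Algebra.IsAlgebraic ↥((AlgebraicClosure ℚ)⟮h59_jbar N⟯) ↥(modularFunctionFieldBar N) :=
      Algebra.IsAlgebraic.of_finite _ _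
    have : Algebra.IsSeparable ↥((AlgebraicClosure ℚ)⟮h59_jbar N⟯) ↥(modularFunctionFieldBar N) :=
      Algebra.IsAlgebraic.isSeparable_of_perfectField
    have key := h71_norm_of_card_ringHom (E := (AlgebraicClosure ℚ)⟮h59_jbar N⟯)
      (σ := h54_sigma h78_iota N τ₀) (h54_sigma_injective h78_iota N τ₀) hE' hcard x₀ h
    show (h54_sigma h78_iota N τ₀ x₀ _).order = ∑ x, (h54_sigma h78_iota N τ₀ x h).order
    rw [key]
    exact h54_order_prod Finset.univ _
      (fun x _ => (map_ne_zero (h54_sigma h78_iota N τ₀ x)).mpr hh)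
  have ht0 : t - algebraMap (AlgebraicClosure ℚ) ↥(modularFunctionFieldBar N) a ≠ 0 := by
    intro h0
    rw [h0] at h
    simp at h
  have hnt : ∀ x, ∃ f : ↥(modularFunctionFieldBar N), f ≠ 0 ∧ w x f ≠ 0 :=
    fun x => ⟨_, ht0, by rw [hwE x]; exact hE.ne'⟩
  set p : SL(2, ℤ) ⧸ CongruenceSubgroup.Gamma0 N →
      Place (AlgebraicClosure ℚ) ↥(modularFunctionFieldBar N) :=
    fun x => h56_placeOfOrd (w x) (hw x) (hnt x) with hpdef
  have hpt : ∀ x, t ∈ (p x).toValuationSubring := by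
    intro x
    have h1 : t - algebraMap (AlgebraicClosure ℚ) ↥(modularFunctionFieldBar N) a
        ∈ (p x).toValuationSubring := Or.inr (by rw [hwE x]; exact hE.le)
    have h2 := (p x).toValuationSubring.add_mem _ _ h1 ((p x).algebraMap_mem' a)
    rwa [sub_add_cancel] at h2
  obtain ⟨x, hx⟩ : ∃ x, p x = v := by
    refine h56_exists_eq_of_norm t a p hpt ?_ v (h56_mem_nonunits_of_ord_pos v h)
    intro h' hh0 hh
    obtain ⟨P, b, hb, hPb, himp⟩ := h56_norm_property t a w hw E hE hwE hnorm h' hh0 hh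
    refine ⟨P, b, hb, hPb, fun hP0 => ?_⟩
    obtain ⟨x, hx⟩ := himp hP0
    refine ⟨x, ?_⟩
    rw [ValuationSubring.mem_nonunits_iff_or]
    refine Or.inr ?_
    rintro (hinv | hinv)
    · exact inv_ne_zero hh0 hinv
    · rw [(hw x).map_inv hh0] at hinv
      omega
  obtain ⟨m, hm, -, hmf⟩ := h56_placeOfOrd_ord (hw x) (hnt x)
  have h1 : E = m * v.ord (t - algebraMap (AlgebraicClosure ℚ) ↥(modularFunctionFieldBar N) a) := by
    rw [← hwE x, ← hx]
    exact hmf _ ht0
  exact ⟨m, by rw [h1]; ring⟩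

/-- **MOD-PP.** Every place over `j = a` has `e ∣ 3` (`a = 0`), `e ∣ 2` (`a = 1728`), `e = 1`
otherwise. -/
theorem h54_ord_j_sub_dvd (N : ℕ) [NeZero N]
    (v : Place (AlgebraicClosure ℚ) ↥(modularFunctionFieldBar N)) (a : AlgebraicClosure ℚ)
    (h : 0 < v.ord (h59_jbar N
      - algebraMap (AlgebraicClosure ℚ) ↥(modularFunctionFieldBar N) a)) :
    (a = 0 → v.ord (h59_jbar N
        - algebraMap (AlgebraicClosure ℚ) ↥(modularFunctionFieldBar N) a) ∣ 3) ∧
    (a = 1728 → v.ord (h59_jbar N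
        - algebraMap (AlgebraicClosure ℚ) ↥(modularFunctionFieldBar N) a) ∣ 2) ∧
    (a ≠ 0 → a ≠ 1728 → v.ord (h59_jbar N
        - algebraMap (AlgebraicClosure ℚ) ↥(modularFunctionFieldBar N) a) = 1) := by
  have key := h54_ord_j_sub_dvd_aux N v a h
  refine ⟨fun h0 => ?_, fun h1 => ?_, fun h0 h1 => ?_⟩
  · have hι : h78_iota a = 0 := by rw [h0, map_zero]
    rwa [if_pos hι] at key
  · have hι : h78_iota a = 1728 := by rw [h1, map_ofNat]
    rwa [if_neg (by rw [hι]; norm_num), if_pos hι] at key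
  · have hι0 : h78_iota a ≠ 0 := fun hh => h0 (h78_iota_injective (by rw [hh, map_zero]))
    have hι1 : h78_iota a ≠ 1728 := fun hh => h1 (h78_iota_injective (by rw [hh, map_ofNat]))
    rw [if_neg hι0, if_neg hι1] at key
    exact Int.eq_one_of_dvd_one h.le key

end Fermat.Agent.S18
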