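import Mathlib
import Fermat.Agent.S28.h64_ConjExists
import Fermat.Agent.S28.Core

/-!
# S18, layer MOD, row MOD-IG-A (helper84): Igusa's degree bound over any field of characteristic `ℓ`

`h84_igusa_field`: for a field `k` of characteristic `ℓ ∤ N`, the series `j(q^N)` satisfies no
nonzero polynomial relation of degree `< [SL₂(ℤ) : Γ₀(N)]` over `k[j]`.

Proof: S28's `igusa_core` over `ZMod ℓ` for the conjugate family indexed by `SL₂(ℤ)/Γ₀(N)`, and
scalar extension `ZMod ℓ → k` by applying `ZMod ℓ`-linear functionals coefficientwise.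
-/

set_option autoImplicit false
set_option linter.style.haveILetI false

noncomputable section

open ModularCurve CongruenceSubgroup Polynomial
open scoped MatrixGroups

namespace Fermat.Agent.S18

open Fermat.Agent.S28

/-! ### The conjugate family over `ℤ[ζ_N]` with its cardinality -/

/-- S28's conjugate family over `ℤ[ζ_N]`, with the cardinality of its index set. -/
theorem h84_exists_conjFamily_card (N : ℕ) [NeZero N] :
    ∃ F : ConjFamily (cycO N) N (zetaO N),
      @Fintype.card F.ι F.fin = Nat.card (SL(2, ℤ) ⧸ Gamma0 N) := by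
  have hN : 0 < N := Nat.pos_of_ne_zero (NeZero.ne N)
  have h0 := h64_data_of_mem hN dvd_rfl (h64_rep_one_mem N)
  refine ⟨{
    ι := SL(2, ℤ) ⧸ Gamma0 N
    fin := h64_fin N
    a := fun r => h64_hA N (h64_rep N r)
    b := fun r => h64_hB N (h64_rep N r)
    r₀ := ((1 : SL(2, ℤ)) : SL(2, ℤ) ⧸ Gamma0 N)
    c := h64_c N
    a_dvd := fun r => h64_hA_dvd N _
    b_lt := fun r => h64_hB_lt hN _
    inj := h64_inj N
    a_r₀ := h0.1
    cXN := ?_
    cX := ?_
    cU := ?_
    cX_r₀ := ?_
    cU_r₀ := ?_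
    F1 := ?_
    F2 := ?_ }, ?_⟩
  · intro r
    show Jc (cycO N) N (h64_hA N (h64_rep N r)) N (h64_hm N N (h64_rep N r)) (zetaO N) = _
    have : h64_hm N N (h64_rep N r) = h64_hA N (h64_rep N r) * h64_hB N (h64_rep N r) := by
      rw [h64_hm, h64_hD, Nat.div_div_self (h64_hA_dvd N _) hN.ne']
    rw [this]
  · intro r d
    refine ⟨h64_hm N d (h64_rep N r), ?_⟩
    show Jc (cycO N) N (h64_hA d (h64_rep N r)) d (h64_hm N d (h64_rep N r)) (zetaO N) = _
    rw [h64_hA_gcd d.2]
  · intro r d
    refine ⟨h64_hm N d (h64_rep N r), ?_⟩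
    show Uc (cycO N) N (h64_hA d (h64_rep N r)) d (h64_hm N d (h64_rep N r)) (zetaO N) = _
    rw [h64_hA_gcd d.2]
  · intro d
    have hd : 0 < (d : ℕ) := Nat.pos_of_dvd_of_pos d.2 hN
    obtain ⟨hA, hD, hB⟩ := h64_data_of_mem hd d.2 (h64_rep_one_mem N)
    show Jc (cycO N) N (h64_hA d (h64_rep N _)) d (h64_hm N d (h64_rep N _)) (zetaO N) = _
    have hm : h64_hm N d (h64_rep N ((1 : SL(2, ℤ)) : SL(2, ℤ) ⧸ Gamma0 N)) = 0 := by
      rw [h64_hm, hB, mul_zero]
    have he : N * (d : ℕ) ^ 2 / d = N * d := by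
      rw [pow_two, ← mul_assoc, Nat.mul_div_cancel _ hd]
    rw [hA, hm, Jc, pow_zero, subst_apply, twist_one, he]
  · intro d
    have hd : 0 < (d : ℕ) := Nat.pos_of_dvd_of_pos d.2 hN
    obtain ⟨hA, hD, hB⟩ := h64_data_of_mem hd d.2 (h64_rep_one_mem N)
    show Uc (cycO N) N (h64_hA d (h64_rep N _)) d (h64_hm N d (h64_rep N _)) (zetaO N) = _
    have hm : h64_hm N d (h64_rep N ((1 : SL(2, ℤ)) : SL(2, ℤ) ⧸ Gamma0 N)) = 0 := by
      rw [h64_hm, hB, mul_zero]
    have he : N * (d : ℕ) ^ 2 / d = N * d := by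
      rw [pow_two, ← mul_assoc, Nat.mul_div_cancel _ hd]
    rw [hA, hm, Uc, pow_zero, subst_apply, twist_one, he]
  · intro y
    letI := h64_fin N
    have := h64_F1_generic (cycO N).subtype Subtype.val_injective (N := N) (h64_c N)
      (fun r x τ => h64_Y N x (h64_rep N r • τ)) (h64_c_isQExp N) (h64_perm N) y
    rw [expand_eq_qExpand]
    exact ⟨this.choose, this.choose_spec⟩
  · intro d
    letI := h64_fin N
    exact h64_F2_generic (cycO N).subtype Subtype.val_injective (N := N)
      (fun r => h64_c N r (true, d)) (fun r τ => h64_Y N (true, d) (h64_rep N r • τ))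
      (fun r => h64_c_isQExp N r (true, d))
      (fun γ => (h64_perm N γ).elim fun σ hσ => ⟨σ, fun r τ => hσ r (true, d) τ⟩)
      (fun r τ => h64_Y_true_ne_zero N d _)
  · exact (@Nat.card_eq_fintype_card _ (h64_fin N)).symm

/-- S28's Igusa core over `ZMod ℓ`, with the index as bound. -/
theorem h84_igusa_zmod (N : ℕ) [NeZero N] (ℓ : ℕ) [Fact ℓ.Prime] (hℓN : ¬ ℓ ∣ N)
    (H : Polynomial (Polynomial (ZMod ℓ))) (hH : H ≠ 0)
    (hdeg : H.natDegree < Nat.card (SL(2, ℤ) ⧸ Gamma0 N)) :
    (H.map (Polynomial.aeval (jqModC (ZMod ℓ))).toRingHom).eval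
      (qExpand (ZMod ℓ) N (jqModC (ZMod ℓ))) ≠ 0 := by
  obtain ⟨F, hF⟩ := h84_exists_conjFamily_card N
  exact igusa_core N ℓ hℓN F H hH (by rw [hF]; exact hdeg)

/-! ### Two-variable polynomials as coefficient tables -/

section table

variable {R : Type*} [CommRing R]

/-- Evaluation of a two-variable polynomial as a double sum. -/
theorem h84_eval_expand (J Q : LaurentSeries R) (G : Polynomial (Polynomial R)) (d A : ℕ)
    (hd : G.natDegree ≤ d) (hA : ∀ b, (G.coeff b).natDegree ≤ A) :
    (G.map (Polynomial.aeval J).toRingHom).eval Q =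
      ∑ b ∈ Finset.range (d + 1), ∑ a ∈ Finset.range (A + 1),
        HahnSeries.single 0 ((G.coeff b).coeff a) * (J ^ a * Q ^ b) := by
  have h1 : (G.map (Polynomial.aeval J).toRingHom).natDegree < d + 1 :=
    lt_of_le_of_lt Polynomial.natDegree_map_le (Nat.lt_succ_of_le hd)
  rw [Polynomial.eval_eq_sum_range' h1]
  refine Finset.sum_congr rfl fun b _ => ?_
  rw [Polynomial.coeff_map]
  have h2 : (Polynomial.aeval J).toRingHom (G.coeff b) =
      Polynomial.eval₂ (algebraMap R (LaurentSeries R)) J (G.coeff b) := rfl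
  rw [h2, Polynomial.eval₂_eq_sum_range' (algebraMap R (LaurentSeries R))
    (Nat.lt_succ_of_le (hA b)) J, Finset.sum_mul]
  refine Finset.sum_congr rfl fun a _ => ?_
  rw [h1_algebraMap_eq_single, mul_assoc]

/-- The two-variable polynomial with coefficient table `c` (`a ≤ A`, `b ≤ d`). -/
def h84_poly2 (d A : ℕ) (c : ℕ → ℕ → R) : Polynomial (Polynomial R) :=
  ∑ b ∈ Finset.range (d + 1), Polynomial.monomial b
    (∑ a ∈ Finset.range (A + 1), Polynomial.monomial a (c a b))

theorem h84_poly2_coeff (d A : ℕ) (c : ℕ → ℕ → R) (b : ℕ) :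
    (h84_poly2 d A c).coeff b =
      if b < d + 1 then ∑ a ∈ Finset.range (A + 1), Polynomial.monomial a (c a b) else 0 := by
  unfold h84_poly2
  rw [Polynomial.finsetSum_coeff]
  simp only [Polynomial.coeff_monomial]
  rw [Finset.sum_ite_eq']
  simp only [Finset.mem_range]

theorem h84_poly2_coeff_coeff (d A : ℕ) (c : ℕ → ℕ → R) (a b : ℕ) :
    ((h84_poly2 d A c).coeff b).coeff a =
      if b < d + 1 then (if a < A + 1 then c a b else 0) else 0 := by
  rw [h84_poly2_coeff]
  split_ifs with h1 h2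
  · rw [Polynomial.finsetSum_coeff]
    simp only [Polynomial.coeff_monomial]
    rw [Finset.sum_ite_eq']
    simp [h2]
  · rw [Polynomial.finsetSum_coeff]
    simp only [Polynomial.coeff_monomial]
    rw [Finset.sum_ite_eq']
    simp [h2]
  · simp

theorem h84_poly2_natDegree_le (d A : ℕ) (c : ℕ → ℕ → R) : (h84_poly2 d A c).natDegree ≤ d := by
  rw [Polynomial.natDegree_le_iff_coeff_eq_zero]
  intro b hb
  rw [h84_poly2_coeff, if_neg (by omega)]

theorem h84_poly2_coeff_natDegree_le (d A : ℕ) (c : ℕ → ℕ → R) (b : ℕ) :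
    ((h84_poly2 d A c).coeff b).natDegree ≤ A := by
  rw [Polynomial.natDegree_le_iff_coeff_eq_zero]
  intro a ha
  rw [h84_poly2_coeff_coeff]
  split_ifs with h1 h2
  · omega
  · rfl
  · rfl

end table

/-! ### Scalar extension `ZMod ℓ → k` -/

/-- **MOD-IG-A**: Igusa's degree bound over any field of characteristic `ℓ ∤ N`, with the index
`[SL₂(ℤ) : Γ₀(N)]` as bound. -/
theorem h84_igusa_field (N : ℕ) [NeZero N] (ℓ : ℕ) [Fact ℓ.Prime] (hℓN : ¬ ℓ ∣ N)
    (k : Type) [Field k] [CharP k ℓ] (H : Polynomial (Polynomial k)) (hH : H ≠ 0)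
    (hdeg : H.natDegree < Nat.card (SL(2, ℤ) ⧸ Gamma0 N)) :
    (H.map (Polynomial.aeval (jqModC k)).toRingHom).eval (qExpand k N (jqModC k)) ≠ 0 := by
  classical
  letI : Algebra (ZMod ℓ) k := ZMod.algebra k ℓ
  intro hzero
  apply hH
  -- the coefficient table of `H`
  set d := H.natDegree with hd
  set A := (Finset.range (d + 1)).sup (fun b => (H.coeff b).natDegree) with hAdef
  have hA : ∀ b, (H.coeff b).natDegree ≤ A := by
    intro b
    by_cases hb : b < d + 1
    · exact Finset.le_sup (f := fun b => (H.coeff b).natDegree) (Finset.mem_range.mpr hb)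
    · rw [Polynomial.coeff_eq_zero_of_natDegree_lt (by omega)]
      simp
  have hexp := h84_eval_expand (jqModC k) (qExpand k N (jqModC k)) H d A le_rfl hA
  rw [hzero] at hexp
  -- the monomials over `k` come from `ZMod ℓ`
  set ψ : ZMod ℓ →+* k := algebraMap (ZMod ℓ) k with hψ
  set T : ℕ → ℕ → LaurentSeries (ZMod ℓ) :=
    fun a b => jqModC (ZMod ℓ) ^ a * qExpand (ZMod ℓ) N (jqModC (ZMod ℓ)) ^ b with hT
  have hTk : ∀ a b, jqModC k ^ a * qExpand k N (jqModC k) ^ b = coeffMap ψ (T a b) := by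
    intro a b
    rw [hT]
    simp only [map_mul, map_pow, coeffMap_jqModC, coeffMap_qExpand]
  -- every functional kills the coefficients
  have hkey : ∀ (lam : Module.Dual (ZMod ℓ) k) (a b : ℕ), a < A + 1 → b < d + 1 →
      lam ((H.coeff b).coeff a) = 0 := by
    intro lam a₀ b₀ ha₀ hb₀
    set G : Polynomial (Polynomial (ZMod ℓ)) :=
      h84_poly2 d A (fun a b => lam ((H.coeff b).coeff a)) with hG
    have hGzero : G = 0 := by
      by_contra hGne
      have hGdeg : G.natDegree < Nat.card (SL(2, ℤ) ⧸ Gamma0 N) :=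
        lt_of_le_of_lt (h84_poly2_natDegree_le d A _) hdeg
      apply h84_igusa_zmod N ℓ hℓN G hGne hGdeg
      rw [h84_eval_expand (jqModC (ZMod ℓ)) (qExpand (ZMod ℓ) N (jqModC (ZMod ℓ))) G d A
        (h84_poly2_natDegree_le d A _) (h84_poly2_coeff_natDegree_le d A _)]
      ext n
      rw [HahnSeries.coeff_sum, HahnSeries.coeff_zero]
      have hn := congrArg (fun s : LaurentSeries k => lam (s.coeff n)) hexp
      simp only [HahnSeries.coeff_zero, map_zero] at hn
      rw [HahnSeries.coeff_sum, map_sum] at hn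
      rw [hn]
      refine Finset.sum_congr rfl fun b hb => ?_
      rw [HahnSeries.coeff_sum, HahnSeries.coeff_sum, map_sum]
      refine Finset.sum_congr rfl fun a ha => ?_
      rw [HahnSeries.coeff_single_zero_mul, HahnSeries.coeff_single_zero_mul, hG,
        h84_poly2_coeff_coeff, if_pos (Finset.mem_range.mp hb), if_pos (Finset.mem_range.mp ha),
        hTk, coeffMap_coeff]
      -- `lam (h * ψ t) = lam h * t`
      have h1 : (H.coeff b).coeff a * ψ ((T a b).coeff n) =
          ((T a b).coeff n) • (H.coeff b).coeff a := by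
        rw [Algebra.smul_def, mul_comm]
      rw [h1, map_smul, smul_eq_mul, mul_comm]
    have := congrArg (fun P : Polynomial (Polynomial (ZMod ℓ)) => (P.coeff b₀).coeff a₀) hGzero
    simp only [hG, h84_poly2_coeff_coeff, if_pos hb₀, if_pos ha₀, Polynomial.coeff_zero] at this
    exact this
  -- hence `H = 0`
  ext b a
  simp only [Polynomial.coeff_zero]
  by_cases hb : b < d + 1
  · by_cases ha : a < A + 1
    · exact (Module.forall_dual_apply_eq_zero_iff (ZMod ℓ) _).mp (fun lam => hkey lam a b ha hb)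
    · exact Polynomial.coeff_eq_zero_of_natDegree_lt (lt_of_le_of_lt (hA b) (by omega))
  · have hb0 : H.coeff b = 0 := Polynomial.coeff_eq_zero_of_natDegree_lt (by omega)
    rw [hb0]
    simp

end Fermat.Agent.S18
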