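import Mathlib
import Fermat.Agent.S18.h84_IgusaField

/-!
# S18, layer MOD, row MOD-IG-A (helper84), second export: linear independence over `k(j)`

`h84_igusa_linearIndependent`: for a field `k` of characteristic `ℓ ∤ N`, the powers
`j(q^N)^i`, `i < [SL₂(ℤ) : Γ₀(N)]`, are linearly independent over the subfield `k(j)` of `k((q))`.
-/

set_option autoImplicit false

noncomputable section

open ModularCurve CongruenceSubgroup Polynomial IntermediateField
open scoped MatrixGroups

namespace Fermat.Agent.S18

/-- An element of `k(J)` is a quotient `r(J)/s(J)` with `s(J) ≠ 0`. -/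
theorem h84_exists_num_den {k : Type} [Field k] (J : LaurentSeries k) (x : ↥(k⟮J⟯)) :
    ∃ r s : Polynomial k, Polynomial.aeval J s ≠ 0 ∧
      (x : LaurentSeries k) * Polynomial.aeval J s = Polynomial.aeval J r := by
  obtain ⟨r, s, hrs⟩ := (IntermediateField.mem_adjoin_simple_iff k (x : LaurentSeries k)).mp x.2
  by_cases hs : Polynomial.aeval J s = 0
  · refine ⟨0, 1, by simp, ?_⟩
    rw [hrs, hs, div_zero]
    simp
  · refine ⟨r, s, hs, ?_⟩
    rw [hrs, div_mul_cancel₀ _ hs]

/-- Generic step: if no nonzero polynomial of `X`-degree `< n` over `k[J]` kills `Q`, then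
`1, Q, …, Q^(n-1)` are linearly independent over `k(J)`. -/
theorem h84_linearIndependent_of_no_relation {k : Type} [Field k] (J Q : LaurentSeries k) (n : ℕ)
    (hig : ∀ H : Polynomial (Polynomial k), H ≠ 0 → H.natDegree < n →
      (H.map (Polynomial.aeval J).toRingHom).eval Q ≠ 0) :
    LinearIndependent ↥(k⟮J⟯) (fun i : Fin n => Q ^ (i : ℕ)) := by
  classical
  rw [Fintype.linearIndependent_iff]
  intro g hg
  choose r s hs hrs using fun i => h84_exists_num_den J (g i)
  have hs0 : ∀ i, s i ≠ 0 := by
    intro i h0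
    apply hs i
    rw [h0, map_zero]
  -- the cofactors
  set D : Fin n → Polynomial k := fun i => ∏ j ∈ Finset.univ.erase i, s j with hD
  have hD0 : ∀ i, D i ≠ 0 := fun i => Finset.prod_ne_zero_iff.mpr (fun j _ => hs0 j)
  have hDs : ∀ i, s i * D i = ∏ j, s j := fun i =>
    Finset.mul_prod_erase Finset.univ s (Finset.mem_univ i)
  -- the polynomial relation
  set H : Polynomial (Polynomial k) := ∑ i : Fin n, Polynomial.monomial (i : ℕ) (r i * D i) with hH
  have hcoeff : ∀ i : Fin n, H.coeff (i : ℕ) = r i * D i := by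
    intro i
    rw [hH, Polynomial.finsetSum_coeff]
    simp only [Polynomial.coeff_monomial, Fin.val_inj]
    rw [Finset.sum_ite_eq' Finset.univ i]
    simp
  have hdeg : H ≠ 0 → H.natDegree < n := by
    intro hH0
    rw [Polynomial.natDegree_lt_iff_degree_lt hH0, Polynomial.degree_lt_iff_coeff_zero]
    intro m hm
    rw [hH, Polynomial.finsetSum_coeff]
    apply Finset.sum_eq_zero
    intro i _
    rw [Polynomial.coeff_monomial, if_neg]
    have := i.2
    omega
  have heval : (H.map (Polynomial.aeval J).toRingHom).eval Q = 0 := by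
    rw [hH, Polynomial.map_sum, Polynomial.eval_finsetSum]
    have h1 : ∀ i : Fin n,
        ((Polynomial.monomial (i : ℕ) (r i * D i)).map (Polynomial.aeval J).toRingHom).eval Q =
          Polynomial.aeval J (∏ j, s j) * ((g i : LaurentSeries k) * Q ^ (i : ℕ)) := by
      intro i
      rw [Polynomial.map_monomial, Polynomial.eval_monomial]
      have h2 : (Polynomial.aeval J).toRingHom (r i * D i) =
          Polynomial.aeval J (r i) * Polynomial.aeval J (D i) := by
        rw [← map_mul]
        rfl
      rw [h2, ← hrs i, ← hDs i, map_mul]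
      ring
    rw [Finset.sum_congr rfl (fun i _ => h1 i), ← Finset.mul_sum]
    have h3 : ∑ i : Fin n, (g i : LaurentSeries k) * Q ^ (i : ℕ) = 0 := by
      rw [← hg]
      refine Finset.sum_congr rfl fun i _ => ?_
      rw [IntermediateField.smul_def, smul_eq_mul]
    rw [h3, mul_zero]
  have hH0 : H = 0 := by
    by_contra hne
    exact hig H hne (hdeg hne) heval
  intro i
  have h4 : r i * D i = 0 := by rw [← hcoeff i, hH0, Polynomial.coeff_zero]
  have h5 : r i = 0 := (mul_eq_zero.mp h4).resolve_right (hD0 i)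
  have h6 := hrs i
  rw [h5, map_zero] at h6
  have h7 : (g i : LaurentSeries k) = 0 := (mul_eq_zero.mp h6).resolve_right (hs i)
  exact Subtype.ext h7

/-- **MOD-IG-A**, linear-independence form: the powers `j(q^N)^i`, `i < [SL₂(ℤ) : Γ₀(N)]`, are
linearly independent over `k(j)`. -/
theorem h84_igusa_linearIndependent (N : ℕ) [NeZero N] (ℓ : ℕ) [Fact ℓ.Prime] (hℓN : ¬ ℓ ∣ N)
    (k : Type) [Field k] [CharP k ℓ] :
    LinearIndependent ↥(k⟮jqModC k⟯)
      (fun i : Fin (Nat.card (SL(2, ℤ) ⧸ Gamma0 N)) => qExpand k N (jqModC k) ^ (i : ℕ)) :=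
  h84_linearIndependent_of_no_relation (jqModC k) (qExpand k N (jqModC k)) _
    (h84_igusa_field N ℓ hℓN k)

end Fermat.Agent.S18
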