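/-
S18 / MOD layer (helper54): the chart assemblies, conditional on the characterising properties of
the modular reduction datum (`h54_IsModRed`).

`Qb = AlgebraicClosure ℚ`, `F N = modularFunctionFieldBar N ⊆ Qb((q))`, `A` a valuation ring of
`Qb`, `k = A/𝔪`, `Fb N = modularFunctionFieldFullC k N ⊆ k((q))`.
-/
import Mathlib
import Fermat.Agent.S18.Defs
import Fermat.Agent.S18.h54_ModDefs
import Fermat.Agent.S18.h54_PP
import Fermat.Agent.S18.h19_ResField
import Fermat.Prelude.Def_ModularCurve_ReductionModL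
import Fermat.Prelude.Def_FLTPrelim_Ramification
import Fermat.Agent.S24.h78_Fibres
import Fermat.Agent.S28.h73_KerInst
import Fermat.Agent.S18.h54_ModSep
import Fermat.Agent.S18.h84_IgusaLinInd
import Fermat.Agent.S18.h21_JNSep

set_option autoImplicit false
set_option synthInstance.maxHeartbeats 400000

noncomputable section

open ModularCurve AlgebraicCurve IntermediateField CongruenceSubgroup
open scoped MatrixGroups

namespace Fermat.Agent.S18

open Fermat.Agent.S24 Fermat.Agent.S28

local notation "Qb" => AlgebraicClosure ℚ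

theorem h54_coe_jbar (N : ℕ) [NeZero N] (A : ValuationSubring Qb) :
    ((h59_jbar N : ↥(modularFunctionFieldBar N)) : LaurentSeries Qb)
      = coeffMap A.subtype (jqModC A) := by
  rw [h59_coe_jbar, coeffMap_jqModC, ← jqModC_rat, coeffEmb, coeffMap_jqModC]

theorem h54_redF_jbar {N : ℕ} [NeZero N] {A : ValuationSubring Qb}
    {R : h39_RedDatum Qb ↥(modularFunctionFieldBar N) (IsLocalRing.ResidueField A)
      ↥(modularFunctionFieldFullC (IsLocalRing.ResidueField A) N)} (h : h54_IsModRed N A R) :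
    R.redF (h59_jbar N) = h54_jk (IsLocalRing.ResidueField A) N := by
  apply Subtype.ext
  rw [h.redF_of_integral _ _ (h54_coe_jbar N A), coeffMap_jqModC]
  rfl

theorem h54_jk_transcendental (k : Type) [Field k] (N : ℕ) [NeZero N] :
    Transcendental k (h54_jk k N) := by
  rw [Transcendental]
  rintro ⟨P, hP, h0⟩
  apply h73_aeval_jqModC_ne_zero k hP
  have := congrArg (fun x : ↥(modularFunctionFieldFullC k N) => (x : LaurentSeries k)) h0
  simp only [ZeroMemClass.coe_zero] at this
  rw [← this, ← IntermediateField.aeval_coe]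
  rfl

theorem h54_card_pos (N : ℕ) [NeZero N] : 0 < Nat.card (SL(2, ℤ) ⧸ Gamma0 N) := by
  rw [← h78_finrank N]
  haveI := h78_finiteDimensional N
  exact Module.finrank_pos

/-- **IG-E, wrapped** the residue extension `Fb N / k(j̄)` is separable (`k` algebraically closed
of characteristic `ℓ ∤ N`), given its degree. -/
theorem h54_separable_fb_of (N : ℕ) [NeZero N] (ℓ : ℕ) [Fact ℓ.Prime] (hℓN : ¬ ℓ ∣ N)
    (k : Type) [Field k] [CharP k ℓ] [IsAlgClosed k]
    (hfin : Module.finrank k⟮h54_jk k N⟯ ↥(modularFunctionFieldFullC k N)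
      = Nat.card (SL(2, ℤ) ⧸ Gamma0 N)) :
    Algebra.IsSeparable k⟮h54_jk k N⟯ ↥(modularFunctionFieldFullC k N) :=
  h54_isSeparable_of_powers (modularFunctionFieldFullC k N) (jqModC k) (qExpand k N (jqModC k))
    (jqModC_mem_full k N) (jqModCd_mem_full k N dvd_rfl) _ (h54_card_pos N) hfin
    (h84_igusa_linearIndependent N ℓ hℓN k) (h21_jN_separable N ℓ hℓN k)

/-! ## Level compatibility of the reduction data -/

section Level

variable {N N₁ : ℕ} [NeZero N] [NeZero N₁] {A : ValuationSubring Qb}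
  {R : h39_RedDatum Qb ↥(modularFunctionFieldBar N) (IsLocalRing.ResidueField A)
      ↥(modularFunctionFieldFullC (IsLocalRing.ResidueField A) N)}
  {R₁ : h39_RedDatum Qb ↥(modularFunctionFieldBar N₁) (IsLocalRing.ResidueField A)
      ↥(modularFunctionFieldFullC (IsLocalRing.ResidueField A) N₁)}

/-- Membership in `O` depends only on the `q`-expansion, not on the level. -/
theorem h54_mem_level (h : h54_IsModRed N A R) (h₁ : h54_IsModRed N₁ A R₁)
    (f : ↥(modularFunctionFieldBar N)) (f₁ : ↥(modularFunctionFieldBar N₁))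
    (hff : (f : LaurentSeries Qb) = (f₁ : LaurentSeries Qb)) : f ∈ R.O ↔ f₁ ∈ R₁.O := by
  rw [h.mem_iff, h₁.mem_iff, hff]

/-- The reduction depends only on the `q`-expansion, not on the level. -/
theorem h54_red_level (h : h54_IsModRed N A R) (h₁ : h54_IsModRed N₁ A R₁)
    (f : ↥(modularFunctionFieldBar N)) (f₁ : ↥(modularFunctionFieldBar N₁))
    (hff : (f : LaurentSeries Qb) = (f₁ : LaurentSeries Qb)) (hf : f ∈ R.O) (hf₁ : f₁ ∈ R₁.O) :
    ((R.red ⟨f, hf⟩ : ↥(modularFunctionFieldFullC (IsLocalRing.ResidueField A) N)) :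
        LaurentSeries (IsLocalRing.ResidueField A))
      = ((R₁.red ⟨f₁, hf₁⟩ : ↥(modularFunctionFieldFullC (IsLocalRing.ResidueField A) N₁)) :
        LaurentSeries (IsLocalRing.ResidueField A)) := by
  obtain ⟨y₁, y₂, hy₂, hy⟩ := (h.mem_iff f).1 hf
  have e := h.red_eq f hf y₁ y₂ hy
  have e₁ := h₁.red_eq f₁ hf₁ y₁ y₂ (by rw [← hff]; exact hy)
  exact mul_right_cancel₀ hy₂ (e.trans e₁.symm)

end Level

/-- A natural number prime to `ℓ` is a unit of `A`, with nonzero residue. -/
theorem h54_resK_natCast_ne_zero {N : ℕ} [NeZero N] {A : ValuationSubring Qb}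
    {R : h39_RedDatum Qb ↥(modularFunctionFieldBar N) (IsLocalRing.ResidueField A)
      ↥(modularFunctionFieldFullC (IsLocalRing.ResidueField A) N)} (h : h54_IsModRed N A R)
    {ℓ : ℕ} [Fact ℓ.Prime] (hA : A.LiesOverPrime ℓ) (m : ℕ) (hm : ¬ ℓ ∣ m) :
    R.resK (m : Qb) ≠ 0 := by
  have hmA : (m : Qb) ∈ A := natCast_mem A m
  have hmR : (m : Qb) ∈ R.A := by rw [h.A_eq]; exact hmA
  rw [R.resK_of_mem hmR, h.res_eq _ hmR hmA]
  have h1 : (⟨(m : Qb), hmA⟩ : A) = ((m : ℕ) : A) := Subtype.ext (by simp)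
  rw [h1, map_natCast]
  exact h19_natCast_residueField_ne_zero A ℓ hA m hm

theorem h54_resK_neg {N : ℕ} [NeZero N] {A : ValuationSubring Qb}
    {R : h39_RedDatum Qb ↥(modularFunctionFieldBar N) (IsLocalRing.ResidueField A)
      ↥(modularFunctionFieldFullC (IsLocalRing.ResidueField A) N)} (a : Qb) (ha : a ∈ R.A) :
    R.resK (-a) = - R.resK a := by
  rw [R.resK_of_mem ha, R.resK_of_mem (neg_mem ha), ← map_neg]
  rfl

theorem h54_resK_zero {N : ℕ} [NeZero N] {A : ValuationSubring Qb}
    (R : h39_RedDatum Qb ↥(modularFunctionFieldBar N) (IsLocalRing.ResidueField A)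
      ↥(modularFunctionFieldFullC (IsLocalRing.ResidueField A) N)) :
    R.resK (0 : Qb) = 0 := by
  rw [R.resK_of_mem (zero_mem _)]
  exact map_zero R.res

/-- **CJ** (M2) `x = j` is a chart for `ℓ ≥ 5`, `Z = {0, 1728}` (conditional form). -/
theorem h54_chart_j_of (N : ℕ) [NeZero N] {ℓ : ℕ} [Fact ℓ.Prime] (hℓ : 5 ≤ ℓ)
    (A : ValuationSubring Qb) (hA : A.LiesOverPrime ℓ)
    {R : h39_RedDatum Qb ↥(modularFunctionFieldBar N) (IsLocalRing.ResidueField A)
      ↥(modularFunctionFieldFullC (IsLocalRing.ResidueField A) N)} (h : h54_IsModRed N A R)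
    (hfin : Module.finrank (IsLocalRing.ResidueField A)⟮h54_jk (IsLocalRing.ResidueField A) N⟯
        ↥(modularFunctionFieldFullC (IsLocalRing.ResidueField A) N)
      = Nat.card (SL(2, ℤ) ⧸ Gamma0 N))
    (hsep : Algebra.IsSeparable
      (IsLocalRing.ResidueField A)⟮h54_jk (IsLocalRing.ResidueField A) N⟯
        ↥(modularFunctionFieldFullC (IsLocalRing.ResidueField A) N)) :
    h39_Chart R (h59_jbar N) := by
  have hred := h54_redF_jbar h
  have hℓp : ℓ.Prime := Fact.out
  have h1728 : ¬ ℓ ∣ 1728 := by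
    intro hd
    have h' : ℓ ∣ 2 ^ 6 * 3 ^ 3 := by norm_num; exact hd
    rcases (Nat.Prime.dvd_mul hℓp).1 h' with h2 | h3
    · have := Nat.le_of_dvd (by norm_num) (hℓp.dvd_of_dvd_pow h2)
      omega
    · have := Nat.le_of_dvd (by norm_num) (hℓp.dvd_of_dvd_pow h3)
      omega
  refine ⟨⟨h.mem_of_integral _ _ (h54_coe_jbar N A), ?_, h78_finiteDimensional N, ?_, ?_⟩, ?_⟩
  · rw [hred]
    exact h54_jk_transcendental _ N
  · rw [hred, hfin, h78_finrank]
  · rw [hred]
    exact hsep
  · classical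
    refine ⟨{0, ((1728 : ℕ) : Qb)}, ?_, ?_, ?_⟩
    · intro z hz
      rw [h.A_eq]
      rcases Finset.mem_insert.1 hz with rfl | hz
      · exact zero_mem A
      · rw [Finset.mem_singleton.1 hz]
        exact natCast_mem A 1728
    · have hne := h54_resK_natCast_ne_zero h hA 1728 h1728
      intro z hz z' hz' hzz
      rcases Finset.mem_insert.1 hz with rfl | hz
      · rcases Finset.mem_insert.1 hz' with rfl | hz'
        · rfl
        · rw [Finset.mem_singleton.1 hz', h54_resK_zero] at hzz
          exact absurd hzz.symm hne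
      · rcases Finset.mem_insert.1 hz' with rfl | hz'
        · rw [Finset.mem_singleton.1 hz, h54_resK_zero] at hzz
          exact absurd hzz hne
        · rw [Finset.mem_singleton.1 hz, Finset.mem_singleton.1 hz']
    · intro P a hP
      obtain ⟨-, -, h3⟩ := h54_ord_j_sub_dvd N P a (by omega)
      by_contra hne
      have h0 : a ≠ 0 := fun h0 => hne (by rw [h0]; exact Finset.mem_insert_self _ _)
      have h1 : a ≠ 1728 := fun h1 => hne (by
        rw [h1]
        exact Finset.mem_insert_of_mem (Finset.mem_singleton.2 (by norm_num)))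
      have := h3 h0 h1
      omega

end Fermat.Agent.S18
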