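import Mathlib

/-!
# S18, layer MOD (rows HF2/HF3): a generic "Hauptmodul" degree lemma

Fields `K ⊆ E`, elements `j x : E` with `j * x ^ a = P(x)` for a monic `P ∈ K[X]` of degree
`n > a` (so `j ∈ K(x)` and `[K(x) : K(j)] ≤ n`).  If an intermediate field `K(j) ⊆ F₂ ⊆ K(x)` has
degree `≥ n` over `K(j)`, then `F₂ = K(x)` and `[K(x) : K(j)] = n`.  All degrees are expressed
through `IntermediateField.relfinrank` inside `E`, and `h59_finrank_adjoin_subtype` translates
them to degrees of the shape `Module.finrank K⟮(⟨y, hy⟩ : F)⟯ F`.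
-/

set_option autoImplicit false

noncomputable section

namespace Fermat.Agent.S18

open IntermediateField Polynomial

section Generic

variable {K E : Type*} [Field K] [Field E] [Algebra K E]

/-- Adjoining an element of an intermediate field `F`, inside `F`, is the pullback of adjoining
it inside the ambient field. -/
theorem h59_adjoin_subtype_eq_comap (F : IntermediateField K E) (y : E) (hy : y ∈ F) :
    K⟮(⟨y, hy⟩ : F)⟯ = K⟮y⟯.comap F.val := by
  ext z
  rw [← IntermediateField.mem_lift, IntermediateField.lift_adjoin_simple]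
  rfl

/-- Degrees over `K(y)` computed inside `F` agree with relative degrees inside `E`. -/
theorem h59_finrank_adjoin_subtype (F : IntermediateField K E) (y : E) (hy : y ∈ F) :
    Module.finrank K⟮(⟨y, hy⟩ : F)⟯ F = relfinrank K⟮y⟯ F := by
  rw [h59_adjoin_subtype_eq_comap, IntermediateField.finrank_comap,
    IntermediateField.fieldRange_val]

/-- `j ∈ K(x)` when `j * x ^ a = P(x)` and `x ≠ 0`. -/
theorem h59_mem_adjoin_of_rel (j x : E) (a : ℕ) (p : K[X]) (hrel : j * x ^ a = aeval x p)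
    (hx : x ≠ 0) : j ∈ K⟮x⟯ := by
  have h1 : aeval x p ∈ K⟮x⟯ :=
    IntermediateField.algebra_adjoin_le_adjoin K _ (Polynomial.aeval_mem_adjoin_singleton K x)
  have h2 : j = aeval x p * (x ^ a)⁻¹ := by
    rw [← hrel, mul_assoc, mul_inv_cancel₀ (pow_ne_zero a hx), mul_one]
  rw [h2]
  exact mul_mem h1 (inv_mem (pow_mem (mem_adjoin_simple_self K x) a))

/-- `K(x) = K(j, x)` when `j ∈ K(x)`. -/
theorem h59_adjoin_eq_union (j x : E) (hjx : j ∈ K⟮x⟯) : K⟮x⟯ = adjoin K ({j} ∪ {x}) := by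
  apply le_antisymm
  · exact adjoin.mono K _ _ Set.subset_union_right
  · rw [adjoin_le_iff]
    rintro y (hy | hy)
    · rw [Set.mem_singleton_iff] at hy
      rw [hy]
      exact hjx
    · rw [Set.mem_singleton_iff] at hy
      rw [hy]
      exact mem_adjoin_simple_self K x

/-- `K(j, y)` viewed over `K(j)` is `K(j)(y)`. -/
theorem h59_extendScalars_eq_adjoin (F₂ : IntermediateField K E) (j y : E) (h : K⟮j⟯ ≤ F₂)
    (hF₂ : F₂ = adjoin K ({j} ∪ {y})) : extendScalars h = K⟮j⟯⟮y⟯ := by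
  apply IntermediateField.restrictScalars_injective K
  rw [extendScalars_restrictScalars, adjoin_adjoin_left, hF₂]

/-- If `x` is a root of a monic polynomial of degree `n` over `K(j)` and `j ∈ K(x)`, then
`0 < [K(x) : K(j)] ≤ n`. -/
theorem h59_relfinrank_le (j x : E) (n : ℕ) (hjx : j ∈ K⟮x⟯) (q : K⟮j⟯[X]) (hq : q.Monic)
    (hqn : q.natDegree = n) (hqx : aeval x q = 0) :
    0 < relfinrank K⟮j⟯ K⟮x⟯ ∧ relfinrank K⟮j⟯ K⟮x⟯ ≤ n := by
  have hle : K⟮j⟯ ≤ K⟮x⟯ := adjoin_simple_le_iff.2 hjx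
  have hint : IsIntegral K⟮j⟯ x := ⟨q, hq, hqx⟩
  have hext : extendScalars hle = K⟮j⟯⟮x⟯ :=
    h59_extendScalars_eq_adjoin _ j x hle (h59_adjoin_eq_union j x hjx)
  rw [relfinrank_eq_finrank_of_le hle, hext, IntermediateField.adjoin.finrank hint]
  constructor
  · exact minpoly.natDegree_pos hint
  · rw [← hqn]
    exact Polynomial.natDegree_le_of_dvd (minpoly.dvd _ _ hqx) hq.ne_zero

/-- A lower bound for `[K(j, y) : K(j)]` from the absence of low-degree relations. -/
theorem h59_le_relfinrank_of_hmin (F₂ : IntermediateField K E) (j x y : E) (n : ℕ)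
    (hjx : j ∈ K⟮x⟯) (hxint : IsIntegral K⟮j⟯ x) (hy : y ∈ K⟮x⟯)
    (hF₂ : F₂ = adjoin K ({j} ∪ {y}))
    (hmin : ∀ g : K⟮j⟯[X], g ≠ 0 → g.natDegree < n → aeval y g ≠ 0) :
    n ≤ relfinrank K⟮j⟯ F₂ := by
  have hle : K⟮j⟯ ≤ K⟮x⟯ := adjoin_simple_le_iff.2 hjx
  have hext : extendScalars hle = K⟮j⟯⟮x⟯ :=
    h59_extendScalars_eq_adjoin _ j x hle (h59_adjoin_eq_union j x hjx)
  have hy' : y ∈ K⟮j⟯⟮x⟯ := by
    rw [← hext]
    exact hy
  have hfin : FiniteDimensional K⟮j⟯ K⟮j⟯⟮x⟯ := IntermediateField.adjoin.finiteDimensional hxint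
  have hyint : IsIntegral K⟮j⟯ y := by
    have h0 : IsIntegral K⟮j⟯ (⟨y, hy'⟩ : K⟮j⟯⟮x⟯) := IsIntegral.of_finite _ _
    exact (IntermediateField.isIntegral_iff (x := (⟨y, hy'⟩ : K⟮j⟯⟮x⟯))).1 h0
  have h1 : K⟮j⟯ ≤ F₂ := by
    rw [hF₂]
    exact adjoin.mono K _ _ Set.subset_union_left
  rw [relfinrank_eq_finrank_of_le h1, h59_extendScalars_eq_adjoin F₂ j y h1 hF₂,
    IntermediateField.adjoin.finrank hyint]
  by_contra hlt
  exact hmin (minpoly K⟮j⟯ y) (minpoly.ne_zero hyint) (not_le.1 hlt) (minpoly.aeval _ _)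

open IntermediateField.algebraAdjoinAdjoin in
/-- Clearing denominators: a relation of `y` over `K(j)` of degree `< n` yields one over
`K[j]` of at most the same degree, when `j` is transcendental. -/
theorem h59_hmin_of_poly (j y : E) (hj : Transcendental K j) (n : ℕ)
    (hIG : ∀ H : K[X][X], H ≠ 0 → H.natDegree < n →
      (H.map (Polynomial.aeval j).toRingHom).eval y ≠ 0)
    (g : K⟮j⟯[X]) (hg : g ≠ 0) (hgn : g.natDegree < n) : aeval y g ≠ 0 := by
  intro h0
  have hG0 : IsLocalization.integerNormalization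
      (nonZeroDivisors (Algebra.adjoin K ({j} : Set E))) g ≠ 0 :=
    fun h => hg (IsFractionRing.integerNormalization_eq_zero_iff.1 h)
  have hGdeg : (IsLocalization.integerNormalization
      (nonZeroDivisors (Algebra.adjoin K ({j} : Set E))) g).natDegree ≤ g.natDegree := by
    rw [Polynomial.natDegree_le_iff_coeff_eq_zero]
    intro N hN
    by_contra hne
    have h1 := IsLocalization.integerNormalization_support
      (nonZeroDivisors (Algebra.adjoin K ({j} : Set E))) g (Polynomial.mem_support_iff.2 hne)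
    exact Polynomial.mem_support_iff.1 h1 (Polynomial.coeff_eq_zero_of_natDegree_lt hN)
  have hGy : aeval y (IsLocalization.integerNormalization
      (nonZeroDivisors (Algebra.adjoin K ({j} : Set E))) g) = 0 :=
    IsLocalization.integerNormalization_aeval_eq_zero _ g h0
  generalize IsLocalization.integerNormalization
      (nonZeroDivisors (Algebra.adjoin K ({j} : Set E))) g = G at hG0 hGdeg hGy
  -- the parametrisation `K[X] → K[j]`
  set jA : Algebra.adjoin K ({j} : Set E) := ⟨j, Algebra.self_mem_adjoin_singleton K j⟩ with hjA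
  have hval : ∀ p : K[X], ((aeval jA p : Algebra.adjoin K ({j} : Set E)) : E) = aeval j p := by
    intro p
    have := Polynomial.aeval_algHom_apply (Algebra.adjoin K ({j} : Set E)).val jA p
    exact this.symm
  have hinj : Function.Injective (aeval jA : K[X] →ₐ[K] Algebra.adjoin K ({j} : Set E)) := by
    intro p q hpq
    apply (transcendental_iff_injective.1 hj)
    rw [← hval, ← hval, hpq]
  have hsurj : Function.Surjective (aeval jA : K[X] →ₐ[K] Algebra.adjoin K ({j} : Set E)) := by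
    rintro ⟨z, hz⟩
    rw [Algebra.adjoin_singleton_eq_range_aeval] at hz
    obtain ⟨p, rfl⟩ := hz
    exact ⟨p, Subtype.ext (hval p)⟩
  set φ : K[X] →+* Algebra.adjoin K ({j} : Set E) :=
    (aeval jA : K[X] →ₐ[K] Algebra.adjoin K ({j} : Set E)).toRingHom with hφ
  have hφinj : Function.Injective φ := hinj
  have hφsurj : Function.Surjective φ := hsurj
  obtain ⟨H, hH⟩ := Polynomial.map_surjective φ hφsurj G
  have hH0 : H ≠ 0 := by
    rintro rfl
    rw [Polynomial.map_zero] at hH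
    exact hG0 hH.symm
  have hHdeg : H.natDegree < n := by
    have : (H.map φ).natDegree = H.natDegree := Polynomial.natDegree_map_eq_of_injective hφinj H
    rw [hH] at this
    omega
  apply hIG H hH0 hHdeg
  have hcomp : (algebraMap (Algebra.adjoin K ({j} : Set E)) E).comp φ =
      (Polynomial.aeval j).toRingHom := by
    apply RingHom.ext
    intro p
    exact hval p
  rw [← hcomp, ← Polynomial.map_map, hH, Polynomial.eval_map, ← Polynomial.aeval_def]
  exact hGy

/-- The monic polynomial `P - j X^a` over `K(j)`. -/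
theorem h59_exists_monic_of_rel (j x : E) (n a : ℕ) (p : K[X]) (hp : p.Monic)
    (hpn : p.natDegree = n) (ha : a < n) (hrel : j * x ^ a = aeval x p) :
    ∃ q : K⟮j⟯[X], q.Monic ∧ q.natDegree = n ∧ aeval x q = 0 := by
  set c : K⟮j⟯ := ⟨j, mem_adjoin_simple_self K j⟩ with hc
  have hpm : (p.map (algebraMap K K⟮j⟯)).Monic := hp.map _
  have hpd : (p.map (algebraMap K K⟮j⟯)).natDegree = n := by
    rw [Polynomial.natDegree_map, hpn]
  have hdeg : (C c * X ^ a : K⟮j⟯[X]).degree < (p.map (algebraMap K K⟮j⟯)).degree := by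
    rw [Polynomial.degree_eq_natDegree hpm.ne_zero, hpd]
    refine lt_of_le_of_lt (Polynomial.degree_C_mul_X_pow_le a c) ?_
    exact_mod_cast ha
  refine ⟨p.map (algebraMap K K⟮j⟯) - C c * X ^ a, hpm.sub_of_left hdeg, ?_, ?_⟩
  · rw [Polynomial.natDegree_sub_eq_left_of_natDegree_lt, hpd]
    exact lt_of_le_of_lt (Polynomial.natDegree_C_mul_X_pow_le c a) (by rw [hpd]; exact ha)
  · rw [map_sub, Polynomial.aeval_map_algebraMap, map_mul, Polynomial.aeval_C, map_pow,
      Polynomial.aeval_X, ← hrel]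
    exact sub_self _

/-- **Hauptmodul lemma.** `K(j) ⊆ F₂ ⊆ K(x)`, `x` of degree `≤ n` over `K(j)` and
`[F₂ : K(j)] ≥ n` force `F₂ = K(x)` and `[K(x) : K(j)] = n`. -/
theorem h59_haupt_core (F₂ : IntermediateField K E) (j x : E) (n a : ℕ) (p : K[X])
    (hp : p.Monic) (hpn : p.natDegree = n) (ha : a < n) (hrel : j * x ^ a = aeval x p)
    (hx : x ≠ 0) (hj : j ∈ F₂) (hF₂ : F₂ ≤ K⟮x⟯) (hdeg : n ≤ relfinrank K⟮j⟯ F₂) :
    F₂ = K⟮x⟯ ∧ relfinrank K⟮j⟯ K⟮x⟯ = n := by
  have hjx : j ∈ K⟮x⟯ := h59_mem_adjoin_of_rel j x a p hrel hx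
  obtain ⟨q, hq, hqn, hqx⟩ := h59_exists_monic_of_rel j x n a p hp hpn ha hrel
  obtain ⟨hpos, hle⟩ := h59_relfinrank_le j x n hjx q hq hqn hqx
  have h1 : K⟮j⟯ ≤ F₂ := adjoin_simple_le_iff.2 hj
  have hmul := relfinrank_mul_relfinrank h1 hF₂
  have ht : relfinrank F₂ K⟮x⟯ ≠ 0 := by
    intro h0
    rw [h0, mul_zero] at hmul
    omega
  have ht1 : relfinrank F₂ K⟮x⟯ = 1 := by
    by_contra hne
    have h2 : 2 ≤ relfinrank F₂ K⟮x⟯ := by omega
    have h3 : n * 2 ≤ relfinrank K⟮j⟯ F₂ * relfinrank F₂ K⟮x⟯ := Nat.mul_le_mul hdeg h2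
    have hn : 0 < n := by omega
    omega
  refine ⟨le_antisymm hF₂ (relfinrank_eq_one_iff.1 ht1), ?_⟩
  rw [ht1, mul_one] at hmul
  omega

/-- Variant of the Hauptmodul lemma with the degree input in "no relation of degree `< n`"
form for a second generator `y` of `F₂ = K(j, y)`. -/
theorem h59_haupt_core' (F₂ : IntermediateField K E) (j x y : E) (n a : ℕ) (p : K[X])
    (hp : p.Monic) (hpn : p.natDegree = n) (ha : a < n) (hrel : j * x ^ a = aeval x p)
    (hx : x ≠ 0) (hy : y ∈ K⟮x⟯) (hF₂ : F₂ = adjoin K ({j} ∪ {y}))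
    (hmin : ∀ g : K⟮j⟯[X], g ≠ 0 → g.natDegree < n → aeval y g ≠ 0) :
    F₂ = K⟮x⟯ ∧ relfinrank K⟮j⟯ K⟮x⟯ = n := by
  have hjx : j ∈ K⟮x⟯ := h59_mem_adjoin_of_rel j x a p hrel hx
  obtain ⟨q, hq, hqn, hqx⟩ := h59_exists_monic_of_rel j x n a p hp hpn ha hrel
  have hdeg := h59_le_relfinrank_of_hmin F₂ j x y n hjx ⟨q, hq, hqx⟩ hy hF₂ hmin
  refine h59_haupt_core F₂ j x n a p hp hpn ha hrel hx ?_ ?_ hdeg
  · rw [hF₂]
    exact subset_adjoin K _ (Set.mem_union_left _ rfl)
  · rw [hF₂, adjoin_le_iff]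
    rintro z (hz | hz)
    · rw [Set.mem_singleton_iff] at hz
      rw [hz]
      exact hjx
    · rw [Set.mem_singleton_iff] at hz
      rw [hz]
      exact hy

/-- Tower law in the shape used by the MOD layer. -/
theorem h59_haupt_tower (F : IntermediateField K E) (j x : E) (n : ℕ) (hjx : j ∈ K⟮x⟯)
    (hn : relfinrank K⟮j⟯ K⟮x⟯ = n) (hx : x ∈ F) :
    n * Module.finrank K⟮(⟨x, hx⟩ : F)⟯ F =
      Module.finrank K⟮(⟨j, (adjoin_simple_le_iff.2 hx) hjx⟩ : F)⟯ F := by
  rw [h59_finrank_adjoin_subtype, h59_finrank_adjoin_subtype, ← hn]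
  exact relfinrank_mul_relfinrank (adjoin_simple_le_iff.2 hjx) (adjoin_simple_le_iff.2 hx)

end Generic

end Fermat.Agent.S18
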