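import Mathlib
import Fermat.Prelude.Def_ModularCurve_X0ModL
import Fermat.Prelude.Def_ModularCurve_ArithmeticGalois
import Fermat.Agent.S24.h59_Gen
import Fermat.Agent.S28.Core
import Fermat.Agent.S18.h59_Haupt

/-!
# S18, layer MOD (rows HF2/HF3): the Hauptmodul lemma for the fields `Fb M`, `M` prime

`Fb M = modularFunctionFieldFullC k M = k(j, j(q^M))`; a series `x` with `j x^a = P(x)`
(`P` monic of degree `n > a`) and `j(q^M) x = Q(x)`, together with `[Fb M : k(j)] ≥ n`, generates
`Fb M` and has degree `n` under `j`.  Also: `modularFunctionFieldBar N` is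
`modularFunctionFieldFullC (AlgebraicClosure ℚ) N`.
-/

set_option autoImplicit false

noncomputable section

namespace Fermat.Agent.S18

open ModularCurve IntermediateField Polynomial

open Fermat.Agent.S24 Fermat.Agent.S28

local notation "Qb" => AlgebraicClosure ℚ

/-- `j̄` as an element of `Fb N`. -/
def h59_jk (k : Type) [Field k] (N : ℕ) [NeZero N] : ↥(modularFunctionFieldFullC k N) :=
  ⟨jqModC k, jqModC_mem_full k N⟩

theorem h59_coeffEmb_jq : coeffEmb Qb jq = jqModC Qb := by
  rw [← jqModC_rat]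
  exact coeffMap_jqModC (algebraMap ℚ Qb)

/-- In characteristic zero the field `F N` of the statement is the field `Fb N` over `Qb`. -/
theorem h59_bar_eq_fullC (N : ℕ) :
    modularFunctionFieldBar N = modularFunctionFieldFullC Qb N := by
  rw [h59_modularFunctionFieldBar_eq, modularFunctionFieldFullC]
  congr 1
  ext x
  simp only [h59_gens, divisorExpansionsC, h59_coeffEmb_jq]

theorem h59_bar_le {N N₁ : ℕ} [NeZero N] [NeZero N₁] (h : N ∣ N₁) :
    modularFunctionFieldBar N ≤ modularFunctionFieldBar N₁ := by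
  rw [h59_bar_eq_fullC, h59_bar_eq_fullC]
  exact full_degeneracyC_le Qb h

theorem h59_jqModC_order (k : Type) [Field k] : (jqModC k).order = -1 :=
  (h33_LT_order (h33_LT_jqModC (A := k)) one_ne_zero).1

theorem h59_transcendental_of_order_neg {k : Type} [Field k] (f : LaurentSeries k)
    (hf : f.order < 0) : Transcendental k f := by
  rw [Transcendental, IsAlgebraic]
  rintro ⟨p, hp, hp0⟩
  exact h98_aeval_ne_zero f hf hp hp0

theorem h59_jqModC_transcendental (k : Type) [Field k] : Transcendental k (jqModC k) :=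
  h59_transcendental_of_order_neg _ (by rw [h59_jqModC_order]; norm_num)

/-- At prime level the field `Fb M` is `k(j, j(q^M))`. -/
theorem h59_fullC_prime (k : Type) [Field k] (M : ℕ) [NeZero M] (hM : M.Prime) :
    modularFunctionFieldFullC k M =
      adjoin k ({jqModC k} ∪ {qExpand k M (jqModC k)}) := by
  rw [modularFunctionFieldFullC]
  congr 1
  ext x
  constructor
  · rintro ⟨d, hd, hdM, rfl⟩
    rcases (Nat.dvd_prime hM).1 hdM with h1 | h1
    · subst h1
      left
      rw [Set.mem_singleton_iff]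
      exact qExpand_one_apply _
    · subst h1
      right
      rw [Set.mem_singleton_iff]
  · rintro (hx | hx)
    · rw [Set.mem_singleton_iff] at hx
      rw [hx]
      exact ⟨1, inferInstance, one_dvd M, (qExpand_one_apply _).symm⟩
    · rw [Set.mem_singleton_iff] at hx
      rw [hx]
      exact ⟨M, inferInstance, dvd_rfl, rfl⟩

theorem h59_dedekindPsi_prime (p : ℕ) (hp : p.Prime) : ModularCurve.dedekindPsi p = p + 1 := by
  rw [dedekindPsi, hp.divisors, Finset.filter_true_of_mem, Finset.sum_pair hp.one_lt.ne,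
    Nat.div_one, Nat.div_self hp.pos]
  intro d hd
  rcases Finset.mem_insert.1 hd with rfl | h
  · exact squarefree_one
  · rw [Finset.mem_singleton] at h
    subst h
    exact hp.prime.squarefree

/-- **Hauptmodul lemma at prime level**, degree input `[Fb M : k(j)] ≥ n`. -/
theorem h59_haupt_full (k : Type) [Field k] (M : ℕ) [NeZero M] (hM : M.Prime)
    (x : LaurentSeries k) (n a : ℕ) (p q : k[X]) (hp : p.Monic) (hpn : p.natDegree = n)
    (ha : a < n) (hrel1 : jqModC k * x ^ a = aeval x p)
    (hrel2 : qExpand k M (jqModC k) * x ^ 1 = aeval x q) (hx : x ≠ 0)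
    (hdeg : n ≤ relfinrank k⟮jqModC k⟯ (modularFunctionFieldFullC k M)) :
    modularFunctionFieldFullC k M = k⟮x⟯ ∧ relfinrank k⟮jqModC k⟯ k⟮x⟯ = n := by
  refine h59_haupt_core _ (jqModC k) x n a p hp hpn ha hrel1 hx (jqModC_mem_full k M) ?_ hdeg
  rw [h59_fullC_prime k M hM, adjoin_le_iff]
  rintro z (hz | hz)
  · rw [Set.mem_singleton_iff] at hz
    rw [hz]
    exact h59_mem_adjoin_of_rel _ x a p hrel1 hx
  · rw [Set.mem_singleton_iff] at hz
    rw [hz]
    exact h59_mem_adjoin_of_rel _ x 1 q hrel2 hx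

/-- **Hauptmodul lemma at prime level**, degree input in the polynomial form of Igusa's bound
(IG-A): no nonzero `H ∈ k[J][Y]` of `Y`-degree `< n` vanishes at `(j, j(q^M))`. -/
theorem h59_haupt_full_igusa (k : Type) [Field k] (M : ℕ) [NeZero M] (hM : M.Prime)
    (x : LaurentSeries k) (n a : ℕ) (p q : k[X]) (hp : p.Monic) (hpn : p.natDegree = n)
    (ha : a < n) (hrel1 : jqModC k * x ^ a = aeval x p)
    (hrel2 : qExpand k M (jqModC k) * x ^ 1 = aeval x q) (hx : x ≠ 0)
    (hIG : ∀ H : Polynomial (Polynomial k), H ≠ 0 → H.natDegree < n →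
      (H.map (Polynomial.aeval (jqModC k)).toRingHom).eval (qExpand k M (jqModC k)) ≠ 0) :
    modularFunctionFieldFullC k M = k⟮x⟯ ∧ relfinrank k⟮jqModC k⟯ k⟮x⟯ = n :=
  h59_haupt_core' _ (jqModC k) x (qExpand k M (jqModC k)) n a p hp hpn ha hrel1 hx
    (h59_mem_adjoin_of_rel _ x 1 q hrel2 hx) (h59_fullC_prime k M hM)
    (h59_hmin_of_poly _ _ (h59_jqModC_transcendental k) n hIG)

/-- Consequences at every level `N` divisible by `M`: membership and the tower law. -/
theorem h59_haupt_level (k : Type) [Field k] (M N : ℕ) [NeZero M] [NeZero N] (hMN : M ∣ N)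
    (x : LaurentSeries k) (n : ℕ)
    (h : modularFunctionFieldFullC k M = k⟮x⟯ ∧ relfinrank k⟮jqModC k⟯ k⟮x⟯ = n) :
    ∃ hx : x ∈ modularFunctionFieldFullC k N,
      n * Module.finrank k⟮(⟨x, hx⟩ : ↥(modularFunctionFieldFullC k N))⟯
          ↥(modularFunctionFieldFullC k N)
        = Module.finrank k⟮h59_jk k N⟯ ↥(modularFunctionFieldFullC k N) := by
  have hxM : x ∈ modularFunctionFieldFullC k M := by
    rw [h.1]
    exact mem_adjoin_simple_self k x
  have hx : x ∈ modularFunctionFieldFullC k N := full_degeneracyC_le k hMN hxM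
  have hjx : jqModC k ∈ k⟮x⟯ := by
    rw [← h.1]
    exact jqModC_mem_full k M
  exact ⟨hx, h59_haupt_tower _ (jqModC k) x n hjx h.2 hx⟩

end Fermat.Agent.S18
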