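/-
S18 / MOD layer, rows CH2 + CH3 (helper3): the Hauptmodul charts `x = h₂` (for `ℓ ≠ 2`) and
`x = h₃` (for `ℓ ≠ 3`), conditional on the characterising properties of the modular reduction
datum (`h54_IsModRed`) and on the field facts HF2 / HF3.

`Qb = AlgebraicClosure ℚ`, `F N = modularFunctionFieldBar N ⊆ Qb((q))`, `A` a valuation ring of
`Qb`, `k = A/𝔪`, `Fb N = modularFunctionFieldFullC k N ⊆ k((q))`.
-/
import Mathlib
import Fermat.Agent.S18.h54_ModCharts
import Fermat.Agent.S18.h36_Branch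
import Fermat.Agent.S18.h3_H2
import Fermat.Agent.S18.h24_Hm3Ring
import Fermat.Agent.S18.h59_HauptFull

set_option autoImplicit false
set_option synthInstance.maxHeartbeats 400000

noncomputable section

open ModularCurve AlgebraicCurve IntermediateField CongruenceSubgroup
open scoped MatrixGroups

namespace Fermat.Agent.S18

open Fermat.Agent.S24 Fermat.Agent.S28

local notation "Qb" => AlgebraicClosure ℚ

/-- Separability passes to a larger base inside the same top field. -/
theorem h3_isSeparable_of_le {k E : Type*} [Field k] [Field E] [Algebra k E]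
    {K₁ K₂ : IntermediateField k E} (hle : K₁ ≤ K₂) (hsep : Algebra.IsSeparable ↥K₁ E) :
    Algebra.IsSeparable ↥K₂ E := by
  letI : Algebra ↥K₁ ↥K₂ := (IntermediateField.inclusion hle).toRingHom.toAlgebra
  haveI : IsScalarTower ↥K₁ ↥K₂ E := IsScalarTower.of_algebraMap_eq (fun x => rfl)
  exact Algebra.isSeparable_tower_top_of_isSeparable ↥K₁ ↥K₂ E

/-- A prime `ℓ ≠ p` does not divide a power of the prime `p`. -/
theorem h3_not_dvd_pow {ℓ p : ℕ} (hℓ : ℓ.Prime) (hp : p.Prime) (hne : ℓ ≠ p) (n : ℕ) :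
    ¬ ℓ ∣ p ^ n := fun h =>
  hne ((Nat.prime_dvd_prime_iff_eq hℓ hp).1 (hℓ.dvd_of_dvd_pow h))

/-- The generic chart assembly for a Hauptmodul-type function `x` with integral `q`-expansion
`y`: finite branch values `0`, `-m` with `ℓ ∤ m`. -/
theorem h3_chart_of_haupt (N : ℕ) [NeZero N] {ℓ : ℕ} [Fact ℓ.Prime]
    (A : ValuationSubring Qb) (hA : A.LiesOverPrime ℓ)
    {R : h39_RedDatum Qb ↥(modularFunctionFieldBar N) (IsLocalRing.ResidueField A)
      ↥(modularFunctionFieldFullC (IsLocalRing.ResidueField A) N)} (h : h54_IsModRed N A R)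
    (x : ↥(modularFunctionFieldBar N)) (y : LaurentSeries A)
    (hx : (x : LaurentSeries Qb) = coeffMap A.subtype y)
    (xk : LaurentSeries (IsLocalRing.ResidueField A))
    (hyk : coeffMap (IsLocalRing.residue A) y = xk)
    (hxk : xk ∈ modularFunctionFieldFullC (IsLocalRing.ResidueField A) N)
    (hord : xk.order < 0)
    (hjmem : h54_jk (IsLocalRing.ResidueField A) N ∈
      (IsLocalRing.ResidueField A)⟮(⟨xk, hxk⟩ :
        ↥(modularFunctionFieldFullC (IsLocalRing.ResidueField A) N))⟯)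
    (n : ℕ) (hn : 0 < n)
    (hfinQ : Module.Finite ↥(Qb⟮x⟯) ↥(modularFunctionFieldBar N))
    (hdegQ : n * Module.finrank ↥(Qb⟮x⟯) ↥(modularFunctionFieldBar N)
      = Nat.card (SL(2, ℤ) ⧸ Gamma0 N))
    (hdegk : n * Module.finrank
        ↥((IsLocalRing.ResidueField A)⟮(⟨xk, hxk⟩ :
          ↥(modularFunctionFieldFullC (IsLocalRing.ResidueField A) N))⟯)
        ↥(modularFunctionFieldFullC (IsLocalRing.ResidueField A) N)
      = Module.finrank ↥((IsLocalRing.ResidueField A)⟮h54_jk (IsLocalRing.ResidueField A) N⟯)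
        ↥(modularFunctionFieldFullC (IsLocalRing.ResidueField A) N))
    (hfb : Module.finrank ↥((IsLocalRing.ResidueField A)⟮h54_jk (IsLocalRing.ResidueField A) N⟯)
        ↥(modularFunctionFieldFullC (IsLocalRing.ResidueField A) N)
      = Nat.card (SL(2, ℤ) ⧸ Gamma0 N))
    (hsep : Algebra.IsSeparable
      ↥((IsLocalRing.ResidueField A)⟮h54_jk (IsLocalRing.ResidueField A) N⟯)
      ↥(modularFunctionFieldFullC (IsLocalRing.ResidueField A) N))
    (m : ℕ) (hm : ¬ ℓ ∣ m)
    (hbranch : ∀ (P : Place Qb ↥(modularFunctionFieldBar N)) (a : Qb),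
      2 ≤ P.ord (x - algebraMap Qb ↥(modularFunctionFieldBar N) a) → a = 0 ∨ a = -(m : Qb)) :
    h39_Chart R x := by
  have hred : R.redF x = (⟨xk, hxk⟩ :
      ↥(modularFunctionFieldFullC (IsLocalRing.ResidueField A) N)) := by
    apply Subtype.ext
    rw [h.redF_of_integral x y hx, hyk]
  refine ⟨⟨h.mem_of_integral x y hx, ?_, hfinQ, ?_, ?_⟩, ?_⟩
  · rw [hred, Transcendental]
    rintro ⟨P, hP, h0⟩
    apply h98_aeval_ne_zero xk hord hP
    have := congrArg (fun z : ↥(modularFunctionFieldFullC (IsLocalRing.ResidueField A) N) =>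
      (z : LaurentSeries (IsLocalRing.ResidueField A))) h0
    simp only [ZeroMemClass.coe_zero] at this
    rw [← this, ← IntermediateField.aeval_coe]
  · rw [hred]
    have h1 : n * Module.finrank
        ↥((IsLocalRing.ResidueField A)⟮(⟨xk, hxk⟩ :
          ↥(modularFunctionFieldFullC (IsLocalRing.ResidueField A) N))⟯)
        ↥(modularFunctionFieldFullC (IsLocalRing.ResidueField A) N)
        = n * Module.finrank ↥(Qb⟮x⟯) ↥(modularFunctionFieldBar N) := by
      rw [hdegk, hfb, hdegQ]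
    exact Nat.eq_of_mul_eq_mul_left hn h1
  · rw [hred]
    exact h3_isSeparable_of_le (adjoin_simple_le_iff.2 hjmem) hsep
  · classical
    refine ⟨{0, -((m : ℕ) : Qb)}, ?_, ?_, ?_⟩
    · intro z hz
      rw [h.A_eq]
      rcases Finset.mem_insert.1 hz with rfl | hz
      · exact zero_mem A
      · rw [Finset.mem_singleton.1 hz]
        exact neg_mem (natCast_mem A m)
    · have hmA : ((m : ℕ) : Qb) ∈ R.A := by rw [h.A_eq]; exact natCast_mem A m
      have hne : R.resK (-((m : ℕ) : Qb)) ≠ 0 := by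
        rw [h54_resK_neg _ hmA, neg_ne_zero]
        exact h54_resK_natCast_ne_zero h hA m hm
      intro z hz z' hz' hzz
      rcases Finset.mem_insert.1 hz with rfl | hz
      · rcases Finset.mem_insert.1 hz' with rfl | hz'
        · rfl
        · rw [Finset.mem_singleton.1 hz', h54_resK_zero] at hzz
          exact absurd hzz.symm hne
      · rcases Finset.mem_insert.1 hz' with rfl | hz'
        · rw [Finset.mem_singleton.1 hz, h54_resK_zero] at hzz
          exact absurd hzz hne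
        · rw [Finset.mem_singleton.1 hz, Finset.mem_singleton.1 hz']
    · intro P a hP
      rcases hbranch P a hP with rfl | rfl
      · exact Finset.mem_insert_self _ _
      · exact Finset.mem_insert_of_mem (Finset.mem_singleton.2 rfl)

/-! ## `h₂` -/

theorem h3_hm2_order (k : Type) [Field k] : (h54_hm2 k).order = -1 ∧ h54_hm2 k ≠ 0 :=
  h33_LT_order (h33_LT_congr
    (h33_LT_mul h33_LT_deltaHat (h33_LT_expand h33_LT_deltaHatInv 2 two_ne_zero))
    (by norm_num) (by ring)) one_ne_zero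

/-- `j̄ ∈ k(h̄₂)` inside `Fb N`. -/
theorem h3_jk_mem_adjoin_hm2 (k : Type) [Field k] (N : ℕ) [NeZero N]
    (hxk : h54_hm2 k ∈ modularFunctionFieldFullC k N) :
    h54_jk k N ∈ k⟮(⟨h54_hm2 k, hxk⟩ : ↥(modularFunctionFieldFullC k N))⟯ := by
  set xb : ↥(modularFunctionFieldFullC k N) := ⟨h54_hm2 k, hxk⟩ with hxb
  have hx0 : xb ≠ 0 := fun h0 => (h3_hm2_order k).2 (congrArg Subtype.val h0)
  have hrel : h54_jk k N * xb ^ 2 = (xb + 256) ^ 3 := Subtype.ext (h3_hm2_rel1 k)
  have hj : h54_jk k N = (xb + 256) ^ 3 * (xb ^ 2)⁻¹ :=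
    (eq_mul_inv_iff_mul_eq₀ (pow_ne_zero 2 hx0)).2 hrel
  rw [hj]
  have hxm : xb ∈ k⟮xb⟯ := mem_adjoin_simple_self k xb
  exact mul_mem (pow_mem (add_mem hxm (ofNat_mem _ 256)) 3) (inv_mem (pow_mem hxm 2))

/-- **CH2** `x = h₂` is a chart for `ℓ ≠ 2`, `Z = {0, -64}` (conditional form). -/
theorem h3_chart_h2_of (N : ℕ) [NeZero N] {ℓ : ℕ} [Fact ℓ.Prime] (hℓ2 : ℓ ≠ 2)
    (A : ValuationSubring Qb) (hA : A.LiesOverPrime ℓ)
    {R : h39_RedDatum Qb ↥(modularFunctionFieldBar N) (IsLocalRing.ResidueField A)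
      ↥(modularFunctionFieldFullC (IsLocalRing.ResidueField A) N)} (h : h54_IsModRed N A R)
    (x : ↥(modularFunctionFieldBar N)) (hx : (x : LaurentSeries Qb) = h54_hm2 Qb)
    (hxk : h54_hm2 (IsLocalRing.ResidueField A) ∈
      modularFunctionFieldFullC (IsLocalRing.ResidueField A) N)
    (hfinQ : Module.Finite ↥(Qb⟮x⟯) ↥(modularFunctionFieldBar N))
    (hdegQ : 3 * Module.finrank ↥(Qb⟮x⟯) ↥(modularFunctionFieldBar N)
      = Nat.card (SL(2, ℤ) ⧸ Gamma0 N))
    (hdegk : 3 * Module.finrank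
        ↥((IsLocalRing.ResidueField A)⟮(⟨h54_hm2 (IsLocalRing.ResidueField A), hxk⟩ :
          ↥(modularFunctionFieldFullC (IsLocalRing.ResidueField A) N))⟯)
        ↥(modularFunctionFieldFullC (IsLocalRing.ResidueField A) N)
      = Module.finrank ↥((IsLocalRing.ResidueField A)⟮h54_jk (IsLocalRing.ResidueField A) N⟯)
        ↥(modularFunctionFieldFullC (IsLocalRing.ResidueField A) N))
    (hfb : Module.finrank ↥((IsLocalRing.ResidueField A)⟮h54_jk (IsLocalRing.ResidueField A) N⟯)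
        ↥(modularFunctionFieldFullC (IsLocalRing.ResidueField A) N)
      = Nat.card (SL(2, ℤ) ⧸ Gamma0 N))
    (hsep : Algebra.IsSeparable
      ↥((IsLocalRing.ResidueField A)⟮h54_jk (IsLocalRing.ResidueField A) N⟯)
      ↥(modularFunctionFieldFullC (IsLocalRing.ResidueField A) N)) :
    h39_Chart R x := by
  have hℓp : ℓ.Prime := Fact.out
  have hrel : h59_jbar N * x ^ 2 = (x + 256) ^ 3 := by
    apply Subtype.ext
    have e := h3_hm2_rel1 Qb
    have hj : ((h59_jbar N : ↥(modularFunctionFieldBar N)) : LaurentSeries Qb) = jqModC Qb := by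
      rw [h54_coe_jbar N A, coeffMap_jqModC]
    change ((h59_jbar N : ↥(modularFunctionFieldBar N)) : LaurentSeries Qb)
        * (x : LaurentSeries Qb) ^ 2 = ((x : LaurentSeries Qb) + 256) ^ 3
    rw [hj, hx]
    exact e
  refine h3_chart_of_haupt N A hA h x (h54_hm2 A) (hx.trans (h3_coeffMap_hm2 A.subtype).symm)
    (h54_hm2 (IsLocalRing.ResidueField A)) (h3_coeffMap_hm2 (IsLocalRing.residue A)) hxk
    (by rw [(h3_hm2_order _).1]; norm_num) (h3_jk_mem_adjoin_hm2 _ N hxk) 3 (by norm_num)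
    hfinQ hdegQ hdegk hfb hsep 64
    (by
      have := h3_not_dvd_pow hℓp Nat.prime_two hℓ2 6
      norm_num at this
      exact this) ?_
  intro P a hP
  rcases h36_branch_h2 N x hrel (h54_ord_j_sub_dvd N) P a hP with h0 | h1
  · exact Or.inl h0
  · right
    rw [h1]
    norm_num

/-! ## `h₃` -/

theorem h3_hm3_order (k : Type) [Field k] : (h54_hm3 k).order = -1 ∧ h54_hm3 k ≠ 0 := by
  have h1 : h33_LT (h54_eta12 k) 0 1 := by
    refine h33_LT_congr (h33_LT_ofPowerSeries _) rfl ?_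
    rw [← PowerSeries.coeff_zero_eq_constantCoeff, PowerSeries.coeff_map,
      PowerSeries.coeff_zero_eq_constantCoeff, map_pow, constantCoeff_etaProd, one_pow]
    simp
  have h2 : h33_LT (h54_eta12Inv k) 0 1 := by
    refine h33_LT_congr (h33_LT_ofPowerSeries _) rfl ?_
    rw [← PowerSeries.coeff_zero_eq_constantCoeff, PowerSeries.coeff_map,
      PowerSeries.coeff_zero_eq_constantCoeff, map_mul, map_pow, constantCoeff_etaProd, one_pow,
      constantCoeff_dedekindEtaUnitInv]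
    simp
  exact h33_LT_order (h33_LT_congr
    (h33_LT_mul (h33_LT_mul (h33_LT_single (-1 : ℤ) (1 : k)) h1)
      (h33_LT_expand h2 3 three_ne_zero))
    (by norm_num) (by ring)) one_ne_zero

/-- `j̄ ∈ k(h̄₃)` inside `Fb N`. -/
theorem h3_jk_mem_adjoin_hm3 (k : Type) [Field k] (N : ℕ) [NeZero N]
    (hxk : h54_hm3 k ∈ modularFunctionFieldFullC k N) :
    h54_jk k N ∈ k⟮(⟨h54_hm3 k, hxk⟩ : ↥(modularFunctionFieldFullC k N))⟯ := by
  set xb : ↥(modularFunctionFieldFullC k N) := ⟨h54_hm3 k, hxk⟩ with hxb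
  have hx0 : xb ≠ 0 := fun h0 => (h3_hm3_order k).2 (congrArg Subtype.val h0)
  have hrel : h54_jk k N * xb ^ 3 = (xb + 27) * (xb + 243) ^ 3 :=
    Subtype.ext (h24_hm3_rel_ring k).1
  have hj : h54_jk k N = (xb + 27) * (xb + 243) ^ 3 * (xb ^ 3)⁻¹ :=
    (eq_mul_inv_iff_mul_eq₀ (pow_ne_zero 3 hx0)).2 hrel
  rw [hj]
  have hxm : xb ∈ k⟮xb⟯ := mem_adjoin_simple_self k xb
  exact mul_mem (mul_mem (add_mem hxm (ofNat_mem _ 27)) (pow_mem (add_mem hxm (ofNat_mem _ 243)) 3))
    (inv_mem (pow_mem hxm 3))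

/-- **CH3** `x = h₃` is a chart for `ℓ ≠ 3`, `Z = {0, -27}` (conditional form). -/
theorem h3_chart_h3_of (N : ℕ) [NeZero N] {ℓ : ℕ} [Fact ℓ.Prime] (hℓ3 : ℓ ≠ 3)
    (A : ValuationSubring Qb) (hA : A.LiesOverPrime ℓ)
    {R : h39_RedDatum Qb ↥(modularFunctionFieldBar N) (IsLocalRing.ResidueField A)
      ↥(modularFunctionFieldFullC (IsLocalRing.ResidueField A) N)} (h : h54_IsModRed N A R)
    (x : ↥(modularFunctionFieldBar N)) (hx : (x : LaurentSeries Qb) = h54_hm3 Qb)
    (hxk : h54_hm3 (IsLocalRing.ResidueField A) ∈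
      modularFunctionFieldFullC (IsLocalRing.ResidueField A) N)
    (hfinQ : Module.Finite ↥(Qb⟮x⟯) ↥(modularFunctionFieldBar N))
    (hdegQ : 4 * Module.finrank ↥(Qb⟮x⟯) ↥(modularFunctionFieldBar N)
      = Nat.card (SL(2, ℤ) ⧸ Gamma0 N))
    (hdegk : 4 * Module.finrank
        ↥((IsLocalRing.ResidueField A)⟮(⟨h54_hm3 (IsLocalRing.ResidueField A), hxk⟩ :
          ↥(modularFunctionFieldFullC (IsLocalRing.ResidueField A) N))⟯)
        ↥(modularFunctionFieldFullC (IsLocalRing.ResidueField A) N)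
      = Module.finrank ↥((IsLocalRing.ResidueField A)⟮h54_jk (IsLocalRing.ResidueField A) N⟯)
        ↥(modularFunctionFieldFullC (IsLocalRing.ResidueField A) N))
    (hfb : Module.finrank ↥((IsLocalRing.ResidueField A)⟮h54_jk (IsLocalRing.ResidueField A) N⟯)
        ↥(modularFunctionFieldFullC (IsLocalRing.ResidueField A) N)
      = Nat.card (SL(2, ℤ) ⧸ Gamma0 N))
    (hsep : Algebra.IsSeparable
      ↥((IsLocalRing.ResidueField A)⟮h54_jk (IsLocalRing.ResidueField A) N⟯)
      ↥(modularFunctionFieldFullC (IsLocalRing.ResidueField A) N)) :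
    h39_Chart R x := by
  have hℓp : ℓ.Prime := Fact.out
  have hrel : h59_jbar N * x ^ 3 = (x + 27) * (x + 243) ^ 3 := by
    apply Subtype.ext
    have e := (h24_hm3_rel_ring Qb).1
    have hj : ((h59_jbar N : ↥(modularFunctionFieldBar N)) : LaurentSeries Qb) = jqModC Qb := by
      rw [h54_coe_jbar N A, coeffMap_jqModC]
    change ((h59_jbar N : ↥(modularFunctionFieldBar N)) : LaurentSeries Qb)
        * (x : LaurentSeries Qb) ^ 3
      = ((x : LaurentSeries Qb) + 27) * ((x : LaurentSeries Qb) + 243) ^ 3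
    rw [hj, hx]
    exact e
  refine h3_chart_of_haupt N A hA h x (h54_hm3 A)
    (hx.trans (h24_coeffMap_hm3_h54 A.subtype).symm)
    (h54_hm3 (IsLocalRing.ResidueField A)) (h24_coeffMap_hm3_h54 (IsLocalRing.residue A)) hxk
    (by rw [(h3_hm3_order _).1]; norm_num) (h3_jk_mem_adjoin_hm3 _ N hxk) 4 (by norm_num)
    hfinQ hdegQ hdegk hfb hsep 27
    (by
      have := h3_not_dvd_pow hℓp Nat.prime_three hℓ3 3
      norm_num at this
      exact this) ?_
  intro P a hP
  rcases h36_branch_h3 N x hrel (h54_ord_j_sub_dvd N) P a hP with h0 | h1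
  · exact Or.inl h0
  · right
    rw [h1]
    norm_num

end Fermat.Agent.S18
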