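import Mathlib
import Fermat.Agent.S18.h59_HauptFull
import Fermat.Agent.S24.h78_Fibres
import Fermat.Agent.S24.h29_Index

/-!
# S18, layer MOD, row HF2: field facts for the Hauptmodul `h₂` of `X₀(2)`

Inputs as explicit hypotheses (not yet on main): the relations MOD-H2 over `ℤ` (`h59_Hm2Rel`)
and, in characteristic `ℓ`, Igusa's bound IG-A at level `2` (`h59_IgusaField 2`, the exact
statement of `h54_igusa_field 2`).
-/

set_option autoImplicit false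

noncomputable section

namespace Fermat.Agent.S18

open ModularCurve IntermediateField Polynomial CongruenceSubgroup

open scoped MatrixGroups

open Fermat.Agent.S24 Fermat.Agent.S28

local notation "Qb" => AlgebraicClosure ℚ

/-- `h₂ = Δ(q)/Δ(q²) = q⁻¹ ∏ (1 + qⁿ)⁻²⁴`. -/
def h59_hm2 (R : Type) [CommRing R] : LaurentSeries R := deltaHat R * expand R 2 (deltaHatInv R)

/-- INPUT (MOD-H2): `j h₂² = (h₂ + 256)³` and `j(q²) h₂ = (h₂ + 16)³` over `ℤ`. -/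
def h59_Hm2Rel : Prop :=
  jqModC ℤ * h59_hm2 ℤ ^ 2 = (h59_hm2 ℤ + 256) ^ 3 ∧
    expand ℤ 2 (jqModC ℤ) * h59_hm2 ℤ = (h59_hm2 ℤ + 16) ^ 3

/-- INPUT (IG-A at level `N`): the exact statement of `h54_igusa_field N`. -/
def h59_IgusaField (N : ℕ) [NeZero N] : Prop :=
  ∀ (ℓ : ℕ) [Fact ℓ.Prime] (_ : ¬ ℓ ∣ N) (k : Type) [Field k] [CharP k ℓ]
    (H : Polynomial (Polynomial k)) (_ : H ≠ 0)
    (_ : H.natDegree < Nat.card (SL(2, ℤ) ⧸ Gamma0 N)),
    (H.map (Polynomial.aeval (jqModC k)).toRingHom).eval (qExpand k N (jqModC k)) ≠ 0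

theorem h59_coeffMap_hm2 {R S : Type} [CommRing R] [CommRing S] (f : R →+* S) :
    coeffMap f (h59_hm2 R) = h59_hm2 S := by
  rw [h59_hm2, map_mul, coeffMap_deltaHat, coeffMap_expand, coeffMap_deltaHatInv, h59_hm2]

theorem h59_LT_hm2 (R : Type) [CommRing R] : h33_LT (h59_hm2 R) (-1) 1 :=
  h33_LT_congr (h33_LT_mul h33_LT_deltaHat (h33_LT_expand h33_LT_deltaHatInv 2 two_ne_zero))
    (by norm_num) (by ring)

theorem h59_hm2_order (k : Type) [Field k] : (h59_hm2 k).order = -1 ∧ h59_hm2 k ≠ 0 :=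
  h33_LT_order (h59_LT_hm2 k) one_ne_zero

/-- `h̄₂` is transcendental over the constants (pole of order one). -/
theorem h59_h2k_transcendental (k : Type) [Field k] : Transcendental k (h59_hm2 k) :=
  h59_transcendental_of_order_neg _ (by rw [(h59_hm2_order k).1]; norm_num)

/-- The relations MOD-H2 over every ring. -/
theorem h59_hm2_rel_ring (hrel : h59_Hm2Rel) (R : Type) [CommRing R] :
    jqModC R * h59_hm2 R ^ 2 = (h59_hm2 R + 256) ^ 3 ∧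
      expand R 2 (jqModC R) * h59_hm2 R = (h59_hm2 R + 16) ^ 3 := by
  constructor
  · have h := congrArg (coeffMap (Int.castRingHom R)) hrel.1
    rw [map_mul, map_pow, map_pow, map_add, coeffMap_jqModC, h59_coeffMap_hm2, map_ofNat] at h
    exact h
  · have h := congrArg (coeffMap (Int.castRingHom R)) hrel.2
    rw [map_mul, map_pow, map_add, coeffMap_expand, coeffMap_jqModC, h59_coeffMap_hm2,
      map_ofNat] at h
    exact h

theorem h59_hm2_poly (k : Type) [Field k] (c : ℕ) [c.AtLeastTwo] :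
    ((X + C (OfNat.ofNat c : k)) ^ 3 : k[X]).Monic ∧
    ((X + C (OfNat.ofNat c : k)) ^ 3 : k[X]).natDegree = 3 ∧
    ∀ x : LaurentSeries k, aeval x ((X + C (OfNat.ofNat c : k)) ^ 3 : k[X]) =
      (x + OfNat.ofNat c) ^ 3 := by
  refine ⟨(monic_X_add_C _).pow 3, ?_, ?_⟩
  · rw [natDegree_pow, natDegree_X_add_C]
  · intro x
    rw [map_pow, map_add, aeval_X, aeval_C, map_ofNat]

theorem h59_hm2_rels (hrel : h59_Hm2Rel) (k : Type) [Field k] :
    jqModC k * h59_hm2 k ^ 2 = aeval (h59_hm2 k) ((X + C (256 : k)) ^ 3 : k[X]) ∧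
    qExpand k 2 (jqModC k) * h59_hm2 k ^ 1 = aeval (h59_hm2 k) ((X + C (16 : k)) ^ 3 : k[X]) := by
  obtain ⟨h1, h2⟩ := h59_hm2_rel_ring hrel k
  rw [(h59_hm2_poly k 256).2.2, (h59_hm2_poly k 16).2.2, pow_one, ← expand_eq_qExpand]
  exact ⟨h1, h2⟩

theorem h59_dedekindPsi_two : ModularCurve.dedekindPsi 2 = 3 :=
  h59_dedekindPsi_prime 2 Nat.prime_two

theorem h59_card_Gamma0_two : Nat.card (SL(2, ℤ) ⧸ Gamma0 2) = 3 := by
  rw [h29_card_quotient_Gamma0, h59_dedekindPsi_two]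

/-! ### Characteristic `ℓ` -/

/-- `Fb 2 = k(h̄₂)` and `[k(h̄₂) : k(j̄)] = 3`, from IG-A at level `2` over `k`. -/
theorem h59_h2k_core (hrel : h59_Hm2Rel) (k : Type) [Field k]
    (hIG : ∀ H : Polynomial (Polynomial k), H ≠ 0 →
      H.natDegree < Nat.card (SL(2, ℤ) ⧸ Gamma0 2) →
      (H.map (Polynomial.aeval (jqModC k)).toRingHom).eval (qExpand k 2 (jqModC k)) ≠ 0) :
    modularFunctionFieldFullC k 2 = k⟮h59_hm2 k⟯ ∧
      relfinrank k⟮jqModC k⟯ k⟮h59_hm2 k⟯ = 3 := by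
  rw [h59_card_Gamma0_two] at hIG
  exact h59_haupt_full_igusa k 2 Nat.prime_two (h59_hm2 k) 3 2 _ _ (h59_hm2_poly k 256).1
    (h59_hm2_poly k 256).2.1 (by norm_num) (h59_hm2_rels hrel k).1 (h59_hm2_rels hrel k).2
    (h59_hm2_order k).2 hIG

/-- Variant with the degree input in the shape of IG-D at level `2`. -/
theorem h59_h2k_core' (hrel : h59_Hm2Rel) (k : Type) [Field k]
    (hdeg : 3 ≤ Module.finrank k⟮h59_jk k 2⟯ ↥(modularFunctionFieldFullC k 2)) :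
    modularFunctionFieldFullC k 2 = k⟮h59_hm2 k⟯ ∧
      relfinrank k⟮jqModC k⟯ k⟮h59_hm2 k⟯ = 3 := by
  rw [h59_jk, h59_finrank_adjoin_subtype] at hdeg
  exact h59_haupt_full k 2 Nat.prime_two (h59_hm2 k) 3 2 _ _ (h59_hm2_poly k 256).1
    (h59_hm2_poly k 256).2.1 (by norm_num) (h59_hm2_rels hrel k).1 (h59_hm2_rels hrel k).2
    (h59_hm2_order k).2 hdeg

theorem h59_not_dvd_two {ℓ : ℕ} [Fact ℓ.Prime] (hℓ : ℓ ≠ 2) : ¬ ℓ ∣ 2 :=
  fun h => hℓ ((Nat.prime_dvd_prime_iff_eq Fact.out Nat.prime_two).1 h)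

/-- `h̄₂ ∈ Fb N` for `2 ∣ N`, in characteristic `ℓ ≠ 2`. -/
theorem h59_h2k_mem (hrel : h59_Hm2Rel) (hIG : h59_IgusaField 2) (k : Type) [Field k] (N : ℕ)
    [NeZero N] (h2 : 2 ∣ N) {ℓ : ℕ} [Fact ℓ.Prime] [CharP k ℓ] (hℓ : ℓ ≠ 2) :
    h59_hm2 k ∈ modularFunctionFieldFullC k N :=
  (h59_haupt_level k 2 N h2 (h59_hm2 k) 3
    (h59_h2k_core hrel k (hIG ℓ (h59_not_dvd_two hℓ) k))).1

/-- `3 · [Fb N : k(h̄₂)] = [Fb N : k(j̄)]` for `2 ∣ N`, in characteristic `ℓ ≠ 2`. -/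
theorem h59_h2k_finrank (hrel : h59_Hm2Rel) (hIG : h59_IgusaField 2) (k : Type) [Field k]
    (N : ℕ) [NeZero N] (h2 : 2 ∣ N) {ℓ : ℕ} [Fact ℓ.Prime] [CharP k ℓ] (hℓ : ℓ ≠ 2) :
    3 * Module.finrank
        ↥(k⟮(⟨h59_hm2 k, h59_h2k_mem hrel hIG k N h2 hℓ⟩ : ↥(modularFunctionFieldFullC k N))⟯)
        ↥(modularFunctionFieldFullC k N)
      = Module.finrank ↥(k⟮h59_jk k N⟯) ↥(modularFunctionFieldFullC k N) :=
  (h59_haupt_level k 2 N h2 (h59_hm2 k) 3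
    (h59_h2k_core hrel k (hIG ℓ (h59_not_dvd_two hℓ) k))).2

/-! ### Characteristic zero -/

/-- `F 2 = Qb(h₂)` and `[Qb(h₂) : Qb(j)] = 3`. -/
theorem h59_h2_core (hrel : h59_Hm2Rel) :
    modularFunctionFieldFullC Qb 2 = Qb⟮h59_hm2 Qb⟯ ∧
      relfinrank Qb⟮jqModC Qb⟯ Qb⟮h59_hm2 Qb⟯ = 3 := by
  have h := h78_finrank 2
  rw [h59_card_Gamma0_two, h59_jbar, h59_finrank_adjoin_subtype, h59_coeffEmb_jq,
    h59_bar_eq_fullC] at h
  exact h59_haupt_full Qb 2 Nat.prime_two (h59_hm2 Qb) 3 2 _ _ (h59_hm2_poly Qb 256).1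
    (h59_hm2_poly Qb 256).2.1 (by norm_num) (h59_hm2_rels hrel Qb).1 (h59_hm2_rels hrel Qb).2
    (h59_hm2_order Qb).2 h.ge

theorem h59_hm2_mem_bar (hrel : h59_Hm2Rel) (N : ℕ) [NeZero N] (h2 : 2 ∣ N) :
    h59_hm2 Qb ∈ modularFunctionFieldBar N := by
  rw [h59_bar_eq_fullC]
  exact (h59_haupt_level Qb 2 N h2 (h59_hm2 Qb) 3 (h59_h2_core hrel)).1

/-- `F N` is finite over `Qb(h₂)` and `3 · [F N : Qb(h₂)] = [SL₂(ℤ) : Γ₀(N)]`, for `2 ∣ N`. -/
theorem h59_h2_finrank (hrel : h59_Hm2Rel) (N : ℕ) [NeZero N] (h2 : 2 ∣ N) :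
    Module.Finite
        ↥(Qb⟮(⟨h59_hm2 Qb, h59_hm2_mem_bar hrel N h2⟩ : ↥(modularFunctionFieldBar N))⟯)
        ↥(modularFunctionFieldBar N) ∧
      3 * Module.finrank
        ↥(Qb⟮(⟨h59_hm2 Qb, h59_hm2_mem_bar hrel N h2⟩ : ↥(modularFunctionFieldBar N))⟯)
        ↥(modularFunctionFieldBar N) = Nat.card (SL(2, ℤ) ⧸ Gamma0 N) := by
  have hx := h59_hm2_mem_bar hrel N h2
  have hjx : jqModC Qb ∈ Qb⟮h59_hm2 Qb⟯ := by
    rw [← (h59_h2_core hrel).1]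
    exact jqModC_mem_full Qb 2
  have hmul := relfinrank_mul_relfinrank (adjoin_simple_le_iff.2 hjx)
    (adjoin_simple_le_iff.2 hx)
  rw [(h59_h2_core hrel).2] at hmul
  have hN := h78_finrank N
  rw [h59_jbar, h59_finrank_adjoin_subtype, h59_coeffEmb_jq] at hN
  have key : 3 * Module.finrank
        ↥(Qb⟮(⟨h59_hm2 Qb, h59_hm2_mem_bar hrel N h2⟩ : ↥(modularFunctionFieldBar N))⟯)
        ↥(modularFunctionFieldBar N) = Nat.card (SL(2, ℤ) ⧸ Gamma0 N) := by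
    rw [h59_finrank_adjoin_subtype, hmul, hN]
  refine ⟨?_, key⟩
  have hpos : 0 < Nat.card (SL(2, ℤ) ⧸ Gamma0 N) := by
    rw [h29_card_quotient_Gamma0]
    have := h78_finiteDimensional N
    rw [← h29_card_quotient_Gamma0, ← h78_finrank N]
    exact Module.finrank_pos
  exact Module.finite_of_finrank_pos (by omega)

end Fermat.Agent.S18
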