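import Mathlib
import Fermat.Agent.S18.h59_HauptFull
import Fermat.Agent.S18.h59_HF2
import Fermat.Agent.S24.h78_Fibres
import Fermat.Agent.S24.h29_Index

/-!
# S18, layer MOD, row HF3: field facts for the Hauptmodul `h₃` of `X₀(3)`

Inputs as explicit hypotheses (not yet on main): the relations MOD-H3 over `ℤ` (`h59_Hm3Rel`)
and, in characteristic `ℓ`, Igusa's bound IG-A at level `3` (`h59_IgusaField 3`, the exact
statement of `h54_igusa_field 3`).
-/

set_option autoImplicit false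

noncomputable section

namespace Fermat.Agent.S18

open ModularCurve IntermediateField Polynomial CongruenceSubgroup

open scoped MatrixGroups

open Fermat.Agent.S24 Fermat.Agent.S28

local notation "Qb" => AlgebraicClosure ℚ

/-- `∏ (1 - qⁿ)¹²` as a Laurent series over `R`. -/
def h59_eta12 (R : Type) [CommRing R] : LaurentSeries R :=
  HahnSeries.ofPowerSeries ℤ R ((etaProd ^ 12).map (Int.castRingHom R))

/-- `∏ (1 - qⁿ)⁻¹²` as a Laurent series over `R`. -/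
def h59_eta12Inv (R : Type) [CommRing R] : LaurentSeries R :=
  HahnSeries.ofPowerSeries ℤ R ((etaProd ^ 12 * dedekindEtaUnitInv).map (Int.castRingHom R))

/-- `h₃ = q⁻¹ ∏ ((1 - qⁿ)/(1 - q³ⁿ))¹²`  (`h₃² = Δ(q)/Δ(q³)`). -/
def h59_hm3 (R : Type) [CommRing R] : LaurentSeries R :=
  HahnSeries.single (-1 : ℤ) 1 * h59_eta12 R * expand R 3 (h59_eta12Inv R)

/-- INPUT (MOD-H3): `j h₃³ = (h₃ + 27)(h₃ + 243)³` and `j(q³) h₃ = (h₃ + 27)(h₃ + 3)³` over
`ℤ`. -/
def h59_Hm3Rel : Prop :=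
  jqModC ℤ * h59_hm3 ℤ ^ 3 = (h59_hm3 ℤ + 27) * (h59_hm3 ℤ + 243) ^ 3 ∧
    expand ℤ 3 (jqModC ℤ) * h59_hm3 ℤ = (h59_hm3 ℤ + 27) * (h59_hm3 ℤ + 3) ^ 3

theorem h59_coeffMap_ofPowerSeries_int {R S : Type} [CommRing R] [CommRing S] (f : R →+* S)
    (P : PowerSeries ℤ) :
    coeffMap f (HahnSeries.ofPowerSeries ℤ R (P.map (Int.castRingHom R))) =
      HahnSeries.ofPowerSeries ℤ S (P.map (Int.castRingHom S)) := by
  rw [coeffMap_ofPowerSeries,
    ← RingHom.comp_apply (PowerSeries.map f) (PowerSeries.map (Int.castRingHom R)),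
    ← PowerSeries.map_comp, RingHom.ext_int (f.comp (Int.castRingHom R)) (Int.castRingHom S)]

theorem h59_coeffMap_hm3 {R S : Type} [CommRing R] [CommRing S] (f : R →+* S) :
    coeffMap f (h59_hm3 R) = h59_hm3 S := by
  rw [h59_hm3, map_mul, map_mul, coeffMap_single, map_one, coeffMap_expand, h59_eta12,
    h59_eta12Inv, h59_coeffMap_ofPowerSeries_int, h59_coeffMap_ofPowerSeries_int, h59_hm3,
    h59_eta12, h59_eta12Inv]

theorem h59_constantCoeff_map_int (R : Type) [CommRing R] (P : PowerSeries ℤ)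
    (hP : PowerSeries.constantCoeff P = 1) :
    PowerSeries.constantCoeff (P.map (Int.castRingHom R)) = 1 := by
  rw [← PowerSeries.coeff_zero_eq_constantCoeff, PowerSeries.coeff_map,
    PowerSeries.coeff_zero_eq_constantCoeff, hP]
  simp

theorem h59_LT_hm3 (R : Type) [CommRing R] : h33_LT (h59_hm3 R) (-1) 1 := by
  have h1 : PowerSeries.constantCoeff ((etaProd ^ 12).map (Int.castRingHom R)) = 1 :=
    h59_constantCoeff_map_int R _ (by rw [map_pow, constantCoeff_etaProd, one_pow])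
  have h2 : PowerSeries.constantCoeff
      ((etaProd ^ 12 * dedekindEtaUnitInv).map (Int.castRingHom R)) = 1 :=
    h59_constantCoeff_map_int R _ (by
      rw [map_mul, map_pow, constantCoeff_etaProd, one_pow, constantCoeff_dedekindEtaUnitInv,
        one_mul])
  have h := h33_LT_mul (h33_LT_mul (h33_LT_single (-1 : ℤ) (1 : R))
    (h33_LT_ofPowerSeries ((etaProd ^ 12).map (Int.castRingHom R))))
    (h33_LT_expand (h33_LT_ofPowerSeries
      ((etaProd ^ 12 * dedekindEtaUnitInv).map (Int.castRingHom R))) 3 three_ne_zero)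
  rw [h1, h2] at h
  exact h33_LT_congr h (by norm_num) (by ring)

theorem h59_hm3_order (k : Type) [Field k] : (h59_hm3 k).order = -1 ∧ h59_hm3 k ≠ 0 :=
  h33_LT_order (h59_LT_hm3 k) one_ne_zero

/-- `h̄₃` is transcendental over the constants (pole of order one). -/
theorem h59_h3k_transcendental (k : Type) [Field k] : Transcendental k (h59_hm3 k) :=
  h59_transcendental_of_order_neg _ (by rw [(h59_hm3_order k).1]; norm_num)

/-- The relations MOD-H3 over every ring. -/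
theorem h59_hm3_rel_ring (hrel : h59_Hm3Rel) (R : Type) [CommRing R] :
    jqModC R * h59_hm3 R ^ 3 = (h59_hm3 R + 27) * (h59_hm3 R + 243) ^ 3 ∧
      expand R 3 (jqModC R) * h59_hm3 R = (h59_hm3 R + 27) * (h59_hm3 R + 3) ^ 3 := by
  constructor
  · have h := congrArg (coeffMap (Int.castRingHom R)) hrel.1
    rw [map_mul, map_mul, map_pow, map_pow, map_add, map_add, coeffMap_jqModC,
      h59_coeffMap_hm3, map_ofNat, map_ofNat] at h
    exact h
  · have h := congrArg (coeffMap (Int.castRingHom R)) hrel.2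
    rw [map_mul, map_mul, map_pow, map_add, map_add, coeffMap_expand, coeffMap_jqModC,
      h59_coeffMap_hm3, map_ofNat, map_ofNat] at h
    exact h

theorem h59_hm3_poly (k : Type) [Field k] (c : ℕ) [c.AtLeastTwo] :
    ((X + C (27 : k)) * (X + C (OfNat.ofNat c : k)) ^ 3 : k[X]).Monic ∧
    ((X + C (27 : k)) * (X + C (OfNat.ofNat c : k)) ^ 3 : k[X]).natDegree = 4 ∧
    ∀ x : LaurentSeries k,
      aeval x ((X + C (27 : k)) * (X + C (OfNat.ofNat c : k)) ^ 3 : k[X]) =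
        (x + 27) * (x + OfNat.ofNat c) ^ 3 := by
  refine ⟨(monic_X_add_C _).mul ((monic_X_add_C _).pow 3), ?_, ?_⟩
  · rw [Monic.natDegree_mul (monic_X_add_C _) ((monic_X_add_C _).pow 3), natDegree_pow,
      natDegree_X_add_C, natDegree_X_add_C]
  · intro x
    rw [map_mul, map_pow, map_add, map_add, aeval_X, aeval_C, aeval_C, map_ofNat, map_ofNat]

theorem h59_hm3_rels (hrel : h59_Hm3Rel) (k : Type) [Field k] :
    jqModC k * h59_hm3 k ^ 3 =
      aeval (h59_hm3 k) ((X + C (27 : k)) * (X + C (243 : k)) ^ 3 : k[X]) ∧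
    qExpand k 3 (jqModC k) * h59_hm3 k ^ 1 =
      aeval (h59_hm3 k) ((X + C (27 : k)) * (X + C (3 : k)) ^ 3 : k[X]) := by
  obtain ⟨h1, h2⟩ := h59_hm3_rel_ring hrel k
  rw [(h59_hm3_poly k 243).2.2, (h59_hm3_poly k 3).2.2, pow_one, ← expand_eq_qExpand]
  exact ⟨h1, h2⟩

theorem h59_dedekindPsi_three : ModularCurve.dedekindPsi 3 = 4 :=
  h59_dedekindPsi_prime 3 Nat.prime_three

theorem h59_card_Gamma0_three : Nat.card (SL(2, ℤ) ⧸ Gamma0 3) = 4 := by
  rw [h29_card_quotient_Gamma0, h59_dedekindPsi_three]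

/-! ### Characteristic `ℓ` -/

/-- `Fb 3 = k(h̄₃)` and `[k(h̄₃) : k(j̄)] = 4`, from IG-A at level `3` over `k`. -/
theorem h59_h3k_core (hrel : h59_Hm3Rel) (k : Type) [Field k]
    (hIG : ∀ H : Polynomial (Polynomial k), H ≠ 0 →
      H.natDegree < Nat.card (SL(2, ℤ) ⧸ Gamma0 3) →
      (H.map (Polynomial.aeval (jqModC k)).toRingHom).eval (qExpand k 3 (jqModC k)) ≠ 0) :
    modularFunctionFieldFullC k 3 = k⟮h59_hm3 k⟯ ∧
      relfinrank k⟮jqModC k⟯ k⟮h59_hm3 k⟯ = 4 := by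
  rw [h59_card_Gamma0_three] at hIG
  exact h59_haupt_full_igusa k 3 Nat.prime_three (h59_hm3 k) 4 3 _ _ (h59_hm3_poly k 243).1
    (h59_hm3_poly k 243).2.1 (by norm_num) (h59_hm3_rels hrel k).1 (h59_hm3_rels hrel k).2
    (h59_hm3_order k).2 hIG

/-- Variant with the degree input in the shape of IG-D at level `3`. -/
theorem h59_h3k_core' (hrel : h59_Hm3Rel) (k : Type) [Field k]
    (hdeg : 4 ≤ Module.finrank k⟮h59_jk k 3⟯ ↥(modularFunctionFieldFullC k 3)) :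
    modularFunctionFieldFullC k 3 = k⟮h59_hm3 k⟯ ∧
      relfinrank k⟮jqModC k⟯ k⟮h59_hm3 k⟯ = 4 := by
  rw [h59_jk, h59_finrank_adjoin_subtype] at hdeg
  exact h59_haupt_full k 3 Nat.prime_three (h59_hm3 k) 4 3 _ _ (h59_hm3_poly k 243).1
    (h59_hm3_poly k 243).2.1 (by norm_num) (h59_hm3_rels hrel k).1 (h59_hm3_rels hrel k).2
    (h59_hm3_order k).2 hdeg

theorem h59_not_dvd_three {ℓ : ℕ} [Fact ℓ.Prime] (hℓ : ℓ ≠ 3) : ¬ ℓ ∣ 3 :=
  fun h => hℓ ((Nat.prime_dvd_prime_iff_eq Fact.out Nat.prime_three).1 h)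

/-- `h̄₃ ∈ Fb N` for `3 ∣ N`, in characteristic `ℓ ≠ 3`. -/
theorem h59_h3k_mem (hrel : h59_Hm3Rel) (hIG : h59_IgusaField 3) (k : Type) [Field k] (N : ℕ)
    [NeZero N] (h3 : 3 ∣ N) {ℓ : ℕ} [Fact ℓ.Prime] [CharP k ℓ] (hℓ : ℓ ≠ 3) :
    h59_hm3 k ∈ modularFunctionFieldFullC k N :=
  (h59_haupt_level k 3 N h3 (h59_hm3 k) 4
    (h59_h3k_core hrel k (hIG ℓ (h59_not_dvd_three hℓ) k))).1

/-- `4 · [Fb N : k(h̄₃)] = [Fb N : k(j̄)]` for `3 ∣ N`, in characteristic `ℓ ≠ 3`. -/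
theorem h59_h3k_finrank (hrel : h59_Hm3Rel) (hIG : h59_IgusaField 3) (k : Type) [Field k]
    (N : ℕ) [NeZero N] (h3 : 3 ∣ N) {ℓ : ℕ} [Fact ℓ.Prime] [CharP k ℓ] (hℓ : ℓ ≠ 3) :
    4 * Module.finrank
        ↥(k⟮(⟨h59_hm3 k, h59_h3k_mem hrel hIG k N h3 hℓ⟩ : ↥(modularFunctionFieldFullC k N))⟯)
        ↥(modularFunctionFieldFullC k N)
      = Module.finrank ↥(k⟮h59_jk k N⟯) ↥(modularFunctionFieldFullC k N) :=
  (h59_haupt_level k 3 N h3 (h59_hm3 k) 4
    (h59_h3k_core hrel k (hIG ℓ (h59_not_dvd_three hℓ) k))).2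

/-! ### Characteristic zero -/

/-- `F 3 = Qb(h₃)` and `[Qb(h₃) : Qb(j)] = 4`. -/
theorem h59_h3_core (hrel : h59_Hm3Rel) :
    modularFunctionFieldFullC Qb 3 = Qb⟮h59_hm3 Qb⟯ ∧
      relfinrank Qb⟮jqModC Qb⟯ Qb⟮h59_hm3 Qb⟯ = 4 := by
  have h := h78_finrank 3
  rw [h59_card_Gamma0_three, h59_jbar, h59_finrank_adjoin_subtype, h59_coeffEmb_jq,
    h59_bar_eq_fullC] at h
  exact h59_haupt_full Qb 3 Nat.prime_three (h59_hm3 Qb) 4 3 _ _ (h59_hm3_poly Qb 243).1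
    (h59_hm3_poly Qb 243).2.1 (by norm_num) (h59_hm3_rels hrel Qb).1 (h59_hm3_rels hrel Qb).2
    (h59_hm3_order Qb).2 h.ge

theorem h59_hm3_mem_bar (hrel : h59_Hm3Rel) (N : ℕ) [NeZero N] (h3 : 3 ∣ N) :
    h59_hm3 Qb ∈ modularFunctionFieldBar N := by
  rw [h59_bar_eq_fullC]
  exact (h59_haupt_level Qb 3 N h3 (h59_hm3 Qb) 4 (h59_h3_core hrel)).1

/-- `F N` is finite over `Qb(h₃)` and `4 · [F N : Qb(h₃)] = [SL₂(ℤ) : Γ₀(N)]`, for `3 ∣ N`. -/
theorem h59_h3_finrank (hrel : h59_Hm3Rel) (N : ℕ) [NeZero N] (h3 : 3 ∣ N) :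
    Module.Finite
        ↥(Qb⟮(⟨h59_hm3 Qb, h59_hm3_mem_bar hrel N h3⟩ : ↥(modularFunctionFieldBar N))⟯)
        ↥(modularFunctionFieldBar N) ∧
      4 * Module.finrank
        ↥(Qb⟮(⟨h59_hm3 Qb, h59_hm3_mem_bar hrel N h3⟩ : ↥(modularFunctionFieldBar N))⟯)
        ↥(modularFunctionFieldBar N) = Nat.card (SL(2, ℤ) ⧸ Gamma0 N) := by
  have hx := h59_hm3_mem_bar hrel N h3
  have hjx : jqModC Qb ∈ Qb⟮h59_hm3 Qb⟯ := by
    rw [← (h59_h3_core hrel).1]
    exact jqModC_mem_full Qb 3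
  have hmul := relfinrank_mul_relfinrank (adjoin_simple_le_iff.2 hjx)
    (adjoin_simple_le_iff.2 hx)
  rw [(h59_h3_core hrel).2] at hmul
  have hN := h78_finrank N
  rw [h59_jbar, h59_finrank_adjoin_subtype, h59_coeffEmb_jq] at hN
  have key : 4 * Module.finrank
        ↥(Qb⟮(⟨h59_hm3 Qb, h59_hm3_mem_bar hrel N h3⟩ : ↥(modularFunctionFieldBar N))⟯)
        ↥(modularFunctionFieldBar N) = Nat.card (SL(2, ℤ) ⧸ Gamma0 N) := by
    rw [h59_finrank_adjoin_subtype, hmul, hN]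
  refine ⟨?_, key⟩
  have hpos : 0 < Nat.card (SL(2, ℤ) ⧸ Gamma0 N) := by
    have := h78_finiteDimensional N
    rw [← h78_finrank N]
    exact Module.finrank_pos
  exact Module.finite_of_finrank_pos (by omega)

end Fermat.Agent.S18
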