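import Mathlib
import Fermat.Agent.S18.h59_HF2
import Fermat.Agent.S18.h59_HF3
import Fermat.Agent.S18.h3_H2
import Fermat.Agent.S18.h24_Hm3Final
import Fermat.Agent.S18.h84_IgusaField
import Fermat.Agent.S18.h54_ModDefs

/-!
# S18, layer MOD, rows HF2 + HF3: unconditional field facts for `h₂`, `h₃`

The statements of `h59_HF2` / `h59_HF3` with their inputs discharged (`h3_hm2_rel`,
`h24_hm3_rel`, `h84_igusa_field`), stated for the landed definitions `h54_hm2`, `h54_hm3`,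
`h54_jk` of `h54_ModDefs`.
-/

set_option autoImplicit false

noncomputable section

namespace Fermat.Agent.S18

open ModularCurve IntermediateField Polynomial CongruenceSubgroup

open scoped MatrixGroups

open Fermat.Agent.S24 Fermat.Agent.S28

local notation "Qb" => AlgebraicClosure ℚ

theorem h59_hm2Rel : h59_Hm2Rel := h3_hm2_rel

theorem h59_hm3Rel : h59_Hm3Rel := h24_hm3_rel

theorem h59_igusaField (N : ℕ) [NeZero N] : h59_IgusaField N := h84_igusa_field N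

/-! ### `h₂` -/

/-- **HF2** `h₂ ∈ F N` for `2 ∣ N`. -/
theorem h59_hm2_mem_bar_final (N : ℕ) [NeZero N] (h2 : 2 ∣ N) :
    h54_hm2 Qb ∈ modularFunctionFieldBar N :=
  h59_hm2_mem_bar h59_hm2Rel N h2

/-- **HF2** `F N` is finite over `Qb(h₂)` and `3 · [F N : Qb(h₂)] = [SL₂(ℤ) : Γ₀(N)]`. -/
theorem h59_h2_finrank_final (N : ℕ) [NeZero N] (h2 : 2 ∣ N) :
    Module.Finite
        ↥(Qb⟮(⟨h54_hm2 Qb, h59_hm2_mem_bar_final N h2⟩ : ↥(modularFunctionFieldBar N))⟯)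
        ↥(modularFunctionFieldBar N) ∧
      3 * Module.finrank
        ↥(Qb⟮(⟨h54_hm2 Qb, h59_hm2_mem_bar_final N h2⟩ : ↥(modularFunctionFieldBar N))⟯)
        ↥(modularFunctionFieldBar N) = Nat.card (SL(2, ℤ) ⧸ Gamma0 N) :=
  h59_h2_finrank h59_hm2Rel N h2

/-- **HF2** `h̄₂ ∈ Fb N` for `2 ∣ N`, in characteristic `ℓ ≠ 2`. -/
theorem h59_h2k_mem_final (k : Type) [Field k] (N : ℕ) [NeZero N] (h2 : 2 ∣ N) {ℓ : ℕ}
    [Fact ℓ.Prime] [CharP k ℓ] (hℓ : ℓ ≠ 2) :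
    h54_hm2 k ∈ modularFunctionFieldFullC k N :=
  h59_h2k_mem h59_hm2Rel (h59_igusaField 2) k N h2 hℓ

/-- **HF2** `h̄₂` is transcendental over the constants. -/
theorem h59_h2k_transcendental_final (k : Type) [Field k] : Transcendental k (h54_hm2 k) :=
  h59_h2k_transcendental k

/-- **HF2** `3 · [Fb N : k(h̄₂)] = [Fb N : k(j̄)]` for `2 ∣ N`, in characteristic `ℓ ≠ 2`. -/
theorem h59_h2k_finrank_final (k : Type) [Field k] (N : ℕ) [NeZero N] (h2 : 2 ∣ N) {ℓ : ℕ}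
    [Fact ℓ.Prime] [CharP k ℓ] (hℓ : ℓ ≠ 2) :
    3 * Module.finrank
        ↥(k⟮(⟨h54_hm2 k, h59_h2k_mem_final k N h2 hℓ⟩ : ↥(modularFunctionFieldFullC k N))⟯)
        ↥(modularFunctionFieldFullC k N)
      = Module.finrank ↥(k⟮h54_jk k N⟯) ↥(modularFunctionFieldFullC k N) :=
  h59_h2k_finrank h59_hm2Rel (h59_igusaField 2) k N h2 hℓ

/-- `F 2 = Qb(h₂)`. -/
theorem h59_bar_two_eq : modularFunctionFieldBar 2 = Qb⟮h54_hm2 Qb⟯ := by
  rw [h59_bar_eq_fullC]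
  exact (h59_h2_core h59_hm2Rel).1

/-- `Fb 2 = k(h̄₂)` in characteristic `ℓ ≠ 2`. -/
theorem h59_fullC_two_eq (k : Type) [Field k] {ℓ : ℕ} [Fact ℓ.Prime] [CharP k ℓ] (hℓ : ℓ ≠ 2) :
    modularFunctionFieldFullC k 2 = k⟮h54_hm2 k⟯ :=
  (h59_h2k_core h59_hm2Rel k (h59_igusaField 2 ℓ (h59_not_dvd_two hℓ) k)).1

/-! ### `h₃` -/

/-- **HF3** `h₃ ∈ F N` for `3 ∣ N`. -/
theorem h59_hm3_mem_bar_final (N : ℕ) [NeZero N] (h3 : 3 ∣ N) :
    h54_hm3 Qb ∈ modularFunctionFieldBar N :=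
  h59_hm3_mem_bar h59_hm3Rel N h3

/-- **HF3** `F N` is finite over `Qb(h₃)` and `4 · [F N : Qb(h₃)] = [SL₂(ℤ) : Γ₀(N)]`. -/
theorem h59_h3_finrank_final (N : ℕ) [NeZero N] (h3 : 3 ∣ N) :
    Module.Finite
        ↥(Qb⟮(⟨h54_hm3 Qb, h59_hm3_mem_bar_final N h3⟩ : ↥(modularFunctionFieldBar N))⟯)
        ↥(modularFunctionFieldBar N) ∧
      4 * Module.finrank
        ↥(Qb⟮(⟨h54_hm3 Qb, h59_hm3_mem_bar_final N h3⟩ : ↥(modularFunctionFieldBar N))⟯)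
        ↥(modularFunctionFieldBar N) = Nat.card (SL(2, ℤ) ⧸ Gamma0 N) :=
  h59_h3_finrank h59_hm3Rel N h3

/-- **HF3** `h̄₃ ∈ Fb N` for `3 ∣ N`, in characteristic `ℓ ≠ 3`. -/
theorem h59_h3k_mem_final (k : Type) [Field k] (N : ℕ) [NeZero N] (h3 : 3 ∣ N) {ℓ : ℕ}
    [Fact ℓ.Prime] [CharP k ℓ] (hℓ : ℓ ≠ 3) :
    h54_hm3 k ∈ modularFunctionFieldFullC k N :=
  h59_h3k_mem h59_hm3Rel (h59_igusaField 3) k N h3 hℓ

/-- **HF3** `h̄₃` is transcendental over the constants. -/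
theorem h59_h3k_transcendental_final (k : Type) [Field k] : Transcendental k (h54_hm3 k) :=
  h59_h3k_transcendental k

/-- **HF3** `4 · [Fb N : k(h̄₃)] = [Fb N : k(j̄)]` for `3 ∣ N`, in characteristic `ℓ ≠ 3`. -/
theorem h59_h3k_finrank_final (k : Type) [Field k] (N : ℕ) [NeZero N] (h3 : 3 ∣ N) {ℓ : ℕ}
    [Fact ℓ.Prime] [CharP k ℓ] (hℓ : ℓ ≠ 3) :
    4 * Module.finrank
        ↥(k⟮(⟨h54_hm3 k, h59_h3k_mem_final k N h3 hℓ⟩ : ↥(modularFunctionFieldFullC k N))⟯)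
        ↥(modularFunctionFieldFullC k N)
      = Module.finrank ↥(k⟮h54_jk k N⟯) ↥(modularFunctionFieldFullC k N) :=
  h59_h3k_finrank h59_hm3Rel (h59_igusaField 3) k N h3 hℓ

/-- `F 3 = Qb(h₃)`. -/
theorem h59_bar_three_eq : modularFunctionFieldBar 3 = Qb⟮h54_hm3 Qb⟯ := by
  rw [h59_bar_eq_fullC]
  exact (h59_h3_core h59_hm3Rel).1

/-- `Fb 3 = k(h̄₃)` in characteristic `ℓ ≠ 3`. -/
theorem h59_fullC_three_eq (k : Type) [Field k] {ℓ : ℕ} [Fact ℓ.Prime] [CharP k ℓ]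
    (hℓ : ℓ ≠ 3) : modularFunctionFieldFullC k 3 = k⟮h54_hm3 k⟯ :=
  (h59_h3k_core h59_hm3Rel k (h59_igusaField 3 ℓ (h59_not_dvd_three hℓ) k)).1

end Fermat.Agent.S18
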