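/-
S18, layer MOD, row 315 MOD-IG-B (helper69): power basis in characteristic zero.
Every element of `F N = modularFunctionFieldBar N` is `(∑_{i<n} p_i(j) j_N^i) / q(j)` with
`n = [SL₂(ℤ) : Γ₀(N)]`, `j_N = j(q^N)`.

Proof: the `n` local expansions `σ_x : F →+* ℂ((u))` of S24 agree on `Qb(j)` and take pairwise
distinct values at `j_N`; so the minimal polynomial of `j_N` over `Qb(j)` has degree `≥ n = [F : Qb(j)]`.
-/
import Mathlib
import Fermat.Prelude.Def_ModularCurve_ArithmeticGalois
import Fermat.Prelude.Def_ModularCurve_X0ModL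
import Fermat.Prelude.Thm_ModularCurve_coeffMap_qExpand
import Fermat.Agent.S24.h78_Fibres

set_option autoImplicit false
set_option synthInstance.maxHeartbeats 400000

noncomputable section

open ModularCurve AlgebraicCurve IntermediateField CongruenceSubgroup UpperHalfPlane
open scoped MatrixGroups

namespace Fermat.Agent.S18

open Fermat.Agent.S24

local notation "Qb" => AlgebraicClosure ℚ

/-- Generic: if `card Q = [F : E]` ring homs `σ_x : F →+* M` agree on `E` and take pairwise
distinct values at `θ`, then `1, θ, …, θ^(n-1)` span `F` over `E`. -/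
theorem h69_powerBasis_of_conj {E F M : Type*} [Field E] [Field F] [Field M] [Algebra E F]
    [FiniteDimensional E F] {Q : Type*} [Fintype Q] (σ : Q → F →+* M)
    (hE : ∀ (x y : Q) (e : E), σ x (algebraMap E F e) = σ y (algebraMap E F e))
    (θ : F) (hθ : Function.Injective fun x => σ x θ)
    (hcard : Fintype.card Q = Module.finrank E F) (f : F) :
    ∃ c : Fin (Fintype.card Q) → E, f = ∑ i, algebraMap E F (c i) * θ ^ (i : ℕ) := by
  classical
  have hint : IsIntegral E θ := IsIntegral.of_finite E θ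
  have hP0 : minpoly E θ ≠ 0 := minpoly.ne_zero hint
  -- the minimal polynomial of `θ` has at least `card Q` roots in `M`
  have hdeg : Fintype.card Q ≤ (minpoly E θ).natDegree := by
    rcases isEmpty_or_nonempty Q with hQ | ⟨⟨x₀⟩⟩
    · rw [Fintype.card_eq_zero]; exact Nat.zero_le _
    let φ : E →+* M := (σ x₀).comp (algebraMap E F)
    have hroot : ∀ x, ((minpoly E θ).map φ).IsRoot (σ x θ) := by
      intro x
      have hφ : (σ x).comp (algebraMap E F) = φ := RingHom.ext fun e => hE x x₀ e
      rw [Polynomial.IsRoot.def, Polynomial.eval_map, ← hφ, ← Polynomial.hom_eval₂,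
        ← Polynomial.aeval_def, minpoly.aeval, map_zero]
    have hPφ : (minpoly E θ).map φ ≠ 0 := (Polynomial.map_ne_zero_iff φ.injective).2 hP0
    have hsub : (Finset.univ.image fun x => σ x θ).val ⊆ ((minpoly E θ).map φ).roots := by
      intro z hz
      rw [Finset.mem_val, Finset.mem_image] at hz
      obtain ⟨x, -, rfl⟩ := hz
      exact (Polynomial.mem_roots hPφ).2 (hroot x)
    have h := Polynomial.card_le_degree_of_subset_roots hsub
    rw [Finset.card_image_of_injective _ hθ, Finset.card_univ, Polynomial.natDegree_map] at h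
    exact h
  have hli : LinearIndependent E fun i : Fin (Fintype.card Q) => θ ^ (i : ℕ) :=
    (linearIndependent_pow θ).comp (Fin.castLE hdeg) (Fin.castLE_injective hdeg)
  have hspan := hli.span_eq_top_of_card_eq_finrank' (by rw [Fintype.card_fin, hcard])
  have hf : f ∈ Submodule.span E (Set.range fun i : Fin (Fintype.card Q) => θ ^ (i : ℕ)) := by
    rw [hspan]; trivial
  obtain ⟨c, hc⟩ := (Submodule.mem_span_range_iff_exists_fun E).1 hf
  refine ⟨c, ?_⟩
  rw [← hc]
  refine Finset.sum_congr rfl fun i _ => ?_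
  rw [Algebra.smul_def]

/-- Generic: clearing denominators of finitely many elements of `K(t)`. -/
theorem h69_clear_denominators {K F : Type*} [Field K] [Field F] [Algebra K F] (t : F)
    {n : ℕ} (c : Fin n → K⟮t⟯) :
    ∃ (p : Fin n → Polynomial K) (q : Polynomial K), Polynomial.aeval t q ≠ 0 ∧
      ∀ i, Polynomial.aeval t q * (c i : F) = Polynomial.aeval t (p i) := by
  classical
  have hex : ∀ i, ∃ r s : Polynomial K, Polynomial.aeval t s ≠ 0 ∧
      (c i : F) * Polynomial.aeval t s = Polynomial.aeval t r := by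
    intro i
    obtain ⟨r, s, hrs⟩ := (IntermediateField.mem_adjoin_simple_iff K (c i : F)).1 (c i).2
    by_cases hs : Polynomial.aeval t s = 0
    · refine ⟨0, 1, by simp, ?_⟩
      rw [hrs, hs, div_zero, zero_mul, map_zero]
    · exact ⟨r, s, hs, by rw [hrs, div_mul_cancel₀ _ hs]⟩
  choose r s hs hrs using hex
  refine ⟨fun i => r i * ∏ k ∈ Finset.univ.erase i, s k, ∏ k, s k, ?_, ?_⟩
  · rw [map_prod]
    exact Finset.prod_ne_zero_iff.2 fun k _ => hs k
  · intro i
    rw [← Finset.mul_prod_erase Finset.univ s (Finset.mem_univ i), map_mul, map_mul, ← hrs i]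
    ring

section Modular

variable (N : ℕ) [NeZero N]

/-- `j_N = j(q^N)` as an element of `A_N`. -/
def h69_jNA : h78_AN Qb N :=
  ⟨coeffEmb Qb (qExpand ℚ N jq), h78_gens_subset_AN Qb N (h78_mem_gens Qb dvd_rfl)⟩

/-- `j_N = j(q^N)` as an element of the function field. -/
def h69_jN : ↥(modularFunctionFieldBar N) :=
  algebraMap (h78_AN Qb N) ↥(modularFunctionFieldBar N) (h69_jNA N)

theorem h69_coeffEmb_jq : coeffEmb Qb jq = jqModC Qb := by
  show coeffMap (algebraMap ℚ Qb) (jqModC ℚ) = jqModC Qb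
  exact coeffMap_jqModC _

theorem h69_coe_jN :
    ((h69_jN N : ↥(modularFunctionFieldBar N)) : LaurentSeries Qb) = qExpand Qb N (jqModC Qb) := by
  show coeffEmb Qb (qExpand ℚ N jq) = _
  rw [← h69_coeffEmb_jq]
  exact coeffMap_qExpand _ N jq

omit [NeZero N] in
theorem h69_coe_jbar :
    ((h59_jbar N : ↥(modularFunctionFieldBar N)) : LaurentSeries Qb) = jqModC Qb := by
  rw [h59_coe_jbar, h69_coeffEmb_jq]

/-- The local expansions at `τ₀` of the conjugates take pairwise distinct values at `j_N`. -/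
theorem h69_sigma_jN_injective (ι : Qb →+* ℂ) (τ₀ : ℍ) :
    Function.Injective fun x : SL(2, ℤ) ⧸ Gamma0 N => h54_sigma ι N τ₀ x (h69_jN N) := by
  intro x y h
  induction x using QuotientGroup.induction_on with
  | H g =>
    induction y using QuotientGroup.induction_on with
    | H g' =>
      have h' : h54_ptX (h54_evData ι N) τ₀ (g : SL(2, ℤ) ⧸ Gamma0 N) (h69_jN N)
          = h54_ptX (h54_evData ι N) τ₀ (g' : SL(2, ℤ) ⧸ Gamma0 N) (h69_jN N) := h
      rw [h54_ptX_mk, h54_ptX_mk] at h'
      have h1 : h54_pt (F := ↥(modularFunctionFieldBar N)) (h54_evData ι N) g τ₀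
            (algebraMap (h78_AN Qb N) ↥(modularFunctionFieldBar N) (h69_jNA N))
          = h54_pt (h54_evData ι N) g' τ₀
            (algebraMap (h78_AN Qb N) ↥(modularFunctionFieldBar N) (h69_jNA N)) := h'
      rw [h54_pt_algebraMap, h54_pt_algebraMap] at h1
      have h2 := h54_ofPS_injective h1
      have h3 := h54_taylor_injective (h54_conjA_mdiff (h54_evData ι N) g (h69_jNA N))
        (h54_conjA_mdiff (h54_evData ι N) g' (h69_jNA N)) τ₀ h2
      have h4 : ∀ τ : ℍ, h54_ev ι N ⟨coeffEmb Qb (qExpand ℚ N jq),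
            h78_gens_subset_AN Qb N (h78_mem_gens Qb dvd_rfl)⟩ (g⁻¹ • τ)
          = h54_ev ι N ⟨coeffEmb Qb (qExpand ℚ N jq),
            h78_gens_subset_AN Qb N (h78_mem_gens Qb dvd_rfl)⟩ (g'⁻¹ • τ) :=
        fun τ => congrFun h3 τ
      rw [h54_ev_gen] at h4
      have hN : 0 < N := Nat.pos_of_ne_zero (NeZero.ne N)
      have h5 := (h64_conj_eq_conj_iff_mem h54_j_smul h54_j_leadOne hN g⁻¹ g'⁻¹).mp h4
      rw [inv_inv] at h5
      exact QuotientGroup.eq.mpr h5

/-- **IG-B** power basis in characteristic zero: every element of `F N` is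
`(∑_{i<n} p_i(j) j_N^i) / q(j)`, `n = [SL₂(ℤ) : Γ₀(N)]`. -/
theorem h69_exists_repr (f : ↥(modularFunctionFieldBar N)) :
    ∃ (p : Fin (Nat.card (SL(2, ℤ) ⧸ Gamma0 N)) → Polynomial Qb) (q : Polynomial Qb), q ≠ 0 ∧
      Polynomial.aeval (jqModC Qb) q * (f : LaurentSeries Qb)
        = ∑ i, Polynomial.aeval (jqModC Qb) (p i) * qExpand Qb N (jqModC Qb) ^ (i : ℕ) := by
  classical
  let _ : Fintype (SL(2, ℤ) ⧸ Gamma0 N) := Fintype.ofFinite _
  have := h78_finiteDimensional N
  have hcard : Fintype.card (SL(2, ℤ) ⧸ Gamma0 N)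
      = Module.finrank Qb⟮h59_jbar N⟯ ↥(modularFunctionFieldBar N) := by
    rw [h78_finrank N, Nat.card_eq_fintype_card]
  have hE : ∀ (x y : SL(2, ℤ) ⧸ Gamma0 N) (e : Qb⟮h59_jbar N⟯),
      h54_sigma h78_iota N UpperHalfPlane.I x
          (algebraMap Qb⟮h59_jbar N⟯ ↥(modularFunctionFieldBar N) e)
        = h54_sigma h78_iota N UpperHalfPlane.I y
          (algebraMap Qb⟮h59_jbar N⟯ ↥(modularFunctionFieldBar N) e) := by
    intro x y e
    exact h54_sigma_eqOn_adjoin h78_iota N UpperHalfPlane.I x y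
      (show ((e : ↥(modularFunctionFieldBar N))) ∈
        IntermediateField.adjoin Qb {h78_j Qb N} from e.2)
  obtain ⟨c, hc⟩ := h69_powerBasis_of_conj (E := Qb⟮h59_jbar N⟯)
    (σ := h54_sigma h78_iota N UpperHalfPlane.I) hE (h69_jN N)
    (h69_sigma_jN_injective N h78_iota UpperHalfPlane.I) hcard f
  obtain ⟨p, q, hq, hpq⟩ := h69_clear_denominators (h59_jbar N) c
  have hn : Nat.card (SL(2, ℤ) ⧸ Gamma0 N) = Fintype.card (SL(2, ℤ) ⧸ Gamma0 N) :=
    Nat.card_eq_fintype_card
  -- the identity in `F`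
  have key : Polynomial.aeval (h59_jbar N) q * f
      = ∑ i, Polynomial.aeval (h59_jbar N) (p i) * h69_jN N ^ (i : ℕ) := by
    rw [hc, Finset.mul_sum]
    refine Finset.sum_congr rfl fun i _ => ?_
    rw [← mul_assoc]
    congr 1
    exact hpq i
  -- coerce to Laurent series
  have hval : ∀ P : Polynomial Qb,
      ((Polynomial.aeval (h59_jbar N) P : ↥(modularFunctionFieldBar N)) : LaurentSeries Qb)
        = Polynomial.aeval (jqModC Qb) P := by
    intro P
    have h := Polynomial.aeval_algHom_apply (modularFunctionFieldBar N).val (h59_jbar N) P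
    rw [← h69_coe_jbar N]
    exact h.symm
  have key' := congrArg (fun z : ↥(modularFunctionFieldBar N) => (z : LaurentSeries Qb)) key
  simp only [MulMemClass.coe_mul, AddSubmonoidClass.coe_finsetSum, SubmonoidClass.coe_pow,
    hval, h69_coe_jN] at key'
  refine ⟨fun i => p (Fin.cast hn i), q, ?_, ?_⟩
  · rintro rfl
    exact hq (by simp)
  · rw [key']
    exact (Fintype.sum_equiv (finCongr hn) _ _ (fun i => rfl)).symm

end Modular

end Fermat.Agent.S18
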