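import Fermat.Agent.S18.h9_RedDatum
import Fermat.Agent.S18.h54_ModCharts
import Fermat.Agent.S18.h3_ChartH
import Fermat.Agent.S18.h59_HFFinal
import Fermat.Agent.S18.h84_IgusaField
import Fermat.Agent.S18.h69_PowerBasis
import Fermat.Agent.S18.h19_ResField

/-!
# S18 / MOD: the exports consumed by the final assembly (wrapper, owner helper39)

`h39_modRed N hℓN A hA` : the reduction datum of level `N` at `A`, with
* `h39_modRed_spec` : its characterisation `h54_IsModRed`;
* `h39_modRed_weakChart_j` : `j` is a weak chart (every `ℓ ∤ N`);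
* `h39_modRed_chart_j` : `j` is a chart for `ℓ ≥ 5`;
* `h39_modRed_chart_h2`, `h39_modRed_chart_h3` : the Hauptmodul charts when `2 ∣ N`, `3 ∣ N`.
-/

set_option autoImplicit false
set_option synthInstance.maxHeartbeats 400000

noncomputable section

open AlgebraicCurve IntermediateField ModularCurve HahnSeries CongruenceSubgroup
open scoped MatrixGroups

namespace Fermat.Agent.S18

open Fermat.Agent.S24 Fermat.Agent.S28

local notation "Qb" => AlgebraicClosure ℚ

section

variable (N : ℕ) [NeZero N] {ℓ : ℕ} [Fact ℓ.Prime] (hℓN : ¬ ℓ ∣ N)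
  (A : ValuationSubring Qb) (hA : A.LiesOverPrime ℓ)

include hℓN hA in
theorem h39_exists_modRed :
    ∃ R : h39_RedDatum Qb ↥(modularFunctionFieldBar N) (IsLocalRing.ResidueField A)
        ↥(modularFunctionFieldFullC (IsLocalRing.ResidueField A) N), h54_IsModRed N A R := by
  obtain ⟨R, h1, h2, h3, h4⟩ := h9_exists_redDatum N A hA
    (fun k _ _ H hH hdeg => h84_igusa_field N ℓ hℓN k H hH hdeg) (h69_exists_repr N)
  exact ⟨R, ⟨h1, h2, h3, h4⟩⟩

/-- The reduction datum of level `N` at `A`. -/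
def h39_modRed : h39_RedDatum Qb ↥(modularFunctionFieldBar N) (IsLocalRing.ResidueField A)
    ↥(modularFunctionFieldFullC (IsLocalRing.ResidueField A) N) :=
  (h39_exists_modRed N hℓN A hA).choose

theorem h39_modRed_spec : h54_IsModRed N A (h39_modRed N hℓN A hA) :=
  (h39_exists_modRed N hℓN A hA).choose_spec

include hℓN hA in
theorem h39_mod_finrank_fb :
    Module.finrank (IsLocalRing.ResidueField A)⟮h54_jk (IsLocalRing.ResidueField A) N⟯
        ↥(modularFunctionFieldFullC (IsLocalRing.ResidueField A) N)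
      = Nat.card (SL(2, ℤ) ⧸ Gamma0 N) :=
  h9_finrank_fb N A hA (fun k _ _ H hH hdeg => h84_igusa_field N ℓ hℓN k H hH hdeg)
    (h69_exists_repr N)

include hℓN hA in
theorem h39_mod_separable_fb :
    Algebra.IsSeparable (IsLocalRing.ResidueField A)⟮h54_jk (IsLocalRing.ResidueField A) N⟯
        ↥(modularFunctionFieldFullC (IsLocalRing.ResidueField A) N) := by
  have hk : IsAlgClosed (IsLocalRing.ResidueField A) := h19_residueField_isAlgClosed A
  have hc : CharP (IsLocalRing.ResidueField A) ℓ := h19_residueField_charP A ℓ hA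
  exact h54_separable_fb_of N ℓ hℓN (IsLocalRing.ResidueField A) (h39_mod_finrank_fb N hℓN A hA)

/-- `j` is a weak chart at every level prime to `ℓ`. -/
theorem h39_modRed_weakChart_j : h39_WeakChart (h39_modRed N hℓN A hA) (h59_jbar N) := by
  have h := h39_modRed_spec N hℓN A hA
  have hred := h54_redF_jbar h
  refine ⟨h.mem_of_integral _ _ (h54_coe_jbar N A), ?_, h78_finiteDimensional N, ?_, ?_⟩
  · rw [hred]
    exact h54_jk_transcendental _ N
  · rw [hred, h39_mod_finrank_fb N hℓN A hA, h78_finrank]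
  · rw [hred]
    exact h39_mod_separable_fb N hℓN A hA

/-- `j` is a chart for `ℓ ≥ 5`. -/
theorem h39_modRed_chart_j (hℓ : 5 ≤ ℓ) : h39_Chart (h39_modRed N hℓN A hA) (h59_jbar N) :=
  h54_chart_j_of N hℓ A hA (h39_modRed_spec N hℓN A hA) (h39_mod_finrank_fb N hℓN A hA)
    (h39_mod_separable_fb N hℓN A hA)

/-- the Hauptmodul `h₂` is a chart when `2 ∣ N`. -/
theorem h39_modRed_chart_h2 (h2 : 2 ∣ N) :
    ∃ x : ↥(modularFunctionFieldBar N), h39_Chart (h39_modRed N hℓN A hA) x := by
  have hℓ2 : ℓ ≠ 2 := by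
    rintro rfl
    exact hℓN h2
  have hc : CharP (IsLocalRing.ResidueField A) ℓ := h19_residueField_charP A ℓ hA
  exact ⟨⟨h54_hm2 Qb, h59_hm2_mem_bar_final N h2⟩,
    h3_chart_h2_of N hℓ2 A hA (h39_modRed_spec N hℓN A hA) _ rfl
      (h59_h2k_mem_final (IsLocalRing.ResidueField A) N h2 hℓ2)
      (h59_h2_finrank_final N h2).1 (h59_h2_finrank_final N h2).2
      (h59_h2k_finrank_final (IsLocalRing.ResidueField A) N h2 hℓ2)
      (h39_mod_finrank_fb N hℓN A hA) (h39_mod_separable_fb N hℓN A hA)⟩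

/-- the Hauptmodul `h₃` is a chart when `3 ∣ N`. -/
theorem h39_modRed_chart_h3 (h3 : 3 ∣ N) :
    ∃ x : ↥(modularFunctionFieldBar N), h39_Chart (h39_modRed N hℓN A hA) x := by
  have hℓ3 : ℓ ≠ 3 := by
    rintro rfl
    exact hℓN h3
  have hc : CharP (IsLocalRing.ResidueField A) ℓ := h19_residueField_charP A ℓ hA
  exact ⟨⟨h54_hm3 Qb, h59_hm3_mem_bar_final N h3⟩,
    h3_chart_h3_of N hℓ3 A hA (h39_modRed_spec N hℓN A hA) _ rfl
      (h59_h3k_mem_final (IsLocalRing.ResidueField A) N h3 hℓ3)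
      (h59_h3_finrank_final N h3).1 (h59_h3_finrank_final N h3).2
      (h59_h3k_finrank_final (IsLocalRing.ResidueField A) N h3 hℓ3)
      (h39_mod_finrank_fb N hℓN A hA) (h39_mod_separable_fb N hℓN A hA)⟩

end

end Fermat.Agent.S18

end
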