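import Mathlib
import Fermat.Agent.S18.Defs

/-!
# S18 [GR] row GR2: orthonormal `K(x)`-basis of `F` (core, helper44)

Setting: `R : h39_RedDatum K F k Fb`, `x` a weak chart.  Taking as a hypothesis the Gauss lemma
(row GR1: the reduction of an element of `K(x) ∩ O` lies in `k(x̄)`), we lift a `k(x̄)`-basis of
`Fb` through `red` and show that the lifts form a `K(x)`-basis of `F` which is *orthonormal*:
`v (∑ cᵢ bᵢ) = maxᵢ v cᵢ`.  In particular `f ∈ O` iff all its coordinates are in `O`.
-/

set_option autoImplicit false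

noncomputable section

open AlgebraicCurve IntermediateField

namespace Fermat.Agent.S18

variable {K F k Fb : Type*} [Field K] [Field F] [Algebra K F] [Field k] [Field Fb] [Algebra k Fb]

/-- The kernel of `red` is the maximal ideal of `O`. -/
theorem h44_red_eq_zero_iff (R : h39_RedDatum K F k Fb) (y : R.O) :
    R.red y = 0 ↔ R.O.valuation (y : F) < 1 := by
  rw [← ValuationSubring.valuation_lt_one_iff, ← IsLocalRing.ker_eq_maximalIdeal R.red
    R.red_surjective, RingHom.mem_ker]

/-- Orthonormality: if the reductions of the `b i ∈ O` are `k(x̄)`-independent, then a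
`K(x)`-combination `∑ cᵢ bᵢ` has the valuation of any coefficient of maximal valuation. -/
theorem h44_val_sum (R : h39_RedDatum K F k Fb) (x : F)
    (hG : ∀ c : K⟮x⟯, (c : F) ∈ R.O → R.redF (c : F) ∈ k⟮R.redF x⟯)
    {ι : Type*} [Fintype ι] (b : ι → F) (hb : ∀ i, b i ∈ R.O)
    (hli : LinearIndependent k⟮R.redF x⟯ (fun i => R.redF (b i)))
    (c : ι → K⟮x⟯) (j : ι) (hj : c j ≠ 0)
    (hmax : ∀ i, R.O.valuation (c i : F) ≤ R.O.valuation (c j : F)) :
    R.O.valuation (∑ i, c i • b i) = R.O.valuation (c j : F) := by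
  classical
  have hjF : (c j : F) ≠ 0 := by
    intro h
    exact hj (Subtype.ext h)
  have hvj : R.O.valuation (c j : F) ≠ 0 := by
    rw [Ne, Valuation.zero_iff]
    exact hjF
  -- the normalised coefficients
  have hd : ∀ i, ((c i / c j : K⟮x⟯) : F) ∈ R.O := by
    intro i
    rw [← ValuationSubring.valuation_le_one_iff]
    push_cast
    rw [map_div₀]
    exact div_le_one_of_le₀ (hmax i) zero_le
  -- their reductions lie in `k(x̄)`
  have he : ∀ i, ∃ e : k⟮R.redF x⟯, (e : Fb) = R.red ⟨((c i / c j : K⟮x⟯) : F), hd i⟩ := by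
    intro i
    have h := hG (c i / c j) (hd i)
    rw [R.redF_of_mem (hd i)] at h
    exact ⟨⟨_, h⟩, rfl⟩
  choose e he using he
  -- the normalised sum
  set g : R.O := ∑ i, (⟨((c i / c j : K⟮x⟯) : F), hd i⟩ : R.O) * ⟨b i, hb i⟩ with hg
  have hgF : (g : F) * (c j : F) = ∑ i, c i • b i := by
    rw [hg, AddSubmonoidClass.coe_finsetSum, Finset.sum_mul]
    refine Finset.sum_congr rfl fun i _ => ?_
    rw [Algebra.smul_def]
    push_cast
    rw [IntermediateField.algebraMap_apply]
    field_simp
  have hredg : R.red g = ∑ i, e i • R.redF (b i) := by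
    rw [hg, map_sum]
    refine Finset.sum_congr rfl fun i _ => ?_
    rw [map_mul, ← he i, R.redF_of_mem (hb i), Algebra.smul_def]
    rfl
  have hne : R.red g ≠ 0 := by
    intro h0
    rw [hredg] at h0
    have hej := (Fintype.linearIndependent_iff.mp hli) e h0 j
    have h1 : (e j : Fb) = 1 := by
      rw [he j]
      have : (⟨((c j / c j : K⟮x⟯) : F), hd j⟩ : R.O) = 1 := by
        apply Subtype.ext
        simp [div_self hj]
      rw [this, map_one]
    rw [hej] at h1
    simp at h1
  have hvg : R.O.valuation (g : F) = 1 := by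
    refine le_antisymm ((R.O.valuation_le_one_iff _).mpr g.2) (not_lt.mp ?_)
    intro hlt
    exact hne ((h44_red_eq_zero_iff R g).mpr hlt)
  rw [← hgF, map_mul, hvg, one_mul]

/-- GR2 with the Gauss lemma (GR1) as a hypothesis: an orthonormal `K(x)`-basis of `F`. -/
theorem h44_exists_basis_of_gauss (R : h39_RedDatum K F k Fb) (x : F) (hx : h39_WeakChart R x)
    (hG : ∀ c : K⟮x⟯, (c : F) ∈ R.O → R.redF (c : F) ∈ k⟮R.redF x⟯) :
    ∃ b : Module.Basis (Fin (Module.finrank K⟮x⟯ F)) K⟮x⟯ F,
      (∀ i, b i ∈ R.O) ∧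
      LinearIndependent k⟮R.redF x⟯ (fun i => R.redF (b i)) ∧
      (∀ (c : Fin (Module.finrank K⟮x⟯ F) → K⟮x⟯) (j : Fin (Module.finrank K⟮x⟯ F)),
        c j ≠ 0 → (∀ i, R.O.valuation (c i : F) ≤ R.O.valuation (c j : F)) →
        R.O.valuation (∑ i, c i • b i) = R.O.valuation (c j : F)) ∧
      ∀ f : F, f ∈ R.O ↔ ∀ i, ((b.repr f i : K⟮x⟯) : F) ∈ R.O := by
  classical
  have := hx.finite
  set n := Module.finrank K⟮x⟯ F with hn
  have hnpos : 0 < n := Module.finrank_pos
  have : Module.Finite k⟮R.redF x⟯ Fb :=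
    Module.finite_of_finrank_pos (by rw [hx.finrank_eq]; exact hnpos)
  have : Nonempty (Fin n) := ⟨⟨0, hnpos⟩⟩
  -- a basis of the residue extension and its lift
  let β : Module.Basis (Fin n) k⟮R.redF x⟯ Fb := Module.finBasisOfFinrankEq _ _ hx.finrank_eq
  have hlift : ∀ i, ∃ y : R.O, R.red y = β i := fun i => R.red_surjective (β i)
  choose y hy using hlift
  set b0 : Fin n → F := fun i => (y i : F) with hb0
  have hb0mem : ∀ i, b0 i ∈ R.O := fun i => (y i).2
  have hred : (fun i => R.redF (b0 i)) = β := by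
    funext i
    rw [R.redF_of_mem (hb0mem i)]
    exact hy i
  have hli : LinearIndependent k⟮R.redF x⟯ (fun i => R.redF (b0 i)) := by
    rw [hred]
    exact β.linearIndependent
  have hval := h44_val_sum R x hG b0 hb0mem hli
  -- existence of a coefficient of maximal valuation
  have hexmax : ∀ c : Fin n → K⟮x⟯, ∃ j, ∀ i, R.O.valuation (c i : F) ≤ R.O.valuation (c j : F) := by
    intro c
    obtain ⟨j, hj⟩ := Finite.exists_max (fun i => R.O.valuation (c i : F))
    exact ⟨j, hj⟩
  -- linear independence over `K(x)`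
  have hliK : LinearIndependent K⟮x⟯ b0 := by
    rw [Fintype.linearIndependent_iff]
    intro c hc i
    obtain ⟨j, hj⟩ := hexmax c
    by_contra hi
    have hcj : c j ≠ 0 := by
      intro h0
      have h1 := hj i
      rw [h0] at h1
      simp only [ZeroMemClass.coe_zero, map_zero, nonpos_iff_eq_zero, Valuation.zero_iff] at h1
      exact hi (Subtype.ext h1)
    have h2 := hval c j hcj hj
    rw [hc, map_zero] at h2
    have h3 : (c j : F) = 0 := by
      rw [← Valuation.zero_iff R.O.valuation]
      exact h2.symm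
    exact hcj (Subtype.ext h3)
  let b : Module.Basis (Fin n) K⟮x⟯ F :=
    basisOfLinearIndependentOfCardEqFinrank hliK (by simp [hn])
  have hbb : ∀ i, b i = b0 i := fun i => by
    simp [b]
  refine ⟨b, fun i => by rw [hbb]; exact hb0mem i, ?_, ?_, ?_⟩
  · have : (fun i => R.redF (b i)) = fun i => R.redF (b0 i) := by
      funext i
      rw [hbb]
    rw [this]
    exact hli
  · intro c j hcj hj
    have : ∑ i, c i • b i = ∑ i, c i • b0 i :=
      Finset.sum_congr rfl fun i _ => by rw [hbb]
    rw [this]
    exact hval c j hcj hj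
  · intro f
    have hf : f = ∑ i, b.repr f i • b0 i := by
      conv_lhs => rw [← b.sum_repr f]
      exact Finset.sum_congr rfl fun i _ => by rw [hbb]
    constructor
    · intro hfO i
      obtain ⟨j, hj⟩ := hexmax (fun i => b.repr f i)
      by_cases hcj : b.repr f j = 0
      · have h1 := hj i
        rw [hcj] at h1
        simp only [ZeroMemClass.coe_zero, map_zero, nonpos_iff_eq_zero, Valuation.zero_iff] at h1
        rw [h1]
        exact zero_mem _
      · have h2 := hval (fun i => b.repr f i) j hcj hj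
        rw [← hf] at h2
        rw [← ValuationSubring.valuation_le_one_iff]
        exact (hj i).trans (h2 ▸ (R.O.valuation_le_one_iff _).mpr hfO)
    · intro h
      rw [hf]
      refine sum_mem fun i _ => ?_
      rw [Algebra.smul_def]
      exact mul_mem (h i) (hb0mem i)

end Fermat.Agent.S18

end
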