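import Fermat.Agent.S18.GR_Gauss
import Fermat.Agent.S18.h44_BasisCore

/-!
# S18 / GR2 : `O = ⊕ (K(x) ∩ O) bᵢ` — an orthonormal `K(x)`-basis of `F`

The statement of section GR2 of the GOODRED skeleton, for a weak chart `x`
(`hx : h39_WeakChart R x` is an explicit hypothesis, after `R`).
The proof is in `h44_BasisCore.lean` (with the Gauss lemma of GR1 as a hypothesis).
-/

set_option autoImplicit false

noncomputable section

open AlgebraicCurve IntermediateField Polynomial

namespace Fermat.Agent.S18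

variable {K F k Fb : Type*} [Field K] [Field F] [Algebra K F] [Field k] [Field Fb] [Algebra k Fb]

section GR2

variable (R : h39_RedDatum K F k Fb) {x : F} (hx : h39_WeakChart R x)

include hx

/-- GR2 with the orthonormality statement made explicit: lifts of a `k(x̄)`-basis of `Fb` form a
`K(x)`-basis `b` of `F` such that `v (∑ cᵢ bᵢ) = v (c j)` whenever `c j ≠ 0` has maximal
valuation among the coefficients. -/
theorem h44_exists_basis_on :
    ∃ b : Module.Basis (Fin (Module.finrank K⟮x⟯ F)) K⟮x⟯ F,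
      (∀ i, b i ∈ R.O) ∧
      LinearIndependent k⟮R.redF x⟯ (fun i => R.redF (b i)) ∧
      (∀ (c : Fin (Module.finrank K⟮x⟯ F) → K⟮x⟯) (j : Fin (Module.finrank K⟮x⟯ F)),
        c j ≠ 0 → (∀ i, R.O.valuation (c i : F) ≤ R.O.valuation (c j : F)) →
        R.O.valuation (∑ i, c i • b i) = R.O.valuation (c j : F)) ∧
      ∀ f : F, f ∈ R.O ↔ ∀ i, ((b.repr f i : K⟮x⟯) : F) ∈ R.O :=
  h44_exists_basis_of_gauss R x hx (fun c _ => h39_gauss_redF_mem R hx (c : F) c.2)

/-- lifts of a `k(x̄)`-basis of `Fb` form a `K(x)`-basis of `F` which is orthonormal: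
`f ∈ O` iff all its coordinates lie in `O`. -/
theorem h39_exists_basis :
    ∃ b : Module.Basis (Fin (Module.finrank K⟮x⟯ F)) K⟮x⟯ F,
      (∀ i, b i ∈ R.O) ∧
      LinearIndependent k⟮R.redF x⟯ (fun i => R.redF (b i)) ∧
      ∀ f : F, f ∈ R.O ↔ ∀ i, ((b.repr f i : K⟮x⟯) : F) ∈ R.O := by
  obtain ⟨b, h1, h2, _, h4⟩ := h44_exists_basis_on R hx
  exact ⟨b, h1, h2, h4⟩

end GR2

end Fermat.Agent.S18

end
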