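import Fermat.Agent.S18.h89_GaussCore
import Fermat.Agent.S18.h75_RRDefs

/-!
# S18 / GR1 : `R.O` restricted to `K(x)` is the Gauss valuation ring

The statements of section GR1 of the GOODRED skeleton, for a weak chart `x`
(`hx : h39_WeakChart R x` is an explicit hypothesis of every statement, after `R`).
The proofs are in `h89_GaussCore.lean`.
-/

set_option autoImplicit false

noncomputable section

open AlgebraicCurve IntermediateField Polynomial

namespace Fermat.Agent.S18

variable {K F k Fb : Type*} [Field K] [Field F] [Algebra K F] [Field k] [Field Fb] [Algebra k Fb]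

section GR1

variable (R : h39_RedDatum K F k Fb) {x : F} (hx : h39_WeakChart R x)

include hx

/-- a polynomial in `x` lies in `O` iff its coefficients lie in `A`
(scale by the coefficient of largest norm; the reduction of a primitive polynomial is nonzero
because `x̄` is transcendental). -/
theorem h39_gauss_mem_iff (p : K[X]) : aeval x p ∈ R.O ↔ ∀ i, p.coeff i ∈ R.A :=
  h89_gauss_mem_iff R hx.mem hx.transcendental p

/-- reduction of polynomials in `x` with integral coefficients -/
theorem h39_gauss_red (p : Polynomial R.A) :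
    R.redF (aeval x (p.map (algebraMap R.A K))) = aeval (R.redF x) (p.map R.res) :=
  h89_gauss_red R hx.mem p

/-- an element of `K(x) ∩ O` is a quotient `p(x)/q(x)` with `p, q ∈ A[X]`, `q̄ ≠ 0` -/
theorem h39_gauss_ratfunc (c : F) (hc : c ∈ K⟮x⟯) (hcO : c ∈ R.O) :
    ∃ p q : Polynomial R.A, q.map R.res ≠ 0 ∧
      c * aeval x (q.map (algebraMap R.A K)) = aeval x (p.map (algebraMap R.A K)) := by
  obtain ⟨p, q, j, hqj, h⟩ := h89_gauss_ratfunc R hx.mem hx.transcendental hc hcO
  refine ⟨p, q, ?_, h⟩
  intro h0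
  have h1 := congrArg (fun r => Polynomial.coeff r j) h0
  simp only [Polynomial.coeff_map, hqj, map_one, Polynomial.coeff_zero] at h1
  exact one_ne_zero h1

/-- the reduction of `K(x) ∩ O` lies in `k(x̄)` -/
theorem h39_gauss_redF_mem (c : F) (hc : c ∈ K⟮x⟯) : R.redF c ∈ k⟮R.redF x⟯ :=
  h89_gauss_redF_mem R hx.mem hx.transcendental hc

set_option linter.unusedVariables false in
/-- `K(x) ∩ O` is a valuation ring of `K(x)` whose value group is the one of `A`:
every nonzero `c ∈ K(x)` is a constant times a unit of `O`. (immediate from (VG)) -/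
theorem h39_gauss_scale (c : F) (hc : c ∈ K⟮x⟯) (hc0 : c ≠ 0) :
    ∃ a : K, a ≠ 0 ∧ R.redF (algebraMap K F a * c) ≠ 0 := by
  have _ := hx
  obtain ⟨a, ha0, h1, h2⟩ := R.exists_scale c hc0
  refine ⟨a, ha0, ?_⟩
  rw [R.redF_of_mem h1]
  intro h0
  have h3 := h89_red_mul R h1 h2
  rw [h0, zero_mul] at h3
  have h4 : R.red ⟨algebraMap K F a * c * (algebraMap K F a * c)⁻¹,
      R.O.mul_mem _ _ h1 h2⟩ = 1 := by
    have h5 : (⟨algebraMap K F a * c * (algebraMap K F a * c)⁻¹,
        R.O.mul_mem _ _ h1 h2⟩ : R.O) = 1 := by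
      apply Subtype.ext
      have ha : algebraMap K F a ≠ 0 := by
        rw [Ne, map_eq_zero]
        exact ha0
      exact mul_inv_cancel₀ (mul_ne_zero ha hc0)
    rw [h5, map_one]
  rw [h4] at h3
  exact one_ne_zero h3

end GR1

end Fermat.Agent.S18

end
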