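import Fermat.Agent.S18.GR_RedAPI
import Fermat.Agent.S18.GR_Gauss
import Fermat.Agent.S18.GR_Basis
import Fermat.Agent.S18.RR_Chart

/-!
# S18 / GR3 : integrality transfer (owner helper66)

Statements of section GR3 of the GOODRED skeleton (`hx : h39_WeakChart R x` is an explicit
hypothesis of every statement, after `R`):

* `h39_exists_monic_eq` : an element of `O` regular on the chart `x` satisfies a monic equation
  with coefficients in `A[x]`;
* `h39_red_integral` : (I1) its reduction is regular on the chart `x̄`;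
* `h39_eval_integral` : its values at the places of the unit disc `x(P) ∈ A` lie in `A`;
* `h39_Lx_red` : `L(n (x)_∞) ∩ O` reduces into `L(n (x̄)_∞)`.
-/

set_option autoImplicit false

noncomputable section

open AlgebraicCurve IntermediateField Polynomial

namespace Fermat.Agent.S18

variable {K F k Fb : Type*} [Field K] [Field F] [Algebra K F] [Field k] [Field Fb] [Algebra k Fb]

/-! ### The Gauss ring `K(x) ∩ O` and integrality over it -/

/-- The valuation ring `K(x) ∩ O` of `K(x)`. -/
abbrev h66_gaussRing (R : h39_RedDatum K F k Fb) (x : F) : ValuationSubring K⟮x⟯ :=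
  R.O.comap (algebraMap K⟮x⟯ F)

/-- With an orthonormal basis, `O` is a finite module over `K(x) ∩ O`, hence integral. -/
theorem h66_isIntegral_gaussRing (R : h39_RedDatum K F k Fb) (x : F) {ι : Type*} [Finite ι]
    (b : Module.Basis ι K⟮x⟯ F) (hbO : ∀ i, b i ∈ R.O)
    (hcoord : ∀ f : F, f ∈ R.O → ∀ i, ((b.repr f i : K⟮x⟯) : F) ∈ R.O)
    {f : F} (hf : f ∈ R.O) : IsIntegral (h66_gaussRing R x) f := by
  classical
  have := Fintype.ofFinite ι
  let N : Submodule (h66_gaussRing R x) F := Submodule.span (h66_gaussRing R x) (Set.range b)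
  have hNO : ∀ g ∈ N, g ∈ R.O := by
    intro g hg
    induction hg using Submodule.span_induction with
    | mem y hy =>
      obtain ⟨i, rfl⟩ := hy
      exact hbO i
    | zero => exact R.O.zero_mem
    | add y z _ _ hy hz => exact R.O.add_mem _ _ hy hz
    | smul s y _ hy =>
      rw [Algebra.smul_def]
      exact R.O.mul_mem _ _ s.2 hy
  have hON : ∀ g ∈ R.O, g ∈ N := by
    intro g hg
    rw [← b.sum_repr g]
    refine Submodule.sum_mem _ fun i _ => ?_
    have h1 : (b.repr g i) • b i = (⟨b.repr g i, hcoord g hg i⟩ : h66_gaussRing R x) • b i := rfl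
    rw [h1]
    exact Submodule.smul_mem _ _ (Submodule.subset_span ⟨i, rfl⟩)
  refine isIntegral_of_smul_mem_submodule N ?_ ?_ f ?_
  · intro h
    have h1 : (1 : F) ∈ N := hON 1 R.O.one_mem
    rw [h] at h1
    exact one_ne_zero ((Submodule.mem_bot _).1 h1)
  · exact Submodule.fg_span (Set.finite_range b)
  · intro n hn
    exact hON _ (R.O.mul_mem _ _ hf (hNO n hn))

/-- The coefficients of the minimal polynomial over `K(x)` of an element of `O` lie in `O`. -/
theorem h66_minpoly_coeff_mem_O (R : h39_RedDatum K F k Fb) (x : F) {ι : Type*} [Finite ι]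
    (b : Module.Basis ι K⟮x⟯ F) (hbO : ∀ i, b i ∈ R.O)
    (hcoord : ∀ f : F, f ∈ R.O → ∀ i, ((b.repr f i : K⟮x⟯) : F) ∈ R.O)
    {f : F} (hf : f ∈ R.O) (n : ℕ) : (((minpoly K⟮x⟯ f).coeff n : K⟮x⟯) : F) ∈ R.O := by
  have h := minpoly.isIntegrallyClosed_eq_field_fractions' K⟮x⟯
    (h66_isIntegral_gaussRing R x b hbO hcoord hf)
  rw [h, Polynomial.coeff_map]
  exact ((minpoly (h66_gaussRing R x) f).coeff n).2

open scoped IntermediateField.algebraAdjoinAdjoin in
/-- The coefficients of the minimal polynomial over `K(x)` of an element integral over `K[x]`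
lie in `K[x]`. -/
theorem h66_minpoly_coeff_mem_adjoin {x : F} (htr : Transcendental K x) {f : F}
    (hf : IsIntegral (Algebra.adjoin K {x}) f) (n : ℕ) :
    (((minpoly K⟮x⟯ f).coeff n : K⟮x⟯) : F) ∈ Algebra.adjoin K {x} := by
  have : IsIntegrallyClosed (Algebra.adjoin K {x}) :=
    IsIntegrallyClosed.of_equiv (Polynomial.algEquivOfTranscendental K x htr).toRingEquiv
  have h := minpoly.isIntegrallyClosed_eq_field_fractions' K⟮x⟯ hf
  rw [h, Polynomial.coeff_map]
  exact ((minpoly (Algebra.adjoin K {x}) f).coeff n).2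

/-! ### The monic equation -/

/-- The evaluation `A[X] → F`, `p ↦ p(x)`. -/
abbrev h66_evalF (R : h39_RedDatum K F k Fb) (x : F) : Polynomial R.A →+* F :=
  ((aeval x : K[X] →ₐ[K] F) : K[X] →+* F).comp (Polynomial.mapRingHom (algebraMap R.A K))

theorem h66_evalF_apply (R : h39_RedDatum K F k Fb) (x : F) (p : Polynomial R.A) :
    h66_evalF R x p = aeval x (p.map (algebraMap R.A K)) := rfl

/-- (INT-EQ), core form: orthonormal basis and Gauss lemma as hypotheses. -/
theorem h66_exists_monic_eq_core (R : h39_RedDatum K F k Fb) {x : F}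
    (htr : Transcendental K x) {ι : Type*} [Finite ι]
    (b : Module.Basis ι K⟮x⟯ F) (hbO : ∀ i, b i ∈ R.O)
    (hcoord : ∀ f : F, f ∈ R.O → ∀ i, ((b.repr f i : K⟮x⟯) : F) ∈ R.O)
    (hgauss : ∀ p : K[X], aeval x p ∈ R.O → ∀ i, p.coeff i ∈ R.A)
    {f : F} (hf : f ∈ R.O) (hint : IsIntegral (Algebra.adjoin K {x}) f) :
    ∃ G : Polynomial (Polynomial R.A), G.Monic ∧ Polynomial.eval₂ (h66_evalF R x) f G = 0 := by
  have hint' : IsIntegral K⟮x⟯ f := by
    have := Module.Finite.of_basis b
    exact Algebra.IsIntegral.isIntegral f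
  set P : F[X] := (minpoly K⟮x⟯ f).map (algebraMap K⟮x⟯ F) with hP
  have hPm : P.Monic := (minpoly.monic hint').map _
  have hlift : P ∈ Polynomial.lifts (h66_evalF R x) := by
    rw [Polynomial.lifts_iff_coeff_lifts]
    intro n
    rw [hP, Polynomial.coeff_map]
    have h1 := h66_minpoly_coeff_mem_O R x b hbO hcoord hf n
    have h2 := h66_minpoly_coeff_mem_adjoin htr hint n
    rw [Algebra.adjoin_singleton_eq_range_aeval] at h2
    obtain ⟨p, hp⟩ := h2
    have hp' : aeval x p = (((minpoly K⟮x⟯ f).coeff n : K⟮x⟯) : F) := hp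
    have hpA := hgauss p (by rw [hp']; exact h1)
    have hpl : p ∈ Polynomial.lifts (algebraMap R.A K) := by
      rw [Polynomial.lifts_iff_coeff_lifts]
      intro i
      exact ⟨⟨p.coeff i, hpA i⟩, rfl⟩
    obtain ⟨q, hq⟩ := hpl
    refine ⟨q, ?_⟩
    rw [h66_evalF_apply]
    have hq' : q.map (algebraMap R.A K) = p := hq
    rw [hq', hp']
    rfl
  obtain ⟨G, hG, -, hGm⟩ := Polynomial.lifts_and_natDegree_eq_and_monic hlift hPm
  refine ⟨G, hGm, ?_⟩
  rw [← Polynomial.eval_map, hG, hP, Polynomial.eval_map, ← Polynomial.aeval_def, minpoly.aeval]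

/-! ### Reduction of a monic equation -/

/-- The evaluation `k[X] → Fb`, `p ↦ p(x̄)`. -/
abbrev h66_evalFb (k : Type*) {Fb : Type*} [Field k] [Field Fb] [Algebra k Fb] (y : Fb) :
    Polynomial k →+* Fb :=
  ((aeval y : k[X] →ₐ[k] Fb) : k[X] →+* Fb)

/-- An equation `G(x, f) = 0` with `G ∈ A[X][T]`, `x, f ∈ O` reduces to `Ḡ(x̄, f̄) = 0`. -/
theorem h66_red_eq (R : h39_RedDatum K F k Fb) {x f : F} (hx : x ∈ R.O) (hf : f ∈ R.O)
    (G : Polynomial (Polynomial R.A)) (hG : Polynomial.eval₂ (h66_evalF R x) f G = 0) :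
    Polynomial.eval₂ (h66_evalFb k (R.redF x)) (R.redF f)
      (G.map (Polynomial.mapRingHom R.res)) = 0 := by
  have hc1 : R.O.subtype.comp (h89_evalO R hx) = h66_evalF R x := by
    refine RingHom.ext fun p => ?_
    exact h89_evalO_coe R hx p
  have hc2 : R.red.comp (h89_evalO R hx) =
      (h66_evalFb k (R.redF x)).comp (Polynomial.mapRingHom R.res) := by
    refine RingHom.ext fun p => ?_
    rw [RingHom.comp_apply, h89_red_evalO R hx p, R.redF_of_mem hx]
    rfl
  have h1 : Polynomial.eval₂ (h89_evalO R hx) (⟨f, hf⟩ : R.O) G = 0 := by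
    apply Subtype.ext
    have h2 := Polynomial.hom_eval₂ G (h89_evalO R hx) R.O.subtype ⟨f, hf⟩
    rw [hc1] at h2
    have h3 : R.O.subtype ⟨f, hf⟩ = f := rfl
    rw [h3, hG] at h2
    exact h2
  have h4 := congrArg R.red h1
  rw [Polynomial.hom_eval₂, map_zero, hc2] at h4
  rw [Polynomial.eval₂_map, R.redF_of_mem hf]
  exact h4

/-- The reduction of a root of a monic equation over `A[x]` is integral over `k[x̄]`. -/
theorem h66_isIntegral_red (R : h39_RedDatum K F k Fb) {x f : F} (hx : x ∈ R.O) (hf : f ∈ R.O)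
    (G : Polynomial (Polynomial R.A)) (hGm : G.Monic)
    (hG : Polynomial.eval₂ (h66_evalF R x) f G = 0) :
    IsIntegral (Algebra.adjoin k {R.redF x}) (R.redF f) := by
  let y : Algebra.adjoin k {R.redF x} := ⟨R.redF x, Algebra.self_mem_adjoin_singleton k _⟩
  let ψ : Polynomial k →+* Algebra.adjoin k {R.redF x} :=
    ((aeval y : k[X] →ₐ[k] Algebra.adjoin k {R.redF x}) : k[X] →+* Algebra.adjoin k {R.redF x})
  have hψ : (algebraMap (Algebra.adjoin k {R.redF x}) Fb).comp ψ = h66_evalFb k (R.redF x) := by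
    refine RingHom.ext fun p => ?_
    exact (Polynomial.aeval_algebraMap_apply Fb y p).symm
  refine ⟨(G.map (Polynomial.mapRingHom R.res)).map ψ, (hGm.map _).map _, ?_⟩
  rw [Polynomial.eval₂_map, hψ]
  exact h66_red_eq R hx hf G hG

/-! ### Values at places -/

/-- The evaluation `A[X] → K`, `p ↦ p(a)`. -/
abbrev h66_evalK (R : h39_RedDatum K F k Fb) (a : K) : Polynomial R.A →+* K :=
  Polynomial.eval₂RingHom (algebraMap R.A K) a

omit [Field k] [Field Fb] [Algebra k Fb] in
/-- A function with a value at a place is regular there. -/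
theorem h66_mem_of_value (P : Place K F) {f : F} {b : K}
    (hPb : f = algebraMap K F b ∨ 0 < P.ord (f - algebraMap K F b)) :
    f ∈ P.toValuationSubring := by
  rcases hPb with h | h
  · rw [h]
    exact P.algebraMap_mem' b
  · have h0 : f - algebraMap K F b ≠ 0 := by
      intro h0
      rw [h0, P.ord_zero] at h
      exact lt_irrefl 0 h
    have h1 : f - algebraMap K F b ∈ P.toValuationSubring :=
      ((Fermat.Agent.S24.h35_ord_pos_iff P h0).1 h).1
    have h2 : f = (f - algebraMap K F b) + algebraMap K F b := by ring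
    rw [h2]
    exact P.toValuationSubring.add_mem _ _ h1 (P.algebraMap_mem' b)

omit [Field k] [Field Fb] [Algebra k Fb] in
/-- The residue class of a function with value `b` at `P` is the class of `b`. -/
theorem h66_residue_of_value (P : Place K F) {f : F} {b : K}
    (hPb : f = algebraMap K F b ∨ 0 < P.ord (f - algebraMap K F b))
    (hf : f ∈ P.toValuationSubring) :
    IsLocalRing.residue P.toValuationSubring ⟨f, hf⟩ =
      IsLocalRing.residue P.toValuationSubring (algebraMap K P.toValuationSubring b) := by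
  rcases hPb with h | h
  · congr 1
    exact Subtype.ext h
  · rw [← sub_eq_zero, ← map_sub]
    exact Fermat.Agent.S24.h35_residue_eq_zero_of_ord_pos P _ h

/-- If `G(x, f) = 0`, `x(P) = a` and `f(P) = b`, then `G(a, b) = 0`. -/
theorem h66_eval_root (R : h39_RedDatum K F k Fb) {x f : F} (P : Place K F) (a b : K)
    (hPa : x = algebraMap K F a ∨ 0 < P.ord (x - algebraMap K F a))
    (hPb : f = algebraMap K F b ∨ 0 < P.ord (f - algebraMap K F b))
    (G : Polynomial (Polynomial R.A)) (hG : Polynomial.eval₂ (h66_evalF R x) f G = 0) :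
    Polynomial.eval₂ (h66_evalK R a) b G = 0 := by
  have hx : x ∈ P.toValuationSubring := h66_mem_of_value P hPa
  have hf : f ∈ P.toValuationSubring := h66_mem_of_value P hPb
  let π := IsLocalRing.residue P.toValuationSubring
  let ιP : Polynomial R.A →+* P.toValuationSubring :=
    Polynomial.eval₂RingHom ((algebraMap K P.toValuationSubring).comp (algebraMap R.A K)) ⟨x, hx⟩
  have hc1 : P.toValuationSubring.subtype.comp ιP = h66_evalF R x := by
    apply Polynomial.ringHom_ext
    · intro c
      simp [ιP, h66_evalF]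
    · simp [ιP, h66_evalF]
  have hc2 : π.comp ιP = (π.comp (algebraMap K P.toValuationSubring)).comp (h66_evalK R a) := by
    apply Polynomial.ringHom_ext
    · intro c
      simp [ιP, h66_evalK]
    · have := h66_residue_of_value P hPa hx
      simp only [ιP, h66_evalK, RingHom.comp_apply, Polynomial.coe_eval₂RingHom,
        Polynomial.eval₂_X]
      exact this
  have h1 : Polynomial.eval₂ ιP (⟨f, hf⟩ : P.toValuationSubring) G = 0 := by
    apply Subtype.ext
    have h2 := Polynomial.hom_eval₂ G ιP P.toValuationSubring.subtype ⟨f, hf⟩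
    rw [hc1] at h2
    have h3 : P.toValuationSubring.subtype ⟨f, hf⟩ = f := rfl
    rw [h3, hG] at h2
    exact h2
  have h4 := congrArg π h1
  rw [Polynomial.hom_eval₂, map_zero, hc2] at h4
  have h5 : π ⟨f, hf⟩ = (π.comp (algebraMap K P.toValuationSubring)) b :=
    h66_residue_of_value P hPb hf
  rw [h5, ← Polynomial.hom_eval₂] at h4
  exact (map_eq_zero_iff _ (RingHom.injective _)).1 h4

/-! ### `L(n (x)_∞)` in terms of the two charts -/

omit [Field k] [Field Fb] [Algebra k Fb] in
/-- `f ∈ L(n (x)_∞)` iff `f` is regular on the chart `x` and `f x⁻ⁿ` is regular on the chart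
`x⁻¹`. -/
theorem h66_mem_Lx_iff {x f : F} (hx0 : x ≠ 0) {n : ℕ} :
    f ∈ h39_Lx K x n ↔
      (∀ P : Place K F, x ∈ P.toValuationSubring → f ∈ P.toValuationSubring) ∧
      (∀ P : Place K F, x⁻¹ ∈ P.toValuationSubring → f * x⁻¹ ^ n ∈ P.toValuationSubring) := by
  have hxi : x⁻¹ ≠ 0 := inv_ne_zero hx0
  have hord : ∀ P : Place K F, P.ord (x⁻¹ ^ n) = -((n : ℤ) * P.ord x) := by
    intro P
    rw [← zpow_natCast, P.ord_zpow, P.ord_inv]
    ring
  rw [h39_mem_Lx_iff]
  constructor
  · intro h
    refine ⟨fun P hP => ?_, fun P hP => ?_⟩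
    · have h1 := (Fermat.Agent.S24.h35_mem_iff_ord_nonneg P hx0).1 hP
      rcases (h P).1 h1 with h2 | h2
      · rw [h2]
        exact P.toValuationSubring.zero_mem
      · by_cases hf0 : f = 0
        · rw [hf0]
          exact P.toValuationSubring.zero_mem
        · exact (Fermat.Agent.S24.h35_mem_iff_ord_nonneg P hf0).2 h2
    · by_cases hf0 : f = 0
      · rw [hf0, zero_mul]
        exact P.toValuationSubring.zero_mem
      have h1 := (Fermat.Agent.S24.h35_mem_iff_ord_nonneg P hxi).1 hP
      rw [P.ord_inv] at h1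
      rw [Fermat.Agent.S24.h35_mem_iff_ord_nonneg P (mul_ne_zero hf0 (pow_ne_zero n hxi)),
        P.ord_mul hf0 (pow_ne_zero n hxi), hord P]
      rcases lt_or_eq_of_le (neg_nonneg.1 h1) with h2 | h2
      · rcases (h P).2 h2 with h3 | h3
        · exact absurd h3 hf0
        · linarith
      · rcases (h P).1 (le_of_eq h2.symm) with h3 | h3
        · exact absurd h3 hf0
        · rw [h2]
          simpa using h3
  · rintro ⟨h1, h2⟩ P
    refine ⟨fun hP => ?_, fun hP => ?_⟩
    · by_cases hf0 : f = 0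
      · exact Or.inl hf0
      · exact Or.inr ((Fermat.Agent.S24.h35_mem_iff_ord_nonneg P hf0).1
          (h1 P ((Fermat.Agent.S24.h35_mem_iff_ord_nonneg P hx0).2 hP)))
    · by_cases hf0 : f = 0
      · exact Or.inl hf0
      right
      have h3 : x⁻¹ ∈ P.toValuationSubring := by
        rw [Fermat.Agent.S24.h35_mem_iff_ord_nonneg P hxi, P.ord_inv]
        linarith
      have h4 := (Fermat.Agent.S24.h35_mem_iff_ord_nonneg P
        (mul_ne_zero hf0 (pow_ne_zero n hxi))).1 (h2 P h3)
      rw [P.ord_mul hf0 (pow_ne_zero n hxi), hord P] at h4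
      linarith

/-! ### GR3 : the skeleton statements -/

section GR3

variable [IsAlgClosed K] [CharZero K] [IsAlgClosed k]
variable (R : h39_RedDatum K F k Fb) {x : F} (hx : h39_WeakChart R x)

include hx

set_option linter.unusedSectionVars false in
/-- (INT-EQ) an element of `O` which is regular on the chart `x` satisfies a monic equation
with coefficients in `A[x]` (minimal polynomial over `K(x)`: coefficients in `K[x]` by
integrality, in `O` because `O` is a finite module over the integrally closed ring `K(x) ∩ O`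
by the basis of GR2; `K[x] ∩ O = A[x]` by GR1). -/
theorem h39_exists_monic_eq {f : F} (hf : f ∈ R.O)
    (hint : ∀ P : Place K F, x ∈ P.toValuationSubring → f ∈ P.toValuationSubring) :
    ∃ G : Polynomial (Polynomial R.A), G.Monic ∧
      Polynomial.eval₂ (((aeval x : K[X] →ₐ[K] F) : K[X] →+* F).comp
        (Polynomial.mapRingHom (algebraMap R.A K))) f G = 0 := by
  have hch : h75_IsChart K x := h39_weakChart_isChart R hx
  have hI : IsIntegral (Algebra.adjoin K {x}) f := (h75_isIntegral_iff hch f).2 hint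
  obtain ⟨b, hbO, -, hcoord⟩ := h39_exists_basis R hx
  exact h66_exists_monic_eq_core R hch.tr b hbO (fun g hg => (hcoord g).1 hg)
    (fun p hp => (h39_gauss_mem_iff R hx p).1 hp) hf hI

/-- (I1) `f ∈ B ∩ O ⟹ f̄ ∈ B̄` : regular on the chart `x` ⟹ reduction regular on the chart `x̄`. -/
theorem h39_red_integral {f : F} (hf : f ∈ R.O)
    (hint : ∀ P : Place K F, x ∈ P.toValuationSubring → f ∈ P.toValuationSubring) :
    ∀ Q : Place k Fb, R.redF x ∈ Q.toValuationSubring → R.redF f ∈ Q.toValuationSubring := by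
  obtain ⟨G, hGm, hG⟩ := h39_exists_monic_eq R hx hf hint
  exact (h75_isIntegral_iff (h39_weakChart_isChart_red R hx) (R.redF f)).1
    (h66_isIntegral_red R hx.mem hf G hGm hG)

/-- values of `f ∈ B ∩ O` at places of the unit disc `x(P) ∈ A` are integral -/
theorem h39_eval_integral {f : F} (hf : f ∈ R.O)
    (hint : ∀ P : Place K F, x ∈ P.toValuationSubring → f ∈ P.toValuationSubring)
    (P : Place K F) (a b : K) (ha : a ∈ R.A) (hPa : 0 < P.ord (x - algebraMap K F a))
    (hPb : f = algebraMap K F b ∨ 0 < P.ord (f - algebraMap K F b)) : b ∈ R.A := by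
  obtain ⟨G, hGm, hG⟩ := h39_exists_monic_eq R hx hf hint
  have h0 := h66_eval_root R P a b (Or.inr hPa) hPb G hG
  have hI : IsIntegral R.A b := by
    refine ⟨G.map (Polynomial.evalRingHom (⟨a, ha⟩ : R.A)), hGm.map _, ?_⟩
    rw [Polynomial.eval₂_map]
    have hc : (algebraMap R.A K).comp (Polynomial.evalRingHom (⟨a, ha⟩ : R.A)) =
        h66_evalK R a := by
      apply Polynomial.ringHom_ext
      · intro c
        simp [h66_evalK]
      · simp [h66_evalK]
    rw [hc]
    exact h0
  obtain ⟨y, hy⟩ := IsIntegrallyClosed.isIntegral_iff.1 hI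
  rw [← hy]
  exact y.2

/-- `L(n (x)_∞) ∩ O` reduces into `L(n (x̄)_∞)` ((I1) for `x` and for `x⁻¹` applied to `f x⁻ⁿ`) -/
theorem h39_Lx_red (n : ℕ) {f : F} (hf : f ∈ h39_Lx K x n) (hfO : f ∈ R.O) :
    R.redF f ∈ h39_Lx k (R.redF x) n := by
  have hne : R.redF x ≠ 0 := by
    intro h0
    exact hx.transcendental (h0 ▸ isAlgebraic_zero)
  have hx0 : x ≠ 0 := by
    rintro rfl
    exact hne (h39_redF_zero R)
  have hx' : h39_WeakChart R x⁻¹ := h39_weakChart_inv R hx
  obtain ⟨hxiO, hxired⟩ := h39_inv_of_redF_ne_zero R hne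
  obtain ⟨h1, h2⟩ := (h66_mem_Lx_iff hx0).1 hf
  have hgO : f * x⁻¹ ^ n ∈ R.O := R.O.mul_mem _ _ hfO (pow_mem hxiO n)
  have h3 := h39_red_integral R hx hfO h1
  have h4 := h39_red_integral R hx' hgO (by simpa using h2)
  rw [h39_redF_mul R hfO (pow_mem hxiO n), h39_redF_pow R hxiO, hxired] at h4
  exact (h66_mem_Lx_iff hne).2 ⟨h3, h4⟩

end GR3

end Fermat.Agent.S18

end
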