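import Mathlib
import Fermat.Prelude.Def_AlgebraicCurve_DivisorClassGroup
import Fermat.Agent.S24.h35_PlaceBasic

/-!
# S18 CORE (layer 8 of the route): abstract interface

An abstract "good reduction datum" for a function field `F / K` with a valuation ring `Ov`
(the Gauss valuation), residue map `red : Ov → Fb`, and a reduction map on places `r0`
compatible with divisors of `v`-units.  No number fields, no `q`-expansions, no finite level.
-/

set_option autoImplicit false

namespace Fermat.Agent.S18

open AlgebraicCurve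

variable {K F k Fb : Type*} [Field K] [Field F] [Algebra K F] [Field k] [Field Fb] [Algebra k Fb]

/-- `f ∈ L(D)`: `f = 0` or `ord_P f ≥ -D P` at every place. -/
def h53_InL (D : Divisor K F) (f : F) : Prop := f = 0 ∨ ∀ P : Place K F, -D P ≤ P.ord f

variable (K F k Fb) in
/-- Abstract good-reduction datum: a valuation ring `Ov` of `F` with residue map `red` onto (a
subring of) the field `Fb`, such that norms of elements of `F` are attained by constants, together
with a reduction map `r0` on places such that `r0_* div y = div (red y)` for `v`-units `y`. -/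
structure h53_RedDatum where
  /-- the Gauss valuation ring -/
  Ov : ValuationSubring F
  /-- reduction -/
  red : Ov →+* Fb
  red_eq_zero : ∀ y : Ov, red y = 0 ↔ (y : F) ∈ Ov.nonunits
  /-- norms are attained by constants -/
  exists_const : ∀ y : F, y ≠ 0 → ∃ c : K, c ≠ 0 ∧ Ov.valuation (algebraMap K F c * y) = 1
  /-- reduction of places -/
  r0 : Place K F → Place k Fb
  /-- `r0_* div y = div (red y)` for `v`-units `y` (step (6) of the route) -/
  red_div : ∀ y : Ov, red y ≠ 0 → ∀ D : Divisor K F, (∀ P, D P = P.ord (y : F)) →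
    ∀ Q, Finsupp.mapDomain r0 D Q = Q.ord (red y)

/-- The divisor `D'` is *liftable*: `L(D') ∩ Ov` has a finite orthonormal basis over
`A = K ∩ Ov`, and reduction maps it ONTO `Lbar(r0_* D')` (step (*) of the route). -/
def h53_RedDatum.Liftable (R : h53_RedDatum K F k Fb) (D' : Divisor K F) : Prop :=
  (∃ (n : ℕ) (b : Fin n → F), (∀ i, b i ∈ R.Ov ∧ h53_InL D' (b i)) ∧
    (∀ y : F, y ∈ R.Ov → h53_InL D' y →
      ∃ x : Fin n → K, (∀ i, algebraMap K F (x i) ∈ R.Ov) ∧ y = ∑ i, x i • b i) ∧
    (∀ x : Fin n → K, (∀ i, algebraMap K F (x i) ∈ R.Ov) →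
      (∑ i, x i • b i) ∈ R.Ov.nonunits → ∀ i, algebraMap K F (x i) ∈ R.Ov.nonunits)) ∧
  (∀ fb : Fb, h53_InL (Finsupp.mapDomain R.r0 D') fb →
    ∃ y : R.Ov, h53_InL D' (y : F) ∧ R.red y = fb)

end Fermat.Agent.S18
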