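import Mathlib
import Fermat.Prelude.Def_FLTPrelim_Ramification

set_option autoImplicit false

namespace Fermat.Agent.S18

open Polynomial

section
variable {L : Type*} [Field L] (A : ValuationSubring L)

theorem h64_val_int_le_one (c : ℤ) : A.valuation (c : L) ≤ 1 := by
  rw [ValuationSubring.valuation_le_one_iff]
  exact intCast_mem A c

theorem h64_val_int_eq_one {ℓ : ℕ} (hℓ : ℓ.Prime) (hA : A.LiesOverPrime ℓ) (c : ℤ)
    (hc : ¬ (ℓ : ℤ) ∣ c) : A.valuation (c : L) = 1 := by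
  have hcop : IsCoprime (ℓ : ℤ) c :=
    (Prime.coprime_iff_not_dvd (Nat.prime_iff_prime_int.mp hℓ)).mpr hc
  obtain ⟨y, x, hxy⟩ := hcop
  have hℓ1 : A.valuation ((ℓ : ℕ) : L) < 1 := (ValuationSubring.mem_nonunits_iff A).mp hA
  refine le_antisymm (h64_val_int_le_one A c) ?_
  by_contra hlt
  push Not at hlt
  have h1 : A.valuation ((y : L) * (ℓ : L) + (x : L) * (c : L)) < 1 := by
    apply Valuation.map_add_lt
    · rw [map_mul]
      calc A.valuation (y : L) * A.valuation (ℓ : L) ≤ 1 * A.valuation (ℓ : L) :=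
            mul_le_mul_left (h64_val_int_le_one A y) _
        _ < 1 := by rw [one_mul]; exact hℓ1
    · rw [map_mul]
      calc A.valuation (x : L) * A.valuation (c : L) ≤ 1 * A.valuation (c : L) :=
            mul_le_mul_left (h64_val_int_le_one A x) _
        _ < 1 := by rw [one_mul]; exact hlt
  have h2 : (y : L) * (ℓ : L) + (x : L) * (c : L) = 1 := by
    have := congrArg (fun z : ℤ => (z : L)) hxy
    simpa using this
  rw [h2, map_one] at h1
  exact lt_irrefl _ h1

/-- Step 3: a nonzero element algebraic over `ℤ` has valuation `≥ v(ℓ)^e` for some `e`. -/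
theorem h64_prime_pow_le [CharZero L] {ℓ : ℕ} (hℓ : ℓ.Prime) (hA : A.LiesOverPrime ℓ) (δ : L)
    (halg : IsAlgebraic ℤ δ) (hδ : δ ≠ 0) :
    ∃ e : ℕ, A.valuation ((ℓ : ℕ) : L) ^ e ≤ A.valuation δ := by
  set v := A.valuation with hv
  by_cases h1 : 1 ≤ v δ
  · exact ⟨0, by rw [pow_zero]; exact h1⟩
  push Not at h1
  obtain ⟨p, hp0, hpa⟩ := halg
  classical
  -- trailing coefficient
  have hex : ∃ i, p.coeff i ≠ 0 := by
    by_contra hall
    push Not at hall
    exact hp0 (Polynomial.ext fun i => by rw [hall i, coeff_zero])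
  set j := Nat.find hex with hj
  have hjspec : p.coeff j ≠ 0 := Nat.find_spec hex
  have hjmin : ∀ i < j, p.coeff i = 0 := fun i hi => by
    have := Nat.find_min hex hi
    push Not at this
    exact this
  have hjmem : j ∈ Finset.range (p.natDegree + 1) := by
    rw [Finset.mem_range, Nat.lt_succ_iff]
    exact le_natDegree_of_ne_zero hjspec
  rw [aeval_eq_sum_range, ← Finset.add_sum_erase _ _ hjmem] at hpa
  -- v(c_j δ^j) ≤ v δ ^ (j+1)
  have hrest : v (∑ i ∈ (Finset.range (p.natDegree + 1)).erase j, p.coeff i • δ ^ i) ≤ v δ ^ (j + 1) := by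
    apply Valuation.map_sum_le
    intro i hi
    rw [Finset.mem_erase] at hi
    rw [zsmul_eq_mul, map_mul, map_pow]
    rcases lt_or_gt_of_ne hi.1 with hlt | hgt
    · rw [hjmin i hlt, Int.cast_zero, map_zero, zero_mul]
      exact zero_le
    · have hsplit : i = (j + 1) + (i - (j + 1)) := by omega
      rw [hsplit, pow_add]
      calc v (p.coeff (j + 1 + (i - (j + 1))) : L) * (v δ ^ (j + 1) * v δ ^ (i - (j + 1)))
          ≤ 1 * (v δ ^ (j + 1) * 1) := by
            gcongr
            · exact h64_val_int_le_one A _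
            · exact pow_le_one₀ zero_le h1.le
        _ = v δ ^ (j + 1) := by rw [one_mul, mul_one]
  have hmain : v (p.coeff j • δ ^ j) ≤ v δ ^ (j + 1) := by
    have : p.coeff j • δ ^ j = - ∑ i ∈ (Finset.range (p.natDegree + 1)).erase j, p.coeff i • δ ^ i :=
      eq_neg_of_add_eq_zero_left hpa
    rw [this, Valuation.map_neg]
    exact hrest
  rw [zsmul_eq_mul, map_mul, map_pow, pow_succ] at hmain
  have hδpos : 0 < v δ ^ j := by
    apply pow_pos
    exact lt_of_le_of_ne zero_le (Ne.symm ((Valuation.ne_zero_iff v).mpr hδ))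
  have hcj : v (p.coeff j : L) ≤ v δ := by
    rw [mul_comm (v δ ^ j)] at hmain
    exact le_of_mul_le_mul_right hmain hδpos
  -- c_j = ℓ^e * c'
  have hfin : FiniteMultiplicity (ℓ : ℤ) (p.coeff j) := by
    apply Int.finiteMultiplicity_iff.mpr
    refine ⟨?_, hjspec⟩
    simp only [Int.natAbs_natCast]
    exact hℓ.one_lt.ne'
  obtain ⟨c', hc', hndvd⟩ := hfin.exists_eq_pow_mul_and_not_dvd
  refine ⟨multiplicity (ℓ : ℤ) (p.coeff j), ?_⟩
  have hval : v (p.coeff j : L) = v ((ℓ : ℕ) : L) ^ multiplicity (ℓ : ℤ) (p.coeff j) := by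
    conv_lhs => rw [hc']
    push_cast
    rw [map_mul, map_pow, h64_val_int_eq_one A hℓ hA c' hndvd, mul_one]
  rw [← hval]
  exact hcj

/-- Step 2: a non-unit algebraic over `ℤ` has a power of valuation `≤ v(ℓ)`. -/
theorem h64_pow_le_prime [CharZero L] {ℓ : ℕ} (hℓ : ℓ.Prime) (hA : A.LiesOverPrime ℓ) (a : L)
    (halg : IsAlgebraic ℤ a) (ha : A.valuation a < 1) :
    ∃ n : ℕ, A.valuation a ^ n ≤ A.valuation ((ℓ : ℕ) : L) := by
  obtain ⟨p0, hp0, hp0a⟩ := halg
  -- primitive part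
  set p := p0.primPart with hp
  have hprim : p.IsPrimitive := p0.isPrimitive_primPart
  have hpa : aeval a p = 0 := by
    have h1 : p0 = C p0.content * p := p0.eq_C_content_mul_primPart
    have h2 : aeval a p0 = (algebraMap ℤ L p0.content) * aeval a p := by
      conv_lhs => rw [h1]
      rw [map_mul, aeval_C]
    rw [hp0a] at h2
    have hc : (algebraMap ℤ L p0.content) ≠ 0 := by
      rw [Ne, algebraMap_int_eq, eq_intCast, Int.cast_eq_zero]
      exact fun h => hp0 (content_eq_zero_iff.mp h)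
    exact (mul_eq_zero.mp h2.symm).resolve_left hc
  -- some coefficient is not divisible by ℓ
  have hex : ∃ i, ¬ (ℓ : ℤ) ∣ p.coeff i := by
    by_contra hall
    push Not at hall
    have hdvd : C (ℓ : ℤ) ∣ p := (C_dvd_iff_dvd_coeff _ _).mpr hall
    have hu := hprim _ hdvd
    rw [Int.isUnit_iff] at hu
    have h2 := hℓ.two_le
    omega
  classical
  set i₀ := Nat.find hex with hi₀
  have hi₀spec : ¬ (ℓ : ℤ) ∣ p.coeff i₀ := Nat.find_spec hex
  have hi₀min : ∀ i < i₀, (ℓ : ℤ) ∣ p.coeff i := fun i hi => by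
    have := Nat.find_min hex hi
    push Not at this
    exact this
  refine ⟨i₀, ?_⟩
  by_contra hcon
  push Not at hcon
  set v := A.valuation with hv
  have hℓ1 : v ((ℓ : ℕ) : L) < 1 := (ValuationSubring.mem_nonunits_iff A).mp hA
  have hℓ0 : v ((ℓ : ℕ) : L) ≠ 0 := by
    rw [Ne, Valuation.zero_iff]
    exact_mod_cast hℓ.ne_zero
  have hpos : 0 < v a ^ i₀ := lt_of_le_of_lt zero_le hcon
  -- the sum
  rw [aeval_eq_sum_range] at hpa
  have hmem : i₀ ∈ Finset.range (p.natDegree + 1) := by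
    rw [Finset.mem_range, Nat.lt_succ_iff]
    apply le_natDegree_of_ne_zero
    intro h0
    exact hi₀spec (h0 ▸ dvd_zero _)
  rw [← Finset.add_sum_erase _ _ hmem] at hpa
  have hmain : v (p.coeff i₀ • a ^ i₀) = v a ^ i₀ := by
    rw [zsmul_eq_mul, map_mul, map_pow, h64_val_int_eq_one A hℓ hA _ hi₀spec, one_mul]
  have hrest : v (∑ i ∈ (Finset.range (p.natDegree + 1)).erase i₀, p.coeff i • a ^ i) < v a ^ i₀ := by
    apply Valuation.map_sum_lt _ hpos.ne'
    intro i hi
    rw [Finset.mem_erase] at hi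
    rw [zsmul_eq_mul, map_mul, map_pow]
    rcases lt_or_gt_of_ne hi.1 with hlt | hgt
    · obtain ⟨c', hc'⟩ := hi₀min i hlt
      rw [hc']
      push_cast
      rw [map_mul]
      calc v ((ℓ : ℕ) : L) * v (c' : L) * v a ^ i
          ≤ v ((ℓ : ℕ) : L) * 1 * 1 := by
            gcongr
            · exact h64_val_int_le_one A c'
            · exact pow_le_one₀ zero_le ha.le
        _ = v ((ℓ : ℕ) : L) := by rw [mul_one, mul_one]
        _ < v a ^ i₀ := hcon
    · have hsplit : i = i₀ + (i - i₀) := by omega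
      rw [hsplit, pow_add]
      calc v (p.coeff (i₀ + (i - i₀)) : L) * (v a ^ i₀ * v a ^ (i - i₀))
          ≤ 1 * (v a ^ i₀ * v a ^ (i - i₀)) := by
            gcongr
            exact h64_val_int_le_one A _
        _ = v a ^ i₀ * v a ^ (i - i₀) := one_mul _
        _ < v a ^ i₀ * 1 := by
            apply mul_lt_mul_of_pos_left _ hpos
            exact pow_lt_one₀ zero_le ha (by omega)
        _ = v a ^ i₀ := mul_one _
  have hne : v (p.coeff i₀ • a ^ i₀ + ∑ i ∈ (Finset.range (p.natDegree + 1)).erase i₀, p.coeff i • a ^ i)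
      = v a ^ i₀ := by
    rw [Valuation.map_add_eq_of_lt_left, hmain]
    rw [hmain]; exact hrest
  rw [hpa, map_zero] at hne
  exact hpos.ne hne


/-- **Rank one.** In a valuation ring `A` over `ℓ` of a characteristic-zero field algebraic over
`ℤ`, powers of a non-unit become smaller than any nonzero element. -/
theorem h64_rankOne_val [CharZero L] (halgL : ∀ x : L, IsAlgebraic ℤ x) {ℓ : ℕ} (hℓ : ℓ.Prime)
    (hA : A.LiesOverPrime ℓ) (a : L) (ha : a ∈ A.nonunits) (δ : L) (hδ : δ ≠ 0) :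
    ∃ n : ℕ, A.valuation a ^ n ≤ A.valuation δ := by
  obtain ⟨i, hi⟩ := h64_pow_le_prime A hℓ hA a (halgL a) ((ValuationSubring.mem_nonunits_iff A).mp ha)
  obtain ⟨e, he⟩ := h64_prime_pow_le A hℓ hA δ (halgL δ) hδ
  refine ⟨i * e, ?_⟩
  rw [pow_mul]
  exact (pow_le_pow_left₀ zero_le hi e).trans he

/-- ring form of `h64_rankOne_val`: `a ^ n ∈ δ A`. -/
theorem h64_rankOne [CharZero L] (halgL : ∀ x : L, IsAlgebraic ℤ x) {ℓ : ℕ} (hℓ : ℓ.Prime)
    (hA : A.LiesOverPrime ℓ) (a : L) (ha : a ∈ A.nonunits) (δ : L) (hδ : δ ≠ 0) :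
    ∃ n : ℕ, ∃ t ∈ A, a ^ n = δ * t := by
  obtain ⟨n, hn⟩ := h64_rankOne_val A halgL hℓ hA a ha δ hδ
  refine ⟨n, a ^ n / δ, ?_, by field_simp⟩
  rw [← ValuationSubring.valuation_le_one_iff, map_div₀, map_pow]
  have hδpos : 0 < A.valuation δ :=
    lt_of_le_of_ne zero_le (Ne.symm ((Valuation.ne_zero_iff _).mpr hδ))
  exact (div_le_one₀ hδpos).mpr hn

end

/-- every element of `AlgebraicClosure ℚ` is algebraic over `ℤ`. -/
theorem h64_isAlgebraic_int (x : AlgebraicClosure ℚ) : IsAlgebraic ℤ x :=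
  (IsFractionRing.isAlgebraic_iff ℤ ℚ (AlgebraicClosure ℚ)).mpr
    ((AlgebraicClosure.isAlgebraic ℚ).isAlgebraic x)

/-- **Rank one for valuation rings of `ℚ̄` over `ℓ`.** -/
theorem h64_rankOne_Qbar {ℓ : ℕ} (hℓ : ℓ.Prime) (A : ValuationSubring (AlgebraicClosure ℚ))
    (hA : A.LiesOverPrime ℓ) (a : AlgebraicClosure ℚ) (ha : a ∈ A.nonunits)
    (δ : AlgebraicClosure ℚ) (hδ : δ ≠ 0) :
    ∃ n : ℕ, ∃ t ∈ A, a ^ n = δ * t :=
  h64_rankOne A h64_isAlgebraic_int hℓ hA a ha δ hδ

end Fermat.Agent.S18
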