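import Mathlib
import Fermat.Agent.S18.Defs
import Fermat.Agent.S18.h64_RankOne

set_option autoImplicit false

/-!
# S18 [ARITH]: rank one (R1) in the project shapes

* `h64_rankOne_h39`: `h39_RankOne A` for every valuation subring `A` of `AlgebraicClosure ℚ`
  lying over a prime `ℓ`.
* `h64_hrank_of_rankOne`: the strict form used inside the CORE
  (`∃ n, d * (a ^ n)⁻¹ ∉ Ov` for a nonzero non-unit constant `a` and `d ≠ 0`).
  NOTE: the hypothesis `a ≠ 0` is necessary (for `a = 0` the conclusion is false).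
-/

namespace Fermat.Agent.S18

/-- `h39_RankOne` from the ring form of rank one. -/
theorem h64_rankOne_of_pow {K : Type*} [Field K] (A : ValuationSubring K)
    (h : ∀ a : K, a ∈ A.nonunits → ∀ δ : K, δ ≠ 0 → ∃ n : ℕ, ∃ t ∈ A, a ^ n = δ * t) :
    h39_RankOne A := by
  intro a _ hainv δ hδ
  have hanon : a ∈ A.nonunits := (ValuationSubring.mem_nonunits_iff_or A).mpr (Or.inr hainv)
  obtain ⟨n, t, htA, ht⟩ := h a hanon δ hδ
  refine ⟨n, ?_⟩
  have : a ^ n * δ⁻¹ = t := by rw [ht]; field_simp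
  rw [this]; exact htA

/-- **(R1)** for valuation subrings of `ℚ̄` over a prime. -/
theorem h64_rankOne_h39 {ℓ : ℕ} (hℓ : ℓ.Prime) (A : ValuationSubring (AlgebraicClosure ℚ))
    (hA : A.LiesOverPrime ℓ) : h39_RankOne A :=
  h64_rankOne_of_pow A fun a ha δ hδ => h64_rankOne_Qbar hℓ A hA a ha δ hδ

/-- the strict form of rank one for the constants of a valuation subring `Ov` of `F`. -/
theorem h64_hrank_of_rankOne {K F : Type*} [Field K] [Field F] [Algebra K F]
    (Ov : ValuationSubring F) (h : h39_RankOne (Ov.comap (algebraMap K F))) :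
    ∀ a d : K, a ≠ 0 → algebraMap K F a ∈ Ov.nonunits → d ≠ 0 →
      ∃ n : ℕ, algebraMap K F (d * (a ^ n)⁻¹) ∉ Ov := by
  intro a d ha0 ha hd
  set A := Ov.comap (algebraMap K F) with hA
  have haA : a ∈ A := Ov.nonunits_le ha
  have hainv : a⁻¹ ∉ A := by
    intro hmem
    have h1 : algebraMap K F a ∈ Ov.nonunits := ha
    rw [ValuationSubring.mem_nonunits_iff_or] at h1
    rcases h1 with h1 | h1
    · exact ha0 (by simpa using h1)
    · apply h1
      rw [← map_inv₀]
      exact hmem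
  obtain ⟨n, hn⟩ := h a haA hainv d hd
  refine ⟨n + 1, fun hmem => hainv ?_⟩
  have hmem' : d * (a ^ (n + 1))⁻¹ ∈ A := hmem
  have : a⁻¹ = (a ^ n * d⁻¹) * (d * (a ^ (n + 1))⁻¹) := by
    rw [pow_succ]; field_simp
  rw [this]
  exact A.mul_mem _ _ hn hmem'

end Fermat.Agent.S18
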