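import Mathlib
import Fermat.Prelude.Def_AlgebraicCurve_DivisorClassGroup
import Fermat.Agent.S24.h35_PlaceBasic

set_option autoImplicit false

/-!
# S18 core: the saturation lemma (SAT)

Setting: `Ov` a valuation subring of a function field `F/K` (the Gauss valuation), `red : Ov →+* Fb`
its reduction, `r0 : Place K F → Place k Fb` a reduction map of places compatible with divisors of
units (`red_div`).  For divisors `D1 ≤ D2` whose lattices `L(Di) ∩ Ov` have orthonormal bases and
such that every element of `L̄(r0_* D1)` lifts to `L(D1) ∩ Ov`: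

if `t ∈ L(D2) ∩ Ov` is, modulo `a`, locally on every tube `r0⁻¹(Q)` congruent to an element of `Ov`
whose poles on the tube are bounded by `D1`, then `t ∈ L(D1) ∩ Ov + a • Ov`.

Contents: `h64_exists_retract` (integral dual functionals of a residually independent integral
family, by pivoting), closure lemmas for pole bounds on a set of places, the tube inequality
`h64_tube_le`, and `h64_sat_core`.
-/

namespace Fermat.Agent.S18

open Finset AlgebraicCurve Fermat.Agent.S24

section Retract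
variable {K : Type*} [Field K] (A : ValuationSubring K)

theorem h64_one_not_nonunits : (1 : K) ∉ A.nonunits := by
  rw [ValuationSubring.mem_nonunits_iff, map_one]
  exact lt_irrefl _

theorem h64_inv_mem_of_not_nonunits {u : K} (hu : u ∈ A) (hu' : u ∉ A.nonunits) : u⁻¹ ∈ A := by
  rw [ValuationSubring.mem_nonunits_iff, not_lt] at hu'
  have h1 : A.valuation u = 1 := le_antisymm ((A.valuation_le_one_iff u).mpr hu) hu'
  rw [← A.valuation_le_one_iff, map_inv₀, h1, inv_one]

theorem h64_ne_zero_of_not_nonunits {u : K} (hu' : u ∉ A.nonunits) : u ≠ 0 := by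
  rintro rfl
  exact hu' (by rw [ValuationSubring.mem_nonunits_iff, map_zero]; exact zero_lt_one)

theorem h64_nonunits_mul_mem {x y : K} (hx : x ∈ A.nonunits) (hy : y ∈ A) : x * y ∈ A.nonunits := by
  rw [ValuationSubring.mem_nonunits_iff] at hx ⊢
  rw [map_mul]
  calc A.valuation x * A.valuation y ≤ A.valuation x * 1 :=
        mul_le_mul_right ((A.valuation_le_one_iff y).mpr hy) _
    _ < 1 := by rw [mul_one]; exact hx

theorem h64_mem_mul_nonunits {x y : K} (hx : x ∈ A) (hy : y ∈ A.nonunits) : x * y ∈ A.nonunits := by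
  rw [mul_comm]; exact h64_nonunits_mul_mem A hy hx

theorem h64_nonunits_add {x y : K} (hx : x ∈ A.nonunits) (hy : y ∈ A.nonunits) :
    x + y ∈ A.nonunits := by
  rw [ValuationSubring.mem_nonunits_iff] at hx hy ⊢
  exact Valuation.map_add_lt _ hx hy

theorem h64_nonunits_sum {ι : Type*} (s : Finset ι) (f : ι → K) (h : ∀ i ∈ s, f i ∈ A.nonunits) :
    ∑ i ∈ s, f i ∈ A.nonunits := by
  rw [ValuationSubring.mem_nonunits_iff]
  apply Valuation.map_sum_lt _ one_ne_zero
  intro i hi
  exact (ValuationSubring.mem_nonunits_iff A).mp (h i hi)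

theorem h64_nonunits_neg {x : K} (hx : x ∈ A.nonunits) : -x ∈ A.nonunits := by
  rw [ValuationSubring.mem_nonunits_iff] at hx ⊢
  rwa [Valuation.map_neg]

/-- **Integral retraction.**  Rows `M i` (integral, residually independent) have integral dual
functionals. -/
theorem h64_exists_retract {ι : Type*} [Fintype ι] [DecidableEq ι] :
    ∀ (n : ℕ) (M : Fin n → ι → K), (∀ i j, M i j ∈ A) →
      (∀ lam : Fin n → K, (∀ i, lam i ∈ A) → (∀ j, ∑ i, lam i * M i j ∈ A.nonunits) →
        ∀ i, lam i ∈ A.nonunits) →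
      ∃ ρ : Fin n → ((ι → K) →ₗ[K] K), (∀ i x, (∀ j, x j ∈ A) → ρ i x ∈ A) ∧
        ∀ i i', ρ i (M i') = if i = i' then 1 else 0 := by
  intro n
  induction n with
  | zero =>
    intro M _ _
    exact ⟨fun i => i.elim0, fun i => i.elim0, fun i => i.elim0⟩
  | succ n ih =>
    intro M hM hind
    -- a unit entry in row 0
    obtain ⟨j0, hj0⟩ : ∃ j0, M 0 j0 ∉ A.nonunits := by
      by_contra hall
      push Not at hall
      have := hind (fun i => if i = 0 then 1 else 0)
        (fun i => by split_ifs; exact A.one_mem; exact A.zero_mem)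
        (fun j => by
          rw [Finset.sum_eq_single 0]
          · simpa using hall j
          · intro b _ hb; simp [hb]
          · intro h; exact absurd (Finset.mem_univ _) h) 0
      simp only [if_true] at this
      exact h64_one_not_nonunits A this
    set u := M 0 j0 with hu
    have huA : u ∈ A := hM 0 j0
    have hu0 : u ≠ 0 := h64_ne_zero_of_not_nonunits A hj0
    have huinv : u⁻¹ ∈ A := h64_inv_mem_of_not_nonunits A huA hj0
    have hq : ∀ i : Fin n, M i.succ j0 / u ∈ A := fun i => by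
      rw [div_eq_mul_inv]; exact A.mul_mem _ _ (hM _ _) huinv
    -- reduced rows
    set M' : Fin n → ι → K := fun i => M i.succ - (M i.succ j0 / u) • M 0 with hM'
    have hM'app : ∀ i j, M' i j = M i.succ j - (M i.succ j0 / u) * M 0 j := fun i j => rfl
    have hM'int : ∀ i j, M' i j ∈ A := fun i j => by
      rw [hM'app]; exact sub_mem (hM _ _) (A.mul_mem _ _ (hq i) (hM _ _))
    have hind' : ∀ lam : Fin n → K, (∀ i, lam i ∈ A) →
        (∀ j, ∑ i, lam i * M' i j ∈ A.nonunits) → ∀ i, lam i ∈ A.nonunits := by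
      intro lam hlam hsum i
      have key := hind (Fin.cons (-(∑ i, lam i * (M i.succ j0 / u))) lam)
        (fun i => by
          refine Fin.cases ?_ (fun i => ?_) i
          · rw [Fin.cons_zero]
            exact A.neg_mem _ (sum_mem fun i _ => A.mul_mem _ _ (hlam i) (hq i))
          · rw [Fin.cons_succ]; exact hlam i)
        (fun j => by
          rw [Fin.sum_univ_succ, Fin.cons_zero]
          simp only [Fin.cons_succ]
          have e : -(∑ i, lam i * (M i.succ j0 / u)) * M 0 j + ∑ i : Fin n, lam i * M i.succ j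
              = ∑ i, lam i * M' i j := by
            rw [neg_mul, Finset.sum_mul, ← Finset.sum_neg_distrib, ← Finset.sum_add_distrib]
            apply Finset.sum_congr rfl
            intro i _
            rw [hM'app]; ring
          rw [e]; exact hsum j) i.succ
      rwa [Fin.cons_succ] at key
    obtain ⟨ρ', hρ'int, hρ'dual⟩ := ih M' hM'int hind'
    -- the new functionals
    set proj : (ι → K) →ₗ[K] K := LinearMap.proj j0 with hproj
    set ρs : Fin n → ((ι → K) →ₗ[K] K) := fun i => ρ' i - (ρ' i (M 0) / u) • proj with hρs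
    set ρ0 : (ι → K) →ₗ[K] K := (1 / u) • proj - ∑ i, (M i.succ j0 / u) • ρs i with hρ0
    have hρsapp : ∀ i x, ρs i x = ρ' i x - (ρ' i (M 0) / u) * x j0 := fun i x => by
      simp [hρs, hproj]
    have hρ0app : ∀ x, ρ0 x = (1 / u) * x j0 - ∑ i, (M i.succ j0 / u) * ρs i x := fun x => by
      simp [hρ0, hproj]
    have hM0int : ∀ j, M 0 j ∈ A := hM 0
    have hρsint : ∀ i x, (∀ j, x j ∈ A) → ρs i x ∈ A := fun i x hx => by
      rw [hρsapp]
      refine sub_mem (hρ'int i x hx) (A.mul_mem _ _ ?_ (hx j0))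
      rw [div_eq_mul_inv]; exact A.mul_mem _ _ (hρ'int i _ hM0int) huinv
    have hρs0 : ∀ i, ρs i (M 0) = 0 := fun i => by
      rw [hρsapp]; field_simp; simp [hu]
    have hρss : ∀ a b : Fin n, ρs a (M b.succ) = if a = b then 1 else 0 := fun a b => by
      rw [hρsapp, ← hρ'dual a b]
      have : M' b = M b.succ - (M b.succ j0 / u) • M 0 := rfl
      rw [this, map_sub, map_smul, smul_eq_mul]; ring
    refine ⟨fun i => Fin.cases ρ0 ρs i, ?_, ?_⟩
    · intro i x hx
      refine Fin.cases ?_ (fun i => ?_) i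
      · show ρ0 x ∈ A
        rw [hρ0app]
        refine sub_mem (A.mul_mem _ _ (by rw [one_div]; exact huinv) (hx j0)) ?_
        exact sum_mem fun i _ => A.mul_mem _ _ (hq i) (hρsint i x hx)
      · exact hρsint i x hx
    · intro i i'
      refine Fin.cases ?_ (fun a => ?_) i
      · refine Fin.cases ?_ (fun b => ?_) i'
        · show ρ0 (M 0) = _
          rw [hρ0app, if_pos rfl]
          simp only [hρs0, mul_zero, Finset.sum_const_zero, sub_zero]
          rw [← hu]; field_simp
        · show ρ0 (M b.succ) = _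
          rw [hρ0app, if_neg (Fin.succ_ne_zero b).symm]
          simp only [hρss, mul_ite, mul_one, mul_zero, Finset.sum_ite_eq', Finset.mem_univ,
            if_true]
          ring
      · refine Fin.cases ?_ (fun b => ?_) i'
        · show ρs a (M 0) = _
          rw [hρs0, if_neg (Fin.succ_ne_zero a)]
        · show ρs a (M b.succ) = _
          rw [hρss]
          simp only [Fin.succ_inj]

end Retract

section InS
variable {K F : Type*} [Field K] [Field F] [Algebra K F]

/-- pole bound by `D` on a set `S` of places. -/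
def h64_InS (S : Set (Place K F)) (D : Divisor K F) (f : F) : Prop :=
  f = 0 ∨ ∀ P ∈ S, -D P ≤ P.ord f

theorem h64_InS_zero (S : Set (Place K F)) (D : Divisor K F) : h64_InS S D 0 := Or.inl rfl

theorem h64_InS_add {S : Set (Place K F)} {D : Divisor K F} {f g : F}
    (hf : h64_InS S D f) (hg : h64_InS S D g) : h64_InS S D (f + g) := by
  by_cases hf0 : f = 0
  · rw [hf0, zero_add]; exact hg
  by_cases hg0 : g = 0
  · rw [hg0, add_zero]; exact hf
  by_cases hfg : f + g = 0
  · exact Or.inl hfg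
  refine Or.inr fun P hP => ?_
  have h1 := (hf.resolve_left hf0) P hP
  have h2 := (hg.resolve_left hg0) P hP
  have h3 := h35_ord_add P hf0 hg0 hfg
  exact le_trans (le_min h1 h2) h3

theorem h64_InS_smul {S : Set (Place K F)} {D : Divisor K F} {f : F} (c : K)
    (hf : h64_InS S D f) : h64_InS S D (c • f) := by
  by_cases hc : c = 0
  · rw [hc, zero_smul]; exact Or.inl rfl
  by_cases hf0 : f = 0
  · rw [hf0, smul_zero]; exact Or.inl rfl
  refine Or.inr fun P hP => ?_
  have hcF : algebraMap K F c ≠ 0 := by simpa using hc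
  rw [Algebra.smul_def, P.ord_mul hcF hf0, h35_ord_algebraMap, zero_add]
  exact (hf.resolve_left hf0) P hP

theorem h64_InS_neg {S : Set (Place K F)} {D : Divisor K F} {f : F}
    (hf : h64_InS S D f) : h64_InS S D (-f) := by
  have := h64_InS_smul (-1 : K) hf
  rwa [neg_one_smul] at this

theorem h64_InS_sub {S : Set (Place K F)} {D : Divisor K F} {f g : F}
    (hf : h64_InS S D f) (hg : h64_InS S D g) : h64_InS S D (f - g) := by
  rw [sub_eq_add_neg]; exact h64_InS_add hf (h64_InS_neg hg)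

theorem h64_InS_sum {S : Set (Place K F)} {D : Divisor K F} {ι : Type*} (s : Finset ι)
    (f : ι → F) (hf : ∀ i ∈ s, h64_InS S D (f i)) : h64_InS S D (∑ i ∈ s, f i) := by
  classical
  induction s using Finset.induction_on with
  | empty => rw [Finset.sum_empty]; exact h64_InS_zero S D
  | insert a s ha ih =>
    rw [Finset.sum_insert ha]
    exact h64_InS_add (hf a (Finset.mem_insert_self a s))
      (ih fun i hi => hf i (Finset.mem_insert_of_mem hi))

theorem h64_InS_mono {S : Set (Place K F)} {D1 D2 : Divisor K F} (hle : D1 ≤ D2) {f : F}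
    (hf : h64_InS S D1 f) : h64_InS S D2 f := by
  rcases hf with h | h
  · exact Or.inl h
  · refine Or.inr fun P hP => ?_
    have h1 := h P hP
    have h2 : D1 P ≤ D2 P := Finsupp.le_def.mp hle P
    omega

theorem h64_InS_subset {S S' : Set (Place K F)} (hS : S' ⊆ S) {D : Divisor K F} {f : F}
    (hf : h64_InS S D f) : h64_InS S' D f := by
  rcases hf with h | h
  · exact Or.inl h
  · exact Or.inr fun P hP => h P (hS hP)

theorem h64_InS_univ_iff (D : Divisor K F) (f : F) :
    h64_InS Set.univ D f ↔ (f = 0 ∨ ∀ P : Place K F, -D P ≤ P.ord f) := by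
  unfold h64_InS
  simp

end InS

section MapDomain

/-- a push-forward of a finitely supported integer function is nonnegative at `q` as soon as the
function is nonnegative on the fibre over `q`. -/
theorem h64_mapDomain_nonneg {α β : Type*} (f : α → β) (E : α →₀ ℤ) (q : β)
    (h : ∀ a, f a = q → 0 ≤ E a) : 0 ≤ Finsupp.mapDomain f E q := by
  classical
  rw [Finsupp.mapDomain, Finsupp.sum_apply]
  apply Finset.sum_nonneg
  intro a _
  show 0 ≤ (Finsupp.single (f a) (E a)) q
  rw [Finsupp.single_apply]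
  split_ifs with hfa
  · exact h a hfa
  · exact le_rfl

end MapDomain

section Tube
variable {K F k Fb : Type*} [Field K] [Field F] [Algebra K F] [Field k] [Field Fb] [Algebra k Fb]

/-- **Tube inequality.**  If `y ∈ Ov` has nonzero reduction and its poles on the tube of `Q` are
bounded by `D1`, then the poles of its reduction at `Q` are bounded by `r0_* D1`. -/
theorem h64_tube_le [HasPrincipalDivisors K F] (Ov : ValuationSubring F) (red : Ov →+* Fb)
    (r0 : Place K F → Place k Fb)
    (red_div : ∀ y : Ov, red y ≠ 0 → ∀ D : Divisor K F, (∀ P, D P = P.ord (y : F)) →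
      ∀ Q, Finsupp.mapDomain r0 D Q = Q.ord (red y))
    (y : Ov) (hy : red y ≠ 0) (Q : Place k Fb) (D1 : Divisor K F)
    (htube : ∀ P, r0 P = Q → -D1 P ≤ P.ord (y : F)) :
    -(Finsupp.mapDomain r0 D1) Q ≤ Q.ord (red y) := by
  have hy0 : (y : F) ≠ 0 := by
    intro h0
    apply hy
    have : y = 0 := Subtype.ext h0
    rw [this, map_zero]
  obtain ⟨Dy, hDy, -⟩ := HasPrincipalDivisors.exists_divisor (K := K) (y : F) hy0
  have h1 := red_div y hy Dy hDy Q
  have h0 := h64_mapDomain_nonneg r0 (Dy + D1) Q (fun P hP => by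
    rw [Finsupp.add_apply, hDy]
    have := htube P hP
    omega)
  rw [Finsupp.mapDomain_add, Finsupp.add_apply, h1] at h0
  omega

end Tube

section Core
variable {K F k Fb : Type*} [Field K] [Field F] [Algebra K F] [Field k] [Field Fb] [Algebra k Fb]

/-- constants of a valuation subring of `F`. -/
theorem h64_comap_nonunits (Ov : ValuationSubring F) (c : K) :
    c ∈ (Ov.comap (algebraMap K F)).nonunits ↔ algebraMap K F c ∈ Ov.nonunits := by
  rw [ValuationSubring.mem_nonunits_iff_or, ValuationSubring.mem_nonunits_iff_or,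
    ValuationSubring.mem_comap, map_inv₀, map_eq_zero]

/-- an integral linear functional maps residually small vectors to small scalars. -/
theorem h64_functional_nonunits (A : ValuationSubring K) {ι : Type*} [Fintype ι] [DecidableEq ι]
    (ρ : (ι → K) →ₗ[K] K) (hρ : ∀ x, (∀ j, x j ∈ A) → ρ x ∈ A) (w : ι → K)
    (hw : ∀ j, w j ∈ A.nonunits) : ρ w ∈ A.nonunits := by
  rw [LinearMap.pi_apply_eq_sum_univ ρ w]
  apply h64_nonunits_sum
  intro j _
  rw [smul_eq_mul]
  apply h64_nonunits_mul_mem A (hw j)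
  apply hρ
  intro i
  split_ifs
  · exact A.one_mem
  · exact A.zero_mem

/-- change of coordinates: a combination of the `b₁ i = ∑ j, M i j • b₂ j`. -/
theorem h64_comb_eq {n₁ n₂ : ℕ} (b₁ : Fin n₁ → F) (b₂ : Fin n₂ → F) (M : Fin n₁ → Fin n₂ → K)
    (hM : ∀ i, b₁ i = ∑ j, M i j • b₂ j) (lam : Fin n₁ → K) :
    ∑ i, lam i • b₁ i = ∑ j, (∑ i, lam i * M i j) • b₂ j := by
  have : ∀ i, lam i • b₁ i = ∑ j, (lam i * M i j) • b₂ j := fun i => by
    rw [hM i, Finset.smul_sum]
    apply Finset.sum_congr rfl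
    intro j _
    rw [smul_smul]
  simp_rw [this]
  rw [Finset.sum_comm]
  apply Finset.sum_congr rfl
  intro j _
  rw [Finset.sum_smul]

/-- **Saturation lemma (core form, explicit hypotheses).** -/
theorem h64_sat_core [HasPrincipalDivisors K F] (Ov : ValuationSubring F) (red : Ov →+* Fb)
    (red_eq_zero : ∀ y : Ov, red y = 0 ↔ (y : F) ∈ Ov.nonunits)
    (r0 : Place K F → Place k Fb)
    (red_div : ∀ y : Ov, red y ≠ 0 → ∀ D : Divisor K F, (∀ P, D P = P.ord (y : F)) →
      ∀ Q, Finsupp.mapDomain r0 D Q = Q.ord (red y))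
    {D1 D2 : Divisor K F} (hle : D1 ≤ D2)
    -- orthonormal basis of `L(D1) ∩ Ov` and lifting of reductions
    {n₁ : ℕ} (b₁ : Fin n₁ → F)
    (hb₁ : ∀ i, b₁ i ∈ Ov ∧ (b₁ i = 0 ∨ ∀ P : Place K F, -D1 P ≤ P.ord (b₁ i)))
    (hspan₁ : ∀ y ∈ Ov, (y = 0 ∨ ∀ P : Place K F, -D1 P ≤ P.ord y) →
      ∃ x : Fin n₁ → K, (∀ i, algebraMap K F (x i) ∈ Ov) ∧ y = ∑ i, x i • b₁ i)
    (hon₁ : ∀ x : Fin n₁ → K, (∀ i, algebraMap K F (x i) ∈ Ov) →
      (∑ i, x i • b₁ i) ∈ Ov.nonunits → ∀ i, algebraMap K F (x i) ∈ Ov.nonunits)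
    (hlift₁ : ∀ fb : Fb, (fb = 0 ∨ ∀ Q : Place k Fb, -(Finsupp.mapDomain r0 D1) Q ≤ Q.ord fb) →
      ∃ y : Ov, ((y : F) = 0 ∨ ∀ P : Place K F, -D1 P ≤ P.ord (y : F)) ∧ red y = fb)
    -- orthonormal basis of `L(D2) ∩ Ov`
    {n₂ : ℕ} (b₂ : Fin n₂ → F)
    (hb₂ : ∀ j, b₂ j ∈ Ov)
    (hspan₂ : ∀ y ∈ Ov, (y = 0 ∨ ∀ P : Place K F, -D2 P ≤ P.ord y) →
      ∃ x : Fin n₂ → K, (∀ j, algebraMap K F (x j) ∈ Ov) ∧ y = ∑ j, x j • b₂ j)
    (hon₂ : ∀ x : Fin n₂ → K, (∀ j, algebraMap K F (x j) ∈ Ov) →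
      (∑ j, x j • b₂ j) ∈ Ov.nonunits → ∀ j, algebraMap K F (x j) ∈ Ov.nonunits)
    (t : F) (htO : t ∈ Ov) (ht : t = 0 ∨ ∀ P : Place K F, -D2 P ≤ P.ord t) (a : K)
    (hloc : ∀ Q : Place k Fb, ∃ l z : F, l ∈ Ov ∧ z ∈ Ov ∧ t - l = algebraMap K F a * z ∧
      (l = 0 ∨ ∀ P, r0 P = Q → -D1 P ≤ P.ord l)) :
    ∃ c z : F, c ∈ Ov ∧ (c = 0 ∨ ∀ P : Place K F, -D1 P ≤ P.ord c) ∧ z ∈ Ov ∧
      t - c = algebraMap K F a * z := by
  classical
  set A : ValuationSubring K := Ov.comap (algebraMap K F) with hA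
  have hAmem : ∀ c : K, c ∈ A ↔ algebraMap K F c ∈ Ov := fun c => Iff.rfl
  have hAnon : ∀ c : K, c ∈ A.nonunits ↔ algebraMap K F c ∈ Ov.nonunits :=
    fun c => h64_comap_nonunits Ov c
  -- integral combinations lie in `Ov`
  have hcombO : ∀ {n : ℕ} (b : Fin n → F), (∀ j, b j ∈ Ov) → ∀ x : Fin n → K,
      (∀ j, x j ∈ A) → ∑ j, x j • b j ∈ Ov := by
    intro n b hb x hx
    refine sum_mem fun j _ => ?_
    rw [Algebra.smul_def]
    exact Ov.mul_mem _ _ (hx j) (hb j)
  -- small combinations are non-units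
  have hcombN : ∀ {n : ℕ} (b : Fin n → F), (∀ j, b j ∈ Ov) → ∀ x : Fin n → K,
      (∀ j, x j ∈ A.nonunits) → ∑ j, x j • b j ∈ Ov.nonunits := by
    intro n b hb x hx
    apply h64_nonunits_sum
    intro j _
    rw [Algebra.smul_def]
    exact h64_nonunits_mul_mem Ov ((hAnon _).mp (hx j)) (hb j)
  have hb₁O : ∀ i, b₁ i ∈ Ov := fun i => (hb₁ i).1
  -- 1. the matrix of `b₁` in `b₂`
  have hM : ∀ i, ∃ Mi : Fin n₂ → K, (∀ j, algebraMap K F (Mi j) ∈ Ov) ∧
      b₁ i = ∑ j, Mi j • b₂ j := fun i =>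
    hspan₂ (b₁ i) (hb₁ i).1
      ((h64_InS_univ_iff D2 _).mp (h64_InS_mono hle ((h64_InS_univ_iff D1 _).mpr (hb₁ i).2)))
  choose M hMint hMeq using hM
  -- 2. coordinates of `t`
  obtain ⟨x, hxint, hxeq⟩ := hspan₂ t htO ht
  -- 3. integral retraction
  have hind : ∀ lam : Fin n₁ → K, (∀ i, lam i ∈ A) →
      (∀ j, ∑ i, lam i * M i j ∈ A.nonunits) → ∀ i, lam i ∈ A.nonunits := by
    intro lam hlam hsum i
    rw [hAnon]
    apply hon₁ lam hlam
    rw [h64_comb_eq b₁ b₂ M hMeq lam]
    exact hcombN b₂ hb₂ _ hsum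
  obtain ⟨ρ, hρint, hρdual⟩ := h64_exists_retract A n₁ M hMint hind
  -- 4. the candidate `c`
  set c : F := ∑ i, ρ i x • b₁ i with hc
  have hcO : c ∈ Ov := hcombO b₁ hb₁O _ (fun i => hρint i x hxint)
  have hcL : h64_InS Set.univ D1 c := by
    apply h64_InS_sum
    intro i _
    exact h64_InS_smul _ ((h64_InS_univ_iff D1 _).mpr (hb₁ i).2)
  set x'' : Fin n₂ → K := fun j => x j - ∑ i, ρ i x * M i j with hx''
  have hx''int : ∀ j, x'' j ∈ A := fun j =>
    sub_mem (hxint j) (sum_mem fun i _ => A.mul_mem _ _ (hρint i x hxint) (hMint i j))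
  have htc : t - c = ∑ j, x'' j • b₂ j := by
    rw [hc, h64_comb_eq b₁ b₂ M hMeq, hxeq, ← Finset.sum_sub_distrib]
    apply Finset.sum_congr rfl
    intro j _
    rw [hx'', sub_smul]
  have hx''fun : x'' = x - ∑ i, ρ i x • M i := by
    funext j
    simp [hx'']
  have hρx'' : ∀ i', ρ i' x'' = 0 := by
    intro i'
    rw [hx''fun, map_sub, map_sum]
    simp only [map_smul, hρdual, smul_eq_mul, mul_ite, mul_one, mul_zero, Finset.sum_ite_eq,
      Finset.mem_univ, if_true, sub_self]
  -- 5. case distinction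
  by_cases hall : ∀ j, ∃ y : K, y ∈ A ∧ x'' j = a * y
  · choose y hyA hy using hall
    refine ⟨c, ∑ j, y j • b₂ j, hcO, (h64_InS_univ_iff D1 c).mp hcL, hcombO b₂ hb₂ y hyA, ?_⟩
    rw [htc, Finset.mul_sum]
    apply Finset.sum_congr rfl
    intro j _
    rw [hy j, Algebra.smul_def, Algebra.smul_def, map_mul, mul_assoc]
  exfalso
  push Not at hall
  obtain ⟨j₁, hj₁⟩ := hall
  set v := A.valuation with hv
  have hlt₁ : v a < v (x'' j₁) := by
    by_contra hle'
    push Not at hle'
    by_cases ha0 : a = 0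
    · have hx0 : x'' j₁ = 0 := by
        rw [ha0, map_zero] at hle'
        have := le_antisymm hle' zero_le
        rwa [Valuation.zero_iff] at this
      exact hj₁ 0 A.zero_mem (by rw [hx0, mul_zero])
    · refine hj₁ (x'' j₁ / a) ?_ (by field_simp)
      rw [← ValuationSubring.valuation_le_one_iff, map_div₀]
      have hapos : 0 < v a :=
        lt_of_le_of_ne zero_le (Ne.symm ((Valuation.ne_zero_iff _).mpr ha0))
      exact (div_le_one₀ hapos).mpr hle'
  obtain ⟨j₀, -, hj₀⟩ := Finset.exists_max_image (Finset.univ : Finset (Fin n₂))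
    (fun j => v (x'' j)) ⟨j₁, Finset.mem_univ _⟩
  set β := x'' j₀ with hβ
  have hltβ : v a < v β := lt_of_lt_of_le hlt₁ (hj₀ j₁ (Finset.mem_univ _))
  have hβpos : 0 < v β := lt_of_le_of_lt zero_le hltβ
  have hβ0 : β ≠ 0 := by
    intro h0
    rw [h0, map_zero] at hβpos
    exact lt_irrefl _ hβpos
  have haβ : a / β ∈ A.nonunits := by
    rw [ValuationSubring.mem_nonunits_iff, map_div₀]
    exact (div_lt_one₀ hβpos).mpr hltβ
  set yv : Fin n₂ → K := fun j => x'' j / β with hyv
  have hyvint : ∀ j, yv j ∈ A := by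
    intro j
    rw [← ValuationSubring.valuation_le_one_iff, hyv, map_div₀]
    exact (div_le_one₀ hβpos).mpr (hj₀ j (Finset.mem_univ _))
  have hyv0 : yv j₀ = 1 := by rw [hyv]; exact div_self hβ0
  set τ : F := ∑ j, yv j • b₂ j with hτ
  have hτO : τ ∈ Ov := hcombO b₂ hb₂ yv hyvint
  have hβτ : algebraMap K F β * τ = t - c := by
    rw [htc, hτ, Finset.mul_sum]
    apply Finset.sum_congr rfl
    intro j _
    rw [hyv, Algebra.smul_def, Algebra.smul_def, ← mul_assoc, ← map_mul, mul_div_cancel₀ _ hβ0]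
  have hτunit : τ ∉ Ov.nonunits := by
    intro hnon
    have := hon₂ yv hyvint hnon j₀
    rw [hyv0, map_one] at this
    exact h64_one_not_nonunits Ov this
  have hredτ : red ⟨τ, hτO⟩ ≠ 0 := fun h0 => hτunit ((red_eq_zero _).mp h0)
  have hρyv : ∀ i', ρ i' yv = 0 := by
    intro i'
    have : yv = β⁻¹ • x'' := by
      funext j
      simp [hyv, div_eq_inv_mul]
    rw [this, map_smul, hρx'', smul_zero]
  -- the reduction of `τ` lies in `L̄(r0_* D1)`
  have hτbar : ∀ Q : Place k Fb, -(Finsupp.mapDomain r0 D1) Q ≤ Q.ord (red ⟨τ, hτO⟩) := by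
    intro Q
    obtain ⟨l, z, hlO, hzO, hEq, hltube⟩ := hloc Q
    have hsmall : algebraMap K F (a / β) * z ∈ Ov.nonunits :=
      h64_nonunits_mul_mem Ov ((hAnon _).mp haβ) hzO
    have hτ'O : τ - algebraMap K F (a / β) * z ∈ Ov :=
      sub_mem hτO (Ov.nonunits_le hsmall)
    have hredeq : red ⟨τ - algebraMap K F (a / β) * z, hτ'O⟩ = red ⟨τ, hτO⟩ := by
      have h1 : (⟨τ - algebraMap K F (a / β) * z, hτ'O⟩ : Ov)
          = ⟨τ, hτO⟩ - ⟨algebraMap K F (a / β) * z, Ov.nonunits_le hsmall⟩ := rfl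
      rw [h1, map_sub,
        (red_eq_zero ⟨algebraMap K F (a / β) * z, Ov.nonunits_le hsmall⟩).mpr hsmall, sub_zero]
    have hτ'eq : τ - algebraMap K F (a / β) * z = β⁻¹ • (l - c) := by
      have hβF : algebraMap K F β ≠ 0 := by simpa using hβ0
      have h2 : l - c = (t - c) - (t - l) := by ring
      rw [h2, ← hβτ, hEq, Algebra.smul_def, map_div₀, map_inv₀]
      field_simp
    have hτ'tube : h64_InS {P | r0 P = Q} D1 (τ - algebraMap K F (a / β) * z) := by
      rw [hτ'eq]
      apply h64_InS_smul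
      exact h64_InS_sub hltube (h64_InS_subset (Set.subset_univ _) hcL)
    have hτ'red : red ⟨τ - algebraMap K F (a / β) * z, hτ'O⟩ ≠ 0 := by rw [hredeq]; exact hredτ
    have hτ'0 : τ - algebraMap K F (a / β) * z ≠ 0 := by
      intro h0
      apply hτ'red
      have : (⟨τ - algebraMap K F (a / β) * z, hτ'O⟩ : Ov) = 0 := Subtype.ext h0
      rw [this, map_zero]
    have := h64_tube_le Ov red r0 red_div ⟨_, hτ'O⟩ hτ'red Q D1
      (fun P hP => (hτ'tube.resolve_left hτ'0) P hP)
    rwa [hredeq] at this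
  -- lift the reduction of `τ` into `L(D1) ∩ Ov`
  obtain ⟨c', hc'L, hc'red⟩ := hlift₁ (red ⟨τ, hτO⟩) (Or.inr hτbar)
  have hdiffnon : τ - (c' : F) ∈ Ov.nonunits := by
    have h1 : red (⟨τ, hτO⟩ - c') = 0 := by rw [map_sub, hc'red, sub_self]
    exact (red_eq_zero _).mp h1
  obtain ⟨lam, hlamint, hlameq⟩ := hspan₁ (c' : F) c'.2 hc'L
  set w : Fin n₂ → K := fun j => yv j - ∑ i, lam i * M i j with hw
  have hwint : ∀ j, w j ∈ A := fun j =>
    sub_mem (hyvint j) (sum_mem fun i _ => A.mul_mem _ _ (hlamint i) (hMint i j))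
  have hweq : τ - (c' : F) = ∑ j, w j • b₂ j := by
    rw [hlameq, h64_comb_eq b₁ b₂ M hMeq, hτ, ← Finset.sum_sub_distrib]
    apply Finset.sum_congr rfl
    intro j _
    rw [hw, sub_smul]
  have hwnon : ∀ j, w j ∈ A.nonunits := by
    intro j
    rw [hAnon]
    apply hon₂ w hwint
    rw [← hweq]
    exact hdiffnon
  have hwfun : w = yv - ∑ i, lam i • M i := by
    funext j
    simp [hw]
  have hρw : ∀ i', ρ i' w = -lam i' := by
    intro i'
    rw [hwfun, map_sub, map_sum, hρyv]
    simp only [map_smul, hρdual, smul_eq_mul, mul_ite, mul_one, mul_zero, Finset.sum_ite_eq,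
      Finset.mem_univ, if_true, zero_sub]
  have hlamnon : ∀ i', lam i' ∈ A.nonunits := by
    intro i'
    have h1 := h64_functional_nonunits A (ρ i') (hρint i') w hwnon
    rw [hρw] at h1
    have := h64_nonunits_neg A h1
    rwa [neg_neg] at this
  have hfin : yv j₀ ∈ A.nonunits := by
    have h1 : yv j₀ = w j₀ + ∑ i, lam i * M i j₀ := by rw [hw]; ring
    rw [h1]
    apply h64_nonunits_add A (hwnon j₀)
    apply h64_nonunits_sum
    intro i _
    exact h64_nonunits_mul_mem A (hlamnon i) (hMint i j₀)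
  rw [hyv0] at hfin
  exact h64_one_not_nonunits A hfin

end Core

end Fermat.Agent.S18
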