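import Mathlib
import Fermat.Agent.S18.Defs
import Fermat.Agent.S18.h53_CoreDefs
import Fermat.Agent.S18.h64_RankOneW
import Fermat.Agent.S18.h64_SatCore

set_option autoImplicit false

/-!
# S18 CORE adapter: from the project interface (`h39_RedDatum`, `h39_PlaceRed`) to the CORE
interface (`h53_RedDatum`, `Liftable`)

* `h64_toRedDatum R PR : h53_RedDatum K F k Fb`;
* `h64_liftable`: every divisor of degree `≥ PR.c` is liftable (orthonormal basis by lifting a
  `k`-basis of `L̄(r0_* D')`);
* `h64_GT_of_core`: the generic theorem GT of the architecture, from the CORE theorem (taken as a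
  hypothesis `hcore` with the signature announced by the CORE owner).
-/

noncomputable section

namespace Fermat.Agent.S18

open AlgebraicCurve Finset

variable {K F k Fb : Type*} [Field K] [Field F] [Algebra K F] [Field k] [Field Fb] [Algebra k Fb]

/-! ### The reduction datum -/

theorem h64_red_eq_zero_iff (R : h39_RedDatum K F k Fb) (y : R.O) :
    R.red y = 0 ↔ (y : F) ∈ R.O.nonunits := by
  rw [ValuationSubring.coe_mem_nonunits_iff, ← IsLocalRing.ker_eq_maximalIdeal R.red
    R.red_surjective, RingHom.mem_ker]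

theorem h64_res_eq_zero_iff (R : h39_RedDatum K F k Fb) (a : R.A) :
    R.res a = 0 ↔ (a : K) ∈ R.A.nonunits := by
  rw [ValuationSubring.coe_mem_nonunits_iff, ← IsLocalRing.ker_eq_maximalIdeal R.res
    R.res_surjective, RingHom.mem_ker]

/-- `R.A` is the ring of constants of `R.O`. -/
theorem h64_A_eq_comap (R : h39_RedDatum K F k Fb) : R.A = R.O.comap (algebraMap K F) := by
  ext a
  exact R.mem_iff a

theorem h64_A_nonunits_iff (R : h39_RedDatum K F k Fb) (a : K) :
    a ∈ R.A.nonunits ↔ algebraMap K F a ∈ R.O.nonunits := by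
  rw [ValuationSubring.mem_nonunits_iff_or, ValuationSubring.mem_nonunits_iff_or, R.mem_iff,
    map_inv₀, map_eq_zero]

/-- The CORE reduction datum of a project reduction datum with a place reduction. -/
def h64_toRedDatum (R : h39_RedDatum K F k Fb) (PR : h39_PlaceRed R) : h53_RedDatum K F k Fb where
  Ov := R.O
  red := R.red
  red_eq_zero := h64_red_eq_zero_iff R
  exists_const := by
    intro y hy
    obtain ⟨c, hc, h1, h2⟩ := R.exists_scale y hy
    refine ⟨c, hc, le_antisymm ((R.O.valuation_le_one_iff _).mpr h1) ?_⟩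
    have h3 := (R.O.valuation_le_one_iff _).mpr h2
    rw [map_inv₀] at h3
    have hne : R.O.valuation (algebraMap K F c * y) ≠ 0 := by
      rw [Ne, Valuation.zero_iff]
      exact mul_ne_zero (by simpa using hc) hy
    exact (inv_le_one₀ (lt_of_le_of_ne zero_le (Ne.symm hne))).mp h3
  r0 := PR.r0
  red_div := fun y hy D hD Q => PR.compat (y : F) y.2 hy D hD Q

@[simp] theorem h64_toRedDatum_Ov (R : h39_RedDatum K F k Fb) (PR : h39_PlaceRed R) :
    (h64_toRedDatum R PR).Ov = R.O := rfl

@[simp] theorem h64_toRedDatum_red (R : h39_RedDatum K F k Fb) (PR : h39_PlaceRed R) :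
    (h64_toRedDatum R PR).red = R.red := rfl

@[simp] theorem h64_toRedDatum_r0 (R : h39_RedDatum K F k Fb) (PR : h39_PlaceRed R) :
    (h64_toRedDatum R PR).r0 = PR.r0 := rfl

/-! ### Dictionary `h53_InL` ↔ `riemannRochSpace` -/

theorem h64_inL_iff_mem {K F : Type*} [Field K] [Field F] [Algebra K F] (D : Divisor K F) (f : F) :
    h53_InL D f ↔ f ∈ riemannRochSpace D := by
  rw [mem_riemannRochSpace_iff]
  unfold h53_InL
  constructor
  · rintro (h | h)
    · exact fun _ => Or.inl h
    · exact fun v => Or.inr (h v)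
  · intro h
    by_cases h0 : f = 0
    · exact Or.inl h0
    · exact Or.inr fun v => (h v).resolve_left h0


/-! ### Orthonormal families -/

/-- **Primitive vector argument.**  A residually independent family is orthonormal in the strong
sense: a `K`-combination lying in `O` has integral coefficients. -/
theorem h64_strong_of_on (O : ValuationSubring F) {ι : Type*} [Fintype ι] (b : ι → F)
    (hON : ∀ x : ι → K, (∀ i, algebraMap K F (x i) ∈ O) → (∑ i, x i • b i) ∈ O.nonunits →
      ∀ i, algebraMap K F (x i) ∈ O.nonunits)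
    (x : ι → K) (hx : (∑ i, x i • b i) ∈ O) : ∀ i, algebraMap K F (x i) ∈ O := by
  classical
  by_contra hcon
  push Not at hcon
  obtain ⟨i₁, hi₁⟩ := hcon
  set A : ValuationSubring K := O.comap (algebraMap K F) with hA
  set v := A.valuation with hv
  obtain ⟨i₀, -, hi₀⟩ := Finset.exists_max_image (Finset.univ : Finset ι)
    (fun i => v (x i)) ⟨i₁, Finset.mem_univ _⟩
  have h1 : 1 < v (x i₁) := by
    by_contra hle
    push Not at hle
    exact hi₁ ((A.valuation_le_one_iff _).mp hle)
  have h0 : 1 < v (x i₀) := lt_of_lt_of_le h1 (hi₀ i₁ (Finset.mem_univ _))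
  have hpos : 0 < v (x i₀) := lt_trans zero_lt_one h0
  have hne : x i₀ ≠ 0 := by
    intro h
    rw [h, map_zero] at hpos
    exact lt_irrefl _ hpos
  have hnotA : x i₀ ∉ A := fun hmem => not_le.mpr h0 ((A.valuation_le_one_iff _).mpr hmem)
  have hyint : ∀ i, algebraMap K F (x i / x i₀) ∈ O := by
    intro i
    show x i / x i₀ ∈ A
    rw [← A.valuation_le_one_iff, map_div₀]
    exact (div_le_one₀ hpos).mpr (hi₀ i (Finset.mem_univ _))
  have hinvnon : algebraMap K F (x i₀)⁻¹ ∈ O.nonunits :=
    (h64_comap_nonunits O _).mp ((ValuationSubring.inv_mem_nonunits_iff A).mpr (Or.inr hnotA))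
  have hsum : (∑ i, (x i / x i₀) • b i) ∈ O.nonunits := by
    have e : ∑ i, (x i / x i₀) • b i = algebraMap K F (x i₀)⁻¹ * ∑ i, x i • b i := by
      rw [Finset.mul_sum]
      apply Finset.sum_congr rfl
      intro i _
      rw [Algebra.smul_def, Algebra.smul_def, ← mul_assoc, ← map_mul, div_eq_inv_mul]
    rw [e]
    exact h64_nonunits_mul_mem O hinvnon hx
  have := hON _ hyint hsum i₀
  rw [div_self hne, map_one] at this
  exact h64_one_not_nonunits O this

/-- a residually independent family is `K`-linearly independent. -/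
theorem h64_linearIndependent_of_on (O : ValuationSubring F) {ι : Type*} [Fintype ι] (b : ι → F)
    (hON : ∀ x : ι → K, (∀ i, algebraMap K F (x i) ∈ O) → (∑ i, x i • b i) ∈ O.nonunits →
      ∀ i, algebraMap K F (x i) ∈ O.nonunits) :
    LinearIndependent K b := by
  classical
  rw [Fintype.linearIndependent_iff]
  intro x hx
  by_contra hcon
  push Not at hcon
  obtain ⟨i₁, hi₁⟩ := hcon
  set A : ValuationSubring K := O.comap (algebraMap K F) with hA
  set v := A.valuation with hv
  obtain ⟨i₀, -, hi₀⟩ := Finset.exists_max_image (Finset.univ : Finset ι)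
    (fun i => v (x i)) ⟨i₁, Finset.mem_univ _⟩
  have hpos : 0 < v (x i₀) := by
    have h1 : 0 < v (x i₁) := lt_of_le_of_ne zero_le (Ne.symm ((Valuation.ne_zero_iff _).mpr hi₁))
    exact lt_of_lt_of_le h1 (hi₀ i₁ (Finset.mem_univ _))
  have hne : x i₀ ≠ 0 := by
    intro h
    rw [h, map_zero] at hpos
    exact lt_irrefl _ hpos
  have hyint : ∀ i, algebraMap K F (x i / x i₀) ∈ O := by
    intro i
    show x i / x i₀ ∈ A
    rw [← A.valuation_le_one_iff, map_div₀]
    exact (div_le_one₀ hpos).mpr (hi₀ i (Finset.mem_univ _))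
  have hsum : (∑ i, (x i / x i₀) • b i) ∈ O.nonunits := by
    have e : ∑ i, (x i / x i₀) • b i = algebraMap K F (x i₀)⁻¹ * ∑ i, x i • b i := by
      rw [Finset.mul_sum]
      apply Finset.sum_congr rfl
      intro i _
      rw [Algebra.smul_def, Algebra.smul_def, ← mul_assoc, ← map_mul, div_eq_inv_mul]
    rw [e, hx, mul_zero]
    exact O.nonunits.zero_mem
  have := hON _ hyint hsum i₀
  rw [div_self hne, map_one] at this
  exact h64_one_not_nonunits O this


/-! ### Liftability -/

/-- **(✱) ⟹ Liftable.**  Every divisor of degree `≥ PR.c` is liftable in the CORE sense: a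
`k`-basis of `L̄(r0_* D')` lifts to an orthonormal basis of `L(D') ∩ O`. -/
theorem h64_liftable (R : h39_RedDatum K F k Fb) (PR : h39_PlaceRed R) (D' : Divisor K F)
    [Module.Finite K (riemannRochSpace D')]
    [Module.Finite k (riemannRochSpace (Finsupp.mapDomain PR.r0 D'))]
    (hD' : PR.c ≤ Divisor.degree D') : (h64_toRedDatum R PR).Liftable D' := by
  classical
  set Lb := riemannRochSpace (Finsupp.mapDomain PR.r0 D') with hLb
  set n := Module.finrank k Lb with hn
  let β : Module.Basis (Fin n) k Lb := Module.finBasis k Lb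
  have hlift : ∀ i, ∃ (f : F) (hf : f ∈ R.O), f ∈ riemannRochSpace D' ∧
      R.red ⟨f, hf⟩ = ((β i : Lb) : Fb) := fun i => PR.lift D' hD' (β i) (β i).2
  choose b hbO hbL hbred using hlift
  -- orthonormality
  have hON : ∀ x : Fin n → K, (∀ i, algebraMap K F (x i) ∈ R.O) →
      (∑ i, x i • b i) ∈ R.O.nonunits → ∀ i, algebraMap K F (x i) ∈ R.O.nonunits := by
    intro x hx hsum i
    have hxA : ∀ i, x i ∈ R.A := fun i => (R.mem_iff _).mpr (hx i)
    have hmem : (∑ i, x i • b i) ∈ R.O := R.O.nonunits_le hsum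
    have h0 : R.red ⟨∑ i, x i • b i, hmem⟩ = 0 := (h64_red_eq_zero_iff R _).mpr hsum
    have e : (⟨∑ i, x i • b i, hmem⟩ : R.O)
        = ∑ i, (⟨algebraMap K F (x i), hx i⟩ : R.O) * ⟨b i, hbO i⟩ := by
      apply Subtype.ext
      rw [AddSubmonoidClass.coe_finsetSum]
      show ∑ i, x i • b i = _
      apply Finset.sum_congr rfl
      intro i _
      rw [Algebra.smul_def]
      rfl
    have h1 : R.red ⟨∑ i, x i • b i, hmem⟩
        = ∑ i, (R.res ⟨x i, hxA i⟩) • ((β i : Lb) : Fb) := by
      rw [e, map_sum]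
      apply Finset.sum_congr rfl
      intro i _
      rw [map_mul, R.red_algebraMap (x i) (hxA i) (hx i), hbred i, Algebra.smul_def]
    rw [h1] at h0
    have h2 : ∑ i, (R.res ⟨x i, hxA i⟩) • β i = 0 := by
      apply Subtype.ext
      rw [Submodule.coe_sum]
      simpa using h0
    have h3 := (Fintype.linearIndependent_iff.mp β.linearIndependent) _ h2 i
    exact (h64_A_nonunits_iff R _).mp ((h64_res_eq_zero_iff R _).mp h3)
  -- the lifted family is a basis of `L(D')`
  have hli : LinearIndependent K b := h64_linearIndependent_of_on R.O b hON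
  let b' : Fin n → riemannRochSpace D' := fun i => ⟨b i, hbL i⟩
  have hli' : LinearIndependent K b' := by
    apply LinearIndependent.of_comp (riemannRochSpace D').subtype
    exact hli
  have hcard : Fintype.card (Fin n) = Module.finrank K (riemannRochSpace D') := by
    rw [Fintype.card_fin, PR.finrank_eq D' hD']
  have hspan : Submodule.span K (Set.range b') = ⊤ :=
    hli'.span_eq_top_of_card_eq_finrank' hcard
  refine ⟨⟨n, b, fun i => ⟨hbO i, (h64_inL_iff_mem D' _).mpr (hbL i)⟩, ?_, hON⟩, ?_⟩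
  · intro y hyO hyL
    have hy' : (⟨y, (h64_inL_iff_mem D' y).mp hyL⟩ : riemannRochSpace D')
        ∈ Submodule.span K (Set.range b') := by rw [hspan]; trivial
    obtain ⟨x, hx⟩ := (Submodule.mem_span_range_iff_exists_fun K).mp hy'
    have hyx : y = ∑ i, x i • b i := by
      have := congrArg (fun z : riemannRochSpace D' => (z : F)) hx
      simp only [Submodule.coe_sum, Submodule.coe_smul] at this
      exact this.symm
    refine ⟨x, ?_, hyx⟩
    apply h64_strong_of_on R.O b hON x
    rw [← hyx]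
    exact hyO
  · intro fb hfb
    obtain ⟨f, hf, hfL, hfred⟩ := PR.lift D' hD' fb ((h64_inL_iff_mem _ fb).mp hfb)
    exact ⟨⟨f, hf⟩, (h64_inL_iff_mem D' f).mpr hfL, hfred⟩


/-! ### The generic theorem GT from the CORE theorem -/

/-- **GT from CORE.**  The generic theorem of the architecture (inputs in the project interface
`h39_RedDatum` + `h39_PlaceRed`), deduced from the CORE theorem `hcore` (the statement of
`h53_core`, taken here as a hypothesis with the signature fixed by the CORE owner). -/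
theorem h64_GT_of_core [IsAlgClosed K] [HasPrincipalDivisors K F]
    (hcore : ∀ (R' : h53_RedDatum K F k Fb),
      (∀ a d : K, a ≠ 0 → algebraMap K F a ∈ R'.Ov.nonunits → d ≠ 0 →
        ∃ n : ℕ, algebraMap K F (d * (a ^ n)⁻¹) ∉ R'.Ov) →
      ∀ (d0 : ℤ), (∀ D' : Divisor K F, d0 ≤ Divisor.degree D' → R'.Liftable D') →
      (∀ P : Place K F, P.deg = 1) → ∀ (P₁ P₂ : Place K F), R'.r0 P₁ ≠ R'.r0 P₂ →
      ∀ (m : ℕ), (m : Fb) ≠ 0 → ∀ (D : Divisor K F) (u : R'.Ov), R'.red u = 1 →
      (∀ P : Place K F, P.ord (u : F) = m * D P) →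
      ∃ g : F, g ^ m = (u : F) ∧ g ≠ 0 ∧ ∀ P : Place K F, D P = P.ord g)
    (R : h39_RedDatum K F k Fb) (PR : h39_PlaceRed R) (hR1 : h39_RankOne R.A)
    (hfinK : ∀ D : Divisor K F, Module.Finite K (riemannRochSpace D))
    (hfink : ∀ D : Divisor k Fb, Module.Finite k (riemannRochSpace D))
    (hdeg : ∀ P : Place K F, P.deg = 1)
    (m : ℕ) (hm : (m : k) ≠ 0) (D : Divisor K F) (u : F) (hu : u ∈ R.O)
    (hu1 : R.red ⟨u, hu⟩ = 1) (hord : ∀ P : Place K F, P.ord u = m * D P) :
    ∃ g : F, g ^ m = u ∧ g ≠ 0 ∧ ∀ P : Place K F, D P = P.ord g := by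
  obtain ⟨P₁, P₂, h12⟩ := PR.two
  have hrank : ∀ a d : K, a ≠ 0 → algebraMap K F a ∈ (h64_toRedDatum R PR).Ov.nonunits → d ≠ 0 →
      ∃ n : ℕ, algebraMap K F (d * (a ^ n)⁻¹) ∉ (h64_toRedDatum R PR).Ov := by
    have h := hR1
    rw [h64_A_eq_comap R] at h
    exact h64_hrank_of_rankOne R.O h
  have hmFb : (m : Fb) ≠ 0 := by
    intro h0
    apply hm
    have : algebraMap k Fb (m : k) = 0 := by rw [map_natCast]; exact h0
    exact (map_eq_zero _).mp this
  exact hcore (h64_toRedDatum R PR) hrank PR.c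
    (fun D' hD' => by
      have := hfinK D'
      have := hfink (Finsupp.mapDomain PR.r0 D')
      exact h64_liftable R PR D' hD')
    hdeg P₁ P₂ h12 m hmFb D ⟨u, hu⟩ hu1 hord

/-- GT in the form "`D` is principal". -/
theorem h64_GT_principal_of_core [IsAlgClosed K] [HasPrincipalDivisors K F]
    (hcore : ∀ (R' : h53_RedDatum K F k Fb),
      (∀ a d : K, a ≠ 0 → algebraMap K F a ∈ R'.Ov.nonunits → d ≠ 0 →
        ∃ n : ℕ, algebraMap K F (d * (a ^ n)⁻¹) ∉ R'.Ov) →
      ∀ (d0 : ℤ), (∀ D' : Divisor K F, d0 ≤ Divisor.degree D' → R'.Liftable D') →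
      (∀ P : Place K F, P.deg = 1) → ∀ (P₁ P₂ : Place K F), R'.r0 P₁ ≠ R'.r0 P₂ →
      ∀ (m : ℕ), (m : Fb) ≠ 0 → ∀ (D : Divisor K F) (u : R'.Ov), R'.red u = 1 →
      (∀ P : Place K F, P.ord (u : F) = m * D P) →
      ∃ g : F, g ^ m = (u : F) ∧ g ≠ 0 ∧ ∀ P : Place K F, D P = P.ord g)
    (R : h39_RedDatum K F k Fb) (PR : h39_PlaceRed R) (hR1 : h39_RankOne R.A)
    (hfinK : ∀ D : Divisor K F, Module.Finite K (riemannRochSpace D))
    (hfink : ∀ D : Divisor k Fb, Module.Finite k (riemannRochSpace D))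
    (hdeg : ∀ P : Place K F, P.deg = 1)
    (m : ℕ) (hm : (m : k) ≠ 0) (D : Divisor K F) (u : F) (hu : u ∈ R.O)
    (hu1 : R.red ⟨u, hu⟩ = 1) (hord : ∀ P : Place K F, P.ord u = m * D P) :
    D ∈ Divisor.principal (K := K) (F := F) := by
  obtain ⟨g, -, hg0, hD⟩ := h64_GT_of_core hcore R PR hR1 hfinK hfink hdeg m hm D u hu hu1 hord
  exact ⟨g, hg0, hD⟩

end Fermat.Agent.S18
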