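import Mathlib
import Fermat.Agent.S18.Defs
import Fermat.Agent.S18.h64_CoreAdapter

set_option autoImplicit false

/-!
# S18 GR2' core (helper20): orthonormal bases of finite-dimensional subspaces, abstract form

* `h20_gauss_elim`: Gaussian elimination over a valuation ring (no noetherianity): a
  finite-dimensional subspace of a coordinatised `K`-space has a basis with integral coordinates
  and residually independent coordinate vectors.
* `h20_redF_sum_smul`, `h20_linearIndependent_red_of_on`, `h20_on_of_linearIndependent_red`: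
  residual independence versus the "orthonormal" property used by `h64_strong_of_on`.
* `h20_exists_on_of_coord`, `h20_exists_on_of_top`: orthonormal bases of finite-dimensional
  subspaces of the range of a coordinatised map whose integrality is detected on coordinates.
-/

noncomputable section

namespace Fermat.Agent.S18

open Module

/-! ### Gaussian elimination over a valuation ring -/

/-- **Gaussian elimination over a valuation ring.**  `coord` is an injective coordinate map with
finitely many nonzero coordinates on each vector; `r` is any map with `r 0 = 0`, `r 1 ≠ 0`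
(the residue map extended by zero).  Every `n`-dimensional subspace `V` has `n` vectors with
integral coordinates whose reduced coordinate vectors are linearly independent. -/
theorem h20_gauss_elim {K k : Type*} [Field K] [Field k] (A : ValuationSubring K)
    (r : K → k) (h0 : r 0 = 0) (h1 : r 1 ≠ 0)
    {E : Type*} [AddCommGroup E] [Module K E] {J : Type*} (coord : E →ₗ[K] (J → K))
    (hfin : ∀ p, (Function.support (coord p)).Finite)
    (hinj : ∀ p, coord p = 0 → p = 0) :
    ∀ (n : ℕ) (V : Submodule K E), Module.Finite K V → Module.finrank K V = n →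
      ∃ e : Fin n → E, (∀ i, e i ∈ V) ∧ (∀ i j, coord (e i) j ∈ A) ∧
        LinearIndependent k (fun i => r ∘ coord (e i)) := by
  classical
  intro n
  induction n with
  | zero =>
    intro V _ _
    exact ⟨Fin.elim0, fun i => i.elim0, fun i => i.elim0, linearIndependent_empty_type⟩
  | succ n ih =>
    intro V hVfin hV
    have hVne : V ≠ ⊥ := by
      intro h
      rw [h, finrank_bot] at hV
      omega
    obtain ⟨v, hvV, hv0⟩ := (Submodule.ne_bot_iff V).mp hVne
    have hcv : coord v ≠ 0 := fun h => hv0 (hinj v h)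
    have hne : (hfin v).toFinset.Nonempty := by
      obtain ⟨j, hj⟩ := Function.ne_iff.mp hcv
      exact ⟨j, by simpa using hj⟩
    obtain ⟨j₀, hj₀, hmax⟩ := Finset.exists_max_image (hfin v).toFinset
      (fun j => A.valuation (coord v j)) hne
    have hj₀' : coord v j₀ ≠ 0 := by simpa using hj₀
    set w : E := (coord v j₀)⁻¹ • v with hw
    have hwV : w ∈ V := V.smul_mem _ hvV
    have hwc : ∀ j, coord w j = (coord v j₀)⁻¹ * coord v j := by
      intro j
      rw [hw, map_smul, Pi.smul_apply, smul_eq_mul]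
    have hwj₀ : coord w j₀ = 1 := by
      rw [hwc, inv_mul_cancel₀ hj₀']
    have hwA : ∀ j, coord w j ∈ A := by
      intro j
      rw [hwc]
      by_cases hj : coord v j = 0
      · rw [hj, mul_zero]
        exact A.zero_mem
      · have hjm : j ∈ (hfin v).toFinset := by simpa using hj
        have hle := hmax j hjm
        rw [← A.valuation_le_one_iff, map_mul, map_inv₀]
        have hpos : 0 < A.valuation (coord v j₀) :=
          lt_of_le_of_ne zero_le (Ne.symm ((Valuation.ne_zero_iff _).mpr hj₀'))
        rw [inv_mul_le_iff₀ hpos, mul_one]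
        exact hle
    set ℓ : E →ₗ[K] K := (LinearMap.proj j₀) ∘ₗ coord with hℓ
    have hℓw : ℓ w = 1 := hwj₀
    set V₁ : Submodule K E := V ⊓ LinearMap.ker ℓ with hV₁
    have hw0 : w ≠ 0 := by
      intro h
      rw [h, map_zero] at hℓw
      exact zero_ne_one hℓw
    have hsup : (K ∙ w) ⊔ V₁ = V := by
      apply le_antisymm
      · exact sup_le ((Submodule.span_singleton_le_iff_mem _ _).mpr hwV) inf_le_left
      · intro u hu
        refine Submodule.mem_sup.mpr ⟨ℓ u • w, Submodule.smul_mem _ _
          (Submodule.mem_span_singleton_self w), u - ℓ u • w, ⟨V.sub_mem hu (V.smul_mem _ hwV), ?_⟩,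
          by abel⟩
        show u - ℓ u • w ∈ LinearMap.ker ℓ
        rw [LinearMap.mem_ker, map_sub, map_smul, hℓw, smul_eq_mul, mul_one, sub_self]
    have hinf : (K ∙ w) ⊓ V₁ = ⊥ := by
      rw [eq_bot_iff]
      rintro u ⟨hu1, hu2⟩
      obtain ⟨a, rfl⟩ := Submodule.mem_span_singleton.mp hu1
      have h3 : ℓ (a • w) = 0 := hu2.2
      rw [map_smul, hℓw, smul_eq_mul, mul_one] at h3
      rw [h3, zero_smul]
      exact Submodule.zero_mem _
    have hV₁fin : Module.Finite K V₁ := Submodule.finiteDimensional_of_le (inf_le_left : V₁ ≤ V)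
    have hdim : Module.finrank K V₁ = n := by
      have h := Submodule.finrank_sup_add_finrank_inf_eq (K ∙ w) V₁
      rw [hsup, hinf, finrank_bot, finrank_span_singleton hw0, hV] at h
      omega
    obtain ⟨e', he'V, he'A, he'ind⟩ := ih V₁ hV₁fin hdim
    refine ⟨Fin.cons w e', ?_, ?_, ?_⟩
    · intro i
      refine Fin.cases ?_ (fun i => ?_) i
      · simpa using hwV
      · simpa using (he'V i).1
    · intro i
      refine Fin.cases ?_ (fun i => ?_) i
      · simpa using hwA
      · simpa using he'A i
    · have hfun : (fun i => r ∘ coord ((Fin.cons w e' : Fin (n + 1) → E) i)) =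
          Fin.cons (r ∘ coord w) (fun i => r ∘ coord (e' i)) := by
        funext i
        refine Fin.cases ?_ (fun i => ?_) i
        · simp
        · simp
      rw [hfun, linearIndependent_finCons]
      refine ⟨he'ind, fun hmem => ?_⟩
      have hle : Submodule.span k (Set.range fun i => r ∘ coord (e' i)) ≤
          LinearMap.ker (LinearMap.proj j₀ : (J → k) →ₗ[k] k) := by
        rw [Submodule.span_le]
        rintro _ ⟨i, rfl⟩
        have h3 : ℓ (e' i) = 0 := (he'V i).2
        have h4 : coord (e' i) j₀ = 0 := h3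
        simp [h4, h0]
      have h5 := hle hmem
      rw [LinearMap.mem_ker, LinearMap.proj_apply, Function.comp_apply, hwj₀] at h5
      exact h1 h5

/-! ### Reduction calculus -/

variable {K F k Fb : Type*} [Field K] [Field F] [Algebra K F] [Field k] [Field Fb] [Algebra k Fb]

theorem h20_sum_smul_mem (R : h39_RedDatum K F k Fb) {ι : Type*} (s : Finset ι) (a : ι → K)
    (e : ι → F) (ha : ∀ i, a i ∈ R.A) (he : ∀ i, e i ∈ R.O) : (∑ i ∈ s, a i • e i) ∈ R.O := by
  refine sum_mem fun i _ => ?_
  rw [Algebra.smul_def]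
  exact R.O.mul_mem _ _ ((R.mem_iff _).mp (ha i)) (he i)

/-- `redF` of an integral combination of integral elements. -/
theorem h20_redF_sum_smul (R : h39_RedDatum K F k Fb) {ι : Type*} (s : Finset ι) (a : ι → K)
    (e : ι → F) (ha : ∀ i, a i ∈ R.A) (he : ∀ i, e i ∈ R.O) :
    R.redF (∑ i ∈ s, a i • e i) = ∑ i ∈ s, R.resK (a i) • R.redF (e i) := by
  have hmem := h20_sum_smul_mem R s a e ha he
  rw [R.redF_of_mem hmem]
  have h1 : (⟨∑ i ∈ s, a i • e i, hmem⟩ : R.O) =
      ∑ i ∈ s, (⟨algebraMap K F (a i), (R.mem_iff _).mp (ha i)⟩ : R.O) * ⟨e i, he i⟩ := by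
    apply Subtype.ext
    rw [AddSubmonoidClass.coe_finsetSum]
    refine Finset.sum_congr rfl fun i _ => ?_
    rw [Algebra.smul_def]
    rfl
  rw [h1, map_sum]
  refine Finset.sum_congr rfl fun i _ => ?_
  rw [map_mul, R.red_algebraMap (a i) (ha i), R.resK_of_mem (ha i), R.redF_of_mem (he i),
    Algebra.smul_def]

/-- `resK` of a sum of products of integral constants. -/
theorem h20_resK_sum_mul (R : h39_RedDatum K F k Fb) {ι : Type*} (s : Finset ι) (a c : ι → K)
    (ha : ∀ i, a i ∈ R.A) (hc : ∀ i, c i ∈ R.A) :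
    R.resK (∑ i ∈ s, a i * c i) = ∑ i ∈ s, R.resK (a i) * R.resK (c i) := by
  have hmem : (∑ i ∈ s, a i * c i) ∈ R.A := sum_mem fun i _ => R.A.mul_mem _ _ (ha i) (hc i)
  rw [R.resK_of_mem hmem]
  have h1 : (⟨∑ i ∈ s, a i * c i, hmem⟩ : R.A) =
      ∑ i ∈ s, (⟨a i, ha i⟩ : R.A) * ⟨c i, hc i⟩ := by
    apply Subtype.ext
    rw [AddSubmonoidClass.coe_finsetSum]
    rfl
  rw [h1, map_sum]
  refine Finset.sum_congr rfl fun i _ => ?_
  rw [map_mul, R.resK_of_mem (ha i), R.resK_of_mem (hc i)]

theorem h20_redF_eq_zero_iff (R : h39_RedDatum K F k Fb) {f : F} (hf : f ∈ R.O) :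
    R.redF f = 0 ↔ f ∈ R.O.nonunits := by
  rw [R.redF_of_mem hf]
  exact h64_red_eq_zero_iff R ⟨f, hf⟩

theorem h20_resK_eq_zero_iff (R : h39_RedDatum K F k Fb) {a : K} (ha : a ∈ R.A) :
    R.resK a = 0 ↔ a ∈ R.A.nonunits := by
  rw [R.resK_of_mem ha]
  exact h64_res_eq_zero_iff R ⟨a, ha⟩

/-! ### Orthonormality versus residual independence -/

/-- The "orthonormal" property of a family (the hypothesis shape of `h64_strong_of_on`). -/
def h20_IsON (R : h39_RedDatum K F k Fb) {ι : Type*} [Fintype ι] (e : ι → F) : Prop :=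
  ∀ x : ι → K, (∀ i, algebraMap K F (x i) ∈ R.O) → (∑ i, x i • e i) ∈ R.O.nonunits →
    ∀ i, algebraMap K F (x i) ∈ R.O.nonunits

/-- An orthonormal integral family has `k`-linearly independent reductions. -/
theorem h20_linearIndependent_red_of_on (R : h39_RedDatum K F k Fb) {ι : Type*} [Fintype ι]
    (e : ι → F) (he : ∀ i, e i ∈ R.O) (hON : h20_IsON R e) :
    LinearIndependent k (fun i => R.redF (e i)) := by
  rw [Fintype.linearIndependent_iff]
  intro l hl i
  choose a ha using fun i => R.res_surjective (l i)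
  have haA : ∀ i, ((a i : R.A) : K) ∈ R.A := fun i => (a i).2
  have hres : ∀ i, R.resK ((a i : R.A) : K) = l i := fun i => by
    rw [R.resK_of_mem (haA i)]
    exact ha i
  have hsum : R.redF (∑ i, ((a i : R.A) : K) • e i) = 0 := by
    rw [h20_redF_sum_smul R Finset.univ _ e haA he, ← hl]
    exact Finset.sum_congr rfl fun i _ => by rw [hres i]
  have hmem : (∑ i, ((a i : R.A) : K) • e i) ∈ R.O.nonunits :=
    (h20_redF_eq_zero_iff R (h20_sum_smul_mem R Finset.univ _ e haA he)).mp hsum
  have h3 := hON (fun i => ((a i : R.A) : K)) (fun i => (R.mem_iff _).mp (haA i)) hmem i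
  rw [← hres i]
  exact (h20_resK_eq_zero_iff R (haA i)).mpr ((h64_A_nonunits_iff R _).mpr h3)

/-- An integral family with `k`-linearly independent reductions is orthonormal. -/
theorem h20_on_of_linearIndependent_red (R : h39_RedDatum K F k Fb) {ι : Type*} [Fintype ι]
    (e : ι → F) (he : ∀ i, e i ∈ R.O) (hind : LinearIndependent k (fun i => R.redF (e i))) :
    h20_IsON R e := by
  intro x hx hsum i
  have hxA : ∀ i, x i ∈ R.A := fun i => (R.mem_iff _).mpr (hx i)
  have h0 : R.redF (∑ i, x i • e i) = 0 :=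
    (h20_redF_eq_zero_iff R (h20_sum_smul_mem R Finset.univ x e hxA he)).mpr hsum
  rw [h20_redF_sum_smul R Finset.univ x e hxA he] at h0
  have h1 := Fintype.linearIndependent_iff.mp hind (fun i => R.resK (x i)) h0 i
  exact (h64_A_nonunits_iff R _).mp ((h20_resK_eq_zero_iff R (hxA i)).mp h1)

/-! ### Orthonormal bases of finite-dimensional subspaces -/

/-- The trivially valued case: any `K`-basis is orthonormal. -/
theorem h20_exists_on_of_top (R : h39_RedDatum K F k Fb) (hA : R.A = ⊤)
    (V : Submodule K F) [Module.Finite K V] :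
    ∃ e : Fin (Module.finrank K V) → F, (∀ i, e i ∈ V) ∧ (∀ i, e i ∈ R.O) ∧ h20_IsON R e := by
  have hO : ∀ f : F, f ∈ R.O := by
    intro f
    by_cases hf : f = 0
    · rw [hf]
      exact R.O.zero_mem
    · obtain ⟨c, hc, h1, -⟩ := R.exists_scale f hf
      have h2 : algebraMap K F c⁻¹ ∈ R.O := (R.mem_iff _).mp (by rw [hA]; trivial)
      have h3 : f = algebraMap K F c⁻¹ * (algebraMap K F c * f) := by
        rw [← mul_assoc, ← map_mul, inv_mul_cancel₀ hc, map_one, one_mul]
      rw [h3]
      exact R.O.mul_mem _ _ h2 h1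
  have hnon : ∀ f : F, f ∈ R.O.nonunits → f = 0 := by
    intro f hf
    rcases (ValuationSubring.mem_nonunits_iff_or R.O).mp hf with h | h
    · exact h
    · exact absurd (hO _) h
  let β := Module.finBasis K V
  have hind : LinearIndependent K (fun i => ((β i : V) : F)) :=
    β.linearIndependent.map' V.subtype (Submodule.ker_subtype V)
  refine ⟨fun i => ((β i : V) : F), fun i => (β i).2, fun i => hO _, ?_⟩
  intro x _ hsum i
  have h0 := hnon _ hsum
  have h1 := Fintype.linearIndependent_iff.mp hind x h0 i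
  rw [h1, map_zero]
  exact R.O.nonunits.zero_mem

/-- The nontrivially valued case: `Ψ` is a coordinatised map whose integrality is detected on the
coordinates. -/
theorem h20_exists_on_of_coord_aux (R : h39_RedDatum K F k Fb) (hA : R.A ≠ ⊤)
    {E : Type*} [AddCommGroup E] [Module K E] {J : Type*} (coord : E →ₗ[K] (J → K))
    (hfin : ∀ p, (Function.support (coord p)).Finite)
    (hinj : ∀ p, coord p = 0 → p = 0)
    (Ψ : E →ₗ[K] F) (hΨ : ∀ p, Ψ p ∈ R.O ↔ ∀ j, coord p j ∈ R.A)
    (V : Submodule K F) [Module.Finite K V] (hV : V ≤ LinearMap.range Ψ) :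
    ∃ e : Fin (Module.finrank K V) → F, (∀ i, e i ∈ V) ∧ (∀ i, e i ∈ R.O) ∧ h20_IsON R e := by
  classical
  obtain ⟨t, ht⟩ : ∃ t : K, t ∉ R.A := by
    by_contra h
    push Not at h
    exact hA (eq_top_iff.mpr fun x _ => h x)
  -- a non-integral multiple of a vector with a non-unit value
  have hscale : ∀ c : E, Ψ c ∈ R.O.nonunits →
      ∃ a : K, a ∉ R.A ∧ algebraMap K F a * Ψ c ∈ R.O := by
    intro c hc
    by_cases h0 : Ψ c = 0
    · exact ⟨t, ht, by rw [h0, mul_zero]; exact R.O.zero_mem⟩
    · obtain ⟨a, ha0, h1, h2⟩ := R.exists_scale (Ψ c) h0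
      refine ⟨a, fun haA => ?_, h1⟩
      have h3 : algebraMap K F a * Ψ c ∈ R.O.nonunits :=
        h64_mem_mul_nonunits R.O ((R.mem_iff _).mp haA) hc
      rcases (ValuationSubring.mem_nonunits_iff_or R.O).mp h3 with h | h
      · rcases mul_eq_zero.mp h with h | h
        · exact ha0 (by simpa using h)
        · exact h0 h
      · exact h h2
  have hstar : ∀ c : E, Ψ c ∈ R.O.nonunits → ∀ j, coord c j ∈ R.A.nonunits := by
    intro c hc j
    obtain ⟨a, haA, hamem⟩ := hscale c hc
    have h5 : Ψ (a • c) ∈ R.O := by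
      rw [map_smul, Algebra.smul_def]
      exact hamem
    have h6 := (hΨ (a • c)).mp h5 j
    rw [map_smul, Pi.smul_apply, smul_eq_mul] at h6
    rw [ValuationSubring.mem_nonunits_iff_or]
    by_contra hcon
    push Not at hcon
    obtain ⟨hne, hinv⟩ := hcon
    apply haA
    have h7 : a = a * coord c j * (coord c j)⁻¹ := by
      rw [mul_assoc, mul_inv_cancel₀ hne, mul_one]
    rw [h7]
    exact R.A.mul_mem _ _ h6 hinv
  -- `Ψ` is injective
  have hΨinj : Function.Injective Ψ := by
    rw [← LinearMap.ker_eq_bot, eq_bot_iff]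
    intro c hc
    rw [LinearMap.mem_ker] at hc
    have h1 : ∀ j, coord c j ∈ R.A.nonunits := hstar c (by rw [hc]; exact R.O.nonunits.zero_mem)
    have h2 : ∀ j, coord c j = 0 := by
      intro j
      by_contra hne
      -- `t • c` also maps to zero
      have h3 : Ψ ((t * (coord c j)⁻¹) • c) ∈ R.O.nonunits := by
        rw [map_smul, hc, smul_zero]
        exact R.O.nonunits.zero_mem
      have h4 := hstar _ h3 j
      rw [map_smul, Pi.smul_apply, smul_eq_mul, mul_assoc, inv_mul_cancel₀ hne, mul_one] at h4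
      exact ht (R.A.nonunits_le h4)
    exact (Submodule.mem_bot K).mpr (hinj c (funext h2))
  -- transport `V`
  set V' : Submodule K E := V.comap Ψ with hV'
  have hmap : V'.map Ψ = V := Submodule.map_comap_eq_of_le hV
  let eqv : V' ≃ₗ[K] V := (Submodule.equivMapOfInjective Ψ hΨinj V').trans
    (LinearEquiv.ofEq _ _ hmap)
  have hV'fin : Module.Finite K V' := Module.Finite.equiv eqv.symm
  have hdim : Module.finrank K V' = Module.finrank K V := LinearEquiv.finrank_eq eqv
  obtain ⟨e', he'V, he'A, he'ind⟩ := h20_gauss_elim R.A R.resK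
    (by rw [R.resK_of_mem R.A.zero_mem]; exact map_zero R.res)
    (by rw [R.resK_of_mem R.A.one_mem]; exact (map_one R.res).trans_ne one_ne_zero)
    coord hfin hinj (Module.finrank K V) V' hV'fin hdim
  refine ⟨fun i => Ψ (e' i), fun i => he'V i, fun i => (hΨ _).mpr (he'A i), ?_⟩
  intro x hx hsum i
  have hxA : ∀ i, x i ∈ R.A := fun i => (R.mem_iff _).mpr (hx i)
  have hc : Ψ (∑ i, x i • e' i) ∈ R.O.nonunits := by
    rw [map_sum]
    simpa only [map_smul] using hsum
  have h1 := hstar _ hc
  have h2 : ∑ i, R.resK (x i) • (R.resK ∘ coord (e' i)) = 0 := by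
    funext j
    have h3 := (h20_resK_eq_zero_iff R (R.A.nonunits_le (h1 j))).mpr (h1 j)
    rw [map_sum] at h3
    simp only [map_smul, Finset.sum_apply, Pi.smul_apply, smul_eq_mul] at h3
    rw [h20_resK_sum_mul R Finset.univ x (fun i => coord (e' i) j) hxA (fun i => he'A i j)] at h3
    simpa using h3
  have h4 := Fintype.linearIndependent_iff.mp he'ind (fun i => R.resK (x i)) h2 i
  exact (h64_A_nonunits_iff R _).mp ((h20_resK_eq_zero_iff R (hxA i)).mp h4)

/-- **Orthonormal bases of subspaces (abstract form).**  `Ψ : E → F` is a `K`-linear map from a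
coordinatised space (`coord` injective, finitely many nonzero coordinates) such that `Ψ p` is
integral exactly when all coordinates of `p` are.  Then every finite-dimensional subspace of the
range of `Ψ` has an orthonormal basis. -/
theorem h20_exists_on_of_coord (R : h39_RedDatum K F k Fb)
    {E : Type*} [AddCommGroup E] [Module K E] {J : Type*} (coord : E →ₗ[K] (J → K))
    (hfin : ∀ p, (Function.support (coord p)).Finite)
    (hinj : ∀ p, coord p = 0 → p = 0)
    (Ψ : E →ₗ[K] F) (hΨ : ∀ p, Ψ p ∈ R.O ↔ ∀ j, coord p j ∈ R.A)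
    (V : Submodule K F) [Module.Finite K V] (hV : V ≤ LinearMap.range Ψ) :
    ∃ e : Fin (Module.finrank K V) → F, (∀ i, e i ∈ V) ∧ (∀ i, e i ∈ R.O) ∧ h20_IsON R e ∧
      LinearIndependent k (fun i => R.redF (e i)) := by
  by_cases hA : R.A = ⊤
  · obtain ⟨e, h1, h2, h3⟩ := h20_exists_on_of_top R hA V
    exact ⟨e, h1, h2, h3, h20_linearIndependent_red_of_on R e h2 h3⟩
  · obtain ⟨e, h1, h2, h3⟩ := h20_exists_on_of_coord_aux R hA coord hfin hinj Ψ hΨ V hV
    exact ⟨e, h1, h2, h3, h20_linearIndependent_red_of_on R e h2 h3⟩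

end Fermat.Agent.S18
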