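import Mathlib
import Fermat.Agent.S18.GR_RedAPI
import Fermat.Agent.S18.GR_Gauss
import Fermat.Agent.S18.GR_Basis
import Fermat.Agent.S18.h20_ONCore

/-!
# S18 / GR2' : orthonormal bases of finite-dimensional `K`-subspaces of `F`

The statements of section GR2' of the GOODRED skeleton, for a weak chart `x`
(`hx : h39_WeakChart R x` is an explicit hypothesis of every statement, after `R`).

With the orthonormal `K(x)`-basis `b` of GR2 and a common denominator `d(x)` (a unit of `O`),
a finite-dimensional `K`-subspace `V` of `F` lies in the range of the synthesis map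
`p ↦ d(x)⁻¹ ∑ᵢ pᵢ(x) bᵢ` on `ι → K[X]`, whose value is integral exactly when all the
coefficients of all the `pᵢ` are (GR1 + GR2).  Gaussian elimination over the valuation ring
(`h20_ONCore.lean`) does the rest.
-/

set_option autoImplicit false

noncomputable section

open AlgebraicCurve IntermediateField Polynomial

namespace Fermat.Agent.S18

variable {K F k Fb : Type*} [Field K] [Field F] [Algebra K F] [Field k] [Field Fb] [Algebra k Fb]

/-! ### The synthesis map and its coordinates -/

/-- The synthesis map `p ↦ u ∑ᵢ pᵢ(x) bᵢ`. -/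
def h20_synth (K : Type*) {F : Type*} [Field K] [Field F] [Algebra K F] (x : F) {ι : Type*}
    [Fintype ι] (b : ι → F) (u : F) : (ι → K[X]) →ₗ[K] F where
  toFun p := u * ∑ i, aeval x (p i) * b i
  map_add' p q := by
    simp only [Pi.add_apply, map_add, add_mul, Finset.sum_add_distrib, mul_add]
  map_smul' c p := by
    simp only [Pi.smul_apply, map_smul, RingHom.id_apply, smul_mul_assoc, ← Finset.smul_sum,
      mul_smul_comm]

theorem h20_synth_apply {x : F} {ι : Type*} [Fintype ι] (b : ι → F) (u : F) (p : ι → K[X]) :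
    h20_synth K x b u p = u * ∑ i, aeval x (p i) * b i := rfl

/-- The coefficient coordinates on `ι → K[X]`. -/
def h20_coord (K : Type*) [Field K] (ι : Type*) : (ι → K[X]) →ₗ[K] (ι × ℕ → K) where
  toFun p := fun j => (p j.1).coeff j.2
  map_add' p q := by
    funext j
    simp
  map_smul' c p := by
    funext j
    simp

theorem h20_coord_apply {ι : Type*} (p : ι → K[X]) (j : ι × ℕ) :
    h20_coord K ι p j = (p j.1).coeff j.2 := rfl

theorem h20_coord_finite {ι : Type*} [Finite ι] (p : ι → K[X]) :
    (Function.support (h20_coord K ι p)).Finite := by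
  refine Set.Finite.subset (Set.finite_univ.prod
    (Set.finite_iUnion fun i => (p i).support.finite_toSet)) ?_
  intro j hj
  rw [Function.mem_support, h20_coord_apply] at hj
  exact ⟨Set.mem_univ _, Set.mem_iUnion.mpr ⟨j.1, Polynomial.mem_support_iff.mpr hj⟩⟩

theorem h20_coord_inj {ι : Type*} (p : ι → K[X]) (h : h20_coord K ι p = 0) : p = 0 := by
  funext i
  ext s
  exact congrFun h (i, s)

/-- every element of `K(x)` has a denominator `q(x)` which is a unit of `O` -/
theorem h20_exists_den (R : h39_RedDatum K F k Fb) {x : F} (c : F) (hc : c ∈ K⟮x⟯) :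
    ∃ q p : K[X], aeval x q ≠ 0 ∧ aeval x q ∈ R.O ∧ (aeval x q)⁻¹ ∈ R.O ∧
      c * aeval x q = aeval x p := by
  obtain ⟨r, s, hrs⟩ := (IntermediateField.mem_adjoin_simple_iff K c).mp hc
  by_cases hs : aeval x s = 0
  · refine ⟨1, 0, ?_, ?_, ?_, ?_⟩
    · rw [map_one]
      exact one_ne_zero
    · rw [map_one]
      exact R.O.one_mem
    · rw [map_one, inv_one]
      exact R.O.one_mem
    · rw [hrs, hs, div_zero, zero_mul, map_zero]
  · obtain ⟨a, ha0, h1, h2⟩ := R.exists_scale (aeval x s) hs
    have ha : algebraMap K F a ≠ 0 := by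
      rw [Ne, map_eq_zero]
      exact ha0
    refine ⟨C a * s, C a * r, ?_, ?_, ?_, ?_⟩
    · rw [map_mul, aeval_C]
      exact mul_ne_zero ha hs
    · rw [map_mul, aeval_C]
      exact h1
    · rw [map_mul, aeval_C]
      exact h2
    · rw [map_mul, aeval_C, map_mul, aeval_C, hrs]
      field_simp

/-- (ON) from the Gauss lemma and an orthonormal `K(x)`-basis. -/
theorem h20_exists_on_of_basis (R : h39_RedDatum K F k Fb) {x : F}
    (hG : ∀ p : K[X], aeval x p ∈ R.O ↔ ∀ i, p.coeff i ∈ R.A)
    {ι : Type*} [Fintype ι] (b : Module.Basis ι K⟮x⟯ F)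
    (hb : ∀ f : F, f ∈ R.O ↔ ∀ i, ((b.repr f i : K⟮x⟯) : F) ∈ R.O)
    (V : Submodule K F) [FiniteDimensional K V] :
    ∃ e : Fin (Module.finrank K V) → F,
      (∀ i, e i ∈ V) ∧ (∀ i, e i ∈ R.O) ∧ LinearIndependent k (fun i => R.redF (e i)) := by
  classical
  let β := Module.finBasis K V
  -- denominators of the coordinates of a basis of `V`
  have hden : ∀ jl : Fin (Module.finrank K V) × ι, ∃ q p : K[X], aeval x q ≠ 0 ∧
      aeval x q ∈ R.O ∧ (aeval x q)⁻¹ ∈ R.O ∧
      ((b.repr ((β jl.1 : V) : F) jl.2 : K⟮x⟯) : F) * aeval x q = aeval x p :=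
    fun jl => h20_exists_den R _ (b.repr ((β jl.1 : V) : F) jl.2).2
  choose q p hq0 hqO hqinv hqp using hden
  set D : K[X] := ∏ jl, q jl with hD
  have hDe : aeval x D = ∏ jl, aeval x (q jl) := by
    rw [hD, map_prod]
  set u : F := (aeval x D)⁻¹ with hu
  have hD0 : aeval x D ≠ 0 := by
    rw [hDe]
    exact Finset.prod_ne_zero_iff.mpr fun jl _ => hq0 jl
  have hu0 : u ≠ 0 := inv_ne_zero hD0
  have huO : u ∈ R.O := by
    rw [hu, hDe, ← Finset.prod_inv_distrib]
    exact prod_mem fun jl _ => hqinv jl
  have huinv : u⁻¹ ∈ R.O := by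
    rw [hu, inv_inv, hDe]
    exact prod_mem fun jl _ => hqO jl
  -- integrality is detected on the coordinates
  have hΨ : ∀ P : ι → K[X], h20_synth K x (fun i => b i) u P ∈ R.O ↔
      ∀ j, h20_coord K ι P j ∈ R.A := by
    intro P
    rw [h20_synth_apply]
    set S : F := ∑ i, aeval x (P i) * b i with hS
    have h1 : u * S ∈ R.O ↔ S ∈ R.O := by
      constructor
      · intro h
        have h2 : S = u⁻¹ * (u * S) := by
          rw [← mul_assoc, inv_mul_cancel₀ hu0, one_mul]
        rw [h2]
        exact R.O.mul_mem _ _ huinv h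
      · intro h
        exact R.O.mul_mem _ _ huO h
    have h3 : S = ∑ i, (aeval (AdjoinSimple.gen K x) (P i) : K⟮x⟯) • b i := by
      rw [hS]
      refine Finset.sum_congr rfl fun i _ => ?_
      rw [IntermediateField.smul_def, AdjoinSimple.coe_aeval_gen_apply, smul_eq_mul]
    have h4 : ∀ i, ((b.repr S i : K⟮x⟯) : F) = aeval x (P i) := by
      intro i
      rw [h3, Module.Basis.repr_sum_self, AdjoinSimple.coe_aeval_gen_apply]
    rw [h1, hb S]
    constructor
    · intro h j
      have h5 := h j.1
      rw [h4, hG] at h5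
      exact h5 j.2
    · intro h i
      rw [h4, hG]
      exact fun s => h (i, s)
  -- `V` lies in the range
  have hV : V ≤ LinearMap.range (h20_synth K x (fun i => b i) u) := by
    have hβ : ∀ j, ((β j : V) : F) ∈ LinearMap.range (h20_synth K x (fun i => b i) u) := by
      intro j
      refine ⟨fun i => (∏ jl ∈ Finset.univ.erase (j, i), q jl) * p (j, i), ?_⟩
      rw [h20_synth_apply]
      have h1 : ∀ i, aeval x ((∏ jl ∈ Finset.univ.erase (j, i), q jl) * p (j, i)) * b i =
          aeval x D * (((b.repr ((β j : V) : F) i : K⟮x⟯) : F) * b i) := by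
        intro i
        rw [map_mul, ← hqp (j, i), hD, ← Finset.prod_erase_mul Finset.univ q
          (Finset.mem_univ (j, i)), map_mul]
        ring
      rw [Finset.sum_congr rfl fun i _ => h1 i, ← Finset.mul_sum, hu, ← mul_assoc,
        inv_mul_cancel₀ hD0, one_mul]
      conv_rhs => rw [← b.sum_repr ((β j : V) : F)]
      refine Finset.sum_congr rfl fun i _ => ?_
      rw [IntermediateField.smul_def, smul_eq_mul]
    intro f hf
    have h2 := congrArg (Subtype.val : V → F) (β.sum_repr ⟨f, hf⟩)
    rw [AddSubmonoidClass.coe_finsetSum] at h2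
    have h3 : f = ∑ j, (β.repr ⟨f, hf⟩ j) • ((β j : V) : F) := h2.symm
    rw [h3]
    exact Submodule.sum_mem _ fun j _ => Submodule.smul_mem _ _ (hβ j)
  obtain ⟨e, h1, h2, -, h4⟩ := h20_exists_on_of_coord R (h20_coord K ι) h20_coord_finite
    h20_coord_inj (h20_synth K x (fun i => b i) u) hΨ V hV
  exact ⟨e, h1, h2, h4⟩

/-! ### GR2' -/

section GR2'

variable (R : h39_RedDatum K F k Fb) {x : F} (hx : h39_WeakChart R x)

include hx

/-- (ON) every finite-dimensional `K`-subspace `V` of `F` has `dim V` elements in `V ∩ O` with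
`k`-linearly independent reductions. -/
theorem h39_exists_on (V : Submodule K F) [FiniteDimensional K V] :
    ∃ e : Fin (Module.finrank K V) → F,
      (∀ i, e i ∈ V) ∧ (∀ i, e i ∈ R.O) ∧ LinearIndependent k (fun i => R.redF (e i)) := by
  obtain ⟨b, -, -, hb⟩ := h39_exists_basis R hx
  exact h20_exists_on_of_basis R (h39_gauss_mem_iff R hx) b hb V

/-- consequence: reduction does not lose dimension. If `V ∩ O` reduces into `W`, then
`dim_K V ≤ dim_k W`. -/
theorem h39_finrank_le_of_red (V : Submodule K F) [FiniteDimensional K V]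
    (W : Submodule k Fb) [FiniteDimensional k W]
    (h : ∀ f ∈ V, f ∈ R.O → R.redF f ∈ W) : Module.finrank K V ≤ Module.finrank k W := by
  obtain ⟨e, heV, heO, hind⟩ := h39_exists_on R hx V
  have hind' : LinearIndependent k
      (fun i => (⟨R.redF (e i), h _ (heV i) (heO i)⟩ : W)) :=
    LinearIndependent.of_comp W.subtype hind
  simpa using hind'.fintype_card_le_finrank

/-- consequence: if moreover the dimensions agree, reduction `V ∩ O → W` is onto. -/
theorem h39_red_surjective_of_finrank (V : Submodule K F) [FiniteDimensional K V]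
    (W : Submodule k Fb) [FiniteDimensional k W]
    (h : ∀ f ∈ V, f ∈ R.O → R.redF f ∈ W) (hd : Module.finrank k W ≤ Module.finrank K V) :
    ∀ fb ∈ W, ∃ f ∈ V, f ∈ R.O ∧ R.redF f = fb := by
  obtain ⟨e, heV, heO, hind⟩ := h39_exists_on R hx V
  have hind' : LinearIndependent k
      (fun i => (⟨R.redF (e i), h _ (heV i) (heO i)⟩ : W)) :=
    LinearIndependent.of_comp W.subtype hind
  have hcard : Fintype.card (Fin (Module.finrank K V)) = Module.finrank k W := by
    apply le_antisymm hind'.fintype_card_le_finrank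
    simpa using hd
  have hspan := hind'.span_eq_top_of_card_eq_finrank' hcard
  intro fb hfb
  have hmem : (⟨fb, hfb⟩ : W) ∈ Submodule.span k
      (Set.range fun i => (⟨R.redF (e i), h _ (heV i) (heO i)⟩ : W)) := by
    rw [hspan]
    trivial
  obtain ⟨c, hc⟩ := (Submodule.mem_span_range_iff_exists_fun k).mp hmem
  choose a ha using fun i => R.res_surjective (c i)
  have haA : ∀ i, ((a i : R.A) : K) ∈ R.A := fun i => (a i).2
  have hres : ∀ i, R.resK ((a i : R.A) : K) = c i := fun i => by
    rw [R.resK_of_mem (haA i)]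
    exact ha i
  refine ⟨∑ i, ((a i : R.A) : K) • e i,
    Submodule.sum_mem _ fun i _ => Submodule.smul_mem _ _ (heV i),
    h20_sum_smul_mem R Finset.univ _ e haA heO, ?_⟩
  rw [h20_redF_sum_smul R Finset.univ _ e haA heO]
  have h5 : ∑ i, c i • R.redF (e i) = fb := by
    have h6 := congrArg (Subtype.val : W → Fb) hc
    rw [AddSubmonoidClass.coe_finsetSum] at h6
    exact h6
  rw [← h5]
  exact Finset.sum_congr rfl fun i _ => by rw [hres i]

end GR2'

end Fermat.Agent.S18
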