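/-
S18 / [GR] row GR4' (helper52): good reduction of the genus and lifting of `L(n (x̄)_∞)` —
the cores, with the inputs of the other GR / RR-B rows as explicit hypotheses.

* `h52_genus_ge_core` : `ḡ ≤ g` from the dimension formula for `L(n (x)_∞)` on both sides,
  `h39_Lx_red` and "reduction does not lose dimension";
* `h52_genus_le_core` : `g ≤ ḡ` from the reduction of holomorphic differentials;
* `h52_lift_Lx_core` : `L(n (x)_∞) ∩ O → L(n (x̄)_∞)` is onto for large `n` when `ḡ = g`;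
* `h52_lift_integral_core` : (†) every function regular on the chart `x̄` lifts.
-/
import Mathlib
import Fermat.Agent.S18.Defs
import Fermat.Agent.S18.h75_RRDefs
import Fermat.Agent.S24.h35_PlaceBasic

set_option autoImplicit false

noncomputable section

open AlgebraicCurve IntermediateField

namespace Fermat.Agent.S18

variable {K F k Fb : Type*} [Field K] [Field F] [Algebra K F] [Field k] [Field Fb] [Algebra k Fb]

/-- "Reduction does not lose dimension" (statement of `h39_finrank_le_of_red`). -/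
def h52_RedLe (R : h39_RedDatum K F k Fb) : Prop :=
  ∀ (V : Submodule K F) [FiniteDimensional K V] (W : Submodule k Fb) [FiniteDimensional k W],
    (∀ f ∈ V, f ∈ R.O → R.redF f ∈ W) → Module.finrank K V ≤ Module.finrank k W

/-- "Equal dimensions force surjectivity of the reduction" (statement of
`h39_red_surjective_of_finrank`). -/
def h52_RedSurj (R : h39_RedDatum K F k Fb) : Prop :=
  ∀ (V : Submodule K F) [FiniteDimensional K V] (W : Submodule k Fb) [FiniteDimensional k W],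
    (∀ f ∈ V, f ∈ R.O → R.redF f ∈ W) → Module.finrank k W ≤ Module.finrank K V →
    ∀ fb ∈ W, ∃ f ∈ V, f ∈ R.O ∧ R.redF f = fb

/-- The dimension formula for `L(n (x)_∞)` in large degree (statement of `h39_finrank_Lx`). -/
def h52_LxDim (K : Type*) {F : Type*} [Field K] [Field F] [Algebra K F] (x : F) : Prop :=
  ∃ n₁ : ℕ, ∀ n : ℕ, n₁ ≤ n → Module.Finite K (h39_Lx K x n) ∧
    (Module.finrank K (h39_Lx K x n) : ℤ) =
      n * Module.finrank K⟮x⟯ F + 1 - h75_genus K x

/-- `L(m (x)_∞) ⊆ L(n (x)_∞)` for `m ≤ n`. -/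
theorem h52_Lx_mono (x : F) {m n : ℕ} (h : m ≤ n) : h39_Lx K x m ≤ h39_Lx K x n := by
  intro f hf
  rw [h39_mem_Lx_iff] at hf ⊢
  intro P
  refine ⟨(hf P).1, fun hx => ?_⟩
  rcases (hf P).2 hx with h0 | h1
  · exact Or.inl h0
  · refine Or.inr (le_trans ?_ h1)
    have hmn : (m : ℤ) ≤ n := by exact_mod_cast h
    nlinarith

/-- Elements of `L(n (x)_∞)` are regular on the chart `x`. -/
theorem h52_Lx_regular {x f : F} {n : ℕ} (hf : f ∈ h39_Lx K x n) (P : Place K F)
    (hP : x ∈ P.toValuationSubring) : f ∈ P.toValuationSubring := by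
  rw [h39_mem_Lx_iff] at hf
  rcases (hf P).1 (Fermat.Agent.S24.h35_ord_nonneg_of_mem P hP) with h0 | h1
  · rw [h0]
    exact P.toValuationSubring.zero_mem
  · by_cases h0 : f = 0
    · rw [h0]
      exact P.toValuationSubring.zero_mem
    · exact (Fermat.Agent.S24.h35_mem_iff_ord_nonneg P h0).2 h1

/-- `ḡ ≤ g` for a weak chart. -/
theorem h52_genus_ge_core (R : h39_RedDatum K F k Fb) {x : F}
    (hdeg : Module.finrank k⟮R.redF x⟯ Fb = Module.finrank K⟮x⟯ F)
    (hK : h52_LxDim K x) (hk : h52_LxDim k (R.redF x)) (hle : h52_RedLe R)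
    (hred : ∀ (n : ℕ) (f : F), f ∈ h39_Lx K x n → f ∈ R.O → R.redF f ∈ h39_Lx k (R.redF x) n) :
    h75_genus k (R.redF x) ≤ h75_genus K x := by
  obtain ⟨n₁, h1⟩ := hK
  obtain ⟨n₂, h2⟩ := hk
  obtain ⟨hfinK, hdimK⟩ := h1 (max n₁ n₂) (le_max_left _ _)
  obtain ⟨hfink, hdimk⟩ := h2 (max n₁ n₂) (le_max_right _ _)
  have : FiniteDimensional K (h39_Lx K x (max n₁ n₂)) := hfinK
  have : FiniteDimensional k (h39_Lx k (R.redF x) (max n₁ n₂)) := hfink
  have h3 := hle (h39_Lx K x (max n₁ n₂)) (h39_Lx k (R.redF x) (max n₁ n₂))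
    (fun f hf hfO => hred _ f hf hfO)
  have h4 : (Module.finrank K (h39_Lx K x (max n₁ n₂)) : ℤ) ≤
      Module.finrank k (h39_Lx k (R.redF x) (max n₁ n₂)) := by exact_mod_cast h3
  rw [hdimK, hdimk, hdeg] at h4
  have h5 : (h75_genus k (R.redF x) : ℤ) ≤ h75_genus K x := by linarith
  exact_mod_cast h5

/-- `g ≤ ḡ` for a chart: reduction of holomorphic differentials. -/
theorem h52_genus_le_core (R : h39_RedDatum K F k Fb) {x : F} (hle : h52_RedLe R)
    (hfinK : Module.Finite K (h39_holo K x))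
    (hdimK : Module.finrank K (h39_holo K x) = h75_genus K x)
    (hfink : Module.Finite k (h75_Omega (R.redF x) (0 : Divisor k Fb)))
    (hdimk : Module.finrank k (h75_Omega (R.redF x) (0 : Divisor k Fb)) =
      h75_genus k (R.redF x))
    (hholo : h39_holo k (R.redF x) ≤ h75_Omega (R.redF x) (0 : Divisor k Fb))
    (hred : ∀ φ : F, φ ∈ h39_holo K x → φ ∈ R.O → R.redF φ ∈ h39_holo k (R.redF x)) :
    h75_genus K x ≤ h75_genus k (R.redF x) := by
  have : FiniteDimensional K (h39_holo K x) := hfinK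
  have : FiniteDimensional k (h75_Omega (R.redF x) (0 : Divisor k Fb)) := hfink
  have : FiniteDimensional k (h39_holo k (R.redF x)) :=
    Submodule.finiteDimensional_of_le hholo
  have h3 := hle (h39_holo K x) (h39_holo k (R.redF x)) hred
  rw [hdimK] at h3
  exact h3.trans ((Submodule.finrank_mono hholo).trans hdimk.le)

/-- Lifting of `L(n (x̄)_∞)` for large `n` when the genus does not drop. -/
theorem h52_lift_Lx_core (R : h39_RedDatum K F k Fb) {x : F}
    (hdeg : Module.finrank k⟮R.redF x⟯ Fb = Module.finrank K⟮x⟯ F)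
    (hK : h52_LxDim K x) (hk : h52_LxDim k (R.redF x)) (hsurj : h52_RedSurj R)
    (hred : ∀ (n : ℕ) (f : F), f ∈ h39_Lx K x n → f ∈ R.O → R.redF f ∈ h39_Lx k (R.redF x) n)
    (hg : h75_genus k (R.redF x) = h75_genus K x) :
    ∃ n₁ : ℕ, ∀ n : ℕ, n₁ ≤ n → ∀ fb ∈ h39_Lx k (R.redF x) n,
      ∃ f ∈ h39_Lx K x n, f ∈ R.O ∧ R.redF f = fb := by
  obtain ⟨n₁, h1⟩ := hK
  obtain ⟨n₂, h2⟩ := hk
  refine ⟨max n₁ n₂, fun n hn fb hfb => ?_⟩
  obtain ⟨hfinK, hdimK⟩ := h1 n ((le_max_left _ _).trans hn)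
  obtain ⟨hfink, hdimk⟩ := h2 n ((le_max_right _ _).trans hn)
  have : FiniteDimensional K (h39_Lx K x n) := hfinK
  have : FiniteDimensional k (h39_Lx k (R.redF x) n) := hfink
  have h4 : (Module.finrank k (h39_Lx k (R.redF x) n) : ℤ) ≤
      Module.finrank K (h39_Lx K x n) := by
    rw [hdimK, hdimk, hdeg, hg]
  exact hsurj (h39_Lx K x n) (h39_Lx k (R.redF x) n) (fun f hf hfO => hred _ f hf hfO)
    (by exact_mod_cast h4) fb hfb

/-- (†) every function regular on the chart `x̄` lifts to a function of `O` regular on the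
chart `x`. -/
theorem h52_lift_integral_core (R : h39_RedDatum K F k Fb) {x : F}
    (hlift : ∃ n₁ : ℕ, ∀ n : ℕ, n₁ ≤ n → ∀ fb ∈ h39_Lx k (R.redF x) n,
      ∃ f ∈ h39_Lx K x n, f ∈ R.O ∧ R.redF f = fb)
    (hex : ∀ fb : Fb,
      (∀ Q : Place k Fb, R.redF x ∈ Q.toValuationSubring → fb ∈ Q.toValuationSubring) →
      ∃ n : ℕ, fb ∈ h39_Lx k (R.redF x) n)
    (fb : Fb)
    (hfb : ∀ Q : Place k Fb, R.redF x ∈ Q.toValuationSubring → fb ∈ Q.toValuationSubring) :
    ∃ f : F, f ∈ R.O ∧ (∀ P : Place K F, x ∈ P.toValuationSubring → f ∈ P.toValuationSubring) ∧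
      R.redF f = fb := by
  obtain ⟨n, hn⟩ := hex fb hfb
  obtain ⟨n₁, h1⟩ := hlift
  obtain ⟨f, hf, hfO, hfr⟩ := h1 (max n n₁) (le_max_right _ _) fb
    (h52_Lx_mono (R.redF x) (le_max_left _ _) hn)
  exact ⟨f, hfO, fun P hP => h52_Lx_regular hf P hP, hfr⟩

end Fermat.Agent.S18

end
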