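/-
S18 / [GR] row GR4' (helper52), part 1: `ḡ ≤ g` and the lifting statements (J0), (†) —
lifting of `L(n (x̄)_∞)` and of the chart ring.  Statements verbatim from the GR skeleton.
(The other two statements of the row, `h39_genus_le` and `h39_genus_eq`, are in
`GR_GenusEq.lean`.)
-/
import Mathlib
import Fermat.Agent.S18.Defs
import Fermat.Agent.S18.h75_RRDefs
import Fermat.Agent.S18.GR_RedAPI
import Fermat.Agent.S18.h52_GenusCore
import Fermat.Agent.S18.GR_ON
import Fermat.Agent.S18.GR_Integral
import Fermat.Agent.S18.GR_LxDim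

set_option autoImplicit false

noncomputable section

open AlgebraicCurve IntermediateField

namespace Fermat.Agent.S18

variable {K F k Fb : Type*} [Field K] [Field F] [Algebra K F] [Field k] [Field Fb] [Algebra k Fb]

section GR4'

variable [IsAlgClosed K] [CharZero K] [IsAlgClosed k]
variable (R : h39_RedDatum K F k Fb) {x : F}

theorem h39_genus_ge (hx : h39_WeakChart R x) : h75_genus k (R.redF x) ≤ h75_genus K x :=
  h52_genus_ge_core R hx.finrank_eq (h39_finrank_Lx (h39_weakChart_isChart R hx))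
    (h39_finrank_Lx (h39_weakChart_isChart_red R hx))
    (fun V _ W _ h => h39_finrank_le_of_red R hx V W h)
    (fun n _ hf hfO => h39_Lx_red R hx n hf hfO)

/-- (J0 for `i = 0`) -/
theorem h39_lift_Lx (hx : h39_WeakChart R x) (hg : h75_genus k (R.redF x) = h75_genus K x) :
    ∃ n₁ : ℕ, ∀ n : ℕ, n₁ ≤ n → ∀ fb ∈ h39_Lx k (R.redF x) n,
      ∃ f ∈ h39_Lx K x n, f ∈ R.O ∧ R.redF f = fb :=
  h52_lift_Lx_core R hx.finrank_eq (h39_finrank_Lx (h39_weakChart_isChart R hx))
    (h39_finrank_Lx (h39_weakChart_isChart_red R hx))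
    (fun V _ W _ h hd => h39_red_surjective_of_finrank R hx V W h hd)
    (fun n _ hf hfO => h39_Lx_red R hx n hf hfO) hg

/-- (†) `red (B ∩ O) = B̄` -/
theorem h39_lift_integral (hx : h39_WeakChart R x)
    (hg : h75_genus k (R.redF x) = h75_genus K x) (fb : Fb)
    (hfb : ∀ Q : Place k Fb, R.redF x ∈ Q.toValuationSubring → fb ∈ Q.toValuationSubring) :
    ∃ f : F, f ∈ R.O ∧ (∀ P : Place K F, x ∈ P.toValuationSubring → f ∈ P.toValuationSubring) ∧
      R.redF f = fb :=
  h52_lift_integral_core R (h39_lift_Lx R hx hg)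
    (fun fb' h => h39_exists_mem_Lx (h39_weakChart_isChart_red R hx) fb' h) fb hfb

end GR4'

end Fermat.Agent.S18

end
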