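/-
S18 layer [GR], row GR4 (helper34): place-level core of "holomorphic differentials reduce to
holomorphic differentials".

With `P_Z = ∏_{z ∈ Z} (x - z)` (`h34_PZ`):
* upstairs (`h34_up_a/b/c`): for `φ ∈ h39_holo K x`, the three functions `φ P_Z`,
  `φ^(N+1) P_Z^N`, `x^(N+2) (φ P_Z)^(N+1)` lie in `h39_Lx K x _` (`N` bounds the ramification);
* downstairs (`h34_down`): conversely, the three memberships imply `ψ ∈ h39_holo k y`
  (no ramification information is needed);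
* `h34_holo_red_of`: the statement of GR4 (`h39_holo_red`) from three explicit inputs
  (values at finite places, a ramification bound, `h39_Lx_red`).
-/
import Mathlib
import Fermat.Agent.S18.Defs
import Fermat.Agent.S24.h35_PlaceBasic

set_option autoImplicit false

open AlgebraicCurve IntermediateField

namespace Fermat.Agent.S18

open Fermat.Agent.S24

section PlaceLemmas

variable {K F : Type*} [Field K] [Field F] [Algebra K F]

/-- strict ultrametric inequality. -/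
theorem h34_ord_add_eq_of_lt (v : Place K F) {f g : F} (hf : f ≠ 0) (hg : g ≠ 0)
    (h : v.ord f < v.ord g) : v.ord (f + g) = v.ord f := by
  have hfg : f + g ≠ 0 := by
    intro h0
    have h1 : g = -f := by rw [eq_neg_iff_add_eq_zero, add_comm]; exact h0
    rw [h1, h35_ord_neg] at h
    exact lt_irrefl _ h
  have h1 := h35_ord_add v hf hg hfg
  have h2 := h35_ord_sub v hfg hg (by rwa [add_sub_cancel_right])
  rw [add_sub_cancel_right] at h2
  omega

theorem h34_ord_pow (v : Place K F) (f : F) (n : ℕ) : v.ord (f ^ n) = n * v.ord f := by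
  rw [← zpow_natCast, v.ord_zpow]

theorem h34_ord_prod (v : Place K F) {ι : Type*} (s : Finset ι) (f : ι → F)
    (hf : ∀ i ∈ s, f i ≠ 0) : v.ord (∏ i ∈ s, f i) = ∑ i ∈ s, v.ord (f i) := by
  classical
  induction s using Finset.induction_on with
  | empty => simp
  | insert a s ha ih =>
    rw [Finset.prod_insert ha, Finset.sum_insert ha,
      v.ord_mul (hf a (Finset.mem_insert_self a s))
        (Finset.prod_ne_zero_iff.2 fun i hi => hf i (Finset.mem_insert_of_mem hi)),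
      ih (fun i hi => hf i (Finset.mem_insert_of_mem hi))]

/-- at a place over `a`, `x - z` is a unit for `z ≠ a`. -/
theorem h34_ord_sub_const_eq_zero (v : Place K F) (x : F) {a z : K}
    (ha : 0 < v.ord (x - algebraMap K F a)) (hz : z ≠ a) :
    v.ord (x - algebraMap K F z) = 0 := by
  have hu : x - algebraMap K F a ≠ 0 := by
    intro h
    rw [h, v.ord_zero] at ha
    exact lt_irrefl _ ha
  have hc : algebraMap K F (a - z) ≠ 0 := by
    rw [Ne, map_eq_zero, sub_eq_zero]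
    exact fun h => hz h.symm
  have hc0 : v.ord (algebraMap K F (a - z)) = 0 := h35_ord_algebraMap v _
  have h1 := h34_ord_add_eq_of_lt v hc hu (by rw [hc0]; exact ha)
  have h2 : algebraMap K F (a - z) + (x - algebraMap K F a) = x - algebraMap K F z := by
    rw [map_sub]; ring
  rw [h2, hc0] at h1
  exact h1

/-- at a pole of `x`, `x - z` has the order of `x`. -/
theorem h34_ord_sub_const_of_neg (v : Place K F) (x : F) (z : K) (hx : v.ord x < 0) :
    v.ord (x - algebraMap K F z) = v.ord x := by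
  have hx0 : x ≠ 0 := by
    rintro rfl
    simp at hx
  by_cases hz : z = 0
  · subst hz
    simp
  have hc : -algebraMap K F z ≠ 0 := by
    rw [Ne, neg_eq_zero, map_eq_zero]
    exact hz
  have hc0 : v.ord (-algebraMap K F z) = 0 := by rw [h35_ord_neg, h35_ord_algebraMap]
  have h1 := h34_ord_add_eq_of_lt v hx0 hc (by rw [hc0]; exact hx)
  rwa [← sub_eq_add_neg] at h1

/-- a place over `a` is a finite place of the chart `x`. -/
theorem h34_ord_nonneg_of_value (v : Place K F) (x : F) {a : K}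
    (ha : 0 < v.ord (x - algebraMap K F a)) : 0 ≤ v.ord x := by
  by_contra hneg
  push Not at hneg
  have := h34_ord_sub_const_of_neg v x a hneg
  omega

/-- `P_Z = ∏_{z ∈ Z} (x - z)`. -/
noncomputable def h34_PZ (x : F) (Z : Finset K) : F := ∏ z ∈ Z, (x - algebraMap K F z)

theorem h34_PZ_ne_zero (x : F) (Z : Finset K) (hxc : ∀ a : K, x - algebraMap K F a ≠ 0) :
    h34_PZ x Z ≠ 0 :=
  Finset.prod_ne_zero_iff.2 fun z _ => hxc z

theorem h34_ord_PZ_pole (v : Place K F) (x : F) (Z : Finset K)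
    (hxc : ∀ a : K, x - algebraMap K F a ≠ 0) (hx : v.ord x < 0) :
    v.ord (h34_PZ x Z) = Z.card * v.ord x := by
  unfold h34_PZ
  rw [h34_ord_prod v Z _ (fun z _ => hxc z),
    Finset.sum_congr rfl (fun z _ => h34_ord_sub_const_of_neg v x z hx), Finset.sum_const,
    nsmul_eq_mul]

theorem h34_ord_PZ_not_mem (v : Place K F) (x : F) (Z : Finset K)
    (hxc : ∀ a : K, x - algebraMap K F a ≠ 0) {a : K}
    (ha : 0 < v.ord (x - algebraMap K F a)) (haZ : a ∉ Z) : v.ord (h34_PZ x Z) = 0 := by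
  unfold h34_PZ
  rw [h34_ord_prod v Z _ (fun z _ => hxc z)]
  refine Finset.sum_eq_zero fun z hz => ?_
  exact h34_ord_sub_const_eq_zero v x ha (fun h => haZ (h ▸ hz))

theorem h34_ord_PZ_mem (v : Place K F) (x : F) (Z : Finset K)
    (hxc : ∀ a : K, x - algebraMap K F a ≠ 0) {a : K}
    (ha : 0 < v.ord (x - algebraMap K F a)) (haZ : a ∈ Z) :
    v.ord (h34_PZ x Z) = v.ord (x - algebraMap K F a) := by
  unfold h34_PZ
  rw [h34_ord_prod v Z _ (fun z _ => hxc z)]
  refine Finset.sum_eq_single a (fun z _ hza => ?_) (fun h => absurd haZ h)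
  exact h34_ord_sub_const_eq_zero v x ha hza

end PlaceLemmas

section Up

variable {K F : Type*} [Field K] [Field F] [Algebra K F]

/-- (a) `φ P_Z ∈ L(|Z| (x)_∞)`. -/
theorem h34_up_a (x : F) (Z : Finset K) (hxc : ∀ a : K, x - algebraMap K F a ≠ 0)
    (hval : ∀ P : Place K F, 0 ≤ P.ord x → ∃ a : K, 0 < P.ord (x - algebraMap K F a))
    (hbr : ∀ (P : Place K F) (a : K), 2 ≤ P.ord (x - algebraMap K F a) → a ∈ Z)
    (φ : F) (hφ : φ ∈ h39_holo K x) : φ * h34_PZ x Z ∈ h39_Lx K x Z.card := by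
  by_cases hφ0 : φ = 0
  · rw [hφ0, zero_mul]
    exact Submodule.zero_mem _
  have hPZ := h34_PZ_ne_zero x Z hxc
  rw [h39_mem_Lx_iff]
  intro P
  have hholo := h39_mem_holo_iff.1 hφ P
  refine ⟨fun hx0 => Or.inr ?_, fun hx => Or.inr ?_⟩
  · obtain ⟨a, ha⟩ := hval P hx0
    have h1 := (hholo.1 a ha).resolve_left hφ0
    rw [P.ord_mul hφ0 hPZ]
    by_cases haZ : a ∈ Z
    · rw [h34_ord_PZ_mem P x Z hxc ha haZ]
      omega
    · rw [h34_ord_PZ_not_mem P x Z hxc ha haZ]
      have h2 : ¬ 2 ≤ P.ord (x - algebraMap K F a) := fun h => haZ (hbr P a h)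
      omega
  · have h1 := (hholo.2 hx).resolve_left hφ0
    rw [P.ord_mul hφ0 hPZ, h34_ord_PZ_pole P x Z hxc hx]
    have h2 : (0 : ℤ) ≤ (Z.card : ℤ) := Nat.cast_nonneg _
    omega

/-- (b) `φ^(N+1) P_Z^N ∈ L((N+1)|Z| (x)_∞)` when the ramification over `Z` is at most `N+1`. -/
theorem h34_up_b (x : F) (Z : Finset K) (hxc : ∀ a : K, x - algebraMap K F a ≠ 0)
    (hval : ∀ P : Place K F, 0 ≤ P.ord x → ∃ a : K, 0 < P.ord (x - algebraMap K F a))
    (hbr : ∀ (P : Place K F) (a : K), 2 ≤ P.ord (x - algebraMap K F a) → a ∈ Z)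
    (N : ℕ) (hN : ∀ (P : Place K F) (a : K), P.ord (x - algebraMap K F a) ≤ N + 1)
    (φ : F) (hφ : φ ∈ h39_holo K x) :
    φ ^ (N + 1) * h34_PZ x Z ^ N ∈ h39_Lx K x ((N + 1) * Z.card) := by
  by_cases hφ0 : φ = 0
  · rw [hφ0, zero_pow (Nat.succ_ne_zero N), zero_mul]
    exact Submodule.zero_mem _
  have hPZ := h34_PZ_ne_zero x Z hxc
  rw [h39_mem_Lx_iff]
  intro P
  have hholo := h39_mem_holo_iff.1 hφ P
  have hord : P.ord (φ ^ (N + 1) * h34_PZ x Z ^ N) =
      ((N : ℤ) + 1) * P.ord φ + (N : ℤ) * P.ord (h34_PZ x Z) := by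
    rw [P.ord_mul (pow_ne_zero _ hφ0) (pow_ne_zero _ hPZ), h34_ord_pow, h34_ord_pow]
    push_cast
    ring
  refine ⟨fun hx0 => Or.inr ?_, fun hx => Or.inr ?_⟩
  · obtain ⟨a, ha⟩ := hval P hx0
    have h1 := (hholo.1 a ha).resolve_left hφ0
    rw [hord]
    by_cases haZ : a ∈ Z
    · rw [h34_ord_PZ_mem P x Z hxc ha haZ]
      have h2 := hN P a
      have h3 : ((N : ℤ) + 1) * (1 - P.ord (x - algebraMap K F a)) ≤ ((N : ℤ) + 1) * P.ord φ :=
        mul_le_mul_of_nonneg_left h1 (by positivity)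
      nlinarith
    · rw [h34_ord_PZ_not_mem P x Z hxc ha haZ]
      have h2 : ¬ 2 ≤ P.ord (x - algebraMap K F a) := fun h => haZ (hbr P a h)
      have h3 : 0 ≤ P.ord φ := by omega
      positivity
  · have h1 := (hholo.2 hx).resolve_left hφ0
    rw [hord, h34_ord_PZ_pole P x Z hxc hx]
    have h2 : (0 : ℤ) ≤ (Z.card : ℤ) := Nat.cast_nonneg _
    have h3 : ((N : ℤ) + 1) * (1 - P.ord x) ≤ ((N : ℤ) + 1) * P.ord φ :=
      mul_le_mul_of_nonneg_left h1 (by positivity)
    have h4 : (0 : ℤ) ≤ (Z.card : ℤ) * (-P.ord x) := mul_nonneg h2 (by omega)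
    push_cast
    nlinarith

/-- (c) `x^(N+2) (φ P_Z)^(N+1) ∈ L((N+1)|Z| (x)_∞)` when the pole orders of `x` are at most
`N+1`. -/
theorem h34_up_c (x : F) (Z : Finset K) (hxc : ∀ a : K, x - algebraMap K F a ≠ 0)
    (hval : ∀ P : Place K F, 0 ≤ P.ord x → ∃ a : K, 0 < P.ord (x - algebraMap K F a))
    (hbr : ∀ (P : Place K F) (a : K), 2 ≤ P.ord (x - algebraMap K F a) → a ∈ Z)
    (N : ℕ) (hN : ∀ P : Place K F, -P.ord x ≤ N + 1)
    (φ : F) (hφ : φ ∈ h39_holo K x) :
    x ^ (N + 2) * (φ * h34_PZ x Z) ^ (N + 1) ∈ h39_Lx K x ((N + 1) * Z.card) := by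
  by_cases hφ0 : φ = 0
  · rw [hφ0, zero_mul, zero_pow (Nat.succ_ne_zero N), mul_zero]
    exact Submodule.zero_mem _
  have hPZ := h34_PZ_ne_zero x Z hxc
  have hx0' : x ≠ 0 := by
    have := hxc 0
    rwa [map_zero, sub_zero] at this
  have ha := h39_mem_Lx_iff.1 (h34_up_a x Z hxc hval hbr φ hφ)
  rw [h39_mem_Lx_iff]
  intro P
  have hholo := h39_mem_holo_iff.1 hφ P
  have hord : P.ord (x ^ (N + 2) * (φ * h34_PZ x Z) ^ (N + 1)) =
      ((N : ℤ) + 2) * P.ord x + ((N : ℤ) + 1) * P.ord (φ * h34_PZ x Z) := by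
    rw [P.ord_mul (pow_ne_zero _ hx0') (pow_ne_zero _ (mul_ne_zero hφ0 hPZ)), h34_ord_pow,
      h34_ord_pow]
    push_cast
    ring
  refine ⟨fun hx0 => Or.inr ?_, fun hx => Or.inr ?_⟩
  · have h1 := ((ha P).1 hx0).resolve_left (mul_ne_zero hφ0 hPZ)
    rw [hord]
    positivity
  · have h1 := (hholo.2 hx).resolve_left hφ0
    rw [hord, P.ord_mul hφ0 hPZ, h34_ord_PZ_pole P x Z hxc hx]
    have h2 : (0 : ℤ) ≤ (Z.card : ℤ) := Nat.cast_nonneg _
    have h3 : ((N : ℤ) + 1) * (1 - P.ord x) ≤ ((N : ℤ) + 1) * P.ord φ :=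
      mul_le_mul_of_nonneg_left h1 (by positivity)
    have h4 := hN P
    push_cast
    nlinarith

end Up

section Down

variable {k Fb : Type*} [Field k] [Field Fb] [Algebra k Fb]

/-- downstairs: the three memberships force `ψ ∈ h39_holo k y`. -/
theorem h34_down (y : Fb) (W : Finset k) (hyc : ∀ b : k, y - algebraMap k Fb b ≠ 0)
    (ψ : Fb) (N n1 n2 : ℕ)
    (h1 : ψ * h34_PZ y W ∈ h39_Lx k y n1)
    (h2 : ψ ^ (N + 1) * h34_PZ y W ^ N ∈ h39_Lx k y n2)
    (h3 : y ^ (N + 2) * (ψ * h34_PZ y W) ^ (N + 1) ∈ h39_Lx k y ((N + 1) * W.card)) :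
    ψ ∈ h39_holo k y := by
  by_cases hψ0 : ψ = 0
  · rw [hψ0]
    exact Submodule.zero_mem _
  have hPZ := h34_PZ_ne_zero y W hyc
  have hy0 : y ≠ 0 := by
    have := hyc 0
    rwa [map_zero, sub_zero] at this
  rw [h39_mem_holo_iff]
  intro Q
  refine ⟨fun β hβ => Or.inr ?_, fun hy => Or.inr ?_⟩
  · have hyQ : 0 ≤ Q.ord y := h34_ord_nonneg_of_value Q y hβ
    by_cases hβW : β ∈ W
    · have e2 := ((h39_mem_Lx_iff.1 h2 Q).1 hyQ).resolve_left
        (mul_ne_zero (pow_ne_zero _ hψ0) (pow_ne_zero _ hPZ))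
      rw [Q.ord_mul (pow_ne_zero _ hψ0) (pow_ne_zero _ hPZ), h34_ord_pow, h34_ord_pow,
        h34_ord_PZ_mem Q y W hyc hβ hβW] at e2
      push_cast at e2
      by_contra hcon
      push Not at hcon
      have h4 : Q.ord ψ + Q.ord (y - algebraMap k Fb β) ≤ 0 := by omega
      have h5 : ((N : ℤ) + 1) * (Q.ord ψ + Q.ord (y - algebraMap k Fb β)) ≤ 0 :=
        mul_nonpos_of_nonneg_of_nonpos (by positivity) h4
      nlinarith
    · have e1 := ((h39_mem_Lx_iff.1 h1 Q).1 hyQ).resolve_left (mul_ne_zero hψ0 hPZ)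
      rw [Q.ord_mul hψ0 hPZ, h34_ord_PZ_not_mem Q y W hyc hβ hβW] at e1
      omega
  · have e3 := ((h39_mem_Lx_iff.1 h3 Q).2 hy).resolve_left
      (mul_ne_zero (pow_ne_zero _ hy0) (pow_ne_zero _ (mul_ne_zero hψ0 hPZ)))
    rw [Q.ord_mul (pow_ne_zero _ hy0) (pow_ne_zero _ (mul_ne_zero hψ0 hPZ)), h34_ord_pow,
      h34_ord_pow, Q.ord_mul hψ0 hPZ, h34_ord_PZ_pole Q y W hyc hy] at e3
    push_cast at e3
    by_contra hcon
    push Not at hcon
    have h4 : Q.ord ψ + Q.ord y ≤ 0 := by omega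
    have h5 : ((N : ℤ) + 1) * (Q.ord ψ + Q.ord y) ≤ 0 :=
      mul_nonpos_of_nonneg_of_nonpos (by positivity) h4
    nlinarith

end Down

section Glue

variable {K F k Fb : Type*} [Field K] [Field F] [Algebra K F] [Field k] [Field Fb] [Algebra k Fb]
variable (R : h39_RedDatum K F k Fb)

theorem h34_redF_mul {f g : F} (hf : f ∈ R.O) (hg : g ∈ R.O) :
    R.redF (f * g) = R.redF f * R.redF g := by
  rw [R.redF_of_mem (mul_mem hf hg), R.redF_of_mem hf, R.redF_of_mem hg, ← map_mul]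
  rfl

theorem h34_redF_pow {f : F} (hf : f ∈ R.O) (n : ℕ) : R.redF (f ^ n) = R.redF f ^ n := by
  rw [R.redF_of_mem (pow_mem hf n), R.redF_of_mem hf, ← map_pow]
  rfl

theorem h34_redF_prod {ι : Type*} (s : Finset ι) (f : ι → F) (hf : ∀ i ∈ s, f i ∈ R.O) :
    R.redF (∏ i ∈ s, f i) = ∏ i ∈ s, R.redF (f i) := by
  classical
  induction s using Finset.induction_on with
  | empty =>
    rw [Finset.prod_empty, Finset.prod_empty, R.redF_of_mem (one_mem _), ← map_one R.red]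
    rfl
  | insert a s ha ih =>
    rw [Finset.prod_insert ha, Finset.prod_insert ha,
      h34_redF_mul R (hf a (Finset.mem_insert_self a s))
        (prod_mem fun i hi => hf i (Finset.mem_insert_of_mem hi)),
      ih (fun i hi => hf i (Finset.mem_insert_of_mem hi))]

theorem h34_redF_sub_const {x : F} (hx : x ∈ R.O) {z : K} (hz : z ∈ R.A) :
    x - algebraMap K F z ∈ R.O ∧
      R.redF (x - algebraMap K F z) = R.redF x - algebraMap k Fb (R.resK z) := by
  have hz' : algebraMap K F z ∈ R.O := (R.mem_iff z).1 hz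
  refine ⟨sub_mem hx hz', ?_⟩
  rw [R.redF_of_mem (sub_mem hx hz'), R.redF_of_mem hx, R.resK_of_mem hz,
    ← R.red_algebraMap z hz hz', ← map_sub]
  rfl

theorem h34_PZ_mem {x : F} (hx : x ∈ R.O) (Z : Finset K) (hZ : ∀ z ∈ Z, z ∈ R.A) :
    h34_PZ x Z ∈ R.O :=
  prod_mem fun z hz => (h34_redF_sub_const R hx (hZ z hz)).1

theorem h34_redF_PZ [DecidableEq k] {x : F} (hx : x ∈ R.O) (Z : Finset K)
    (hZ : ∀ z ∈ Z, z ∈ R.A)
    (hinj : ∀ z ∈ Z, ∀ z' ∈ Z, R.resK z = R.resK z' → z = z') :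
    R.redF (h34_PZ x Z) = h34_PZ (R.redF x) (Z.image R.resK) := by
  unfold h34_PZ
  rw [Finset.prod_image (fun z hz z' hz' h => hinj z hz z' hz' h),
    h34_redF_prod R Z _ (fun z hz => (h34_redF_sub_const R hx (hZ z hz)).1)]
  exact Finset.prod_congr rfl fun z hz => (h34_redF_sub_const R hx (hZ z hz)).2

/-- **GR4, conditional core**: holomorphic differentials reduce to holomorphic differentials,
given (i) every finite place of the chart lies over a value, (ii) a bound `N + 1` for the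
ramification indices of `x`, (iii) the reduction of `L(n (x)_∞) ∩ O` into `L(n (x̄)_∞)`. -/
theorem h34_holo_red_of {x : F} (hx : h39_Chart R x)
    (hval : ∀ P : Place K F, 0 ≤ P.ord x → ∃ a : K, 0 < P.ord (x - algebraMap K F a))
    (N : ℕ) (hN1 : ∀ (P : Place K F) (a : K), P.ord (x - algebraMap K F a) ≤ N + 1)
    (hN2 : ∀ P : Place K F, -P.ord x ≤ N + 1)
    (hLx : ∀ (n : ℕ) (f : F), f ∈ h39_Lx K x n → f ∈ R.O → R.redF f ∈ h39_Lx k (R.redF x) n)
    {φ : F} (hφ : φ ∈ h39_holo K x) (hφO : φ ∈ R.O) : R.redF φ ∈ h39_holo k (R.redF x) := by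
  classical
  obtain ⟨Z, hZA, hZinj, hZbr⟩ := hx.branch
  have hxO : x ∈ R.O := hx.mem
  have hyc : ∀ b : k, R.redF x - algebraMap k Fb b ≠ 0 := by
    intro b h
    apply hx.transcendental
    rw [sub_eq_zero.1 h]
    exact isAlgebraic_algebraMap b
  have hxc : ∀ a : K, x - algebraMap K F a ≠ 0 := by
    intro a h
    have hxa : x = algebraMap K F a := sub_eq_zero.1 h
    have haO : algebraMap K F a ∈ R.O := hxa ▸ hxO
    have haA : a ∈ R.A := (R.mem_iff a).2 haO
    apply hx.transcendental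
    have h1 : R.redF x = algebraMap k Fb (R.res ⟨a, haA⟩) := by
      rw [R.redF_of_mem hxO, ← R.red_algebraMap a haA haO]
      congr 1
      exact Subtype.ext hxa
    rw [h1]
    exact isAlgebraic_algebraMap _
  have hPO := h34_PZ_mem R hxO Z hZA
  have hPred := h34_redF_PZ R hxO Z hZA hZinj
  have hcard : (Z.image R.resK).card = Z.card :=
    Finset.card_image_of_injOn (fun z hz z' hz' h => hZinj z hz z' hz' h)
  have ha := h34_up_a x Z hxc hval hZbr φ hφ
  have hb := h34_up_b x Z hxc hval hZbr N hN1 φ hφ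
  have hc := h34_up_c x Z hxc hval hZbr N hN2 φ hφ
  have ha' := hLx _ _ ha (mul_mem hφO hPO)
  have hb' := hLx _ _ hb (mul_mem (pow_mem hφO _) (pow_mem hPO _))
  have hc' := hLx _ _ hc (mul_mem (pow_mem hxO _) (pow_mem (mul_mem hφO hPO) _))
  rw [h34_redF_mul R hφO hPO, hPred] at ha'
  rw [h34_redF_mul R (pow_mem hφO _) (pow_mem hPO _), h34_redF_pow R hφO, h34_redF_pow R hPO,
    hPred] at hb'
  rw [h34_redF_mul R (pow_mem hxO _) (pow_mem (mul_mem hφO hPO) _), h34_redF_pow R hxO,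
    h34_redF_pow R (mul_mem hφO hPO), h34_redF_mul R hφO hPO, hPred, ← hcard] at hc'
  exact h34_down (R.redF x) (Z.image R.resK) hyc (R.redF φ) N _ _ ha' hb' hc'

end Glue

end Fermat.Agent.S18
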