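/-
S18 / [GR] GOODRED, row GR4 (helper34): reduction of holomorphic differentials, with the
reduction of `L(n (x)_∞) ∩ O` (statement `h39_Lx_red` of row GR3) as the only hypothesis.

The place-level argument is in `h34_HoloCore.lean`; here two of its three inputs are supplied:
values at finite places (`h75_exists_value`) and the ramification bound (`h75_fibre_sum` for `x`
and `x⁻¹`).
-/
import Mathlib
import Fermat.Agent.S18.Defs
import Fermat.Agent.S18.h75_RRDefs
import Fermat.Agent.S18.GR_RedAPI
import Fermat.Agent.S18.RR_Chart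
import Fermat.Agent.S18.h34_HoloCore
import Fermat.Agent.S24.h35_PlaceBasic

set_option autoImplicit false

open AlgebraicCurve IntermediateField

namespace Fermat.Agent.S18

open Fermat.Agent.S24

variable {K F k Fb : Type*} [Field K] [Field F] [Algebra K F] [Field k] [Field Fb] [Algebra k Fb]

/-- a ramification index is at most the degree. -/
theorem h34_ord_le_finrank [IsAlgClosed K] {x : F} (hx : h75_IsChart K x) (P : Place K F)
    (a : K) : P.ord (x - algebraMap K F a) ≤ (Module.finrank K⟮x⟯ F : ℤ) := by
  by_cases h : 0 < P.ord (x - algebraMap K F a)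
  · have hfin := h75_fibre_finite hx a
    have hsum := h75_fibre_sum hx a hfin.toFinset (fun Q => by
      rw [Set.Finite.mem_toFinset]
      rfl)
    rw [← hsum]
    refine Finset.single_le_sum (f := fun Q : Place K F => Q.ord (x - algebraMap K F a))
      (fun Q hQ => ?_) ?_
    · rw [Set.Finite.mem_toFinset] at hQ
      exact le_of_lt hQ
    · rw [Set.Finite.mem_toFinset]
      exact h
  · push Not at h
    exact h.trans (Nat.cast_nonneg _)

/-- the pole orders of a chart are at most the degree of the inverse chart. -/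
theorem h34_pole_le_finrank [IsAlgClosed K] {x : F} (hx : h75_IsChart K x) (P : Place K F) :
    -P.ord x ≤ (Module.finrank K⟮x⁻¹⟯ F : ℤ) := by
  have h1 := h34_ord_le_finrank (h75_isChart_inv hx) P 0
  rwa [map_zero, sub_zero, P.ord_inv] at h1

/-- **GR4 from GR3**: for a chart `x` and `φ ∈ h39_holo K x ∩ O`, the reduction `φ̄` lies in
`h39_holo k x̄`, given that `L(n (x)_∞) ∩ O` reduces into `L(n (x̄)_∞)`. -/
theorem h34_holo_red_of_Lx [IsAlgClosed K] [CharZero K] (R : h39_RedDatum K F k Fb) {x : F}
    (hx : h39_Chart R x)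
    (hLx : ∀ (n : ℕ) (f : F), f ∈ h39_Lx K x n → f ∈ R.O → R.redF f ∈ h39_Lx k (R.redF x) n)
    {φ : F} (hφ : φ ∈ h39_holo K x) (hφO : φ ∈ R.O) : R.redF φ ∈ h39_holo k (R.redF x) := by
  have hw : h39_WeakChart R x := hx.toh39_WeakChart
  have hchart : h75_IsChart K x := h39_weakChart_isChart R hw
  have hx0 : x ≠ 0 := hchart.ne_zero
  refine h34_holo_red_of R hx ?_ (Module.finrank K⟮x⟯ F + Module.finrank K⟮x⁻¹⟯ F) ?_ ?_
    hLx hφ hφO
  · intro P hP
    exact h75_exists_value hchart P ((h35_mem_iff_ord_nonneg P hx0).2 hP)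
  · intro P a
    have h1 := h34_ord_le_finrank hchart P a
    push_cast
    omega
  · intro P
    have h1 := h34_pole_le_finrank hchart P
    push_cast
    omega

end Fermat.Agent.S18
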