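/-
S18 / [GR] GOODRED, row GR4 (helper34): reduction of holomorphic differentials.

`h39_holo_red` verbatim from the GR skeleton (owner helper39): for a chart `x` and
`φ ∈ h39_holo K x ∩ O`, the reduction `φ̄` lies in `h39_holo k x̄`.
Proof: `h34_holo_red_of_Lx` (files `h34_HoloCore.lean`, `h34_HoloRed.lean`) applied to
`h39_Lx_red` (row GR3).
-/
import Mathlib
import Fermat.Agent.S18.Defs
import Fermat.Agent.S18.GR_Integral
import Fermat.Agent.S18.h34_HoloRed

set_option autoImplicit false

open AlgebraicCurve IntermediateField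

namespace Fermat.Agent.S18

variable {K F k Fb : Type*} [Field K] [Field F] [Algebra K F] [Field k] [Field Fb] [Algebra k Fb]

section GR4

variable [IsAlgClosed K] [CharZero K] [IsAlgClosed k]
variable (R : h39_RedDatum K F k Fb) {x : F}

/-- With `P_Z = ∏_{z ∈ Z} (x - z)` and `E > [F : K(x)]`: `φ P_Z`, `(φ P_Z)^E / P_Z` and
`x^(E+1) (φ P_Z)^E` lie in `L(n (x)_∞) ∩ O` for suitable `n`; apply `h39_Lx_red` and read off the
orders of `φ̄`. -/
theorem h39_holo_red (hx : h39_Chart R x) {φ : F} (hφ : φ ∈ h39_holo K x) (hφO : φ ∈ R.O) :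
    R.redF φ ∈ h39_holo k (R.redF x) :=
  h34_holo_red_of_Lx R hx
    (fun n _ hf hfO => h39_Lx_red R hx.toh39_WeakChart n hf hfO) hφ hφO

end GR4

end Fermat.Agent.S18
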