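import Mathlib
import Fermat.Agent.S18.h75_TateDefs

/-!
# S18 / RR-A4: residue duality for sandwiched pairs (`h75_sand_dual`)

Abstract form: two families `f : I → V`, `g : I → V'` which are dual for a pairing
`B : V' × V → K` (`B (g i) (f j) = δ_ij`), `W = span f`, `W' = span g`.

* `h62_perp_dual` : if `N ≤ W` contains `span (f '' S)` with `Sᶜ` finite, then the annihilator
  of `N` in `W'` is finite-dimensional of dimension `dim W / N`;
* `h62_perp_perp` : if `span (f '' S₁) ≤ M ≤ span (f '' S₂)` with `S₂ \ S₁` finite, then the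
  double annihilator of `M` is `M`;
* `h75_sand_dual` : the row statement (Serre duality for the two-chart Riemann–Roch layer).

The linear independence hypotheses of `h75_sand_dual` are not used: they follow from the
duality relation.
-/

set_option autoImplicit false

namespace Fermat.Agent.S18

open Module Submodule

section Abstract

variable {K V V' : Type*} [Field K] [AddCommGroup V] [Module K V] [AddCommGroup V'] [Module K V']

lemma h62_mem_perp (B : V' →ₗ[K] V →ₗ[K] K) (W' : Submodule K V') (M : Submodule K V) (w : V') :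
    w ∈ h75_perp B W' M ↔ w ∈ W' ∧ ∀ m ∈ M, B w m = 0 := Iff.rfl

lemma h62_perp_le (B : V' →ₗ[K] V →ₗ[K] K) (W' : Submodule K V') (M : Submodule K V) :
    h75_perp B W' M ≤ W' := fun _ hw => hw.1

lemma h62_perp_sup (B : V' →ₗ[K] V →ₗ[K] K) (W' : Submodule K V') (M L : Submodule K V) :
    h75_perp B W' (M ⊔ L) = h75_perp B W' M ⊓ h75_perp B W' L := by
  ext w
  simp only [h62_mem_perp, Submodule.mem_inf]
  constructor
  · rintro ⟨hw, h⟩
    exact ⟨⟨hw, fun m hm => h m (Submodule.mem_sup_left hm)⟩,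
      ⟨hw, fun m hm => h m (Submodule.mem_sup_right hm)⟩⟩
  · rintro ⟨⟨hw, h1⟩, ⟨_, h2⟩⟩
    refine ⟨hw, fun m hm => ?_⟩
    obtain ⟨x, hx, y, hy, rfl⟩ := Submodule.mem_sup.mp hm
    rw [map_add, h1 x hx, h2 y hy, add_zero]

/-- `dim W / (N ⊓ W)` in the two models. -/
lemma h62_relDim_equiv (N W : Submodule K V) :
    Nonempty ((↥W ⧸ N.comap W.subtype) ≃ₗ[K] ↥(W.map N.mkQ)) := by
  let φ : ↥W →ₗ[K] V ⧸ N := N.mkQ ∘ₗ W.subtype
  have hker : LinearMap.ker φ = N.comap W.subtype := by
    rw [LinearMap.ker_comp, Submodule.ker_mkQ]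
  have hrange : LinearMap.range φ = W.map N.mkQ := by
    rw [LinearMap.range_comp, Submodule.range_subtype]
  exact ⟨(Submodule.quotEquivOfEq _ _ hker.symm).trans
    (φ.quotKerEquivRange.trans (LinearEquiv.ofEq _ _ hrange))⟩

variable {I : Type*} [DecidableEq I] (f : I → V) (g : I → V') (B : V' →ₗ[K] V →ₗ[K] K)

omit [DecidableEq I] in
/-- If `N` contains a cofinite part of the family, then `span f / N` is finite-dimensional. -/
lemma h62_relFin_of_cofinite (N : Submodule K V) (S : Set I) (hS : Sᶜ.Finite)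
    (hSN : span K (f '' S) ≤ N) :
    FiniteDimensional K ↥((span K (Set.range f)).map N.mkQ) := by
  have h1 : (span K (Set.range f)).map N.mkQ ≤ span K (N.mkQ '' (f '' Sᶜ)) := by
    rw [Submodule.map_span, Submodule.span_le]
    rintro _ ⟨_, ⟨i, rfl⟩, rfl⟩
    by_cases hi : i ∈ S
    · have : N.mkQ (f i) = 0 := by
        rw [Submodule.mkQ_apply, Submodule.Quotient.mk_eq_zero]
        exact hSN (Submodule.subset_span ⟨i, hi, rfl⟩)
      rw [this]; exact Submodule.zero_mem _
    · exact Submodule.subset_span ⟨f i, ⟨i, hi, rfl⟩, rfl⟩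
  have h2 : FiniteDimensional K ↥(span K (N.mkQ '' (f '' Sᶜ))) :=
    FiniteDimensional.span_of_finite K ((hS.image f).image _)
  exact Submodule.finiteDimensional_of_le h1

variable (hB : ∀ i j : I, B (g i) (f j) = if i = j then 1 else 0)
include hB

/-- The flipped pairing has the same duality relation. -/
lemma h62_flip_dual : ∀ i j : I, B.flip (f i) (g j) = if i = j then 1 else 0 := by
  intro i j
  rw [LinearMap.flip_apply, hB]
  rcases eq_or_ne i j with h | h
  · subst h; simp
  · simp [h, Ne.symm h]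

/-- `B (g i) ·` is the `i`-th coordinate. -/
lemma h62_pair_lc (i : I) (c : I →₀ K) :
    B (g i) (Finsupp.linearCombination K f c) = c i := by
  rw [Finsupp.linearCombination_apply, Finsupp.sum, map_sum]
  simp only [map_smul, hB, smul_eq_mul, mul_ite, mul_one, mul_zero]
  rw [Finset.sum_ite_eq]
  split_ifs with h
  · rfl
  · exact (Finsupp.notMem_support_iff.mp h).symm

/-- An element of `span f` whose coordinates outside `S` vanish lies in `span (f '' S)`. -/
lemma h62_mem_span_of_pair (S : Set I) {w : V} (hw : w ∈ span K (Set.range f))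
    (h : ∀ i, i ∉ S → B (g i) w = 0) : w ∈ span K (f '' S) := by
  rw [← Finsupp.range_linearCombination] at hw
  obtain ⟨c, rfl⟩ := hw
  rw [Finsupp.mem_span_image_iff_linearCombination]
  refine ⟨c, ?_, rfl⟩
  rw [Finsupp.mem_supported]
  intro i hi
  by_contra hiS
  have h1 := h i hiS
  rw [h62_pair_lc f g B hB] at h1
  exact (Finsupp.mem_support_iff.mp hi) h1

/-- `g i` annihilates `M ≤ span (f '' S)` when `i ∉ S`. -/
lemma h62_mem_perp_of_notMem {M : Submodule K V} {S : Set I} (hM : M ≤ span K (f '' S)) {i : I}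
    (hi : i ∉ S) : g i ∈ h75_perp B (span K (Set.range g)) M := by
  refine ⟨Submodule.subset_span ⟨i, rfl⟩, fun m hm => ?_⟩
  have h1 : span K (f '' S) ≤ LinearMap.ker (B (g i)) := by
    rw [Submodule.span_le]
    rintro _ ⟨j, hj, rfl⟩
    rw [SetLike.mem_coe, LinearMap.mem_ker, hB, if_neg]
    rintro rfl; exact hi hj
  exact h1 (hM hm)

/-- Realisation of a finitely supported coordinate functional. -/
lemma h62_realize (F : Finset I) (φ : I → K) (j : I) :
    B (∑ i ∈ F, φ i • g i) (f j) = if j ∈ F then φ j else 0 := by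
  rw [map_sum, LinearMap.sum_apply]
  simp only [map_smul, LinearMap.smul_apply, hB, smul_eq_mul, mul_ite, mul_one, mul_zero]
  rw [Finset.sum_ite_eq']

omit [DecidableEq I] hB in
lemma h62_realize_mem (F : Finset I) (φ : I → K) :
    ∑ i ∈ F, φ i • g i ∈ span K (Set.range g) :=
  Submodule.sum_mem _ (fun i _ => Submodule.smul_mem _ _ (Submodule.subset_span ⟨i, rfl⟩))

/-- DUALITY: the annihilator of a cofinite `N ≤ span f` in `span g` is the dual of
`span f / N`. -/
theorem h62_perp_dual (N : Submodule K V) (hNW : N ≤ span K (Set.range f)) (S : Set I)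
    (hS : Sᶜ.Finite) (hSN : span K (f '' S) ≤ N) :
    FiniteDimensional K ↥(h75_perp B (span K (Set.range g)) N) ∧
      Module.finrank K ↥(h75_perp B (span K (Set.range g)) N) =
        h75_relDim N (span K (Set.range f)) := by
  have hfd : FiniteDimensional K ↥((span K (Set.range f)).map N.mkQ) :=
    h62_relFin_of_cofinite f N S hS hSN
  obtain ⟨e₁⟩ := h62_relDim_equiv N (span K (Set.range f))
  have hfdQ : FiniteDimensional K (↥(span K (Set.range f)) ⧸
      N.comap (span K (Set.range f)).subtype) := e₁.symm.finiteDimensional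
  let Ψ₀ : V' →ₗ[K] Module.Dual K ↥(span K (Set.range f)) :=
    (span K (Set.range f)).subtype.dualMap ∘ₗ B
  have hΨ₀ : ∀ (w' : V') (x : ↥(span K (Set.range f))), Ψ₀ w' x = B w' (x : V) := fun w' x => rfl
  let Φ : ↥(h75_perp B (span K (Set.range g)) N) →ₗ[K]
      ↥((N.comap (span K (Set.range f)).subtype).dualAnnihilator) :=
    LinearMap.codRestrict _ (Ψ₀ ∘ₗ (h75_perp B (span K (Set.range g)) N).subtype) (fun w' => by
      rw [Submodule.mem_dualAnnihilator]
      intro x hx
      exact w'.2.2 (x : V) hx)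
  have hΦ : ∀ w', ((Φ w' : ↥((N.comap (span K (Set.range f)).subtype).dualAnnihilator)) :
      Module.Dual K ↥(span K (Set.range f))) = Ψ₀ (w' : V') := fun w' => rfl
  let fW : I → ↥(span K (Set.range f)) := fun i => ⟨f i, Submodule.subset_span ⟨i, rfl⟩⟩
  have hinj : Function.Injective Φ := by
    refine (injective_iff_map_eq_zero Φ).2 (fun w' hw' => ?_)
    have h1 : Ψ₀ (w' : V') = 0 := by rw [← hΦ, hw']; rfl
    have h0 : ∀ j, B (w' : V') (f j) = 0 := fun j => by
      have h2 := LinearMap.congr_fun h1 (fW j)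
      rw [hΨ₀] at h2
      exact h2
    have h3 := h62_mem_span_of_pair g f B.flip (h62_flip_dual f g B hB) ∅ w'.2.1
      (fun i _ => by rw [LinearMap.flip_apply]; exact h0 i)
    rw [Set.image_empty, Submodule.span_empty, Submodule.mem_bot] at h3
    exact Subtype.ext h3
  have hsurj : Function.Surjective Φ := by
    rintro ⟨l, hl⟩
    rw [Submodule.mem_dualAnnihilator] at hl
    have hval : ∀ j, B (∑ i ∈ hS.toFinset, l (fW i) • g i) (f j) = l (fW j) := by
      intro j
      rw [h62_realize f g B hB]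
      split_ifs with hj
      · rfl
      · have hjS : j ∈ S := by
          rw [Set.Finite.mem_toFinset] at hj
          exact not_not.mp hj
        exact (hl (fW j) (hSN (Submodule.subset_span ⟨j, hjS, rfl⟩))).symm
    have hext : Ψ₀ (∑ i ∈ hS.toFinset, l (fW i) • g i) = l := by
      apply LinearMap.ext_on (Submodule.span_span_coe_preimage (R := K) (s := Set.range f))
      rintro x ⟨j, hj⟩
      have hx : x = fW j := Subtype.ext hj.symm
      rw [hx, hΨ₀]; exact hval j
    have hperp : ∑ i ∈ hS.toFinset, l (fW i) • g i ∈ h75_perp B (span K (Set.range g)) N := by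
      refine ⟨h62_realize_mem g _ _, fun m hm => ?_⟩
      have h2 := LinearMap.congr_fun hext ⟨m, hNW hm⟩
      rw [hΨ₀] at h2
      rw [h2]
      exact hl _ hm
    exact ⟨⟨_, hperp⟩, Subtype.ext hext⟩
  let Φe := LinearEquiv.ofBijective Φ ⟨hinj, hsurj⟩
  let e₂ := (N.comap (span K (Set.range f)).subtype).dualQuotEquivDualAnnihilator
  have hfdP : FiniteDimensional K ↥(h75_perp B (span K (Set.range g)) N) :=
    (Φe.trans e₂.symm).symm.finiteDimensional
  refine ⟨hfdP, ?_⟩
  rw [h75_relDim, ← e₁.finrank_eq, (Φe.trans e₂.symm).finrank_eq, Subspace.dual_finrank_eq]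

/-- DOUBLE ANNIHILATOR of a sandwiched subspace. -/
theorem h62_perp_perp (M : Submodule K V) (S₁ S₂ : Set I) (hfin : (S₂ \ S₁).Finite)
    (h₁ : span K (f '' S₁) ≤ M) (h₂ : M ≤ span K (f '' S₂)) :
    h75_perp B.flip (span K (Set.range f)) (h75_perp B (span K (Set.range g)) M) = M := by
  have hS₂W : span K (f '' S₂) ≤ span K (Set.range f) :=
    Submodule.span_mono (Set.image_subset_range f S₂)
  apply le_antisymm
  · rintro w ⟨hwW, hw⟩
    have hw₂ : w ∈ span K (f '' S₂) := by
      apply h62_mem_span_of_pair f g B hB S₂ hwW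
      intro i hi
      have := hw (g i) (h62_mem_perp_of_notMem f g B hB h₂ hi)
      rwa [LinearMap.flip_apply] at this
    by_contra hwM
    have h3 := (Subspace.forall_mem_dualAnnihilator_apply_eq_zero_iff M w).not.mpr hwM
    push Not at h3
    obtain ⟨φ, hφ, hφw⟩ := h3
    rw [Submodule.mem_dualAnnihilator] at hφ
    have hval : ∀ j ∈ S₂, B (∑ i ∈ hfin.toFinset, φ (f i) • g i) (f j) = φ (f j) := by
      intro j hj
      rw [h62_realize f g B hB]
      split_ifs with hj'
      · rfl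
      · have hj₁ : j ∈ S₁ := by
          rw [Set.Finite.mem_toFinset] at hj'
          by_contra hcon
          exact hj' ⟨hj, hcon⟩
        exact (hφ _ (h₁ (Submodule.subset_span ⟨j, hj₁, rfl⟩))).symm
    have heq : ∀ x ∈ span K (f '' S₂), B (∑ i ∈ hfin.toFinset, φ (f i) • g i) x = φ x := by
      intro x hx
      refine LinearMap.eqOn_span (f := B (∑ i ∈ hfin.toFinset, φ (f i) • g i)) (g := φ) ?_ hx
      rintro _ ⟨j, hj, rfl⟩
      exact hval j hj
    have hperp : ∑ i ∈ hfin.toFinset, φ (f i) • g i ∈ h75_perp B (span K (Set.range g)) M :=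
      ⟨h62_realize_mem g _ _, fun m hm => by rw [heq m (h₂ hm)]; exact hφ m hm⟩
    have h4 := hw _ hperp
    rw [LinearMap.flip_apply, heq w hw₂] at h4
    exact hφw h4
  · intro m hm
    refine ⟨hS₂W (h₂ hm), fun w' hw' => ?_⟩
    rw [LinearMap.flip_apply]
    exact hw'.2 m hm

end Abstract

section Frame

variable {K V : Type*} [Field K] [AddCommGroup V] [Module K V]
variable (T : V ≃ₗ[K] V) {n : ℕ} (e : Fin n → V)

lemma h62_Mstd_eq (a : ℤ) :
    h75_Mstd T e a = span K ((fun p : Fin n × ℤ => (T ^ p.2) (e p.1)) '' {p | a ≤ p.2}) := by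
  unfold h75_Mstd
  congr 1
  ext v
  constructor
  · rintro ⟨j, s, hs, rfl⟩
    exact ⟨(j, s), hs, rfl⟩
  · rintro ⟨⟨j, s⟩, hs, rfl⟩
    exact ⟨j, s, hs, rfl⟩

lemma h62_Lstd_eq (a : ℤ) :
    h75_Lstd T e a = span K ((fun p : Fin n × ℤ => (T ^ p.2) (e p.1)) '' {p | p.2 ≤ a}) := by
  unfold h75_Lstd
  congr 1
  ext v
  constructor
  · rintro ⟨j, s, hs, rfl⟩
    exact ⟨(j, s), hs, rfl⟩
  · rintro ⟨⟨j, s⟩, hs, rfl⟩
    exact ⟨j, s, hs, rfl⟩

lemma h62_Wstd_eq :
    h75_Wstd T e = span K (Set.range (fun p : Fin n × ℤ => (T ^ p.2) (e p.1))) := by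
  unfold h75_Wstd
  congr 1
  ext v
  constructor
  · rintro ⟨j, s, rfl⟩
    exact ⟨(j, s), rfl⟩
  · rintro ⟨⟨j, s⟩, rfl⟩
    exact ⟨j, s, rfl⟩

lemma h62_Wstd_eq' :
    h75_Wstd T e = span K (Set.range (fun p : Fin n × ℤ => (T ^ (-1 - p.2)) (e p.1))) := by
  unfold h75_Wstd
  congr 1
  ext v
  constructor
  · rintro ⟨j, s, rfl⟩
    exact ⟨(j, -1 - s), by simp⟩
  · rintro ⟨⟨j, s⟩, rfl⟩
    exact ⟨j, -1 - s, rfl⟩

omit [Field K] [AddCommGroup V] [Module K V] in
lemma h62_finite_window (n : ℕ) (a b : ℤ) : {p : Fin n × ℤ | a ≤ p.2 ∧ p.2 ≤ b}.Finite := by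
  apply Set.Finite.subset ((Set.finite_univ (α := Fin n)).prod (Set.finite_Icc a b))
  rintro ⟨j, s⟩ ⟨h1, h2⟩
  exact ⟨Set.mem_univ _, h1, h2⟩

/-- (S6) residue duality: for a pairing which is standard in the two frames,
`h⁰(M^⊥, L^⊥) = h¹(M, L)` and `h¹(M^⊥, L^⊥) = h⁰(M, L)`. -/
theorem h75_sand_dual {V' : Type*} [AddCommGroup V'] [Module K V'] (T' : V' ≃ₗ[K] V')
    (e' : Fin n → V') (he : h75_IsFrame T e) (he' : h75_IsFrame T' e')
    (B : V' →ₗ[K] V →ₗ[K] K)
    (hB : ∀ (i j : Fin n) (s t : ℤ),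
      B ((T' ^ s) (e' i)) ((T ^ t) (e j)) = if i = j ∧ s + t = -1 then 1 else 0)
    {M L : Submodule K V} (hM : h75_IsSandM T e M) (hL : h75_IsSandL T e L) :
    h75_IsFred (h75_perp B (h75_Wstd T' e') M) (h75_perp B (h75_Wstd T' e') L) (h75_Wstd T' e') ∧
    Module.finrank K ↥(h75_perp B (h75_Wstd T' e') M ⊓ h75_perp B (h75_Wstd T' e') L) =
      h75_relDim (M ⊔ L) (h75_Wstd T e) ∧
    h75_relDim (h75_perp B (h75_Wstd T' e') M ⊔ h75_perp B (h75_Wstd T' e') L) (h75_Wstd T' e') =
      Module.finrank K ↥(M ⊓ L) := by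
  obtain ⟨a, hMa, hMa'⟩ := hM
  obtain ⟨b, hLb, hLb'⟩ := hL
  rw [h62_Mstd_eq] at hMa hMa'
  rw [h62_Lstd_eq] at hLb hLb'
  rw [h62_Wstd_eq T e, h62_Wstd_eq' T' e']
  -- the dual families
  have hfg : ∀ i j : Fin n × ℤ, B ((fun p : Fin n × ℤ => (T' ^ (-1 - p.2)) (e' p.1)) i)
      ((fun p : Fin n × ℤ => (T ^ p.2) (e p.1)) j) = if i = j then 1 else 0 := by
    rintro ⟨i, s⟩ ⟨j, t⟩
    simp only
    rw [hB]
    by_cases h : i = j ∧ -1 - s + t = -1
    · rw [if_pos h, if_pos]
      obtain ⟨h1, h2⟩ := h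
      exact Prod.ext h1 (by simp only; omega)
    · rw [if_neg h, if_neg]
      intro h'
      apply h
      have h1 := congrArg Prod.fst h'
      have h2 := congrArg Prod.snd h'
      simp only at h1 h2
      exact ⟨h1, by omega⟩
  clear hB he he'
  generalize (fun p : Fin n × ℤ => (T ^ p.2) (e p.1)) = f at *
  generalize (fun p : Fin n × ℤ => (T' ^ (-1 - p.2)) (e' p.1)) = g at *
  have hMW : M ≤ span K (Set.range f) :=
    hMa'.trans (Submodule.span_mono (Set.image_subset_range _ _))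
  have hLW : L ≤ span K (Set.range f) :=
    hLb'.trans (Submodule.span_mono (Set.image_subset_range _ _))
  -- `M ⊔ L` is cofinite in `span f`
  have hS : ({p : Fin n × ℤ | a ≤ p.2} ∪ {p | p.2 ≤ -b})ᶜ.Finite := by
    apply (h62_finite_window n (-b) a).subset
    rintro ⟨j, s⟩ hs
    simp only [Set.mem_compl_iff, Set.mem_union, Set.mem_ofPred_eq, not_or, not_le] at hs
    exact ⟨by simp only; omega, by simp only; omega⟩
  have hSN : span K (f '' ({p : Fin n × ℤ | a ≤ p.2} ∪ {p | p.2 ≤ -b})) ≤ M ⊔ L := by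
    rw [Set.image_union, Submodule.span_union]
    exact sup_le_sup hMa hLb
  obtain ⟨hfd1, hdim1⟩ := h62_perp_dual f g B hfg (M ⊔ L) (sup_le hMW hLW) _ hS hSN
  rw [h62_perp_sup] at hfd1 hdim1
  -- `perp M ⊔ perp L` is cofinite in `span g`
  have hS' : ({p : Fin n × ℤ | p.2 < -a} ∪ {p | b < p.2})ᶜ.Finite := by
    apply (h62_finite_window n (-a) b).subset
    rintro ⟨j, s⟩ hs
    simp only [Set.mem_compl_iff, Set.mem_union, Set.mem_ofPred_eq, not_or, not_lt] at hs
    exact ⟨hs.1, hs.2⟩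
  have hSN' : span K (g '' ({p : Fin n × ℤ | p.2 < -a} ∪ {p | b < p.2})) ≤
      h75_perp B (span K (Set.range g)) M ⊔ h75_perp B (span K (Set.range g)) L := by
    rw [Submodule.span_le]
    rintro _ ⟨p, hp, rfl⟩
    rcases hp with hp | hp
    · exact Submodule.mem_sup_left (h62_mem_perp_of_notMem f g B hfg hMa'
        (by simp only [Set.mem_ofPred_eq, not_le]; exact hp))
    · exact Submodule.mem_sup_right (h62_mem_perp_of_notMem f g B hfg hLb'
        (by simp only [Set.mem_ofPred_eq, not_le]; exact hp))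
  have hN'W : h75_perp B (span K (Set.range g)) M ⊔ h75_perp B (span K (Set.range g)) L ≤
      span K (Set.range g) := sup_le (h62_perp_le _ _ _) (h62_perp_le _ _ _)
  obtain ⟨hfd2, hdim2⟩ := h62_perp_dual g f B.flip (h62_flip_dual f g B hfg) _ hN'W _ hS' hSN'
  -- double annihilators
  have hMM : h75_perp B.flip (span K (Set.range f)) (h75_perp B (span K (Set.range g)) M) = M :=
    h62_perp_perp f g B hfg M {p | a ≤ p.2} {p | -a ≤ p.2} (by
      apply (h62_finite_window n (-a) a).subset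
      rintro ⟨j, s⟩ ⟨h1, h2⟩
      simp only [Set.mem_ofPred_eq, not_le] at h1 h2
      exact ⟨h1, by simp only; omega⟩) hMa hMa'
  have hLL : h75_perp B.flip (span K (Set.range f)) (h75_perp B (span K (Set.range g)) L) = L :=
    h62_perp_perp f g B hfg L {p | p.2 ≤ -b} {p | p.2 ≤ b} (by
      apply (h62_finite_window n (-b) b).subset
      rintro ⟨j, s⟩ ⟨h1, h2⟩
      simp only [Set.mem_ofPred_eq, not_le] at h1 h2
      exact ⟨by simp only; omega, h1⟩) hLb hLb'
  rw [h62_perp_sup, hMM, hLL] at hdim2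
  have hrel : h75_RelFin (h75_perp B (span K (Set.range g)) M ⊔
      h75_perp B (span K (Set.range g)) L) (span K (Set.range g)) :=
    h62_relFin_of_cofinite g _ _ hS' hSN'
  exact ⟨⟨h62_perp_le _ _ _, h62_perp_le _ _ _, hfd1, hrel⟩, hdim1, hdim2.symm⟩

end Frame

end Fermat.Agent.S18
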