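import Fermat.Agent.S18.RR_Frame
import Fermat.Agent.S18.Tate_Dual

/-!
# S18 / RR-B7: the trace pairing and Serre duality

`h75_dual`: `Ω(x, D)` is finite-dimensional of dimension `h¹(D)`.  The pairing is
`B(w, v) = ρ(Tr_{F/K(x)}(w v))` with `ρ : K(x) → K` a `K`-linear functional with
`ρ(x^s) = [s = -1]`; in the frame `e` of `M_x(D)` and its trace-dual frame `e'` it is the standard
residue pairing, so `h75_sand_dual` applies, and `Ω(x, D) = M^⊥ ⊓ L^⊥`.
-/

set_option autoImplicit false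

open AlgebraicCurve IntermediateField
open scoped IntermediateField.algebraAdjoinAdjoin

namespace Fermat.Agent.S18

section Res

variable {K L : Type*} [Field K] [Field L] [Algebra K L]

/-- The residue functional: `ρ(g^s) = [s = -1]`. -/
theorem h75_exists_res {g : L} (hg : Transcendental K g) :
    ∃ ρ : L →ₗ[K] K, ∀ s : ℤ, ρ (g ^ s) = if s = -1 then 1 else 0 := by
  classical
  have hli : LinearIndependent K (fun s : ℤ => g ^ s) := h75_linearIndependent_zpow hg
  let f : Submodule.span K (Set.range fun s : ℤ => g ^ s) →ₗ[K] K :=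
    (Finsupp.lapply (-1 : ℤ)).comp hli.repr
  obtain ⟨ρ, hρ⟩ := LinearMap.exists_extend f
  refine ⟨ρ, fun s => ?_⟩
  have hmem : g ^ s ∈ Submodule.span K (Set.range fun s : ℤ => g ^ s) :=
    Submodule.subset_span ⟨s, rfl⟩
  have h1 : ρ (g ^ s) = f ⟨g ^ s, hmem⟩ := by
    rw [← hρ]
    rfl
  rw [h1]
  show (hli.repr ⟨g ^ s, hmem⟩) (-1) = _
  rw [hli.repr_eq_single s ⟨g ^ s, hmem⟩ rfl, Finsupp.single_apply]

/-- the residue of a twisted Laurent polynomial. -/
theorem h75_res_mul {g : L} (hg0 : g ≠ 0) (ρ : L →ₗ[K] K)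
    (hρ : ∀ s : ℤ, ρ (g ^ s) = if s = -1 then 1 else 0) (l : ℤ →₀ K) (t : ℤ) :
    ρ (g ^ t * l.sum fun i a => a • g ^ i) = l (-1 - t) := by
  classical
  rw [Finsupp.sum, Finset.mul_sum, map_sum]
  have h : ∀ i ∈ l.support, ρ (g ^ t * (l i • g ^ i)) = if i = -1 - t then l i else 0 := by
    intro i _
    rw [mul_smul_comm, map_smul, ← zpow_add₀ hg0, hρ, smul_eq_mul]
    by_cases hi : i = -1 - t
    · rw [if_pos hi, if_pos (by omega), mul_one]
    · rw [if_neg hi, if_neg (by omega), mul_zero]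
  rw [Finset.sum_congr rfl h, Finset.sum_ite_eq']
  split_ifs with hmem
  · rfl
  · exact (Finsupp.notMem_support_iff.mp hmem).symm

/-- Laurent polynomials `c` with `ρ(g^k c) = 0` for all `k ≥ 0` are polynomials. -/
theorem h75_res_poly {g : L} (hg0 : g ≠ 0) (ρ : L →ₗ[K] K)
    (hρ : ∀ s : ℤ, ρ (g ^ s) = if s = -1 then 1 else 0) {c : L}
    (hc : c ∈ Submodule.span K (Set.range fun s : ℤ => g ^ s))
    (h : ∀ k : ℕ, ρ (g ^ k * c) = 0) : c ∈ Algebra.adjoin K {g} := by
  classical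
  obtain ⟨l, rfl⟩ := (Finsupp.mem_span_range_iff_exists_finsupp).mp hc
  have hl : ∀ s : ℤ, s < 0 → l s = 0 := by
    intro s hs
    obtain ⟨k, hk⟩ := Int.eq_ofNat_of_zero_le (show 0 ≤ -1 - s by omega)
    have := h k
    rw [← zpow_natCast, h75_res_mul hg0 ρ hρ] at this
    rw [← this]
    congr 1
    omega
  rw [Finsupp.sum]
  refine Subalgebra.sum_mem _ (fun i _ => ?_)
  by_cases hi : i < 0
  · rw [hl i hi, zero_smul]
    exact zero_mem _
  · obtain ⟨k, rfl⟩ := Int.eq_ofNat_of_zero_le (not_lt.mp hi)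
    rw [zpow_natCast]
    exact Subalgebra.smul_mem _ (pow_mem (Algebra.self_mem_adjoin_singleton K g) k) _

/-- Laurent polynomials `c` with `ρ(g^(-k) c) = 0` for all `k ≥ 0` lie in `g⁻² K[g⁻¹]`. -/
theorem h75_res_polyInv {g : L} (hg0 : g ≠ 0) (ρ : L →ₗ[K] K)
    (hρ : ∀ s : ℤ, ρ (g ^ s) = if s = -1 then 1 else 0) {c : L}
    (hc : c ∈ Submodule.span K (Set.range fun s : ℤ => g ^ s))
    (h : ∀ k : ℕ, ρ (g⁻¹ ^ k * c) = 0) : g ^ 2 * c ∈ Algebra.adjoin K {g⁻¹} := by
  classical
  obtain ⟨l, rfl⟩ := (Finsupp.mem_span_range_iff_exists_finsupp).mp hc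
  have hl : ∀ s : ℤ, -1 ≤ s → l s = 0 := by
    intro s hs
    obtain ⟨k, hk⟩ := Int.eq_ofNat_of_zero_le (show 0 ≤ s + 1 by omega)
    have := h k
    rw [inv_pow, ← zpow_natCast, ← zpow_neg, h75_res_mul hg0 ρ hρ] at this
    rw [← this]
    congr 1
    omega
  rw [Finsupp.sum, Finset.mul_sum]
  refine Subalgebra.sum_mem _ (fun i _ => ?_)
  by_cases hi : -1 ≤ i
  · rw [hl i hi, zero_smul, mul_zero]
    exact zero_mem _
  · obtain ⟨k, hk⟩ := Int.eq_ofNat_of_zero_le (show 0 ≤ -i - 2 by omega)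
    have hi' : i = -((k + 2 : ℕ) : ℤ) := by push_cast; omega
    have : g ^ 2 * (l i • g ^ i) = l i • g⁻¹ ^ k := by
      rw [mul_smul_comm, hi', zpow_neg, zpow_natCast, pow_add, inv_pow]
      field_simp
    rw [this]
    exact Subalgebra.smul_mem _ (pow_mem (Algebra.self_mem_adjoin_singleton K g⁻¹) k) _

/-- `ρ` vanishes on polynomials. -/
theorem h75_res_eq_zero_of_poly {g : L} (ρ : L →ₗ[K] K)
    (hρ : ∀ s : ℤ, ρ (g ^ s) = if s = -1 then 1 else 0) {c : L}
    (hc : c ∈ Algebra.adjoin K {g}) : ρ c = 0 := by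
  rw [Algebra.adjoin_singleton_eq_range_aeval] at hc
  obtain ⟨p, rfl⟩ := hc
  show ρ (Polynomial.aeval g p) = 0
  rw [Polynomial.aeval_eq_sum_range, map_sum]
  refine Finset.sum_eq_zero (fun i _ => ?_)
  rw [map_smul, ← zpow_natCast, hρ, if_neg (by omega), smul_zero]

/-- `ρ` vanishes on `g⁻² K[g⁻¹]`. -/
theorem h75_res_eq_zero_of_polyInv {g : L} (hg0 : g ≠ 0) (ρ : L →ₗ[K] K)
    (hρ : ∀ s : ℤ, ρ (g ^ s) = if s = -1 then 1 else 0) {c : L}
    (hc : g ^ 2 * c ∈ Algebra.adjoin K {g⁻¹}) : ρ c = 0 := by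
  rw [Algebra.adjoin_singleton_eq_range_aeval] at hc
  obtain ⟨p, hp⟩ := hc
  have hc' : c = ∑ i ∈ Finset.range (p.natDegree + 1), p.coeff i • g ^ (-((i + 2 : ℕ) : ℤ)) := by
    have h1 : c = (g ^ 2)⁻¹ * (g ^ 2 * c) := by
      rw [inv_mul_cancel_left₀ (pow_ne_zero 2 hg0)]
    have h2 : g ^ 2 * c = Polynomial.aeval g⁻¹ p := hp.symm
    rw [h1, h2, Polynomial.aeval_eq_sum_range, Finset.mul_sum]
    refine Finset.sum_congr rfl (fun i _ => ?_)
    rw [mul_smul_comm, zpow_neg, zpow_natCast, pow_add, inv_pow]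
    field_simp
  rw [hc', map_sum]
  refine Finset.sum_eq_zero (fun i _ => ?_)
  rw [map_smul, hρ, if_neg (by push_cast; omega), smul_zero]

end Res


section Dual

variable {K F : Type*} [Field K] [Field F] [Algebra K F] [IsAlgClosed K]

/-- **RR-B7**: `Ω(x, D)` is finite-dimensional of dimension `h¹(D)`. -/
theorem h75_dual {x : F} (hx : h75_IsChart K x) (D : Divisor K F) :
    FiniteDimensional K ↥(h75_Omega x D) ∧
      Module.finrank K ↥(h75_Omega x D) =
        h75_relDim (h75_chart x D ⊔ h75_chart x⁻¹ D) (h75_overlap x D) := by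
  classical
  have hx0 := hx.ne_zero
  have : FiniteDimensional K⟮x⟯ F := hx.fin
  have : Algebra.IsSeparable K⟮x⟯ F := hx.sep
  obtain ⟨e, heF, heli, hM, hW, hL⟩ := h75_exists_frame hx D
  -- the basis and its trace-dual
  let b : Module.Basis (Fin (Module.finrank K⟮x⟯ F)) K⟮x⟯ F :=
    Module.Basis.mk heli (by rw [heli.span_eq_top_of_card_eq_finrank' (by simp)])
  have hb : ∀ i, b i = e i := fun i => by simp [b]
  have hnd := traceForm_nondegenerate K⟮x⟯ F
  let b' := (Algebra.traceForm K⟮x⟯ F).dualBasis hnd b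
  let e' : Fin (Module.finrank K⟮x⟯ F) → F := fun i => b' i
  have he'F : h75_IsFrame (h75_mulEquiv K x hx0) e' :=
    h75_isFrame_of_li hx e' b'.linearIndependent
  have hgen : Transcendental K (AdjoinSimple.gen K x) := by
    intro h
    apply hx.tr
    have h' := IntermediateField.isAlgebraic_iff.mp h
    rwa [AdjoinSimple.coe_gen] at h'
  have hgen0 : AdjoinSimple.gen K x ≠ 0 := by
    intro h
    exact hgen (h ▸ isAlgebraic_zero)
  obtain ⟨ρ, hρ⟩ := h75_exists_res hgen
  -- the pairing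
  let trK : F →ₗ[K] K⟮x⟯ := (Algebra.trace K⟮x⟯ F).restrictScalars K
  let B : F →ₗ[K] F →ₗ[K] K := (LinearMap.mul K F).compr₂ (ρ.comp trK)
  have hBapp : ∀ w v, B w v = ρ (Algebra.trace K⟮x⟯ F (w * v)) := fun _ _ => rfl
  have hcoe : ∀ s : ℤ, (((AdjoinSimple.gen K x) ^ s : K⟮x⟯) : F) = x ^ s := by
    intro s
    show K⟮x⟯.val ((AdjoinSimple.gen K x) ^ s) = x ^ s
    rw [map_zpow₀]
    rfl
  have htr : ∀ (i j : Fin (Module.finrank K⟮x⟯ F)) (s t : ℤ),
      Algebra.trace K⟮x⟯ F (((h75_mulEquiv K x hx0) ^ s) (e' i) *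
        ((h75_mulEquiv K x hx0) ^ t) (e j)) =
        if i = j then (AdjoinSimple.gen K x) ^ (s + t) else 0 := by
    intro i j s t
    rw [h75_T_zpow, h75_T_zpow]
    have h1 : x ^ s * e' i * (x ^ t * e j) =
        ((AdjoinSimple.gen K x) ^ (s + t) : K⟮x⟯) • (e' i * e j) := by
      rw [Algebra.smul_def]
      show _ = (((AdjoinSimple.gen K x) ^ (s + t) : K⟮x⟯) : F) * _
      rw [hcoe, zpow_add₀ hx0]
      ring
    rw [h1, map_smul]
    have h2 : Algebra.trace K⟮x⟯ F (e' i * e j) = if j = i then 1 else 0 := by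
      have := LinearMap.BilinForm.apply_dualBasis_left hnd b i j
      rw [Algebra.traceForm_apply, hb] at this
      exact this
    rw [h2]
    by_cases hij : i = j
    · rw [if_pos hij, if_pos hij.symm, smul_eq_mul, mul_one]
    · rw [if_neg hij, if_neg (Ne.symm hij), smul_zero]
  have hB : ∀ (i j : Fin (Module.finrank K⟮x⟯ F)) (s t : ℤ),
      B (((h75_mulEquiv K x hx0) ^ s) (e' i)) (((h75_mulEquiv K x hx0) ^ t) (e j)) =
        if i = j ∧ s + t = -1 then 1 else 0 := by
    intro i j s t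
    rw [hBapp, htr]
    by_cases hij : i = j
    · rw [if_pos hij, hρ]
      simp [hij]
    · rw [if_neg hij, map_zero]
      simp [hij]
  have hSM : h75_IsSandM (h75_mulEquiv K x hx0) e (h75_chart x D) :=
    ⟨0, by rw [hM], by rw [neg_zero, hM]⟩
  obtain ⟨hfred, hfin, -⟩ :=
    h75_sand_dual (h75_mulEquiv K x hx0) e (h75_mulEquiv K x hx0) e' heF he'F B hB hSM hL
  -- traces of products of Laurent-frame elements are Laurent polynomials
  have hLP : ∀ w ∈ h75_Wstd (h75_mulEquiv K x hx0) e', ∀ v ∈ h75_Wstd (h75_mulEquiv K x hx0) e,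
      Algebra.trace K⟮x⟯ F (w * v) ∈
        Submodule.span K (Set.range fun s : ℤ => (AdjoinSimple.gen K x) ^ s) := by
    intro w hw v hv
    have step1 : ∀ (i : Fin (Module.finrank K⟮x⟯ F)) (s : ℤ),
        h75_Wstd (h75_mulEquiv K x hx0) e ≤
          (Submodule.span K (Set.range fun s : ℤ => (AdjoinSimple.gen K x) ^ s)).comap
            (trK.comp (LinearMap.mulLeft K (((h75_mulEquiv K x hx0) ^ s) (e' i)))) := by
      intro i s
      apply Submodule.span_le.mpr
      rintro _ ⟨j, t, rfl⟩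
      show Algebra.trace K⟮x⟯ F (((h75_mulEquiv K x hx0) ^ s) (e' i) *
        ((h75_mulEquiv K x hx0) ^ t) (e j)) ∈
          Submodule.span K (Set.range fun s : ℤ => (AdjoinSimple.gen K x) ^ s)
      rw [htr]
      split_ifs
      · exact Submodule.subset_span ⟨s + t, rfl⟩
      · exact zero_mem _
    have step2 : h75_Wstd (h75_mulEquiv K x hx0) e' ≤
        (Submodule.span K (Set.range fun s : ℤ => (AdjoinSimple.gen K x) ^ s)).comap
          (trK.comp (LinearMap.mulRight K v)) := by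
      apply Submodule.span_le.mpr
      rintro _ ⟨i, s, rfl⟩
      exact step1 i s hv
    exact step2 hw
  -- identification of `Ω`
  have hOm : h75_Omega x D =
      h75_perp B (h75_Wstd (h75_mulEquiv K x hx0) e') (h75_chart x D) ⊓
        h75_perp B (h75_Wstd (h75_mulEquiv K x hx0) e') (h75_chart x⁻¹ D) := by
    ext w
    constructor
    · rintro ⟨h1, h2⟩
      have hwW : w ∈ h75_Wstd (h75_mulEquiv K x hx0) e' := by
        have hw : w = ∑ i, (b'.repr w i) • b' i := (b'.sum_repr w).symm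
        rw [hw]
        refine Submodule.sum_mem _ (fun i _ => ?_)
        have hci : b'.repr w i ∈ h75_poly K x := by
          rw [LinearMap.BilinForm.dualBasis_repr_apply, Algebra.traceForm_apply, hb]
          apply h1
          rw [← hM]
          refine Submodule.subset_span ⟨i, 0, le_refl _, ?_⟩
          rw [zpow_zero]
          rfl
        have hci' : ((b'.repr w i : K⟮x⟯) : F) ∈ Algebra.adjoin K {x} := by
          have h3 : (Algebra.adjoin K {AdjoinSimple.gen K x}).map (K⟮x⟯.val) =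
              Algebra.adjoin K {x} := by
            rw [AlgHom.map_adjoin, Set.image_singleton]
            rfl
          rw [← h3]
          exact ⟨_, hci, rfl⟩
        apply h75_Mstd_le_Wstd _ _ 0
        rw [Algebra.smul_def]
        apply h75_Mstd_mul_mem hx0 e' hci'
        refine Submodule.subset_span ⟨i, 0, le_refl _, ?_⟩
        rw [zpow_zero]
        rfl
      refine ⟨⟨hwW, fun m hm => ?_⟩, ⟨hwW, fun l hl => ?_⟩⟩
      · rw [hBapp]
        exact h75_res_eq_zero_of_poly ρ hρ (h1 m hm)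
      · rw [hBapp]
        exact h75_res_eq_zero_of_polyInv hgen0 ρ hρ (h2 l hl)
    · rintro ⟨⟨hwW, hwM⟩, ⟨-, hwL⟩⟩
      refine ⟨fun m hm => ?_, fun l hl => ?_⟩
      · apply h75_res_poly hgen0 ρ hρ
          (hLP w hwW m (by rw [hW]; exact h75_chart_le_overlap x D hm))
        intro k
        have h3 := hwM (x ^ k * m) (h75_pow_mul_mem_chart hm k)
        rw [hBapp] at h3
        rw [← h3]
        congr 1
        have h4 : w * (x ^ k * m) = ((AdjoinSimple.gen K x) ^ k : K⟮x⟯) • (w * m) := by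
          rw [Algebra.smul_def]
          show _ = (((AdjoinSimple.gen K x) ^ k : K⟮x⟯) : F) * _
          rw [IntermediateField.coe_pow, AdjoinSimple.coe_gen]
          ring
        rw [h4, map_smul, smul_eq_mul]
      · apply h75_res_polyInv hgen0 ρ hρ
          (hLP w hwW l (by rw [hW]; exact h75_chart_inv_le_overlap x D hl))
        intro k
        have h3 := hwL (x⁻¹ ^ k * l) (h75_pow_mul_mem_chart hl k)
        rw [hBapp] at h3
        rw [← h3]
        congr 1
        have h4 : w * (x⁻¹ ^ k * l) = ((AdjoinSimple.gen K x)⁻¹ ^ k : K⟮x⟯) • (w * l) := by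
          rw [Algebra.smul_def]
          show _ = (((AdjoinSimple.gen K x)⁻¹ ^ k : K⟮x⟯) : F) * _
          rw [IntermediateField.coe_pow, IntermediateField.coe_inv, AdjoinSimple.coe_gen]
          ring
        rw [h4, map_smul, smul_eq_mul]
  rw [hOm]
  refine ⟨hfred.2.2.1, ?_⟩
  rw [hfin, hW]

end Dual

end Fermat.Agent.S18
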