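import Fermat.Agent.S18.RR_Chart

/-!
# S18 / RR-B9 (D2): tame different in characteristic zero (helper44)

* `h44_not_dvd_differentIdeal_of_charZero` (ring level): if `I * Q = p B` with `I`, `Q` coprime,
  `I ≠ ⊤`, and `A / p` has characteristic zero, then `I ∤ differentIdeal A B`
  (trace of `(1, 0) ∈ B / I × B / Q` is `dim (B / I) ≠ 0`).
* `h44_tame_generic` (AKLB): an element `ψ` of the trace dual of `B` is multiplied into `B` by some
  `d ∉ w ^ e`, `e` the exact multiplicity of `w` in `p B`.
* `h44_tame_chart`: for a chart `t` and `ψ` with `Tr(ψ m) ∈ K[t]` for all `m` regular on the chart: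
  `ord_P ψ ≥ 1 - ord_P (t - a)` at every place over `t = a`.
* `h44_holo_of_mem_Omega`: statement (D2) of RR-B9 (`h75_holo_of_mem_Omega`), verbatim.
-/

set_option autoImplicit false

noncomputable section

namespace Fermat.Agent.S18

open Module nonZeroDivisors IsDedekindDomain AlgebraicCurve IntermediateField WithZero
open Fermat.Agent.S24

section RingLevel

attribute [local instance] FractionRing.liftAlgebra FractionRing.isScalarTower_liftAlgebra
  Ideal.Quotient.field

/-- Tame different (ring level): if `I * Q = p B` with `I`, `Q` coprime, `I ≠ ⊤`, and the residue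
field `A / p` is a field `K₀` of characteristic zero, then `I` does not divide the different. -/
theorem h44_not_dvd_differentIdeal_of_charZero
    (A : Type*) {B : Type*} [CommRing A] [CommRing B] [Algebra A B]
    [IsDedekindDomain A] [IsDedekindDomain B] [Module.IsTorsionFree A B] [Module.Finite A B]
    [Algebra.IsSeparable (FractionRing A) (FractionRing B)]
    {p : Ideal A} [p.IsMaximal] (I Q : Ideal B)
    (hIQ : IsCoprime I Q) (hI : I * Q = Ideal.map (algebraMap A B) p) (hItop : I ≠ ⊤)
    (K₀ : Type*) [Field K₀] [CharZero K₀] [Algebra K₀ A] :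
    ¬ I ∣ differentIdeal A B := by
  let : Algebra (A ⧸ p) (B ⧸ Q) := Ideal.Quotient.algebraQuotientOfLEComap (by
      rw [← Ideal.map_le_iff_le_comap, ← hI]
      exact Ideal.mul_le_right)
  let : Algebra (A ⧸ p) (B ⧸ I) := Ideal.Quotient.algebraQuotientOfLEComap (by
      rw [← Ideal.map_le_iff_le_comap, ← hI]
      exact Ideal.mul_le_left)
  have : IsScalarTower A (A ⧸ p) (B ⧸ Q) := .of_algebraMap_eq' rfl
  have : IsScalarTower A (A ⧸ p) (B ⧸ I) := .of_algebraMap_eq' rfl
  have : Module.Finite (A ⧸ p) (B ⧸ Q) :=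
    Module.Finite.of_restrictScalars_finite A (A ⧸ p) (B ⧸ Q)
  have : Module.Finite (A ⧸ p) (B ⧸ I) :=
    Module.Finite.of_restrictScalars_finite A (A ⧸ p) (B ⧸ I)
  have : Nontrivial (B ⧸ I) := Ideal.Quotient.nontrivial_iff.mpr hItop
  have : CharZero (A ⧸ p) := charZero_of_injective_algebraMap (algebraMap K₀ (A ⧸ p)).injective
  let e : (B ⧸ p.map (algebraMap A B)) ≃ₐ[A ⧸ p] ((B ⧸ I) × B ⧸ Q) :=
    { __ := (Ideal.quotEquivOfEq hI.symm).trans (Ideal.quotientMulEquivQuotientProd I Q hIQ),
      commutes' := Quotient.ind fun _ ↦ rfl }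
  obtain ⟨y, hy⟩ := Ideal.Quotient.mk_surjective (e.symm (1, 0))
  refine not_dvd_differentIdeal_of_intTrace_not_mem A I Q hI y ?_ ?_
  · have := congr((e $hy).2)
    simp at this
    simpa [e, Ideal.Quotient.eq_zero_iff_mem] using this
  · rw [← Ideal.Quotient.eq_zero_iff_mem, ← Algebra.trace_quotient_eq_of_isDedekindDomain,
      hy, Algebra.trace_eq_of_algEquiv, Algebra.trace_prod_apply]
    simp only [map_zero, add_zero]
    rw [← map_one (algebraMap (A ⧸ p) (B ⧸ I)), Algebra.trace_algebraMap, nsmul_eq_mul, mul_one,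
      Nat.cast_eq_zero]
    exact (Module.finrank_pos (R := A ⧸ p) (M := B ⧸ I)).ne'

section AKLB

variable (A K L B : Type*) [CommRing A] [Field K] [CommRing B] [Field L]
  [Algebra A K] [Algebra B L] [Algebra A B] [Algebra K L] [Algebra A L]
  [IsScalarTower A K L] [IsScalarTower A B L]
  [IsDedekindDomain A] [IsDedekindDomain B] [IsFractionRing A K] [IsFractionRing B L]
  [Module.IsTorsionFree A B]

/-- Separability of `L / K` transfers to the fraction rings. -/
theorem h44_isSeparable_fractionRing [Algebra.IsSeparable K L] :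
    Algebra.IsSeparable (FractionRing A) (FractionRing B) := by
  have H : RingHom.comp (algebraMap (FractionRing A) (FractionRing B))
      ↑(FractionRing.algEquiv A K).symm.toRingEquiv =
        RingHom.comp ↑(FractionRing.algEquiv B L).symm.toRingEquiv (algebraMap K L) := by
    apply IsLocalization.ringHom_ext A⁰
    ext
    simp only [RingHom.coe_comp, RingHom.coe_coe,
      AlgEquiv.coe_ringEquiv, Function.comp_apply, AlgEquiv.commutes,
      ← IsScalarTower.algebraMap_apply]
    rw [IsScalarTower.algebraMap_apply A B L, AlgEquiv.commutes, ← IsScalarTower.algebraMap_apply]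
  exact Algebra.IsSeparable.of_equiv_equiv _ _ H

variable {A K L B}

/-- Tameness in characteristic zero, generic form: if `ψ` is in the trace dual of `B`, and the
maximal ideal `w` of `B` has exact multiplicity `e ≠ 0` in `p B`, then there is `d ∈ B`,
`d ∉ w ^ e`, with `ψ d ∈ B`. -/
theorem h44_tame_generic [Module.Finite A B] [Algebra.IsSeparable K L] [FiniteDimensional K L]
    [IsIntegralClosure B A L]
    (K₀ : Type*) [Field K₀] [CharZero K₀] [Algebra K₀ A]
    {p : Ideal A} [p.IsMaximal] (w : Ideal B) [w.IsMaximal] (e : ℕ) (he : e ≠ 0)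
    (hdvd : w ^ e ∣ Ideal.map (algebraMap A B) p)
    (hndvd : ¬ w ^ (e + 1) ∣ Ideal.map (algebraMap A B) p)
    (ψ : L) (hψ : ∀ b : B, Algebra.trace K L (ψ * algebraMap B L b) ∈ (algebraMap A K).range) :
    ∃ d : B, d ∉ w ^ e ∧ ∃ b : B, algebraMap B L b = ψ * algebraMap B L d := by
  have hsep := h44_isSeparable_fractionRing A K L B
  obtain ⟨Q, hQ⟩ := hdvd
  have hcop : IsCoprime w Q := by
    rw [Ideal.isCoprime_iff_sup_eq]
    by_contra hne
    have hle : Q ≤ w := by
      have h1 : w = w ⊔ Q := Ideal.IsMaximal.eq_of_le inferInstance hne le_sup_left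
      rw [h1]
      exact le_sup_right
    apply hndvd
    obtain ⟨Q', hQ'⟩ := Ideal.dvd_iff_le.mpr hle
    exact ⟨Q', by rw [hQ, hQ', pow_succ, mul_assoc]⟩
  have htop : w ^ e ≠ ⊤ := by
    intro h
    have h1 : w ^ e ≤ w := Ideal.pow_le_self he
    rw [h] at h1
    exact (Ideal.IsMaximal.ne_top inferInstance) (top_le_iff.mp h1)
  have hnd : ¬ w ^ e ∣ differentIdeal A B :=
    h44_not_dvd_differentIdeal_of_charZero A (w ^ e) Q hcop.pow_left hQ.symm htop K₀
  rw [Ideal.dvd_iff_le] at hnd
  obtain ⟨d, hdD, hdw⟩ := SetLike.not_le_iff_exists.mp hnd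
  refine ⟨d, hdw, ?_⟩
  have hone : (1 : FractionalIdeal B⁰ L) ≠ 0 := one_ne_zero
  have h1 : ψ ∈ FractionalIdeal.dual A K (1 : FractionalIdeal B⁰ L) := by
    rw [FractionalIdeal.mem_dual hone]
    intro a ha
    obtain ⟨b, rfl⟩ := (FractionalIdeal.mem_one_iff _).mp ha
    exact hψ b
  have h2 : algebraMap B L d ∈ (FractionalIdeal.dual A K (1 : FractionalIdeal B⁰ L))⁻¹ := by
    rw [← coeIdeal_differentIdeal A K L B]
    exact FractionalIdeal.mem_coeIdeal_of_mem _ hdD
  have h3 := FractionalIdeal.mul_mem_mul h1 h2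
  rw [mul_inv_cancel₀ (FractionalIdeal.dual_ne_zero A K hone)] at h3
  exact (FractionalIdeal.mem_one_iff _).mp h3

end AKLB

end RingLevel

section Chart

open scoped IntermediateField.algebraAdjoinAdjoin

variable {K F : Type*} [Field K] [Field F] [Algebra K F]

/-- The ideal `(x - a)` of `K[x]` is maximal. -/
theorem h44_span_sub_isMaximal {x : F} (hx : Transcendental K x) (a : K) :
    (Ideal.span {h75_genA K x - algebraMap K (h75_ringA K x) a} :
      Ideal (h75_ringA K x)).IsMaximal := by
  classical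
  let e : Polynomial K ≃ₐ[K] h75_ringA K x := Polynomial.algEquivOfTranscendental K x hx
  set x₀ : h75_ringA K x := h75_genA K x - algebraMap K (h75_ringA K x) a with hx₀def
  have heC : ∀ c : K, e (Polynomial.C c) = algebraMap K (h75_ringA K x) c := fun c => e.commutes c
  have hex : e (Polynomial.X - Polynomial.C a) = x₀ := by
    rw [map_sub, heC]
    exact congrArg (· - algebraMap K (h75_ringA K x) a)
      (Polynomial.algEquivOfTranscendental_apply_X K x hx)
  have hres : Function.Surjective
      (algebraMap K (h75_ringA K x ⧸ (Ideal.span {x₀} : Ideal (h75_ringA K x)))) := by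
    intro y
    obtain ⟨y, rfl⟩ := Ideal.Quotient.mk_surjective y
    obtain ⟨P, rfl⟩ := e.surjective y
    refine ⟨P.eval a, ?_⟩
    change Ideal.Quotient.mk _ (algebraMap K (h75_ringA K x) (P.eval a)) =
      Ideal.Quotient.mk _ (e P)
    rw [Ideal.Quotient.eq, Ideal.mem_span_singleton']
    obtain ⟨Q, hQ⟩ := Polynomial.X_sub_C_dvd_sub_C_eval (a := a) (p := P)
    refine ⟨-e Q, ?_⟩
    have h2 : e (P - Polynomial.C (P.eval a)) = e (Polynomial.X - Polynomial.C a) * e Q := by
      rw [hQ, map_mul]
    rw [hex, map_sub] at h2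
    rw [heC] at h2
    rw [neg_mul, mul_comm, ← h2]
    ring
  have hnt : (Ideal.span {x₀} : Ideal (h75_ringA K x)) ≠ ⊤ := by
    rw [Ne, Ideal.eq_top_iff_one, Ideal.mem_span_singleton']
    rintro ⟨y, hy⟩
    obtain ⟨Q, rfl⟩ := e.surjective y
    rw [← hex, ← map_mul] at hy
    have h1 : Q * (Polynomial.X - Polynomial.C a) = 1 := e.injective (by rw [hy, map_one])
    have := congrArg (Polynomial.eval a) h1
    simp at this
  have : Nontrivial (h75_ringA K x ⧸ (Ideal.span {x₀} : Ideal (h75_ringA K x))) :=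
    Ideal.Quotient.nontrivial_iff.mpr hnt
  exact Ideal.Quotient.maximal_of_isField _ (MulEquiv.isField (Field.toIsField K)
    (RingEquiv.ofBijective
      (algebraMap K (h75_ringA K x ⧸ (Ideal.span {x₀} : Ideal (h75_ringA K x))))
      ⟨(algebraMap K _).injective, hres⟩).symm.toMulEquiv)

/-- One-chart tameness: in characteristic zero, an element `ψ` of the trace dual of the chart
ring of `t` has `ord_P ψ ≥ 1 - e_P` at every place of the chart. -/
theorem h44_tame_chart [CharZero K] {t : F} (ht : h75_IsChart K t) (ψ : F)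
    (hψ : ∀ m : F, (∀ P : Place K F, t ∈ P.toValuationSubring → m ∈ P.toValuationSubring) →
      ((Algebra.trace K⟮t⟯ F (ψ * m) : K⟮t⟯) : F) ∈ Algebra.adjoin K {t})
    (P : Place K F) (a : K) (hP : 0 < P.ord (t - algebraMap K F a)) :
    ψ = 0 ∨ 1 - P.ord (t - algebraMap K F a) ≤ P.ord ψ := by
  classical
  by_cases hψ0 : ψ = 0
  · exact Or.inl hψ0
  right
  have := h75_ringA_isPrincipalIdealRing ht.tr
  have := h75_ringB_isDedekindDomain ht
  have := h75_ringB_isFractionRing ht
  have := h75_ringB_finite ht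
  have := ht.fin
  have := ht.sep
  have : IsScalarTower (h75_ringA K t) (h75_ringB K t) F := Subalgebra.isScalarTower_mid _
  -- the place is on the chart
  have hmem : t - algebraMap K F a ∈ P.toValuationSubring := h24_mem_of_ord_nonneg P hP.le
  have htP : t ∈ P.toValuationSubring := by
    have := add_mem hmem (P.algebraMap_mem' a)
    simpa using this
  obtain ⟨w, hw⟩ := h75_exists_heightOneSpectrum P htP
  -- the uniformiser of the base point
  set x₀ : h75_ringA K t := h75_genA K t - algebraMap K (h75_ringA K t) a with hx₀def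
  have hmax : (Ideal.span {x₀} : Ideal (h75_ringA K t)).IsMaximal := h44_span_sub_isMaximal ht.tr a
  set r : h75_ringB K t := algebraMap (h75_ringA K t) (h75_ringB K t) x₀ with hrdef
  have hrF : algebraMap (h75_ringB K t) F r = t - algebraMap K F a := by
    rfl
  have hr0 : (t - algebraMap K F a) ≠ 0 := by
    intro h
    rw [h] at hP
    simp at hP
  have hmap : Ideal.map (algebraMap (h75_ringA K t) (h75_ringB K t)) (Ideal.span {x₀}) =
      Ideal.span {r} := by
    rw [Ideal.map_span, Set.image_singleton]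
  -- valuations in terms of `ord`
  have hval : ∀ f : F, f ≠ 0 → w.valuation F f = exp (-(P.ord f)) := by
    intro f hf
    rw [hw]
    exact h24_ofHeightOneSpectrum_val (K := K) w hf
  have hdvd_iff : ∀ n : ℕ, w.asIdeal ^ n ∣ Ideal.span {r} ↔ (n : ℤ) ≤ P.ord (t - algebraMap K F a) := by
    intro n
    rw [← HeightOneSpectrum.intValuation_le_pow_iff_dvd,
      ← HeightOneSpectrum.valuation_of_algebraMap (K := F)]
    change w.valuation F (algebraMap (h75_ringB K t) F r) ≤ _ ↔ _
    rw [hrF, hval _ hr0, exp_le_exp]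
    omega
  obtain ⟨e, he⟩ : ∃ e : ℕ, (e : ℤ) = P.ord (t - algebraMap K F a) :=
    ⟨(P.ord (t - algebraMap K F a)).toNat, Int.toNat_of_nonneg hP.le⟩
  have he0 : e ≠ 0 := by
    rintro rfl
    rw [← he] at hP
    simp at hP
  have hwmax : w.asIdeal.IsMaximal := w.isMaximal
  obtain ⟨d, hd, b, hb⟩ := h44_tame_generic (A := h75_ringA K t) (K := K⟮t⟯) (L := F)
    (B := h75_ringB K t) K (p := Ideal.span {x₀}) w.asIdeal e he0
    (by rw [hmap, hdvd_iff, he])
    (by rw [hmap, hdvd_iff, ← he]; push_cast; omega) ψ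
    (by
      intro b
      have h1 := hψ (algebraMap (h75_ringB K t) F b) (fun P' hP' => h75_ringB_le P' hP' b)
      exact ⟨⟨_, h1⟩, Subtype.ext rfl⟩)
  -- conclusion
  have hd0 : d ≠ 0 := by
    rintro rfl
    exact hd (zero_mem _)
  have hdF : algebraMap (h75_ringB K t) F d ≠ 0 := by
    rw [Ne, map_eq_zero_iff _ (IsFractionRing.injective (h75_ringB K t) F)]
    exact hd0
  have hordd : P.ord (algebraMap (h75_ringB K t) F d) < e := by
    by_contra hcon
    apply hd
    rw [← HeightOneSpectrum.intValuation_le_pow_iff_mem,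
      ← HeightOneSpectrum.valuation_of_algebraMap (K := F)]
    change w.valuation F (algebraMap (h75_ringB K t) F d) ≤ _
    rw [hval _ hdF, exp_le_exp]
    omega
  have hb0 : algebraMap (h75_ringB K t) F b ≠ 0 := by
    rw [hb]
    exact mul_ne_zero hψ0 hdF
  have hordb : 0 ≤ P.ord (algebraMap (h75_ringB K t) F b) :=
    h24_ord_nonneg_of_mem P (h75_ringB_le P htP b)
  rw [hb, P.ord_mul hψ0 hdF] at hordb
  omega

/-- Membership in `K[g]` inside an intermediate field, read in `F`. -/
theorem h44_coe_mem_adjoin (E : IntermediateField K F) (g z : E)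
    (hz : z ∈ Algebra.adjoin K {g}) : (z : F) ∈ Algebra.adjoin K {(g : F)} := by
  have h1 : (Algebra.adjoin K {g}).map E.val = Algebra.adjoin K {(g : F)} := by
    rw [AlgHom.map_adjoin_singleton]
    rfl
  rw [← h1]
  exact ⟨z, hz, rfl⟩

/-- The trace only depends on the intermediate field as a set. -/
theorem h44_trace_congr {E E' : IntermediateField K F} (h : E = E') (y : F) :
    ((Algebra.trace E F y : E) : F) = ((Algebra.trace E' F y : E') : F) := by
  subst h
  rfl

/-- (D2) characteristic zero: differentials have `e - 1`-bounded poles (tame different).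
This is `h75_holo_of_mem_Omega` of RR-B9, verbatim. -/
theorem h44_holo_of_mem_Omega [IsAlgClosed K] [CharZero K] {x : F} (hx : h75_IsChart K x) (φ : F)
    (hφ : φ ∈ h75_Omega x (0 : Divisor K F)) (P : Place K F) :
      (∀ a : K, 0 < P.ord (x - algebraMap K F a) →
        φ = 0 ∨ 1 - P.ord (x - algebraMap K F a) ≤ P.ord φ) ∧
      (P.ord x < 0 → φ = 0 ∨ 1 - P.ord x ≤ P.ord φ) := by
  obtain ⟨h1, h2⟩ := hφ
  refine ⟨fun a ha => ?_, fun hPx => ?_⟩
  · refine h44_tame_chart hx φ (fun m hm => ?_) P a ha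
    have h3 := h1 m (h75_mem_chart_zero_iff.mpr hm)
    have h4 := h44_coe_mem_adjoin K⟮x⟯ (AdjoinSimple.gen K x) _ h3
    rwa [AdjoinSimple.coe_gen] at h4
  · by_cases hφ0 : φ = 0
    · exact Or.inl hφ0
    right
    have hx0 : x ≠ 0 := hx.ne_zero
    have ht := h75_isChart_inv hx
    have hP' : 0 < P.ord (x⁻¹ - algebraMap K F 0) := by
      rw [map_zero, sub_zero, P.ord_inv]
      omega
    have key := h44_tame_chart ht (x ^ 2 * φ) (fun l hl => ?_) P 0 hP'
    · rcases key with key | key
      · exact absurd key (mul_ne_zero (pow_ne_zero 2 hx0) hφ0)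
      · rw [map_zero, sub_zero, P.ord_inv, P.ord_mul (pow_ne_zero 2 hx0) hφ0, pow_two,
          P.ord_mul hx0 hx0] at key
        omega
    · have h3 := h2 l (h75_mem_chart_zero_iff.mpr hl)
      have h4 := h44_coe_mem_adjoin K⟮x⟯ (AdjoinSimple.gen K x)⁻¹ _ h3
      have h5 : ((Algebra.trace K⟮x⁻¹⟯ F (x ^ 2 * φ * l) : K⟮x⁻¹⟯) : F) =
          ((AdjoinSimple.gen K x ^ 2 * Algebra.trace K⟮x⟯ F (φ * l) : K⟮x⟯) : F) := by
        rw [h44_trace_congr (h24_adjoin_inv_eq x) (x ^ 2 * φ * l)]
        have h6 : x ^ 2 * φ * l = (AdjoinSimple.gen K x ^ 2 : K⟮x⟯) • (φ * l) := by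
          rw [Algebra.smul_def, mul_assoc]
          rfl
        rw [h6, map_smul, smul_eq_mul]
      rw [h5]
      simpa using h4

end Chart

end Fermat.Agent.S18

end
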