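import Fermat.Agent.S18.h75_HoloD1
import Fermat.Agent.S18.RR_Dual
import Fermat.Agent.S18.h44_Tame

/-!
# S18 / RR-B9 : holomorphic differentials and the different

* (D1) `h75_mem_Omega_of_holo` (any characteristic) is in `h75_HoloD1.lean` (imported);
* (D2) `h75_holo_of_mem_Omega` (characteristic zero, tame different): proof in `h44_Tame.lean`;
* `h75_finrank_Omega_zero`: `dim Ω(x, 0) = g`, from the duality `h75_dual` at `D = 0`.
-/

set_option autoImplicit false

open AlgebraicCurve IntermediateField

namespace Fermat.Agent.S18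

variable {K F : Type*} [Field K] [Field F] [Algebra K F]

section B9
variable [IsAlgClosed K]

/-- (D2) characteristic zero: the converse (tame different). -/
theorem h75_holo_of_mem_Omega [CharZero K] {x : F} (hx : h75_IsChart K x) (φ : F)
    (hφ : φ ∈ h75_Omega x (0 : Divisor K F)) (P : Place K F) :
      (∀ a : K, 0 < P.ord (x - algebraMap K F a) →
        φ = 0 ∨ 1 - P.ord (x - algebraMap K F a) ≤ P.ord φ) ∧
      (P.ord x < 0 → φ = 0 ∨ 1 - P.ord x ≤ P.ord φ) :=
  h44_holo_of_mem_Omega hx φ hφ P

theorem h75_finrank_Omega_zero {x : F} (hx : h75_IsChart K x) :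
    Module.finrank K ↥(h75_Omega x (0 : Divisor K F)) = h75_genus K x :=
  (h75_dual hx 0).2

end B9

end Fermat.Agent.S18
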