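import Fermat.Agent.S18.Defs
import Fermat.Agent.S18.RR_Holo

/-!
# S18 / GR4a (second part, `GR_HoloOmega.lean`): `h39_holo` versus `h75_Omega`

The holomorphic differentials `h39_holo K x` (poles bounded by `e - 1`) are the elements of
`Ω(x, 0)` (RR-B9): inclusion in any characteristic, equality in characteristic zero.
-/

set_option autoImplicit false

open AlgebraicCurve IntermediateField

namespace Fermat.Agent.S18

variable {K F : Type*} [Field K] [Field F] [Algebra K F]

section GR4a
variable [IsAlgClosed K] {x : F}

/-- `h39_holo` versus `h75_Omega` -/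
theorem h39_holo_le_Omega (hx : h75_IsChart K x) :
    h39_holo K x ≤ h75_Omega x (0 : Divisor K F) := fun φ hφ =>
  h75_mem_Omega_of_holo hx φ (h39_mem_holo_iff.mp hφ)

theorem h39_holo_eq_Omega [CharZero K] (hx : h75_IsChart K x) :
    h39_holo K x = h75_Omega x (0 : Divisor K F) :=
  le_antisymm (h39_holo_le_Omega hx) fun φ hφ =>
    h39_mem_holo_iff.mpr (h75_holo_of_mem_Omega hx φ hφ)

end GR4a

end Fermat.Agent.S18
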