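/-
S18 / [GR] row GR4' (helper52), part 2: good reduction of the genus, `ḡ = g`
(reduction of holomorphic differentials gives `g ≤ ḡ`).  Statements verbatim from the GR
skeleton.
-/
import Mathlib
import Fermat.Agent.S18.Defs
import Fermat.Agent.S18.h75_RRDefs
import Fermat.Agent.S18.GR_RedAPI
import Fermat.Agent.S18.h52_GenusCore
import Fermat.Agent.S18.GR_ON
import Fermat.Agent.S18.GR_Holo
import Fermat.Agent.S18.RR_Dual
import Fermat.Agent.S18.GR_Genus
import Fermat.Agent.S18.GR_HoloOmega

set_option autoImplicit false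

noncomputable section

open AlgebraicCurve IntermediateField

namespace Fermat.Agent.S18

variable {K F k Fb : Type*} [Field K] [Field F] [Algebra K F] [Field k] [Field Fb] [Algebra k Fb]

section GR4'

variable [IsAlgClosed K] [CharZero K] [IsAlgClosed k]
variable (R : h39_RedDatum K F k Fb) {x : F}

theorem h39_genus_le (hx : h39_Chart R x) : h75_genus K x ≤ h75_genus k (R.redF x) := by
  have hw : h39_WeakChart R x := hx.toh39_WeakChart
  have hxK : h75_IsChart K x := h39_weakChart_isChart R hw
  have hxk : h75_IsChart k (R.redF x) := h39_weakChart_isChart_red R hw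
  refine h52_genus_le_core R (fun V _ W _ h => h39_finrank_le_of_red R hw V W h) ?_ ?_
    (h75_dual hxk 0).1 (h75_dual hxk 0).2 (h39_holo_le_Omega hxk)
    (fun φ hφ hφO => h39_holo_red R hx hφ hφO)
  · rw [h39_holo_eq_Omega hxK]
    exact (h75_dual hxK 0).1
  · rw [h39_holo_eq_Omega hxK]
    exact (h75_dual hxK 0).2

theorem h39_genus_eq (hx : h39_Chart R x) : h75_genus k (R.redF x) = h75_genus K x :=
  le_antisymm (h39_genus_ge R hx.toh39_WeakChart) (h39_genus_le R hx)

end GR4'

end Fermat.Agent.S18

end
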