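import Fermat.Agent.S18.h75_TateDefs

/-!
# S18 / RR-A2: standard pairs of a frame

For a frame `e` of `T` (the vectors `T^s e_j` are linearly independent) the standard pair
`(Mstd a, Lstd b)` inside `Wstd` is Fredholm with `χ = n (b - a + 1)`; monotonicity, twists by
`T^s`, relative dimensions and the coordinate description of the standard lattices.
-/

set_option autoImplicit false

namespace Fermat.Agent.S18

open Module

section General

variable {K V : Type*} [Field K] [AddCommGroup V] [Module K V]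

/-- Relative dimension through a finite-dimensional complement: if `C ≤ Q`, `C ⊓ P = ⊥` and
`Q ≤ C ⊔ P`, then `Q / (P ⊓ Q) ≅ C`. -/
theorem h21_relDim_of_compl {P Q C : Submodule K V} (hCQ : C ≤ Q) (hdisj : Disjoint C P)
    (hQ : Q ≤ C ⊔ P) [FiniteDimensional K C] :
    h75_RelFin P Q ∧ h75_relDim P Q = Module.finrank K C := by
  have hmap : Q.map P.mkQ = C.map P.mkQ := by
    apply le_antisymm
    · rintro _ ⟨q, hq, rfl⟩
      obtain ⟨c, hc, p, hp, rfl⟩ := Submodule.mem_sup.1 (hQ hq)
      refine ⟨c, hc, ?_⟩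
      rw [map_add]
      have : P.mkQ p = 0 := (Submodule.Quotient.mk_eq_zero P).2 hp
      rw [this, add_zero]
    · exact Submodule.map_mono hCQ
  have hinj : Function.Injective (P.mkQ.domRestrict C) := by
    rw [← LinearMap.ker_eq_bot]
    refine (LinearMap.ker_eq_bot').2 (fun c hc => ?_)
    have hcP : (c : V) ∈ P := (Submodule.Quotient.mk_eq_zero P).1 hc
    exact Subtype.ext (Submodule.disjoint_def.1 hdisj c c.2 hcP)
  have hrange : LinearMap.range (P.mkQ.domRestrict C) = Q.map P.mkQ := by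
    rw [LinearMap.range_domRestrict, hmap]
  constructor
  · show FiniteDimensional K (Q.map P.mkQ)
    rw [← hrange]
    exact Module.Finite.equiv (LinearEquiv.ofInjective _ hinj)
  · show Module.finrank K (Q.map P.mkQ) = Module.finrank K C
    rw [← hrange]
    exact (LinearEquiv.ofInjective _ hinj).finrank_eq.symm

variable {ι : Type*} {f : ι → V}

/-- For a linearly independent family, spans of images intersect as the index sets do. -/
theorem h21_span_image_inf (hf : LinearIndependent K f) (s t : Set ι) :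
    Submodule.span K (f '' s) ⊓ Submodule.span K (f '' t) = Submodule.span K (f '' (s ∩ t)) := by
  rw [Finsupp.span_image_eq_map_linearCombination, Finsupp.span_image_eq_map_linearCombination,
    Finsupp.span_image_eq_map_linearCombination, ← Submodule.map_inf _ hf,
    Finsupp.supported_inter]

/-- The span of a finite part of a linearly independent family has the expected dimension. -/
theorem h21_finrank_span_image (hf : LinearIndependent K f) (F : Finset ι) :
    Module.finrank K (Submodule.span K (f '' (F : Set ι))) = F.card := by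
  have h1 : LinearIndependent K (f ∘ ((↑) : F → ι)) := hf.comp _ Subtype.val_injective
  have h2 := finrank_span_eq_card h1
  rw [Set.range_comp, Subtype.range_coe_subtype, Fintype.card_coe] at h2
  exact h2

/-- The span of a finite set is finite-dimensional (instance form used below). -/
theorem h21_finite_span_image (f : ι → V) (F : Finset ι) :
    FiniteDimensional K (Submodule.span K (f '' (F : Set ι))) :=
  FiniteDimensional.span_of_finite K (F.finite_toSet.image f)

/-- Relative dimension of two coordinate subspaces of a linearly independent family: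
`dim span(f '' t) / (span(f '' s) ⊓ span(f '' t)) = |t \ s|`, the difference being the finite
set `F`. -/
theorem h21_relDim_span_image (hf : LinearIndependent K f) (s t : Set ι) (F : Finset ι)
    (hFt : (F : Set ι) ⊆ t) (hFs : Disjoint (F : Set ι) s) (ht : t ⊆ (F : Set ι) ∪ s) :
    h75_RelFin (Submodule.span K (f '' s)) (Submodule.span K (f '' t)) ∧
      h75_relDim (Submodule.span K (f '' s)) (Submodule.span K (f '' t)) = F.card := by
  have : FiniteDimensional K (Submodule.span K (f '' (F : Set ι))) := h21_finite_span_image f F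
  have h := h21_relDim_of_compl (P := Submodule.span K (f '' s))
    (Q := Submodule.span K (f '' t)) (C := Submodule.span K (f '' (F : Set ι)))
    (Submodule.span_mono (Set.image_mono hFt)) (hf.disjoint_span_image hFs)
    (by
      rw [← Submodule.span_union, ← Set.image_union]
      exact Submodule.span_mono (Set.image_mono ht))
  rw [h21_finrank_span_image hf F] at h
  exact h

end General

section Frame

variable {K V : Type*} [Field K] [AddCommGroup V] [Module K V]
variable (T : V ≃ₗ[K] V) {n : ℕ} (e : Fin n → V)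

/-- The family `(j, s) ↦ T^s e_j`. -/
def h21_frameFun : Fin n × ℤ → V := fun p => (T ^ p.2) (e p.1)

theorem h21_frameFun_apply (p : Fin n × ℤ) : h21_frameFun T e p = (T ^ p.2) (e p.1) := rfl

theorem h21_Mstd_eq (a : ℤ) :
    h75_Mstd T e a = Submodule.span K (h21_frameFun T e '' {p | a ≤ p.2}) := by
  unfold h75_Mstd
  congr 1
  ext v
  constructor
  · rintro ⟨j, s, hs, rfl⟩
    exact ⟨(j, s), hs, rfl⟩
  · rintro ⟨⟨j, s⟩, hs, rfl⟩
    exact ⟨j, s, hs, rfl⟩

theorem h21_Lstd_eq (b : ℤ) :
    h75_Lstd T e b = Submodule.span K (h21_frameFun T e '' {p | p.2 ≤ b}) := by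
  unfold h75_Lstd
  congr 1
  ext v
  constructor
  · rintro ⟨j, s, hs, rfl⟩
    exact ⟨(j, s), hs, rfl⟩
  · rintro ⟨⟨j, s⟩, hs, rfl⟩
    exact ⟨j, s, hs, rfl⟩

theorem h21_Wstd_eq :
    h75_Wstd T e = Submodule.span K (Set.range (h21_frameFun T e)) := by
  unfold h75_Wstd
  congr 1
  ext v
  constructor
  · rintro ⟨j, s, rfl⟩
    exact ⟨(j, s), rfl⟩
  · rintro ⟨⟨j, s⟩, rfl⟩
    exact ⟨j, s, rfl⟩

theorem h21_Wstd_eq' :
    h75_Wstd T e = Submodule.span K (h21_frameFun T e '' Set.univ) := by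
  rw [Set.image_univ, h21_Wstd_eq]

theorem h75_Mstd_anti {a a' : ℤ} (h : a ≤ a') : h75_Mstd T e a' ≤ h75_Mstd T e a := by
  rw [h21_Mstd_eq, h21_Mstd_eq]
  exact Submodule.span_mono (Set.image_mono (fun p (hp : a' ≤ p.2) => le_trans h hp))

theorem h75_Lstd_mono {b b' : ℤ} (h : b ≤ b') : h75_Lstd T e b ≤ h75_Lstd T e b' := by
  rw [h21_Lstd_eq, h21_Lstd_eq]
  exact Submodule.span_mono (Set.image_mono (fun p (hp : p.2 ≤ b) => le_trans hp h))

theorem h75_Mstd_le_Wstd (a : ℤ) : h75_Mstd T e a ≤ h75_Wstd T e := by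
  rw [h21_Mstd_eq, h21_Wstd_eq]
  exact Submodule.span_mono (Set.image_subset_range _ _)

theorem h75_Lstd_le_Wstd (b : ℤ) : h75_Lstd T e b ≤ h75_Wstd T e := by
  rw [h21_Lstd_eq, h21_Wstd_eq]
  exact Submodule.span_mono (Set.image_subset_range _ _)

theorem h21_zpow_frameFun (s : ℤ) (p : Fin n × ℤ) :
    (T ^ s) (h21_frameFun T e p) = h21_frameFun T e (p.1, p.2 + s) := by
  show (T ^ s) ((T ^ p.2) (e p.1)) = (T ^ (p.2 + s)) (e p.1)
  rw [add_comm, zpow_add]
  rfl

/-- Twisting `Mstd` by `T^s`. -/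
theorem h75_map_Mstd (a s : ℤ) :
    (h75_Mstd T e a).map ((T ^ s : V ≃ₗ[K] V) : V →ₗ[K] V) = h75_Mstd T e (a + s) := by
  rw [h21_Mstd_eq, h21_Mstd_eq, Submodule.map_span]
  congr 1
  ext v
  constructor
  · rintro ⟨_, ⟨p, hp, rfl⟩, rfl⟩
    refine ⟨(p.1, p.2 + s), ?_, (h21_zpow_frameFun T e s p).symm⟩
    show a + s ≤ p.2 + s
    have : a ≤ p.2 := hp
    omega
  · rintro ⟨p, hp, rfl⟩
    refine ⟨h21_frameFun T e (p.1, p.2 - s), ⟨(p.1, p.2 - s), ?_, rfl⟩, ?_⟩
    · show a ≤ p.2 - s
      have : a + s ≤ p.2 := hp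
      omega
    · show (T ^ s) (h21_frameFun T e (p.1, p.2 - s)) = h21_frameFun T e p
      rw [h21_zpow_frameFun]
      show h21_frameFun T e (p.1, p.2 - s + s) = h21_frameFun T e p
      rw [sub_add_cancel]

/-- Twisting `Lstd` by `T^s`. -/
theorem h75_map_Lstd (b s : ℤ) :
    (h75_Lstd T e b).map ((T ^ s : V ≃ₗ[K] V) : V →ₗ[K] V) = h75_Lstd T e (b + s) := by
  rw [h21_Lstd_eq, h21_Lstd_eq, Submodule.map_span]
  congr 1
  ext v
  constructor
  · rintro ⟨_, ⟨p, hp, rfl⟩, rfl⟩
    refine ⟨(p.1, p.2 + s), ?_, (h21_zpow_frameFun T e s p).symm⟩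
    show p.2 + s ≤ b + s
    have : p.2 ≤ b := hp
    omega
  · rintro ⟨p, hp, rfl⟩
    refine ⟨h21_frameFun T e (p.1, p.2 - s), ⟨(p.1, p.2 - s), ?_, rfl⟩, ?_⟩
    · show p.2 - s ≤ b
      have : p.2 ≤ b + s := hp
      omega
    · show (T ^ s) (h21_frameFun T e (p.1, p.2 - s)) = h21_frameFun T e p
      rw [h21_zpow_frameFun]
      show h21_frameFun T e (p.1, p.2 - s + s) = h21_frameFun T e p
      rw [sub_add_cancel]

/-- `Wstd` is stable under `T^s`. -/
theorem h75_map_Wstd (s : ℤ) :
    (h75_Wstd T e).map ((T ^ s : V ≃ₗ[K] V) : V →ₗ[K] V) = h75_Wstd T e := by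
  rw [h21_Wstd_eq, Submodule.map_span]
  congr 1
  ext v
  constructor
  · rintro ⟨_, ⟨p, rfl⟩, rfl⟩
    exact ⟨(p.1, p.2 + s), (h21_zpow_frameFun T e s p).symm⟩
  · rintro ⟨p, rfl⟩
    refine ⟨h21_frameFun T e (p.1, p.2 - s), ⟨(p.1, p.2 - s), rfl⟩, ?_⟩
    show (T ^ s) (h21_frameFun T e (p.1, p.2 - s)) = h21_frameFun T e p
    rw [h21_zpow_frameFun]
    show h21_frameFun T e (p.1, p.2 - s + s) = h21_frameFun T e p
    rw [sub_add_cancel]

theorem h21_frame_li (he : h75_IsFrame T e) : LinearIndependent K (h21_frameFun T e) := he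

/-- Relative dimension of two standard `M`-lattices. -/
theorem h75_relDim_Mstd (he : h75_IsFrame T e) {a a' : ℤ} (h : a ≤ a') :
    h75_RelFin (h75_Mstd T e a') (h75_Mstd T e a) ∧
      (h75_relDim (h75_Mstd T e a') (h75_Mstd T e a) : ℤ) = n * (a' - a) := by
  classical
  rw [h21_Mstd_eq, h21_Mstd_eq]
  have key := h21_relDim_span_image (h21_frame_li T e he) {p : Fin n × ℤ | a' ≤ p.2}
    {p : Fin n × ℤ | a ≤ p.2} ((Finset.univ : Finset (Fin n)) ×ˢ Finset.Ico a a')
    (by
      intro p hp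
      simp only [Finset.coe_product, Finset.coe_univ, Finset.coe_Ico, Set.mem_prod, Set.mem_univ,
        true_and, Set.mem_Ico] at hp
      exact hp.1)
    (by
      rw [Set.disjoint_left]
      intro p hp hp'
      simp only [Finset.coe_product, Finset.coe_univ, Finset.coe_Ico, Set.mem_prod, Set.mem_univ,
        true_and, Set.mem_Ico] at hp
      exact absurd hp' (not_le.2 hp.2))
    (by
      intro p hp
      by_cases hpa : a' ≤ p.2
      · exact Or.inr hpa
      · left
        simp only [Finset.coe_product, Finset.coe_univ, Finset.coe_Ico, Set.mem_prod,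
          Set.mem_univ, true_and, Set.mem_Ico]
        exact ⟨hp, not_le.1 hpa⟩)
  refine ⟨key.1, ?_⟩
  rw [key.2, Finset.card_product, Finset.card_univ, Fintype.card_fin, Int.card_Ico]
  push_cast
  rw [Int.toNat_of_nonneg (by omega)]

/-- Relative dimension of two standard `L`-lattices. -/
theorem h75_relDim_Lstd (he : h75_IsFrame T e) {b b' : ℤ} (h : b ≤ b') :
    h75_RelFin (h75_Lstd T e b) (h75_Lstd T e b') ∧
      (h75_relDim (h75_Lstd T e b) (h75_Lstd T e b') : ℤ) = n * (b' - b) := by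
  classical
  rw [h21_Lstd_eq, h21_Lstd_eq]
  have key := h21_relDim_span_image (h21_frame_li T e he) {p : Fin n × ℤ | p.2 ≤ b}
    {p : Fin n × ℤ | p.2 ≤ b'} ((Finset.univ : Finset (Fin n)) ×ˢ Finset.Ioc b b')
    (by
      intro p hp
      simp only [Finset.coe_product, Finset.coe_univ, Finset.coe_Ioc, Set.mem_prod, Set.mem_univ,
        true_and, Set.mem_Ioc] at hp
      exact hp.2)
    (by
      rw [Set.disjoint_left]
      intro p hp hp'
      simp only [Finset.coe_product, Finset.coe_univ, Finset.coe_Ioc, Set.mem_prod, Set.mem_univ,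
        true_and, Set.mem_Ioc] at hp
      exact absurd hp' (not_le.2 hp.1))
    (by
      intro p hp
      by_cases hpb : p.2 ≤ b
      · exact Or.inr hpb
      · left
        simp only [Finset.coe_product, Finset.coe_univ, Finset.coe_Ioc, Set.mem_prod,
          Set.mem_univ, true_and, Set.mem_Ioc]
        exact ⟨not_le.1 hpb, hp⟩)
  refine ⟨key.1, ?_⟩
  rw [key.2, Finset.card_product, Finset.card_univ, Fintype.card_fin, Int.card_Ioc]
  push_cast
  rw [Int.toNat_of_nonneg (by omega)]

/-- **(S1)** the standard pairs are Fredholm with `χ = n (b - a + 1)`. -/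
theorem h75_std_fred (he : h75_IsFrame T e) (a b : ℤ) :
    h75_IsFred (h75_Mstd T e a) (h75_Lstd T e b) (h75_Wstd T e) ∧
      h75_chi (h75_Mstd T e a) (h75_Lstd T e b) (h75_Wstd T e) = n * (b - a + 1) := by
  classical
  have hli := h21_frame_li T e he
  -- `h⁰`
  have hinf : h75_Mstd T e a ⊓ h75_Lstd T e b =
      Submodule.span K (h21_frameFun T e ''
        (((Finset.univ : Finset (Fin n)) ×ˢ Finset.Icc a b : Finset (Fin n × ℤ)) : Set _)) := by
    rw [h21_Mstd_eq, h21_Lstd_eq, h21_span_image_inf hli]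
    congr 2
    ext p
    simp only [Set.mem_inter_iff, Set.mem_ofPred_eq, Finset.coe_product, Finset.coe_univ,
      Finset.coe_Icc, Set.mem_prod, Set.mem_univ, true_and, Set.mem_Icc]
  have h0 : Module.finrank K ↥(h75_Mstd T e a ⊓ h75_Lstd T e b) = n * (b + 1 - a).toNat := by
    rw [hinf, h21_finrank_span_image hli, Finset.card_product, Finset.card_univ,
      Fintype.card_fin, Int.card_Icc]
  have hfin0 : FiniteDimensional K ↥(h75_Mstd T e a ⊓ h75_Lstd T e b) := by
    rw [hinf]
    exact h21_finite_span_image _ _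
  -- `h¹`
  have hsup : h75_Mstd T e a ⊔ h75_Lstd T e b =
      Submodule.span K (h21_frameFun T e '' ({p | a ≤ p.2} ∪ {p | p.2 ≤ b})) := by
    rw [h21_Mstd_eq, h21_Lstd_eq, ← Submodule.span_union, ← Set.image_union]
  have key := h21_relDim_span_image hli ({p : Fin n × ℤ | a ≤ p.2} ∪ {p | p.2 ≤ b})
    Set.univ ((Finset.univ : Finset (Fin n)) ×ˢ Finset.Ioo b a)
    (Set.subset_univ _)
    (by
      rw [Set.disjoint_left]
      intro p hp hp'
      simp only [Finset.coe_product, Finset.coe_univ, Finset.coe_Ioo, Set.mem_prod, Set.mem_univ,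
        true_and, Set.mem_Ioo] at hp
      rcases hp' with hp' | hp'
      · exact absurd hp' (not_le.2 hp.2)
      · exact absurd hp' (not_le.2 hp.1))
    (by
      intro p _
      by_cases hpa : a ≤ p.2
      · exact Or.inr (Or.inl hpa)
      · by_cases hpb : p.2 ≤ b
        · exact Or.inr (Or.inr hpb)
        · left
          simp only [Finset.coe_product, Finset.coe_univ, Finset.coe_Ioo, Set.mem_prod,
            Set.mem_univ, true_and, Set.mem_Ioo]
          exact ⟨not_le.1 hpb, not_le.1 hpa⟩)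
  rw [← hsup, ← h21_Wstd_eq'] at key
  refine ⟨⟨h75_Mstd_le_Wstd T e a, h75_Lstd_le_Wstd T e b, hfin0, key.1⟩, ?_⟩
  unfold h75_chi
  rw [h0, key.2, Finset.card_product, Finset.card_univ, Fintype.card_fin, Int.card_Ioo]
  push_cast
  have h1 : ((b + 1 - a).toNat : ℤ) - ((a - b - 1).toNat : ℤ) = b - a + 1 := by omega
  rw [← mul_sub, h1]

/-- Coordinates on `Wstd` with respect to the frame family. -/
noncomputable def h21_coord (he : h75_IsFrame T e) :
    ↥(h75_Wstd T e) →ₗ[K] (Fin n × ℤ →₀ K) :=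
  (h21_frame_li T e he).repr.comp (LinearEquiv.ofEq _ _ (h21_Wstd_eq T e)).toLinearMap

theorem h21_linearCombination_coord (he : h75_IsFrame T e) (w : ↥(h75_Wstd T e)) :
    Finsupp.linearCombination K (h21_frameFun T e) (h21_coord T e he w) = (w : V) :=
  (h21_frame_li T e he).linearCombination_repr (LinearEquiv.ofEq _ _ (h21_Wstd_eq T e) w)

theorem h21_coord_eq (he : h75_IsFrame T e) (w : ↥(h75_Wstd T e)) (l : Fin n × ℤ →₀ K)
    (hl : Finsupp.linearCombination K (h21_frameFun T e) l = (w : V)) : h21_coord T e he w = l :=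
  (h21_frame_li T e he).repr_eq (x := LinearEquiv.ofEq _ _ (h21_Wstd_eq T e) w) hl

/-- Membership in a coordinate subspace through the coordinates. -/
theorem h21_mem_span_image_iff (he : h75_IsFrame T e) (s : Set (Fin n × ℤ))
    (w : ↥(h75_Wstd T e)) :
    (w : V) ∈ Submodule.span K (h21_frameFun T e '' s) ↔ ∀ p, p ∉ s → h21_coord T e he w p = 0 := by
  constructor
  · intro hw p hp
    obtain ⟨l, hl, hlw⟩ := (Finsupp.mem_span_image_iff_linearCombination K).1 hw
    rw [h21_coord_eq T e he w l hlw]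
    by_contra hne
    exact hp (hl (Finsupp.mem_support_iff.2 hne))
  · intro h
    rw [← h21_linearCombination_coord T e he w]
    refine (Finsupp.mem_span_image_iff_linearCombination K).2 ⟨h21_coord T e he w, ?_, rfl⟩
    intro p hp
    by_contra hps
    exact (Finsupp.mem_support_iff.1 hp) (h p hps)

/-- Coordinate description of `Mstd`. -/
theorem h21_mem_Mstd_iff (he : h75_IsFrame T e) (a : ℤ) (w : ↥(h75_Wstd T e)) :
    (w : V) ∈ h75_Mstd T e a ↔ ∀ p : Fin n × ℤ, p.2 < a → h21_coord T e he w p = 0 := by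
  rw [h21_Mstd_eq, h21_mem_span_image_iff T e he]
  exact forall_congr' (fun p => by simp only [Set.mem_ofPred_eq, not_le])

/-- Coordinate description of `Lstd`. -/
theorem h21_mem_Lstd_iff (he : h75_IsFrame T e) (b : ℤ) (w : ↥(h75_Wstd T e)) :
    (w : V) ∈ h75_Lstd T e b ↔ ∀ p : Fin n × ℤ, b < p.2 → h21_coord T e he w p = 0 := by
  rw [h21_Lstd_eq, h21_mem_span_image_iff T e he]
  exact forall_congr' (fun p => by simp only [Set.mem_ofPred_eq, not_le])

/-- Coordinate description of `Mstd`, for vectors of `V`. -/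
theorem h21_mem_Mstd_iff' (he : h75_IsFrame T e) (a : ℤ) (v : V) :
    v ∈ h75_Mstd T e a ↔
      ∃ hv : v ∈ h75_Wstd T e, ∀ p : Fin n × ℤ, p.2 < a → h21_coord T e he ⟨v, hv⟩ p = 0 :=
  ⟨fun h => ⟨h75_Mstd_le_Wstd T e a h, (h21_mem_Mstd_iff T e he a ⟨v, _⟩).1 h⟩,
    fun ⟨hv, h⟩ => (h21_mem_Mstd_iff T e he a ⟨v, hv⟩).2 h⟩

/-- Coordinate description of `Lstd`, for vectors of `V`. -/
theorem h21_mem_Lstd_iff' (he : h75_IsFrame T e) (b : ℤ) (v : V) :
    v ∈ h75_Lstd T e b ↔
      ∃ hv : v ∈ h75_Wstd T e, ∀ p : Fin n × ℤ, b < p.2 → h21_coord T e he ⟨v, hv⟩ p = 0 :=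
  ⟨fun h => ⟨h75_Lstd_le_Wstd T e b h, (h21_mem_Lstd_iff T e he b ⟨v, _⟩).1 h⟩,
    fun ⟨hv, h⟩ => (h21_mem_Lstd_iff T e he b ⟨v, hv⟩).2 h⟩

end Frame

end Fermat.Agent.S18
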