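import Fermat.Agent.S18.RR_Chart
import Fermat.Agent.S18.RR_Approx
import Fermat.Agent.S18.Tate_Std

/-!
# S18 / RR-B4: the frame of a chart

For a chart `x` and a divisor `D`, the chart space `M_x(D)` is a `K[x]`-lattice in `F` (finitely
generated because `g • M_x(D)` lies in the integral closure of `K[x]` for a suitable multiplier
`g`, and spanning because `F = K(x) • B`), hence `K[x]`-free of rank `[F : K(x)]`; a basis is a
frame for multiplication by `x`, its `Mstd 0` is `M_x(D)`, its `Wstd` is the overlap space, and the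
chart space of `x⁻¹` is commensurable with its `Lstd`.
-/

set_option autoImplicit false

open AlgebraicCurve IntermediateField
open scoped IntermediateField.algebraAdjoinAdjoin

namespace Fermat.Agent.S18

variable {K F : Type*} [Field K] [Field F] [Algebra K F]

/-- the chart space as a module over `A = K[x]`. -/
def h75_chartA (x : F) (D : Divisor K F) : Submodule (Algebra.adjoin K {x}) F where
  carrier := h75_chart x D
  zero_mem' := (h75_chart x D).zero_mem
  add_mem' := (h75_chart x D).add_mem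
  smul_mem' := by
    rintro ⟨a, ha⟩ f hf
    show a * f ∈ h75_chart x D
    refine h75_mul_mem_chart_of_zero ?_ hf
    rw [h75_mem_chart_zero_iff]
    intro P hP
    have hle : Algebra.adjoin K {x} ≤ Fermat.Agent.S24.h24_placeSubalgebra P :=
      Algebra.adjoin_le (by
        intro y hy
        rw [Set.mem_singleton_iff] at hy
        rw [hy]
        exact hP)
    exact hle ha

theorem h75_mem_chartA {x : F} {D : Divisor K F} {f : F} :
    f ∈ h75_chartA x D ↔ f ∈ h75_chart x D := Iff.rfl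

section
variable [IsAlgClosed K]

/-- a multiplier `g ≠ 0` with `g • M_x(D) ⊆ B` and `g • B ⊆ M_x(D)`. -/
theorem h75_exists_multiplier {x : F} (hx : h75_IsChart K x) (D : Divisor K F) :
    ∃ g : F, g ≠ 0 ∧
      (∀ f ∈ h75_chart x D, IsIntegral (Algebra.adjoin K {x}) (g * f)) ∧
      (∀ b : F, IsIntegral (Algebra.adjoin K {x}) b → g * b ∈ h75_chart x D) := by
  classical
  obtain ⟨g, hg0, hgS, hgT⟩ := h75_exists_exact hx
    (D.support.filter fun P => x ∈ P.toValuationSubring)
    (fun P hP => (Finset.mem_filter.mp hP).2) (fun P => |D P|)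
  have key : ∀ P : Place K F, x ∈ P.toValuationSubring → |D P| ≤ P.ord g := by
    intro P hP
    by_cases hPs : P ∈ D.support
    · exact (hgS P (Finset.mem_filter.mpr ⟨hPs, hP⟩)).ge
    · have h0 : D P = 0 := by simpa [Finsupp.mem_support_iff] using hPs
      rw [h0, abs_zero]
      exact hgT P hP (fun h => hPs (Finset.mem_filter.mp h).1)
  refine ⟨g, hg0, fun f hf => ?_, fun b hb => ?_⟩
  · rw [h75_isIntegral_iff hx]
    intro P hP
    rcases eq_or_ne f 0 with rfl | hf0
    · rw [mul_zero]; exact zero_mem _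
    · have h1 := (h75_mem_chart_iff.mp hf P hP).resolve_left hf0
      have h2 := key P hP
      have h3 : (0:ℤ) ≤ P.ord (g * f) := by
        rw [P.ord_mul hg0 hf0]
        have := neg_abs_le (D P)
        have := le_abs_self (D P)
        linarith
      exact (Fermat.Agent.S24.h35_mem_iff_ord_nonneg P (mul_ne_zero hg0 hf0)).mpr h3
  · rw [h75_mem_chart_iff]
    intro P hP
    rcases eq_or_ne b 0 with rfl | hb0
    · left; rw [mul_zero]
    · right
      have h1 : (0:ℤ) ≤ P.ord b :=
        (Fermat.Agent.S24.h35_mem_iff_ord_nonneg P hb0).mp ((h75_isIntegral_iff hx b).mp hb P hP)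
      have h2 := key P hP
      rw [P.ord_mul hg0 hb0]
      have := neg_abs_le (D P)
      linarith

end


section
variable [IsAlgClosed K]

theorem h75_chartA_isLattice {x : F} (hx : h75_IsChart K x) (D : Divisor K F) :
    Submodule.IsLattice K⟮x⟯ (h75_chartA x D) := by
  classical
  let A : Subalgebra K F := Algebra.adjoin K {x}
  let e : Polynomial K ≃ₐ[K] A := Polynomial.algEquivOfTranscendental K x hx.tr
  have : IsPrincipalIdealRing A :=
    IsPrincipalIdealRing.of_surjective (e : Polynomial K →+* A) e.surjective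
  have : FiniteDimensional K⟮x⟯ F := hx.fin
  have : Algebra.IsSeparable K⟮x⟯ F := hx.sep
  let B : Subalgebra A F := integralClosure A F
  have hBn : IsNoetherian A B := IsIntegralClosure.isNoetherian A K⟮x⟯ F B
  obtain ⟨g, hg0, hg1, hg2⟩ := h75_exists_multiplier hx D
  refine ⟨?_, ?_⟩
  · -- finitely generated
    let φ : h75_chartA x D →ₗ[A] B :=
      { toFun := fun f => ⟨g * (f : F), hg1 _ f.2⟩
        map_add' := by
          intro f f'
          ext
          simp [mul_add]
        map_smul' := by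
          intro a f
          ext
          simp [Algebra.smul_def, mul_left_comm] }
    have hφ : Function.Injective φ := by
      intro f f' h
      have h' : g * (f : F) = g * (f' : F) := congrArg (fun b : B => (b : F)) h
      exact Subtype.ext (mul_left_cancel₀ hg0 h')
    have : Module.Finite A (h75_chartA x D) := Module.Finite.of_injective φ hφ
    exact Module.Finite.iff_fg.mp this
  · rw [eq_top_iff]
    intro f _
    have halg : IsAlgebraic A (f / g) := by
      have h1 : IsAlgebraic K⟮x⟯ (f / g) := Algebra.IsAlgebraic.isAlgebraic _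
      exact (IsFractionRing.isAlgebraic_iff A K⟮x⟯ F).mpr h1
    obtain ⟨a, ha0, hint⟩ := halg.exists_integral_multiple
    have hmem : g * (a • (f / g)) ∈ h75_chart x D := hg2 _ hint
    have ha0' : algebraMap A K⟮x⟯ a ≠ 0 := by
      rw [Ne, map_eq_zero_iff _ (IsFractionRing.injective A K⟮x⟯)]
      exact ha0
    have hf : f = (algebraMap A K⟮x⟯ a)⁻¹ • (g * (a • (f / g))) := by
      have ha0'' : (a : F) ≠ 0 := fun h => ha0 (Subtype.ext h)
      rw [Algebra.smul_def, Algebra.smul_def]
      show f = algebraMap K⟮x⟯ F ((algebraMap A K⟮x⟯ a)⁻¹) * (g * ((a : F) * (f / g)))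
      rw [map_inv₀]
      show f = (a : F)⁻¹ * (g * ((a : F) * (f / g)))
      field_simp
    rw [hf]
    exact Submodule.smul_mem _ _ (Submodule.subset_span hmem)

end


section
variable [IsAlgClosed K]

open Fermat.Agent.S24 in
/-- Lemma F2: the overlap space is the localisation of the chart space at `x`. -/
theorem h75_exists_pow_mul_mem_chart {x : F} (hx : h75_IsChart K x) (D : Divisor K F) {f : F}
    (hf : f ∈ h75_overlap x D) : ∃ N : ℕ, x ^ N * f ∈ h75_chart x D := by
  classical
  rcases eq_or_ne f 0 with rfl | hf0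
  · exact ⟨0, by rw [mul_zero]; exact zero_mem _⟩
  have hfin := h75_fibre_finite hx (0 : K)
  set N : ℕ := ∑ P ∈ hfin.toFinset, (-D P - P.ord f).toNat with hN
  refine ⟨N, ?_⟩
  rw [h75_mem_chart_iff]
  intro P hP
  right
  have hx0 := hx.ne_zero
  have hordx : 0 ≤ P.ord x := (h35_mem_iff_ord_nonneg P hx0).mp hP
  rw [P.ord_mul (pow_ne_zero _ hx0) hf0, ← zpow_natCast, P.ord_zpow]
  rcases hordx.eq_or_lt with h0 | hpos
  · have hinv : x⁻¹ ∈ P.toValuationSubring :=
      (h35_mem_iff_ord_nonneg P (inv_ne_zero hx0)).mpr (by rw [P.ord_inv, ← h0, neg_zero])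
    have := (h75_mem_overlap_iff.mp hf P hP hinv).resolve_left hf0
    rw [← h0, mul_zero, zero_add]
    exact this
  · have hPZ : P ∈ hfin.toFinset := by
      rw [Set.Finite.mem_toFinset]
      show 0 < P.ord (x - algebraMap K F 0)
      rw [map_zero, sub_zero]
      exact hpos
    have h1 : (-D P - P.ord f).toNat ≤ N :=
      Finset.single_le_sum (f := fun Q => (-D Q - Q.ord f).toNat) (fun _ _ => Nat.zero_le _) hPZ
    have h1' : ((-D P - P.ord f).toNat : ℤ) ≤ (N : ℤ) := by exact_mod_cast h1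
    have h2 := Int.self_le_toNat (-D P - P.ord f)
    have hS0 : (0:ℤ) ≤ (N : ℤ) := Int.natCast_nonneg _
    have h3 := mul_le_mul_of_nonneg_left (show (1:ℤ) ≤ P.ord x from hpos) hS0
    linarith

end

section OneChart
variable [IsAlgClosed K]

omit [IsAlgClosed K] in
/-- `T^s` on the frame. -/
theorem h75_T_zpow {x : F} (hx0 : x ≠ 0) (s : ℤ) (v : F) :
    ((h75_mulEquiv K x hx0) ^ s) v = x ^ s * v := h75_mulEquiv_zpow_apply x hx0 s v

omit [IsAlgClosed K] in
/-- `Mstd 0` of a family is stable under multiplication by `K[x]`. -/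
theorem h75_Mstd_mul_mem {x : F} (hx0 : x ≠ 0) {n : ℕ} (e : Fin n → F) {a : F}
    (ha : a ∈ Algebra.adjoin K {x}) {v : F} (hv : v ∈ h75_Mstd (h75_mulEquiv K x hx0) e 0) :
    a * v ∈ h75_Mstd (h75_mulEquiv K x hx0) e 0 := by
  have key : ∀ v : F, v ∈ h75_Mstd (h75_mulEquiv K x hx0) e 0 →
      a * v ∈ h75_Mstd (h75_mulEquiv K x hx0) e 0 := by
   refine Algebra.adjoin_induction
    (p := fun a _ => ∀ v : F, v ∈ h75_Mstd (h75_mulEquiv K x hx0) e 0 →
      a * v ∈ h75_Mstd (h75_mulEquiv K x hx0) e 0) ?_ ?_ ?_ ?_ ha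
   · intro y hy v hv
     have hy' : y = x := hy
     subst hy'
     have hle : h75_Mstd (h75_mulEquiv K y hx0) e 0 ≤
         (h75_Mstd (h75_mulEquiv K y hx0) e 0).comap (h75_mulEquiv K y hx0 : F →ₗ[K] F) := by
       apply Submodule.span_le.mpr
       rintro _ ⟨j, s, hs, rfl⟩
       show (h75_mulEquiv K y hx0) (((h75_mulEquiv K y hx0) ^ s) (e j)) ∈
         h75_Mstd (h75_mulEquiv K y hx0) e 0
       apply Submodule.subset_span
       refine ⟨j, s + 1, by omega, ?_⟩
       rw [h75_T_zpow, h75_T_zpow, h75_mulEquiv_apply, zpow_add₀ hx0, zpow_one]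
       ring
     exact hle hv
   · intro r v hv
     rw [← Algebra.smul_def]
     exact Submodule.smul_mem _ _ hv
   · intro a b _ _ iha ihb v hv
     rw [add_mul]
     exact add_mem (iha v hv) (ihb v hv)
   · intro a b _ _ iha ihb v hv
     rw [mul_assoc]
     exact iha _ (ihb v hv)
  exact key v hv

theorem h75_frame_one {x : F} (hx : h75_IsChart K x) (D : Divisor K F) :
    ∃ e : Fin (Module.finrank K⟮x⟯ F) → F,
      LinearIndependent K⟮x⟯ e ∧
      h75_Mstd (h75_mulEquiv K x hx.ne_zero) e 0 = h75_chart x D ∧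
      h75_Wstd (h75_mulEquiv K x hx.ne_zero) e = h75_overlap x D := by
  classical
  have hx0 := hx.ne_zero
  let A : Subalgebra K F := Algebra.adjoin K {x}
  let eA : Polynomial K ≃ₐ[K] A := Polynomial.algEquivOfTranscendental K x hx.tr
  have : IsPrincipalIdealRing A :=
    IsPrincipalIdealRing.of_surjective (eA : Polynomial K →+* A) eA.surjective
  have : FiniteDimensional K⟮x⟯ F := hx.fin
  have hlat : Submodule.IsLattice K⟮x⟯ (h75_chartA x D) := h75_chartA_isLattice hx D
  have htf : Module.IsTorsionFree A K⟮x⟯ :=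
    Module.isTorsionFree_iff_algebraMap_injective.mpr (IsFractionRing.injective A K⟮x⟯)
  have hfree : Module.Free A (h75_chartA x D) := Submodule.IsLattice.free K⟮x⟯ (h75_chartA x D)
  let b := Module.Free.chooseBasis A (h75_chartA x D)
  let b' := b.extendOfIsLattice K⟮x⟯
  have hcard : Fintype.card (Module.Free.ChooseBasisIndex A (h75_chartA x D)) =
      Module.finrank K⟮x⟯ F := (Module.finrank_eq_card_basis b').symm
  let eqv : Fin (Module.finrank K⟮x⟯ F) ≃ Module.Free.ChooseBasisIndex A (h75_chartA x D) :=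
    (Fintype.equivFinOfCardEq hcard).symm
  let e : Fin (Module.finrank K⟮x⟯ F) → F := fun j => ((b (eqv j) : h75_chartA x D) : F)
  have he_mem : ∀ j, e j ∈ h75_chart x D := fun j => (b (eqv j)).2
  have hM : h75_Mstd (h75_mulEquiv K x hx0) e 0 = h75_chart x D := by
    apply le_antisymm
    · apply Submodule.span_le.mpr
      rintro _ ⟨j, s, hs, rfl⟩
      rw [h75_T_zpow]
      obtain ⟨k, rfl⟩ := Int.eq_ofNat_of_zero_le hs
      rw [zpow_natCast]
      exact h75_pow_mul_mem_chart (he_mem j) k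
    · intro f hf
      have hrepr := b.sum_repr ⟨f, hf⟩
      have hf' : f = ∑ i, ((b.repr ⟨f, hf⟩ i : A) : F) * ((b i : h75_chartA x D) : F) := by
        have := congrArg (fun m : h75_chartA x D => (m : F)) hrepr
        simp only [Submodule.coe_sum, Submodule.coe_smul] at this
        exact this.symm
      rw [hf']
      refine Submodule.sum_mem _ (fun i _ => ?_)
      apply h75_Mstd_mul_mem hx0 e (b.repr ⟨f, hf⟩ i).2
      apply Submodule.subset_span
      refine ⟨eqv.symm i, 0, le_refl _, ?_⟩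
      rw [h75_T_zpow, zpow_zero, one_mul]
      show ((b i : h75_chartA x D) : F) = ((b (eqv (eqv.symm i)) : h75_chartA x D) : F)
      rw [Equiv.apply_symm_apply]
  refine ⟨e, ?_, hM, ?_⟩
  · have h1 := b'.linearIndependent.comp eqv eqv.injective
    have h2 : e = b' ∘ eqv := by
      funext j
      simp [e, b']
    rw [h2]
    exact h1
  · apply le_antisymm
    · apply Submodule.span_le.mpr
      rintro _ ⟨j, s, rfl⟩
      rw [h75_T_zpow]
      exact h75_zpow_mul_mem_overlap (h75_chart_le_overlap x D (he_mem j)) s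
    · intro f hf
      obtain ⟨N, hN⟩ := h75_exists_pow_mul_mem_chart hx D hf
      rw [← hM] at hN
      have h2 : x ^ N * f ∈ h75_Wstd (h75_mulEquiv K x hx0) e := h75_Mstd_le_Wstd _ _ 0 hN
      have h3 := h75_map_Wstd (h75_mulEquiv K x hx0) e (-(N : ℤ))
      have h4 : ((h75_mulEquiv K x hx0) ^ (-(N : ℤ))) (x ^ N * f) ∈
          (h75_Wstd (h75_mulEquiv K x hx0) e).map
            (((h75_mulEquiv K x hx0) ^ (-(N : ℤ)) : F ≃ₗ[K] F) : F →ₗ[K] F) :=
        Submodule.mem_map_of_mem h2
      rw [h3, h75_T_zpow, zpow_neg, zpow_natCast, inv_mul_cancel_left₀ (pow_ne_zero _ hx0)] at h4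
      exact h4

end OneChart


section Frame
variable [IsAlgClosed K]

omit [IsAlgClosed K] in
theorem h75_isFrame_of_li {x : F} (hx : h75_IsChart K x) {n : ℕ} (e : Fin n → F)
    (he : LinearIndependent K⟮x⟯ e) : h75_IsFrame (h75_mulEquiv K x hx.ne_zero) e := by
  have hgen : Transcendental K (AdjoinSimple.gen K x) := by
    intro h
    apply hx.tr
    have h' := IntermediateField.isAlgebraic_iff.mp h
    rwa [AdjoinSimple.coe_gen] at h'
  have h1 : LinearIndependent K (fun s : ℤ => (AdjoinSimple.gen K x) ^ s) :=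
    h75_linearIndependent_zpow hgen
  have h2 := linearIndependent_smul h1 he
  have h3 := h2.comp (Equiv.prodComm (Fin n) ℤ) (Equiv.injective _)
  unfold h75_IsFrame
  have h4 : (fun p : Fin n × ℤ => ((h75_mulEquiv K x hx.ne_zero) ^ p.2) (e p.1)) =
      (fun p : ℤ × Fin n => (AdjoinSimple.gen K x) ^ p.1 • e p.2) ∘ (Equiv.prodComm (Fin n) ℤ) := by
    funext p
    show ((h75_mulEquiv K x hx.ne_zero) ^ p.2) (e p.1) = (AdjoinSimple.gen K x) ^ p.2 • e p.1
    rw [h75_T_zpow, Algebra.smul_def]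
    congr 1
  rw [h4]
  exact h3

omit [IsAlgClosed K] in
/-- every element of `Wstd` lies in some `Lstd`. -/
theorem h75_exists_Lstd_of_mem_Wstd {V : Type*} [AddCommGroup V] [Module K V] (T : V ≃ₗ[K] V)
    {n : ℕ} (e : Fin n → V) {v : V} (hv : v ∈ h75_Wstd T e) : ∃ a : ℤ, v ∈ h75_Lstd T e a := by
  induction hv using Submodule.span_induction with
  | mem v hv =>
    obtain ⟨j, s, rfl⟩ := hv
    exact ⟨s, Submodule.subset_span ⟨j, s, le_refl _, rfl⟩⟩
  | zero => exact ⟨0, zero_mem _⟩
  | add u w _ _ hu hw =>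
    obtain ⟨a, ha⟩ := hu
    obtain ⟨b, hb⟩ := hw
    exact ⟨max a b, add_mem (h75_Lstd_mono T e (le_max_left a b) ha)
      (h75_Lstd_mono T e (le_max_right a b) hb)⟩
  | smul c u _ hu =>
    obtain ⟨a, ha⟩ := hu
    exact ⟨a, Submodule.smul_mem _ c ha⟩

/-- **RR-B4**: the frame of a chart. -/
theorem h75_exists_frame {x : F} (hx : h75_IsChart K x) (D : Divisor K F) :
    ∃ e : Fin (Module.finrank K⟮x⟯ F) → F,
      h75_IsFrame (h75_mulEquiv K x hx.ne_zero) e ∧ LinearIndependent K⟮x⟯ e ∧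
      h75_Mstd (h75_mulEquiv K x hx.ne_zero) e 0 = h75_chart x D ∧
      h75_Wstd (h75_mulEquiv K x hx.ne_zero) e = h75_overlap x D ∧
      h75_IsSandL (h75_mulEquiv K x hx.ne_zero) e (h75_chart x⁻¹ D) := by
  classical
  have hx0 := hx.ne_zero
  obtain ⟨e, heli, hM, hW⟩ := h75_frame_one hx D
  have hx' := h75_isChart_inv hx
  obtain ⟨e', -, hM', hW'⟩ := h75_frame_one hx' D
  refine ⟨e, h75_isFrame_of_li hx e heli, heli, hM, hW, ?_⟩
  -- (i) each `e' j` lies in some `Lstd`
  have h1 : ∀ j, ∃ a : ℤ, e' j ∈ h75_Lstd (h75_mulEquiv K x hx0) e a := by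
    intro j
    apply h75_exists_Lstd_of_mem_Wstd
    rw [hW]
    apply h75_chart_inv_le_overlap x D
    rw [← hM']
    refine Submodule.subset_span ⟨j, 0, le_refl _, ?_⟩
    rw [zpow_zero]
    rfl
  choose a ha using h1
  obtain ⟨a₁, ha₁⟩ : ∃ a₁ : ℤ, ∀ j, a j ≤ a₁ :=
    ⟨∑ j, |a j|, fun j => (le_abs_self _).trans
      (Finset.single_le_sum (f := fun j => |a j|) (fun _ _ => abs_nonneg _) (Finset.mem_univ j))⟩
  have h2 : h75_chart x⁻¹ D ≤ h75_Lstd (h75_mulEquiv K x hx0) e a₁ := by
    rw [← hM']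
    apply Submodule.span_le.mpr
    rintro _ ⟨j, s, hs, rfl⟩
    have h3 : e' j ∈ h75_Lstd (h75_mulEquiv K x hx0) e a₁ :=
      h75_Lstd_mono _ e (ha₁ j) (ha j)
    have h4 : ((h75_mulEquiv K x hx0) ^ (-s)) (e' j) ∈
        (h75_Lstd (h75_mulEquiv K x hx0) e a₁).map
          (((h75_mulEquiv K x hx0) ^ (-s) : F ≃ₗ[K] F) : F →ₗ[K] F) :=
      Submodule.mem_map_of_mem h3
    rw [h75_map_Lstd] at h4
    have h5 : ((h75_mulEquiv K x⁻¹ hx'.ne_zero) ^ s) (e' j) =
        ((h75_mulEquiv K x hx0) ^ (-s)) (e' j) := by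
      rw [h75_T_zpow, h75_T_zpow, inv_zpow, zpow_neg]
    show ((h75_mulEquiv K x⁻¹ hx'.ne_zero) ^ s) (e' j) ∈ h75_Lstd (h75_mulEquiv K x hx0) e a₁
    rw [h5]
    exact h75_Lstd_mono _ e (by omega) h4
  -- (ii) `x⁻ᴺ e j` lies in the chart of `x⁻¹`
  have h6 : ∀ j, ∃ N : ℕ, x⁻¹ ^ N * e j ∈ h75_chart x⁻¹ D := by
    intro j
    apply h75_exists_pow_mul_mem_chart hx' D
    rw [h75_overlap_inv]
    apply h75_chart_le_overlap x D
    rw [← hM]
    refine Submodule.subset_span ⟨j, 0, le_refl _, ?_⟩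
    rw [zpow_zero]
    rfl
  choose N hN using h6
  have hN₀ : ∀ j, N j ≤ ∑ j, N j := fun j =>
    Finset.single_le_sum (f := N) (fun _ _ => Nat.zero_le _) (Finset.mem_univ j)
  have h7 : h75_Lstd (h75_mulEquiv K x hx0) e (-((∑ j, N j : ℕ) : ℤ)) ≤ h75_chart x⁻¹ D := by
    apply Submodule.span_le.mpr
    rintro _ ⟨j, s, hs, rfl⟩
    show ((h75_mulEquiv K x hx0) ^ s) (e j) ∈ h75_chart x⁻¹ D
    rw [h75_T_zpow]
    obtain ⟨k, hk⟩ := Int.eq_ofNat_of_zero_le (show 0 ≤ -s - N j by have := hN₀ j; omega)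
    have hs' : s = -((k + N j : ℕ) : ℤ) := by push_cast; omega
    have : x ^ s * e j = x⁻¹ ^ k * (x⁻¹ ^ N j * e j) := by
      rw [← mul_assoc, ← pow_add, inv_pow, hs', zpow_neg, zpow_natCast]
    rw [this]
    exact h75_pow_mul_mem_chart (hN j) k
  refine ⟨max a₁ ((∑ j, N j : ℕ) : ℤ), (h75_Lstd_mono _ e ?_).trans h7,
    h2.trans (h75_Lstd_mono _ e (le_max_left _ _))⟩
  exact neg_le_neg (le_max_right _ _)

end Frame

end Fermat.Agent.S18
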