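/-
S18 / RR-B3 (helper88): adding one place changes a chart space by dimension one — the core,
with the two inputs from RR-B1 (`h75_exists_const`: the residue field of a place is `K`) and
RR-B2 (`h75_exists_exact`: functions with prescribed orders on a chart) taken as explicit
hypotheses `hconst`, `hexact`.  The wrapper `RR_Index.lean` instantiates them.
-/
import Mathlib
import Fermat.Agent.S18.h75_RRDefs
import Fermat.Agent.S24.h35_PlaceBasic

set_option autoImplicit false

open AlgebraicCurve IntermediateField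

namespace Fermat.Agent.S18

section Abstract

variable {K V : Type*} [Field K] [AddCommGroup V] [Module K V]

/-- If `N` is spanned modulo `M` by one element outside `M`, the relative dimension is `1`. -/
theorem h88_relDim_eq_one (M N : Submodule K V) (f₀ : V) (hf₀N : f₀ ∈ N) (hf₀M : f₀ ∉ M)
    (hspan : ∀ g ∈ N, ∃ c : K, g - c • f₀ ∈ M) :
    h75_RelFin M N ∧ h75_relDim M N = 1 := by
  have hmap : N.map M.mkQ = Submodule.span K {M.mkQ f₀} := by
    apply le_antisymm
    · rintro _ ⟨g, hg, rfl⟩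
      obtain ⟨c, hc⟩ := hspan g hg
      rw [Submodule.mem_span_singleton]
      refine ⟨c, ?_⟩
      rw [← map_smul, eq_comm, ← sub_eq_zero, ← map_sub]
      exact (Submodule.Quotient.mk_eq_zero M).2 hc
    · rw [Submodule.span_singleton_le_iff_mem]
      exact ⟨f₀, hf₀N, rfl⟩
  have hne : M.mkQ f₀ ≠ 0 := fun h => hf₀M ((Submodule.Quotient.mk_eq_zero M).1 h)
  constructor
  · show FiniteDimensional K (N.map M.mkQ)
    rw [hmap]
    infer_instance
  · show Module.finrank K (N.map M.mkQ) = 1
    rw [hmap]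
    exact finrank_span_singleton hne

end Abstract

section Core

variable {K F : Type*} [Field K] [Field F] [Algebra K F]

/-- The local argument at one place `P`: `N` allows one more pole order at `P` than `M`. -/
theorem h88_index_core (M N : Submodule K F) (P : Place K F) (d : ℤ)
    (hconst : ∀ f : F, f ∈ P.toValuationSubring →
      ∃ a : K, f = algebraMap K F a ∨ 0 < P.ord (f - algebraMap K F a))
    (hN : ∀ g ∈ N, g = 0 ∨ -(d + 1) ≤ P.ord g)
    (hNM : ∀ g ∈ N, (g = 0 ∨ -d ≤ P.ord g) → g ∈ M)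
    (hM : ∀ g ∈ M, g = 0 ∨ -d ≤ P.ord g)
    (f₀ : F) (hf₀ : f₀ ≠ 0) (hf₀N : f₀ ∈ N) (hf₀P : P.ord f₀ = -(d + 1)) :
    h75_RelFin M N ∧ h75_relDim M N = 1 := by
  refine h88_relDim_eq_one M N f₀ hf₀N ?_ ?_
  · intro h
    rcases hM f₀ h with h0 | h0
    · exact hf₀ h0
    · rw [hf₀P] at h0
      omega
  · intro g hg
    by_cases hg0 : g = 0
    · exact ⟨0, by rw [hg0, zero_smul, sub_zero]; exact M.zero_mem⟩
    have hh0 : g / f₀ ≠ 0 := div_ne_zero hg0 hf₀
    have hord : 0 ≤ P.ord (g / f₀) := by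
      rw [Fermat.Agent.S24.h35_ord_div P hg0 hf₀, hf₀P]
      rcases hN g hg with h | h
      · exact absurd h hg0
      · omega
    have hmem : g / f₀ ∈ P.toValuationSubring :=
      (Fermat.Agent.S24.h35_mem_iff_ord_nonneg P hh0).2 hord
    obtain ⟨a, ha⟩ := hconst _ hmem
    refine ⟨a, hNM _ (N.sub_mem hg (N.smul_mem a hf₀N)) ?_⟩
    have hfac : g - a • f₀ = (g / f₀ - algebraMap K F a) * f₀ := by
      rw [Algebra.smul_def, sub_mul, div_mul_cancel₀ g hf₀]
    by_cases h0 : g - a • f₀ = 0
    · exact Or.inl h0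
    right
    rcases ha with ha | ha
    · exfalso
      apply h0
      rw [hfac, ha, sub_self, zero_mul]
    · have hne : g / f₀ - algebraMap K F a ≠ 0 := by
        intro h
        apply h0
        rw [hfac, h, zero_mul]
      rw [hfac, P.ord_mul hne hf₀, hf₀P]
      omega

theorem h88_chart_le (x : F) (D : Divisor K F) (P : Place K F) :
    h75_chart x D ≤ h75_chart x (D + Finsupp.single P 1) := by
  classical
  intro f hf Q hQ
  refine (hf Q hQ).trans (WithZero.exp_le_exp.mpr ?_)
  rw [Finsupp.add_apply, Finsupp.single_apply]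
  split_ifs <;> omega

theorem h88_overlap_le (x : F) (D : Divisor K F) (P : Place K F) :
    h75_overlap x D ≤ h75_overlap x (D + Finsupp.single P 1) := by
  classical
  intro f hf Q hQ hQ'
  refine (hf Q hQ hQ').trans (WithZero.exp_le_exp.mpr ?_)
  rw [Finsupp.add_apply, Finsupp.single_apply]
  split_ifs <;> omega

/-- A function on the chart with a pole of exact order `D P + 1` at `P` and divisor `≥ -D`
elsewhere on the chart. -/
theorem h88_exists_f₀ (x : F) (D : Divisor K F) (P : Place K F)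
    (hP : x ∈ P.toValuationSubring)
    (hexact : ∀ S : Finset (Place K F), (∀ Q ∈ S, x ∈ Q.toValuationSubring) →
      ∀ n : Place K F → ℤ, ∃ f : F, f ≠ 0 ∧ (∀ Q ∈ S, Q.ord f = n Q) ∧
        ∀ Q : Place K F, x ∈ Q.toValuationSubring → Q ∉ S → 0 ≤ Q.ord f) :
    ∃ f₀ : F, f₀ ≠ 0 ∧ f₀ ∈ h75_chart x (D + Finsupp.single P 1) ∧
      P.ord f₀ = -(D P + 1) := by
  classical
  obtain ⟨f₀, hf₀, hS, hout⟩ := hexact
    ((insert P D.support).filter (fun Q => x ∈ Q.toValuationSubring))
    (fun Q hQ => (Finset.mem_filter.1 hQ).2) (fun Q => -((D + Finsupp.single P 1 : Divisor K F) Q))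
  refine ⟨f₀, hf₀, ?_, ?_⟩
  · rw [h75_mem_chart_iff]
    intro Q hQ
    right
    by_cases hQS : Q ∈ (insert P D.support).filter (fun Q => x ∈ Q.toValuationSubring)
    · rw [hS Q hQS]
    · have h1 := hout Q hQ hQS
      have h2 : Q ∉ insert P D.support := fun h => hQS (Finset.mem_filter.2 ⟨h, hQ⟩)
      rw [Finset.mem_insert, not_or, Finsupp.mem_support_iff, not_not] at h2
      rw [Finsupp.add_apply, h2.2, Finsupp.single_apply, if_neg (Ne.symm h2.1)]
      simpa using h1
  · have hPS : P ∈ (insert P D.support).filter (fun Q => x ∈ Q.toValuationSubring) :=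
      Finset.mem_filter.2 ⟨Finset.mem_insert_self _ _, hP⟩
    rw [hS P hPS, Finsupp.add_apply, Finsupp.single_eq_same]

/-- RR-B3 for the chart, with the inputs of RR-B1 / RR-B2 as hypotheses. -/
theorem h88_chart_succ_core (x : F) (D : Divisor K F) (P : Place K F)
    (hP : x ∈ P.toValuationSubring)
    (hconst : ∀ f : F, f ∈ P.toValuationSubring →
      ∃ a : K, f = algebraMap K F a ∨ 0 < P.ord (f - algebraMap K F a))
    (hexact : ∀ S : Finset (Place K F), (∀ Q ∈ S, x ∈ Q.toValuationSubring) →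
      ∀ n : Place K F → ℤ, ∃ f : F, f ≠ 0 ∧ (∀ Q ∈ S, Q.ord f = n Q) ∧
        ∀ Q : Place K F, x ∈ Q.toValuationSubring → Q ∉ S → 0 ≤ Q.ord f) :
    h75_chart x D ≤ h75_chart x (D + Finsupp.single P 1) ∧
      h75_RelFin (h75_chart x D) (h75_chart x (D + Finsupp.single P 1)) ∧
      h75_relDim (h75_chart x D) (h75_chart x (D + Finsupp.single P 1)) = 1 := by
  classical
  obtain ⟨f₀, hf₀, hf₀N, hf₀P⟩ := h88_exists_f₀ x D P hP hexact
  refine ⟨h88_chart_le x D P, h88_index_core _ _ P (D P) hconst ?_ ?_ ?_ f₀ hf₀ hf₀N hf₀P⟩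
  · intro g hg
    have h := h75_mem_chart_iff.1 hg P hP
    rwa [Finsupp.add_apply, Finsupp.single_eq_same] at h
  · intro g hg hgP
    rw [h75_mem_chart_iff]
    intro Q hQ
    by_cases hQP : Q = P
    · rw [hQP]
      exact hgP
    · have h := h75_mem_chart_iff.1 hg Q hQ
      rwa [Finsupp.add_apply, Finsupp.single_apply, if_neg (Ne.symm hQP), add_zero] at h
  · intro g hg
    exact h75_mem_chart_iff.1 hg P hP

/-- RR-B3 for the overlap, with the inputs of RR-B1 / RR-B2 as hypotheses. -/
theorem h88_overlap_succ_core (x : F) (D : Divisor K F) (P : Place K F)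
    (hP : x ∈ P.toValuationSubring) (hP' : x⁻¹ ∈ P.toValuationSubring)
    (hconst : ∀ f : F, f ∈ P.toValuationSubring →
      ∃ a : K, f = algebraMap K F a ∨ 0 < P.ord (f - algebraMap K F a))
    (hexact : ∀ S : Finset (Place K F), (∀ Q ∈ S, x ∈ Q.toValuationSubring) →
      ∀ n : Place K F → ℤ, ∃ f : F, f ≠ 0 ∧ (∀ Q ∈ S, Q.ord f = n Q) ∧
        ∀ Q : Place K F, x ∈ Q.toValuationSubring → Q ∉ S → 0 ≤ Q.ord f) :
    h75_overlap x D ≤ h75_overlap x (D + Finsupp.single P 1) ∧
      h75_RelFin (h75_overlap x D) (h75_overlap x (D + Finsupp.single P 1)) ∧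
      h75_relDim (h75_overlap x D) (h75_overlap x (D + Finsupp.single P 1)) = 1 := by
  classical
  obtain ⟨f₀, hf₀, hf₀N, hf₀P⟩ := h88_exists_f₀ x D P hP hexact
  refine ⟨h88_overlap_le x D P, h88_index_core _ _ P (D P) hconst ?_ ?_ ?_ f₀ hf₀
    (h75_chart_le_overlap x _ hf₀N) hf₀P⟩
  · intro g hg
    have h := h75_mem_overlap_iff.1 hg P hP hP'
    rwa [Finsupp.add_apply, Finsupp.single_eq_same] at h
  · intro g hg hgP
    rw [h75_mem_overlap_iff]
    intro Q hQ hQ'
    by_cases hQP : Q = P
    · rw [hQP]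
      exact hgP
    · have h := h75_mem_overlap_iff.1 hg Q hQ hQ'
      rwa [Finsupp.add_apply, Finsupp.single_apply, if_neg (Ne.symm hQP), add_zero] at h
  · intro g hg
    exact h75_mem_overlap_iff.1 hg P hP hP'

/-- A place outside the chart does not change the chart space. -/
theorem h88_chart_succ_of_not (x : F) (D : Divisor K F) (P : Place K F)
    (hP : x ∉ P.toValuationSubring) :
    h75_chart x (D + Finsupp.single P 1) = h75_chart x D := by
  classical
  ext f
  constructor
  · intro hf Q hQ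
    have h := hf Q hQ
    have hQP : P ≠ Q := fun h => hP (h ▸ hQ)
    rwa [Finsupp.add_apply, Finsupp.single_apply, if_neg hQP, add_zero] at h
  · intro hf Q hQ
    have hQP : P ≠ Q := fun h => hP (h ▸ hQ)
    rw [Finsupp.add_apply, Finsupp.single_apply, if_neg hQP, add_zero]
    exact hf Q hQ

/-- A place outside the overlap does not change the overlap space. -/
theorem h88_overlap_succ_of_not (x : F) (D : Divisor K F) (P : Place K F)
    (hP : ¬ (x ∈ P.toValuationSubring ∧ x⁻¹ ∈ P.toValuationSubring)) :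
    h75_overlap x (D + Finsupp.single P 1) = h75_overlap x D := by
  classical
  ext f
  constructor
  · intro hf Q hQ hQ'
    have h := hf Q hQ hQ'
    have hQP : P ≠ Q := fun h => hP (h ▸ ⟨hQ, hQ'⟩)
    rwa [Finsupp.add_apply, Finsupp.single_apply, if_neg hQP, add_zero] at h
  · intro hf Q hQ hQ'
    have hQP : P ≠ Q := fun h => hP (h ▸ ⟨hQ, hQ'⟩)
    rw [Finsupp.add_apply, Finsupp.single_apply, if_neg hQP, add_zero]
    exact hf Q hQ hQ'

end Core

end Fermat.Agent.S18
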