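/-
S18 / RR-B3 (helper88): adding one place changes a chart space by dimension one.

Statements verbatim from the RR-B skeleton (section B3): `h75_chart_succ`,
`h75_chart_succ_of_not`, `h75_overlap_succ`, `h75_overlap_succ_of_not`.
The core is in `h88_IndexCore.lean`; the inputs are `h75_exists_exact` (RR-B2, `RR_Approx`)
and the fact that every function regular at a place takes a value in `K` there
(S24 `h35_exists_value`, characteristic-free).
-/
import Fermat.Agent.S18.h88_IndexCore
import Fermat.Agent.S18.RR_Approx
import Fermat.Agent.S24.h35_Places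

set_option autoImplicit false

open AlgebraicCurve IntermediateField

namespace Fermat.Agent.S18

variable {K F : Type*} [Field K] [Field F] [Algebra K F]

section B3
variable [IsAlgClosed K]

/-- Every function regular at a place takes a value in `K` there (the residue field is `K`). -/
theorem h88_exists_const {x : F} (hx : h75_IsChart K x) (P : Place K F) (f : F)
    (hf : f ∈ P.toValuationSubring) :
    ∃ a : K, f = algebraMap K F a ∨ 0 < P.ord (f - algebraMap K F a) :=
  haveI := hx.fin
  Fermat.Agent.S24.h35_exists_value hx.tr P hf

theorem h75_chart_succ {x : F} (hx : h75_IsChart K x) (D : Divisor K F) (P : Place K F)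
    (hP : x ∈ P.toValuationSubring) :
    h75_chart x D ≤ h75_chart x (D + Finsupp.single P 1) ∧
      h75_RelFin (h75_chart x D) (h75_chart x (D + Finsupp.single P 1)) ∧
      h75_relDim (h75_chart x D) (h75_chart x (D + Finsupp.single P 1)) = 1 :=
  h88_chart_succ_core x D P hP (h88_exists_const hx P) (h75_exists_exact hx)

theorem h75_chart_succ_of_not (x : F) (D : Divisor K F) (P : Place K F)
    (hP : x ∉ P.toValuationSubring) :
    h75_chart x (D + Finsupp.single P 1) = h75_chart x D :=
  h88_chart_succ_of_not x D P hP

theorem h75_overlap_succ {x : F} (hx : h75_IsChart K x) (D : Divisor K F) (P : Place K F)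
    (hP : x ∈ P.toValuationSubring) (hP' : x⁻¹ ∈ P.toValuationSubring) :
    h75_overlap x D ≤ h75_overlap x (D + Finsupp.single P 1) ∧
      h75_RelFin (h75_overlap x D) (h75_overlap x (D + Finsupp.single P 1)) ∧
      h75_relDim (h75_overlap x D) (h75_overlap x (D + Finsupp.single P 1)) = 1 :=
  h88_overlap_succ_core x D P hP hP' (h88_exists_const hx P) (h75_exists_exact hx)

theorem h75_overlap_succ_of_not (x : F) (D : Divisor K F) (P : Place K F)
    (hP : ¬ (x ∈ P.toValuationSubring ∧ x⁻¹ ∈ P.toValuationSubring)) :
    h75_overlap x (D + Finsupp.single P 1) = h75_overlap x D :=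
  h88_overlap_succ_of_not x D P hP

end B3

end Fermat.Agent.S18
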