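import Mathlib
import Fermat.Agent.S18.h75_TateDefs

/-!
# S18 / RR-A1 (helper6): Fredholm triples, additivity of the Euler characteristic

Pure linear algebra over a field `K`.  For a triple `(M, L, W)` of subspaces of `V`,
`h⁰ = dim (M ⊓ L)`, `h¹ = dim W / (M ⊔ L)`, `χ = h⁰ - h¹`.

API:
* `h75_relDim_rankNullity` : rank–nullity for the image of a subspace.
* `h75_relDim_tower` : `P ≤ Q ≤ R` : `dim R/P = dim Q/P + dim R/Q`, with finiteness.
* `h75_RelFin_trans`, `h75_RelFin_of_tower`, `h75_RelFin_mono_right`, `h75_RelFin_sup`,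
  `h75_relDim_map`, `h75_RelFin_map`, `h75_isFred_comm`, `h75_chi_comm`.
* `h75_fred_mono_M`, `h75_fred_anti_M`, `h75_fred_mono_L`, `h75_fred_anti_L`,
  `h75_fred_mono_W`, `h75_fred_map` : the row statements.
-/

set_option autoImplicit false

namespace Fermat.Agent.S18

open Module

section Fredholm

variable {K V : Type*} [Field K] [AddCommGroup V] [Module K V]

/-- Rank–nullity for the image of a subspace `S` under `f`, with `N = S ⊓ ker f`. -/
theorem h75_relDim_rankNullity {A B : Type*} [AddCommGroup A] [Module K A] [AddCommGroup B]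
    [Module K B] (f : A →ₗ[K] B) (S N : Submodule K A) (hN : S ⊓ LinearMap.ker f = N)
    (h1 : FiniteDimensional K ↥(S.map f)) (h2 : FiniteDimensional K ↥N) :
    FiniteDimensional K ↥S ∧ finrank K ↥S = finrank K ↥(S.map f) + finrank K ↥N := by
  subst hN
  have hrange : LinearMap.range (f.domRestrict S) = S.map f := LinearMap.range_domRestrict S f
  have hker : LinearMap.ker (f.domRestrict S) = (S ⊓ LinearMap.ker f).comap S.subtype := by
    rw [LinearMap.ker_domRestrict]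
    ext x
    simp
  have e : ↥(LinearMap.ker (f.domRestrict S)) ≃ₗ[K] ↥(S ⊓ LinearMap.ker f) :=
    (LinearEquiv.ofEq _ _ hker).trans (Submodule.comapSubtypeEquivOfLe inf_le_left)
  have h3 : FiniteDimensional K ↥(LinearMap.ker (f.domRestrict S)) := Module.Finite.equiv e.symm
  have h4 : FiniteDimensional K ↥(LinearMap.range (f.domRestrict S)) := by
    rw [hrange]
    exact h1
  have h5 : FiniteDimensional K (↥S ⧸ LinearMap.ker (f.domRestrict S)) :=
    Module.Finite.equiv (f.domRestrict S).quotKerEquivRange.symm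
  have h6 : FiniteDimensional K ↥S :=
    Module.Finite.of_submodule_quotient (LinearMap.ker (f.domRestrict S))
  refine ⟨h6, ?_⟩
  have h7 := LinearMap.finrank_range_add_finrank_ker (f.domRestrict S)
  rw [← h7, LinearEquiv.finrank_eq e, hrange]

/-- The image in `V ⧸ Q` is the image of the image in `V ⧸ P` (`P ≤ Q`). -/
theorem h75_relDim_map_liftQ {P Q : Submodule K V} (h : P ≤ LinearMap.ker Q.mkQ)
    (R : Submodule K V) : (R.map P.mkQ).map (P.liftQ Q.mkQ h) = R.map Q.mkQ := by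
  rw [← Submodule.map_comp, Submodule.liftQ_mkQ]

/-- `Q ≤ Q'` : `Q / P` is a subspace of `Q' / P`. -/
theorem h75_RelFin_mono_right {P Q Q' : Submodule K V} (hQ : Q ≤ Q') (h : h75_RelFin P Q') :
    h75_RelFin P Q := by
  have : FiniteDimensional K ↥(Q'.map P.mkQ) := h
  exact Submodule.finiteDimensional_of_le (Submodule.map_mono hQ)

/-- `P ≤ P'` : `Q / P'` is a quotient of `Q / P`. -/
theorem h75_RelFin_mono_left {P P' Q : Submodule K V} (hP : P ≤ P') (h : h75_RelFin P Q) :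
    h75_RelFin P' Q := by
  have hle : P ≤ LinearMap.ker P'.mkQ := by rw [Submodule.ker_mkQ]; exact hP
  have : FiniteDimensional K ↥(Q.map P.mkQ) := h
  have h2 : FiniteDimensional K ↥((Q.map P.mkQ).map (P.liftQ P'.mkQ hle)) := inferInstance
  rw [h75_relDim_map_liftQ] at h2
  exact h2

/-- Tower law `P ≤ Q ≤ R` : `dim R/P = dim Q/P + dim R/Q`. -/
theorem h75_relDim_tower {P Q R : Submodule K V} (hPQ : P ≤ Q) (hQR : Q ≤ R)
    (h1 : h75_RelFin P Q) (h2 : h75_RelFin Q R) :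
    h75_RelFin P R ∧ h75_relDim P R = h75_relDim P Q + h75_relDim Q R := by
  have h : P ≤ LinearMap.ker Q.mkQ := by rw [Submodule.ker_mkQ]; exact hPQ
  have hmap : (R.map P.mkQ).map (P.liftQ Q.mkQ h) = R.map Q.mkQ := h75_relDim_map_liftQ h R
  have hker : R.map P.mkQ ⊓ LinearMap.ker (P.liftQ Q.mkQ h) = Q.map P.mkQ := by
    rw [Submodule.ker_liftQ, Submodule.ker_mkQ]
    exact inf_eq_right.mpr (Submodule.map_mono hQR)
  have h3 : FiniteDimensional K ↥((R.map P.mkQ).map (P.liftQ Q.mkQ h)) := by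
    rw [hmap]
    exact h2
  obtain ⟨h4, h5⟩ := h75_relDim_rankNullity (P.liftQ Q.mkQ h) (R.map P.mkQ) (Q.map P.mkQ) hker h3 h1
  refine ⟨h4, ?_⟩
  unfold h75_relDim
  rw [h5, hmap, add_comm]

/-- Transitivity of relative finiteness along `P ≤ Q ≤ R`. -/
theorem h75_RelFin_trans {P Q R : Submodule K V} (hPQ : P ≤ Q) (hQR : Q ≤ R)
    (h1 : h75_RelFin P Q) (h2 : h75_RelFin Q R) : h75_RelFin P R :=
  (h75_relDim_tower hPQ hQR h1 h2).1

/-- Additivity of the relative dimension along `P ≤ Q ≤ R`. -/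
theorem h75_relDim_add {P Q R : Submodule K V} (hPQ : P ≤ Q) (hQR : Q ≤ R)
    (h1 : h75_RelFin P Q) (h2 : h75_RelFin Q R) :
    h75_relDim P R = h75_relDim P Q + h75_relDim Q R :=
  (h75_relDim_tower hPQ hQR h1 h2).2

/-- Converse of transitivity. -/
theorem h75_RelFin_of_tower {P Q R : Submodule K V} (hPQ : P ≤ Q) (hQR : Q ≤ R)
    (h : h75_RelFin P R) : h75_RelFin P Q ∧ h75_RelFin Q R :=
  ⟨h75_RelFin_mono_right hQR h, h75_RelFin_mono_left hPQ h⟩

/-- `(M₁ ⊔ L) / (M ⊔ L)` is the image of `M₁ / M`. -/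
theorem h75_relDim_sup_map {M M₁ : Submodule K V} (L : Submodule K V)
    (hle : M ≤ LinearMap.ker (M ⊔ L).mkQ) :
    (M₁.map M.mkQ).map (M.liftQ (M ⊔ L).mkQ hle) = (M₁ ⊔ L).map (M ⊔ L).mkQ := by
  rw [h75_relDim_map_liftQ, Submodule.map_sup]
  have h2 : L.map (M ⊔ L).mkQ = ⊥ := by
    rw [← LinearMap.le_ker_iff_map, Submodule.ker_mkQ]
    exact le_sup_right
  rw [h2, sup_bot_eq]

/-- `M₁ / M` finite-dimensional ⟹ `(M₁ ⊔ L) / (M ⊔ L)` finite-dimensional. -/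
theorem h75_RelFin_sup {M M₁ : Submodule K V} (L : Submodule K V) (h : h75_RelFin M M₁) :
    h75_RelFin (M ⊔ L) (M₁ ⊔ L) := by
  have hle : M ≤ LinearMap.ker (M ⊔ L).mkQ := by rw [Submodule.ker_mkQ]; exact le_sup_left
  have : FiniteDimensional K ↥(M₁.map M.mkQ) := h
  have h2 : FiniteDimensional K ↥((M₁.map M.mkQ).map (M.liftQ (M ⊔ L).mkQ hle)) := inferInstance
  rw [h75_relDim_sup_map] at h2
  exact h2

theorem h75_isFred_comm {M L W : Submodule K V} : h75_IsFred M L W ↔ h75_IsFred L M W := by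
  unfold h75_IsFred
  rw [inf_comm, sup_comm]
  tauto

theorem h75_chi_comm (M L W : Submodule K V) : h75_chi M L W = h75_chi L M W := by
  unfold h75_chi
  rw [inf_comm, sup_comm]

/-- (F1) enlarging `M` by a finite-dimensional amount. -/
theorem h75_fred_mono_M {M M₁ L W : Submodule K V} (hM : M ≤ M₁) (hM₁ : M₁ ≤ W)
    (hfin : h75_RelFin M M₁) (h : h75_IsFred M L W) :
    h75_IsFred M₁ L W ∧ h75_chi M₁ L W = h75_chi M L W + h75_relDim M M₁ := by
  obtain ⟨hMW, hLW, hfd, hrel⟩ := h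
  have hfinI : FiniteDimensional K ↥(M₁.map M.mkQ) := hfin
  -- (i) `dim (M₁ ⊓ L) = dim ((M₁ ⊓ L) / M) + dim (M ⊓ L)`
  have hker1 : (M₁ ⊓ L) ⊓ LinearMap.ker M.mkQ = M ⊓ L := by
    rw [Submodule.ker_mkQ, inf_comm, ← inf_assoc, inf_eq_left.mpr hM]
  have hfd1 : FiniteDimensional K ↥((M₁ ⊓ L).map M.mkQ) :=
    Submodule.finiteDimensional_of_le (Submodule.map_mono inf_le_left)
  obtain ⟨hfdM₁L, hdim1⟩ := h75_relDim_rankNullity M.mkQ (M₁ ⊓ L) (M ⊓ L) hker1 hfd1 hfd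
  -- (ii) `dim M₁ / M = dim (M₁ ⊔ L) / (M ⊔ L) + dim ((M₁ ⊓ L) / M)`
  have hle : M ≤ LinearMap.ker (M ⊔ L).mkQ := by rw [Submodule.ker_mkQ]; exact le_sup_left
  have hmap2 := h75_relDim_sup_map (M₁ := M₁) L hle
  have hker2 : M₁.map M.mkQ ⊓ LinearMap.ker (M.liftQ (M ⊔ L).mkQ hle) = (M₁ ⊓ L).map M.mkQ := by
    rw [Submodule.ker_liftQ, Submodule.ker_mkQ]
    apply le_antisymm
    · rintro x ⟨⟨m₁, hm₁, rfl⟩, ⟨y, hy, hxy⟩⟩
      obtain ⟨m, hm, l, hl, rfl⟩ := Submodule.mem_sup.mp hy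
      have h1 : m + l - m₁ ∈ M := by
        have h2 := hxy
        rw [← sub_eq_zero, ← map_sub, Submodule.mkQ_apply, Submodule.Quotient.mk_eq_zero] at h2
        exact h2
      have hl1 : l ∈ M₁ := by
        have h3 : l = (m + l - m₁) + m₁ - m := by abel
        rw [h3]
        exact M₁.sub_mem (M₁.add_mem (hM h1) hm₁) (hM hm)
      refine ⟨l, ⟨hl1, hl⟩, ?_⟩
      rw [← hxy, map_add]
      have h4 : M.mkQ m = 0 := by
        rw [Submodule.mkQ_apply, Submodule.Quotient.mk_eq_zero]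
        exact hm
      rw [h4, zero_add]
    · exact le_inf (Submodule.map_mono inf_le_left)
        (Submodule.map_mono (inf_le_right.trans le_sup_right))
  have hfd2 : FiniteDimensional K ↥((M₁.map M.mkQ).map (M.liftQ (M ⊔ L).mkQ hle)) :=
    inferInstance
  obtain ⟨-, hdim2⟩ := h75_relDim_rankNullity (M.liftQ (M ⊔ L).mkQ hle) (M₁.map M.mkQ)
    ((M₁ ⊓ L).map M.mkQ) hker2 hfd2 hfd1
  rw [hmap2] at hdim2
  -- (iii) tower `M ⊔ L ≤ M₁ ⊔ L ≤ W`
  have hPQ : M ⊔ L ≤ M₁ ⊔ L := sup_le_sup_right hM L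
  have hQR : M₁ ⊔ L ≤ W := sup_le hM₁ hLW
  obtain ⟨hrelPQ, hrelQR⟩ := h75_RelFin_of_tower hPQ hQR hrel
  have hdim3 := h75_relDim_add hPQ hQR hrelPQ hrelQR
  refine ⟨⟨hM₁, hLW, hfdM₁L, hrelQR⟩, ?_⟩
  unfold h75_chi
  unfold h75_relDim at hdim3 ⊢
  rw [hdim1, hdim3, hdim2]
  push_cast
  ring

/-- (F1') shrinking `M` by a finite-dimensional amount. -/
theorem h75_fred_anti_M {M M₁ L W : Submodule K V} (hM : M ≤ M₁)
    (hfin : h75_RelFin M M₁) (h : h75_IsFred M₁ L W) :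
    h75_IsFred M L W := by
  obtain ⟨hMW, hLW, hfd, hrel⟩ := h
  refine ⟨hM.trans hMW, hLW, ?_, ?_⟩
  · exact Submodule.finiteDimensional_of_le (inf_le_inf_right L hM)
  · exact h75_RelFin_trans (sup_le_sup_right hM L) (sup_le hMW hLW) (h75_RelFin_sup L hfin) hrel

/-- (F2) enlarging `L`. -/
theorem h75_fred_mono_L {M L L₁ W : Submodule K V} (hL : L ≤ L₁) (hL₁ : L₁ ≤ W)
    (hfin : h75_RelFin L L₁) (h : h75_IsFred M L W) :
    h75_IsFred M L₁ W ∧ h75_chi M L₁ W = h75_chi M L W + h75_relDim L L₁ := by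
  obtain ⟨h1, h2⟩ := h75_fred_mono_M hL hL₁ hfin (h75_isFred_comm.mp h)
  refine ⟨h75_isFred_comm.mp h1, ?_⟩
  rw [h75_chi_comm M L₁ W, h75_chi_comm M L W]
  exact h2

/-- (F2') shrinking `L`. -/
theorem h75_fred_anti_L {M L L₁ W : Submodule K V} (hL : L ≤ L₁)
    (hfin : h75_RelFin L L₁) (h : h75_IsFred M L₁ W) :
    h75_IsFred M L W :=
  h75_isFred_comm.mp (h75_fred_anti_M hL hfin (h75_isFred_comm.mp h))

/-- (F3) enlarging `W`. -/
theorem h75_fred_mono_W {M L W W₁ : Submodule K V} (hW : W ≤ W₁)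
    (hfin : h75_RelFin W W₁) (h : h75_IsFred M L W) :
    h75_IsFred M L W₁ ∧ h75_chi M L W₁ = h75_chi M L W - h75_relDim W W₁ := by
  obtain ⟨hMW, hLW, hfd, hrel⟩ := h
  obtain ⟨h1, h2⟩ := h75_relDim_tower (sup_le hMW hLW) hW hrel hfin
  refine ⟨⟨hMW.trans hW, hLW.trans hW, hfd, h1⟩, ?_⟩
  unfold h75_chi
  rw [h2]
  push_cast
  ring

/-- The image of `Q / P` under the isomorphism `V ⧸ P ≃ V ⧸ Φ P` induced by `Φ`. -/
theorem h75_relDim_map_equiv (Φ : V ≃ₗ[K] V) (P Q : Submodule K V) :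
    (Q.map P.mkQ).map
        ((Submodule.Quotient.equiv P (P.map (Φ : V →ₗ[K] V)) Φ rfl : (V ⧸ P) ≃ₗ[K] _) :
          (V ⧸ P) →ₗ[K] (V ⧸ P.map (Φ : V →ₗ[K] V)))
      = (Q.map (Φ : V →ₗ[K] V)).map (P.map (Φ : V →ₗ[K] V)).mkQ := by
  rw [← Submodule.map_comp, ← Submodule.map_comp]
  congr 1

/-- Relative dimension is invariant under a linear automorphism. -/
theorem h75_relDim_map (Φ : V ≃ₗ[K] V) (P Q : Submodule K V) :
    h75_relDim (P.map (Φ : V →ₗ[K] V)) (Q.map (Φ : V →ₗ[K] V)) = h75_relDim P Q := by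
  unfold h75_relDim
  rw [← h75_relDim_map_equiv Φ P Q]
  exact LinearEquiv.finrank_map_eq _ _

/-- Relative finiteness is invariant under a linear automorphism. -/
theorem h75_RelFin_map (Φ : V ≃ₗ[K] V) {P Q : Submodule K V} (h : h75_RelFin P Q) :
    h75_RelFin (P.map (Φ : V →ₗ[K] V)) (Q.map (Φ : V →ₗ[K] V)) := by
  unfold h75_RelFin
  rw [← h75_relDim_map_equiv Φ P Q]
  have : FiniteDimensional K ↥(Q.map P.mkQ) := h
  infer_instance

/-- (F4) transport along a linear automorphism. -/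
theorem h75_fred_map (Φ : V ≃ₗ[K] V) {M L W : Submodule K V} (h : h75_IsFred M L W) :
    h75_IsFred (M.map (Φ : V →ₗ[K] V)) (L.map (Φ : V →ₗ[K] V)) (W.map (Φ : V →ₗ[K] V)) ∧
      h75_chi (M.map (Φ : V →ₗ[K] V)) (L.map (Φ : V →ₗ[K] V)) (W.map (Φ : V →ₗ[K] V)) =
        h75_chi M L W := by
  obtain ⟨hMW, hLW, hfd, hrel⟩ := h
  have hinf : M.map (Φ : V →ₗ[K] V) ⊓ L.map (Φ : V →ₗ[K] V) = (M ⊓ L).map (Φ : V →ₗ[K] V) :=
    (Submodule.map_inf (Φ : V →ₗ[K] V) Φ.injective).symm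
  have hsup : M.map (Φ : V →ₗ[K] V) ⊔ L.map (Φ : V →ₗ[K] V) = (M ⊔ L).map (Φ : V →ₗ[K] V) :=
    (Submodule.map_sup M L (Φ : V →ₗ[K] V)).symm
  refine ⟨⟨Submodule.map_mono hMW, Submodule.map_mono hLW, ?_, ?_⟩, ?_⟩
  · rw [hinf]
    infer_instance
  · rw [hsup]
    exact h75_RelFin_map Φ hrel
  · unfold h75_chi
    rw [hinf, hsup, h75_relDim_map, LinearEquiv.finrank_map_eq]

end Fredholm

end Fermat.Agent.S18
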