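import Fermat.Agent.S18.Tate_Fred
import Fermat.Agent.S18.Tate_Std

/-!
# S18 / RR-A3: sandwiched pairs (Fredholm, vanishing, twist)

`M` sandwiched between standard `M`-lattices and `L` between standard `L`-lattices of a frame:
the triple `(M, L, Wstd)` is Fredholm, `h¹` vanishes for large twists, `h⁰` vanishes for large
negative twists, and twisting `L` by `T^s` changes `χ` by `n * s`.
-/

set_option autoImplicit false

namespace Fermat.Agent.S18

open Module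

section General

variable {K V : Type*} [Field K] [AddCommGroup V] [Module K V]

/-- `RelFin` is monotone in the second variable. -/
theorem h89_relFin_mono_right {P Q Q' : Submodule K V} (hQ : Q ≤ Q') (h : h75_RelFin P Q') :
    h75_RelFin P Q := by
  unfold h75_RelFin at h ⊢
  have := h
  exact Submodule.finiteDimensional_of_le (Submodule.map_mono hQ)

/-- The image of `Q.map Φ` in `V ⧸ P.map Φ` is the image of `Q.map P.mkQ` under the induced
equivalence of quotients. -/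
theorem h89_map_mkQ_map (Φ : V ≃ₗ[K] V) (P Q : Submodule K V) :
    (Q.map (Φ : V →ₗ[K] V)).map (P.map (Φ : V →ₗ[K] V)).mkQ =
      (Q.map P.mkQ).map
        ((Submodule.Quotient.equiv P (P.map (Φ : V →ₗ[K] V)) Φ rfl :
          (V ⧸ P) ≃ₗ[K] (V ⧸ P.map (Φ : V →ₗ[K] V))) : (V ⧸ P) →ₗ[K] _) := by
  rw [← Submodule.map_comp, ← Submodule.map_comp]
  congr 1

/-- Relative dimension is invariant under automorphisms. -/
theorem h89_relDim_map (Φ : V ≃ₗ[K] V) (P Q : Submodule K V) :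
    h75_relDim (P.map (Φ : V →ₗ[K] V)) (Q.map (Φ : V →ₗ[K] V)) = h75_relDim P Q := by
  unfold h75_relDim
  rw [h89_map_mkQ_map]
  exact (LinearEquiv.finrank_eq
    ((Submodule.Quotient.equiv P (P.map (Φ : V →ₗ[K] V)) Φ rfl).submoduleMap (Q.map P.mkQ))).symm

/-- Relative finiteness is invariant under automorphisms. -/
theorem h89_relFin_map (Φ : V ≃ₗ[K] V) {P Q : Submodule K V} (h : h75_RelFin P Q) :
    h75_RelFin (P.map (Φ : V →ₗ[K] V)) (Q.map (Φ : V →ₗ[K] V)) := by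
  unfold h75_RelFin at h ⊢
  rw [h89_map_mkQ_map]
  have := h
  exact LinearEquiv.finiteDimensional
    ((Submodule.Quotient.equiv P (P.map (Φ : V →ₗ[K] V)) Φ rfl).submoduleMap (Q.map P.mkQ))

/-- If every generator of `Q = span S` lies in `P` or in a finite set, then the image of `Q`
in `V ⧸ P` is finite-dimensional. -/
theorem h89_relFin_span {P : Submodule K V} {S F : Set V} (hF : F.Finite)
    (h : ∀ v ∈ S, v ∈ P ∨ v ∈ F) : h75_RelFin P (Submodule.span K S) := by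
  unfold h75_RelFin
  have hle : (Submodule.span K S).map P.mkQ ≤ Submodule.span K (P.mkQ '' F) := by
    rw [Submodule.map_span, Submodule.span_le]
    rintro w ⟨v, hv, rfl⟩
    rcases h v hv with hP | hF'
    · have h0 : P.mkQ v = 0 := by
        rw [Submodule.mkQ_apply, Submodule.Quotient.mk_eq_zero]
        exact hP
      rw [h0]
      exact Submodule.zero_mem _
    · exact Submodule.subset_span ⟨v, hF', rfl⟩
  have : FiniteDimensional K (Submodule.span K (P.mkQ '' F)) :=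
    FiniteDimensional.span_of_finite K (hF.image _)
  exact Submodule.finiteDimensional_of_le hle

end General

section Frame

variable {K V : Type*} [Field K] [AddCommGroup V] [Module K V]
variable (T : V ≃ₗ[K] V) {n : ℕ} (e : Fin n → V)

theorem h89_zpow_apply_zpow (s t : ℤ) (v : V) : (T ^ s) ((T ^ t) v) = (T ^ (s + t)) v := by
  rw [zpow_add]
  rfl

theorem h89_mem_Mstd {a s : ℤ} (h : a ≤ s) (j : Fin n) : (T ^ s) (e j) ∈ h75_Mstd T e a :=
  Submodule.subset_span ⟨j, s, h, rfl⟩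

theorem h89_mem_Lstd {a s : ℤ} (h : s ≤ a) (j : Fin n) : (T ^ s) (e j) ∈ h75_Lstd T e a :=
  Submodule.subset_span ⟨j, s, h, rfl⟩

theorem h89_mem_Wstd (s : ℤ) (j : Fin n) : (T ^ s) (e j) ∈ h75_Wstd T e :=
  Submodule.subset_span ⟨j, s, rfl⟩

theorem h89_Mstd_anti {a a' : ℤ} (h : a ≤ a') : h75_Mstd T e a' ≤ h75_Mstd T e a := by
  apply Submodule.span_mono
  rintro v ⟨j, s, hs, rfl⟩
  exact ⟨j, s, h.trans hs, rfl⟩

theorem h89_Lstd_mono {b b' : ℤ} (h : b ≤ b') : h75_Lstd T e b ≤ h75_Lstd T e b' := by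
  apply Submodule.span_mono
  rintro v ⟨j, s, hs, rfl⟩
  exact ⟨j, s, hs.trans h, rfl⟩

theorem h89_Mstd_le_Wstd (a : ℤ) : h75_Mstd T e a ≤ h75_Wstd T e := by
  apply Submodule.span_mono
  rintro v ⟨j, s, -, rfl⟩
  exact ⟨j, s, rfl⟩

theorem h89_Lstd_le_Wstd (b : ℤ) : h75_Lstd T e b ≤ h75_Wstd T e := by
  apply Submodule.span_mono
  rintro v ⟨j, s, -, rfl⟩
  exact ⟨j, s, rfl⟩

theorem h89_map_Mstd (a s : ℤ) :
    (h75_Mstd T e a).map ((T ^ s : V ≃ₗ[K] V) : V →ₗ[K] V) = h75_Mstd T e (a + s) := by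
  unfold h75_Mstd
  rw [Submodule.map_span]
  congr 1
  ext v
  constructor
  · rintro ⟨w, ⟨j, t, ht, rfl⟩, rfl⟩
    refine ⟨j, s + t, by omega, ?_⟩
    exact h89_zpow_apply_zpow T s t (e j)
  · rintro ⟨j, t, ht, rfl⟩
    refine ⟨(T ^ (t - s)) (e j), ⟨j, t - s, by omega, rfl⟩, ?_⟩
    have := h89_zpow_apply_zpow T s (t - s) (e j)
    rw [show s + (t - s) = t by ring] at this
    exact this

theorem h89_map_Lstd (b s : ℤ) :
    (h75_Lstd T e b).map ((T ^ s : V ≃ₗ[K] V) : V →ₗ[K] V) = h75_Lstd T e (b + s) := by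
  unfold h75_Lstd
  rw [Submodule.map_span]
  congr 1
  ext v
  constructor
  · rintro ⟨w, ⟨j, t, ht, rfl⟩, rfl⟩
    refine ⟨j, s + t, by omega, ?_⟩
    exact h89_zpow_apply_zpow T s t (e j)
  · rintro ⟨j, t, ht, rfl⟩
    refine ⟨(T ^ (t - s)) (e j), ⟨j, t - s, by omega, rfl⟩, ?_⟩
    have := h89_zpow_apply_zpow T s (t - s) (e j)
    rw [show s + (t - s) = t by ring] at this
    exact this

theorem h89_map_Wstd (s : ℤ) :
    (h75_Wstd T e).map ((T ^ s : V ≃ₗ[K] V) : V →ₗ[K] V) = h75_Wstd T e := by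
  unfold h75_Wstd
  rw [Submodule.map_span]
  congr 1
  ext v
  constructor
  · rintro ⟨w, ⟨j, t, rfl⟩, rfl⟩
    exact ⟨j, s + t, h89_zpow_apply_zpow T s t (e j)⟩
  · rintro ⟨j, t, rfl⟩
    refine ⟨(T ^ (t - s)) (e j), ⟨j, t - s, rfl⟩, ?_⟩
    have := h89_zpow_apply_zpow T s (t - s) (e j)
    rw [show s + (t - s) = t by ring] at this
    exact this

/-- `Wstd = Mstd a ⊔ Lstd b` as soon as `a - 1 ≤ b`. -/
theorem h89_Wstd_le_sup {a b : ℤ} (h : a - 1 ≤ b) :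
    h75_Wstd T e ≤ h75_Mstd T e a ⊔ h75_Lstd T e b := by
  unfold h75_Wstd
  rw [Submodule.span_le]
  rintro v ⟨j, s, rfl⟩
  rcases le_or_gt a s with hs | hs
  · exact (le_sup_left : h75_Mstd T e a ≤ _) (h89_mem_Mstd T e hs j)
  · exact (le_sup_right : h75_Lstd T e b ≤ _) (h89_mem_Lstd T e (by omega) j)

/-- The image of `Mstd c` in `V ⧸ Mstd a` is finite-dimensional. -/
theorem h89_relFin_Mstd (a c : ℤ) : h75_RelFin (h75_Mstd T e a) (h75_Mstd T e c) := by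
  have hfin : ((fun p : Fin n × ℤ => (T ^ p.2) (e p.1)) ''
      ((Set.univ : Set (Fin n)) ×ˢ Set.Ico c a)).Finite :=
    ((Set.finite_univ).prod (Set.finite_Ico c a)).image _
  refine h89_relFin_span (P := h75_Mstd T e a) hfin ?_
  rintro v ⟨j, s, hs, rfl⟩
  rcases le_or_gt a s with has | has
  · exact Or.inl (h89_mem_Mstd T e has j)
  · exact Or.inr ⟨(j, s), ⟨Set.mem_univ _, hs, has⟩, rfl⟩

/-- The image of `Lstd c` in `V ⧸ Lstd b` is finite-dimensional. -/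
theorem h89_relFin_Lstd (b c : ℤ) : h75_RelFin (h75_Lstd T e b) (h75_Lstd T e c) := by
  have hfin : ((fun p : Fin n × ℤ => (T ^ p.2) (e p.1)) ''
      ((Set.univ : Set (Fin n)) ×ˢ Set.Ioc b c)).Finite :=
    ((Set.finite_univ).prod (Set.finite_Ioc b c)).image _
  refine h89_relFin_span (P := h75_Lstd T e b) hfin ?_
  rintro v ⟨j, s, hs, rfl⟩
  rcases le_or_gt s b with hbs | hbs
  · exact Or.inl (h89_mem_Lstd T e hbs j)
  · exact Or.inr ⟨(j, s), ⟨Set.mem_univ _, hbs, hs⟩, rfl⟩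

theorem h89_Mstd_eq_span_image (a : ℤ) :
    h75_Mstd T e a = Submodule.span K ((fun p : Fin n × ℤ => (T ^ p.2) (e p.1)) ''
      {p : Fin n × ℤ | a ≤ p.2}) := by
  unfold h75_Mstd
  congr 1
  ext v
  constructor
  · rintro ⟨j, s, hs, rfl⟩
    exact ⟨(j, s), hs, rfl⟩
  · rintro ⟨⟨j, s⟩, hs, rfl⟩
    exact ⟨j, s, hs, rfl⟩

theorem h89_Lstd_eq_span_image (b : ℤ) :
    h75_Lstd T e b = Submodule.span K ((fun p : Fin n × ℤ => (T ^ p.2) (e p.1)) ''
      {p : Fin n × ℤ | p.2 ≤ b}) := by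
  unfold h75_Lstd
  congr 1
  ext v
  constructor
  · rintro ⟨j, s, hs, rfl⟩
    exact ⟨(j, s), hs, rfl⟩
  · rintro ⟨⟨j, s⟩, hs, rfl⟩
    exact ⟨j, s, hs, rfl⟩

/-- For a frame, `Mstd c ⊓ Lstd b = ⊥` as soon as `b < c`. -/
theorem h89_Mstd_inf_Lstd (he : h75_IsFrame T e) {b c : ℤ} (h : b < c) :
    h75_Mstd T e c ⊓ h75_Lstd T e b = ⊥ := by
  rw [h89_Mstd_eq_span_image, h89_Lstd_eq_span_image]
  have hdisj : Disjoint {p : Fin n × ℤ | c ≤ p.2} {p : Fin n × ℤ | p.2 ≤ b} := by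
    rw [Set.disjoint_left]
    intro p hp hp'
    have hp1 : c ≤ p.2 := hp
    have hp2 : p.2 ≤ b := hp'
    omega
  exact (LinearIndependent.disjoint_span_image he hdisj).eq_bot

variable {T e}

/-- `χ` of a pair sandwiched from below by a standard pair. -/
theorem h89_chi_sand (he : h75_IsFrame T e) {M L : Submodule K V} (a b : ℤ)
    (hM : h75_Mstd T e a ≤ M) (hMW : M ≤ h75_Wstd T e) (hMfin : h75_RelFin (h75_Mstd T e a) M)
    (hL : h75_Lstd T e b ≤ L) (hLW : L ≤ h75_Wstd T e) (hLfin : h75_RelFin (h75_Lstd T e b) L) :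
    h75_IsFred M L (h75_Wstd T e) ∧
      h75_chi M L (h75_Wstd T e) =
        n * (b - a + 1) + h75_relDim (h75_Mstd T e a) M + h75_relDim (h75_Lstd T e b) L := by
  obtain ⟨h0, hchi0⟩ := h75_std_fred T e he a b
  obtain ⟨h1, hchi1⟩ := h75_fred_mono_M hM hMW hMfin h0
  obtain ⟨h2, hchi2⟩ := h75_fred_mono_L hL hLW hLfin h1
  refine ⟨h2, ?_⟩
  rw [hchi2, hchi1, hchi0]

theorem h89_sandM_relFin {M : Submodule K V} {a : ℤ} (hM : M ≤ h75_Mstd T e (-a)) (c : ℤ) :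
    h75_RelFin (h75_Mstd T e c) M :=
  h89_relFin_mono_right hM (h89_relFin_Mstd T e c (-a))

theorem h89_sandL_relFin {L : Submodule K V} {a : ℤ} (hL : L ≤ h75_Lstd T e a) (c : ℤ) :
    h75_RelFin (h75_Lstd T e c) L :=
  h89_relFin_mono_right hL (h89_relFin_Lstd T e c a)

variable (T e)

/-- (S3) sandwiched pairs are Fredholm. -/
theorem h75_sand_fred (he : h75_IsFrame T e) {M L : Submodule K V}
    (hM : h75_IsSandM T e M) (hL : h75_IsSandL T e L) :
    h75_IsFred M L (h75_Wstd T e) := by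
  obtain ⟨a, ha1, ha2⟩ := hM
  obtain ⟨a', hb1, hb2⟩ := hL
  exact (h89_chi_sand he a (-a') ha1 (ha2.trans (h89_Mstd_le_Wstd T e _))
    (h89_sandM_relFin ha2 a) hb1 (hb2.trans (h89_Lstd_le_Wstd T e _))
    (h89_sandL_relFin hb2 (-a'))).1

set_option linter.unusedVariables false in
/-- (S4) vanishing of `h¹` for large twists. -/
theorem h75_sand_van (he : h75_IsFrame T e) {M L : Submodule K V}
    (hM : h75_IsSandM T e M) (hL : h75_IsSandL T e L) :
    ∃ s₀ : ℕ, ∀ s : ℕ, s₀ ≤ s →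
      h75_Wstd T e ≤ M ⊔ L.map ((T ^ (s : ℤ) : V ≃ₗ[K] V) : V →ₗ[K] V) := by
  obtain ⟨a, ha1, ha2⟩ := hM
  obtain ⟨a', hb1, hb2⟩ := hL
  refine ⟨(a + a' - 1).toNat, fun s hs => ?_⟩
  have h1 : h75_Lstd T e (-a' + (s : ℤ)) ≤ L.map ((T ^ (s : ℤ) : V ≃ₗ[K] V) : V →ₗ[K] V) := by
    rw [← h89_map_Lstd]
    exact Submodule.map_mono hb1
  have h2 : a - 1 ≤ -a' + (s : ℤ) := by omega
  exact (h89_Wstd_le_sup T e h2).trans (sup_le_sup ha1 h1)

/-- (S4') vanishing of `h⁰` for large negative twists. -/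
theorem h75_sand_van' (he : h75_IsFrame T e) {M L : Submodule K V}
    (hM : h75_IsSandM T e M) (hL : h75_IsSandL T e L) :
    ∃ s₀ : ℕ, ∀ s : ℕ, s₀ ≤ s →
      M ⊓ L.map ((T ^ (-(s : ℤ)) : V ≃ₗ[K] V) : V →ₗ[K] V) = ⊥ := by
  obtain ⟨a, ha1, ha2⟩ := hM
  obtain ⟨a', hb1, hb2⟩ := hL
  refine ⟨(a + a' + 1).toNat, fun s hs => ?_⟩
  have h1 : L.map ((T ^ (-(s : ℤ)) : V ≃ₗ[K] V) : V →ₗ[K] V) ≤ h75_Lstd T e (a' + -(s : ℤ)) := by
    rw [← h89_map_Lstd]
    exact Submodule.map_mono hb2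
  have h2 : a' + -(s : ℤ) < -a := by omega
  rw [eq_bot_iff, ← h89_Mstd_inf_Lstd T e he h2]
  exact inf_le_inf ha2 h1

/-- (S5) the index of a twist. -/
theorem h75_sand_twist (he : h75_IsFrame T e) {M L : Submodule K V}
    (hM : h75_IsSandM T e M) (hL : h75_IsSandL T e L) (s : ℤ) :
    h75_chi M (L.map ((T ^ s : V ≃ₗ[K] V) : V →ₗ[K] V)) (h75_Wstd T e) =
      h75_chi M L (h75_Wstd T e) + n * s := by
  obtain ⟨a, ha1, ha2⟩ := hM
  obtain ⟨a', hb1, hb2⟩ := hL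
  have hMW : M ≤ h75_Wstd T e := ha2.trans (h89_Mstd_le_Wstd T e _)
  have hLW : L ≤ h75_Wstd T e := hb2.trans (h89_Lstd_le_Wstd T e _)
  have hMfin : h75_RelFin (h75_Mstd T e a) M := h89_sandM_relFin ha2 a
  have hLfin : h75_RelFin (h75_Lstd T e (-a')) L := h89_sandL_relFin hb2 (-a')
  -- the untwisted pair
  have e0 := (h89_chi_sand he a (-a') ha1 hMW hMfin hb1 hLW hLfin).2
  -- the twisted pair
  have hb1s : h75_Lstd T e (-a' + s) ≤ L.map ((T ^ s : V ≃ₗ[K] V) : V →ₗ[K] V) := by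
    rw [← h89_map_Lstd]
    exact Submodule.map_mono hb1
  have hLWs : L.map ((T ^ s : V ≃ₗ[K] V) : V →ₗ[K] V) ≤ h75_Wstd T e := by
    rw [← h89_map_Wstd T e s]
    exact Submodule.map_mono hLW
  have hLfins : h75_RelFin (h75_Lstd T e (-a' + s))
      (L.map ((T ^ s : V ≃ₗ[K] V) : V →ₗ[K] V)) := by
    rw [← h89_map_Lstd]
    exact h89_relFin_map (T ^ s) hLfin
  have e1 := (h89_chi_sand he a (-a' + s) ha1 hMW hMfin hb1s hLWs hLfins).2
  have hrel : h75_relDim (h75_Lstd T e (-a' + s)) (L.map ((T ^ s : V ≃ₗ[K] V) : V →ₗ[K] V)) =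
      h75_relDim (h75_Lstd T e (-a')) L := by
    rw [← h89_map_Lstd]
    exact h89_relDim_map (T ^ s) _ _
  rw [e1, e0, hrel]
  ring

end Frame

end Fermat.Agent.S18
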