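import Mathlib
import Fermat.Agent.S18.h75_RRDefs
import Fermat.Agent.S18.Tate_Fred

/-!
# S18 / RR-B5 core (helper6): the Euler characteristic of the two-chart triple

Model-independent cores of `h75_chiD_succ`, `h75_chiD_eq`, `h75_chart_van`, with the inputs from
RR-B1 / RR-B3 / RR-B4 / RR-A3 as explicit hypotheses.
-/

set_option autoImplicit false

open AlgebraicCurve IntermediateField

namespace Fermat.Agent.S18

variable {K F : Type*} [Field K] [Field F] [Algebra K F]

/-- natural powers of the multiplication automorphism. -/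
theorem h6_mulEquiv_pow_apply (x : F) (hx : x ≠ 0) (s : ℕ) (y : F) :
    ((h75_mulEquiv K x hx ^ (s : ℤ) : F ≃ₗ[K] F) y) = x ^ s * y := by
  rw [zpow_natCast]
  induction s generalizing y with
  | zero => simp
  | succ n ih =>
    rw [pow_succ, LinearEquiv.mul_apply, ih, h75_mulEquiv_apply, pow_succ]
    ring

/-- Core of `h75_chiD_succ`: adding a place raises `χ` by one (three cases). -/
theorem h6_chiD_succ_core (x : F) (D : Divisor K F) (P : Place K F)
    (hfred : h75_IsFred (h75_chart x D) (h75_chart x⁻¹ D) (h75_overlap x D))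
    (h1 : x ∈ P.toValuationSubring →
      h75_chart x D ≤ h75_chart x (D + Finsupp.single P 1) ∧
      h75_RelFin (h75_chart x D) (h75_chart x (D + Finsupp.single P 1)) ∧
      h75_relDim (h75_chart x D) (h75_chart x (D + Finsupp.single P 1)) = 1)
    (h1' : x⁻¹ ∈ P.toValuationSubring →
      h75_chart x⁻¹ D ≤ h75_chart x⁻¹ (D + Finsupp.single P 1) ∧
      h75_RelFin (h75_chart x⁻¹ D) (h75_chart x⁻¹ (D + Finsupp.single P 1)) ∧
      h75_relDim (h75_chart x⁻¹ D) (h75_chart x⁻¹ (D + Finsupp.single P 1)) = 1)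
    (h2 : x ∉ P.toValuationSubring →
      h75_chart x (D + Finsupp.single P 1) = h75_chart x D)
    (h2' : x⁻¹ ∉ P.toValuationSubring →
      h75_chart x⁻¹ (D + Finsupp.single P 1) = h75_chart x⁻¹ D)
    (h3 : x ∈ P.toValuationSubring → x⁻¹ ∈ P.toValuationSubring →
      h75_overlap x D ≤ h75_overlap x (D + Finsupp.single P 1) ∧
      h75_RelFin (h75_overlap x D) (h75_overlap x (D + Finsupp.single P 1)) ∧
      h75_relDim (h75_overlap x D) (h75_overlap x (D + Finsupp.single P 1)) = 1)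
    (h4 : ¬ (x ∈ P.toValuationSubring ∧ x⁻¹ ∈ P.toValuationSubring) →
      h75_overlap x (D + Finsupp.single P 1) = h75_overlap x D) :
    h75_IsFred (h75_chart x (D + Finsupp.single P 1)) (h75_chart x⁻¹ (D + Finsupp.single P 1))
        (h75_overlap x (D + Finsupp.single P 1)) ∧
      h75_chiD x (D + Finsupp.single P 1) = h75_chiD x D + 1 := by
  unfold h75_chiD
  by_cases hP : x ∈ P.toValuationSubring
  · by_cases hP' : x⁻¹ ∈ P.toValuationSubring
    · -- both charts see `P`
      obtain ⟨hM, hMfin, hMdim⟩ := h1 hP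
      obtain ⟨hL, hLfin, hLdim⟩ := h1' hP'
      obtain ⟨hW, hWfin, hWdim⟩ := h3 hP hP'
      obtain ⟨hf1, hc1⟩ := h75_fred_mono_W hW hWfin hfred
      obtain ⟨hf2, hc2⟩ := h75_fred_mono_M hM (h75_chart_le_overlap x _) hMfin hf1
      obtain ⟨hf3, hc3⟩ := h75_fred_mono_L hL (h75_chart_inv_le_overlap x _) hLfin hf2
      refine ⟨hf3, ?_⟩
      rw [hc3, hc2, hc1, hMdim, hLdim, hWdim]
      push_cast
      ring
    · -- only the chart of `x` sees `P`
      obtain ⟨hM, hMfin, hMdim⟩ := h1 hP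
      rw [h2' hP', h4 (fun h => hP' h.2)]
      obtain ⟨hf2, hc2⟩ := h75_fred_mono_M hM
        (by rw [← h4 (fun h => hP' h.2)]; exact h75_chart_le_overlap x _) hMfin hfred
      refine ⟨hf2, ?_⟩
      rw [hc2, hMdim]
      push_cast
      ring
  · -- only the chart of `x⁻¹` sees `P`
    have hP' : x⁻¹ ∈ P.toValuationSubring :=
      (P.toValuationSubring.mem_or_inv_mem x).resolve_left hP
    obtain ⟨hL, hLfin, hLdim⟩ := h1' hP'
    rw [h2 hP, h4 (fun h => hP h.1)]
    obtain ⟨hf3, hc3⟩ := h75_fred_mono_L hL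
      (by rw [← h4 (fun h => hP h.1)]; exact h75_chart_inv_le_overlap x _) hLfin hfred
    refine ⟨hf3, ?_⟩
    rw [hc3, hLdim]
    push_cast
    ring

/-- Core of `h75_chiD_eq`: `χ(D + n P) = χ(D) + n`. -/
theorem h6_chiD_add_single (x : F)
    (hsucc : ∀ (D : Divisor K F) (P : Place K F),
      h75_chiD x (D + Finsupp.single P 1) = h75_chiD x D + 1)
    (D : Divisor K F) (P : Place K F) (n : ℤ) :
    h75_chiD x (D + Finsupp.single P n) = h75_chiD x D + n := by
  induction n using Int.induction_on with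
  | zero => simp
  | succ n ih =>
    have h1 : D + Finsupp.single P ((n : ℤ) + 1) = D + Finsupp.single P (n : ℤ) + Finsupp.single P 1 := by
      rw [Finsupp.single_add, add_assoc]
    rw [h1, hsucc, ih]
    ring
  | pred n ih =>
    have h1 : D + Finsupp.single P (-(n : ℤ)) =
        D + Finsupp.single P (-(n : ℤ) - 1) + Finsupp.single P 1 := by
      rw [add_assoc, ← Finsupp.single_add]
      congr 2
      ring
    have h2 := hsucc (D + Finsupp.single P (-(n : ℤ) - 1)) P
    rw [← h1, ih] at h2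
    linarith

/-- Core of `h75_chiD_eq`: `χ(D) = χ(0) + deg D` when all places have degree one. -/
theorem h6_chiD_eq_core (x : F)
    (hsucc : ∀ (D : Divisor K F) (P : Place K F),
      h75_chiD x (D + Finsupp.single P 1) = h75_chiD x D + 1)
    (hdeg : ∀ P : Place K F, P.deg = 1) (D : Divisor K F) :
    h75_chiD x D = h75_chiD x (0 : Divisor K F) + Divisor.degree D := by
  induction D using Finsupp.induction with
  | zero => simp
  | single_add P n D _ _ ih =>
    rw [add_comm, h6_chiD_add_single x hsucc, ih, map_add, Divisor.degree_single, hdeg]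
    push_cast
    ring

/-- Core of `h75_chart_van`: from the frame and the vanishing of `H¹` for large twists. -/
theorem h6_chart_van_core (x : F) (hx : x ≠ 0) (D : Divisor K F) {n : ℕ} (e : Fin n → F)
    (hW : h75_Wstd (h75_mulEquiv K x hx) e = h75_overlap x D)
    (hvan : ∃ s₀ : ℕ, ∀ s : ℕ, s₀ ≤ s →
      h75_Wstd (h75_mulEquiv K x hx) e ≤ h75_chart x D ⊔
        (h75_chart x⁻¹ D).map
          ((h75_mulEquiv K x hx ^ (s : ℤ) : F ≃ₗ[K] F) : F →ₗ[K] F)) :
    ∃ s₀ : ℕ, ∀ s : ℕ, s₀ ≤ s → ∀ t ∈ h75_overlap x D,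
      ∃ β ∈ h75_chart x D, ∃ γ ∈ h75_chart x⁻¹ D, t = β + x ^ s * γ := by
  obtain ⟨s₀, hs₀⟩ := hvan
  refine ⟨s₀, fun s hs t ht => ?_⟩
  rw [← hW] at ht
  obtain ⟨β, hβ, y, hy, rfl⟩ := Submodule.mem_sup.mp (hs₀ s hs ht)
  obtain ⟨γ, hγ, rfl⟩ := hy
  refine ⟨β, hβ, γ, hγ, ?_⟩
  rw [LinearEquiv.coe_coe, h6_mulEquiv_pow_apply]

end Fermat.Agent.S18
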