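import Mathlib
import Fermat.Agent.S18.h75_RRDefs
import Fermat.Agent.S18.Tate_Fred
import Fermat.Agent.S18.Tate_Sand
import Fermat.Agent.S18.RR_Index
import Fermat.Agent.S24.h35_Places
import Fermat.Agent.S18.RR_Frame
import Fermat.Agent.S18.h6_RRChiCore

/-!
# S18 / RR-B5 (helper6): the Euler characteristic `χ(D) = χ(0) + deg D`

* `h75_fred_D` : the two-chart triple `(M_x(D), M_{1/x}(D), overlap)` is Fredholm.
* `h75_chiD_succ` : `χ(D + P) = χ(D) + 1`.
* `h75_chiD_eq` : `χ(D) = χ(0) + deg D`.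
* `h75_chart_van` : two-chart `H¹`-vanishing for large twists.
-/

set_option autoImplicit false

open AlgebraicCurve IntermediateField

namespace Fermat.Agent.S18

variable {K F : Type*} [Field K] [Field F] [Algebra K F]

section B5
variable [IsAlgClosed K]

omit [IsAlgClosed K] in
/-- the chart of `x⁻¹` (`K(x⁻¹) = K(x)`). -/
theorem h6_isChart_inv {x : F} (hx : h75_IsChart K x) : h75_IsChart K x⁻¹ := by
  have htr : Transcendental K x⁻¹ := by
    intro h
    apply hx.tr
    have h2 := h.inv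
    rwa [inv_inv] at h2
  have hE : K⟮x⁻¹⟯ = K⟮x⟯ := by
    apply le_antisymm
    · rw [adjoin_simple_le_iff]
      exact inv_mem (mem_adjoin_simple_self K x)
    · rw [adjoin_simple_le_iff]
      have h2 := inv_mem (mem_adjoin_simple_self K x⁻¹)
      rwa [inv_inv] at h2
  refine ⟨htr, ?_, ?_⟩
  · rw [hE]
    exact hx.fin
  · rw [hE]
    exact hx.sep

/-- every place has degree one (S24, characteristic-free). -/
theorem h6_deg_eq_one {x : F} (hx : h75_IsChart K x) (P : Place K F) : P.deg = 1 :=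
  haveI := hx.fin
  Fermat.Agent.S24.h35_deg_eq_one hx.tr P

theorem h75_fred_D {x : F} (hx : h75_IsChart K x) (D : Divisor K F) :
    h75_IsFred (h75_chart x D) (h75_chart x⁻¹ D) (h75_overlap x D) := by
  obtain ⟨e, he, -, hM, hW, hL⟩ := h75_exists_frame hx D
  have hM' : h75_IsSandM (h75_mulEquiv K x hx.ne_zero) e (h75_chart x D) :=
    ⟨0, by rw [hM], by rw [neg_zero, hM]⟩
  have h := h75_sand_fred (h75_mulEquiv K x hx.ne_zero) e he hM' hL
  rw [hW] at h
  exact h

theorem h75_chiD_succ {x : F} (hx : h75_IsChart K x) (D : Divisor K F) (P : Place K F) :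
    h75_chiD x (D + Finsupp.single P 1) = h75_chiD x D + 1 := by
  have hxi : h75_IsChart K x⁻¹ := h6_isChart_inv hx
  refine (h6_chiD_succ_core x D P (h75_fred_D hx D) (fun hP => h75_chart_succ hx D P hP)
    (fun hP' => h75_chart_succ hxi D P hP') (fun hP => h75_chart_succ_of_not x D P hP)
    (fun hP' => h75_chart_succ_of_not x⁻¹ D P hP')
    (fun hP hP' => h75_overlap_succ hx D P hP hP')
    (fun h => h75_overlap_succ_of_not x D P h)).2

theorem h75_chiD_eq {x : F} (hx : h75_IsChart K x) (D : Divisor K F) :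
    h75_chiD x D = h75_chiD x (0 : Divisor K F) + Divisor.degree D :=
  h6_chiD_eq_core x (fun D P => h75_chiD_succ hx D P) (fun P => h6_deg_eq_one hx P) D

/-- two-chart `H¹`-vanishing for large twists (consumer form). -/
theorem h75_chart_van {x : F} (hx : h75_IsChart K x) (D : Divisor K F) :
    ∃ s₀ : ℕ, ∀ s : ℕ, s₀ ≤ s → ∀ t ∈ h75_overlap x D,
      ∃ β ∈ h75_chart x D, ∃ γ ∈ h75_chart x⁻¹ D, t = β + x ^ s * γ := by
  obtain ⟨e, he, -, hM, hW, hL⟩ := h75_exists_frame hx D
  have hM' : h75_IsSandM (h75_mulEquiv K x hx.ne_zero) e (h75_chart x D) :=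
    ⟨0, by rw [hM], by rw [neg_zero, hM]⟩
  exact h6_chart_van_core x hx.ne_zero D e hW
    (h75_sand_van (h75_mulEquiv K x hx.ne_zero) e he hM' hL)

end B5

end Fermat.Agent.S18
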