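import Fermat.Agent.S18.h75_RRDefs
import Fermat.Agent.S24.h35_Places

/-!
# S18 / RR-B8 core (helper68): uniform vanishing of `Ω(x, D)` in large degree

Everything is stated with explicit hypotheses in place of the other RR-B rows
(`hfin` = `h75_finite_ord_ne`, `hex`/`hex'` = `h75_exists_exact` on the two charts,
`hneg` = `h75_rr_eq_bot_of_neg`, `hdual` = `h75_dual`, ...), so that this file only depends on
the landed definitions and on the landed S24 place dictionary.

Mathematics: let `b` be a `K(x)`-basis of `F` consisting of elements integral over `K[x]` and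
`b'` its trace-dual basis.  If `Tr(y b_i) ∈ K[x]` for all `i` then `y = ∑ Tr(y b_i) b'_i`, so the
poles of `y` on the chart `x ≠ ∞` are bounded by those of the `b'_i`.  Applying this to
`y = w f` with `f ∈ M_x(D)` of exact order `-D(P)` at `P` bounds `ord_P w` from below by
`D(P) - E₁(P)`; the same on the chart of `x⁻¹` with `y = x² w f`.  Hence
`Ω(x, D) ⊆ L(E - D)` for a fixed effective divisor `E`, which vanishes for `deg D > deg E`.
-/

set_option autoImplicit false

open AlgebraicCurve IntermediateField Module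

namespace Fermat.Agent.S18

open Fermat.Agent.S24

variable {K F : Type*} [Field K] [Field F] [Algebra K F]

/-- A finite family of functions has poles bounded by an effective divisor. -/
theorem h68_exists_pole_bound
    (hfin : ∀ f : F, f ≠ 0 → {P : Place K F | P.ord f ≠ 0}.Finite)
    {ι : Type*} [Fintype ι] (f : ι → F) :
    ∃ E : Divisor K F, (∀ P : Place K F, 0 ≤ E P) ∧
      ∀ (i : ι) (P : Place K F), P.adicValuation (f i) ≤ WithZero.exp (E P) := by
  classical
  have single : ∀ g : F, ∃ E : Divisor K F, (∀ P : Place K F, 0 ≤ E P) ∧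
      ∀ P : Place K F, P.adicValuation g ≤ WithZero.exp (E P) := by
    intro g
    rcases eq_or_ne g 0 with rfl | hg
    · exact ⟨0, fun P => le_rfl, fun P => by simp⟩
    · refine ⟨Finsupp.onFinset (hfin g hg).toFinset (fun P => max 0 (-P.ord g)) ?_, ?_, ?_⟩
      · intro P hP
        rw [Set.Finite.mem_toFinset]
        show P.ord g ≠ 0
        intro h0
        apply hP
        simp [h0]
      · intro P
        rw [Finsupp.onFinset_apply]
        exact le_max_left _ _
      · intro P
        rw [P.adicValuation_le_exp_iff]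
        right
        rw [Finsupp.onFinset_apply]
        have := le_max_right 0 (-P.ord g)
        omega
  choose E hE0 hE using single
  refine ⟨∑ i, E (f i), fun P => ?_, fun i P => ?_⟩
  · rw [Finsupp.finsetSum_apply]
    exact Finset.sum_nonneg fun i _ => hE0 (f i) P
  · refine (hE (f i) P).trans (WithZero.exp_le_exp.mpr ?_)
    rw [Finsupp.finsetSum_apply]
    exact Finset.single_le_sum (f := fun j => E (f j) P) (fun j _ => hE0 (f j) P)
      (Finset.mem_univ i)

/-- Polynomials in an element of `K(x)` that is regular at `P` are regular at `P`. -/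
theorem h68_adjoin_mem (P : Place K F) {x : F} (g : K⟮x⟯)
    (hg : (g : F) ∈ P.toValuationSubring) (c : K⟮x⟯) (hc : c ∈ Algebra.adjoin K {g}) :
    (c : F) ∈ P.toValuationSubring := by
  have h : Algebra.adjoin K {g} ≤ (h35_placeSubalgebra P).comap (K⟮x⟯.val) := by
    apply Algebra.adjoin_le
    intro z hz
    rw [Set.mem_singleton_iff] at hz
    subst hz
    exact hg
  exact h hc

/-- Multiplying a section on a chart by a function regular on the chart. -/
theorem h68_chart_mul_mem {t : F} {D : Divisor K F} {f g : F} (hf : f ∈ h75_chart t D)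
    (hg : ∀ Q : Place K F, t ∈ Q.toValuationSubring → g ∈ Q.toValuationSubring) :
    f * g ∈ h75_chart t D := by
  intro Q hQ
  rw [map_mul]
  exact (mul_le_of_le_one_right' (Q.adicValuation_le_one_of_mem (hg Q hQ))).trans (hf Q hQ)

/-- A `K(x)`-basis of `F` whose members are integral over `K[t]` (`t ∈ K(x)`). -/
theorem h68_exists_integral_basis {x : F} [FiniteDimensional K⟮x⟯ F] (t : F) (ht : t ∈ K⟮x⟯)
    (halg : ∀ f : F, IsAlgebraic (Algebra.adjoin K {t}) f) :
    ∃ b : Basis (Fin (Module.finrank K⟮x⟯ F)) K⟮x⟯ F,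
      ∀ i, IsIntegral (Algebra.adjoin K {t}) (b i) := by
  classical
  let b0 : Basis (Fin (Module.finrank K⟮x⟯ F)) K⟮x⟯ F := Module.finBasis K⟮x⟯ F
  have hle : Algebra.adjoin K {t} ≤ K⟮x⟯.toSubalgebra :=
    Algebra.adjoin_le (Set.singleton_subset_iff.mpr ht)
  have hex : ∀ i, ∃ d : Algebra.adjoin K {t}, d ≠ 0 ∧
      IsIntegral (Algebra.adjoin K {t}) (d • b0 i) := fun i =>
    (halg (b0 i)).exists_integral_multiple
  choose d hd0 hdint using hex
  have hdne : ∀ i, (⟨(d i : F), hle (d i).2⟩ : K⟮x⟯) ≠ 0 := by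
    intro i h
    apply hd0 i
    have h' : (d i : F) = 0 := congrArg Subtype.val h
    exact Subtype.ext h'
  refine ⟨b0.unitsSMul (fun i => Units.mk0 _ (hdne i)), fun i => ?_⟩
  rw [Basis.unitsSMul_apply]
  exact hdint i

/-- The trace-dual bound: if `Tr(y bᵢ) ∈ K[g]` for all `i` and `g` is regular at `P`, then the
valuation of `y` at `P` is bounded by that of the dual basis. -/
theorem h68_dual_bound {x : F} [FiniteDimensional K⟮x⟯ F] [Algebra.IsSeparable K⟮x⟯ F]
    {ι : Type*} [Fintype ι] [DecidableEq ι] (b : Basis ι K⟮x⟯ F) (g : K⟮x⟯) (y : F)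
    (hy : ∀ i, Algebra.trace K⟮x⟯ F (y * b i) ∈ Algebra.adjoin K {g})
    (P : Place K F) (hg : (g : F) ∈ P.toValuationSubring) (n : ℤ)
    (hn : ∀ i, P.adicValuation
      ((Algebra.traceForm K⟮x⟯ F).dualBasis (traceForm_nondegenerate K⟮x⟯ F) b i) ≤
        WithZero.exp n) :
    P.adicValuation y ≤ WithZero.exp n := by
  have hsum : y = ∑ i, Algebra.trace K⟮x⟯ F (y * b i) •
      (Algebra.traceForm K⟮x⟯ F).dualBasis (traceForm_nondegenerate K⟮x⟯ F) b i := by
    conv_lhs => rw [← ((Algebra.traceForm K⟮x⟯ F).dualBasis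
      (traceForm_nondegenerate K⟮x⟯ F) b).sum_repr y]
    refine Finset.sum_congr rfl fun i _ => ?_
    rw [LinearMap.BilinForm.dualBasis_repr_apply, Algebra.traceForm_apply]
  rw [hsum]
  refine Valuation.map_sum_le _ fun i _ => ?_
  rw [Algebra.smul_def, map_mul]
  have h1 : P.adicValuation (algebraMap K⟮x⟯ F (Algebra.trace K⟮x⟯ F (y * b i))) ≤ 1 :=
    P.adicValuation_le_one_of_mem (h68_adjoin_mem P g hg _ (hy i))
  exact (mul_le_of_le_one_left' h1).trans (hn i)

/-- The hypothesis shape of `h75_exists_exact` on the chart of `t`. -/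
def h68_HasExact (K : Type*) {F : Type*} [Field K] [Field F] [Algebra K F] (t : F) : Prop :=
  ∀ (S : Finset (Place K F)), (∀ P ∈ S, t ∈ P.toValuationSubring) → ∀ n : Place K F → ℤ,
    ∃ f : F, f ≠ 0 ∧ (∀ P ∈ S, P.ord f = n P) ∧
      ∀ P : Place K F, t ∈ P.toValuationSubring → P ∉ S → 0 ≤ P.ord f

/-- On a chart with exact approximation there is a nonzero section of `M_t(D)` of exact order
`-D(P)` at a given place `P` of the chart. -/
theorem h68_exists_section {t : F} (hex : h68_HasExact K t) (D : Divisor K F) (P : Place K F)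
    (hP : t ∈ P.toValuationSubring) :
    ∃ f : F, f ≠ 0 ∧ f ∈ h75_chart t D ∧ P.ord f = -D P := by
  classical
  obtain ⟨f, hf0, hfS, hfout⟩ :=
    hex ((insert P D.support).filter (fun Q => t ∈ Q.toValuationSubring))
      (fun Q hQ => (Finset.mem_filter.mp hQ).2) (fun Q => -D Q)
  refine ⟨f, hf0, ?_, hfS P (Finset.mem_filter.mpr ⟨Finset.mem_insert_self _ _, hP⟩)⟩
  rw [h75_mem_chart_iff]
  intro Q hQ
  right
  by_cases hQS : Q ∈ (insert P D.support).filter (fun Q => t ∈ Q.toValuationSubring)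
  · rw [hfS Q hQS]
  · have hQD : D Q = 0 := by
      by_contra h
      exact hQS (Finset.mem_filter.mpr
        ⟨Finset.mem_insert_of_mem (Finsupp.mem_support_iff.mpr h), hQ⟩)
    rw [hQD, neg_zero]
    exact hfout Q hQ hQS

/-- **Core of RR-B8.** `Ω(x, D) ⊆ L(E - D)` for a fixed divisor `E`. -/
theorem h68_Omega_le_rr {x : F} (hx : h75_IsChart K x)
    (hfin : ∀ f : F, f ≠ 0 → {P : Place K F | P.ord f ≠ 0}.Finite)
    (hex : h68_HasExact K x) (hex' : h68_HasExact K x⁻¹) :
    ∃ E : Divisor K F, ∀ D : Divisor K F, h75_Omega x D ≤ riemannRochSpace (E - D) := by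
  classical
  have _hfd : FiniteDimensional K⟮x⟯ F := hx.fin
  have _hsep : Algebra.IsSeparable K⟮x⟯ F := hx.sep
  have halg : ∀ f : F, IsAlgebraic (Algebra.adjoin K {x}) f := fun f =>
    isAlgebraic_adjoin_iff.mp (Algebra.IsAlgebraic.isAlgebraic f)
  have halg' : ∀ f : F, IsAlgebraic (Algebra.adjoin K {x⁻¹}) f := by
    have key : ∀ E : IntermediateField K F, E = K⟮x⟯ → ∀ f : F, IsAlgebraic E f := by
      rintro E rfl f
      exact Algebra.IsAlgebraic.isAlgebraic f
    intro f
    exact isAlgebraic_adjoin_iff.mp (key _ (h35_adjoin_inv x) f)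
  obtain ⟨b, hb⟩ := h68_exists_integral_basis (x := x) x (mem_adjoin_simple_self K x) halg
  obtain ⟨c, hc⟩ := h68_exists_integral_basis (x := x) x⁻¹
    (K⟮x⟯.inv_mem (mem_adjoin_simple_self K x)) halg'
  obtain ⟨E1, hE1nn, hE1⟩ := h68_exists_pole_bound hfin
    (fun i => (Algebra.traceForm K⟮x⟯ F).dualBasis (traceForm_nondegenerate K⟮x⟯ F) b i)
  obtain ⟨E2, hE2nn, hE2⟩ := h68_exists_pole_bound hfin
    (fun i => (Algebra.traceForm K⟮x⟯ F).dualBasis (traceForm_nondegenerate K⟮x⟯ F) c i)
  refine ⟨E1 + E2, fun D w hw => ?_⟩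
  rw [mem_riemannRochSpace_iff]
  intro P
  by_cases hw0 : w = 0
  · exact Or.inl hw0
  right
  have hw' : (∀ m ∈ h75_chart x D, Algebra.trace K⟮x⟯ F (w * m) ∈ h75_poly K x) ∧
      (∀ l ∈ h75_chart x⁻¹ D,
        AdjoinSimple.gen K x ^ 2 * Algebra.trace K⟮x⟯ F (w * l) ∈ h75_polyInv K x) := hw
  obtain ⟨hw1, hw2⟩ := hw'
  have hgoal : -(E1 + E2 - D) P = D P - E1 P - E2 P := by
    simp only [Finsupp.coe_sub, Finsupp.coe_add, Pi.sub_apply, Pi.add_apply]
    ring
  rw [hgoal]
  by_cases hP : x ∈ P.toValuationSubring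
  · -- the chart `x ≠ ∞`
    obtain ⟨f, hf0, hfD, hfP⟩ := h68_exists_section hex D P hP
    have hy : ∀ i, Algebra.trace K⟮x⟯ F ((w * f) * b i) ∈
        Algebra.adjoin K {AdjoinSimple.gen K x} := by
      intro i
      have hm : f * b i ∈ h75_chart x D :=
        h68_chart_mul_mem hfD (fun Q hQ => h35_integral_mem Q hQ (hb i))
      have h := hw1 (f * b i) hm
      rw [← mul_assoc] at h
      exact h
    have hval := h68_dual_bound b (AdjoinSimple.gen K x) (w * f) hy P
      (by rw [AdjoinSimple.coe_gen]; exact hP) (E1 P) (fun i => hE1 i P)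
    rw [P.adicValuation_le_exp_iff] at hval
    rcases hval with h0 | hval
    · exact absurd h0 (mul_ne_zero hw0 hf0)
    · rw [P.ord_mul hw0 hf0, hfP] at hval
      have := hE2nn P
      linarith
  · -- the chart `x ≠ 0`
    have hP' : x⁻¹ ∈ P.toValuationSubring :=
      (P.toValuationSubring.mem_or_inv_mem x).resolve_left hP
    have hx0 : x ≠ 0 := hx.ne_zero
    have hordx : P.ord x < 0 := by
      have := (h35_mem_iff_ord_nonneg P hx0).not.mp hP
      omega
    obtain ⟨f, hf0, hfD, hfP⟩ := h68_exists_section hex' D P hP'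
    have hy : ∀ i, Algebra.trace K⟮x⟯ F ((x ^ 2 * (w * f)) * c i) ∈
        Algebra.adjoin K {(AdjoinSimple.gen K x)⁻¹} := by
      intro i
      have hm : f * c i ∈ h75_chart x⁻¹ D :=
        h68_chart_mul_mem hfD (fun Q hQ => h35_integral_mem Q hQ (hc i))
      have h := hw2 (f * c i) hm
      have e : x ^ 2 * (w * f) * c i = (AdjoinSimple.gen K x ^ 2) • (w * (f * c i)) := by
        rw [Algebra.smul_def]
        show x ^ 2 * (w * f) * c i = ((AdjoinSimple.gen K x ^ 2 : K⟮x⟯) : F) * (w * (f * c i))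
        rw [IntermediateField.coe_pow, AdjoinSimple.coe_gen]
        ring
      rw [e, map_smul, smul_eq_mul]
      exact h
    have hval := h68_dual_bound c (AdjoinSimple.gen K x)⁻¹ (x ^ 2 * (w * f)) hy P
      (by rw [IntermediateField.coe_inv, AdjoinSimple.coe_gen]; exact hP') (E2 P)
      (fun i => hE2 i P)
    rw [P.adicValuation_le_exp_iff] at hval
    rcases hval with h0 | hval
    · exact absurd h0 (mul_ne_zero (pow_ne_zero 2 hx0) (mul_ne_zero hw0 hf0))
    · rw [P.ord_mul (pow_ne_zero 2 hx0) (mul_ne_zero hw0 hf0), P.ord_mul hw0 hf0, hfP,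
        pow_two, P.ord_mul hx0 hx0] at hval
      have := hE1nn P
      linarith

/-- **RR-B8, first half (core).** Uniform vanishing of `Ω(x, D)` in large degree. -/
theorem h68_Omega_eq_bot_core {x : F} (hx : h75_IsChart K x)
    (hfin : ∀ f : F, f ≠ 0 → {P : Place K F | P.ord f ≠ 0}.Finite)
    (hex : h68_HasExact K x) (hex' : h68_HasExact K x⁻¹)
    (hneg : ∀ D : Divisor K F, Divisor.degree D < 0 → riemannRochSpace D = ⊥) :
    ∃ c : ℤ, ∀ D : Divisor K F, c ≤ Divisor.degree D → h75_Omega x D = ⊥ := by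
  obtain ⟨E, hE⟩ := h68_Omega_le_rr hx hfin hex hex'
  refine ⟨Divisor.degree E + 1, fun D hD => ?_⟩
  have hdeg : Divisor.degree (E - D) < 0 := by
    rw [map_sub]
    linarith
  rw [eq_bot_iff, ← hneg (E - D) hdeg]
  exact hE D

/-- **RR-B8, second half (core).** Riemann–Roch in the range where `Ω(x, D)` vanishes. -/
theorem h68_rr_core {x : F} (c : ℤ)
    (hΩ : ∀ D : Divisor K F, c ≤ Divisor.degree D → h75_Omega x D = ⊥)
    (hdual : ∀ D : Divisor K F, Module.finrank K ↥(h75_Omega x D) =
      h75_relDim (h75_chart x D ⊔ h75_chart x⁻¹ D) (h75_overlap x D))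
    (hchi : ∀ D : Divisor K F,
      h75_chiD x D = h75_chiD x (0 : Divisor K F) + Divisor.degree D)
    (hchi0 : h75_chiD x (0 : Divisor K F) = 1 - (h75_genus K x : ℤ))
    (hrr : ∀ D : Divisor K F, riemannRochSpace D = h75_chart x D ⊓ h75_chart x⁻¹ D)
    (D : Divisor K F) (hD : c ≤ Divisor.degree D) :
    (Module.finrank K ↥(riemannRochSpace D) : ℤ) =
      Divisor.degree D + 1 - (h75_genus K x : ℤ) := by
  have h1 : h75_relDim (h75_chart x D ⊔ h75_chart x⁻¹ D) (h75_overlap x D) = 0 := by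
    rw [← hdual D, hΩ D hD]
    exact finrank_bot K F
  have e : h75_chiD x D =
      (Module.finrank K ↥(h75_chart x D ⊓ h75_chart x⁻¹ D) : ℤ) -
        (h75_relDim (h75_chart x D ⊔ h75_chart x⁻¹ D) (h75_overlap x D) : ℤ) := rfl
  rw [h1, Nat.cast_zero, sub_zero] at e
  rw [hrr D, ← e, hchi D, hchi0]
  ring

end Fermat.Agent.S18
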