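import Fermat.Agent.S18.RR_Chart
import Fermat.Agent.S18.RR_Approx
import Fermat.Agent.S18.RR_Chi
import Fermat.Agent.S18.RR_Riemann
import Fermat.Agent.S18.RR_Dual
import Fermat.Agent.S18.h68_RRLargeCore

/-!
# S18 / RR-B8: uniform vanishing of `Ω(x, D)` and Riemann–Roch in large degree

Wrapper: the two skeleton statements from the core `h68_RRLargeCore` and the landed rows
RR-B1, B2, B5, B6, B7.
-/

set_option autoImplicit false

open AlgebraicCurve IntermediateField

namespace Fermat.Agent.S18

variable {K F : Type*} [Field K] [Field F] [Algebra K F]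

section B8
variable [IsAlgClosed K]

theorem h75_Omega_eq_bot {x : F} (hx : h75_IsChart K x) :
    ∃ c : ℤ, ∀ D : Divisor K F, c ≤ Divisor.degree D → h75_Omega x D = ⊥ :=
  h68_Omega_eq_bot_core hx (fun f hf => h75_finite_ord_ne hx f hf)
    (fun S hS n => h75_exists_exact hx S hS n)
    (fun S hS n => h75_exists_exact (h75_isChart_inv hx) S hS n)
    (fun D hD => h75_rr_eq_bot_of_neg hx D hD)

theorem h75_rr {x : F} (hx : h75_IsChart K x) :
    ∃ c : ℤ, ∀ D : Divisor K F, c ≤ Divisor.degree D →
      (Module.finrank K ↥(riemannRochSpace D) : ℤ) =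
        Divisor.degree D + 1 - (h75_genus K x : ℤ) := by
  obtain ⟨c, hc⟩ := h75_Omega_eq_bot hx
  exact ⟨c, fun D hD => h68_rr_core c hc (fun D => (h75_dual hx D).2)
    (fun D => h75_chiD_eq hx D) (h75_chiD_zero hx) (fun D => h75_rrSpace_eq x D) D hD⟩

end B8

end Fermat.Agent.S18
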