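import Fermat.Agent.S18.RR_Riemann
import Fermat.Agent.S18.RR_Large
import Fermat.Agent.S18.Defs
import Fermat.Agent.S24.h35_Places

/-!
# S18 / GR4a: `L(n (x)_∞)`, its dimension, independence of the genus of the chart

Generic (no reduction); `K` algebraically closed of any characteristic, `x` a chart.
The last two statements of the row (`h39_holo_le_Omega`, `h39_holo_eq_Omega`) are in
`GR_LxHolo.lean` (they need RR-B9).
-/

set_option autoImplicit false

open AlgebraicCurve IntermediateField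

namespace Fermat.Agent.S18

variable {K F : Type*} [Field K] [Field F] [Algebra K F]

section GR4a
variable [IsAlgClosed K] {x : F}

/-- The pole divisor of the chart function. -/
theorem h7_exists_poleDiv (hx : h75_IsChart K x) :
    ∃ E : Divisor K F, (∀ P : Place K F, E P = max (-P.ord x) 0) ∧
      Divisor.degree E = (Module.finrank K⟮x⟯ F : ℤ) := by
  classical
  obtain ⟨Dx, hDx⟩ := h7_exists_div hx x hx.ne_zero
  refine ⟨Dx.mapRange (fun n : ℤ => max (-n) 0) (by simp), fun P => by
    rw [Finsupp.mapRange_apply, hDx], ?_⟩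
  have hE : ∀ P : Place K F, (Dx.mapRange (fun n : ℤ => max (-n) 0) (by simp)) P
      = max (-P.ord x) 0 := fun P => by rw [Finsupp.mapRange_apply, hDx]
  have hinv := h75_isChart_inv hx
  have hfin := h75_fibre_finite hinv (0 : K)
  have hsum := h75_fibre_sum hinv (0 : K) hfin.toFinset (fun P => by
    rw [Set.Finite.mem_toFinset]; rfl)
  have hx' := hx.fin
  obtain ⟨-, hrank⟩ := Fermat.Agent.S24.h35_finrank_congr
    (Fermat.Agent.S24.h35_adjoin_inv (K := K) x).symm
  rw [hrank] at hsum
  rw [← hsum, h7_degree_eq_sum]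
  have hsupp : (Dx.mapRange (fun n : ℤ => max (-n) 0) (by simp)).support = hfin.toFinset := by
    ext P
    rw [Finsupp.mem_support_iff, hE, Set.Finite.mem_toFinset, Set.mem_ofPred_eq, map_zero,
      sub_zero, P.ord_inv]
    constructor
    · intro h
      by_contra hcon
      exact h (max_eq_right (by omega))
    · intro h hcon
      have := le_max_left (-P.ord x) 0
      omega
  rw [hsupp]
  refine Finset.sum_congr rfl fun P hP => ?_
  rw [Set.Finite.mem_toFinset, Set.mem_ofPred_eq, map_zero, sub_zero, P.ord_inv] at hP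
  rw [hE, h75_deg_eq_one hx P, map_zero, sub_zero, P.ord_inv, max_eq_left (by omega)]
  simp

/-- `L(n (x)_∞)` as a Riemann–Roch space. -/
theorem h7_Lx_eq_rr (E : Divisor K F) (hE : ∀ P : Place K F, E P = max (-P.ord x) 0)
    (n : ℕ) : h39_Lx K x n = riemannRochSpace (n • E) := by
  ext f
  rw [h39_mem_Lx_iff, mem_riemannRochSpace_iff]
  refine forall_congr' fun P => ?_
  rw [Finsupp.smul_apply, hE P, nsmul_eq_mul]
  constructor
  · rintro ⟨h1, h2⟩
    rcases lt_or_ge (P.ord x) 0 with hx | hx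
    · rcases h2 hx with h | h
      · exact Or.inl h
      · refine Or.inr ?_
        rw [max_eq_left (by omega)]
        linarith
    · rcases h1 hx with h | h
      · exact Or.inl h
      · refine Or.inr ?_
        rw [max_eq_right (by omega)]
        simpa using h
  · intro h
    refine ⟨fun hx => ?_, fun hx => ?_⟩
    · rcases h with h | h
      · exact Or.inl h
      · refine Or.inr ?_
        rw [max_eq_right (by omega)] at h
        simpa using h
    · rcases h with h | h
      · exact Or.inl h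
      · refine Or.inr ?_
        rw [max_eq_left (by omega)] at h
        linarith

theorem h39_Lx_mono (x : F) {m n : ℕ} (h : m ≤ n) : h39_Lx K x m ≤ h39_Lx K x n := by
  intro f hf
  rw [h39_mem_Lx_iff] at hf ⊢
  intro P
  refine ⟨(hf P).1, fun hx => ?_⟩
  rcases (hf P).2 hx with h0 | h0
  · exact Or.inl h0
  · refine Or.inr (le_trans ?_ h0)
    have h1 : (m : ℤ) ≤ (n : ℤ) := by exact_mod_cast h
    nlinarith

theorem h39_finite_Lx (hx : h75_IsChart K x) (n : ℕ) : Module.Finite K (h39_Lx K x n) := by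
  obtain ⟨E, hE, -⟩ := h7_exists_poleDiv hx
  rw [h7_Lx_eq_rr E hE n]
  exact (h75_riemann hx (n • E)).1

/-- Dimension of `L(n (x)_∞)` for large `n`. -/
theorem h39_finrank_Lx (hx : h75_IsChart K x) :
    ∃ n₁ : ℕ, ∀ n : ℕ, n₁ ≤ n → Module.Finite K (h39_Lx K x n) ∧
      (Module.finrank K (h39_Lx K x n) : ℤ) =
        n * Module.finrank K⟮x⟯ F + 1 - h75_genus K x := by
  obtain ⟨E, hE, hdeg⟩ := h7_exists_poleDiv hx
  obtain ⟨c, hc⟩ := h75_rr hx
  have hpos : 0 < Module.finrank K⟮x⟯ F := by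
    have := hx.fin
    exact Module.finrank_pos
  refine ⟨c.toNat, fun n hn => ⟨h39_finite_Lx hx n, ?_⟩⟩
  rw [h7_Lx_eq_rr E hE n]
  have hdn : Divisor.degree (n • E) = n * (Module.finrank K⟮x⟯ F : ℤ) := by
    rw [map_nsmul, hdeg, nsmul_eq_mul]
  rw [hc (n • E) ?_, hdn]
  rw [hdn]
  have h1 : c ≤ (n : ℤ) := by
    have := Int.self_le_toNat c
    have h2 : (c.toNat : ℤ) ≤ (n : ℤ) := by exact_mod_cast hn
    linarith
  have h3 : (1 : ℤ) ≤ (Module.finrank K⟮x⟯ F : ℤ) := by exact_mod_cast hpos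
  have h4 : (0 : ℤ) ≤ (n : ℤ) := Int.natCast_nonneg n
  nlinarith

/-- every function regular on the chart `x` lies in some `L(n (x)_∞)` -/
theorem h39_exists_mem_Lx (hx : h75_IsChart K x) (f : F)
    (hf : ∀ P : Place K F, x ∈ P.toValuationSubring → f ∈ P.toValuationSubring) :
    ∃ n : ℕ, f ∈ h39_Lx K x n := by
  classical
  rcases eq_or_ne f 0 with rfl | hf0
  · exact ⟨0, Submodule.zero_mem _⟩
  obtain ⟨Df, hDf⟩ := h7_exists_div hx f hf0
  refine ⟨∑ P ∈ Df.support, (Df P).natAbs, ?_⟩
  rw [h39_mem_Lx_iff]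
  intro P
  refine ⟨fun hxP => ?_, fun hxP => Or.inr ?_⟩
  · have hmem : x ∈ P.toValuationSubring :=
      (Fermat.Agent.S24.h35_mem_iff_ord_nonneg P hx.ne_zero).mpr hxP
    exact Or.inr (Fermat.Agent.S24.h35_ord_nonneg_of_mem P (hf P hmem))
  · by_cases hP : P ∈ Df.support
    · have h1 : (Df P).natAbs ≤ ∑ Q ∈ Df.support, (Df Q).natAbs :=
        Finset.single_le_sum (f := fun Q => (Df Q).natAbs) (fun _ _ => Nat.zero_le _) hP
      have h2 : ((Df P).natAbs : ℤ) ≤ ((∑ Q ∈ Df.support, (Df Q).natAbs : ℕ) : ℤ) := by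
        exact_mod_cast h1
      have h3 : -((Df P).natAbs : ℤ) ≤ Df P := by
        have h' := neg_abs_le (Df P)
        rwa [Int.abs_eq_natAbs] at h' 
      rw [← hDf P]
      nlinarith
    · rw [Finsupp.notMem_support_iff] at hP
      rw [← hDf P, hP]
      have h4 : (0 : ℤ) ≤ ((∑ Q ∈ Df.support, (Df Q).natAbs : ℕ) : ℤ) := Int.natCast_nonneg _
      nlinarith

/-- The genus does not depend on the chart. -/
theorem h39_genus_eq_of_charts {x y : F} (hx : h75_IsChart K x) (hy : h75_IsChart K y) :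
    h75_genus K x = h75_genus K y := by
  obtain ⟨E, hE, hdeg⟩ := h7_exists_poleDiv hx
  obtain ⟨c, hc⟩ := h75_rr hx
  obtain ⟨c', hc'⟩ := h75_rr hy
  have hpos : 0 < Module.finrank K⟮x⟯ F := by
    have := hx.fin
    exact Module.finrank_pos
  set n : ℕ := (max c c').toNat with hn
  have hdn : Divisor.degree (n • E) = n * (Module.finrank K⟮x⟯ F : ℤ) := by
    rw [map_nsmul, hdeg, nsmul_eq_mul]
  have h1 : max c c' ≤ (n : ℤ) := Int.self_le_toNat _
  have h3 : (1 : ℤ) ≤ (Module.finrank K⟮x⟯ F : ℤ) := by exact_mod_cast hpos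
  have h4 : (0 : ℤ) ≤ (n : ℤ) := Int.natCast_nonneg n
  have h5 : (n : ℤ) ≤ Divisor.degree (n • E) := by rw [hdn]; nlinarith
  have e1 := hc (n • E) ((le_max_left c c').trans (h1.trans h5))
  have e2 := hc' (n • E) ((le_max_right c c').trans (h1.trans h5))
  have : (h75_genus K x : ℤ) = (h75_genus K y : ℤ) := by linarith
  exact_mod_cast this

end GR4a

end Fermat.Agent.S18
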