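import Fermat.Agent.S18.h53_GlueDagger
import Fermat.Agent.S18.GR_Genus
import Fermat.Agent.S18.GR_GenusEq
import Fermat.Agent.S18.GR_LxDim

/-!
# S18 / [GR-PL] row PL5: the reduction map `r0` on all places and (6)

`h39_exists_r0` (verbatim from the GR skeleton, section GR6): for a chart `x`, the chart
reductions of `x` (on the disc `x(P) ∈ A`) and of `x⁻¹` (elsewhere) glue to a map `r0` on places
with `r0_* div y = div ȳ` for all units `y` of `O`.
-/

set_option autoImplicit false

noncomputable section

open AlgebraicCurve IntermediateField Polynomial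

namespace Fermat.Agent.S18

variable {K F k Fb : Type*} [Field K] [Field F] [Algebra K F] [Field k] [Field Fb] [Algebra k Fb]

section PL5

variable [IsAlgClosed K] [CharZero K] [IsAlgClosed k]
variable (R : h39_RedDatum K F k Fb) {x : F}

/-- (†) for the chart `x⁻¹` of a chart `x`: the genus equality transfers by independence of
the genus of the chart. -/
theorem h53_genus_eq_inv (hx : h39_Chart R x) :
    h75_genus k (R.redF x⁻¹) = h75_genus K x⁻¹ := by
  have hw : h39_WeakChart R x := hx.toh39_WeakChart
  have hw' : h39_WeakChart R x⁻¹ := h39_weakChart_inv R hw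
  have hxK : h75_IsChart K x := h39_weakChart_isChart R hw
  have hxk : h75_IsChart k (R.redF x) := h39_weakChart_isChart_red R hw
  have hxK' : h75_IsChart K x⁻¹ := h39_weakChart_isChart R hw'
  have hxk' : h75_IsChart k (R.redF x⁻¹) := h39_weakChart_isChart_red R hw'
  rw [h39_genus_eq_of_charts hxk' hxk, h39_genus_eq R hx, h39_genus_eq_of_charts hxK hxK']

theorem h39_exists_r0 (hx : h39_Chart R x) :
    ∃ r0 : Place K F → Place k Fb,
      (∃ r : Place K F → Place k Fb, h39_IsChartRed R x r ∧
        ∀ P : Place K F, h39_InDisc R x P → r0 P = r P) ∧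
      (∃ r' : Place K F → Place k Fb, h39_IsChartRed R x⁻¹ r' ∧
        ∀ P : Place K F, ¬ h39_InDisc R x P → r0 P = r' P) ∧
      ∀ (y : F) (hy : y ∈ R.O), R.red ⟨y, hy⟩ ≠ 0 → ∀ D : Divisor K F,
        (∀ P, D P = P.ord y) → ∀ Q : Place k Fb,
          Finsupp.mapDomain r0 D Q = Q.ord (R.red ⟨y, hy⟩) := by
  have hw : h39_WeakChart R x := hx.toh39_WeakChart
  have hw' : h39_WeakChart R x⁻¹ := h39_weakChart_inv R hw
  exact h53_exists_r0_of_dagger R hw (h39_lift_integral R hw (h39_genus_eq R hx))
    (h39_lift_integral R hw' (h53_genus_eq_inv R hx))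

end PL5

end Fermat.Agent.S18

end
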