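import Fermat.Agent.S18.h32_PlaceRedCore
import Fermat.Agent.S18.GR_Glue
import Fermat.Agent.S18.RR_Riemann
import Fermat.Agent.S18.RR_Large
import Fermat.Agent.S18.GR_GenusEq
import Fermat.Agent.S18.GR_ON

/-!
# S18 / [GR]: a chart gives a place reduction (wrapper, owner helper39)

`h39_placeRed_of_chart` : for a chart `x` of a reduction datum `R` there is a place reduction
`S : h39_PlaceRed R` ((6) and (✱)), whose map `S.r0` is the chart reduction of `x` on the unit disc
of `x` and the chart reduction of `x⁻¹` elsewhere.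
-/

set_option autoImplicit false

noncomputable section

open AlgebraicCurve IntermediateField

namespace Fermat.Agent.S18

variable {K F k Fb : Type*} [Field K] [Field F] [Algebra K F] [Field k] [Field Fb] [Algebra k Fb]

theorem h39_placeRed_of_chart [IsAlgClosed K] [CharZero K] [IsAlgClosed k]
    (R : h39_RedDatum K F k Fb) {x : F} (hx : h39_Chart R x) :
    ∃ S : h39_PlaceRed R,
      (∃ r : Place K F → Place k Fb, h39_IsChartRed R x r ∧
        ∀ P : Place K F, h39_InDisc R x P → S.r0 P = r P) ∧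
      (∃ r' : Place K F → Place k Fb, h39_IsChartRed R x⁻¹ r' ∧
        ∀ P : Place K F, ¬ h39_InDisc R x P → S.r0 P = r' P) := by
  have hw : h39_WeakChart R x := hx.toh39_WeakChart
  have hxK : h75_IsChart K x := h39_weakChart_isChart R hw
  have hxk : h75_IsChart k (R.redF x) := h39_weakChart_isChart_red R hw
  have hP : HasPrincipalDivisors K F := h75_hasPrincipalDivisors hxK
  obtain ⟨r0, ⟨r, hr, hr0⟩, ⟨r', hr', hr0'⟩, h6⟩ := h39_exists_r0 R hx
  obtain ⟨cK, hcK⟩ := h75_rr hxK
  obtain ⟨ck, hck⟩ := h75_rr hxk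
  have hg : h75_genus k (R.redF x) = h75_genus K x := h39_genus_eq R hx
  obtain ⟨S, hS⟩ := h32_placeRed_core R (h75_deg_eq_one hxK) (h75_deg_eq_one hxk)
    (fun D => (h75_riemann hxK D).1) (fun D => (h75_riemann hxk D).1)
    (h75_genus K x : ℤ) cK ck hcK (fun D hD => by rw [hck D hD, hg])
    (fun V _ W _ h hd => h39_red_surjective_of_finrank R hw V W h hd) r0 h6
    (h32_two R hw.mem hxK r0 r hr hr0)
  exact ⟨S, ⟨r, hr, fun P hP => by rw [hS]; exact hr0 P hP⟩,
    ⟨r', hr', fun P hP => by rw [hS]; exact hr0' P hP⟩⟩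

theorem h39_nonempty_placeRed_of_chart [IsAlgClosed K] [CharZero K] [IsAlgClosed k]
    (R : h39_RedDatum K F k Fb) {x : F} (hx : h39_Chart R x) : Nonempty (h39_PlaceRed R) := by
  obtain ⟨S, -⟩ := h39_placeRed_of_chart R hx
  exact ⟨S⟩

end Fermat.Agent.S18

end
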