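import Fermat.Agent.S18.Defs
import Fermat.Agent.S18.h39_GRDefs
import Fermat.Agent.S18.GR_RedAPI
import Fermat.Agent.S18.RR_Chart
import Fermat.Agent.S18.GR_ChartPt
import Fermat.Agent.S18.h53_CoreBasic

/-!
# S18 / [GR-PL] row PL6, core (helper32): from `r0` with (6) to the structure `h39_PlaceRed`

The inputs which are separate rows (Riemann–Roch in large degree on both sides, equality of the
genera, "equal dimensions force surjectivity of the reduction", the map `r0` with (6)) are
explicit hypotheses here; `GR_PlaceRed.lean` plugs in the real theorems.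

* `h32_red_mem_L` : (i) reduction maps `L(D) ∩ O` into `L(r0_* D)`;
* `h32_degree_mapDomain` : (ii) `deg (r0_* D) = deg D` when all places have degree one;
* `h32_placeRed_core` : (✱) and the structure;
* `h32_chartRed_over` : a chart reduction maps places over `x = a` to places over `x̄ = res a`;
* `h32_exists_fibre` : the fibre of a chart over `x = a` is nonempty;
* `h32_two` : the reduction map takes two distinct values.
-/

set_option autoImplicit false

noncomputable section

open AlgebraicCurve IntermediateField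

namespace Fermat.Agent.S18

variable {K F k Fb : Type*} [Field K] [Field F] [Algebra K F] [Field k] [Field Fb] [Algebra k Fb]

/-- (i) reduction maps `L(D) ∩ O` into `L(r0_* D)`, by (6). -/
theorem h32_red_mem_L [HasPrincipalDivisors K F] (R : h39_RedDatum K F k Fb)
    (r0 : Place K F → Place k Fb)
    (h6 : ∀ (y : F) (hy : y ∈ R.O), R.red ⟨y, hy⟩ ≠ 0 → ∀ D : Divisor K F,
      (∀ P, D P = P.ord y) → ∀ Q : Place k Fb,
        Finsupp.mapDomain r0 D Q = Q.ord (R.red ⟨y, hy⟩))
    (D : Divisor K F) (f : F) (hf : f ∈ riemannRochSpace D) (hfO : f ∈ R.O) :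
    R.redF f ∈ riemannRochSpace (Finsupp.mapDomain r0 D) := by
  rw [mem_riemannRochSpace_iff]
  intro Q
  by_cases h0 : R.redF f = 0
  · exact Or.inl h0
  right
  have hf0 : f ≠ 0 := by
    rintro rfl
    exact h0 (h39_redF_zero R)
  obtain ⟨E, hE, -⟩ := HasPrincipalDivisors.exists_divisor (K := K) f hf0
  rw [R.redF_of_mem hfO] at h0 ⊢
  have h1 := h6 f hfO h0 E hE Q
  have h2 : 0 ≤ Finsupp.mapDomain r0 (E + D) Q :=
    h53_mapDomain_nonneg _ _ _ fun P _ => by
      rw [Finsupp.add_apply, hE P]
      rcases (mem_riemannRochSpace_iff.1 hf) P with h | h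
      · exact absurd h hf0
      · omega
  rw [Finsupp.mapDomain_add, Finsupp.add_apply, h1] at h2
  omega

/-- (ii) if all places have degree one on both sides, `r0_*` preserves degrees. -/
theorem h32_degree_mapDomain (hdegK : ∀ P : Place K F, P.deg = 1)
    (hdegk : ∀ Q : Place k Fb, Q.deg = 1) (r0 : Place K F → Place k Fb) (D : Divisor K F) :
    Divisor.degree (Finsupp.mapDomain r0 D) = Divisor.degree D := by
  induction D using Finsupp.induction with
  | zero => simp
  | single_add v n D _ _ ih =>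
    rw [Finsupp.mapDomain_add, map_add, map_add, ih, Finsupp.mapDomain_single,
      Divisor.degree_single, Divisor.degree_single, hdegK v, hdegk (r0 v)]

/-- (✱) and the structure: a map `r0` on places with (6) is a `h39_PlaceRed` as soon as
Riemann–Roch holds in large degree on both sides with the same genus and "equal dimensions
force surjectivity of the reduction". -/
theorem h32_placeRed_core (R : h39_RedDatum K F k Fb) [HasPrincipalDivisors K F]
    (hdegK : ∀ P : Place K F, P.deg = 1) (hdegk : ∀ Q : Place k Fb, Q.deg = 1)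
    (hfinK : ∀ D : Divisor K F, Module.Finite K ↥(riemannRochSpace D))
    (hfink : ∀ D : Divisor k Fb, Module.Finite k ↥(riemannRochSpace D))
    (g cK ck : ℤ)
    (hrrK : ∀ D : Divisor K F, cK ≤ Divisor.degree D →
      (Module.finrank K ↥(riemannRochSpace D) : ℤ) = Divisor.degree D + 1 - g)
    (hrrk : ∀ D : Divisor k Fb, ck ≤ Divisor.degree D →
      (Module.finrank k ↥(riemannRochSpace D) : ℤ) = Divisor.degree D + 1 - g)
    (hsurj : ∀ (V : Submodule K F) [FiniteDimensional K V] (W : Submodule k Fb)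
      [FiniteDimensional k W], (∀ f ∈ V, f ∈ R.O → R.redF f ∈ W) →
      Module.finrank k W ≤ Module.finrank K V → ∀ fb ∈ W, ∃ f ∈ V, f ∈ R.O ∧ R.redF f = fb)
    (r0 : Place K F → Place k Fb)
    (h6 : ∀ (y : F) (hy : y ∈ R.O), R.red ⟨y, hy⟩ ≠ 0 → ∀ D : Divisor K F,
      (∀ P, D P = P.ord y) → ∀ Q : Place k Fb,
        Finsupp.mapDomain r0 D Q = Q.ord (R.red ⟨y, hy⟩))
    (htwo : ∃ P₁ P₂ : Place K F, r0 P₁ ≠ r0 P₂) :
    ∃ S : h39_PlaceRed R, S.r0 = r0 := by
  have key : ∀ D : Divisor K F, max cK ck ≤ Divisor.degree D →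
      Module.finrank K ↥(riemannRochSpace D) =
        Module.finrank k ↥(riemannRochSpace (Finsupp.mapDomain r0 D)) := by
    intro D hD
    have hdeg := h32_degree_mapDomain hdegK hdegk r0 D
    have e1 := hrrK D ((le_max_left _ _).trans hD)
    have e2 := hrrk (Finsupp.mapDomain r0 D) (by rw [hdeg]; exact (le_max_right _ _).trans hD)
    rw [hdeg] at e2
    omega
  refine ⟨{ r0 := r0, c := max cK ck, compat := h6, lift := ?_, finrank_eq := key,
            two := htwo }, rfl⟩
  intro D hD fb hfb
  have := hfinK D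
  have := hfink (Finsupp.mapDomain r0 D)
  obtain ⟨f, hfV, hfO, hfred⟩ := hsurj (riemannRochSpace D)
    (riemannRochSpace (Finsupp.mapDomain r0 D))
    (fun f hf hfO => h32_red_mem_L R r0 h6 D f hf hfO) (key D hD).ge fb hfb
  exact ⟨f, hfO, hfV, by rw [← R.redF_of_mem hfO]; exact hfred⟩

/-- a chart reduction maps the places over `x = a` (`a ∈ A`) to places over `x̄ = res a`. -/
theorem h32_chartRed_over (R : h39_RedDatum K F k Fb) {t : F} (ht : t ∈ R.O)
    {r : Place K F → Place k Fb} (hr : h39_IsChartRed R t r) (P : Place K F) (a : K)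
    (ha : a ∈ R.A) (hPa : h39_Val P t a) : h39_Val (r P) (R.redF t) (R.resK a) :=
  (hr P ⟨a, ha, hPa⟩).2 t ht (fun _ h => h) a hPa

/-- the fibre of a chart over `x = a` is nonempty. -/
theorem h32_exists_fibre [IsAlgClosed K] {x : F} (hx : h75_IsChart K x) (a : K) :
    ∃ P : Place K F, 0 < P.ord (x - algebraMap K F a) := by
  classical
  have hfin := h75_fibre_finite hx a
  have hsum := h75_fibre_sum hx a hfin.toFinset (fun P => by rw [Set.Finite.mem_toFinset]; rfl)
  have := hx.fin
  have hpos : 0 < Module.finrank K⟮x⟯ F := Module.finrank_pos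
  by_contra hne
  have hempty : hfin.toFinset = ∅ := by
    rw [Finset.eq_empty_iff_forall_notMem]
    intro P hP
    exact hne ⟨P, (Set.Finite.mem_toFinset hfin).1 hP⟩
  rw [hempty, Finset.sum_empty] at hsum
  omega

/-- `two`: a map on places which agrees on the unit disc of the chart `x` with a chart
reduction takes two distinct values (at a place over `x = 0` and a place over `x = 1`). -/
theorem h32_two [IsAlgClosed K] (R : h39_RedDatum K F k Fb) {x : F} (hxO : x ∈ R.O)
    (hK : h75_IsChart K x) (r0 r : Place K F → Place k Fb) (hr : h39_IsChartRed R x r)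
    (hr0 : ∀ P : Place K F, h39_InDisc R x P → r0 P = r P) :
    ∃ P₁ P₂ : Place K F, r0 P₁ ≠ r0 P₂ := by
  obtain ⟨P₁, hP₁⟩ := h32_exists_fibre hK (0 : K)
  obtain ⟨P₂, hP₂⟩ := h32_exists_fibre hK (1 : K)
  have h0A : (0 : K) ∈ R.A := R.A.zero_mem
  have h1A : (1 : K) ∈ R.A := R.A.one_mem
  have hv1 : h39_Val P₁ x 0 := Or.inr hP₁
  have hv2 : h39_Val P₂ x 1 := Or.inr hP₂
  have hw1 := h32_chartRed_over R hxO hr P₁ 0 h0A hv1
  have hw2 := h32_chartRed_over R hxO hr P₂ 1 h1A hv2
  refine ⟨P₁, P₂, fun h => ?_⟩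
  rw [hr0 P₁ ⟨0, h0A, hv1⟩, hr0 P₂ ⟨1, h1A, hv2⟩] at h
  rw [h] at hw1
  have h01 := h39_val_unique (r P₂) hw1 hw2
  rw [h39_resK_one, (h39_resK_eq_zero_iff R h0A).2 (Or.inl rfl)] at h01
  exact zero_ne_one h01

end Fermat.Agent.S18

end
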