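import Fermat.Agent.S18.GR_Glue
import Fermat.Agent.S18.h32_PlaceRedCore
import Fermat.Agent.S18.RR_Large
import Fermat.Agent.S18.GR_ON

/-!
# S18 / [GR-PL] row PL6: (✱) and the final structure

`h39_exists_placeRed'`, `h39_exists_placeRed` (verbatim from the GR skeleton, section GR7).
-/

set_option autoImplicit false

noncomputable section

open AlgebraicCurve IntermediateField Polynomial

namespace Fermat.Agent.S18

variable {K F k Fb : Type*} [Field K] [Field F] [Algebra K F] [Field k] [Field Fb] [Algebra k Fb]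

section PL6

variable [IsAlgClosed K] [CharZero K] [IsAlgClosed k]
variable (R : h39_RedDatum K F k Fb) {x : F}

theorem h39_exists_placeRed' (hx : h39_Chart R x) :
    ∃ S : h39_PlaceRed R,
      (∃ r : Place K F → Place k Fb, h39_IsChartRed R x r ∧
        ∀ P : Place K F, h39_InDisc R x P → S.r0 P = r P) ∧
      (∃ r' : Place K F → Place k Fb, h39_IsChartRed R x⁻¹ r' ∧
        ∀ P : Place K F, ¬ h39_InDisc R x P → S.r0 P = r' P) := by
  have hw : h39_WeakChart R x := hx.toh39_WeakChart
  have hxK : h75_IsChart K x := h39_weakChart_isChart R hw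
  have hxk : h75_IsChart k (R.redF x) := h39_weakChart_isChart_red R hw
  have := h75_hasPrincipalDivisors hxK
  obtain ⟨r0, ⟨r, hr, h1⟩, ⟨r', hr', h2⟩, h6⟩ := h39_exists_r0 R hx
  obtain ⟨cK, hcK⟩ := h75_rr hxK
  obtain ⟨ck, hck⟩ := h75_rr hxk
  obtain ⟨S, hS⟩ := h32_placeRed_core R (h75_deg_eq_one hxK) (h75_deg_eq_one hxk)
    (fun D => (h75_riemann hxK D).1) (fun D => (h75_riemann hxk D).1)
    (h75_genus K x : ℤ) cK ck hcK
    (by
      intro D hD
      rw [hck D hD, h39_genus_eq R hx])
    (fun V _ W _ => h39_red_surjective_of_finrank R hw V W) r0 h6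
    (h32_two R hw.mem hxK r0 r hr h1)
  refine ⟨S, ⟨r, hr, ?_⟩, ⟨r', hr', ?_⟩⟩
  · intro P hP
    rw [hS]
    exact h1 P hP
  · intro P hP
    rw [hS]
    exact h2 P hP

theorem h39_exists_placeRed (hx : h39_Chart R x) : Nonempty (h39_PlaceRed R) := by
  obtain ⟨S, -⟩ := h39_exists_placeRed' R hx
  exact ⟨S⟩

end PL6

end Fermat.Agent.S18

end
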