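import Mathlib

/-!
# S18 / RR-B9: the different ideal versus valuations (Mathlib-only generic part)

For an `AKLB` setup of Dedekind domains with `L / K` finite separable:

* `h17_trace_mem_iff` : `Tr(w B) ⊆ A  ↔  w * 𝔇 ⊆ B` (`𝔇 = differentIdeal A B`);
* `h17_different_le_pow` : `P ^ e ∣ p B → 𝔇 ≤ P ^ (e - 1)` (any characteristic);
* `h17_not_dvd_different_of_charZero` : residue characteristic zero, `p B = P * Q` with `P`, `Q`
  coprime and `P ≠ ⊤`: `P ∤ 𝔇` (so `𝔓 ^ e ∤ 𝔇` for `e` the exact exponent: tameness).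
-/

set_option autoImplicit false

namespace Fermat.Agent.S18

open Module nonZeroDivisors

attribute [local instance] FractionRing.liftAlgebra FractionRing.isScalarTower_liftAlgebra
  Ideal.Quotient.field

section Generic

variable (A K : Type*) {L : Type*} {B : Type*} [CommRing A] [Field K] [CommRing B] [Field L]
variable [Algebra A K] [Algebra B L] [Algebra A B] [Algebra K L] [Algebra A L]
variable [IsScalarTower A K L] [IsScalarTower A B L]
variable [IsFractionRing A K] [IsFractionRing B L] [IsDedekindDomain A] [IsDedekindDomain B]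
variable [IsTorsionFree A B] [FiniteDimensional K L] [Algebra.IsSeparable K L]
variable [IsIntegralClosure B A L]

omit [FiniteDimensional K L] [IsIntegralClosure B A L] in
include K L in
theorem h17_isSeparable_fractionRing :
    Algebra.IsSeparable (FractionRing A) (FractionRing B) := by
  have H : RingHom.comp (algebraMap (FractionRing A) (FractionRing B))
      ↑(FractionRing.algEquiv A K).symm.toRingEquiv =
        RingHom.comp ↑(FractionRing.algEquiv B L).symm.toRingEquiv (algebraMap K L) := by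
    apply IsLocalization.ringHom_ext A⁰
    ext
    simp only [RingHom.coe_comp, RingHom.coe_coe,
      AlgEquiv.coe_ringEquiv, Function.comp_apply, AlgEquiv.commutes,
      ← IsScalarTower.algebraMap_apply]
    rw [IsScalarTower.algebraMap_apply A B L, AlgEquiv.commutes, ← IsScalarTower.algebraMap_apply]
  exact Algebra.IsSeparable.of_equiv_equiv _ _ H

/-- `Tr(w B) ⊆ A` iff `w 𝔇 ⊆ B`. -/
theorem h17_trace_mem_iff (w : L) :
    (∀ b : B, Algebra.trace K L (w * algebraMap B L b) ∈ (algebraMap A K).range) ↔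
      ∀ d ∈ differentIdeal A B, w * algebraMap B L d ∈ (algebraMap B L).range := by
  have hne : (1 : FractionalIdeal B⁰ L) ≠ 0 := one_ne_zero
  have h1 : (∀ b : B, Algebra.trace K L (w * algebraMap B L b) ∈ (algebraMap A K).range) ↔
      w ∈ FractionalIdeal.dual A K (1 : FractionalIdeal B⁰ L) := by
    rw [FractionalIdeal.mem_dual hne]
    constructor
    · intro h a ha
      obtain ⟨b, rfl⟩ := (FractionalIdeal.mem_one_iff B⁰).mp ha
      exact h b
    · intro h b
      exact h _ ((FractionalIdeal.mem_one_iff B⁰).mpr ⟨b, rfl⟩)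
  have h2 : FractionalIdeal.dual A K (1 : FractionalIdeal B⁰ L) =
      (↑(differentIdeal A B) : FractionalIdeal B⁰ L)⁻¹ := by
    rw [coeIdeal_differentIdeal A K L B, inv_inv]
  have hD : (↑(differentIdeal A B) : FractionalIdeal B⁰ L) ≠ 0 := by
    rw [coeIdeal_differentIdeal A K L B]
    exact inv_ne_zero (FractionalIdeal.dual_ne_zero A K hne)
  rw [h1, h2, FractionalIdeal.mem_inv_iff hD]
  constructor
  · intro h d hd
    have h3 := h (algebraMap B L d) (FractionalIdeal.mem_coeIdeal_of_mem _ hd)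
    obtain ⟨x', hx'⟩ := (FractionalIdeal.mem_one_iff B⁰).mp h3
    exact ⟨x', hx'⟩
  · intro h y hy
    obtain ⟨d, hd, rfl⟩ := (FractionalIdeal.mem_coeIdeal _).mp hy
    obtain ⟨x', hx'⟩ := h d hd
    exact (FractionalIdeal.mem_one_iff B⁰).mpr ⟨x', hx'⟩

omit [FiniteDimensional K L] [IsIntegralClosure B A L] in
include K L in
/-- `P ^ e ∣ p B` implies `𝔇 ≤ P ^ (e - 1)` (any characteristic). -/
theorem h17_different_le_pow [Module.Finite A B] {p : Ideal A} [p.IsMaximal] (hp : p ≠ ⊥)
    (P : Ideal B) (e : ℕ) (hP : P ^ e ∣ p.map (algebraMap A B)) :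
    differentIdeal A B ≤ P ^ (e - 1) := by
  have := h17_isSeparable_fractionRing A K (L := L) (B := B)
  exact Ideal.dvd_iff_le.mp (pow_sub_one_dvd_differentIdeal A P e hp hP)

omit [FiniteDimensional K L] [IsIntegralClosure B A L] in
include K L in
/-- Residue characteristic zero: if `p B = P * Q` with `P`, `Q` coprime and `P ≠ ⊤`, then
`P ∤ 𝔇`. -/
theorem h17_not_dvd_different_of_charZero [Module.Finite A B] {p : Ideal A} [p.IsMaximal]
    [CharZero (A ⧸ p)] (P Q : Ideal B) (hPtop : P ≠ ⊤) (hPQ : IsCoprime P Q)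
    (hP : P * Q = Ideal.map (algebraMap A B) p) :
    ¬ P ∣ differentIdeal A B := by
  have := h17_isSeparable_fractionRing A K (L := L) (B := B)
  have hpP : p ≤ P.comap (algebraMap A B) := by
    rw [← Ideal.map_le_iff_le_comap, ← hP]
    exact Ideal.mul_le_left
  have hpQ : p ≤ Q.comap (algebraMap A B) := by
    rw [← Ideal.map_le_iff_le_comap, ← hP]
    exact Ideal.mul_le_right
  let _ : Algebra (A ⧸ p) (B ⧸ P) := Ideal.Quotient.algebraQuotientOfLEComap hpP
  let _ : Algebra (A ⧸ p) (B ⧸ Q) := Ideal.Quotient.algebraQuotientOfLEComap hpQ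
  have : IsScalarTower A (A ⧸ p) (B ⧸ P) := .of_algebraMap_eq' rfl
  have : IsScalarTower A (A ⧸ p) (B ⧸ Q) := .of_algebraMap_eq' rfl
  have : Module.Finite (A ⧸ p) (B ⧸ P) :=
    Module.Finite.of_restrictScalars_finite A (A ⧸ p) (B ⧸ P)
  have : Module.Finite (A ⧸ p) (B ⧸ Q) :=
    Module.Finite.of_restrictScalars_finite A (A ⧸ p) (B ⧸ Q)
  have : Nontrivial (B ⧸ P) := Ideal.Quotient.nontrivial_iff.mpr hPtop
  let e : (B ⧸ p.map (algebraMap A B)) ≃ₐ[A ⧸ p] ((B ⧸ P) × B ⧸ Q) :=
    { __ := (Ideal.quotEquivOfEq hP.symm).trans (Ideal.quotientMulEquivQuotientProd P Q hPQ),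
      commutes' := Quotient.ind fun _ ↦ rfl }
  obtain ⟨y, hy⟩ := Ideal.Quotient.mk_surjective (e.symm (1, 0))
  refine not_dvd_differentIdeal_of_intTrace_not_mem A P Q hP y ?_ ?_
  · have := congr((e $hy).2)
    simp at this
    simpa [e, Ideal.Quotient.eq_zero_iff_mem] using this
  · rw [← Ideal.Quotient.eq_zero_iff_mem, ← Algebra.trace_quotient_eq_of_isDedekindDomain,
      hy, Algebra.trace_eq_of_algEquiv, Algebra.trace_prod_apply]
    have h1 : Algebra.trace (A ⧸ p) (B ⧸ P) 1 = (Module.finrank (A ⧸ p) (B ⧸ P) : A ⧸ p) := by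
      have := Algebra.trace_algebraMap (R := A ⧸ p) (S := B ⧸ P) 1
      simpa using this
    have h2 : 0 < Module.finrank (A ⧸ p) (B ⧸ P) := Module.finrank_pos
    simp only [map_zero, add_zero, h1]
    exact_mod_cast h2.ne'

end Generic

end Fermat.Agent.S18
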