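import Mathlib
import Fermat.Agent.S18.h75_RRDefs
import Fermat.Agent.S18.h17_HoloGen
import Fermat.Agent.S24.h24_Fibre
import Fermat.Agent.S24.h35_Places

/-!
# S18 / RR-B9: differentials versus the different on one chart

For a chart `t` of `F / K` (`K` algebraically closed): the different of the integral closure of
`K[t]` in `F`, as a set `𝔡 ⊆ F`, with

* `Tr(w M_t(0)) ⊆ K[t]  ↔  w 𝔡 ⊆ M_t(0)`;
* `ord_P d ≥ e_P - 1` for all `d ∈ 𝔡` (any characteristic);
* in characteristic zero some `d ∈ 𝔡` has `ord_P d ≤ e_P - 1` (tameness).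
-/

set_option autoImplicit false
set_option linter.style.haveILetI false

open AlgebraicCurve IntermediateField IsDedekindDomain WithZero

namespace Fermat.Agent.S18

open Fermat.Agent.S24

section Chart

open scoped IntermediateField.algebraAdjoinAdjoin

variable {K F : Type*} [Field K] [Field F] [Algebra K F]

/-- `t - a` generates a maximal ideal of `K[t]`. -/
theorem h17_span_isMaximal {t : F} (ht : Transcendental K t) (a : K) :
    ((⟨t, Algebra.self_mem_adjoin_singleton K t⟩ : Algebra.adjoin K {t}) -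
        algebraMap K (Algebra.adjoin K {t}) a ≠ 0) ∧
      (Ideal.span {(⟨t, Algebra.self_mem_adjoin_singleton K t⟩ : Algebra.adjoin K {t}) -
        algebraMap K (Algebra.adjoin K {t}) a}).IsMaximal := by
  classical
  let A : Subalgebra K F := Algebra.adjoin K {t}
  let e : Polynomial K ≃ₐ[K] A := Polynomial.algEquivOfTranscendental K t ht
  let x₀ : A := ⟨t, Algebra.self_mem_adjoin_singleton K t⟩ - algebraMap K A a
  have heC : ∀ c : K, e (Polynomial.C c) = algebraMap K A c := fun c => e.commutes c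
  have hex : e (Polynomial.X - Polynomial.C a) = x₀ := by
    rw [map_sub, heC]
    exact congrArg (· - algebraMap K A a) (Polynomial.algEquivOfTranscendental_apply_X K t ht)
  have hx₀ : x₀ ≠ 0 := by
    rw [← hex]
    exact (map_ne_zero_iff e e.injective).mpr (Polynomial.X_sub_C_ne_zero a)
  have hres : Function.Surjective (algebraMap K (A ⧸ (Ideal.span {x₀} : Ideal A))) := by
    intro y
    obtain ⟨y, rfl⟩ := Ideal.Quotient.mk_surjective y
    obtain ⟨P, rfl⟩ := e.surjective y
    refine ⟨P.eval a, ?_⟩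
    change Ideal.Quotient.mk _ (algebraMap K A (P.eval a)) = Ideal.Quotient.mk _ (e P)
    rw [Ideal.Quotient.eq, Ideal.mem_span_singleton']
    obtain ⟨Q, hQ⟩ := Polynomial.X_sub_C_dvd_sub_C_eval (a := a) (p := P)
    refine ⟨-e Q, ?_⟩
    have h2 : e (P - Polynomial.C (P.eval a)) = e (Polynomial.X - Polynomial.C a) * e Q := by
      rw [hQ, map_mul]
    rw [hex, map_sub] at h2
    rw [heC] at h2
    rw [neg_mul, mul_comm, ← h2]
    ring
  have hmax : (Ideal.span {x₀} : Ideal A).IsMaximal := by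
    have hnt : (Ideal.span {x₀} : Ideal A) ≠ ⊤ := by
      rw [Ne, Ideal.eq_top_iff_one, Ideal.mem_span_singleton']
      rintro ⟨y, hy⟩
      obtain ⟨Q, rfl⟩ := e.surjective y
      rw [← hex, ← map_mul] at hy
      have h1 : Q * (Polynomial.X - Polynomial.C a) = 1 := e.injective (by rw [hy, map_one])
      have := congrArg (Polynomial.eval a) h1
      simp at this
    haveI : Nontrivial (A ⧸ (Ideal.span {x₀} : Ideal A)) := Ideal.Quotient.nontrivial_iff.mpr hnt
    exact Ideal.Quotient.maximal_of_isField _ (MulEquiv.isField (Field.toIsField K)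
      (RingEquiv.ofBijective (algebraMap K (A ⧸ (Ideal.span {x₀} : Ideal A)))
        ⟨(algebraMap K _).injective, hres⟩).symm.toMulEquiv)
  exact ⟨hx₀, hmax⟩

/-- The different of a Dedekind extension `B / A` with fraction field `F`, as a set of
functions, against the places of the primes of `B`. -/
theorem h17_different_abstract
    {A B : Type*} [CommRing A] [IsDedekindDomain A] [CommRing B] [IsDedekindDomain B]
    [Algebra A B] [Module.IsTorsionFree A B] [Module.Finite A B]
    [Algebra K A] [Algebra K B] [IsScalarTower K A B]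
    [Algebra B F] [IsFractionRing B F] [IsScalarTower K B F]
    (L₀ : Type*) [Field L₀] [Algebra A L₀] [IsFractionRing A L₀] [Algebra L₀ F] [Algebra A F]
    [IsScalarTower A L₀ F] [IsScalarTower A B F] [FiniteDimensional L₀ F]
    [Algebra.IsSeparable L₀ F] [IsIntegralClosure B A F] :
    ∃ 𝔡 : Set F,
      (∀ w : F, (∀ b : B, Algebra.trace L₀ F (w * algebraMap B F b) ∈ (algebraMap A L₀).range) ↔
        ∀ d ∈ 𝔡, w * d ∈ (algebraMap B F).range) ∧
      (∀ d ∈ 𝔡, ∀ (Pw : HeightOneSpectrum B) (x₀ : A) (n : ℕ), x₀ ≠ 0 →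
        (Ideal.span {x₀}).IsMaximal → Pw.intValuation (algebraMap A B x₀) = exp (-(n : ℤ)) →
        d = 0 ∨ (n : ℤ) - 1 ≤ (Place.ofHeightOneSpectrum (K := K) (F := F) Pw).ord d) ∧
      (∀ (Pw : HeightOneSpectrum B) (x₀ : A) (n : ℕ), x₀ ≠ 0 → (Ideal.span {x₀}).IsMaximal →
        CharZero (A ⧸ (Ideal.span {x₀} : Ideal A)) → 0 < n →
        Pw.intValuation (algebraMap A B x₀) = exp (-(n : ℤ)) →
        ∃ d ∈ 𝔡, d ≠ 0 ∧
          (Place.ofHeightOneSpectrum (K := K) (F := F) Pw).ord d ≤ (n : ℤ) - 1) := by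
  classical
  have hinj : Function.Injective (algebraMap B F) := IsFractionRing.injective B F
  refine ⟨(fun d : B => algebraMap B F d) '' (differentIdeal A B : Set B), ?_, ?_, ?_⟩
  · intro w
    have h0 := h17_trace_mem_iff A L₀ (L := F) (B := B) w
    rw [h0]
    constructor
    · rintro h _ ⟨d, hd, rfl⟩
      exact h d hd
    · intro h d hd
      exact h _ ⟨d, hd, rfl⟩
  · rintro _ ⟨d, hd, rfl⟩ Pw x₀ n hx₀ hmax hval
    haveI := hmax
    have hp : (Ideal.span {x₀} : Ideal A) ≠ ⊥ := by
      rw [Ne, Ideal.span_singleton_eq_bot]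
      exact hx₀
    have hdvd : Pw.asIdeal ^ n ∣ (Ideal.span {x₀} : Ideal A).map (algebraMap A B) := by
      rw [Ideal.map_span, Set.image_singleton, Ideal.dvd_span_singleton,
        ← HeightOneSpectrum.intValuation_le_pow_iff_mem, hval]
    have hmem : d ∈ Pw.asIdeal ^ (n - 1) :=
      h17_different_le_pow A L₀ (L := F) hp Pw.asIdeal n hdvd hd
    rw [← HeightOneSpectrum.intValuation_le_pow_iff_mem] at hmem
    by_cases hd0 : d = 0
    · left
      show algebraMap B F d = 0
      rw [hd0, map_zero]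
    right
    have hv0 : Pw.intValuation d ≠ 0 := Pw.intValuation_ne_zero d hd0
    have h3 := (log_le_log hv0 (exp_ne_zero)).mpr hmem
    rw [log_exp] at h3
    have h4 := h24_ofHeightOneSpectrum_ord (K := K) Pw (algebraMap B F d)
    rw [HeightOneSpectrum.valuation_of_algebraMap] at h4
    rw [h4]
    omega
  · intro Pw x₀ n hx₀ hmax hchar hn0 hval
    haveI := hmax
    have hdvd : Pw.asIdeal ^ n ∣ (Ideal.span {x₀} : Ideal A).map (algebraMap A B) := by
      rw [Ideal.map_span, Set.image_singleton, Ideal.dvd_span_singleton,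
        ← HeightOneSpectrum.intValuation_le_pow_iff_mem, hval]
    obtain ⟨Q, hQ⟩ := hdvd
    have hQnot : ¬ Q ≤ Pw.asIdeal := by
      intro hle
      have h1 : (Ideal.span {x₀} : Ideal A).map (algebraMap A B) ≤ Pw.asIdeal ^ (n + 1) := by
        rw [hQ, pow_succ]
        exact Ideal.mul_mono_right hle
      have h2 : algebraMap A B x₀ ∈ Pw.asIdeal ^ (n + 1) :=
        h1 (Ideal.mem_map_of_mem _ (Ideal.mem_span_singleton_self x₀))
      rw [← HeightOneSpectrum.intValuation_le_pow_iff_mem, hval, exp_le_exp] at h2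
      push_cast at h2
      omega
    have hcop1 : IsCoprime Pw.asIdeal Q := by
      rw [Ideal.isCoprime_iff_sup_eq]
      by_contra h
      have h1 := Pw.isMaximal.eq_of_le h le_sup_left
      exact hQnot (h1 ▸ le_sup_right)
    have hcop : IsCoprime (Pw.asIdeal ^ n) Q := hcop1.pow_left
    have hPtop : Pw.asIdeal ^ n ≠ ⊤ := by
      intro h
      exact Pw.isPrime.ne_top ((Ideal.pow_eq_top_iff.mp h).elim id (fun h0 => absurd h0 (by omega)))
    have hnd := h17_not_dvd_different_of_charZero A L₀ (L := F)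
      (p := (Ideal.span {x₀} : Ideal A)) (Pw.asIdeal ^ n) Q hPtop hcop hQ.symm
    rw [Ideal.dvd_iff_le] at hnd
    obtain ⟨d, hd, hdn⟩ := SetLike.not_le_iff_exists.mp hnd
    have hd0' : d ≠ 0 := by
      rintro rfl
      exact hdn (Ideal.zero_mem _)
    have hd0 : algebraMap B F d ≠ 0 := (map_ne_zero_iff _ hinj).mpr hd0'
    refine ⟨algebraMap B F d, ⟨d, hd, rfl⟩, hd0, ?_⟩
    rw [← HeightOneSpectrum.intValuation_le_pow_iff_mem, not_le] at hdn
    have hv0 : Pw.intValuation d ≠ 0 := Pw.intValuation_ne_zero d hd0'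
    have h3 := (log_lt_log (exp_ne_zero) hv0).mpr hdn
    rw [log_exp] at h3
    have h4 := h24_ofHeightOneSpectrum_ord (K := K) Pw (algebraMap B F d)
    rw [HeightOneSpectrum.valuation_of_algebraMap] at h4
    rw [h4]
    omega

set_option maxHeartbeats 1600000 in
/-- The different of the chart `t`, as a set of functions. -/
theorem h17_chart_different {t : F} (ht : h75_IsChart K t) :
    ∃ 𝔡 : Set F,
      (∀ w : F, (∀ m ∈ h75_chart t (0 : Divisor K F),
          ((Algebra.trace K⟮t⟯ F (w * m) : K⟮t⟯) : F) ∈ Algebra.adjoin K {t}) ↔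
        ∀ d ∈ 𝔡, w * d ∈ h75_chart t (0 : Divisor K F)) ∧
      (∀ d ∈ 𝔡, ∀ (P : Place K F) (a : K), 0 < P.ord (t - algebraMap K F a) →
        d = 0 ∨ P.ord (t - algebraMap K F a) - 1 ≤ P.ord d) ∧
      (CharZero K → ∀ (P : Place K F) (a : K), 0 < P.ord (t - algebraMap K F a) →
        ∃ d ∈ 𝔡, d ≠ 0 ∧ P.ord d ≤ P.ord (t - algebraMap K F a) - 1) := by
  classical
  have hfin := ht.fin
  have hsep := ht.sep
  let A : Subalgebra K F := Algebra.adjoin K {t}
  let e : Polynomial K ≃ₐ[K] A := Polynomial.algEquivOfTranscendental K t ht.tr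
  haveI : IsPrincipalIdealRing A :=
    IsPrincipalIdealRing.of_surjective (e : Polynomial K →+* A) e.surjective
  let B : Subalgebra A F := integralClosure A F
  haveI : IsDedekindDomain B := IsIntegralClosure.isDedekindDomain A K⟮t⟯ F B
  haveI : IsFractionRing B F := IsIntegralClosure.isFractionRing_of_finite_extension A K⟮t⟯ F B
  haveI : Module.Finite A B := IsIntegralClosure.finite A K⟮t⟯ F B
  have hST : IsScalarTower A B F := IsScalarTower.of_algebraMap_eq (fun _ => rfl)
  obtain ⟨𝔡, h𝔡a, h𝔡b, h𝔡c⟩ :=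
    @h17_different_abstract K F _ _ _ A B _ _ _ _ _ _ _ _ _ _ _ _ _ K⟮t⟯ _ _ _ _ _ _ hST _ _ _
  clear hST
  -- places containing `t` contain `B`
  have hBmem : ∀ P : Place K F, t ∈ P.toValuationSubring →
      ∀ b : B, algebraMap B F b ∈ P.toValuationSubring := by
    intro P hP b
    have hA : ∀ x ∈ A, x ∈ P.toValuationSubring := by
      have hle : A ≤ h24_placeSubalgebra P :=
        Algebra.adjoin_le (by
          intro y hy
          rw [Set.mem_singleton_iff] at hy
          rw [hy]
          exact hP)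
      exact fun x hx => hle hx
    exact h24_integral_mem P A hA _ b.2
  have htB : t ∈ B := B.algebraMap_mem (⟨t, Algebra.self_mem_adjoin_singleton K t⟩ : A)
  -- the chart is `B`
  have hchart : ∀ f : F, f ∈ h75_chart t (0 : Divisor K F) ↔ f ∈ (algebraMap B F).range := by
    intro f
    constructor
    · intro hf
      apply HeightOneSpectrum.mem_integers_of_valuation_le_one F f
      intro v
      have htv : t ∈ (Place.ofHeightOneSpectrum (K := K) (F := F) v).toValuationSubring := by
        rw [Place.ofHeightOneSpectrum_toValuationSubring, Valuation.mem_valuationSubring_iff]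
        exact v.valuation_le_one (⟨t, htB⟩ : B)
      rcases eq_or_ne f 0 with rfl | hf0
      · simp
      have h1 := (h75_mem_chart_iff.mp hf _ htv).resolve_left hf0
      rw [h24_ofHeightOneSpectrum_val (K := K) v hf0, ← exp_zero, exp_le_exp]
      simp only [Finsupp.coe_zero, Pi.zero_apply, neg_zero] at h1
      omega
    · rintro ⟨b, rfl⟩
      rw [h75_mem_chart_iff]
      intro P hP
      right
      simp only [Finsupp.coe_zero, Pi.zero_apply, neg_zero]
      exact h24_ord_nonneg_of_mem P (hBmem P hP b)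
  have hrange : ∀ y : K⟮t⟯, y ∈ (algebraMap A K⟮t⟯).range ↔ (y : F) ∈ Algebra.adjoin K {t} := by
    intro y
    constructor
    · rintro ⟨a, rfl⟩
      exact a.2
    · intro h
      exact ⟨⟨(y : F), h⟩, Subtype.ext rfl⟩
  -- the local data at a point of the chart
  have key : ∀ (P : Place K F) (a : K), 0 < P.ord (t - algebraMap K F a) →
      ∃ (Pw : HeightOneSpectrum B) (n : ℕ) (x₀ : A),
        P = Place.ofHeightOneSpectrum (K := K) (F := F) Pw ∧
        (n : ℤ) = P.ord (t - algebraMap K F a) ∧ 0 < n ∧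
        x₀ ≠ 0 ∧ (Ideal.span {x₀}).IsMaximal ∧
        Pw.intValuation (algebraMap A B x₀) = exp (-(n : ℤ)) := by
    intro P a hpos
    have htP : t ∈ P.toValuationSubring := by
      have hmem := h24_mem_of_ord_nonneg P hpos.le
      have := add_mem hmem (P.algebraMap_mem' a)
      simpa using this
    obtain ⟨Pw, rfl⟩ := h24_exists_heightOneSpectrum (K := K) P (hBmem P htP)
    obtain ⟨hx₀, hmax⟩ := h17_span_isMaximal ht.tr a
    obtain ⟨n, hn⟩ := Int.eq_ofNat_of_zero_le hpos.le
    refine ⟨Pw, n, _, rfl, hn.symm, by omega, hx₀, hmax, ?_⟩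
    have h1 := h24_ofHeightOneSpectrum_ord (K := K) Pw (t - algebraMap K F a)
    have hne : t - algebraMap K F a ≠ 0 := by
      intro h
      rw [h] at hpos
      simp at hpos
    have hv0 : Pw.valuation F (t - algebraMap K F a) ≠ 0 := (Valuation.ne_zero_iff _).mpr hne
    have h2 : Pw.valuation F (t - algebraMap K F a) = exp (-(n : ℤ)) := by
      have h3 : log (Pw.valuation F (t - algebraMap K F a)) = -(n : ℤ) := by omega
      rw [← h3, exp_log hv0]
    have h5 : Pw.valuation F (t - algebraMap K F a) = Pw.intValuation (algebraMap A B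
        ((⟨t, Algebra.self_mem_adjoin_singleton K t⟩ : A) - algebraMap K A a)) :=
      HeightOneSpectrum.valuation_of_algebraMap (K := F) Pw (algebraMap A B
        ((⟨t, Algebra.self_mem_adjoin_singleton K t⟩ : A) - algebraMap K A a))
    exact h5.symm.trans h2
  refine ⟨𝔡, ?_, ?_, ?_⟩
  · intro w
    constructor
    · intro h d hd
      rw [hchart]
      exact (h𝔡a w).mp (fun b => (hrange _).mpr (h _ ((hchart _).mpr ⟨b, rfl⟩))) d hd
    · intro h m hm
      obtain ⟨b, rfl⟩ := (hchart m).mp hm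
      exact (hrange _).mp ((h𝔡a w).mpr (fun d hd => (hchart _).mp (h d hd)) b)
  · intro d hd P a hpos
    obtain ⟨Pw, n, x₀, rfl, hn, hn0, hx₀, hmax, hval⟩ := key P a hpos
    rw [← hn]
    exact h𝔡b d hd Pw x₀ n hx₀ hmax hval
  · intro hchar P a hpos
    obtain ⟨Pw, n, x₀, rfl, hn, hn0, hx₀, hmax, hval⟩ := key P a hpos
    haveI : Nontrivial (A ⧸ (Ideal.span {x₀} : Ideal A)) :=
      Ideal.Quotient.nontrivial_iff.mpr hmax.ne_top
    have hcz : CharZero (A ⧸ (Ideal.span {x₀} : Ideal A)) :=
      charZero_of_injective_algebraMap (algebraMap K (A ⧸ (Ideal.span {x₀} : Ideal A))).injective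
    rw [← hn]
    exact h𝔡c Pw x₀ n hx₀ hmax hcz hn0 hval

end Chart

section Holo

variable {K F : Type*} [Field K] [Field F] [Algebra K F]

/-- A chart takes a value at every place where it is regular. -/
theorem h17_exists_value [IsAlgClosed K] {t : F} (ht : h75_IsChart K t) (P : Place K F)
    (hP : t ∈ P.toValuationSubring) : ∃ a : K, 0 < P.ord (t - algebraMap K F a) := by
  have := ht.fin
  obtain ⟨a, ha | ha⟩ := h35_exists_value ht.tr P hP
  · exact absurd (ha ▸ isAlgebraic_algebraMap a : IsAlgebraic K t) ht.tr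
  · exact ⟨a, ha⟩

/-- (D1), one chart: poles bounded by `e - 1` give traces in `K[t]`. -/
theorem h17_trace_mem_of_holo [IsAlgClosed K] {t : F} (ht : h75_IsChart K t) (w : F)
    (hw : ∀ (P : Place K F) (a : K), 0 < P.ord (t - algebraMap K F a) →
      w = 0 ∨ 1 - P.ord (t - algebraMap K F a) ≤ P.ord w)
    (m : F) (hm : m ∈ h75_chart t (0 : Divisor K F)) :
    ((Algebra.trace K⟮t⟯ F (w * m) : K⟮t⟯) : F) ∈ Algebra.adjoin K {t} := by
  obtain ⟨𝔡, ha, hb, -⟩ := h17_chart_different ht
  refine (ha w).mpr ?_ m hm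
  intro d hd
  rw [h75_mem_chart_iff]
  intro P hP
  simp only [Finsupp.coe_zero, Pi.zero_apply, neg_zero]
  obtain ⟨a, hpos⟩ := h17_exists_value ht P hP
  by_cases hw0 : w = 0
  · left
    rw [hw0, zero_mul]
  by_cases hd0 : d = 0
  · left
    rw [hd0, mul_zero]
  right
  rw [P.ord_mul hw0 hd0]
  have h1 := (hw P a hpos).resolve_left hw0
  have h2 := (hb d hd P a hpos).resolve_left hd0
  omega

/-- (D2), one chart, characteristic zero: traces in `K[t]` force poles bounded by `e - 1`. -/
theorem h17_holo_of_trace_mem [CharZero K] {t : F} (ht : h75_IsChart K t) (w : F)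
    (hw : ∀ m ∈ h75_chart t (0 : Divisor K F),
      ((Algebra.trace K⟮t⟯ F (w * m) : K⟮t⟯) : F) ∈ Algebra.adjoin K {t})
    (P : Place K F) (a : K) (hpos : 0 < P.ord (t - algebraMap K F a)) :
    w = 0 ∨ 1 - P.ord (t - algebraMap K F a) ≤ P.ord w := by
  obtain ⟨𝔡, ha, -, hc⟩ := h17_chart_different ht
  obtain ⟨d, hd, hd0, hle⟩ := hc inferInstance P a hpos
  by_cases hw0 : w = 0
  · exact Or.inl hw0
  right
  have h1 := (ha w).mp hw d hd
  rw [h75_mem_chart_iff] at h1
  have htP : t ∈ P.toValuationSubring := by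
    have hmem := h24_mem_of_ord_nonneg P hpos.le
    have := add_mem hmem (P.algebraMap_mem' a)
    simpa using this
  have h2 := (h1 P htP).resolve_left (mul_ne_zero hw0 hd0)
  simp only [Finsupp.coe_zero, Pi.zero_apply, neg_zero] at h2
  rw [P.ord_mul hw0 hd0] at h2
  omega

/-- Membership in a subalgebra of `K(x)` generated by one element, read in `F`. -/
theorem h17_mem_adjoin_iff (x : F) (g y : K⟮x⟯) :
    y ∈ Algebra.adjoin K {g} ↔ (y : F) ∈ Algebra.adjoin K {(g : F)} := by
  have h1 : (Algebra.adjoin K {g}).map (IntermediateField.val K⟮x⟯) =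
      Algebra.adjoin K {(g : F)} := by
    rw [AlgHom.map_adjoin, Set.image_singleton]
    rfl
  rw [← h1, Subalgebra.mem_map]
  constructor
  · intro hy
    exact ⟨y, hy, rfl⟩
  · rintro ⟨z, hz, hzy⟩
    have : z = y := Subtype.ext hzy
    rwa [← this]

theorem h17_mem_poly_iff (x : F) (y : K⟮x⟯) :
    y ∈ h75_poly K x ↔ (y : F) ∈ Algebra.adjoin K {x} :=
  h17_mem_adjoin_iff x (AdjoinSimple.gen K x) y

theorem h17_mem_polyInv_iff (x : F) (y : K⟮x⟯) :
    y ∈ h75_polyInv K x ↔ (y : F) ∈ Algebra.adjoin K {x⁻¹} :=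
  h17_mem_adjoin_iff x (AdjoinSimple.gen K x)⁻¹ y

theorem h17_adjoin_inv (x : F) : K⟮x⁻¹⟯ = K⟮x⟯ := by
  apply le_antisymm
  · rw [adjoin_simple_le_iff]
    exact inv_mem (mem_adjoin_simple_self K x)
  · rw [adjoin_simple_le_iff]
    have := inv_mem (mem_adjoin_simple_self K x⁻¹)
    rwa [inv_inv] at this

theorem h17_trace_congr {E₁ E₂ : IntermediateField K F} (h : E₁ = E₂) (y : F) :
    ((Algebra.trace E₁ F y : E₁) : F) = ((Algebra.trace E₂ F y : E₂) : F) := by
  subst h
  rfl

theorem h17_isChart_congr {x y : F} (h : K⟮y⟯ = K⟮x⟯) (hx : h75_IsChart K x)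
    (hy : Transcendental K y) : h75_IsChart K y := by
  have h1 : ∀ E : IntermediateField K F, E = K⟮x⟯ →
      FiniteDimensional E F ∧ Algebra.IsSeparable E F := by
    rintro E rfl
    exact ⟨hx.fin, hx.sep⟩
  exact ⟨hy, (h1 _ h).1, (h1 _ h).2⟩

/-- The chart of `x⁻¹`. -/
theorem h17_isChart_inv {x : F} (hx : h75_IsChart K x) : h75_IsChart K x⁻¹ := by
  refine h17_isChart_congr (h17_adjoin_inv x) hx ?_
  intro halg
  apply hx.tr
  have := halg.inv
  rwa [inv_inv] at this

/-- The trace over `K(x⁻¹) = K(x)` of `x² φ l`. -/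
theorem h17_trace_inv_chart (x φ l : F) :
    ((Algebra.trace K⟮x⁻¹⟯ F (x ^ 2 * φ * l) : K⟮x⁻¹⟯) : F) =
      ((AdjoinSimple.gen K x ^ 2 * Algebra.trace K⟮x⟯ F (φ * l) : K⟮x⟯) : F) := by
  rw [h17_trace_congr (h17_adjoin_inv x)]
  have h1 : x ^ 2 * φ * l = (AdjoinSimple.gen K x ^ 2) • (φ * l) := by
    rw [Algebra.smul_def, mul_assoc]
    rfl
  rw [h1, map_smul, smul_eq_mul]

end Holo

end Fermat.Agent.S18
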