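import Mathlib
import Fermat.Agent.S18.Defs
import Fermat.Agent.S18.h53_CoreBasic
import Fermat.Agent.S18.h64_CoreAdapter

set_option autoImplicit false

/-!
# S18 / [GR] GR7 core: (✱) from (6)

Given a reduction datum `R : h39_RedDatum K F k Fb` and a map on places `r0` with
(6) `r0_* div y = div ȳ` for the units `y` of `R.O`, the structure `h39_PlaceRed R` (lifting of
Riemann–Roch spaces in large degree, equality of dimensions, two places with different
reductions) follows from:

* Riemann–Roch in large degree on both sides with the same genus;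
* "reduction `V ∩ O → W` is onto as soon as `dim W ≤ dim V`" (the consequence of the orthonormal
  bases (ON), statement of `h39_red_surjective_of_finrank`);
* all places of degree one, and one unit of `O` whose reduction has a zero or a pole.

Main statements: `h64_red_mem_rr`, `h64_degree_mapDomain`, `h64_two_of_compat`,
`h64_star_of_compat`.
-/

noncomputable section

namespace Fermat.Agent.S18

open AlgebraicCurve

variable {K F k Fb : Type*} [Field K] [Field F] [Algebra K F] [Field k] [Field Fb] [Algebra k Fb]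

/-- The CORE datum of a reduction datum with a place map satisfying (6). -/
def h64_coreDatum (R : h39_RedDatum K F k Fb) (r0 : Place K F → Place k Fb)
    (hcompat : ∀ (y : F) (hy : y ∈ R.O), R.red ⟨y, hy⟩ ≠ 0 → ∀ D : Divisor K F,
      (∀ P, D P = P.ord y) → ∀ Q : Place k Fb,
        Finsupp.mapDomain r0 D Q = Q.ord (R.red ⟨y, hy⟩)) :
    h53_RedDatum K F k Fb where
  Ov := R.O
  red := R.red
  red_eq_zero := h64_red_eq_zero_iff R
  exists_const := by
    intro y hy
    obtain ⟨c, hc, h1, h2⟩ := R.exists_scale y hy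
    refine ⟨c, hc, le_antisymm ((R.O.valuation_le_one_iff _).mpr h1) ?_⟩
    have h3 := (R.O.valuation_le_one_iff _).mpr h2
    rw [map_inv₀] at h3
    have hne : R.O.valuation (algebraMap K F c * y) ≠ 0 := by
      rw [Ne, Valuation.zero_iff]
      exact mul_ne_zero (by simpa using hc) hy
    exact (inv_le_one₀ (lt_of_le_of_ne zero_le (Ne.symm hne))).mp h3
  r0 := r0
  red_div := fun y hy D hD Q => hcompat (y : F) y.2 hy D hD Q

/-- (6) ⟹ reduction maps `L(D) ∩ O` into `L̄(r0_* D)`. -/
theorem h64_red_mem_rr [HasPrincipalDivisors K F] (R : h39_RedDatum K F k Fb)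
    (r0 : Place K F → Place k Fb)
    (hcompat : ∀ (y : F) (hy : y ∈ R.O), R.red ⟨y, hy⟩ ≠ 0 → ∀ D : Divisor K F,
      (∀ P, D P = P.ord y) → ∀ Q : Place k Fb,
        Finsupp.mapDomain r0 D Q = Q.ord (R.red ⟨y, hy⟩))
    (D : Divisor K F) {f : F} (hf : f ∈ riemannRochSpace D) (hfO : f ∈ R.O) :
    R.redF f ∈ riemannRochSpace (Finsupp.mapDomain r0 D) := by
  rw [R.redF_of_mem hfO]
  have h := (h64_coreDatum R r0 hcompat).red_mem_L ⟨f, hfO⟩ D ((h64_inL_iff_mem D f).mpr hf)
  exact (h64_inL_iff_mem _ _).mp h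

/-- Push-forward of divisors preserves the degree when all places have degree one. -/
theorem h64_degree_mapDomain (hdegK : ∀ P : Place K F, P.deg = 1)
    (hdegk : ∀ Q : Place k Fb, Q.deg = 1) (r0 : Place K F → Place k Fb) (D : Divisor K F) :
    Divisor.degree (Finsupp.mapDomain r0 D) = Divisor.degree D := by
  induction D using Finsupp.induction_linear with
  | zero => simp
  | add D₁ D₂ h₁ h₂ => rw [Finsupp.mapDomain_add, map_add, map_add, h₁, h₂]
  | single P n =>
    rw [Finsupp.mapDomain_single, Divisor.degree_single, Divisor.degree_single, hdegK, hdegk]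

/-- The degree is the sum of the coefficients when all places have degree one. -/
theorem h64_degree_eq_sum (hdegK : ∀ P : Place K F, P.deg = 1) (D : Divisor K F) :
    Divisor.degree D = ∑ P ∈ D.support, D P := by
  induction D using Finsupp.induction_linear with
  | zero => simp
  | add D₁ D₂ h₁ h₂ =>
    classical
    rw [map_add, h₁, h₂]
    have e1 : ∑ P ∈ D₁.support, D₁ P = ∑ P ∈ D₁.support ∪ D₂.support, D₁ P :=
      Finset.sum_subset Finset.subset_union_left fun P _ hP => by
        simpa using hP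
    have e2 : ∑ P ∈ D₂.support, D₂ P = ∑ P ∈ D₁.support ∪ D₂.support, D₂ P :=
      Finset.sum_subset Finset.subset_union_right fun P _ hP => by
        simpa using hP
    have e3 : ∑ P ∈ (D₁ + D₂).support, (D₁ + D₂) P
        = ∑ P ∈ D₁.support ∪ D₂.support, (D₁ + D₂) P :=
      Finset.sum_subset Finsupp.support_add fun P _ hP => by
        simpa using hP
    rw [e1, e2, e3, ← Finset.sum_add_distrib]
    rfl
  | single P n =>
    rw [Divisor.degree_single, hdegK]
    by_cases hn : n = 0
    · subst hn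
      simp
    · rw [Finsupp.support_single _ hn, Finset.sum_singleton, Finsupp.single_eq_same]
      simp

/-- (6) ⟹ `r0` is not constant, as soon as one unit of `O` has a reduction with a zero or a
pole. -/
theorem h64_two_of_compat [HasPrincipalDivisors K F] (R : h39_RedDatum K F k Fb)
    (hdegK : ∀ P : Place K F, P.deg = 1) (r0 : Place K F → Place k Fb)
    (hcompat : ∀ (y : F) (hy : y ∈ R.O), R.red ⟨y, hy⟩ ≠ 0 → ∀ D : Divisor K F,
      (∀ P, D P = P.ord y) → ∀ Q : Place k Fb,
        Finsupp.mapDomain r0 D Q = Q.ord (R.red ⟨y, hy⟩))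
    (y : F) (hy : y ∈ R.O) (Q : Place k Fb) (hQ : Q.ord (R.red ⟨y, hy⟩) ≠ 0) :
    ∃ P₁ P₂ : Place K F, r0 P₁ ≠ r0 P₂ := by
  classical
  by_contra hcon
  push Not at hcon
  have hred : R.red ⟨y, hy⟩ ≠ 0 := by
    intro h0
    rw [h0] at hQ
    exact hQ Q.ord_zero
  have hy0 : y ≠ 0 := by
    rintro rfl
    apply hred
    have : (⟨0, hy⟩ : R.O) = 0 := rfl
    rw [this, map_zero]
  obtain ⟨D, hD, hdeg⟩ := HasPrincipalDivisors.exists_divisor (K := K) y hy0
  have h1 := hcompat y hy hred D hD Q
  rw [h53_mapDomain_apply] at h1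
  apply hQ
  rw [← h1]
  by_cases hex : ∃ P₀ ∈ D.support, r0 P₀ = Q
  · obtain ⟨P₀, -, hP₀⟩ := hex
    rw [Finset.sum_congr rfl (g := fun P => D P)
      (fun P _ => if_pos ((hcon P P₀).trans hP₀)), ← h64_degree_eq_sum hdegK, hdeg]
  · push Not at hex
    exact Finset.sum_eq_zero fun P hP => if_neg (hex P hP)

/-- **(✱) from (6)**: the place reduction structure. -/
theorem h64_star_of_compat [HasPrincipalDivisors K F] (R : h39_RedDatum K F k Fb)
    (g : ℕ) (c₁ c₂ : ℤ)
    (hrrK : ∀ D : Divisor K F, c₁ ≤ Divisor.degree D →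
      (Module.finrank K (riemannRochSpace D) : ℤ) = Divisor.degree D + 1 - g)
    (hrrk : ∀ D : Divisor k Fb, c₂ ≤ Divisor.degree D →
      (Module.finrank k (riemannRochSpace D) : ℤ) = Divisor.degree D + 1 - g)
    (hfinK : ∀ D : Divisor K F, Module.Finite K (riemannRochSpace D))
    (hfink : ∀ D : Divisor k Fb, Module.Finite k (riemannRochSpace D))
    (hdegK : ∀ P : Place K F, P.deg = 1) (hdegk : ∀ Q : Place k Fb, Q.deg = 1)
    (hsurj : ∀ (V : Submodule K F) [FiniteDimensional K V] (W : Submodule k Fb)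
      [FiniteDimensional k W], (∀ f ∈ V, f ∈ R.O → R.redF f ∈ W) →
      Module.finrank k W ≤ Module.finrank K V →
      ∀ fb ∈ W, ∃ f ∈ V, f ∈ R.O ∧ R.redF f = fb)
    (r0 : Place K F → Place k Fb)
    (hcompat : ∀ (y : F) (hy : y ∈ R.O), R.red ⟨y, hy⟩ ≠ 0 → ∀ D : Divisor K F,
      (∀ P, D P = P.ord y) → ∀ Q : Place k Fb,
        Finsupp.mapDomain r0 D Q = Q.ord (R.red ⟨y, hy⟩))
    (htwo : ∃ P₁ P₂ : Place K F, r0 P₁ ≠ r0 P₂) :
    ∃ S : h39_PlaceRed R, S.r0 = r0 ∧ S.c = max c₁ c₂ := by
  have hfin : ∀ D : Divisor K F, max c₁ c₂ ≤ Divisor.degree D →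
      Module.finrank K (riemannRochSpace D) =
        Module.finrank k (riemannRochSpace (Finsupp.mapDomain r0 D)) := by
    intro D hD
    have h1 := hrrK D ((le_max_left _ _).trans hD)
    have h2 := hrrk (Finsupp.mapDomain r0 D)
      (by rw [h64_degree_mapDomain hdegK hdegk]; exact (le_max_right _ _).trans hD)
    rw [h64_degree_mapDomain hdegK hdegk] at h2
    have : (Module.finrank K (riemannRochSpace D) : ℤ)
        = (Module.finrank k (riemannRochSpace (Finsupp.mapDomain r0 D)) : ℤ) := by
      rw [h1, h2]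
    exact_mod_cast this
  refine ⟨{ r0 := r0
            c := max c₁ c₂
            compat := hcompat
            lift := ?_
            finrank_eq := hfin
            two := htwo }, rfl, rfl⟩
  intro D hD fb hfb
  have := hfinK D
  have := hfink (Finsupp.mapDomain r0 D)
  obtain ⟨f, hfV, hfO, hf⟩ := hsurj (riemannRochSpace D)
    (riemannRochSpace (Finsupp.mapDomain r0 D))
    (fun f hf hfO => h64_red_mem_rr R r0 hcompat D hf hfO) (hfin D hD).ge fb hfb
  refine ⟨f, hfO, hfV, ?_⟩
  rw [← R.redF_of_mem hfO]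
  exact hf

end Fermat.Agent.S18
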