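/-
S18 / GR3' (helper88): norms commute with reduction — the abstract core.

`E ⊆ F` and `Eb ⊆ Fb` finite extensions, `O` a subring of `F` (any `SubringClass`, e.g. a
`ValuationSubring`) with a ring hom `red : O → Fb`.  Given an `E`-basis `B` of `F` inside `O` whose reductions form an
`Eb`-basis of `Fb`, such that coordinates of elements of `O` lie in `O` and elements of
`E ∩ O` reduce into `Eb`: for `f ∈ O` the norm `N_{F/E} f` lies in `O` and reduces to
`N_{Fb/Eb} (red f)` (`h88_norm_red_core`).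

`h88_norm_red_of_basis`: the same for a reduction datum `R` and a weak chart `x`, taking the
orthonormal basis of GR2 and the Gauss property of GR1 as explicit hypotheses.
-/
import Mathlib
import Fermat.Agent.S18.Defs

set_option autoImplicit false

open AlgebraicCurve IntermediateField

namespace Fermat.Agent.S18

theorem h88_norm_red_core {E F Eb Fb : Type*} [Field E] [Field F] [Algebra E F] [Field Eb]
    [Field Fb] [Algebra Eb Fb] {S : Type*} [SetLike S F] [SubringClass S F] (O : S)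
    (red : O →+* Fb)
    {ι : Type*} [Fintype ι] [DecidableEq ι]
    (B : Module.Basis ι E F) (hB : ∀ i, B i ∈ O)
    (Bb : Module.Basis ι Eb Fb) (hBb : ∀ i, Bb i = red ⟨B i, hB i⟩)
    (hG : ∀ (c : E) (hc : algebraMap E F c ∈ O),
      ∃ γ : Eb, red ⟨algebraMap E F c, hc⟩ = algebraMap Eb Fb γ)
    (hcoord : ∀ f ∈ O, ∀ i, algebraMap E F (B.repr f i) ∈ O)
    (f : F) (hf : f ∈ O) :
    ∃ h : algebraMap E F (Algebra.norm E f) ∈ O,
      red ⟨algebraMap E F (Algebra.norm E f), h⟩ =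
        algebraMap Eb Fb (Algebra.norm Eb (red ⟨f, hf⟩)) := by
  classical
  -- the matrix of multiplication by `f`, with entries in `E ∩ O`
  have hC : ∀ i j, algebraMap E F (Algebra.leftMulMatrix B f i j) ∈ O := by
    intro i j
    rw [Algebra.leftMulMatrix_eq_repr_mul]
    exact hcoord _ (mul_mem hf (hB j)) i
  obtain ⟨CO, hCO⟩ : ∃ CO : Matrix ι ι O, ∀ i j,
      (CO i j : F) = algebraMap E F (Algebra.leftMulMatrix B f i j) :=
    ⟨fun i j => ⟨_, hC i j⟩, fun _ _ => rfl⟩
  have h1 : ((CO.det : O) : F) = algebraMap E F (Algebra.norm E f) := by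
    have e1 : (SubringClass.subtype O).mapMatrix CO =
        (algebraMap E F).mapMatrix (Algebra.leftMulMatrix B f) := by
      ext i j
      exact hCO i j
    have e2 := RingHom.map_det (SubringClass.subtype O) CO
    rw [e1, ← RingHom.map_det, ← Algebra.norm_eq_matrix_det B f] at e2
    exact e2
  have h : algebraMap E F (Algebra.norm E f) ∈ O := by
    rw [← h1]
    exact CO.det.2
  refine ⟨h, ?_⟩
  have h2 : (⟨algebraMap E F (Algebra.norm E f), h⟩ : O) = CO.det := Subtype.ext h1.symm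
  -- reduce the entries into `Eb`
  have hγ : ∀ i j, ∃ γ : Eb, red (CO i j) = algebraMap Eb Fb γ := by
    intro i j
    obtain ⟨γ, hγ⟩ := hG _ (hC i j)
    refine ⟨γ, ?_⟩
    rw [← hγ]
    exact congrArg red (Subtype.ext (hCO i j))
  choose γ hγ using hγ
  have h3 : red.mapMatrix CO = (algebraMap Eb Fb).mapMatrix (Matrix.of γ) := by
    ext i j
    exact hγ i j
  -- the matrix of multiplication by `red f` in the reduced basis is `γ`
  have h4 : Algebra.leftMulMatrix Bb (red ⟨f, hf⟩) = Matrix.of γ := by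
    ext i j
    rw [Algebra.leftMulMatrix_eq_repr_mul]
    have e1 : (⟨f, hf⟩ : O) * ⟨B j, hB j⟩ = ∑ i, CO i j * ⟨B i, hB i⟩ := by
      apply Subtype.ext
      have e0 : ((∑ i, CO i j * ⟨B i, hB i⟩ : O) : F) = ∑ i, (CO i j : F) * B i :=
        (map_sum (SubringClass.subtype O) _ _).trans (Finset.sum_congr rfl fun i _ => rfl)
      rw [e0]
      show f * B j = ∑ i, (CO i j : F) * B i
      rw [← B.sum_repr (f * B j)]
      refine Finset.sum_congr rfl fun i _ => ?_
      rw [hCO, Algebra.leftMulMatrix_eq_repr_mul, Algebra.smul_def]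
    have e2 : red ⟨f, hf⟩ * Bb j = ∑ i, γ i j • Bb i := by
      rw [hBb j, ← map_mul, e1, map_sum]
      refine Finset.sum_congr rfl fun i _ => ?_
      rw [map_mul, hγ, hBb i, Algebra.smul_def]
    rw [e2, Bb.repr_sum_self (fun i => γ i j)]
    rfl
  rw [h2, RingHom.map_det, h3, ← RingHom.map_det, Algebra.norm_eq_matrix_det Bb, h4]

section RedDatum

variable {K F k Fb : Type*} [Field K] [Field F] [Algebra K F] [Field k] [Field Fb] [Algebra k Fb]

/-- norms commute with reduction, from a basis as in GR2 and the Gauss property GR1. -/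
theorem h88_norm_red_of_basis (R : h39_RedDatum K F k Fb) {x : F} (hx : h39_WeakChart R x)
    (hgauss : ∀ c : K⟮x⟯, (c : F) ∈ R.O → R.redF (c : F) ∈ k⟮R.redF x⟯)
    (b : Module.Basis (Fin (Module.finrank K⟮x⟯ F)) K⟮x⟯ F) (hbO : ∀ i, b i ∈ R.O)
    (hbli : LinearIndependent k⟮R.redF x⟯ (fun i => R.redF (b i)))
    (hbcoord : ∀ f : F, f ∈ R.O → ∀ i, ((b.repr f i : K⟮x⟯) : F) ∈ R.O)
    (f : F) (hf : f ∈ R.O) :
    ((Algebra.norm K⟮x⟯ f : K⟮x⟯) : F) ∈ R.O ∧
      R.redF ((Algebra.norm K⟮x⟯ f : K⟮x⟯) : F) =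
        ((Algebra.norm k⟮R.redF x⟯ (R.redF f) : k⟮R.redF x⟯) : Fb) := by
  classical
  have hfin : Module.Finite K⟮x⟯ F := hx.finite
  have hpos : 0 < Module.finrank K⟮x⟯ F := Module.finrank_pos
  have hne : Nonempty (Fin (Module.finrank K⟮x⟯ F)) := Fin.pos_iff_nonempty.1 hpos
  have hcard : Fintype.card (Fin (Module.finrank K⟮x⟯ F)) = Module.finrank k⟮R.redF x⟯ Fb := by
    rw [Fintype.card_fin, hx.finrank_eq]
  obtain ⟨Bb, hBb⟩ : ∃ Bb : Module.Basis (Fin (Module.finrank K⟮x⟯ F)) k⟮R.redF x⟯ Fb,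
      ∀ i, Bb i = R.red ⟨b i, hbO i⟩ :=
    ⟨basisOfLinearIndependentOfCardEqFinrank hbli hcard, fun i => by
      rw [coe_basisOfLinearIndependentOfCardEqFinrank, R.redF_of_mem (hbO i)]⟩
  obtain ⟨h, hred⟩ := h88_norm_red_core (E := K⟮x⟯) (Eb := k⟮R.redF x⟯) R.O R.red b hbO Bb hBb
    (fun c hc => ⟨⟨R.redF (c : F), hgauss c hc⟩, (R.redF_of_mem (f := (c : F)) hc).symm⟩)
    hbcoord f hf
  have h' : ((Algebra.norm K⟮x⟯ f : K⟮x⟯) : F) ∈ R.O := h
  refine ⟨h', ?_⟩
  rw [R.redF_of_mem h', R.redF_of_mem hf]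
  exact hred

end RedDatum

end Fermat.Agent.S18
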