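/-
S18 / GR3' (helper88): norms commute with reduction.

`h39_norm_red` (verbatim from the GR skeleton): for a weak chart `x` and `f ∈ R.O`, the norm
`N_{F/K(x)} f` lies in `R.O` and reduces to `N_{Fb/k(x̄)} (redF f)`.
The proof is `h88_norm_red_of_basis` (`h88_NormCore.lean`) applied to the orthonormal basis of
GR2 (`h39_exists_basis`) and the Gauss property of GR1 (`h39_gauss_redF_mem`).
-/
import Fermat.Agent.S18.GR_Gauss
import Fermat.Agent.S18.GR_Basis
import Fermat.Agent.S18.h88_NormCore

set_option autoImplicit false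

noncomputable section

open AlgebraicCurve IntermediateField Polynomial

namespace Fermat.Agent.S18

variable {K F k Fb : Type*} [Field K] [Field F] [Algebra K F] [Field k] [Field Fb] [Algebra k Fb]

section GR3'

variable (R : h39_RedDatum K F k Fb) {x : F} (hx : h39_WeakChart R x)

include hx in
theorem h39_norm_red {f : F} (hf : f ∈ R.O) :
    ((Algebra.norm K⟮x⟯ f : K⟮x⟯) : F) ∈ R.O ∧
      R.redF ((Algebra.norm K⟮x⟯ f : K⟮x⟯) : F) =
        ((Algebra.norm k⟮R.redF x⟯ (R.redF f) : k⟮R.redF x⟯) : Fb) := by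
  obtain ⟨b, hbO, hbli, hbcoord⟩ := h39_exists_basis R hx
  exact h88_norm_red_of_basis R hx (fun c _ => h39_gauss_redF_mem R hx (c : F) c.2) b hbO hbli
    (fun f hf => (hbcoord f).1 hf) f hf

end GR3'

end Fermat.Agent.S18

end
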