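/-
S18 TOP-RED (helper60): the frozen statement S18 (prime-to-ℓ torsion of `JZero N` injects under
`reductionModL`) reduced, in Prelude terms only, to a "core" statement about integral functions.

Notation in comments: `Qb = AlgebraicClosure ℚ`, `F = modularFunctionFieldBar N`,
`k = IsLocalRing.ResidueField A`, `π = IsLocalRing.residue A`, `Fk = modularFunctionFieldFullC k N`.
-/
import Mathlib
import Fermat.Prelude.Def_ModularCurve_ReductionModL

set_option autoImplicit false
set_option synthInstance.maxHeartbeats 400000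

noncomputable section

open HahnSeries IntermediateField AlgebraicCurve ModularCurve

namespace Fermat.Agent.S18

/-- `y` (a Laurent series with coefficients in the valuation ring `A`) is *integral of level `N`*:
its image over `Qb` lies in `F`, its reduction lies in `Fk`, and the reduction is non-zero.
These are exactly the three side conditions of `IsPlaceReductionAlong` and
`integralPrincipalDivisors`. -/
def h60_IsInt (N : ℕ) (A : ValuationSubring (AlgebraicClosure ℚ)) (y : LaurentSeries A) : Prop :=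
  coeffMap A.subtype y ∈ modularFunctionFieldBar N ∧
    coeffMap (IsLocalRing.residue A) y ∈
      modularFunctionFieldFullC (IsLocalRing.ResidueField A) N ∧
    coeffMap (IsLocalRing.residue A) y ≠ 0

section Basic

variable {N : ℕ} {A : ValuationSubring (AlgebraicClosure ℚ)}

/-- the characteristic-zero function attached to an integral `y`. -/
def h60_up (y : LaurentSeries A) (h : h60_IsInt N A y) : modularFunctionFieldBar N :=
  ⟨coeffMap A.subtype y, h.1⟩

/-- the reduction of an integral `y`, as an element of `Fk`. -/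
def h60_dn (y : LaurentSeries A) (h : h60_IsInt N A y) :
    modularFunctionFieldFullC (IsLocalRing.ResidueField A) N :=
  ⟨coeffMap (IsLocalRing.residue A) y, h.2.1⟩

@[simp] theorem h60_up_coe (y : LaurentSeries A) (h : h60_IsInt N A y) :
    ((h60_up y h : modularFunctionFieldBar N) : LaurentSeries (AlgebraicClosure ℚ)) =
      coeffMap A.subtype y := rfl

@[simp] theorem h60_dn_coe (y : LaurentSeries A) (h : h60_IsInt N A y) :
    ((h60_dn y h : modularFunctionFieldFullC (IsLocalRing.ResidueField A) N) :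
        LaurentSeries (IsLocalRing.ResidueField A)) =
      coeffMap (IsLocalRing.residue A) y := rfl

theorem h60_dn_ne_zero (y : LaurentSeries A) (h : h60_IsInt N A y) : h60_dn y h ≠ 0 := by
  intro h0
  exact h.2.2 (congrArg Subtype.val h0)

theorem h60_coeffMap_subtype_injective :
    Function.Injective (coeffMap (A.subtype) : LaurentSeries A → LaurentSeries (AlgebraicClosure ℚ)) := by
  intro x y hxy
  ext n
  have := congrArg (fun s => HahnSeries.coeff s n) hxy
  simpa using this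

theorem h60_up_ne_zero (y : LaurentSeries A) (h : h60_IsInt N A y) : h60_up y h ≠ 0 := by
  intro h0
  have h1 : coeffMap A.subtype y = 0 := congrArg Subtype.val h0
  have h2 : y = 0 := h60_coeffMap_subtype_injective (by rw [h1, map_zero])
  exact h.2.2 (by rw [h2, map_zero])

theorem h60_isInt_one : h60_IsInt N A 1 :=
  ⟨by rw [map_one]; exact one_mem _, by rw [map_one]; exact one_mem _,
    by rw [map_one]; exact one_ne_zero⟩

theorem h60_isInt_mul {y₁ y₂ : LaurentSeries A} (h₁ : h60_IsInt N A y₁) (h₂ : h60_IsInt N A y₂) :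
    h60_IsInt N A (y₁ * y₂) :=
  ⟨by rw [map_mul]; exact mul_mem h₁.1 h₂.1, by rw [map_mul]; exact mul_mem h₁.2.1 h₂.2.1,
    by rw [map_mul]; exact mul_ne_zero h₁.2.2 h₂.2.2⟩

theorem h60_isInt_pow {y : LaurentSeries A} (h : h60_IsInt N A y) (n : ℕ) :
    h60_IsInt N A (y ^ n) :=
  ⟨by rw [map_pow]; exact pow_mem h.1 n, by rw [map_pow]; exact pow_mem h.2.1 n,
    by rw [map_pow]; exact pow_ne_zero n h.2.2⟩

theorem h60_up_one (h : h60_IsInt N A 1) : h60_up (1 : LaurentSeries A) h = 1 :=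
  Subtype.ext (by simp)

theorem h60_dn_one (h : h60_IsInt N A 1) : h60_dn (1 : LaurentSeries A) h = 1 :=
  Subtype.ext (by simp)

theorem h60_up_mul {y₁ y₂ : LaurentSeries A} (h₁ : h60_IsInt N A y₁) (h₂ : h60_IsInt N A y₂)
    (h : h60_IsInt N A (y₁ * y₂)) : h60_up (y₁ * y₂) h = h60_up y₁ h₁ * h60_up y₂ h₂ :=
  Subtype.ext (by simp)

theorem h60_dn_mul {y₁ y₂ : LaurentSeries A} (h₁ : h60_IsInt N A y₁) (h₂ : h60_IsInt N A y₂)
    (h : h60_IsInt N A (y₁ * y₂)) : h60_dn (y₁ * y₂) h = h60_dn y₁ h₁ * h60_dn y₂ h₂ :=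
  Subtype.ext (by simp)

theorem h60_up_pow {y : LaurentSeries A} (h₁ : h60_IsInt N A y) (n : ℕ)
    (h : h60_IsInt N A (y ^ n)) : h60_up (y ^ n) h = h60_up y h₁ ^ n :=
  Subtype.ext (by simp)

theorem h60_dn_pow {y : LaurentSeries A} (h₁ : h60_IsInt N A y) (n : ℕ)
    (h : h60_IsInt N A (y ^ n)) : h60_dn (y ^ n) h = h60_dn y h₁ ^ n :=
  Subtype.ext (by simp)

/-- constants with non-zero residue are integral. -/
theorem h60_isInt_const (a : A) (ha : IsLocalRing.residue A a ≠ 0) :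
    h60_IsInt N A (HahnSeries.single 0 a) := by
  refine ⟨?_, ?_, ?_⟩
  · rw [coeffMap_single, ← algebraMap_laurentSeries_eq_single]
    exact (modularFunctionFieldBar N).algebraMap_mem _
  · rw [coeffMap_single, ← algebraMap_laurentSeries_eq_single]
    exact (modularFunctionFieldFullC (IsLocalRing.ResidueField A) N).algebraMap_mem _
  · rw [coeffMap_single]
    intro h0
    exact ha (HahnSeries.single_eq_zero_iff.mp h0)

theorem h60_up_const (a : A) (h : h60_IsInt N A (HahnSeries.single 0 a)) :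
    h60_up (HahnSeries.single 0 a) h =
      algebraMap (AlgebraicClosure ℚ) (modularFunctionFieldBar N) (a : AlgebraicClosure ℚ) := by
  apply Subtype.ext
  rw [h60_up_coe, coeffMap_single]
  exact (algebraMap_laurentSeries_eq_single (AlgebraicClosure ℚ) _).symm

theorem h60_dn_const (a : A) (h : h60_IsInt N A (HahnSeries.single 0 a)) :
    h60_dn (HahnSeries.single 0 a) h =
      algebraMap (IsLocalRing.ResidueField A)
        (modularFunctionFieldFullC (IsLocalRing.ResidueField A) N) (IsLocalRing.residue A a) := by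
  apply Subtype.ext
  rw [h60_dn_coe, coeffMap_single]
  exact (algebraMap_laurentSeries_eq_single (IsLocalRing.ResidueField A) _).symm

end Basic

section Ord

variable {K F : Type*} [Field K] [Field F] [Algebra K F]

/-- constants have order `0` at every place. -/
theorem h60_ord_algebraMap (P : Place K F) (c : K) : P.ord (algebraMap K F c) = 0 := by
  rcases eq_or_ne c 0 with rfl | hc
  · simp
  · have h1 := P.algebraMap_mem' c
    have h2 := P.algebraMap_mem' c⁻¹
    have hmul : algebraMap K F c * algebraMap K F c⁻¹ = 1 := by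
      rw [← map_mul, mul_inv_cancel₀ hc, map_one]
    let u : P.toValuationSubringˣ :=
      ⟨⟨algebraMap K F c, h1⟩, ⟨algebraMap K F c⁻¹, h2⟩, Subtype.ext hmul,
        Subtype.ext ((mul_comm _ _).trans hmul)⟩
    exact P.ord_coe_unit u

theorem h60_ord_pow (P : Place K F) (f : F) (n : ℕ) : P.ord (f ^ n) = n * P.ord f := by
  have := P.ord_zpow f n
  rwa [zpow_natCast] at this

theorem h60_ord_div (P : Place K F) {f g : F} (hf : f ≠ 0) (hg : g ≠ 0) :
    P.ord (f / g) = P.ord f - P.ord g := by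
  rw [div_eq_mul_inv, P.ord_mul hf (inv_ne_zero hg), P.ord_inv]
  ring

end Ord

section Lift

variable (N : ℕ) (A : ValuationSubring (AlgebraicClosure ℚ))

/-- every element of the `k`-algebra generated by the `j(q^d)`, `d ∣ N`, is the reduction of an
`A`-integral Laurent series whose characteristic-zero image lies in `F`. -/
theorem h60_exists_lift_of_mem_adjoin {x : LaurentSeries (IsLocalRing.ResidueField A)}
    (hx : x ∈ Algebra.adjoin (IsLocalRing.ResidueField A)
      (divisorExpansionsC (IsLocalRing.ResidueField A) N)) :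
    ∃ y : LaurentSeries A, coeffMap A.subtype y ∈ modularFunctionFieldBar N ∧
      coeffMap (IsLocalRing.residue A) y = x := by
  induction hx using Algebra.adjoin_induction with
  | mem x hx =>
    obtain ⟨d, hd0, hdN, rfl⟩ := hx
    have := hd0
    refine ⟨jqNModC A d, ?_, ?_⟩
    · rw [coeffMap_jqNModC]
      have h1 : jqNModC (AlgebraicClosure ℚ) d =
          coeffEmb (AlgebraicClosure ℚ) (qExpand ℚ d jq) := by
        have h2 : coeffEmb (AlgebraicClosure ℚ) (qExpand ℚ d jq) =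
            coeffMap (algebraMap ℚ (AlgebraicClosure ℚ)) (jqNModC ℚ d) := rfl
        rw [h2, coeffMap_jqNModC]
      rw [h1]
      exact coeffEmb_mem_laurentBaseChange _ (jqd_mem_full N hdN)
    · rw [coeffMap_jqNModC]
      rfl
  | algebraMap c =>
    obtain ⟨a, rfl⟩ := IsLocalRing.residue_surjective c
    refine ⟨HahnSeries.single 0 a, ?_, ?_⟩
    · rw [coeffMap_single, ← algebraMap_laurentSeries_eq_single]
      exact (modularFunctionFieldBar N).algebraMap_mem _
    · rw [coeffMap_single, ← algebraMap_laurentSeries_eq_single]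
  | add x y _ _ hx hy =>
    obtain ⟨a, ha, rfl⟩ := hx
    obtain ⟨b, hb, rfl⟩ := hy
    exact ⟨a + b, by rw [map_add]; exact add_mem ha hb, map_add _ _ _⟩
  | mul x y _ _ hx hy =>
    obtain ⟨a, ha, rfl⟩ := hx
    obtain ⟨b, hb, rfl⟩ := hy
    exact ⟨a * b, by rw [map_mul]; exact mul_mem ha hb, map_mul _ _ _⟩

variable {N A}

/-- (C2) every non-zero element of `Fk` is a quotient of reductions of integral functions. -/
theorem h60_exists_frac (φ : modularFunctionFieldFullC (IsLocalRing.ResidueField A) N)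
    (hφ : φ ≠ 0) :
    ∃ (y₃ : LaurentSeries A) (h₃ : h60_IsInt N A y₃) (y₄ : LaurentSeries A)
      (h₄ : h60_IsInt N A y₄), φ = h60_dn y₃ h₃ / h60_dn y₄ h₄ := by
  obtain ⟨r, hr, s, hs, hrs⟩ := IntermediateField.mem_adjoin_iff_div.mp φ.2
  have hr0 : r ≠ 0 := by
    rintro rfl
    exact hφ (Subtype.ext (by rw [hrs]; simp))
  have hs0 : s ≠ 0 := by
    rintro rfl
    exact hφ (Subtype.ext (by rw [hrs]; simp))
  obtain ⟨y₃, hy₃, rfl⟩ := h60_exists_lift_of_mem_adjoin N A hr
  obtain ⟨y₄, hy₄, rfl⟩ := h60_exists_lift_of_mem_adjoin N A hs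
  have hle := IntermediateField.algebra_adjoin_le_adjoin (IsLocalRing.ResidueField A)
    (divisorExpansionsC (IsLocalRing.ResidueField A) N)
  refine ⟨y₃, ⟨hy₃, hle hr, hr0⟩, y₄, ⟨hy₄, hle hs, hs0⟩, ?_⟩
  apply Subtype.ext
  rw [hrs]
  rfl

/-- (Step A) a principal divisor of `F` is a difference of divisors of integral functions. -/
theorem h60_exists_pair (hgen : PrincipalGeneratedByIntegral A (IsLocalRing.residue A) N)
    {E : Divisor (AlgebraicClosure ℚ) (modularFunctionFieldBar N)}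
    (hE : E ∈ Divisor.principal (K := AlgebraicClosure ℚ) (F := modularFunctionFieldBar N)) :
    ∃ (y₁ : LaurentSeries A) (h₁ : h60_IsInt N A y₁) (y₂ : LaurentSeries A)
      (h₂ : h60_IsInt N A y₂)
      (D₁ D₂ : Divisor (AlgebraicClosure ℚ) (modularFunctionFieldBar N)),
      (∀ P, D₁ P = P.ord (h60_up y₁ h₁)) ∧ (∀ P, D₂ P = P.ord (h60_up y₂ h₂)) ∧
        E = D₁ - D₂ := by
  have hE' := hgen hE
  clear hE
  induction hE' using AddSubgroup.closure_induction with
  | mem E hE =>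
    obtain ⟨y, hy, hyk, hne, hD⟩ := hE
    exact ⟨y, ⟨hy, hyk, hne⟩, 1, h60_isInt_one, E, 0, hD,
      fun P => by rw [h60_up_one]; simp, (sub_zero E).symm⟩
  | zero =>
    exact ⟨1, h60_isInt_one, 1, h60_isInt_one, 0, 0, fun P => by rw [h60_up_one]; simp,
      fun P => by rw [h60_up_one]; simp, (sub_zero 0).symm⟩
  | add E E' _ _ hE hE' =>
    obtain ⟨y₁, h₁, y₂, h₂, D₁, D₂, hD₁, hD₂, rfl⟩ := hE
    obtain ⟨y₁', h₁', y₂', h₂', D₁', D₂', hD₁', hD₂', rfl⟩ := hE'
    refine ⟨y₁ * y₁', h60_isInt_mul h₁ h₁', y₂ * y₂', h60_isInt_mul h₂ h₂', D₁ + D₁',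
      D₂ + D₂', fun P => ?_, fun P => ?_, by abel⟩
    · rw [h60_up_mul h₁ h₁', P.ord_mul (h60_up_ne_zero _ _) (h60_up_ne_zero _ _),
        Finsupp.add_apply, hD₁, hD₁']
    · rw [h60_up_mul h₂ h₂', P.ord_mul (h60_up_ne_zero _ _) (h60_up_ne_zero _ _),
        Finsupp.add_apply, hD₂, hD₂']
  | neg E _ hE =>
    obtain ⟨y₁, h₁, y₂, h₂, D₁, D₂, hD₁, hD₂, rfl⟩ := hE
    exact ⟨y₂, h₂, y₁, h₁, D₂, D₁, hD₂, hD₁, by abel⟩

end Lift

section Main

/-- **TOP-RED, four-function form (no extra hypothesis).**  The frozen S18 conclusion follows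
from: for integral `U₁ U₂ V₁ V₂` and a divisor `D` of `F` with `m • D = div(U₂) - div(U₁)` upstairs
and `div(Ū₂) - div(Ū₁) = m • (div(V̄₂) - div(V̄₁))` downstairs, `D` is principal. -/
theorem h60_S18_of_core4 (N : ℕ) [NeZero N] (A : ValuationSubring (AlgebraicClosure ℚ))
    (h : ReductionInputsModL A N) (m : ℕ)
    (hcore : ∀ (U₁ U₂ V₁ V₂ : LaurentSeries A) (hU₁ : h60_IsInt N A U₁) (hU₂ : h60_IsInt N A U₂)
      (hV₁ : h60_IsInt N A V₁) (hV₂ : h60_IsInt N A V₂)
      (D : Divisor (AlgebraicClosure ℚ) (modularFunctionFieldBar N)),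
      (∀ P : Place (AlgebraicClosure ℚ) (modularFunctionFieldBar N),
        (m : ℤ) * D P = P.ord (h60_up U₂ hU₂) - P.ord (h60_up U₁ hU₁)) →
      (∀ Q : Place (IsLocalRing.ResidueField A)
          (modularFunctionFieldFullC (IsLocalRing.ResidueField A) N),
        Q.ord (h60_dn U₂ hU₂) - Q.ord (h60_dn U₁ hU₁) =
          (m : ℤ) * (Q.ord (h60_dn V₂ hV₂) - Q.ord (h60_dn V₁ hV₁))) →
      D ∈ Divisor.principal (K := AlgebraicClosure ℚ) (F := modularFunctionFieldBar N))
    (z : JZero N) (hmz : m • z = 0) (hz : reductionModL A N z = 0) : z = 0 := by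
  obtain ⟨D, rfl⟩ := Pic0.mk_surjective z
  have hr := isPlaceReductionModL_placeReductionModL h
  have hgen : PrincipalGeneratedByIntegral A (IsLocalRing.residue A) N := h.choose_spec.2
  -- torsion: `m • D` is principal
  have h1 : m • (D : Divisor (AlgebraicClosure ℚ) (modularFunctionFieldBar N)) ∈
      Divisor.principal (K := AlgebraicClosure ℚ) (F := modularFunctionFieldBar N) := by
    have h1' : Pic0.mk (m • D) = 0 := by
      rw [← hmz]
      exact QuotientAddGroup.mk_nsmul _ D m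
    have h1'' := (QuotientAddGroup.eq_zero_iff _).mp h1'
    rw [AddSubgroup.mem_addSubgroupOf] at h1''
    simpa using h1''
  -- reduction: `r_* D` is principal
  rw [reductionModL_mk h D] at hz
  have h2 : Finsupp.mapDomain (placeReductionModL h)
      (D : Divisor (AlgebraicClosure ℚ) (modularFunctionFieldBar N)) ∈
      Divisor.principal (K := IsLocalRing.ResidueField A)
        (F := modularFunctionFieldFullC (IsLocalRing.ResidueField A) N) := by
    have h2' := (QuotientAddGroup.eq_zero_iff _).mp hz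
    rw [AddSubgroup.mem_addSubgroupOf] at h2'
    exact h2'
  obtain ⟨φ, hφ0, hφ⟩ := h2
  obtain ⟨y₃, h₃, y₄, h₄, rfl⟩ := h60_exists_frac φ hφ0
  obtain ⟨y₁, h₁, y₂, h₂, D₁, D₂, hD₁, hD₂, hE⟩ := h60_exists_pair hgen h1
  have hDprin : (D : Divisor (AlgebraicClosure ℚ) (modularFunctionFieldBar N)) ∈
      Divisor.principal (K := AlgebraicClosure ℚ) (F := modularFunctionFieldBar N) := by
    refine hcore y₂ y₁ y₄ y₃ h₂ h₁ h₄ h₃ D (fun P => ?_) (fun Q => ?_)
    · have h3 := congrArg (fun E : Divisor (AlgebraicClosure ℚ) (modularFunctionFieldBar N) =>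
        E P) hE
      simp only [Finsupp.smul_apply, Finsupp.sub_apply, hD₁, hD₂] at h3
      rw [← h3]
      simp
    · have e1 := hr.2 y₁ h₁.1 h₁.2.1 h₁.2.2 D₁ hD₁ Q
      have e2 := hr.2 y₂ h₂.1 h₂.2.1 h₂.2.2 D₂ hD₂ Q
      have e3 : Finsupp.mapDomain (placeReductionModL h)
          (m • (D : Divisor (AlgebraicClosure ℚ) (modularFunctionFieldBar N))) Q =
          (m : ℤ) * (Q.ord (h60_dn y₃ h₃) - Q.ord (h60_dn y₄ h₄)) := by
        rw [← Finsupp.mapDomain.addMonoidHom_apply, map_nsmul,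
          Finsupp.mapDomain.addMonoidHom_apply, Finsupp.smul_apply, hφ Q,
          h60_ord_div Q (h60_dn_ne_zero _ _) (h60_dn_ne_zero _ _)]
        simp
      rw [hE, Finsupp.mapDomain_sub, Finsupp.sub_apply, e1, e2] at e3
      exact e3
  exact (QuotientAddGroup.eq_zero_iff _).mpr (by
    rw [AddSubgroup.mem_addSubgroupOf]
    exact hDprin)

/-- **TOP-RED, two-function form (no extra hypothesis).**  `d` is a plain function on places
(so that no divisor has to be constructed): for integral `U₁ U₂` with `div(Ū₁) = div(Ū₂)`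
downstairs and `m * d = div(U₂) - div(U₁)` upstairs, `d` is the divisor of a function. -/
theorem h60_S18_of_core2 (N : ℕ) [NeZero N] (A : ValuationSubring (AlgebraicClosure ℚ))
    (h : ReductionInputsModL A N) (m : ℕ)
    (hcore : ∀ (U₁ U₂ : LaurentSeries A) (hU₁ : h60_IsInt N A U₁) (hU₂ : h60_IsInt N A U₂)
      (d : Place (AlgebraicClosure ℚ) (modularFunctionFieldBar N) → ℤ),
      (∀ P : Place (AlgebraicClosure ℚ) (modularFunctionFieldBar N),
        (m : ℤ) * d P = P.ord (h60_up U₂ hU₂) - P.ord (h60_up U₁ hU₁)) →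
      (∀ Q : Place (IsLocalRing.ResidueField A)
          (modularFunctionFieldFullC (IsLocalRing.ResidueField A) N),
        Q.ord (h60_dn U₁ hU₁) = Q.ord (h60_dn U₂ hU₂)) →
      ∃ g : modularFunctionFieldBar N, g ≠ 0 ∧ ∀ P, d P = P.ord g)
    (z : JZero N) (hmz : m • z = 0) (hz : reductionModL A N z = 0) : z = 0 := by
  refine h60_S18_of_core4 N A h m (fun U₁ U₂ V₁ V₂ hU₁ hU₂ hV₁ hV₂ D hD hQ => ?_) z hmz hz
  have hI₂ := h60_isInt_mul hU₂ (h60_isInt_pow hV₁ m)
  have hI₁ := h60_isInt_mul hU₁ (h60_isInt_pow hV₂ m)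
  have key : ∃ g : modularFunctionFieldBar N, g ≠ 0 ∧
      ∀ P : Place (AlgebraicClosure ℚ) (modularFunctionFieldBar N),
        D P + P.ord (h60_up V₁ hV₁) - P.ord (h60_up V₂ hV₂) = P.ord g := by
    refine hcore (U₁ * V₂ ^ m) (U₂ * V₁ ^ m) hI₁ hI₂
      (fun P => D P + P.ord (h60_up V₁ hV₁) - P.ord (h60_up V₂ hV₂)) (fun P => ?_) (fun Q => ?_)
    · rw [h60_up_mul hU₂ (h60_isInt_pow hV₁ m), h60_up_mul hU₁ (h60_isInt_pow hV₂ m),
        h60_up_pow hV₁, h60_up_pow hV₂,
        P.ord_mul (h60_up_ne_zero _ _) (pow_ne_zero _ (h60_up_ne_zero _ _)),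
        P.ord_mul (h60_up_ne_zero _ _) (pow_ne_zero _ (h60_up_ne_zero _ _)),
        h60_ord_pow, h60_ord_pow]
      have h3 := hD P
      rw [mul_sub, mul_add, h3]
      ring
    · rw [h60_dn_mul hU₂ (h60_isInt_pow hV₁ m), h60_dn_mul hU₁ (h60_isInt_pow hV₂ m),
        h60_dn_pow hV₁, h60_dn_pow hV₂,
        Q.ord_mul (h60_dn_ne_zero _ _) (pow_ne_zero _ (h60_dn_ne_zero _ _)),
        Q.ord_mul (h60_dn_ne_zero _ _) (pow_ne_zero _ (h60_dn_ne_zero _ _)),
        h60_ord_pow, h60_ord_pow]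
      have h3 := hQ Q
      rw [mul_sub] at h3
      linarith
  obtain ⟨g, hg0, hg⟩ := key
  refine ⟨g * h60_up V₂ hV₂ / h60_up V₁ hV₁,
    div_ne_zero (mul_ne_zero hg0 (h60_up_ne_zero _ _)) (h60_up_ne_zero _ _), fun P => ?_⟩
  rw [h60_ord_div P (mul_ne_zero hg0 (h60_up_ne_zero _ _)) (h60_up_ne_zero _ _),
    P.ord_mul hg0 (h60_up_ne_zero _ _), ← hg P]
  ring

/-- **TOP-RED, "reduction = 1" form.**  Needs only that functions of `Fk` without zeros and
poles are constant (`hconst`).  For integral `U₁ U₂` with the *same* reduction (i.e. `u = U₂/U₁`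
reduces to `1`) and `m * d = div(u)`, `d` is the divisor of a function. -/
theorem h60_S18_of_core1 (N : ℕ) [NeZero N] (A : ValuationSubring (AlgebraicClosure ℚ))
    (h : ReductionInputsModL A N) (m : ℕ)
    (hconst : ∀ g : modularFunctionFieldFullC (IsLocalRing.ResidueField A) N, g ≠ 0 →
      (∀ Q : Place (IsLocalRing.ResidueField A)
          (modularFunctionFieldFullC (IsLocalRing.ResidueField A) N), Q.ord g = 0) →
      ∃ c : IsLocalRing.ResidueField A,
        g = algebraMap (IsLocalRing.ResidueField A)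
          (modularFunctionFieldFullC (IsLocalRing.ResidueField A) N) c)
    (hcore : ∀ (U₁ U₂ : LaurentSeries A) (hU₁ : h60_IsInt N A U₁) (hU₂ : h60_IsInt N A U₂)
      (d : Place (AlgebraicClosure ℚ) (modularFunctionFieldBar N) → ℤ),
      coeffMap (IsLocalRing.residue A) U₁ = coeffMap (IsLocalRing.residue A) U₂ →
      (∀ P : Place (AlgebraicClosure ℚ) (modularFunctionFieldBar N),
        (m : ℤ) * d P = P.ord (h60_up U₂ hU₂) - P.ord (h60_up U₁ hU₁)) →
      ∃ g : modularFunctionFieldBar N, g ≠ 0 ∧ ∀ P, d P = P.ord g)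
    (z : JZero N) (hmz : m • z = 0) (hz : reductionModL A N z = 0) : z = 0 := by
  refine h60_S18_of_core2 N A h m (fun U₁ U₂ hU₁ hU₂ d hd hQ => ?_) z hmz hz
  have hne : h60_dn U₂ hU₂ / h60_dn U₁ hU₁ ≠ 0 :=
    div_ne_zero (h60_dn_ne_zero _ _) (h60_dn_ne_zero _ _)
  obtain ⟨c, hc⟩ := hconst (h60_dn U₂ hU₂ / h60_dn U₁ hU₁) hne (fun Q => by
    rw [h60_ord_div Q (h60_dn_ne_zero _ _) (h60_dn_ne_zero _ _), hQ Q, sub_self])
  obtain ⟨a, rfl⟩ := IsLocalRing.residue_surjective c
  have ha : IsLocalRing.residue A a ≠ 0 := by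
    intro h0
    rw [h0, map_zero] at hc
    exact hne hc
  have hIa : h60_IsInt N A (HahnSeries.single 0 a) := h60_isInt_const a ha
  have hI := h60_isInt_mul hIa hU₁
  refine hcore (HahnSeries.single 0 a * U₁) U₂ hI hU₂ d ?_ (fun P => ?_)
  · have h4 : h60_dn U₂ hU₂ = h60_dn (HahnSeries.single 0 a) hIa * h60_dn U₁ hU₁ := by
      rw [h60_dn_const, ← hc, div_mul_cancel₀ _ (h60_dn_ne_zero _ _)]
    have h5 := congrArg Subtype.val h4
    rw [map_mul]
    exact h5.symm
  · rw [h60_up_mul hIa hU₁, P.ord_mul (h60_up_ne_zero _ _) (h60_up_ne_zero _ _), h60_up_const,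
      h60_ord_algebraMap, zero_add]
    exact hd P

/-- **TOP-RED, datum form** (shaped to be fed by `h53_core`): `Ov` a valuation subring of `F`
with a reduction map `red : Ov →+* Fk` killing exactly the non-units, compatible with the
coefficientwise reduction of integral Laurent series.  Then S18 follows from
"`red u = 1` and `div u = m • D` imply `D` principal". -/
theorem h60_S18_of_datum (N : ℕ) [NeZero N] (A : ValuationSubring (AlgebraicClosure ℚ))
    [HasPrincipalDivisors (AlgebraicClosure ℚ) (modularFunctionFieldBar N)]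
    (h : ReductionInputsModL A N) (m : ℕ) (hm0 : m ≠ 0)
    (Ov : ValuationSubring (modularFunctionFieldBar N))
    (red : Ov →+* modularFunctionFieldFullC (IsLocalRing.ResidueField A) N)
    (hred0 : ∀ y : Ov, red y = 0 ↔ (y : modularFunctionFieldBar N) ∈ Ov.nonunits)
    (hcompat : ∀ (y : LaurentSeries A) (hy : h60_IsInt N A y),
      ∃ hmem : h60_up y hy ∈ Ov, red ⟨h60_up y hy, hmem⟩ = h60_dn y hy)
    (hconst : ∀ g : modularFunctionFieldFullC (IsLocalRing.ResidueField A) N, g ≠ 0 →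
      (∀ Q : Place (IsLocalRing.ResidueField A)
          (modularFunctionFieldFullC (IsLocalRing.ResidueField A) N), Q.ord g = 0) →
      ∃ c : IsLocalRing.ResidueField A,
        g = algebraMap (IsLocalRing.ResidueField A)
          (modularFunctionFieldFullC (IsLocalRing.ResidueField A) N) c)
    (hcore : ∀ (D : Divisor (AlgebraicClosure ℚ) (modularFunctionFieldBar N)) (u : Ov),
      red u = 1 →
      (∀ P : Place (AlgebraicClosure ℚ) (modularFunctionFieldBar N),
        P.ord (u : modularFunctionFieldBar N) = m * D P) →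
      ∃ g : modularFunctionFieldBar N, g ≠ 0 ∧ ∀ P, D P = P.ord g)
    (z : JZero N) (hmz : m • z = 0) (hz : reductionModL A N z = 0) : z = 0 := by
  refine h60_S18_of_core1 N A h m hconst (fun U₁ U₂ hU₁ hU₂ d hπ hd => ?_) z hmz hz
  obtain ⟨hm₁, hr₁⟩ := hcompat U₁ hU₁
  obtain ⟨hm₂, hr₂⟩ := hcompat U₂ hU₂
  have hne : red ⟨h60_up U₁ hU₁, hm₁⟩ ≠ 0 := by
    rw [hr₁]
    exact h60_dn_ne_zero _ _
  have hinv : (h60_up U₁ hU₁)⁻¹ ∈ Ov := by
    have hnu : h60_up U₁ hU₁ ∉ Ov.nonunits := fun hmem => hne ((hred0 _).mpr hmem)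
    rw [ValuationSubring.mem_nonunits_iff_or] at hnu
    push Not at hnu
    exact hnu.2
  have hdn : h60_dn U₁ hU₁ = h60_dn U₂ hU₂ := Subtype.ext hπ
  have hredinv : red ⟨h60_up U₁ hU₁, hm₁⟩ * red ⟨(h60_up U₁ hU₁)⁻¹, hinv⟩ = 1 := by
    have hmul : (⟨h60_up U₁ hU₁, hm₁⟩ * ⟨(h60_up U₁ hU₁)⁻¹, hinv⟩ : Ov) = 1 :=
      Subtype.ext (mul_inv_cancel₀ (h60_up_ne_zero U₁ hU₁))
    rw [← map_mul, hmul, map_one]
  have hmemu : h60_up U₂ hU₂ * (h60_up U₁ hU₁)⁻¹ ∈ Ov := Ov.mul_mem _ _ hm₂ hinv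
  have hu1 : red ⟨h60_up U₂ hU₂ * (h60_up U₁ hU₁)⁻¹, hmemu⟩ = 1 := by
    have hsplit : (⟨h60_up U₂ hU₂ * (h60_up U₁ hU₁)⁻¹, hmemu⟩ : Ov) =
        ⟨h60_up U₂ hU₂, hm₂⟩ * ⟨(h60_up U₁ hU₁)⁻¹, hinv⟩ := rfl
    rw [hsplit, map_mul, hr₂, ← hdn, ← hr₁]
    exact hredinv
  have hu0 : h60_up U₂ hU₂ * (h60_up U₁ hU₁)⁻¹ ≠ 0 :=
    mul_ne_zero (h60_up_ne_zero _ _) (inv_ne_zero (h60_up_ne_zero _ _))
  have hord : ∀ P : Place (AlgebraicClosure ℚ) (modularFunctionFieldBar N),
      P.ord (h60_up U₂ hU₂ * (h60_up U₁ hU₁)⁻¹) = m * d P := by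
    intro P
    rw [P.ord_mul (h60_up_ne_zero _ _) (inv_ne_zero (h60_up_ne_zero _ _)), P.ord_inv, hd P]
    ring
  obtain ⟨E, hE, -⟩ := HasPrincipalDivisors.exists_divisor
    (K := AlgebraicClosure ℚ) (h60_up U₂ hU₂ * (h60_up U₁ hU₁)⁻¹) hu0
  have hsupp : ∀ P : Place (AlgebraicClosure ℚ) (modularFunctionFieldBar N),
      d P ≠ 0 → P ∈ E.support := by
    intro P hP
    rw [Finsupp.mem_support_iff, hE P, hord P]
    exact mul_ne_zero (Nat.cast_ne_zero.mpr hm0) hP
  obtain ⟨D, hDd⟩ : ∃ D : Divisor (AlgebraicClosure ℚ) (modularFunctionFieldBar N),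
      ∀ P, D P = d P := ⟨Finsupp.onFinset E.support d hsupp, fun P => rfl⟩
  have hD : ∀ P : Place (AlgebraicClosure ℚ) (modularFunctionFieldBar N),
      P.ord ((⟨h60_up U₂ hU₂ * (h60_up U₁ hU₁)⁻¹, hmemu⟩ : Ov) : modularFunctionFieldBar N) =
        m * D P := by
    intro P
    rw [hDd P]
    exact hord P
  obtain ⟨g, hg0, hg⟩ := hcore D ⟨h60_up U₂ hU₂ * (h60_up U₁ hU₁)⁻¹, hmemu⟩ hu1 hD
  exact ⟨g, hg0, fun P => by rw [← hg P, hDd P]⟩

end Main

section Char

/-- the characteristic of `Fk` is `ℓ`: natural numbers prime to `ℓ` are non-zero in `Fk`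
(`hA` is definitionally `A.LiesOverPrime ℓ`). -/
theorem h60_natCast_ne_zero {ℓ : ℕ} [Fact ℓ.Prime] (A : ValuationSubring (AlgebraicClosure ℚ))
    (hA : (ℓ : AlgebraicClosure ℚ) ∈ A.nonunits) (N : ℕ) (m : ℕ) (hm : ¬ ℓ ∣ m) :
    ((m : ℕ) : modularFunctionFieldFullC (IsLocalRing.ResidueField A) N) ≠ 0 := by
  intro h0
  have h1 : ((m : ℕ) : IsLocalRing.ResidueField A) = 0 := by
    have h2 : algebraMap (IsLocalRing.ResidueField A)
        (modularFunctionFieldFullC (IsLocalRing.ResidueField A) N)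
        ((m : ℕ) : IsLocalRing.ResidueField A) = 0 := by
      rw [map_natCast]
      exact h0
    exact (map_eq_zero _).mp h2
  have h3 : ((m : ℕ) : A) ∈ IsLocalRing.maximalIdeal A := by
    rw [← IsLocalRing.residue_eq_zero_iff, map_natCast]
    exact h1
  have h4 : ((ℓ : ℕ) : A) ∈ IsLocalRing.maximalIdeal A := by
    rw [← ValuationSubring.coe_mem_nonunits_iff]
    simpa using hA
  have hcop : IsCoprime (m : ℤ) (ℓ : ℤ) := by
    rw [Nat.isCoprime_iff_coprime]
    exact ((Nat.Prime.coprime_iff_not_dvd (Fact.out : ℓ.Prime)).mpr hm).symm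
  obtain ⟨a, b, hab⟩ := hcop
  have h5 : (1 : A) ∈ IsLocalRing.maximalIdeal A := by
    have h6 : ((a : ℤ) : A) * ((m : ℕ) : A) + ((b : ℤ) : A) * ((ℓ : ℕ) : A) = 1 := by
      have := congrArg (Int.cast : ℤ → A) hab
      push_cast at this
      exact this
    rw [← h6]
    exact Ideal.add_mem _ (Ideal.mul_mem_left _ _ h3) (Ideal.mul_mem_left _ _ h4)
  exact (Ideal.ne_top_iff_one _).mp (IsLocalRing.maximalIdeal.isMaximal A).ne_top h5

end Char

end Fermat.Agent.S18
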