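import Fermat.Agent.S18.h53_CoreFinish

/-!
# S18 CORE theorem (layer 8 of the route)

`h53_core`: for an abstract good-reduction datum with rank-one constants, lifting of
Riemann–Roch spaces in large degree and two places with different reductions: if `u` is a
`v`-unit with `red u = 1` and `div u = m • D` with `m` invertible in the residue field, then
`u` is an `m`-th power in `F` (so `D` is principal).
-/

set_option autoImplicit false

namespace Fermat.Agent.S18

open AlgebraicCurve Fermat.Agent.S24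

variable {K F k Fb : Type*} [Field K] [Field F] [Algebra K F] [Field k] [Field Fb] [Algebra k Fb]

/-- **CORE theorem.** -/
theorem h53_core [IsAlgClosed K] [HasPrincipalDivisors K F] (R : h53_RedDatum K F k Fb)
    (hrank : ∀ a d : K, a ≠ 0 → algebraMap K F a ∈ R.Ov.nonunits → d ≠ 0 →
      ∃ n : ℕ, algebraMap K F (d * (a ^ n)⁻¹) ∉ R.Ov)
    (d0 : ℤ) (hlift : ∀ D' : Divisor K F, d0 ≤ Divisor.degree D' → R.Liftable D')
    (hdeg : ∀ P : Place K F, P.deg = 1) (P₁ P₂ : Place K F) (h12 : R.r0 P₁ ≠ R.r0 P₂)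
    (m : ℕ) (hm : (m : Fb) ≠ 0) (D : Divisor K F) (u : R.Ov) (hu1 : R.red u = 1)
    (hu : ∀ P : Place K F, P.ord (u : F) = m * D P) :
    ∃ g : F, g ^ m = (u : F) ∧ g ≠ 0 ∧ ∀ P : Place K F, D P = P.ord g := by
  classical
  have hm0 : m ≠ 0 := by rintro rfl; simp at hm
  have huF : (u : F) ≠ 0 := R.coe_ne_zero_of_red_ne_zero (by rw [hu1]; exact one_ne_zero)
  -- it suffices to find an `m`-th root
  suffices h : ∃ g : F, g ^ m = (u : F) by
    obtain ⟨g, hg⟩ := h
    have hg0 : g ≠ 0 := by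
      rintro rfl
      rw [zero_pow hm0] at hg
      exact huF hg.symm
    refine ⟨g, hg, hg0, fun P => ?_⟩
    have := hu P
    rw [← hg, ← zpow_natCast, P.ord_zpow] at this
    exact (mul_left_cancel₀ (by exact_mod_cast hm0) this).symm
  -- the auxiliary divisor `E = n • P₁`
  obtain ⟨n, hn⟩ : ∃ n : ℕ, (n : ℤ) = |Divisor.degree D| + |d0| :=
    ⟨(|Divisor.degree D| + |d0|).toNat, Int.toNat_of_nonneg (by positivity)⟩
  have hsingle_nonneg : ∀ P' : Place K F, (0 : Divisor K F) ≤ Finsupp.single P' (n : ℤ) := by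
    intro P' P
    rw [Finsupp.single_apply]
    split_ifs
    · simp
    · simp
  have hsingle_deg : ∀ P' : Place K F, Divisor.degree (Finsupp.single P' (n : ℤ)) = n := by
    intro P'
    rw [Divisor.degree_single, hdeg]; simp
  have habs1 := le_abs_self (Divisor.degree D)
  have habs2 := le_abs_self d0
  have habs3 := abs_nonneg (Divisor.degree D)
  have habs4 := abs_nonneg d0
  obtain ⟨E, hEdef⟩ : ∃ E : Divisor K F, E = Finsupp.single P₁ (n : ℤ) := ⟨_, rfl⟩
  have hE : 0 ≤ E := by rw [hEdef]; exact hsingle_nonneg P₁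
  have hdegE : Divisor.degree E = n := by rw [hEdef]; exact hsingle_deg P₁
  have hd1 : d0 ≤ Divisor.degree (E - D) := by
    rw [map_sub, hdegE, hn]; omega
  have hd2 : d0 ≤ Divisor.degree ((m + 1) • E - D) := by
    rw [map_sub, map_nsmul, hdegE, hn, nsmul_eq_mul]
    push_cast
    nlinarith [Nat.cast_nonneg (α := ℤ) m]
  have hd3 : d0 ≤ Divisor.degree (m • (E - D)) := by
    rw [map_nsmul, map_sub, hdegE, hn, nsmul_eq_mul]
    have h1 : (1 : ℤ) ≤ m := by exact_mod_cast Nat.one_le_iff_ne_zero.2 hm0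
    nlinarith
  have hD0 := R.mapDomain_eq_zero_of_div hm0 D u hu1 hu
  -- local generators
  have hgen : ∀ Q : Place k Fb, ∃ w : R.Ov, R.red w = 1 ∧
      ∀ P : Place K F, R.r0 P = Q → P.ord (w : F) = D P := by
    intro Q
    obtain ⟨P', hP'⟩ : ∃ P' : Place K F, R.r0 P' ≠ Q := by
      by_cases h : R.r0 P₁ = Q
      · exact ⟨P₂, fun h2 => h12 (h.trans h2.symm)⟩
      · exact ⟨P₁, h⟩
    refine R.exists_local_generator D hD0 (Finsupp.single P' (n : ℤ)) (hsingle_nonneg P')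
      (hlift _ ?_) Q ?_
    · rw [map_sub, hsingle_deg, hn]; omega
    · intro P hP
      rw [Finsupp.single_apply, if_neg]
      rintro rfl
      exact hP' hP
  -- initial approximation
  have h1L : h53_InL (Finsupp.mapDomain R.r0 (E - D)) (1 : Fb) := by
    refine Or.inr fun Q' => ?_
    rw [Finsupp.mapDomain_sub, hD0, sub_zero, Place.ord_one, neg_nonpos]
    exact h53_mapDomain_nonneg _ _ _ fun P _ => hE P
  obtain ⟨g₀, hg₀L, hg₀1⟩ := (hlift (E - D) hd1).2 1 h1L
  obtain ⟨uinv, huinv⟩ := (R.isUnit_of_red_eq_one hu1).exists_right_inv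
  have huinv1 : R.red uinv = 1 := by
    have := congrArg R.red huinv
    rwa [map_mul, hu1, one_mul, map_one] at this
  by_cases hx0 : g₀ ^ m = u
  · exact ⟨(g₀ : F), by have := congrArg Subtype.val hx0; push_cast at this; exact this⟩
  obtain ⟨x₀, hx₀⟩ : ∃ x₀ : R.Ov, x₀ = g₀ ^ m * uinv - 1 := ⟨_, rfl⟩
  have hx₀red : R.red x₀ = 0 := by
    rw [hx₀, map_sub, map_mul, map_pow, hg₀1, huinv1]; simp
  have hx₀nu : (x₀ : F) ∈ R.Ov.nonunits := (R.red_eq_zero x₀).1 hx₀red
  have hx₀eq : g₀ ^ m = u * (1 + x₀) := by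
    rw [hx₀]
    calc g₀ ^ m = g₀ ^ m * (u * uinv) := by rw [huinv, mul_one]
      _ = _ := by ring
  have hx₀ne : (x₀ : F) ≠ 0 := by
    intro h
    apply hx0
    have : x₀ = 0 := Subtype.ext h
    rw [hx₀eq, this, add_zero, mul_one]
  obtain ⟨c, hc0, hc⟩ := R.exists_const (x₀ : F) hx₀ne
  have hcF : algebraMap K F c ≠ 0 := by simpa using hc0
  have hcx : algebraMap K F c * (x₀ : F) ∈ R.Ov := by
    rw [← ValuationSubring.valuation_le_one_iff, hc]
  have ha'nu : algebraMap K F c⁻¹ ∈ R.Ov.nonunits := by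
    rw [ValuationSubring.mem_nonunits_iff] at hx₀nu ⊢
    rw [map_mul] at hc
    rw [map_inv₀, map_inv₀]
    have : (R.Ov.valuation (algebraMap K F c))⁻¹ = R.Ov.valuation (x₀ : F) := by
      rw [inv_eq_iff_eq_inv]
      exact eq_inv_of_mul_eq_one_left hc
    rw [this]; exact hx₀nu
  obtain ⟨a, ha⟩ : ∃ a : R.Ov, (a : F) = algebraMap K F c⁻¹ :=
    ⟨⟨_, R.Ov.nonunits_subset ha'nu⟩, rfl⟩
  obtain ⟨h₀, hh₀⟩ : ∃ h₀ : R.Ov, (h₀ : F) = algebraMap K F c * (x₀ : F) := ⟨⟨_, hcx⟩, rfl⟩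
  have hah₀ : a * h₀ = x₀ := by
    apply Subtype.ext
    push_cast
    rw [ha, hh₀, map_inv₀]
    field_simp
  have hgh₀ : g₀ ^ m = u * (1 + a * h₀) := by rw [hah₀]; exact hx₀eq
  -- iterate and finish
  have hiter := R.iter hrank hm D E hE u hu1 hu hgen (hlift _ hd1) (hlift _ hd2) g₀ hg₀1 hg₀L
    a c⁻¹ ha (inv_ne_zero hc0) (by rw [ha]; exact ha'nu) h₀ hgh₀
  refine R.finish D E hE (u : F) u.2 hu (hlift _ hd1) (hlift _ hd3) c⁻¹ (inv_ne_zero hc0)
    (R.Ov.nonunits_subset ha'nu)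
    (fun d hd => hrank c⁻¹ d (inv_ne_zero hc0) ha'nu hd) (fun j => ?_)
  obtain ⟨g, h, -, hgL, hgh⟩ := hiter j
  refine ⟨g, h, g.2, h.2, hgL, ?_⟩
  have := congrArg Subtype.val hgh
  push_cast at this
  rw [this, map_pow, ha]

end Fermat.Agent.S18
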