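import Mathlib
import Fermat.Agent.S18.h64_CoreAdapter
import Fermat.Agent.S18.h53_Core

set_option autoImplicit false

/-!
# S18: the generic theorem GT in the project interface (unconditional on the CORE theorem)

`h64_GT`: for a reduction datum `R : h39_RedDatum K F k Fb` with a place reduction
`PR : h39_PlaceRed R`, rank-one constants, finite-dimensional Riemann–Roch spaces on both sides
and all places of `F` of degree one: a unit `u` of `R.O` with `red u = 1` and `div u = m • D`,
`m` invertible in `k`, is an `m`-th power `g ^ m` with `div g = D`.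

This is `h64_GT_of_core` applied to the CORE theorem `h53_core`.
-/

noncomputable section

namespace Fermat.Agent.S18

open AlgebraicCurve

variable {K F k Fb : Type*} [Field K] [Field F] [Algebra K F] [Field k] [Field Fb] [Algebra k Fb]

/-- **GT** in the project interface. -/
theorem h64_GT [IsAlgClosed K] [HasPrincipalDivisors K F]
    (R : h39_RedDatum K F k Fb) (PR : h39_PlaceRed R) (hR1 : h39_RankOne R.A)
    (hfinK : ∀ D : Divisor K F, Module.Finite K (riemannRochSpace D))
    (hfink : ∀ D : Divisor k Fb, Module.Finite k (riemannRochSpace D))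
    (hdeg : ∀ P : Place K F, P.deg = 1)
    (m : ℕ) (hm : (m : k) ≠ 0) (D : Divisor K F) (u : F) (hu : u ∈ R.O)
    (hu1 : R.red ⟨u, hu⟩ = 1) (hord : ∀ P : Place K F, P.ord u = m * D P) :
    ∃ g : F, g ^ m = u ∧ g ≠ 0 ∧ ∀ P : Place K F, D P = P.ord g :=
  h64_GT_of_core
    (fun R' hrank d0 hlift hdeg' P₁ P₂ h12 m' hm' D' u' hu1' hu' =>
      h53_core R' hrank d0 hlift hdeg' P₁ P₂ h12 m' hm' D' u' hu1' hu')
    R PR hR1 hfinK hfink hdeg m hm D u hu hu1 hord

/-- **GT**, root form. -/
theorem h64_GT_root [IsAlgClosed K] [HasPrincipalDivisors K F]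
    (R : h39_RedDatum K F k Fb) (PR : h39_PlaceRed R) (hR1 : h39_RankOne R.A)
    (hfinK : ∀ D : Divisor K F, Module.Finite K (riemannRochSpace D))
    (hfink : ∀ D : Divisor k Fb, Module.Finite k (riemannRochSpace D))
    (hdeg : ∀ P : Place K F, P.deg = 1)
    (m : ℕ) (hm : (m : k) ≠ 0) (D : Divisor K F) (u : F) (hu : u ∈ R.O)
    (hu1 : R.red ⟨u, hu⟩ = 1) (hord : ∀ P : Place K F, P.ord u = m * D P) :
    ∃ g : F, g ^ m = u := by
  obtain ⟨g, hg, -, -⟩ := h64_GT R PR hR1 hfinK hfink hdeg m hm D u hu hu1 hord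
  exact ⟨g, hg⟩

/-- **GT**, divisor form: `D` is principal. -/
theorem h64_GT_principal [IsAlgClosed K] [HasPrincipalDivisors K F]
    (R : h39_RedDatum K F k Fb) (PR : h39_PlaceRed R) (hR1 : h39_RankOne R.A)
    (hfinK : ∀ D : Divisor K F, Module.Finite K (riemannRochSpace D))
    (hfink : ∀ D : Divisor k Fb, Module.Finite k (riemannRochSpace D))
    (hdeg : ∀ P : Place K F, P.deg = 1)
    (m : ℕ) (hm : (m : k) ≠ 0) (D : Divisor K F) (u : F) (hu : u ∈ R.O)
    (hu1 : R.red ⟨u, hu⟩ = 1) (hord : ∀ P : Place K F, P.ord u = m * D P) :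
    D ∈ Divisor.principal (K := K) (F := F) := by
  obtain ⟨g, -, hg0, hD⟩ := h64_GT R PR hR1 hfinK hfink hdeg m hm D u hu hu1 hord
  exact ⟨g, hg0, hD⟩

end Fermat.Agent.S18
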