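import Fermat.Agent.S18.h66_ChartRedCore
import Fermat.Agent.S18.h64_Star

/-!
# S18 / [GR-PL] row PL5, core: gluing the chart reductions of `x` and `x⁻¹`; (6)

* `h53_inDisc_inv_of_not`: a place outside the unit disc of `x` lies in the open unit disc of
  `x⁻¹`;
* `h53_glue_le`: the fibre of the glued map `r0` over `Q` is the `x`-tube of `Q` (if `x̄` is
  regular at `Q`) or the `x⁻¹`-tube of `Q` (otherwise), so the chart inequalities give
  `ord_Q ȳ ≤ (r0_* div y)(Q)`;
* `h53_compat_of_le`: the inequality for all `Q` is an equality (both divisors have degree `0`);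
* `h53_glue_core`: the glued map with (6).
-/

set_option autoImplicit false

noncomputable section

open AlgebraicCurve

namespace Fermat.Agent.S18

variable {K F k Fb : Type*} [Field K] [Field F] [Algebra K F] [Field k] [Field Fb] [Algebra k Fb]

/-! ### Discs of `x` and `x⁻¹` -/

/-- The values of `x` and `x⁻¹` at a place are inverse to each other. -/
theorem h53_val_inv_mul {P : Place K F} {x : F} (hx0 : x ≠ 0) {a a' : K} (ha : h39_Val P x a)
    (ha' : h39_Val P x⁻¹ a') : a * a' = 1 := by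
  have h1 : h39_Val P (x * x⁻¹) (a * a') := h39_val_mul P ha ha'
  rw [mul_inv_cancel₀ hx0] at h1
  have h2 : h39_Val P (1 : F) 1 := by
    have := h39_val_algebraMap P (1 : K)
    rwa [map_one] at this
  exact h39_val_unique P h1 h2

/-- A place outside the closed unit disc of `x` lies in the open unit disc of `x⁻¹`. -/
theorem h53_inDisc_inv_of_not [IsAlgClosed K] (R : h39_RedDatum K F k Fb) {x : F}
    (hxK : h75_IsChart K x) (P : Place K F) (hP : ¬ h39_InDisc R x P) :
    ∃ a' : K, a' ∈ R.A ∧ R.resK a' = 0 ∧ h39_Val P x⁻¹ a' := by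
  have hx0 : x ≠ 0 := hxK.ne_zero
  by_cases hxP : x ∈ P.toValuationSubring
  · obtain ⟨a, ha⟩ := h39_exists_val hxK P hxP
    have haA : a ∉ R.A := fun h => hP ⟨a, h, ha⟩
    have ha0 : a ≠ 0 := fun h => haA (h ▸ R.A.zero_mem)
    have hord : P.ord x = 0 := h39_ord_eq_zero_of_val P ha ha0
    have hinvmem : x⁻¹ ∈ P.toValuationSubring := by
      rw [← h53_OrdGE.mem_iff]
      refine Or.inr ?_
      rw [P.ord_inv, hord, neg_zero]
    obtain ⟨b, hb⟩ := h39_exists_val hxK P hinvmem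
    have hab : a * b = 1 := h53_val_inv_mul hx0 ha hb
    have hb' : b = a⁻¹ := eq_inv_of_mul_eq_one_right hab
    have hbA : b ∈ R.A := by
      rw [hb']
      exact (R.A.mem_or_inv_mem a).resolve_left haA
    refine ⟨b, hbA, ?_, hb⟩
    rw [h39_resK_eq_zero_iff R hbA]
    right
    rw [hb', inv_inv]
    exact haA
  · refine ⟨0, R.A.zero_mem, (h39_resK_eq_zero_iff R R.A.zero_mem).mpr (Or.inl rfl), ?_⟩
    rw [h39_val_zero_iff]
    right
    rw [P.ord_inv]
    have : ¬ 0 ≤ P.ord x := fun h => hxP ((Fermat.Agent.S24.h35_mem_iff_ord_nonneg P hx0).mpr h)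
    omega

/-! ### The fibres of the glued map -/

section Glue

variable [IsAlgClosed K] (R : h39_RedDatum K F k Fb) {x : F}

/-- The chart inequalities for `x` and `x⁻¹` give the inequality for the glued map. -/
theorem h53_glue_le (hx : h39_WeakChart R x) (hxK : h75_IsChart K x)
    {r r' : Place K F → Place k Fb} (hr : h39_IsChartRed R x r)
    (hr' : h39_IsChartRed R x⁻¹ r')
    (hle : ∀ y : F, y ∈ R.O → R.redF y ≠ 0 → ∀ Q : Place k Fb,
      R.redF x ∈ Q.toValuationSubring → ∀ s : Finset (Place K F),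
      (∀ P : Place K F, P ∈ s ↔ P.ord y ≠ 0 ∧ h39_InDisc R x P ∧ r P = Q) →
      Q.ord (R.redF y) ≤ ∑ P ∈ s, P.ord y)
    (hle' : ∀ y : F, y ∈ R.O → R.redF y ≠ 0 → ∀ Q : Place k Fb,
      R.redF x⁻¹ ∈ Q.toValuationSubring → ∀ s : Finset (Place K F),
      (∀ P : Place K F, P ∈ s ↔ P.ord y ≠ 0 ∧ h39_InDisc R x⁻¹ P ∧ r' P = Q) →
      Q.ord (R.redF y) ≤ ∑ P ∈ s, P.ord y)
    (r0 : Place K F → Place k Fb) (h0 : ∀ P : Place K F, h39_InDisc R x P → r0 P = r P)
    (h0' : ∀ P : Place K F, ¬ h39_InDisc R x P → r0 P = r' P)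
    (y : F) (hy : y ∈ R.O) (hy0 : R.red ⟨y, hy⟩ ≠ 0) (D : Divisor K F)
    (hD : ∀ P, D P = P.ord y) (Q : Place k Fb) :
    Q.ord (R.red ⟨y, hy⟩) ≤ Finsupp.mapDomain r0 D Q := by
  classical
  have hred : R.redF y = R.red ⟨y, hy⟩ := R.redF_of_mem hy
  have hy0' : R.redF y ≠ 0 := by
    rw [hred]
    exact hy0
  have hxb0 : R.redF x ≠ 0 := by
    intro h
    exact hx.transcendental (h ▸ isAlgebraic_zero)
  have hx0 : x ≠ 0 := hxK.ne_zero
  obtain ⟨hxinvO, hxinvred⟩ := h39_inv_of_redF_ne_zero R hxb0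
  rw [← hred, h53_mapDomain_apply, ← Finset.sum_filter]
  by_cases hQ : R.redF x ∈ Q.toValuationSubring
  · have key := hle y hy hy0' Q hQ (D.support.filter (fun P => r0 P = Q)) (fun P => by
      rw [Finset.mem_filter, Finsupp.mem_support_iff, hD]
      constructor
      · rintro ⟨h1, h2⟩
        by_cases hP : h39_InDisc R x P
        · exact ⟨h1, hP, (h0 P hP).symm.trans h2⟩
        · exfalso
          obtain ⟨a', ha'A, ha'0, ha'⟩ := h53_inDisc_inv_of_not R hxK P hP
          have hv := (hr' P ⟨a', ha'A, ha'⟩).2 x⁻¹ hxinvO (fun _ h => h) a' ha'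
          rw [← h0' P hP, h2, ha'0, hxinvred, h39_val_zero_iff] at hv
          rcases hv with hv | hv
          · exact hxb0 (inv_eq_zero.mp hv)
          · rw [Q.ord_inv] at hv
            have := Fermat.Agent.S24.h35_ord_nonneg_of_mem Q hQ
            omega
      · rintro ⟨h1, hP, h2⟩
        exact ⟨h1, (h0 P hP).trans h2⟩)
    exact key.trans (le_of_eq (Finset.sum_congr rfl fun P _ => (hD P).symm))
  · have hQ' : R.redF x⁻¹ ∈ Q.toValuationSubring := by
      rw [hxinvred]
      exact (Q.toValuationSubring.mem_or_inv_mem _).resolve_left hQ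
    have hpole : h39_Val Q (R.redF x⁻¹) 0 := by
      rw [h39_val_zero_iff, hxinvred]
      right
      rw [Q.ord_inv]
      have : ¬ 0 ≤ Q.ord (R.redF x) := fun h =>
        hQ ((Fermat.Agent.S24.h35_mem_iff_ord_nonneg Q hxb0).mpr h)
      omega
    have key := hle' y hy hy0' Q hQ' (D.support.filter (fun P => r0 P = Q)) (fun P => by
      rw [Finset.mem_filter, Finsupp.mem_support_iff, hD]
      constructor
      · rintro ⟨h1, h2⟩
        by_cases hP : h39_InDisc R x P
        · exfalso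
          have := (hr P hP).1
          rw [← h0 P hP, h2] at this
          exact hQ this
        · obtain ⟨a', ha'A, -, ha'⟩ := h53_inDisc_inv_of_not R hxK P hP
          exact ⟨h1, ⟨a', ha'A, ha'⟩, (h0' P hP).symm.trans h2⟩
      · rintro ⟨h1, ⟨a', ha'A, ha'⟩, h2⟩
        refine ⟨h1, ?_⟩
        have hP : ¬ h39_InDisc R x P := by
          rintro ⟨a, haA, ha⟩
          have hmul := h53_val_inv_mul hx0 ha ha'
          have hv := (hr' P ⟨a', ha'A, ha'⟩).2 x⁻¹ hxinvO (fun _ h => h) a' ha'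
          rw [h2] at hv
          have h3 : R.resK a' = 0 := h39_val_unique Q hv hpole
          have h4 := h39_resK_mul R haA ha'A
          rw [hmul, h39_resK_one, h3, mul_zero] at h4
          exact one_ne_zero h4
        exact (h0' P hP).trans h2)
    exact key.trans (le_of_eq (Finset.sum_congr rfl fun P _ => (hD P).symm))

end Glue

/-! ### From the inequality to (6) -/

/-- If `ord_Q ȳ ≤ (r0_* div y)(Q)` for all units `y` of `O` and all `Q`, then equality holds:
both divisors have degree `0`. -/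
theorem h53_compat_of_le [HasPrincipalDivisors K F] [HasPrincipalDivisors k Fb]
    (R : h39_RedDatum K F k Fb) (hdegK : ∀ P : Place K F, P.deg = 1)
    (hdegk : ∀ Q : Place k Fb, Q.deg = 1) (r0 : Place K F → Place k Fb)
    (hle : ∀ (y : F) (hy : y ∈ R.O), R.red ⟨y, hy⟩ ≠ 0 → ∀ D : Divisor K F,
      (∀ P, D P = P.ord y) → ∀ Q : Place k Fb,
        Q.ord (R.red ⟨y, hy⟩) ≤ Finsupp.mapDomain r0 D Q)
    (y : F) (hy : y ∈ R.O) (hy0 : R.red ⟨y, hy⟩ ≠ 0) (D : Divisor K F)
    (hD : ∀ P, D P = P.ord y) (Q : Place k Fb) :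
    Finsupp.mapDomain r0 D Q = Q.ord (R.red ⟨y, hy⟩) := by
  have hyne : y ≠ 0 := by
    rintro rfl
    exact hy0 (map_zero R.red)
  obtain ⟨D', hD', hdeg'⟩ := HasPrincipalDivisors.exists_divisor (K := K) y hyne
  have hDD' : D = D' := Finsupp.ext fun P => by rw [hD, hD']
  obtain ⟨Db, hDb, hdegb⟩ := HasPrincipalDivisors.exists_divisor (K := k) (R.red ⟨y, hy⟩) hy0
  obtain ⟨E, hE⟩ : ∃ E : Divisor k Fb, E = Finsupp.mapDomain r0 D - Db := ⟨_, rfl⟩
  have hEapp : ∀ Q' : Place k Fb, E Q' = Finsupp.mapDomain r0 D Q' - Q'.ord (R.red ⟨y, hy⟩) := by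
    intro Q'
    rw [hE, Finsupp.sub_apply, hDb]
  have hEnn : ∀ Q' : Place k Fb, 0 ≤ E Q' := fun Q' => by
    rw [hEapp]
    have := hle y hy hy0 D hD Q'
    omega
  have hEdeg : Divisor.degree E = 0 := by
    rw [hE, map_sub, h64_degree_mapDomain hdegK hdegk, hDD', hdeg', hdegb, sub_zero]
  rw [h64_degree_eq_sum hdegk] at hEdeg
  have hE0 : E Q = 0 := by
    by_contra hne
    have hmem : Q ∈ E.support := Finsupp.mem_support_iff.mpr hne
    exact hne ((Finset.sum_eq_zero_iff_of_nonneg fun Q' _ => hEnn Q').mp hEdeg Q hmem)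
  rw [hEapp] at hE0
  omega

/-- **Glue core.** The glued reduction map of the charts `x` and `x⁻¹` satisfies (6). -/
theorem h53_glue_core [IsAlgClosed K] [HasPrincipalDivisors K F] [HasPrincipalDivisors k Fb]
    (R : h39_RedDatum K F k Fb) {x : F} (hx : h39_WeakChart R x) (hxK : h75_IsChart K x)
    (hdegK : ∀ P : Place K F, P.deg = 1) (hdegk : ∀ Q : Place k Fb, Q.deg = 1)
    {r r' : Place K F → Place k Fb} (hr : h39_IsChartRed R x r)
    (hr' : h39_IsChartRed R x⁻¹ r')
    (hle : ∀ y : F, y ∈ R.O → R.redF y ≠ 0 → ∀ Q : Place k Fb,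
      R.redF x ∈ Q.toValuationSubring → ∀ s : Finset (Place K F),
      (∀ P : Place K F, P ∈ s ↔ P.ord y ≠ 0 ∧ h39_InDisc R x P ∧ r P = Q) →
      Q.ord (R.redF y) ≤ ∑ P ∈ s, P.ord y)
    (hle' : ∀ y : F, y ∈ R.O → R.redF y ≠ 0 → ∀ Q : Place k Fb,
      R.redF x⁻¹ ∈ Q.toValuationSubring → ∀ s : Finset (Place K F),
      (∀ P : Place K F, P ∈ s ↔ P.ord y ≠ 0 ∧ h39_InDisc R x⁻¹ P ∧ r' P = Q) →
      Q.ord (R.redF y) ≤ ∑ P ∈ s, P.ord y) :
    ∃ r0 : Place K F → Place k Fb,
      (∀ P : Place K F, h39_InDisc R x P → r0 P = r P) ∧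
      (∀ P : Place K F, ¬ h39_InDisc R x P → r0 P = r' P) ∧
      ∀ (y : F) (hy : y ∈ R.O), R.red ⟨y, hy⟩ ≠ 0 → ∀ D : Divisor K F,
        (∀ P, D P = P.ord y) → ∀ Q : Place k Fb,
          Finsupp.mapDomain r0 D Q = Q.ord (R.red ⟨y, hy⟩) := by
  classical
  refine ⟨fun P => if h39_InDisc R x P then r P else r' P, fun P hP => if_pos hP,
    fun P hP => if_neg hP, ?_⟩
  exact h53_compat_of_le R hdegK hdegk _
    (h53_glue_le R hx hxK hr hr' hle hle' _ (fun P hP => if_pos hP) (fun P hP => if_neg hP))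

end Fermat.Agent.S18

end
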