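import Mathlib
import Fermat.Agent.S18.Defs
import Fermat.Agent.S18.h64_Star

set_option autoImplicit false

/-!
# S18 / [GR-PL] PL5b: (6) from the one-sided inequality

Let `R : h39_RedDatum K F k Fb` be a reduction datum and `r0` a map on places.  If for every
unit `y` of `R.O` one has `div ȳ ≤ r0_* div y`, then `div ȳ = r0_* div y`: both sides have degree
zero, all places have degree one, and a nonnegative divisor of degree zero vanishes.

Main statement: `h64_compat_of_le`.
-/

noncomputable section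

namespace Fermat.Agent.S18

open AlgebraicCurve

variable {K F k Fb : Type*} [Field K] [Field F] [Algebra K F] [Field k] [Field Fb] [Algebra k Fb]

/-- A pointwise nonnegative divisor of degree zero is zero, when all places have degree one. -/
theorem h64_eq_zero_of_nonneg_of_degree (hdegK : ∀ P : Place K F, P.deg = 1) (E : Divisor K F)
    (hE : ∀ P, 0 ≤ E P) (hdeg : Divisor.degree E = 0) : E = 0 := by
  rw [h64_degree_eq_sum hdegK] at hdeg
  have h := (Finset.sum_eq_zero_iff_of_nonneg fun P _ => hE P).mp hdeg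
  ext P
  by_cases hP : P ∈ E.support
  · simpa using h P hP
  · simpa using hP

/-- **(6) from the inequality**: `div ȳ ≤ r0_* div y` for all units `y` gives equality. -/
theorem h64_compat_of_le [HasPrincipalDivisors K F] [HasPrincipalDivisors k Fb]
    (R : h39_RedDatum K F k Fb)
    (hdegK : ∀ P : Place K F, P.deg = 1) (hdegk : ∀ Q : Place k Fb, Q.deg = 1)
    (r0 : Place K F → Place k Fb)
    (hle : ∀ (y : F) (hy : y ∈ R.O), R.red ⟨y, hy⟩ ≠ 0 → ∀ D : Divisor K F,
      (∀ P, D P = P.ord y) → ∀ Q : Place k Fb,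
        Q.ord (R.red ⟨y, hy⟩) ≤ Finsupp.mapDomain r0 D Q) :
    ∀ (y : F) (hy : y ∈ R.O), R.red ⟨y, hy⟩ ≠ 0 → ∀ D : Divisor K F,
      (∀ P, D P = P.ord y) → ∀ Q : Place k Fb,
        Finsupp.mapDomain r0 D Q = Q.ord (R.red ⟨y, hy⟩) := by
  intro y hy hred D hD Q
  have hy0 : y ≠ 0 := by
    rintro rfl
    apply hred
    have : (⟨0, hy⟩ : R.O) = 0 := rfl
    rw [this, map_zero]
  obtain ⟨D', hD', hdeg'⟩ := HasPrincipalDivisors.exists_divisor (K := K) y hy0
  have hDD' : D = D' := by
    ext P
    rw [hD, hD']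
  have hdeg : Divisor.degree D = 0 := by rw [hDD', hdeg']
  obtain ⟨Db, hDb, hdegb⟩ := HasPrincipalDivisors.exists_divisor (K := k) (R.red ⟨y, hy⟩) hred
  have hE : Finsupp.mapDomain r0 D - Db = 0 := by
    apply h64_eq_zero_of_nonneg_of_degree hdegk
    · intro Q'
      rw [Finsupp.sub_apply, hDb, sub_nonneg]
      exact hle y hy hred D hD Q'
    · rw [map_sub, h64_degree_mapDomain hdegK hdegk, hdeg, hdegb, sub_zero]
  have h1 : Finsupp.mapDomain r0 D = Db := sub_eq_zero.mp hE
  rw [h1, hDb]

end Fermat.Agent.S18
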