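/-
S18 / [GR] (helper52): the abstract half of (ON) — Gaussian elimination with pivots of maximal
valuation.  If `u : ι → F` is a finite "orthonormal" family (`u i ∈ O`, reductions linearly
independent over `k`), then every `K`-subspace `V` of the `K`-span of `u` has
`dim V` elements of `V ∩ O` with `k`-linearly independent reductions.
-/
import Mathlib
import Fermat.Agent.S18.Defs
import Fermat.Agent.S18.h75_RRDefs
import Fermat.Agent.S18.GR_RedAPI

set_option autoImplicit false

noncomputable section

open AlgebraicCurve IntermediateField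

namespace Fermat.Agent.S18

variable {K F k Fb : Type*} [Field K] [Field F] [Algebra K F] [Field k] [Field Fb] [Algebra k Fb]

/-- A pivot of maximal valuation in a finite family. -/
theorem h52_exists_pivot (A : ValuationSubring K) {ι : Type*} [Fintype ι] (a : ι → K)
    (h : ∃ i, a i ≠ 0) : ∃ j, a j ≠ 0 ∧ ∀ i, a i * (a j)⁻¹ ∈ A := by
  classical
  obtain ⟨i₀, hi₀⟩ := h
  obtain ⟨j, -, hj⟩ := Finset.exists_max_image Finset.univ (fun i => A.valuation (a i))
    ⟨i₀, Finset.mem_univ _⟩
  have hj0 : a j ≠ 0 := by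
    intro h0
    have h1 := hj i₀ (Finset.mem_univ _)
    rw [h0, map_zero] at h1
    exact hi₀ ((map_eq_zero _).1 (le_antisymm h1 zero_le))
  refine ⟨j, hj0, fun i => ?_⟩
  rw [← A.valuation_le_one_iff, map_mul, map_inv₀]
  have hpos : 0 < A.valuation (a j) := zero_lt_iff.2 ((map_ne_zero _).2 hj0)
  rw [mul_inv_le_iff₀ hpos, one_mul]
  exact hj i (Finset.mem_univ _)

/-- Reduction of an `A`-linear combination of elements of `O`. -/
theorem h52_redF_comb (R : h39_RedDatum K F k Fb) {ι : Type*} [Fintype ι] (u : ι → F)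
    (hu : ∀ i, u i ∈ R.O) (b : ι → K) (hb : ∀ i, b i ∈ R.A) :
    (∑ i, b i • u i) ∈ R.O ∧
      R.redF (∑ i, b i • u i) = ∑ i, R.resK (b i) • R.redF (u i) := by
  have hO : ∀ i, b i • u i ∈ R.O := fun i => by
    rw [Algebra.smul_def]
    exact R.O.mul_mem _ _ ((R.mem_iff (b i)).1 (hb i)) (hu i)
  refine ⟨R.O.sum_mem (fun i _ => hO i), ?_⟩
  rw [h39_redF_sum R _ _ (fun i _ => hO i)]
  refine Finset.sum_congr rfl (fun i _ => ?_)
  rw [Algebra.smul_def, h39_redF_mul R ((R.mem_iff (b i)).1 (hb i)) (hu i),
    h39_redF_algebraMap R (hb i), Algebra.smul_def]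

/-- The coordinates of an element of `O` in an orthonormal family are integral. -/
theorem h52_coord_mem (R : h39_RedDatum K F k Fb) {ι : Type*} [Fintype ι] (u : ι → F)
    (hu : ∀ i, u i ∈ R.O) (hli : LinearIndependent k (fun i => R.redF (u i))) (a : ι → K)
    (h : ∑ i, a i • u i ∈ R.O) : ∀ i, a i ∈ R.A := by
  by_contra hcon
  rw [not_forall] at hcon
  obtain ⟨i₁, hi₁⟩ := hcon
  have hne : ∃ i, a i ≠ 0 := ⟨i₁, fun h0 => hi₁ (h0 ▸ R.A.zero_mem)⟩
  obtain ⟨j, hj0, hj⟩ := h52_exists_pivot R.A a hne
  have hjA : a j ∉ R.A := by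
    intro hjA
    apply hi₁
    have := R.A.mul_mem _ _ (hj i₁) hjA
    rwa [mul_assoc, inv_mul_cancel₀ hj0, mul_one] at this
  have hcA : (a j)⁻¹ ∈ R.A := (R.A.mem_or_inv_mem (a j)).resolve_left hjA
  have hres : R.resK (a j)⁻¹ = 0 := by
    rw [h39_resK_eq_zero_iff R hcA]
    right
    rw [inv_inv]
    exact hjA
  obtain ⟨hO, hred⟩ := h52_redF_comb R u hu (fun i => a i * (a j)⁻¹) hj
  have heq : ∑ i, (a i * (a j)⁻¹) • u i = algebraMap K F (a j)⁻¹ * ∑ i, a i • u i := by
    rw [Finset.mul_sum]
    refine Finset.sum_congr rfl (fun i _ => ?_)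
    rw [Algebra.smul_def, Algebra.smul_def, map_mul]
    ring
  have hzero : R.redF (∑ i, (a i * (a j)⁻¹) • u i) = 0 := by
    rw [heq, h39_redF_mul R ((R.mem_iff _).1 hcA) h, h39_redF_algebraMap R hcA, hres, map_zero,
      zero_mul]
  rw [hzero] at hred
  have h1 := (Fintype.linearIndependent_iff.1 hli) (fun i => R.resK (a i * (a j)⁻¹)) hred.symm j
  rw [mul_inv_cancel₀ hj0, h39_resK_one] at h1
  exact one_ne_zero h1

theorem h52_on_of_orth_aux (R : h39_RedDatum K F k Fb) :
    ∀ (m : ℕ) (ι : Type) [Fintype ι], Fintype.card ι = m → ∀ (u : ι → F),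
      (∀ i, u i ∈ R.O) → LinearIndependent k (fun i => R.redF (u i)) →
      ∀ V : Submodule K F, V ≤ Submodule.span K (Set.range u) →
      ∃ (d : ℕ) (e : Fin d → F), (∀ i, e i ∈ V) ∧ (∀ i, e i ∈ R.O) ∧
        LinearIndependent k (fun i => R.redF (e i)) ∧ Module.finrank K V ≤ d := by
  classical
  intro m
  induction m with
  | zero =>
    intro ι _ hcard u hu hli V hV
    have hE : IsEmpty ι := Fintype.card_eq_zero_iff.1 hcard
    have hV' : V = ⊥ := by
      rw [eq_bot_iff]
      refine hV.trans ?_
      rw [Set.range_eq_empty, Submodule.span_empty]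
    refine ⟨0, Fin.elim0, fun i => i.elim0, fun i => i.elim0, linearIndependent_empty_type, ?_⟩
    rw [hV', finrank_bot]
  | succ m ih =>
    intro ι _ hcard u hu hli V hV
    by_cases hVbot : V = ⊥
    · refine ⟨0, Fin.elim0, fun i => i.elim0, fun i => i.elim0, linearIndependent_empty_type, ?_⟩
      rw [hVbot, finrank_bot]
    obtain ⟨v, hvV, hv0⟩ := (Submodule.ne_bot_iff V).1 hVbot
    obtain ⟨a, ha⟩ := (Submodule.mem_span_range_iff_exists_fun K).1 (hV hvV)
    have hne : ∃ i, a i ≠ 0 := by
      by_contra hcon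
      rw [not_exists] at hcon
      apply hv0
      rw [← ha]
      refine Finset.sum_eq_zero (fun i _ => ?_)
      rw [not_not.1 (hcon i), zero_smul]
    obtain ⟨j, hj0, hj⟩ := h52_exists_pivot R.A a hne
    have hbj : a j * (a j)⁻¹ = 1 := mul_inv_cancel₀ hj0
    obtain ⟨hv'O, hv'red⟩ := h52_redF_comb R u hu (fun i => a i * (a j)⁻¹) hj
    have hv'eq : ∑ i, (a i * (a j)⁻¹) • u i = (a j)⁻¹ • v := by
      rw [← ha, Finset.smul_sum]
      refine Finset.sum_congr rfl (fun i _ => ?_)
      rw [smul_smul, mul_comm]
    have hv'V : ∑ i, (a i * (a j)⁻¹) • u i ∈ V := by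
      rw [hv'eq]
      exact V.smul_mem _ hvV
    have hcard' : Fintype.card {i : ι // i ≠ j} = m := by
      rw [Fintype.card_subtype_compl, Fintype.card_subtype_eq, hcard]
      rfl
    have hli' : LinearIndependent k (fun i : {i : ι // i ≠ j} => R.redF (u i.1)) :=
      hli.comp Subtype.val Subtype.val_injective
    obtain ⟨d, e, heV, heO, heli, hfin⟩ := ih {i : ι // i ≠ j} hcard' (fun i => u i.1)
      (fun i => hu i.1) hli' (V ⊓ Submodule.span K (Set.range fun i : {i : ι // i ≠ j} => u i.1))
      inf_le_right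
    refine ⟨d + 1, Fin.cons (∑ i, (a i * (a j)⁻¹) • u i) e, ?_, ?_, ?_, ?_⟩
    · intro i
      refine Fin.cases ?_ (fun i => ?_) i
      · simpa using hv'V
      · simpa using (heV i).1
    · intro i
      refine Fin.cases ?_ (fun i => ?_) i
      · simpa using hv'O
      · simpa using heO i
    · have hfun : (fun i : Fin (d + 1) =>
          R.redF ((Fin.cons (∑ i, (a i * (a j)⁻¹) • u i) e : Fin (d + 1) → F) i)) =
          Fin.cons (R.redF (∑ i, (a i * (a j)⁻¹) • u i)) (fun i => R.redF (e i)) := by
        funext i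
        refine Fin.cases ?_ (fun i => ?_) i <;> simp
      rw [hfun, linearIndependent_finCons]
      refine ⟨heli, ?_⟩
      intro hmem
      have hle : Submodule.span k (Set.range fun i => R.redF (e i)) ≤
          Submodule.span k (Set.range fun i : {i : ι // i ≠ j} => R.redF (u i.1)) := by
        rw [Submodule.span_le]
        rintro _ ⟨i, rfl⟩
        obtain ⟨c, hc⟩ := (Submodule.mem_span_range_iff_exists_fun K).1 (heV i).2
        have hcA := h52_coord_mem R (fun i : {i : ι // i ≠ j} => u i.1) (fun i => hu i.1) hli' c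
          (by rw [hc]; exact heO i)
        obtain ⟨_, hred⟩ := h52_redF_comb R (fun i : {i : ι // i ≠ j} => u i.1)
          (fun i => hu i.1) c hcA
        rw [hc] at hred
        show R.redF (e i) ∈ _
        rw [hred]
        exact Submodule.sum_mem _ (fun l _ => Submodule.smul_mem _ _
          (Submodule.subset_span ⟨l, rfl⟩))
      have h1 := hle hmem
      rw [hv'red] at h1
      have h2 : R.redF (u j) ∈
          Submodule.span k (Set.range fun i : {i : ι // i ≠ j} => R.redF (u i.1)) := by
        have hsplit : ∑ i, R.resK (a i * (a j)⁻¹) • R.redF (u i) =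
            R.redF (u j) + ∑ i ∈ Finset.univ.erase j, R.resK (a i * (a j)⁻¹) • R.redF (u i) := by
          rw [← Finset.add_sum_erase _ _ (Finset.mem_univ j), hbj, h39_resK_one, one_smul]
        rw [hsplit] at h1
        have h3 : ∑ i ∈ Finset.univ.erase j, R.resK (a i * (a j)⁻¹) • R.redF (u i) ∈
            Submodule.span k (Set.range fun i : {i : ι // i ≠ j} => R.redF (u i.1)) :=
          Submodule.sum_mem _ (fun i hi => Submodule.smul_mem _ _
            (Submodule.subset_span ⟨⟨i, Finset.ne_of_mem_erase hi⟩, rfl⟩))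
        exact (Submodule.add_mem_iff_left _ h3).1 h1
      have h4 := hli.notMem_span_image (s := {i | i ≠ j}) (x := j) (by simp)
      apply h4
      have himg : (fun i => R.redF (u i)) '' {i | i ≠ j} =
          Set.range fun i : {i : ι // i ≠ j} => R.redF (u i.1) := by
        ext y
        constructor
        · rintro ⟨i, hi, rfl⟩
          exact ⟨⟨i, hi⟩, rfl⟩
        · rintro ⟨⟨i, hi⟩, rfl⟩
          exact ⟨i, hi, rfl⟩
      rw [himg]
      exact h2
    · have hsup : V ≤ (V ⊓ Submodule.span K (Set.range fun i : {i : ι // i ≠ j} => u i.1)) ⊔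
          Submodule.span K {∑ i, (a i * (a j)⁻¹) • u i} := by
        intro w hw
        obtain ⟨c, hc⟩ := (Submodule.mem_span_range_iff_exists_fun K).1 (hV hw)
        have hw' : w - c j • ∑ i, (a i * (a j)⁻¹) • u i ∈
            V ⊓ Submodule.span K (Set.range fun i : {i : ι // i ≠ j} => u i.1) := by
          refine ⟨V.sub_mem hw (V.smul_mem _ hv'V), ?_⟩
          have hform : w - c j • ∑ i, (a i * (a j)⁻¹) • u i =
              ∑ i, (c i - c j * (a i * (a j)⁻¹)) • u i := by
            rw [← hc, Finset.smul_sum, ← Finset.sum_sub_distrib]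
            refine Finset.sum_congr rfl (fun i _ => ?_)
            rw [sub_smul, smul_smul]
          rw [hform]
          refine Submodule.sum_mem _ (fun i _ => ?_)
          by_cases hij : i = j
          · subst hij
            rw [hbj, mul_one, sub_self, zero_smul]
            exact Submodule.zero_mem _
          · exact Submodule.smul_mem _ _ (Submodule.subset_span ⟨⟨i, hij⟩, rfl⟩)
        have hw2 : w = (w - c j • ∑ i, (a i * (a j)⁻¹) • u i) +
            c j • ∑ i, (a i * (a j)⁻¹) • u i := by abel
        rw [hw2]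
        exact Submodule.add_mem_sup hw'
          (Submodule.smul_mem _ _ (Submodule.mem_span_singleton_self _))
      have : FiniteDimensional K (Submodule.span K (Set.range u)) :=
        FiniteDimensional.span_of_finite K (Set.finite_range u)
      have : FiniteDimensional K V := Submodule.finiteDimensional_of_le hV
      have : FiniteDimensional K
          (V ⊓ Submodule.span K (Set.range fun i : {i : ι // i ≠ j} => u i.1) : Submodule K F) :=
        Submodule.finiteDimensional_of_le inf_le_left
      calc Module.finrank K V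
          ≤ Module.finrank K
              ((V ⊓ Submodule.span K (Set.range fun i : {i : ι // i ≠ j} => u i.1)) ⊔
                Submodule.span K {∑ i, (a i * (a j)⁻¹) • u i} : Submodule K F) :=
            Submodule.finrank_mono hsup
        _ ≤ Module.finrank K
              (V ⊓ Submodule.span K (Set.range fun i : {i : ι // i ≠ j} => u i.1) :
                Submodule K F) +
            Module.finrank K (Submodule.span K {∑ i, (a i * (a j)⁻¹) • u i}) :=
            Submodule.finrank_add_le_finrank_add_finrank _ _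
        _ ≤ d + 1 := by
            have hv'0 : ∑ i, (a i * (a j)⁻¹) • u i ≠ 0 := by
              rw [hv'eq]
              exact smul_ne_zero (inv_ne_zero hj0) hv0
            exact add_le_add hfin (finrank_span_singleton hv'0).le

/-- (ON) for the subspaces of the span of a finite orthonormal family. -/
theorem h52_on_of_orth (R : h39_RedDatum K F k Fb) {ι : Type} [Fintype ι] (u : ι → F)
    (hu : ∀ i, u i ∈ R.O) (hli : LinearIndependent k (fun i => R.redF (u i)))
    (V : Submodule K F) (hV : V ≤ Submodule.span K (Set.range u)) :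
    ∃ (d : ℕ) (e : Fin d → F), (∀ i, e i ∈ V) ∧ (∀ i, e i ∈ R.O) ∧
      LinearIndependent k (fun i => R.redF (e i)) ∧ Module.finrank K V ≤ d :=
  h52_on_of_orth_aux R _ ι rfl u hu hli V hV

end Fermat.Agent.S18
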