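/-
S18 / MOD layer (helper54): level transfer `F N ⊆ F N₁` for general `N ∣ N₁`:
degrees, norm descent, and the transfer of a unit `u` with `red u = 1`, `div u = m D`.
-/
import Mathlib
import Fermat.Agent.S18.h54_ModCharts
import Fermat.Agent.S18.h46_LevelTransfer
import Fermat.Agent.S18.RR_Chart

set_option autoImplicit false
set_option synthInstance.maxHeartbeats 400000

noncomputable section

open ModularCurve AlgebraicCurve IntermediateField CongruenceSubgroup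
open scoped MatrixGroups

namespace Fermat.Agent.S18

open Fermat.Agent.S24 Fermat.Agent.S28

local notation "Qb" => AlgebraicClosure ℚ

/-- `[F(N₁) : F(N)] · [SL₂(ℤ) : Γ₀(N)] = [SL₂(ℤ) : Γ₀(N₁)]` for `N ∣ N₁`. -/
theorem h54_relfinrank_level {N N₁ : ℕ} [NeZero N] [NeZero N₁] (h : N ∣ N₁) :
    (modularFunctionFieldBar N).relfinrank (modularFunctionFieldBar N₁)
        * Nat.card (SL(2, ℤ) ⧸ Gamma0 N) = Nat.card (SL(2, ℤ) ⧸ Gamma0 N₁) := by
  have hJE : Qb⟮coeffEmb Qb jq⟯ ≤ modularFunctionFieldBar N := by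
    rw [IntermediateField.adjoin_le_iff]
    rintro _ rfl
    exact (h59_jbar N).2
  have hEL : modularFunctionFieldBar N ≤ modularFunctionFieldBar N₁ := h46_bar_le h
  have hmul := IntermediateField.relfinrank_mul_relfinrank hJE hEL
  rw [h46_relfinrank_bar N, h46_relfinrank_bar N₁] at hmul
  rw [h29_card_quotient_Gamma0 N, h29_card_quotient_Gamma0 N₁, mul_comm]
  exact hmul

/-- **Norm descent** for general `N ∣ N₁`: an `m`-th root at level `N₁` gives an `m`-th root of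
the `d`-th power at level `N`, `d = [F(N₁) : F(N)]`. -/
theorem h54_level_descent {N N₁ : ℕ} [NeZero N] [NeZero N₁] (h : N ∣ N₁) (m : ℕ)
    (u g : LaurentSeries Qb) (hu : u ∈ modularFunctionFieldBar N)
    (hg : g ∈ modularFunctionFieldBar N₁) (h' : g ^ m = u) :
    ∃ g' ∈ modularFunctionFieldBar N,
      g' ^ m = u ^ ((modularFunctionFieldBar N).relfinrank (modularFunctionFieldBar N₁)) := by
  have hEL : modularFunctionFieldBar N ≤ modularFunctionFieldBar N₁ := h46_bar_le h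
  obtain ⟨d, hd⟩ : ∃ d : ℕ, (modularFunctionFieldBar N).relfinrank (modularFunctionFieldBar N₁)
      = d := ⟨_, rfl⟩
  have hrel := hd
  rw [IntermediateField.relfinrank_eq_finrank_of_le hEL] at hrel
  rw [hd]
  let gL : ↥(IntermediateField.extendScalars hEL) := ⟨g, hg⟩
  let uE : ↥(modularFunctionFieldBar N) := ⟨u, hu⟩
  have hpow : gL ^ m = algebraMap ↥(modularFunctionFieldBar N)
      ↥(IntermediateField.extendScalars hEL) uE := Subtype.ext h'
  have : Module.Free ↥(modularFunctionFieldBar N) ↥(IntermediateField.extendScalars hEL) :=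
    Module.Free.of_divisionRing _ _
  have h1 := congrArg (Algebra.norm ↥(modularFunctionFieldBar N)) hpow
  rw [map_pow, Algebra.norm_algebraMap, hrel] at h1
  refine ⟨((Algebra.norm ↥(modularFunctionFieldBar N) gL : ↥(modularFunctionFieldBar N)) :
    LaurentSeries Qb), SetLike.coe_mem _, ?_⟩
  have h2 := congrArg (fun x : ↥(modularFunctionFieldBar N) => (x : LaurentSeries Qb)) h1
  simpa using h2

/-- `j` is a chart of `F N` in the sense of the Riemann–Roch layer (characteristic zero). -/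
theorem h54_isChart_jbar (N : ℕ) [NeZero N] : h75_IsChart Qb (h59_jbar N) := by
  haveI := h78_finiteDimensional N
  exact ⟨h59_jbar_transcendental N, h78_finiteDimensional N, inferInstance⟩

/-- A function on places with `m * d = div u` (`u ≠ 0`) is a divisor. -/
theorem h54_exists_divisor_of_dvd (N : ℕ) [NeZero N] (m : ℕ) (u : ↥(modularFunctionFieldBar N))
    (hu : u ≠ 0) (hm : ∀ P : Place Qb ↥(modularFunctionFieldBar N), (m : ℤ) ∣ P.ord u) :
    ∃ D : Divisor Qb ↥(modularFunctionFieldBar N),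
      ∀ P : Place Qb ↥(modularFunctionFieldBar N), P.ord u = m * D P := by
  classical
  have hfin := h75_finite_ord_ne (h54_isChart_jbar N) u hu
  refine ⟨Finsupp.onFinset hfin.toFinset (fun P => P.ord u / (m : ℤ)) ?_, fun P => ?_⟩
  · intro P hP
    rw [Set.Finite.mem_toFinset, Set.mem_ofPred_eq]
    intro h0
    rw [h0, Int.zero_ediv] at hP
    exact hP rfl
  · rw [Finsupp.onFinset_apply]
    exact (Int.mul_ediv_cancel' (hm P)).symm

/-- `red u = 1` passes to the higher level. -/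
theorem h54_redF_one_level {N N₁ : ℕ} [NeZero N] [NeZero N₁]
    {A : ValuationSubring Qb}
    {R : h39_RedDatum Qb ↥(modularFunctionFieldBar N) (IsLocalRing.ResidueField A)
      ↥(modularFunctionFieldFullC (IsLocalRing.ResidueField A) N)}
    {R₁ : h39_RedDatum Qb ↥(modularFunctionFieldBar N₁) (IsLocalRing.ResidueField A)
      ↥(modularFunctionFieldFullC (IsLocalRing.ResidueField A) N₁)}
    (h : h54_IsModRed N A R) (h₁ : h54_IsModRed N₁ A R₁)
    (u : ↥(modularFunctionFieldBar N)) (u₁ : ↥(modularFunctionFieldBar N₁))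
    (huu : (u : LaurentSeries Qb) = (u₁ : LaurentSeries Qb))
    (hu : u ∈ R.O) (hu1 : R.redF u = 1) : u₁ ∈ R₁.O ∧ R₁.redF u₁ = 1 := by
  have hu₁ : u₁ ∈ R₁.O := (h54_mem_level h h₁ u u₁ huu).1 hu
  have hred : R.red ⟨u, hu⟩ = 1 := by rw [← R.redF_of_mem hu]; exact hu1
  refine ⟨hu₁, ?_⟩
  rw [R₁.redF_of_mem hu₁]
  apply Subtype.ext
  rw [← h54_red_level h h₁ u u₁ huu hu hu₁, hred, OneMemClass.coe_one, OneMemClass.coe_one]

theorem h54_ne_zero_of_redF_one {N : ℕ} [NeZero N] {A : ValuationSubring Qb}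
    {R : h39_RedDatum Qb ↥(modularFunctionFieldBar N) (IsLocalRing.ResidueField A)
      ↥(modularFunctionFieldFullC (IsLocalRing.ResidueField A) N)}
    (u : ↥(modularFunctionFieldBar N)) (hu : u ∈ R.O) (hu1 : R.redF u = 1) : u ≠ 0 := by
  rintro rfl
  rw [R.redF_of_mem hu] at hu1
  have h0 : (⟨0, hu⟩ : R.O) = 0 := rfl
  rw [h0, map_zero] at hu1
  exact zero_ne_one hu1

/-- **(M5) level transfer**, conditional form: `u` at level `N` gives `u₁` at level `N₁` (the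
same Laurent series) with the same properties, and an `m`-th root at level `N₁` gives (by the
norm) an `m`-th root of `u ^ d`, `d = [F(N₁) : F(N)]`. -/
theorem h54_level_transfer_of {N N₁ : ℕ} [NeZero N] [NeZero N₁] (hNN₁ : N ∣ N₁)
    {A : ValuationSubring Qb}
    {R : h39_RedDatum Qb ↥(modularFunctionFieldBar N) (IsLocalRing.ResidueField A)
      ↥(modularFunctionFieldFullC (IsLocalRing.ResidueField A) N)}
    {R₁ : h39_RedDatum Qb ↥(modularFunctionFieldBar N₁) (IsLocalRing.ResidueField A)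
      ↥(modularFunctionFieldFullC (IsLocalRing.ResidueField A) N₁)}
    (h : h54_IsModRed N A R) (h₁ : h54_IsModRed N₁ A R₁)
    (m : ℕ) (u : ↥(modularFunctionFieldBar N)) (hu : u ∈ R.O) (hu1 : R.redF u = 1)
    (D : Divisor Qb ↥(modularFunctionFieldBar N))
    (hD : ∀ P : Place Qb ↥(modularFunctionFieldBar N), P.ord u = m * D P) :
    ∃ (u₁ : ↥(modularFunctionFieldBar N₁)) (D₁ : Divisor Qb ↥(modularFunctionFieldBar N₁))
      (d : ℕ),
      d * Nat.card (SL(2, ℤ) ⧸ Gamma0 N) = Nat.card (SL(2, ℤ) ⧸ Gamma0 N₁) ∧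
      u₁ ∈ R₁.O ∧ R₁.redF u₁ = 1 ∧
      (∀ P : Place Qb ↥(modularFunctionFieldBar N₁), P.ord u₁ = m * D₁ P) ∧
      ((∃ g₁ : ↥(modularFunctionFieldBar N₁), g₁ ^ m = u₁) →
        ∃ g : ↥(modularFunctionFieldBar N), g ^ m = u ^ d) := by
  obtain ⟨u₁, hu₁def⟩ : ∃ u₁ : ↥(modularFunctionFieldBar N₁),
      u₁ = ⟨(u : LaurentSeries Qb), h46_bar_le hNN₁ u.2⟩ := ⟨_, rfl⟩
  have huu : (u : LaurentSeries Qb) = (u₁ : LaurentSeries Qb) := by rw [hu₁def]
  obtain ⟨hu₁, hred₁⟩ := h54_redF_one_level h h₁ u u₁ huu hu hu1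
  have hu0 : u ≠ 0 := h54_ne_zero_of_redF_one u hu hu1
  have hu₁0 : u₁ ≠ 0 := h54_ne_zero_of_redF_one u₁ hu₁ hred₁
  have hdvd : ∀ P' : Place Qb ↥(modularFunctionFieldBar N₁), (m : ℤ) ∣ P'.ord u₁ := by
    intro P'
    rw [hu₁def]
    exact h46_level_ord_dvd hNN₁ (m : ℤ) (u : LaurentSeries Qb) u.2 (fun P => ⟨D P, hD P⟩) P'
  obtain ⟨D₁, hD₁⟩ := h54_exists_divisor_of_dvd N₁ m u₁ hu₁0 hdvd
  obtain ⟨d, hd⟩ : ∃ d : ℕ, (modularFunctionFieldBar N).relfinrank (modularFunctionFieldBar N₁)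
      = d := ⟨_, rfl⟩
  have hdeg := h54_relfinrank_level hNN₁
  rw [hd] at hdeg
  refine ⟨u₁, D₁, d, hdeg, hu₁, hred₁, hD₁, ?_⟩
  rintro ⟨g₁, hg₁⟩
  have hg : (g₁ : LaurentSeries Qb) ^ m = (u : LaurentSeries Qb) := by
    rw [huu, ← hg₁, SubmonoidClass.coe_pow]
  obtain ⟨g', hg'mem, hg'⟩ := h54_level_descent hNN₁ m (u : LaurentSeries Qb)
    (g₁ : LaurentSeries Qb) u.2 g₁.2 hg
  rw [hd] at hg'
  refine ⟨⟨g', hg'mem⟩, Subtype.ext ?_⟩
  rw [SubmonoidClass.coe_pow, SubmonoidClass.coe_pow]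
  exact hg'

/-- (M6a) the index of `Γ₀(lcm(2,N))` divides `3 [SL₂(ℤ) : Γ₀(N)]`. -/
theorem h54_index_lcm_two_aux (N : ℕ) [NeZero N] :
    Nat.card (SL(2, ℤ) ⧸ Gamma0 (Nat.lcm 2 N)) ∣ 3 * Nat.card (SL(2, ℤ) ⧸ Gamma0 N) := by
  have hN : 0 < N := Nat.pos_of_ne_zero (NeZero.ne N)
  by_cases h2 : 2 ∣ N
  · rw [Nat.lcm_eq_right h2]
    exact dvd_mul_left _ _
  · have hcop : Nat.Coprime 2 N := (Nat.Prime.coprime_iff_not_dvd Nat.prime_two).2 h2
    rw [hcop.lcm_eq_mul]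
    haveI : NeZero (2 * N) := ⟨by omega⟩
    rw [h29_card_quotient_Gamma0 (2 * N), h29_card_quotient_Gamma0 N,
      h29_psi_mul_of_not_dvd 2 N Nat.prime_two hN h2]

/-- (M6b) the index of `Γ₀(lcm(3,N))` divides `4 [SL₂(ℤ) : Γ₀(N)]`. -/
theorem h54_index_lcm_three_aux (N : ℕ) [NeZero N] :
    Nat.card (SL(2, ℤ) ⧸ Gamma0 (Nat.lcm 3 N)) ∣ 4 * Nat.card (SL(2, ℤ) ⧸ Gamma0 N) := by
  have hN : 0 < N := Nat.pos_of_ne_zero (NeZero.ne N)
  by_cases h3 : 3 ∣ N
  · rw [Nat.lcm_eq_right h3]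
    exact dvd_mul_left _ _
  · have hcop : Nat.Coprime 3 N := (Nat.Prime.coprime_iff_not_dvd Nat.prime_three).2 h3
    rw [hcop.lcm_eq_mul]
    haveI : NeZero (3 * N) := ⟨by omega⟩
    rw [h29_card_quotient_Gamma0 (3 * N), h29_card_quotient_Gamma0 N,
      h29_psi_mul_of_not_dvd 3 N Nat.prime_three hN h3]

end Fermat.Agent.S18
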