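import Fermat.Agent.S18.GR_ChartPt
import Fermat.Agent.S18.GR_Integral

/-!
# S18 / [GR-PL] PL2, core (helper24): clearing poles outside a tube; (W)

Setting: `R : h39_RedDatum K F k Fb`, `t` a weak chart, `r` a chart reduction
(`h39_IsChartRed R t r`).  The TUBE of a place `Q` of the chart `t̄` is
`{P | h39_InDisc R t P ∧ r P = Q}`.

* `h24_tube_ord_eq_zero` (TU): a function of `B ∩ O` whose reduction does not vanish at `Q` is
  a unit at every place of the tube of `Q`.
* `h24_exists_clear` (CLR): for `y ≠ 0` there is `g ∈ B ∩ O` whose reduction does not vanish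
  at `Q` and such that `y g` is regular at all places of the chart outside the tube of `Q`.
* `h24_chart_regular` (W): if `y ∈ O` is regular on the tube of `Q`, then `ȳ` is regular at `Q`.

(CLR) and (W) take the lifting property (†) of integral functions (`h39_lift_integral`, row
GR4') as an explicit hypothesis `hlift`.
-/

set_option autoImplicit false

noncomputable section

open AlgebraicCurve IntermediateField Polynomial
open Fermat.Agent.S24

namespace Fermat.Agent.S18

variable {K F k Fb : Type*} [Field K] [Field F] [Algebra K F] [Field k] [Field Fb] [Algebra k Fb]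

section PL2core

variable [IsAlgClosed K] [CharZero K] [IsAlgClosed k]
variable (R : h39_RedDatum K F k Fb) {t : F}

omit [IsAlgClosed K] [CharZero K] [IsAlgClosed k] in
theorem h24_resK_zero : R.resK 0 = 0 := by
  rw [R.resK_of_mem R.A.zero_mem]
  exact map_zero R.res

/-- (TU) a function of `B ∩ O` whose reduction does not vanish at `Q` is a unit at every place
of the tube of `Q`. -/
theorem h24_tube_ord_eq_zero (ht : h39_WeakChart R t) {r : Place K F → Place k Fb}
    (hr : h39_IsChartRed R t r) (g : F) (hgO : g ∈ R.O) (hgreg : h39_Reg K t g)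
    (Q : Place k Fb) (hg0 : R.redF g ≠ 0) (hgQ : Q.ord (R.redF g) = 0)
    (P : Place K F) (hP : h39_InDisc R t P) (hPQ : r P = Q) : P.ord g = 0 := by
  have hK : h75_IsChart K t := h39_weakChart_isChart R ht
  obtain ⟨a, ha, hPa⟩ := hP
  have htP : t ∈ P.toValuationSubring := h39_val_mem P hPa
  obtain ⟨b, hb⟩ := h39_exists_val hK P (hgreg P htP)
  have hval := (hr P ⟨a, ha, hPa⟩).2 g hgO hgreg b hb
  rw [hPQ] at hval
  have hb0 : b ≠ 0 := by
    rintro rfl
    rw [h24_resK_zero, h39_val_zero_iff] at hval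
    rcases hval with h | h
    · exact hg0 h
    · omega
  exact h39_ord_eq_zero_of_val P hb hb0

/-- For a place `P'` of the chart `t` outside the tube of `Q` there is a function of `B ∩ O`
vanishing at `P'` whose reduction does not vanish at `Q`. -/
theorem h24_exists_vanish (ht : h39_WeakChart R t)
    (hlift : ∀ fb : Fb,
      (∀ Q : Place k Fb, R.redF t ∈ Q.toValuationSubring → fb ∈ Q.toValuationSubring) →
      ∃ f : F, f ∈ R.O ∧
        (∀ P : Place K F, t ∈ P.toValuationSubring → f ∈ P.toValuationSubring) ∧ R.redF f = fb)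
    {r : Place K F → Place k Fb} (hr : h39_IsChartRed R t r) (Q : Place k Fb)
    (hQ : R.redF t ∈ Q.toValuationSubring) (P' : Place K F) (hP' : t ∈ P'.toValuationSubring)
    (hout : ¬ (h39_InDisc R t P' ∧ r P' = Q)) :
    ∃ g : F, g ∈ R.O ∧ h39_Reg K t g ∧ R.redF g ≠ 0 ∧ Q.ord (R.redF g) = 0 ∧ 0 < P'.ord g := by
  have hK : h75_IsChart K t := h39_weakChart_isChart R ht
  have hk : h75_IsChart k (R.redF t) := h39_weakChart_isChart_red R ht
  by_cases hdisc : h39_InDisc R t P'
  · -- `P'` lies in the disc, over a place `Q' ≠ Q`: separate `Q` from `Q'` and lift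
    have hne : r P' ≠ Q := fun h => hout ⟨hdisc, h⟩
    have hQ' : R.redF t ∈ (r P').toValuationSubring := (hr P' hdisc).1
    obtain ⟨hb, hbreg, hbQ, hbQ'⟩ := h39_exists_separating hk Q (r P') hQ hQ' (Ne.symm hne)
    obtain ⟨h, hO, hreg, hred⟩ := hlift hb hbreg
    obtain ⟨ε, hε⟩ := h39_exists_val hK P' (hreg P' hP')
    obtain ⟨a, ha, hPa⟩ := hdisc
    have hta : t ≠ algebraMap K F a := by
      intro h
      apply hK.tr
      rw [h]
      exact isAlgebraic_algebraMap _
    have hPa' : 0 < P'.ord (t - algebraMap K F a) := hPa.resolve_left hta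
    have hεA : ε ∈ R.A := h39_eval_integral R ht hO hreg P' a ε ha hPa' hε
    have hval := (hr P' ⟨a, ha, hPa⟩).2 h hO hreg ε hε
    rw [hred] at hval
    have hres : R.resK ε = 0 := h39_val_unique (r P') hval hbQ'
    have hεO : algebraMap K F ε ∈ R.O := (R.mem_iff ε).mp hεA
    have hb0 : hb ≠ 0 := by
      intro h0
      rw [h0] at hbQ
      exact one_ne_zero (h39_val_unique Q hbQ ((h39_val_zero_iff Q).mpr (Or.inl rfl)))
    have hredg : R.redF (h - algebraMap K F ε) = hb := by
      rw [h39_redF_sub R hO hεO, h39_redF_algebraMap R hεA, hres, map_zero, sub_zero, hred]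
    refine ⟨h - algebraMap K F ε, sub_mem hO hεO, ?_, ?_, ?_, ?_⟩
    · intro P hP
      exact sub_mem (hreg P hP) (P.algebraMap_mem' ε)
    · rw [hredg]
      exact hb0
    · rw [hredg]
      exact h39_ord_eq_zero_of_val Q hbQ one_ne_zero
    · have hne0 : h - algebraMap K F ε ≠ 0 := by
        intro h0
        rw [h0, h39_redF_zero] at hredg
        exact hb0 hredg.symm
      have hv : h39_Val P' (h - algebraMap K F ε) 0 := by
        have h1 := h39_val_add P' hε (h39_val_algebraMap P' (-ε))
        rwa [map_neg, ← sub_eq_add_neg, add_neg_cancel] at h1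
      exact ((h39_val_zero_iff P').mp hv).resolve_left hne0
  · -- `P'` lies outside the disc: `1 - t / t(P')`
    obtain ⟨a', ha'⟩ := h39_exists_val hK P' hP'
    have ha'A : a' ∉ R.A := fun h => hdisc ⟨a', h, ha'⟩
    have hinvA : a'⁻¹ ∈ R.A := (R.A.mem_or_inv_mem a').resolve_left ha'A
    have ha'0 : a' ≠ 0 := by
      rintro rfl
      exact ha'A R.A.zero_mem
    have hres : R.resK a'⁻¹ = 0 :=
      (h39_resK_eq_zero_iff R hinvA).mpr (Or.inr (by rwa [inv_inv]))
    have hcO : algebraMap K F a'⁻¹ ∈ R.O := (R.mem_iff _).mp hinvA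
    have hred : R.redF (1 - algebraMap K F a'⁻¹ * t) = 1 := by
      rw [h39_redF_sub R R.O.one_mem (R.O.mul_mem _ _ hcO ht.mem), h39_redF_one,
        h39_redF_mul R hcO ht.mem, h39_redF_algebraMap R hinvA, hres, map_zero, zero_mul,
        sub_zero]
    refine ⟨1 - algebraMap K F a'⁻¹ * t,
      sub_mem R.O.one_mem (R.O.mul_mem _ _ hcO ht.mem), ?_, ?_, ?_, ?_⟩
    · intro P hP
      exact sub_mem P.toValuationSubring.one_mem
        (P.toValuationSubring.mul_mem _ _ (P.algebraMap_mem' _) hP)
    · rw [hred]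
      exact one_ne_zero
    · rw [hred]
      exact Q.ord_one
    · have hne0 : 1 - algebraMap K F a'⁻¹ * t ≠ 0 := by
        intro h0
        rw [h0, h39_redF_zero] at hred
        exact zero_ne_one hred
      have hv : h39_Val P' (1 - algebraMap K F a'⁻¹ * t) 0 := by
        have h1 := h39_val_add P' (h39_val_algebraMap P' (1 : K))
          (h39_val_mul P' (h39_val_algebraMap P' (-a'⁻¹)) ha')
        have e1 : algebraMap K F 1 + algebraMap K F (-a'⁻¹) * t =
            1 - algebraMap K F a'⁻¹ * t := by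
          rw [map_one, map_neg]
          ring
        have e2 : (1 : K) + -a'⁻¹ * a' = 0 := by
          rw [neg_mul, inv_mul_cancel₀ ha'0, add_neg_cancel]
        rwa [e1, e2] at h1
      exact ((h39_val_zero_iff P').mp hv).resolve_left hne0

/-- A function of `B ∩ O` vanishing at finitely many places of the chart outside the tube of
`Q`, whose reduction does not vanish at `Q`. -/
theorem h24_exists_vanish_finset (ht : h39_WeakChart R t)
    (hlift : ∀ fb : Fb,
      (∀ Q : Place k Fb, R.redF t ∈ Q.toValuationSubring → fb ∈ Q.toValuationSubring) →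
      ∃ f : F, f ∈ R.O ∧
        (∀ P : Place K F, t ∈ P.toValuationSubring → f ∈ P.toValuationSubring) ∧ R.redF f = fb)
    {r : Place K F → Place k Fb} (hr : h39_IsChartRed R t r) (Q : Place k Fb)
    (hQ : R.redF t ∈ Q.toValuationSubring) (S : Finset (Place K F))
    (hS : ∀ P ∈ S, t ∈ P.toValuationSubring ∧ ¬ (h39_InDisc R t P ∧ r P = Q)) :
    ∃ g : F, g ∈ R.O ∧ h39_Reg K t g ∧ R.redF g ≠ 0 ∧ Q.ord (R.redF g) = 0 ∧
      ∀ P ∈ S, 0 < P.ord g := by
  classical
  induction S using Finset.induction_on with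
  | empty =>
    refine ⟨1, R.O.one_mem, fun P _ => P.toValuationSubring.one_mem, ?_, ?_, ?_⟩
    · rw [h39_redF_one]
      exact one_ne_zero
    · rw [h39_redF_one]
      exact Q.ord_one
    · intro P hP
      exact absurd hP (Finset.notMem_empty P)
  | insert P' S0 hP' ih =>
    obtain ⟨g0, hg0O, hg0reg, hg0ne, hg0Q, hg0S⟩ :=
      ih (fun P hP => hS P (Finset.mem_insert_of_mem hP))
    obtain ⟨hP't, hP'out⟩ := hS P' (Finset.mem_insert_self _ _)
    obtain ⟨g', hg'O, hg'reg, hg'ne, hg'Q, hg'P⟩ :=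
      h24_exists_vanish R ht hlift hr Q hQ P' hP't hP'out
    have hg00 : g0 ≠ 0 := by
      rintro rfl
      exact hg0ne (h39_redF_zero R)
    have hg'0 : g' ≠ 0 := by
      rintro rfl
      exact hg'ne (h39_redF_zero R)
    refine ⟨g0 * g', R.O.mul_mem _ _ hg0O hg'O,
      fun P hP => P.toValuationSubring.mul_mem _ _ (hg0reg P hP) (hg'reg P hP), ?_, ?_, ?_⟩
    · rw [h39_redF_mul R hg0O hg'O]
      exact mul_ne_zero hg0ne hg'ne
    · rw [h39_redF_mul R hg0O hg'O, Q.ord_mul hg0ne hg'ne, hg0Q, hg'Q, add_zero]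
    · intro P hP
      rw [P.ord_mul hg00 hg'0]
      have hPt := (hS P hP).1
      have h1 := h35_ord_nonneg_of_mem P (hg0reg P hPt)
      have h2 := h35_ord_nonneg_of_mem P (hg'reg P hPt)
      rcases Finset.mem_insert.mp hP with rfl | hP0
      · omega
      · have h3 := hg0S P hP0
        omega

/-- (CLR) for `y ≠ 0` and a place `Q` of the chart `t̄` there is `g ∈ B ∩ O` whose reduction
does not vanish at `Q` and such that `y g` is regular at all places of the chart `t` outside
the tube of `Q`. -/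
theorem h24_exists_clear (ht : h39_WeakChart R t)
    (hlift : ∀ fb : Fb,
      (∀ Q : Place k Fb, R.redF t ∈ Q.toValuationSubring → fb ∈ Q.toValuationSubring) →
      ∃ f : F, f ∈ R.O ∧
        (∀ P : Place K F, t ∈ P.toValuationSubring → f ∈ P.toValuationSubring) ∧ R.redF f = fb)
    {r : Place K F → Place k Fb} (hr : h39_IsChartRed R t r) (y : F) (hy0 : y ≠ 0)
    (Q : Place k Fb) (hQ : R.redF t ∈ Q.toValuationSubring) :
    ∃ g : F, g ∈ R.O ∧ h39_Reg K t g ∧ R.redF g ≠ 0 ∧ Q.ord (R.redF g) = 0 ∧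
      ∀ P : Place K F, t ∈ P.toValuationSubring → ¬ (h39_InDisc R t P ∧ r P = Q) →
        y * g ∈ P.toValuationSubring := by
  classical
  have hK : h75_IsChart K t := h39_weakChart_isChart R ht
  have hfin : {P : Place K F | P.ord y < 0 ∧ t ∈ P.toValuationSubring ∧
      ¬ (h39_InDisc R t P ∧ r P = Q)}.Finite :=
    (h75_finite_ord_ne hK y hy0).subset (fun P hP => ne_of_lt hP.1)
  obtain ⟨g1, hg1O, hg1reg, hg1ne, hg1Q, hg1S⟩ :=
    h24_exists_vanish_finset R ht hlift hr Q hQ hfin.toFinset
      (fun P hP => ((Set.Finite.mem_toFinset hfin).mp hP).2)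
  have hg10 : g1 ≠ 0 := by
    rintro rfl
    exact hg1ne (h39_redF_zero R)
  obtain ⟨N, hN⟩ : ∃ N : ℕ, N = ∑ P ∈ hfin.toFinset, (-(P.ord y)).toNat := ⟨_, rfl⟩
  refine ⟨g1 ^ N, R.O.pow_mem hg1O N, fun P hP => pow_mem (hg1reg P hP) N, ?_, ?_, ?_⟩
  · rw [h39_redF_pow R hg1O]
    exact pow_ne_zero N hg1ne
  · rw [h39_redF_pow R hg1O, ← zpow_natCast, Q.ord_zpow, hg1Q, mul_zero]
  · intro P hPt hout
    by_cases hneg : P.ord y < 0
    · have hPS : P ∈ hfin.toFinset := (Set.Finite.mem_toFinset hfin).mpr ⟨hneg, hPt, hout⟩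
      apply h24_mem_of_ord_nonneg
      rw [P.ord_mul hy0 (pow_ne_zero N hg10), ← zpow_natCast, P.ord_zpow]
      have h1 : 0 < P.ord g1 := hg1S P hPS
      have h2 : (-(P.ord y)).toNat ≤ N := by
        rw [hN]
        exact Finset.single_le_sum (f := fun P : Place K F => (-(P.ord y)).toNat)
          (fun _ _ => Nat.zero_le _) hPS
      have h3 : -(P.ord y) ≤ (N : ℤ) := by
        have := Int.self_le_toNat (-(P.ord y))
        omega
      nlinarith
    · exact P.toValuationSubring.mul_mem _ _ (h24_mem_of_ord_nonneg P (not_lt.mp hneg))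
        (pow_mem (hg1reg P hPt) N)

/-- (W) if `y ∈ O` is regular at all places of the tube of `Q`, then `ȳ` is regular at `Q`. -/
theorem h24_chart_regular (ht : h39_WeakChart R t)
    (hlift : ∀ fb : Fb,
      (∀ Q : Place k Fb, R.redF t ∈ Q.toValuationSubring → fb ∈ Q.toValuationSubring) →
      ∃ f : F, f ∈ R.O ∧
        (∀ P : Place K F, t ∈ P.toValuationSubring → f ∈ P.toValuationSubring) ∧ R.redF f = fb)
    {r : Place K F → Place k Fb} (hr : h39_IsChartRed R t r) (y : F) (hy : y ∈ R.O)
    (Q : Place k Fb) (hQ : R.redF t ∈ Q.toValuationSubring)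
    (h : ∀ P : Place K F, h39_InDisc R t P → r P = Q → y ∈ P.toValuationSubring) :
    R.redF y ∈ Q.toValuationSubring := by
  by_cases hy0 : y = 0
  · rw [hy0, h39_redF_zero]
    exact Q.toValuationSubring.zero_mem
  obtain ⟨g, hgO, hgreg, hgne, hgQ, hclr⟩ := h24_exists_clear R ht hlift hr y hy0 Q hQ
  have hint : ∀ P : Place K F, t ∈ P.toValuationSubring → y * g ∈ P.toValuationSubring := by
    intro P hPt
    by_cases htube : h39_InDisc R t P ∧ r P = Q
    · exact P.toValuationSubring.mul_mem _ _ (h P htube.1 htube.2) (hgreg P hPt)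
    · exact hclr P hPt htube
  have hred := h39_red_integral R ht (R.O.mul_mem _ _ hy hgO) hint Q hQ
  rw [h39_redF_mul R hy hgO] at hred
  by_cases hry : R.redF y = 0
  · rw [hry]
    exact Q.toValuationSubring.zero_mem
  · apply h24_mem_of_ord_nonneg
    have h1 := h35_ord_nonneg_of_mem Q hred
    rw [Q.ord_mul hry hgne, hgQ, add_zero] at h1
    exact h1

end PL2core

end Fermat.Agent.S18

end
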