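import Fermat.Agent.S18.Defs
import Fermat.Agent.S18.h75_RRDefs
import Fermat.Agent.S18.h39_GRDefs
import Fermat.Agent.S18.GR_RedAPI
import Fermat.Agent.S18.RR_Chart
import Fermat.Agent.S18.GR_Integral
import Fermat.Agent.S18.GR_ChartPt

/-!
# S18 / [GR-PL] PL1, core: the reduction map on the unit disc of a chart

Setting: `R : h39_RedDatum K F k Fb`, `t` a weak chart.  The only input which is not yet on
main, the lifting statement (†) `h39_lift_integral` (row GR4'), is taken as an explicit
hypothesis `hlift` (its conclusion for the chart `t`); the file `GR_ChartRed.lean` discharges it.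

For a place `P` of the unit disc of `t` (value `t(P) ∈ A`):

* `h37_val_mem_A` (KL1) : values at `P` of functions of `B ∩ O` lie in `A`;
* `h37_resK_val_eq_zero` (KL2), `h37_resK_val_congr` (KL3) : the residue of the value at `P`
  depends only on the reduction of the function;
* `h37_LiftVal`, and its calculus: "`c` is the residue of the value at `P` of a lift of `fb`";
* `h37_exists_red_place` : the place `Q` of the chart `t̄` with `f̄(Q) = res (f(P))`;
* `h37_exists_chartRed_of_lift`, `h37_chartRed_unique_of_lift`, `h37_chartRed_over` : the three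
  statements of PL1.
-/

set_option autoImplicit false

noncomputable section

open AlgebraicCurve IntermediateField Polynomial

namespace Fermat.Agent.S18

variable {K F k Fb : Type*} [Field K] [Field F] [Algebra K F] [Field k] [Field Fb] [Algebra k Fb]

/-- A chart has a place (the fibre over `0` is not empty). -/
theorem h37_nonempty_place [IsAlgClosed K] {x : F} (hx : h75_IsChart K x) :
    Nonempty (Place K F) := by
  classical
  have hfin := h75_fibre_finite hx 0
  have hsum := h75_fibre_sum hx 0 hfin.toFinset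
    (fun P => by rw [Set.Finite.mem_toFinset]; rfl)
  have hpos : 0 < Module.finrank K⟮x⟯ F := by
    have := hx.fin
    exact Module.finrank_pos
  by_contra hne
  rw [not_nonempty_iff] at hne
  have h0 : hfin.toFinset = ∅ := Finset.eq_empty_of_isEmpty _
  rw [h0, Finset.sum_empty] at hsum
  have : (Module.finrank K⟮x⟯ F : ℤ) = 0 := hsum.symm
  omega

section Core

variable [IsAlgClosed K] [CharZero K] [IsAlgClosed k]
variable (R : h39_RedDatum K F k Fb) {t : F}

omit [CharZero K] [IsAlgClosed k] in
/-- At a place where the weak chart `t` has the value `a`, `t - a` has positive order. -/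
theorem h37_disc_ord_pos (ht : h39_WeakChart R t) {P : Place K F} {a : K}
    (hPa : h39_Val P t a) : 0 < P.ord (t - algebraMap K F a) := by
  rcases hPa with h | h
  · exfalso
    have htr := h39_transcendental_of_redF R ht.transcendental
    exact htr (h ▸ isAlgebraic_algebraMap a)
  · exact h

omit [IsAlgClosed K] [CharZero K] [IsAlgClosed k] in
/-- A place of the unit disc lies on the chart. -/
theorem h37_disc_mem {P : Place K F} (hP : h39_InDisc R t P) : t ∈ P.toValuationSubring := by
  obtain ⟨a, -, hPa⟩ := hP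
  exact h39_val_mem P hPa

/-- (KL1) values at a place of the unit disc of functions of `B ∩ O` lie in `A`. -/
theorem h37_val_mem_A (ht : h39_WeakChart R t) {P : Place K F} (hP : h39_InDisc R t P)
    {f : F} (hf : f ∈ R.O) (hreg : h39_Reg K t f) {b : K} (hb : h39_Val P f b) : b ∈ R.A := by
  obtain ⟨a, ha, hPa⟩ := hP
  exact h39_eval_integral R ht hf hreg P a b ha (h37_disc_ord_pos R ht hPa) hb

/-- (KL2) a function of `B ∩ O` with zero reduction has values with zero residue on the unit
disc. -/
theorem h37_resK_val_eq_zero (ht : h39_WeakChart R t) {P : Place K F}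
    (hP : h39_InDisc R t P) {f : F} (hf : f ∈ R.O) (hreg : h39_Reg K t f)
    (h0 : R.redF f = 0) {b : K} (hb : h39_Val P f b) : R.resK b = 0 := by
  have hK := h39_weakChart_isChart R ht
  have htP : t ∈ P.toValuationSubring := h37_disc_mem R hP
  obtain ⟨c, f', hc, hc0, hf', rfl⟩ := h39_exists_factor_of_redF_eq_zero R hf h0
  by_cases hcz : c = 0
  · subst hcz
    have h1 : h39_Val P (algebraMap K F 0 * f') 0 := by
      rw [map_zero, zero_mul]
      exact (h39_val_zero_iff P).mpr (Or.inl rfl)
    rw [h39_val_unique P hb h1]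
    exact hc0
  · have hreg' : h39_Reg K t f' := by
      intro P' hP'
      have h1 : f' = algebraMap K F c⁻¹ * (algebraMap K F c * f') := by
        rw [← mul_assoc, ← map_mul, inv_mul_cancel₀ hcz, map_one, one_mul]
      rw [h1]
      exact P'.toValuationSubring.mul_mem _ _ (P'.algebraMap_mem' _) (hreg P' hP')
    obtain ⟨b', hb'⟩ := h39_exists_val hK P (hreg' P htP)
    have hb'A : b' ∈ R.A := h37_val_mem_A R ht hP hf' hreg' hb'
    have h2 : h39_Val P (algebraMap K F c * f') (c * b') :=
      h39_val_mul P (h39_val_algebraMap P c) hb'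
    rw [h39_val_unique P hb h2, h39_resK_mul R hc hb'A, hc0, zero_mul]

/-- (KL3) the residue of the value at a place of the unit disc depends only on the
reduction. -/
theorem h37_resK_val_congr (ht : h39_WeakChart R t) {P : Place K F}
    (hP : h39_InDisc R t P) {f g : F} (hf : f ∈ R.O) (hg : g ∈ R.O)
    (hfreg : h39_Reg K t f) (hgreg : h39_Reg K t g) (hfg : R.redF f = R.redF g) {b c : K}
    (hb : h39_Val P f b) (hc : h39_Val P g c) : R.resK b = R.resK c := by
  have hbA := h37_val_mem_A R ht hP hf hfreg hb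
  have hcA := h37_val_mem_A R ht hP hg hgreg hc
  have hneg : h39_Val P (algebraMap K F (-1) * g) (-1 * c) :=
    h39_val_mul P (h39_val_algebraMap P (-1)) hc
  have hsub : h39_Val P (f + algebraMap K F (-1) * g) (b + -1 * c) := h39_val_add P hb hneg
  have hm1 : (-1 : K) ∈ R.A := R.A.neg_mem _ R.A.one_mem
  have hmem : algebraMap K F (-1) * g ∈ R.O :=
    R.O.mul_mem _ _ ((R.mem_iff (-1)).mp hm1) hg
  have hred : R.redF (f + algebraMap K F (-1) * g) = 0 := by
    have h1 : f + algebraMap K F (-1) * g = f - g := by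
      rw [map_neg, map_one]
      ring
    rw [h1, h39_redF_sub R hf hg, hfg, sub_self]
  have hreg : h39_Reg K t (f + algebraMap K F (-1) * g) := fun P' hP' =>
    P'.toValuationSubring.add_mem _ _ (hfreg P' hP')
      (P'.toValuationSubring.mul_mem _ _ (P'.algebraMap_mem' _) (hgreg P' hP'))
  have h0 := h37_resK_val_eq_zero R ht hP (R.O.add_mem _ _ hf hmem) hreg hred hsub
  have hd : b + -1 * c ∈ R.A := R.A.add_mem _ _ hbA (R.A.mul_mem _ _ hm1 hcA)
  calc R.resK b = R.resK ((b + -1 * c) + c) := by
        congr 1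
        ring
    _ = R.resK (b + -1 * c) + R.resK c := h39_resK_add R hd hcA
    _ = R.resK c := by rw [h0, zero_add]

/-- `c` is the residue of the value at `P` of a lift in `B ∩ O` of `fb`. -/
def h37_LiftVal (R : h39_RedDatum K F k Fb) (t : F) (P : Place K F) (fb : Fb) (c : k) : Prop :=
  ∃ (f : F) (b : K), f ∈ R.O ∧ h39_Reg K t f ∧ R.redF f = fb ∧ h39_Val P f b ∧ R.resK b = c

theorem h37_liftVal_unique (ht : h39_WeakChart R t) {P : Place K F} (hP : h39_InDisc R t P)
    {fb : Fb} {c c' : k} (h : h37_LiftVal R t P fb c) (h' : h37_LiftVal R t P fb c') :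
    c = c' := by
  obtain ⟨f, b, hf, hreg, hfb, hb, rfl⟩ := h
  obtain ⟨g, b', hg, hreg', hgb, hb', rfl⟩ := h'
  exact h37_resK_val_congr R ht hP hf hg hreg hreg' (hfb.trans hgb.symm) hb hb'

theorem h37_liftVal_add (ht : h39_WeakChart R t) {P : Place K F} (hP : h39_InDisc R t P)
    {fb gb : Fb} {c c' : k} (h : h37_LiftVal R t P fb c) (h' : h37_LiftVal R t P gb c') :
    h37_LiftVal R t P (fb + gb) (c + c') := by
  obtain ⟨f, b, hf, hreg, rfl, hb, rfl⟩ := h
  obtain ⟨g, b', hg, hreg', rfl, hb', rfl⟩ := h'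
  refine ⟨f + g, b + b', R.O.add_mem _ _ hf hg, ?_, h39_redF_add R hf hg, h39_val_add P hb hb',
    h39_resK_add R (h37_val_mem_A R ht hP hf hreg hb) (h37_val_mem_A R ht hP hg hreg' hb')⟩
  exact fun P' hP' => P'.toValuationSubring.add_mem _ _ (hreg P' hP') (hreg' P' hP')

theorem h37_liftVal_mul (ht : h39_WeakChart R t) {P : Place K F} (hP : h39_InDisc R t P)
    {fb gb : Fb} {c c' : k} (h : h37_LiftVal R t P fb c) (h' : h37_LiftVal R t P gb c') :
    h37_LiftVal R t P (fb * gb) (c * c') := by
  obtain ⟨f, b, hf, hreg, rfl, hb, rfl⟩ := h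
  obtain ⟨g, b', hg, hreg', rfl, hb', rfl⟩ := h'
  refine ⟨f * g, b * b', R.O.mul_mem _ _ hf hg, ?_, h39_redF_mul R hf hg, h39_val_mul P hb hb',
    h39_resK_mul R (h37_val_mem_A R ht hP hf hreg hb) (h37_val_mem_A R ht hP hg hreg' hb')⟩
  exact fun P' hP' => P'.toValuationSubring.mul_mem _ _ (hreg P' hP') (hreg' P' hP')

omit [IsAlgClosed K] [CharZero K] [IsAlgClosed k] in
theorem h37_liftVal_algebraMap (P : Place K F) (c : k) :
    h37_LiftVal R t P (algebraMap k Fb c) c := by
  obtain ⟨a, ha, rfl⟩ := h39_resK_surjective R c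
  exact ⟨algebraMap K F a, a, (R.mem_iff a).mp ha, fun P' _ => P'.algebraMap_mem' a,
    h39_redF_algebraMap R ha, h39_val_algebraMap P a, rfl⟩

omit [IsAlgClosed k] in
/-- Every function regular on the chart `t̄` has a lift value (uses (†)). -/
theorem h37_liftVal_exists (ht : h39_WeakChart R t)
    (hlift : ∀ fb : Fb,
      (∀ Q : Place k Fb, R.redF t ∈ Q.toValuationSubring → fb ∈ Q.toValuationSubring) →
      ∃ f : F, f ∈ R.O ∧
        (∀ P : Place K F, t ∈ P.toValuationSubring → f ∈ P.toValuationSubring) ∧ R.redF f = fb)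
    {P : Place K F} (hP : h39_InDisc R t P) (fb : Fb) (hfb : h39_Reg k (R.redF t) fb) :
    ∃ c : k, h37_LiftVal R t P fb c := by
  have hK := h39_weakChart_isChart R ht
  obtain ⟨f, hf, hreg, hfb'⟩ := hlift fb hfb
  obtain ⟨b, hb⟩ := h39_exists_val hK P (hreg P (h37_disc_mem R hP))
  exact ⟨R.resK b, f, b, hf, hreg, hfb', hb, rfl⟩

/-- The reduction of a place of the unit disc: a place `Q` of the chart `t̄` with
`f̄(Q) = res (f(P))` for all `f ∈ B ∩ O`. -/
theorem h37_exists_red_place (ht : h39_WeakChart R t)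
    (hlift : ∀ fb : Fb,
      (∀ Q : Place k Fb, R.redF t ∈ Q.toValuationSubring → fb ∈ Q.toValuationSubring) →
      ∃ f : F, f ∈ R.O ∧
        (∀ P : Place K F, t ∈ P.toValuationSubring → f ∈ P.toValuationSubring) ∧ R.redF f = fb)
    {P : Place K F} (hP : h39_InDisc R t P) :
    ∃ Q : Place k Fb, R.redF t ∈ Q.toValuationSubring ∧
      ∀ f : F, f ∈ R.O → h39_Reg K t f → ∀ b : K, h39_Val P f b →
        h39_Val Q (R.redF f) (R.resK b) := by
  have hk := h39_weakChart_isChart_red R ht
  have hex : ∀ fb : h39_chartRing k (R.redF t), ∃ c, h37_LiftVal R t P (fb : Fb) c :=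
    fun fb => h37_liftVal_exists R ht hlift hP fb fb.2
  choose φ hφ using hex
  have huniq : ∀ {fb : Fb} {c c' : k}, h37_LiftVal R t P fb c → h37_LiftVal R t P fb c' →
      c = c' := fun h h' => h37_liftVal_unique R ht hP h h'
  let Φ : h39_chartRing k (R.redF t) →ₐ[k] k :=
    { toFun := φ
      map_one' := by
        refine huniq (hφ 1) ?_
        have h1 := h37_liftVal_algebraMap R (t := t) P (1 : k)
        rwa [map_one] at h1
      map_mul' := fun x y => huniq (hφ (x * y)) (h37_liftVal_mul R ht hP (hφ x) (hφ y))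
      map_zero' := by
        refine huniq (hφ 0) ?_
        have h1 := h37_liftVal_algebraMap R (t := t) P (0 : k)
        rwa [map_zero] at h1
      map_add' := fun x y => huniq (hφ (x + y)) (h37_liftVal_add R ht hP (hφ x) (hφ y))
      commutes' := fun c => huniq (hφ (algebraMap k _ c)) (h37_liftVal_algebraMap R P c) }
  obtain ⟨Q, hQ, hQv⟩ := h39_exists_place_of_algHom hk Φ
  refine ⟨Q, hQ, fun f hf hreg b hb => ?_⟩
  have hfb : h39_Reg k (R.redF t) (R.redF f) := h39_red_integral R ht hf hreg
  have h1 := hQv ⟨R.redF f, hfb⟩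
  have h2 : Φ ⟨R.redF f, hfb⟩ = R.resK b :=
    huniq (hφ ⟨R.redF f, hfb⟩) ⟨f, b, hf, hreg, rfl, hb, rfl⟩
  rw [h2] at h1
  exact h1

/-- **PL1, existence** (from (†)): a chart reduction on the unit disc of a weak chart. -/
theorem h37_exists_chartRed_of_lift (ht : h39_WeakChart R t)
    (hlift : ∀ fb : Fb,
      (∀ Q : Place k Fb, R.redF t ∈ Q.toValuationSubring → fb ∈ Q.toValuationSubring) →
      ∃ f : F, f ∈ R.O ∧
        (∀ P : Place K F, t ∈ P.toValuationSubring → f ∈ P.toValuationSubring) ∧ R.redF f = fb) :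
    ∃ r : Place K F → Place k Fb, h39_IsChartRed R t r := by
  classical
  have hk := h39_weakChart_isChart_red R ht
  obtain ⟨Q₀⟩ := h37_nonempty_place hk
  have hex : ∀ P : Place K F, ∃ Q : Place k Fb, h39_InDisc R t P →
      (R.redF t ∈ Q.toValuationSubring ∧
        ∀ f : F, f ∈ R.O → h39_Reg K t f → ∀ b : K, h39_Val P f b →
          h39_Val Q (R.redF f) (R.resK b)) := by
    intro P
    by_cases hP : h39_InDisc R t P
    · obtain ⟨Q, hQ⟩ := h37_exists_red_place R ht hlift hP
      exact ⟨Q, fun _ => hQ⟩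
    · exact ⟨Q₀, fun h => absurd h hP⟩
  choose r hr using hex
  exact ⟨r, fun P hP => hr P hP⟩

/-- **PL1, uniqueness** (from (†)): two chart reductions agree on the unit disc. -/
theorem h37_chartRed_unique_of_lift (ht : h39_WeakChart R t)
    (hlift : ∀ fb : Fb,
      (∀ Q : Place k Fb, R.redF t ∈ Q.toValuationSubring → fb ∈ Q.toValuationSubring) →
      ∃ f : F, f ∈ R.O ∧
        (∀ P : Place K F, t ∈ P.toValuationSubring → f ∈ P.toValuationSubring) ∧ R.redF f = fb)
    {r r' : Place K F → Place k Fb}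
    (hr : h39_IsChartRed R t r) (hr' : h39_IsChartRed R t r') (P : Place K F)
    (hP : h39_InDisc R t P) : r P = r' P := by
  have hK := h39_weakChart_isChart R ht
  have hk := h39_weakChart_isChart_red R ht
  refine h39_place_eq_of_val hk (r P) (r' P) (hr P hP).1 (hr' P hP).1 ?_
  intro fb hfb c hc
  obtain ⟨f, hf, hreg, rfl⟩ := hlift fb hfb
  obtain ⟨b, hb⟩ := h39_exists_val hK P (hreg P (h37_disc_mem R hP))
  have h1 := (hr P hP).2 f hf hreg b hb
  have h2 := (hr' P hP).2 f hf hreg b hb
  rw [h39_val_unique (r P) hc h1]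
  exact h2

omit [IsAlgClosed K] [CharZero K] [IsAlgClosed k] in
/-- **PL1, the chart itself**: `t̄ (r P) = res (t (P))`. -/
theorem h37_chartRed_over (ht : h39_WeakChart R t) {r : Place K F → Place k Fb}
    (hr : h39_IsChartRed R t r) (P : Place K F) (a : K) (ha : a ∈ R.A) (hPa : h39_Val P t a) :
    h39_Val (r P) (R.redF t) (R.resK a) :=
  (hr P ⟨a, ha, hPa⟩).2 t ht.mem (fun _ hP' => hP') a hPa

end Core

end Fermat.Agent.S18

end
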