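import Fermat.Agent.S18.h66_ChartRedCore
import Fermat.Agent.S18.RR_Index
import Fermat.Agent.S18.Tate_Fred
import Fermat.Agent.S18.h53_CoreBasic

/-!
# S18 / [GR-PL] row PL3, core: the local inequality for `y ∈ B ∩ O`

`h53_chart_le_of_reg_core`: for `y ∈ O` regular on the chart `t` with `ȳ ≠ 0` and a place `Q` of
the chart `t̄`, `ord_Q ȳ` is at most the number of zeros of `y` in the tube of `Q`.
Inputs as hypotheses: (†) `h66_Dagger R t` and (W) "regular on the tube of `Q` ⟹ reduction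
regular at `Q`".
-/

set_option autoImplicit false

noncomputable section

open AlgebraicCurve IntermediateField Polynomial

namespace Fermat.Agent.S18

variable {K F k Fb : Type*} [Field K] [Field F] [Algebra K F] [Field k] [Field Fb] [Algebra k Fb]

/-! ### Linear algebra -/

/-- More vectors than the relative dimension: a nontrivial combination lies in the smaller
space. -/
theorem h53_exists_comb_mem {K V : Type*} [Field K] [AddCommGroup V] [Module K V]
    (M N : Submodule K V) (hfin : h75_RelFin M N) (n : ℕ) (hn : h75_relDim M N < n)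
    (f : Fin n → V) (hf : ∀ i, f i ∈ N) :
    ∃ c : Fin n → K, c ≠ 0 ∧ ∑ i, c i • f i ∈ M := by
  have : FiniteDimensional K ↥(N.map M.mkQ) := hfin
  let v : Fin n → ↥(N.map M.mkQ) := fun i => ⟨M.mkQ (f i), Submodule.mem_map_of_mem (hf i)⟩
  have hnot : ¬ LinearIndependent K v := by
    intro hli
    have := hli.fintype_card_le_finrank
    rw [Fintype.card_fin] at this
    unfold h75_relDim at hn
    omega
  rw [Fintype.not_linearIndependent_iff] at hnot
  obtain ⟨g, hg, i, hi⟩ := hnot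
  refine ⟨g, fun h0 => hi (by rw [h0]; rfl), ?_⟩
  have h1 := congrArg (Subtype.val) hg
  rw [Submodule.coe_sum, Submodule.coe_zero] at h1
  have h2 : M.mkQ (∑ i, g i • f i) = 0 := by
    rw [map_sum, ← h1]
    refine Finset.sum_congr rfl fun i _ => ?_
    rw [map_smul]
    rfl
  rwa [Submodule.mkQ_apply, Submodule.Quotient.mk_eq_zero] at h2

/-- A nonzero vector over the fraction field of a valuation ring has a coordinate of largest
norm; we take the last one. -/
theorem h53_exists_pivot (A : ValuationSubring K) (n : ℕ) (c : Fin n → K) (hc : c ≠ 0) :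
    ∃ j : Fin n, c j ≠ 0 ∧ (∀ i, c i / c j ∈ A) ∧ ∀ i, j < i → c i / c j ∈ A.nonunits := by
  obtain ⟨i₀, hi₀⟩ : ∃ i, c i ≠ 0 := by
    by_contra h
    push Not at h
    exact hc (funext h)
  obtain ⟨j, -, hj⟩ := Finset.exists_max_image (Finset.univ : Finset (Fin n))
    (fun i => toLex (A.valuation (c i), i)) ⟨i₀, Finset.mem_univ _⟩
  have hle : ∀ i, A.valuation (c i) ≤ A.valuation (c j) := by
    intro i
    have := hj i (Finset.mem_univ _)
    rw [Prod.Lex.toLex_le_toLex] at this
    rcases this with h | h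
    · exact h.le
    · exact h.1.le
  have hlt : ∀ i, j < i → A.valuation (c i) < A.valuation (c j) := by
    intro i hji
    have := hj i (Finset.mem_univ _)
    rw [Prod.Lex.toLex_le_toLex] at this
    rcases this with h | h
    · exact h
    · exact absurd h.2 (not_le.mpr hji)
  have hj0 : c j ≠ 0 := by
    intro h0
    have h1 := hle i₀
    rw [h0, map_zero] at h1
    exact hi₀ ((Valuation.zero_iff _).mp (le_antisymm h1 zero_le))
  have hvj : 0 < A.valuation (c j) := lt_of_le_of_ne zero_le (Ne.symm ((Valuation.ne_zero_iff _).mpr hj0))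
  refine ⟨j, hj0, fun i => ?_, fun i hji => ?_⟩
  · rw [← A.valuation_le_one_iff, map_div₀]
    exact (div_le_one₀ hvj).mpr (hle i)
  · rw [ValuationSubring.mem_nonunits_iff, map_div₀]
    exact (div_lt_one₀ hvj).mpr (hlt i hji)

/-! ### Chains of chart spaces -/

theorem h53_relFin_self {K V : Type*} [Field K] [AddCommGroup V] [Module K V]
    (M : Submodule K V) : h75_RelFin M M ∧ h75_relDim M M = 0 := by
  have h : M.map M.mkQ = ⊥ := by
    rw [← LinearMap.le_ker_iff_map, Submodule.ker_mkQ]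
  unfold h75_RelFin h75_relDim
  rw [h]
  exact ⟨inferInstance, finrank_bot K _⟩

section Chain

variable [IsAlgClosed K]

theorem h53_chart_add_single {x : F} (hx : h75_IsChart K x) (P : Place K F)
    (hP : x ∈ P.toValuationSubring) (j : ℕ) (D : Divisor K F) :
    h75_chart x D ≤ h75_chart x (D + Finsupp.single P (j : ℤ)) ∧
      h75_RelFin (h75_chart x D) (h75_chart x (D + Finsupp.single P (j : ℤ))) ∧
      h75_relDim (h75_chart x D) (h75_chart x (D + Finsupp.single P (j : ℤ))) = j := by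
  induction j with
  | zero =>
    have e : D + Finsupp.single P ((0 : ℕ) : ℤ) = D := by simp
    rw [e]
    exact ⟨le_rfl, (h53_relFin_self _).1, (h53_relFin_self _).2⟩
  | succ j ih =>
    obtain ⟨h1, h2, h3⟩ := ih
    obtain ⟨g1, g2, g3⟩ := h75_chart_succ hx (D + Finsupp.single P (j : ℤ)) P hP
    have e : D + Finsupp.single P ((j + 1 : ℕ) : ℤ)
        = D + Finsupp.single P (j : ℤ) + Finsupp.single P 1 := by
      rw [add_assoc, ← Finsupp.single_add]
      push_cast
      rfl
    rw [e]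
    exact ⟨h1.trans g1, h75_RelFin_trans h1 g1 h2 g2, by rw [h75_relDim_add h1 g1 h2 g2, h3, g3]⟩

theorem h53_chart_add_sum {x : F} (hx : h75_IsChart K x) (s : Finset (Place K F))
    (hs : ∀ P ∈ s, x ∈ P.toValuationSubring) (m : Place K F → ℕ) (D : Divisor K F) :
    h75_chart x D ≤ h75_chart x (D + ∑ P ∈ s, Finsupp.single P (m P : ℤ)) ∧
      h75_RelFin (h75_chart x D) (h75_chart x (D + ∑ P ∈ s, Finsupp.single P (m P : ℤ))) ∧
      h75_relDim (h75_chart x D) (h75_chart x (D + ∑ P ∈ s, Finsupp.single P (m P : ℤ)))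
        = ∑ P ∈ s, m P := by
  classical
  induction s using Finset.induction_on generalizing D with
  | empty =>
    rw [Finset.sum_empty, Finset.sum_empty, add_zero]
    exact ⟨le_rfl, (h53_relFin_self _).1, (h53_relFin_self _).2⟩
  | insert P s hPs ih =>
    rw [Finset.sum_insert hPs, Finset.sum_insert hPs]
    obtain ⟨h1, h2, h3⟩ := h53_chart_add_single hx P (hs P (Finset.mem_insert_self P s)) (m P) D
    obtain ⟨g1, g2, g3⟩ := ih (fun P' hP' => hs P' (Finset.mem_insert_of_mem hP'))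
      (D + Finsupp.single P (m P : ℤ))
    rw [← add_assoc]
    exact ⟨h1.trans g1, h75_RelFin_trans h1 g1 h2 g2, by rw [h75_relDim_add h1 g1 h2 g2, h3, g3]⟩

end Chain

/-! ### The local inequality for `y ∈ B ∩ O` -/

section Main

variable [IsAlgClosed K] [CharZero K] [IsAlgClosed k]
variable (R : h39_RedDatum K F k Fb) {t : F}

/-- (S3) for `y ∈ B ∩ O` with `ȳ ≠ 0`: `ord_Q ȳ ≤` the number of zeros of `y` in the tube of
`Q`. -/
theorem h53_chart_le_of_reg_core (ht : h39_WeakChart R t) (hdag : h66_Dagger R t)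
    {r : Place K F → Place k Fb} (Q : Place k Fb) (hQ : R.redF t ∈ Q.toValuationSubring)
    (hW : ∀ f : F, f ∈ R.O →
      (∀ P : Place K F, h39_InDisc R t P → r P = Q → f ∈ P.toValuationSubring) →
      R.redF f ∈ Q.toValuationSubring)
    (y : F) (hy : y ∈ R.O) (hy0 : R.redF y ≠ 0) (hyreg : h39_Reg K t y)
    (s : Finset (Place K F))
    (hs : ∀ P : Place K F, P ∈ s ↔ P.ord y ≠ 0 ∧ h39_InDisc R t P ∧ r P = Q) :
    Q.ord (R.redF y) ≤ ∑ P ∈ s, P.ord y := by
  classical
  have hK : h75_IsChart K t := h39_weakChart_isChart R ht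
  have hk : h75_IsChart k (R.redF t) := h39_weakChart_isChart_red R ht
  have hyne : y ≠ 0 := by
    rintro rfl
    exact hy0 (h39_redF_zero R)
  have htube : ∀ P : Place K F, h39_InDisc R t P → t ∈ P.toValuationSubring := by
    rintro P ⟨a, -, ha⟩
    exact h39_val_mem P ha
  have hspos : ∀ P ∈ s, 0 < P.ord y := by
    intro P hP
    obtain ⟨h1, h2, -⟩ := (hs P).mp hP
    have := Fermat.Agent.S24.h35_ord_nonneg_of_mem P (hyreg P (htube P h2))
    omega
  by_contra hcon
  push Not at hcon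
  obtain ⟨N, hNeq⟩ : ∃ N : ℕ, (N : ℤ) = ∑ P ∈ s, P.ord y :=
    ⟨(∑ P ∈ s, P.ord y).toNat, Int.toNat_of_nonneg (Finset.sum_nonneg fun P hP => (hspos P hP).le)⟩
  -- a function with a simple pole at `Q`, regular elsewhere on the chart
  obtain ⟨τ, hτ0, hτQ, hτreg⟩ := h75_exists_exact hk {Q}
    (by
      intro P hP
      rw [Finset.mem_singleton] at hP
      rw [hP]
      exact hQ) (fun _ => -1)
  have hτQ' : Q.ord τ = -1 := hτQ Q (Finset.mem_singleton_self Q)
  have hureg : ∀ i : Fin (N + 1), ∀ Q' : Place k Fb, R.redF t ∈ Q'.toValuationSubring →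
      R.redF y * τ ^ ((i : ℕ) + 1) ∈ Q'.toValuationSubring := by
    intro i Q' hQ'
    by_cases hQQ : Q' = Q
    · rw [hQQ, ← h53_OrdGE.mem_iff]
      refine Or.inr ?_
      rw [Q.ord_mul hy0 (pow_ne_zero _ hτ0), ← zpow_natCast, Q.ord_zpow, hτQ']
      have := i.2
      push_cast
      omega
    · have hτmem : τ ∈ Q'.toValuationSubring :=
        h53_OrdGE.mem_iff.mp (Or.inr (hτreg Q' hQ' (by simpa using hQQ)))
      exact Q'.toValuationSubring.mul_mem _ _ (h39_red_integral R ht hy hyreg Q' hQ')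
        (pow_mem hτmem _)
  choose w hwO hwreg hwred using
    fun i : Fin (N + 1) => hdag _ (hureg i)
  obtain ⟨hyinv, hyinvred⟩ := h39_inv_of_redF_ne_zero R hy0
  obtain ⟨f, hf⟩ : ∃ f : Fin (N + 1) → F, ∀ i, f i = w i * y⁻¹ := ⟨_, fun _ => rfl⟩
  have hfO : ∀ i, f i ∈ R.O := fun i => by
    rw [hf]
    exact R.O.mul_mem _ _ (hwO i) hyinv
  have hfred : ∀ i, R.redF (f i) = τ ^ ((i : ℕ) + 1) := by
    intro i
    rw [hf, h39_redF_mul R (hwO i) hyinv, hwred, hyinvred, mul_comm (R.redF y), mul_assoc,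
      mul_inv_cancel₀ hy0, mul_one]
  -- the divisors
  obtain ⟨Dall, hDall⟩ : ∃ Dall : Divisor K F, ∀ P, Dall P = P.ord y :=
    ⟨Finsupp.ofSupportFinite (fun P => P.ord y) (h75_finite_ord_ne hK y hyne), fun _ => rfl⟩
  obtain ⟨m, hm⟩ : ∃ m : Place K F → ℕ, ∀ P, m P = (P.ord y).toNat := ⟨_, fun _ => rfl⟩
  obtain ⟨DT, hDTdef⟩ : ∃ DT : Divisor K F, DT = ∑ P ∈ s, Finsupp.single P (m P : ℤ) :=
    ⟨_, rfl⟩
  have hDT : ∀ P, DT P = if P ∈ s then P.ord y else 0 := by
    intro P
    rw [hDTdef, Finsupp.finsetSum_apply]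
    simp only [Finsupp.single_apply]
    rw [Finset.sum_ite_eq' s P]
    by_cases hP : P ∈ s
    · rw [if_pos hP, if_pos hP, hm, Int.toNat_of_nonneg (hspos P hP).le]
    · rw [if_neg hP, if_neg hP]
  obtain ⟨hle, hfin, hdim⟩ := h53_chart_add_sum hK s
    (fun P hP => htube P ((hs P).mp hP).2.1) m (Dall - DT)
  rw [← hDTdef, sub_add_cancel] at hle hfin hdim
  have hdim' : h75_relDim (h75_chart t (Dall - DT)) (h75_chart t Dall) < N + 1 := by
    rw [hdim]
    have : ((∑ P ∈ s, m P : ℕ) : ℤ) = N := by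
      rw [hNeq]
      push_cast
      exact Finset.sum_congr rfl fun P hP => by rw [hm, Int.toNat_of_nonneg (hspos P hP).le]
    omega
  have hfmem : ∀ i, f i ∈ h75_chart t Dall := by
    intro i
    rw [h75_mem_chart_iff]
    intro P hP
    by_cases hw0 : w i = 0
    · left
      rw [hf, hw0, zero_mul]
    · right
      rw [hDall, hf, P.ord_mul hw0 (inv_ne_zero hyne), P.ord_inv]
      have := Fermat.Agent.S24.h35_ord_nonneg_of_mem P (hwreg i P hP)
      omega
  obtain ⟨c, hc0, hcmem⟩ := h53_exists_comb_mem _ _ hfin (N + 1) hdim' f hfmem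
  obtain ⟨j, hj0, hjA, hjnon⟩ := h53_exists_pivot R.A (N + 1) c hc0
  obtain ⟨f', hf'⟩ : ∃ f' : F, f' = ∑ i, (c i / c j) • f i := ⟨_, rfl⟩
  have hf'M : f' ∈ h75_chart t (Dall - DT) := by
    have : f' = (c j)⁻¹ • ∑ i, c i • f i := by
      rw [hf', Finset.smul_sum]
      refine Finset.sum_congr rfl fun i _ => ?_
      rw [smul_smul, div_eq_inv_mul]
    rw [this]
    exact Submodule.smul_mem _ _ hcmem
  have hterm : ∀ i, (c i / c j) • f i ∈ R.O := fun i => by
    rw [Algebra.smul_def]
    exact R.O.mul_mem _ _ ((R.mem_iff _).mp (hjA i)) (hfO i)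
  have hf'O : f' ∈ R.O := by
    rw [hf']
    exact R.O.sum_mem fun i _ => hterm i
  have hf'red : R.redF f' = ∑ i : Fin (N + 1),
      algebraMap k Fb (R.resK (c i / c j)) * τ ^ ((i : ℕ) + 1) := by
    rw [hf', h39_redF_sum R Finset.univ _ fun i _ => hterm i]
    refine Finset.sum_congr rfl fun i _ => ?_
    rw [Algebra.smul_def, h39_redF_mul R ((R.mem_iff _).mp (hjA i)) (hfO i),
      h39_redF_algebraMap R (hjA i), hfred]
  have hf'tube : ∀ P : Place K F, h39_InDisc R t P → r P = Q → f' ∈ P.toValuationSubring := by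
    intro P hP hPQ
    rw [h75_mem_chart_iff] at hf'M
    rcases hf'M P (htube P hP) with h0 | h
    · rw [h0]
      exact P.toValuationSubring.zero_mem
    · have e : (Dall - DT) P = 0 := by
        rw [Finsupp.sub_apply, hDall, hDT]
        by_cases hPs : P ∈ s
        · rw [if_pos hPs, sub_self]
        · rw [if_neg hPs, sub_zero]
          by_contra hne
          exact hPs ((hs P).mpr ⟨hne, hP, hPQ⟩)
      rw [e, neg_zero] at h
      rw [← h53_OrdGE.mem_iff]
      exact Or.inr h
  have hW : R.redF f' ∈ Q.toValuationSubring :=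
    hW f' hf'O hf'tube
  -- the reduction of `f'` has a pole of order `j + 1` at `Q`
  have hτge : h53_OrdGE Q τ (-1) := Or.inr hτQ'.ge
  have hrest : h53_OrdGE Q (∑ i ∈ Finset.univ.erase j,
      algebraMap k Fb (R.resK (c i / c j)) * τ ^ ((i : ℕ) + 1)) (-((j : ℕ) : ℤ)) := by
    refine h53_OrdGE.sum _ _ fun i hi => ?_
    have hij : i ≠ j := Finset.ne_of_mem_erase hi
    rcases lt_or_gt_of_ne hij with hlt | hgt
    · have h1 := (h53_OrdGE.const (P := Q) (R.resK (c i / c j))).mul (hτge.pow ((i : ℕ) + 1))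
      refine h1.mono ?_
      have : (i : ℕ) < (j : ℕ) := hlt
      push_cast
      omega
    · have h1 : R.resK (c i / c j) = 0 :=
        (h39_resK_eq_zero_iff R (hjA i)).mpr (R.A.mem_nonunits_iff_or.mp (hjnon i hgt))
      rw [h1, map_zero, zero_mul]
      exact h53_OrdGE.zero
  have hsplit : R.redF f' = τ ^ ((j : ℕ) + 1) + ∑ i ∈ Finset.univ.erase j,
      algebraMap k Fb (R.resK (c i / c j)) * τ ^ ((i : ℕ) + 1) := by
    rw [hf'red, ← Finset.add_sum_erase _ _ (Finset.mem_univ j), div_self hj0, h39_resK_one,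
      map_one, one_mul]
  have hpow : h53_OrdGE Q (τ ^ ((j : ℕ) + 1)) (-((j : ℕ) : ℤ)) := by
    have h1 : τ ^ ((j : ℕ) + 1) = R.redF f' - ∑ i ∈ Finset.univ.erase j,
        algebraMap k Fb (R.resK (c i / c j)) * τ ^ ((i : ℕ) + 1) := by
      rw [hsplit, add_sub_cancel_right]
    rw [h1]
    exact ((h53_OrdGE.mem_iff.mpr hW).mono (by omega)).sub hrest
  have h2 := (h53_OrdGE.of_ne (pow_ne_zero _ hτ0)).mp hpow
  rw [← zpow_natCast, Q.ord_zpow, hτQ'] at h2
  push_cast at h2
  omega

end Main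

end Fermat.Agent.S18

end
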