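import Mathlib
import Fermat.Agent.S18.Defs
import Fermat.Agent.S18.h75_RRDefs
import Fermat.Agent.S18.h39_GRDefs
import Fermat.Agent.S18.GR_RedAPI
import Fermat.Agent.S18.RR_Chart
import Fermat.Agent.S18.GR_ChartPt

/-!
# S18 / [GR-PL] PL4 core (helper6): exact fibres of `t - a`; the local inequality for all `y`

The three statements of row PL4 (`h53_chart_le_of_tube`, `h53_chart_fibre`, `h53_chart_le`),
proved here with the inputs of rows PL1 .. PL3 taken as explicit hypotheses:

* `hOver` : `h39_chartRed_over` (PL1);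
* `hClr`, `hTu` : `h53_exists_clear`, `h53_tube_ord_eq_zero` (PL2);
* `hS3` : `h53_chart_le_of_reg` (PL3).

The verbatim row statements are in `GR_ChartLe.lean` (thin wrappers).

Bookkeeping device: `h6_tubeSum R t r Q f`, the sum of the orders of `f` over the tube of `Q`
(a `finsum`; additive in `f`).
-/

set_option autoImplicit false

noncomputable section

open AlgebraicCurve IntermediateField Polynomial
open Fermat.Agent.S24

namespace Fermat.Agent.S18

variable {K F k Fb : Type*} [Field K] [Field F] [Algebra K F] [Field k] [Field Fb] [Algebra k Fb]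

/-! ### The tube sum -/

/-- The tube of the place `Q` of the chart `t̄`. -/
def h6_tube (R : h39_RedDatum K F k Fb) (t : F) (r : Place K F → Place k Fb) (Q : Place k Fb) :
    Set (Place K F) :=
  {P | h39_InDisc R t P ∧ r P = Q}

/-- The sum of the orders of `f` over the tube of `Q`. -/
def h6_tubeSum (R : h39_RedDatum K F k Fb) (t : F) (r : Place K F → Place k Fb) (Q : Place k Fb)
    (f : F) : ℤ :=
  ∑ᶠ P ∈ h6_tube R t r Q, P.ord f

theorem h6_tubeSum_eq_sum (R : h39_RedDatum K F k Fb) (t : F) (r : Place K F → Place k Fb)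
    (Q : Place k Fb) (f : F) (s : Finset (Place K F))
    (hs : ∀ P : Place K F, P ∈ s ↔ P.ord f ≠ 0 ∧ h39_InDisc R t P ∧ r P = Q) :
    h6_tubeSum R t r Q f = ∑ P ∈ s, P.ord f := by
  unfold h6_tubeSum
  apply finsum_mem_eq_sum_of_inter_support_eq
  ext P
  simp only [Set.mem_inter_iff, Function.mem_support, Finset.mem_coe, hs, h6_tube,
    Set.mem_ofPred_eq]
  tauto

theorem h6_tubeSum_mul {x : F} (hx : h75_IsChart K x) (R : h39_RedDatum K F k Fb) (t : F)
    (r : Place K F → Place k Fb) (Q : Place k Fb) {f g : F} (hf : f ≠ 0) (hg : g ≠ 0) :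
    h6_tubeSum R t r Q (f * g) = h6_tubeSum R t r Q f + h6_tubeSum R t r Q g := by
  unfold h6_tubeSum
  rw [← finsum_mem_add_distrib'
    ((h75_finite_ord_ne hx f hf).subset (fun P hP => hP.2))
    ((h75_finite_ord_ne hx g hg).subset (fun P hP => hP.2))]
  exact finsum_mem_congr rfl (fun P _ => P.ord_mul hf hg)

theorem h6_tubeSum_one (R : h39_RedDatum K F k Fb) (t : F)
    (r : Place K F → Place k Fb) (Q : Place k Fb) : h6_tubeSum R t r Q 1 = 0 := by
  unfold h6_tubeSum
  simp [Place.ord_one]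

theorem h6_tubeSum_pow {x : F} (hx : h75_IsChart K x) (R : h39_RedDatum K F k Fb) (t : F)
    (r : Place K F → Place k Fb) (Q : Place k Fb) {f : F} (hf : f ≠ 0) (n : ℕ) :
    h6_tubeSum R t r Q (f ^ n) = n * h6_tubeSum R t r Q f := by
  induction n with
  | zero => rw [pow_zero, h6_tubeSum_one]; simp
  | succ n ih =>
    rw [pow_succ, h6_tubeSum_mul hx R t r Q (pow_ne_zero n hf) hf, ih]
    push_cast
    ring

theorem h6_ord_pow {K F : Type*} [Field K] [Field F] [Algebra K F] (P : Place K F) (f : F)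
    (n : ℕ) : P.ord (f ^ n) = n * P.ord f := by
  have := P.ord_zpow f n
  rwa [zpow_natCast] at this

/-- for a nonzero `f` the zeros and poles of `f` in the tube of `Q` form a finite set -/
theorem h6_exists_tubeFinset {x : F} (hx : h75_IsChart K x) (R : h39_RedDatum K F k Fb) (t : F)
    (r : Place K F → Place k Fb) (Q : Place k Fb) {f : F} (hf : f ≠ 0) :
    ∃ s : Finset (Place K F),
      ∀ P : Place K F, P ∈ s ↔ P.ord f ≠ 0 ∧ h39_InDisc R t P ∧ r P = Q := by
  classical
  refine ⟨(h75_finite_ord_ne hx f hf).toFinset.filter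
    (fun P => h39_InDisc R t P ∧ r P = Q), fun P => ?_⟩
  rw [Finset.mem_filter, Set.Finite.mem_toFinset]
  rfl

/-! ### (S3') -/

/-- (S3') with the inputs (CLR), (TU), (S3) as hypotheses. -/
theorem h6_chart_le_of_tube_core (R : h39_RedDatum K F k Fb) {t : F}
    {r : Place K F → Place k Fb}
    (hClr : ∀ y : F, y ≠ 0 → ∀ Q : Place k Fb, R.redF t ∈ Q.toValuationSubring →
      ∃ g : F, g ∈ R.O ∧ h39_Reg K t g ∧ R.redF g ≠ 0 ∧ Q.ord (R.redF g) = 0 ∧
        ∀ P : Place K F, t ∈ P.toValuationSubring → ¬ (h39_InDisc R t P ∧ r P = Q) →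
          y * g ∈ P.toValuationSubring)
    (hTu : ∀ g : F, g ∈ R.O → h39_Reg K t g → ∀ Q : Place k Fb, R.redF g ≠ 0 →
      Q.ord (R.redF g) = 0 → ∀ P : Place K F, h39_InDisc R t P → r P = Q → P.ord g = 0)
    (hS3 : ∀ y : F, y ∈ R.O → R.redF y ≠ 0 → h39_Reg K t y → ∀ Q : Place k Fb,
      R.redF t ∈ Q.toValuationSubring → ∀ s : Finset (Place K F),
      (∀ P : Place K F, P ∈ s ↔ P.ord y ≠ 0 ∧ h39_InDisc R t P ∧ r P = Q) →
      Q.ord (R.redF y) ≤ ∑ P ∈ s, P.ord y)
    (y : F) (hy : y ∈ R.O) (hy0 : R.redF y ≠ 0)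
    (Q : Place k Fb) (hQ : R.redF t ∈ Q.toValuationSubring)
    (hreg : ∀ P : Place K F, h39_InDisc R t P → r P = Q → y ∈ P.toValuationSubring)
    (s : Finset (Place K F))
    (hs : ∀ P : Place K F, P ∈ s ↔ P.ord y ≠ 0 ∧ h39_InDisc R t P ∧ r P = Q) :
    Q.ord (R.redF y) ≤ ∑ P ∈ s, P.ord y := by
  have hyne : y ≠ 0 := by
    rintro rfl
    exact hy0 (h39_redF_zero R)
  obtain ⟨g, hgO, hgreg, hg0, hgQ, hgclr⟩ := hClr y hyne Q hQ
  have hgne : g ≠ 0 := by
    rintro rfl
    exact hg0 (h39_redF_zero R)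
  have hygO : y * g ∈ R.O := R.O.mul_mem _ _ hy hgO
  have hred : R.redF (y * g) = R.redF y * R.redF g := h39_redF_mul R hy hgO
  have hyg0 : R.redF (y * g) ≠ 0 := by
    rw [hred]
    exact mul_ne_zero hy0 hg0
  have hygreg : h39_Reg K t (y * g) := by
    intro P hP
    by_cases hPt : h39_InDisc R t P ∧ r P = Q
    · exact P.toValuationSubring.mul_mem _ _ (hreg P hPt.1 hPt.2) (hgreg P hP)
    · exact hgclr P hP hPt
  have hord : ∀ P : Place K F, h39_InDisc R t P → r P = Q → P.ord (y * g) = P.ord y := by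
    intro P hP hPQ
    rw [P.ord_mul hyne hgne, hTu g hgO hgreg Q hg0 hgQ P hP hPQ, add_zero]
  have hs' : ∀ P : Place K F, P ∈ s ↔ P.ord (y * g) ≠ 0 ∧ h39_InDisc R t P ∧ r P = Q := by
    intro P
    rw [hs]
    constructor
    · rintro ⟨h1, h2, h3⟩
      exact ⟨by rwa [hord P h2 h3], h2, h3⟩
    · rintro ⟨h1, h2, h3⟩
      exact ⟨by rwa [hord P h2 h3] at h1, h2, h3⟩
  have h1 := hS3 (y * g) hygO hyg0 hygreg Q hQ s hs'
  have h2 : ∑ P ∈ s, P.ord (y * g) = ∑ P ∈ s, P.ord y :=
    Finset.sum_congr rfl (fun P hP => hord P ((hs P).mp hP).2.1 ((hs P).mp hP).2.2)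
  rw [hred, Q.ord_mul hy0 hg0, hgQ, add_zero, h2] at h1
  exact h1

/-! ### (S4) -/

section S4

variable [IsAlgClosed K] [CharZero K] [IsAlgClosed k]

/-- (S4) with the inputs `h39_chartRed_over` and (S3) as hypotheses. -/
theorem h6_chart_fibre_core (R : h39_RedDatum K F k Fb) {t : F} (ht : h39_WeakChart R t)
    {r : Place K F → Place k Fb}
    (hOver : ∀ (P : Place K F) (a : K), a ∈ R.A → h39_Val P t a →
      h39_Val (r P) (R.redF t) (R.resK a))
    (hS3 : ∀ y : F, y ∈ R.O → R.redF y ≠ 0 → h39_Reg K t y → ∀ Q : Place k Fb,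
      R.redF t ∈ Q.toValuationSubring → ∀ s : Finset (Place K F),
      (∀ P : Place K F, P ∈ s ↔ P.ord y ≠ 0 ∧ h39_InDisc R t P ∧ r P = Q) →
      Q.ord (R.redF y) ≤ ∑ P ∈ s, P.ord y)
    (a : K) (ha : a ∈ R.A) (Q : Place k Fb)
    (hQ : h39_Val Q (R.redF t) (R.resK a)) (s : Finset (Place K F))
    (hs : ∀ P : Place K F, P ∈ s ↔
      P.ord (t - algebraMap K F a) ≠ 0 ∧ h39_InDisc R t P ∧ r P = Q) :
    ∑ P ∈ s, P.ord (t - algebraMap K F a) = Q.ord (R.redF t - algebraMap k Fb (R.resK a)) := by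
  classical
  have hxK : h75_IsChart K t := h39_weakChart_isChart R ht
  have hxk : h75_IsChart k (R.redF t) := h39_weakChart_isChart_red R ht
  have haO : algebraMap K F a ∈ R.O := (R.mem_iff a).mp ha
  have huO : t - algebraMap K F a ∈ R.O := sub_mem ht.mem haO
  have hredu : R.redF (t - algebraMap K F a) = R.redF t - algebraMap k Fb (R.resK a) := by
    rw [h39_redF_sub R ht.mem haO, h39_redF_algebraMap R ha]
  have htb : R.redF t ≠ algebraMap k Fb (R.resK a) := by
    intro h
    apply ht.transcendental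
    rw [h]
    exact isAlgebraic_algebraMap _
  have hu0 : R.redF (t - algebraMap K F a) ≠ 0 := by
    rw [hredu]
    exact sub_ne_zero.mpr htb
  have hureg : h39_Reg K t (t - algebraMap K F a) :=
    fun P hP => sub_mem hP (P.algebraMap_mem' a)
  -- the two fibres
  obtain ⟨SK, hSK⟩ : ∃ SK : Finset (Place K F),
      ∀ P : Place K F, P ∈ SK ↔ 0 < P.ord (t - algebraMap K F a) :=
    ⟨(h75_fibre_finite hxK a).toFinset, fun P => by rw [Set.Finite.mem_toFinset]; rfl⟩
  obtain ⟨Sk, hSk⟩ : ∃ Sk : Finset (Place k Fb),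
      ∀ Q' : Place k Fb, Q' ∈ Sk ↔ 0 < Q'.ord (R.redF t - algebraMap k Fb (R.resK a)) :=
    ⟨(h75_fibre_finite hxk (R.resK a)).toFinset, fun P => by rw [Set.Finite.mem_toFinset]; rfl⟩
  have hsumK := h75_fibre_sum hxK a SK hSK
  have hsumk := h75_fibre_sum hxk (R.resK a) Sk hSk
  have hmaps : ∀ P ∈ SK, r P ∈ Sk := by
    intro P hP
    rcases hOver P a ha (Or.inr ((hSK P).mp hP)) with h | h
    · exact absurd h htb
    · exact (hSk _).mpr h
  have hchar : ∀ (Q' : Place k Fb) (P : Place K F), P ∈ SK.filter (fun P => r P = Q') ↔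
      P.ord (t - algebraMap K F a) ≠ 0 ∧ h39_InDisc R t P ∧ r P = Q' := by
    intro Q' P
    rw [Finset.mem_filter, hSK]
    constructor
    · rintro ⟨h1, h2⟩
      exact ⟨h1.ne', ⟨a, ha, Or.inr h1⟩, h2⟩
    · rintro ⟨h1, ⟨a', -, hv⟩, h3⟩
      have h4 := h35_ord_nonneg_of_mem P (hureg P (h39_val_mem P hv))
      exact ⟨lt_of_le_of_ne h4 (Ne.symm h1), h3⟩
  have hle : ∀ Q' ∈ Sk, Q'.ord (R.redF t - algebraMap k Fb (R.resK a)) ≤
      ∑ P ∈ SK.filter (fun P => r P = Q'), P.ord (t - algebraMap K F a) := by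
    intro Q' hQ'
    have hQt : R.redF t ∈ Q'.toValuationSubring := h39_val_mem Q' (Or.inr ((hSk Q').mp hQ'))
    have := hS3 _ huO hu0 hureg Q' hQt (SK.filter (fun P => r P = Q')) (hchar Q')
    rwa [hredu] at this
  have hfib : ∑ Q' ∈ Sk, ∑ P ∈ SK.filter (fun P => r P = Q'), P.ord (t - algebraMap K F a)
      = ∑ P ∈ SK, P.ord (t - algebraMap K F a) :=
    Finset.sum_fiberwise_of_maps_to hmaps _
  have heq : ∑ Q' ∈ Sk, Q'.ord (R.redF t - algebraMap k Fb (R.resK a))
      = ∑ Q' ∈ Sk, ∑ P ∈ SK.filter (fun P => r P = Q'), P.ord (t - algebraMap K F a) := by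
    rw [hfib, hsumK, hsumk, ht.finrank_eq]
  have hall := (Finset.sum_eq_sum_iff_of_le hle).mp heq
  have hQmem : Q ∈ Sk := by
    rcases hQ with h | h
    · exact absurd h htb
    · exact (hSk Q).mpr h
  have hsQ : s = SK.filter (fun P => r P = Q) := by
    ext P
    rw [hs, hchar]
  rw [hsQ]
  exact (hall Q hQmem).symm

/-! ### (S5) -/

omit [IsAlgClosed k] in
/-- (S5) with the inputs `h39_chartRed_over`, (S3') and (S4) as hypotheses. -/
theorem h6_chart_le_core (R : h39_RedDatum K F k Fb) {t : F} (ht : h39_WeakChart R t)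
    {r : Place K F → Place k Fb}
    (hOver : ∀ (P : Place K F) (a : K), a ∈ R.A → h39_Val P t a →
      h39_Val (r P) (R.redF t) (R.resK a))
    (Q : Place k Fb)
    (hS3' : ∀ y : F, y ∈ R.O → R.redF y ≠ 0 →
      (∀ P : Place K F, h39_InDisc R t P → r P = Q → y ∈ P.toValuationSubring) →
      ∀ s : Finset (Place K F),
      (∀ P : Place K F, P ∈ s ↔ P.ord y ≠ 0 ∧ h39_InDisc R t P ∧ r P = Q) →
      Q.ord (R.redF y) ≤ ∑ P ∈ s, P.ord y)
    (hS4 : ∀ a : K, a ∈ R.A → h39_Val Q (R.redF t) (R.resK a) → ∀ s : Finset (Place K F),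
      (∀ P : Place K F, P ∈ s ↔
        P.ord (t - algebraMap K F a) ≠ 0 ∧ h39_InDisc R t P ∧ r P = Q) →
      ∑ P ∈ s, P.ord (t - algebraMap K F a) = Q.ord (R.redF t - algebraMap k Fb (R.resK a)))
    (y : F) (hy : y ∈ R.O) (hy0 : R.redF y ≠ 0)
    (s : Finset (Place K F))
    (hs : ∀ P : Place K F, P ∈ s ↔ P.ord y ≠ 0 ∧ h39_InDisc R t P ∧ r P = Q) :
    Q.ord (R.redF y) ≤ ∑ P ∈ s, P.ord y := by
  classical
  have hxK : h75_IsChart K t := h39_weakChart_isChart R ht
  -- (S3') and (S4) in terms of the tube sum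
  have hA : ∀ y : F, y ∈ R.O → R.redF y ≠ 0 →
      (∀ P : Place K F, h39_InDisc R t P → r P = Q → y ∈ P.toValuationSubring) →
      Q.ord (R.redF y) ≤ h6_tubeSum R t r Q y := by
    intro y hy hy0 hreg
    have hyne : y ≠ 0 := by
      rintro rfl
      exact hy0 (h39_redF_zero R)
    obtain ⟨s, hs⟩ := h6_exists_tubeFinset hxK R t r Q hyne
    rw [h6_tubeSum_eq_sum R t r Q y s hs]
    exact hS3' y hy hy0 hreg s hs
  have hune : ∀ a : K, t - algebraMap K F a ≠ 0 := by
    intro a h
    apply hxK.tr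
    rw [sub_eq_zero.mp h]
    exact isAlgebraic_algebraMap _
  have hB : ∀ a : K, a ∈ R.A → h39_Val Q (R.redF t) (R.resK a) →
      h6_tubeSum R t r Q (t - algebraMap K F a)
        = Q.ord (R.redF t - algebraMap k Fb (R.resK a)) := by
    intro a ha hva
    obtain ⟨s, hs⟩ := h6_exists_tubeFinset hxK R t r Q (hune a)
    rw [h6_tubeSum_eq_sum R t r Q _ s hs]
    exact hS4 a ha hva s hs
  -- the main induction, on a finite set containing the poles of `y` in the tube
  have main : ∀ T : Finset (Place K F), ∀ y : F, y ∈ R.O → R.redF y ≠ 0 →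
      (∀ P : Place K F, h39_InDisc R t P → r P = Q → P.ord y < 0 → P ∈ T) →
      Q.ord (R.redF y) ≤ h6_tubeSum R t r Q y := by
    intro T
    induction T using Finset.induction_on with
    | empty =>
      intro y hy hy0 hT
      have hyne : y ≠ 0 := by
        rintro rfl
        exact hy0 (h39_redF_zero R)
      refine hA y hy hy0 (fun P hP hPQ => ?_)
      rw [h35_mem_iff_ord_nonneg P hyne]
      by_contra hneg
      exact absurd (hT P hP hPQ (not_le.mp hneg)) (Finset.notMem_empty P)
    | insert P0 T' hP0T ih =>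
      intro y hy hy0 hT
      have hyne : y ≠ 0 := by
        rintro rfl
        exact hy0 (h39_redF_zero R)
      by_cases hP0 : h39_InDisc R t P0 ∧ r P0 = Q ∧ P0.ord y < 0
      · obtain ⟨hP0d, hP0Q, hP0y⟩ := hP0
        obtain ⟨a, ha, hPa⟩ := hP0d
        have hva : h39_Val Q (R.redF t) (R.resK a) := by
          have := hOver P0 a ha hPa
          rwa [hP0Q] at this
        have haO : algebraMap K F a ∈ R.O := (R.mem_iff a).mp ha
        have huO : t - algebraMap K F a ∈ R.O := sub_mem ht.mem haO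
        have hredu : R.redF (t - algebraMap K F a)
            = R.redF t - algebraMap k Fb (R.resK a) := by
          rw [h39_redF_sub R ht.mem haO, h39_redF_algebraMap R ha]
        have htb : R.redF t ≠ algebraMap k Fb (R.resK a) := by
          intro h
          apply ht.transcendental
          rw [h]
          exact isAlgebraic_algebraMap _
        have hu0 : R.redF (t - algebraMap K F a) ≠ 0 := by
          rw [hredu]
          exact sub_ne_zero.mpr htb
        have hune' := hune a
        obtain ⟨N, hN⟩ : ∃ N : ℕ, (N : ℤ) = -P0.ord y := ⟨(-P0.ord y).toNat, by omega⟩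
        have hpow_ne : (t - algebraMap K F a) ^ N ≠ 0 := pow_ne_zero N hune'
        have hy'O : y * (t - algebraMap K F a) ^ N ∈ R.O :=
          R.O.mul_mem _ _ hy (R.O.pow_mem huO N)
        have hredy' : R.redF (y * (t - algebraMap K F a) ^ N)
            = R.redF y * R.redF (t - algebraMap K F a) ^ N := by
          rw [h39_redF_mul R hy (R.O.pow_mem huO N), h39_redF_pow R huO N]
        have hy'0 : R.redF (y * (t - algebraMap K F a) ^ N) ≠ 0 := by
          rw [hredy']
          exact mul_ne_zero hy0 (pow_ne_zero N hu0)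
        have hordy' : ∀ P : Place K F, P.ord (y * (t - algebraMap K F a) ^ N)
            = P.ord y + N * P.ord (t - algebraMap K F a) := by
          intro P
          rw [P.ord_mul hyne hpow_ne, h6_ord_pow]
        have hu_nonneg : ∀ P : Place K F, h39_InDisc R t P →
            0 ≤ P.ord (t - algebraMap K F a) := by
          rintro P ⟨a', -, hv⟩
          exact h35_ord_nonneg_of_mem P
            (sub_mem (h39_val_mem P hv) (P.algebraMap_mem' a))
        have hu_pos : 0 < P0.ord (t - algebraMap K F a) := by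
          rcases hPa with h | h
          · exact absurd (sub_eq_zero.mpr h) hune'
          · exact h
        have hT' : ∀ P : Place K F, h39_InDisc R t P → r P = Q →
            P.ord (y * (t - algebraMap K F a) ^ N) < 0 → P ∈ T' := by
          intro P hP hPQ hlt
          rw [hordy' P] at hlt
          have h1 := hu_nonneg P hP
          have h2 : (0 : ℤ) ≤ N * P.ord (t - algebraMap K F a) :=
            mul_nonneg (Int.natCast_nonneg N) h1
          have h3 : P.ord y < 0 := by omega
          rcases Finset.mem_insert.mp (hT P hP hPQ h3) with h | h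
          · exfalso
            rw [h] at hlt
            have h4 : (N : ℤ) * 1 ≤ N * P0.ord (t - algebraMap K F a) :=
              mul_le_mul_of_nonneg_left (by omega) (Int.natCast_nonneg N)
            omega
          · exact h
        have hih := ih _ hy'O hy'0 hT'
        rw [hredy', Q.ord_mul hy0 (pow_ne_zero N hu0), h6_ord_pow,
          h6_tubeSum_mul hxK R t r Q hyne hpow_ne, h6_tubeSum_pow hxK R t r Q hune' N,
          hB a ha hva, hredu] at hih
        linarith
      · refine ih y hy hy0 (fun P hP hPQ hlt => ?_)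
        rcases Finset.mem_insert.mp (hT P hP hPQ hlt) with h | h
        · exfalso
          apply hP0
          rw [← h]
          exact ⟨hP, hPQ, hlt⟩
        · exact h
  have := main s y hy hy0 (fun P hP hPQ hlt => (hs P).mpr ⟨hlt.ne, hP, hPQ⟩)
  rwa [h6_tubeSum_eq_sum R t r Q y s hs] at this

end S4

end Fermat.Agent.S18

end
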