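import Mathlib
import Fermat.Agent.S18.h6_ChartLeCore
import Fermat.Agent.S18.h37_ChartRedCore
import Fermat.Agent.S18.h24_ChartRegCore
import Fermat.Agent.S18.h53_ChartLe1Core

/-!
# S18 / [GR-PL] PL3 + PL4 with (†) as the only hypothesis (helper6)

The statements of rows PL3 and PL4 (`h53_chart_le_of_reg`, `h53_chart_le_of_tube`,
`h53_chart_fibre`, `h53_chart_le`) with the genus hypothesis `hg` replaced by
`hdag : h66_Dagger R t` (the conclusion of `h39_lift_integral R ht hg`); everything else is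
verbatim.  Assembled from the landed cores `h37_ChartRedCore` (PL1), `h24_ChartRegCore` (PL2),
`h53_ChartLe1Core` (PL3), `h6_ChartLeCore` (PL4).
-/

set_option autoImplicit false

noncomputable section

open AlgebraicCurve IntermediateField Polynomial

namespace Fermat.Agent.S18

variable {K F k Fb : Type*} [Field K] [Field F] [Algebra K F] [Field k] [Field Fb] [Algebra k Fb]

section PL4dag

variable [IsAlgClosed K] [CharZero K] [IsAlgClosed k]
variable (R : h39_RedDatum K F k Fb) {t : F}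

/-- (S3) with (†) as hypothesis. -/
theorem h6_chart_le_of_reg_dag (ht : h39_WeakChart R t) (hdag : h66_Dagger R t)
    {r : Place K F → Place k Fb}
    (hr : h39_IsChartRed R t r) (y : F) (hy : y ∈ R.O) (hy0 : R.redF y ≠ 0)
    (hyreg : h39_Reg K t y) (Q : Place k Fb) (hQ : R.redF t ∈ Q.toValuationSubring)
    (s : Finset (Place K F))
    (hs : ∀ P : Place K F, P ∈ s ↔ P.ord y ≠ 0 ∧ h39_InDisc R t P ∧ r P = Q) :
    Q.ord (R.redF y) ≤ ∑ P ∈ s, P.ord y :=
  h53_chart_le_of_reg_core R ht hdag Q hQ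
    (fun f hf h => h24_chart_regular R ht hdag hr f hf Q hQ h) y hy hy0 hyreg s hs

/-- (S3') with (†) as hypothesis. -/
theorem h6_chart_le_of_tube_dag (ht : h39_WeakChart R t) (hdag : h66_Dagger R t)
    {r : Place K F → Place k Fb}
    (hr : h39_IsChartRed R t r) (y : F) (hy : y ∈ R.O) (hy0 : R.redF y ≠ 0)
    (Q : Place k Fb) (hQ : R.redF t ∈ Q.toValuationSubring)
    (hreg : ∀ P : Place K F, h39_InDisc R t P → r P = Q → y ∈ P.toValuationSubring)
    (s : Finset (Place K F))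
    (hs : ∀ P : Place K F, P ∈ s ↔ P.ord y ≠ 0 ∧ h39_InDisc R t P ∧ r P = Q) :
    Q.ord (R.redF y) ≤ ∑ P ∈ s, P.ord y :=
  h6_chart_le_of_tube_core R
    (fun y hy0 Q hQ => h24_exists_clear R ht hdag hr y hy0 Q hQ)
    (fun g hgO hgreg Q hg0 hgQ P hP hPQ =>
      h24_tube_ord_eq_zero R ht hr g hgO hgreg Q hg0 hgQ P hP hPQ)
    (fun y hy hy0 hyreg Q hQ s hs => h6_chart_le_of_reg_dag R ht hdag hr y hy hy0 hyreg Q hQ s hs)
    y hy hy0 Q hQ hreg s hs

/-- (S4) with (†) as hypothesis. -/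
theorem h6_chart_fibre_dag (ht : h39_WeakChart R t) (hdag : h66_Dagger R t)
    {r : Place K F → Place k Fb}
    (hr : h39_IsChartRed R t r) (a : K) (ha : a ∈ R.A) (Q : Place k Fb)
    (hQ : h39_Val Q (R.redF t) (R.resK a)) (s : Finset (Place K F))
    (hs : ∀ P : Place K F, P ∈ s ↔
      P.ord (t - algebraMap K F a) ≠ 0 ∧ h39_InDisc R t P ∧ r P = Q) :
    ∑ P ∈ s, P.ord (t - algebraMap K F a) = Q.ord (R.redF t - algebraMap k Fb (R.resK a)) :=
  h6_chart_fibre_core R ht
    (fun P a ha hPa => h37_chartRed_over R ht hr P a ha hPa)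
    (fun y hy hy0 hyreg Q hQ s hs => h6_chart_le_of_reg_dag R ht hdag hr y hy hy0 hyreg Q hQ s hs)
    a ha Q hQ s hs

/-- (S5) with (†) as hypothesis. -/
theorem h6_chart_le_dag (ht : h39_WeakChart R t) (hdag : h66_Dagger R t)
    {r : Place K F → Place k Fb}
    (hr : h39_IsChartRed R t r) (y : F) (hy : y ∈ R.O) (hy0 : R.redF y ≠ 0)
    (Q : Place k Fb) (hQ : R.redF t ∈ Q.toValuationSubring)
    (s : Finset (Place K F))
    (hs : ∀ P : Place K F, P ∈ s ↔ P.ord y ≠ 0 ∧ h39_InDisc R t P ∧ r P = Q) :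
    Q.ord (R.redF y) ≤ ∑ P ∈ s, P.ord y :=
  h6_chart_le_core R ht
    (fun P a ha hPa => h37_chartRed_over R ht hr P a ha hPa) Q
    (fun y hy hy0 hreg s hs => h6_chart_le_of_tube_dag R ht hdag hr y hy hy0 Q hQ hreg s hs)
    (fun a ha hva s hs => h6_chart_fibre_dag R ht hdag hr a ha Q hva s hs)
    y hy hy0 s hs

end PL4dag

end Fermat.Agent.S18

end
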