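import Mathlib
import Fermat.Agent.S18.h6_ChartLeDag
import Fermat.Agent.S18.GR_Genus

/-!
# S18 / [GR-PL] row PL4 : exact fibres of `t - a`; the local inequality for all `y`

Statements verbatim from the PL skeleton (owner helper53), section PL4.  The proofs are in
`h6_ChartLeCore.lean` / `h6_ChartLeDag.lean` (with the lifting property (†) as a hypothesis);
here (†) is `h39_lift_integral`.
-/

set_option autoImplicit false

noncomputable section

open AlgebraicCurve IntermediateField Polynomial

namespace Fermat.Agent.S18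

variable {K F k Fb : Type*} [Field K] [Field F] [Algebra K F] [Field k] [Field Fb] [Algebra k Fb]

/-! ### PL4 : exact fibres of `t - a`; the local inequality for all `y` -/
section PL4

variable [IsAlgClosed K] [CharZero K] [IsAlgClosed k]
variable (R : h39_RedDatum K F k Fb) {t : F}

/-- (S3') the same for `y ∈ O` regular on the tube of `Q` (multiply by (CLR), use (TU)). -/
theorem h53_chart_le_of_tube (ht : h39_WeakChart R t)
    (hg : h75_genus k (R.redF t) = h75_genus K t) {r : Place K F → Place k Fb}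
    (hr : h39_IsChartRed R t r) (y : F) (hy : y ∈ R.O) (hy0 : R.redF y ≠ 0)
    (Q : Place k Fb) (hQ : R.redF t ∈ Q.toValuationSubring)
    (hreg : ∀ P : Place K F, h39_InDisc R t P → r P = Q → y ∈ P.toValuationSubring)
    (s : Finset (Place K F))
    (hs : ∀ P : Place K F, P ∈ s ↔ P.ord y ≠ 0 ∧ h39_InDisc R t P ∧ r P = Q) :
    Q.ord (R.redF y) ≤ ∑ P ∈ s, P.ord y :=
  h6_chart_le_of_tube_dag R ht (fun fb hfb => h39_lift_integral R ht hg fb hfb) hr y hy hy0 Q hQ
    hreg s hs

/-- (S4) the fibres of `t - a` (`a ∈ A`) are exact: (S3) for `t - a` at all `Q` over `res a`,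
and the fibre sums `h75_fibre_sum` on both sides (`ht.finrank_eq`). -/
theorem h53_chart_fibre (ht : h39_WeakChart R t)
    (hg : h75_genus k (R.redF t) = h75_genus K t) {r : Place K F → Place k Fb}
    (hr : h39_IsChartRed R t r) (a : K) (ha : a ∈ R.A) (Q : Place k Fb)
    (hQ : h39_Val Q (R.redF t) (R.resK a)) (s : Finset (Place K F))
    (hs : ∀ P : Place K F, P ∈ s ↔
      P.ord (t - algebraMap K F a) ≠ 0 ∧ h39_InDisc R t P ∧ r P = Q) :
    ∑ P ∈ s, P.ord (t - algebraMap K F a) = Q.ord (R.redF t - algebraMap k Fb (R.resK a)) :=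
  h6_chart_fibre_dag R ht (fun fb hfb => h39_lift_integral R ht hg fb hfb) hr a ha Q hQ s hs

/-- (S5) the local inequality for every `y ∈ O` with `ȳ ≠ 0` (kill the poles of `y` in the tube
by powers of `t - a`, (S3') and (S4)). -/
theorem h53_chart_le (ht : h39_WeakChart R t)
    (hg : h75_genus k (R.redF t) = h75_genus K t) {r : Place K F → Place k Fb}
    (hr : h39_IsChartRed R t r) (y : F) (hy : y ∈ R.O) (hy0 : R.redF y ≠ 0)
    (Q : Place k Fb) (hQ : R.redF t ∈ Q.toValuationSubring)
    (s : Finset (Place K F))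
    (hs : ∀ P : Place K F, P ∈ s ↔ P.ord y ≠ 0 ∧ h39_InDisc R t P ∧ r P = Q) :
    Q.ord (R.redF y) ≤ ∑ P ∈ s, P.ord y :=
  h6_chart_le_dag R ht (fun fb hfb => h39_lift_integral R ht hg fb hfb) hr y hy hy0 Q hQ s hs

end PL4

end Fermat.Agent.S18

end
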