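import Fermat.Agent.S18.GR_ChartReg
import Fermat.Agent.S18.GR_Genus
import Fermat.Agent.S18.h53_ChartLe1Core

/-!
# S18 / [GR-PL] row PL3: the local inequality for `y ∈ B ∩ O`

`h53_chart_le_of_reg` (verbatim from the [GR-PL] skeleton): the core `h53_chart_le_of_reg_core`
fed with (†) `h39_lift_integral` and (W) `h39_chart_regular`.
-/

set_option autoImplicit false

noncomputable section

open AlgebraicCurve IntermediateField Polynomial

namespace Fermat.Agent.S18

variable {K F k Fb : Type*} [Field K] [Field F] [Algebra K F] [Field k] [Field Fb] [Algebra k Fb]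

section PL3

variable [IsAlgClosed K] [CharZero K] [IsAlgClosed k]
variable (R : h39_RedDatum K F k Fb) {t : F}

/-- (S3) for `y ∈ B ∩ O` with `ȳ ≠ 0`: `ord_Q ȳ ≤` the number of zeros of `y` in the tube of
`Q`. -/
theorem h53_chart_le_of_reg (ht : h39_WeakChart R t)
    (hg : h75_genus k (R.redF t) = h75_genus K t) {r : Place K F → Place k Fb}
    (hr : h39_IsChartRed R t r) (y : F) (hy : y ∈ R.O) (hy0 : R.redF y ≠ 0)
    (hyreg : h39_Reg K t y) (Q : Place k Fb) (hQ : R.redF t ∈ Q.toValuationSubring)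
    (s : Finset (Place K F))
    (hs : ∀ P : Place K F, P ∈ s ↔ P.ord y ≠ 0 ∧ h39_InDisc R t P ∧ r P = Q) :
    Q.ord (R.redF y) ≤ ∑ P ∈ s, P.ord y :=
  h53_chart_le_of_reg_core R ht (h39_lift_integral R ht hg) Q hQ
    (fun f hf h => h39_chart_regular R ht hg hr f hf Q hQ h) y hy hy0 hyreg s hs

end PL3

end Fermat.Agent.S18

end
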