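import Fermat.Agent.S18.h37_ChartRedCore
import Fermat.Agent.S18.GR_Genus

/-!
# S18 / [GR-PL] PL1 : `GR_ChartRed` — the reduction map on the unit disc of a chart

Statements verbatim from the [GR-PL] skeleton (owner helper53), section PL1 (= GR5e of
helper39's skeleton).  The proofs are in `h37_ChartRedCore.lean`; here the lifting statement (†)
`h39_lift_integral` (row GR4') is plugged in.
-/

set_option autoImplicit false

noncomputable section

open AlgebraicCurve IntermediateField Polynomial

namespace Fermat.Agent.S18

variable {K F k Fb : Type*} [Field K] [Field F] [Algebra K F] [Field k] [Field Fb] [Algebra k Fb]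

section PL1

variable [IsAlgClosed K] [CharZero K] [IsAlgClosed k]
variable (R : h39_RedDatum K F k Fb) {t : F}

theorem h39_exists_chartRed (ht : h39_WeakChart R t)
    (hg : h75_genus k (R.redF t) = h75_genus K t) :
    ∃ r : Place K F → Place k Fb, h39_IsChartRed R t r :=
  h37_exists_chartRed_of_lift R ht (h39_lift_integral R ht hg)

theorem h39_chartRed_unique (ht : h39_WeakChart R t)
    (hg : h75_genus k (R.redF t) = h75_genus K t) {r r' : Place K F → Place k Fb}
    (hr : h39_IsChartRed R t r) (hr' : h39_IsChartRed R t r') (P : Place K F)
    (hP : h39_InDisc R t P) : r P = r' P :=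
  h37_chartRed_unique_of_lift R ht (h39_lift_integral R ht hg) hr hr' P hP

set_option linter.unusedSectionVars false in
theorem h39_chartRed_over (ht : h39_WeakChart R t) {r : Place K F → Place k Fb}
    (hr : h39_IsChartRed R t r) (P : Place K F) (a : K) (ha : a ∈ R.A) (hPa : h39_Val P t a) :
    h39_Val (r P) (R.redF t) (R.resK a) :=
  h37_chartRed_over R ht hr P a ha hPa

end PL1

end Fermat.Agent.S18

end
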