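/-
S18 / [GR-PL] row PL2 (helper24): the three PL2 statements, verbatim from the [GR-PL] skeleton:
(CLR) `h53_exists_clear`, (TU) `h53_tube_ord_eq_zero`, (W) `h39_chart_regular`.
Proofs are in `h24_ChartRegCore.lean`; (†) is `h39_lift_integral` of `GR_Genus.lean`.
-/
import Fermat.Agent.S18.h24_ChartRegCore
import Fermat.Agent.S18.GR_Genus

set_option autoImplicit false

noncomputable section

open AlgebraicCurve IntermediateField Polynomial

namespace Fermat.Agent.S18

variable {K F k Fb : Type*} [Field K] [Field F] [Algebra K F] [Field k] [Field Fb] [Algebra k Fb]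

section PL2

variable [IsAlgClosed K] [CharZero K] [IsAlgClosed k]
variable (R : h39_RedDatum K F k Fb) {t : F}

/-- (CLR) for `y ≠ 0` and a place `Q` of the chart `t̄` there is `g ∈ B ∩ O` whose reduction
does not vanish at `Q` and such that `y g` is regular at all places of the chart `t` outside
the tube of `Q`. -/
theorem h53_exists_clear (ht : h39_WeakChart R t)
    (hg : h75_genus k (R.redF t) = h75_genus K t) {r : Place K F → Place k Fb}
    (hr : h39_IsChartRed R t r) (y : F) (hy0 : y ≠ 0) (Q : Place k Fb)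
    (hQ : R.redF t ∈ Q.toValuationSubring) :
    ∃ g : F, g ∈ R.O ∧ h39_Reg K t g ∧ R.redF g ≠ 0 ∧ Q.ord (R.redF g) = 0 ∧
      ∀ P : Place K F, t ∈ P.toValuationSubring → ¬ (h39_InDisc R t P ∧ r P = Q) →
        y * g ∈ P.toValuationSubring :=
  h24_exists_clear R ht (h39_lift_integral R ht hg) hr y hy0 Q hQ

/-- (TU) a function of `B ∩ O` whose reduction does not vanish at `Q` is a unit at every place
of the tube of `Q`. -/
theorem h53_tube_ord_eq_zero (ht : h39_WeakChart R t) {r : Place K F → Place k Fb}
    (hr : h39_IsChartRed R t r) (g : F) (hgO : g ∈ R.O) (hgreg : h39_Reg K t g)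
    (Q : Place k Fb) (hg0 : R.redF g ≠ 0) (hgQ : Q.ord (R.redF g) = 0)
    (P : Place K F) (hP : h39_InDisc R t P) (hPQ : r P = Q) : P.ord g = 0 :=
  h24_tube_ord_eq_zero R ht hr g hgO hgreg Q hg0 hgQ P hP hPQ

/-- (W) if `y ∈ O` is regular at all places of the tube of `Q`, then `ȳ` is regular at `Q`.
(= `h39_chart_regular` of helper39's skeleton GR5g, verbatim) -/
theorem h39_chart_regular (ht : h39_WeakChart R t)
    (hg : h75_genus k (R.redF t) = h75_genus K t) {r : Place K F → Place k Fb}
    (hr : h39_IsChartRed R t r) (y : F) (hy : y ∈ R.O) (Q : Place k Fb)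
    (hQ : R.redF t ∈ Q.toValuationSubring)
    (h : ∀ P : Place K F, h39_InDisc R t P → r P = Q → y ∈ P.toValuationSubring) :
    R.redF y ∈ Q.toValuationSubring :=
  h24_chart_regular R ht (h39_lift_integral R ht hg) hr y hy Q hQ h

end PL2

end Fermat.Agent.S18

end
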