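import Fermat.Agent.S18.h89_RootRed

/-!
# S18 / GR5c : roots of a polynomial over a valuation ring and of its reduction

The statement of section GR5c of the GOODRED skeleton (part 2).  The proof is in
`h89_RootRed.lean`.
-/

set_option autoImplicit false

noncomputable section

open AlgebraicCurve IntermediateField Polynomial

namespace Fermat.Agent.S18

variable {K F k Fb : Type*} [Field K] [Field F] [Algebra K F] [Field k] [Field Fb] [Algebra k Fb]

section GR5c

variable [IsAlgClosed K]

/-- `p ∈ A[X]` with `p̄ ≠ 0`: the multiplicity of `β` as a root of `p̄` is the number of roots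
of `p` in `A` (with multiplicity) reducing to `β`.
(`p = c ∏ (X - aᵢ) ∏ (1 - X / bⱼ)` with `aᵢ ∈ A`, `bⱼ⁻¹ ∈ 𝔪_A`; then `c ∈ Aˣ` since `p̄ ≠ 0`.) -/
theorem h39_rootMultiplicity_red (R : h39_RedDatum K F k Fb) (p : Polynomial R.A)
    (hp : p.map R.res ≠ 0) (β : k) (s : Finset K)
    (hs : ∀ a : K, a ∈ s ↔ (p.map (algebraMap R.A K)).IsRoot a ∧ a ∈ R.A ∧ R.resK a = β) :
    ((p.map R.res).rootMultiplicity β : ℤ) =
      ∑ a ∈ s, ((p.map (algebraMap R.A K)).rootMultiplicity a : ℤ) :=
  h89_rootMultiplicity_red R p hp β s hs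

end GR5c

end Fermat.Agent.S18

end
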