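import Fermat.Agent.S18.Defs
import Fermat.Agent.S18.h64_CoreAdapter

/-!
# S18 / GR1 core: the valuation ring of a reduction datum restricted to `K(x)` is the Gauss
valuation ring

`R : h39_RedDatum K F k Fb`, `x ∈ R.O` with transcendental reduction `x̄ = R.redF x`.

* `h89_gauss_red_mem`, `h89_gauss_red` : for `p ∈ A[X]`, `p(x) ∈ O` and its reduction is `p̄(x̄)`;
* `h89_gauss_mem_iff` : for `p ∈ K[X]`, `p(x) ∈ O ↔` all coefficients of `p` lie in `A`;
* `h89_gauss_ratfunc` : an element of `K(x) ∩ O` is `p(x)/q(x)` with `p, q ∈ A[X]`, `q̄ ≠ 0`;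
* `h89_gauss_redF_mem` : the reduction of an element of `K(x)` lies in `k(x̄)`.
-/

set_option autoImplicit false

noncomputable section

open AlgebraicCurve IntermediateField Polynomial

namespace Fermat.Agent.S18

variable {K F k Fb : Type*} [Field K] [Field F] [Algebra K F] [Field k] [Field Fb] [Algebra k Fb]

/-- An element of `O` with nonzero reduction is a unit of `O`. -/
theorem h89_inv_mem_of_red_ne_zero (R : h39_RedDatum K F k Fb) {y : F} (hy : y ∈ R.O)
    (h : R.red ⟨y, hy⟩ ≠ 0) : y⁻¹ ∈ R.O := by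
  rcases R.O.mem_or_inv_mem y with _ | hinv
  · by_contra hni
    apply h
    rw [h64_red_eq_zero_iff]
    rw [ValuationSubring.mem_nonunits_iff_exists_mem_maximalIdeal]
    refine ⟨hy, ?_⟩
    rw [IsLocalRing.mem_maximalIdeal, mem_nonunits_iff]
    rintro ⟨u, hu⟩
    apply hni
    have h1 : y * ((u⁻¹ : (R.O)ˣ) : R.O).1 = 1 := by
      have h2 := congrArg Subtype.val (Units.mul_inv u)
      rw [hu] at h2
      exact h2
    rw [← eq_inv_of_mul_eq_one_right h1]
    exact Subtype.property _
  · exact hinv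

/-- The reduction of a product of two elements of `O`. -/
theorem h89_red_mul (R : h39_RedDatum K F k Fb) {y z : F} (hy : y ∈ R.O) (hz : z ∈ R.O) :
    R.red ⟨y * z, R.O.mul_mem _ _ hy hz⟩ = R.red ⟨y, hy⟩ * R.red ⟨z, hz⟩ := by
  rw [← map_mul]
  rfl

/-- The ring homomorphism `A[X] → O`, `p ↦ p(x)`. -/
def h89_evalO (R : h39_RedDatum K F k Fb) {x : F} (hx : x ∈ R.O) : Polynomial R.A →+* R.O :=
  Polynomial.eval₂RingHom
    ((algebraMap K F).comp R.A.subtype |>.codRestrict R.O.toSubring
      (fun a => (R.mem_iff (a : K)).mp a.2))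
    ⟨x, hx⟩

theorem h89_evalO_coe (R : h39_RedDatum K F k Fb) {x : F} (hx : x ∈ R.O) (p : Polynomial R.A) :
    ((h89_evalO R hx p : R.O) : F) = Polynomial.aeval x (p.map R.A.subtype) := by
  induction p using Polynomial.induction_on' with
  | add p q hp hq =>
    rw [map_add, Polynomial.map_add, map_add]
    push_cast
    rw [hp, hq]
  | monomial n a =>
    rw [Polynomial.map_monomial, Polynomial.aeval_monomial]
    have h1 : h89_evalO R hx (Polynomial.monomial n a) =
        (⟨algebraMap K F (a : K), (R.mem_iff (a : K)).mp a.2⟩ : R.O) * (⟨x, hx⟩ : R.O) ^ n := by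
      simp [h89_evalO, Polynomial.eval₂_monomial]
      rfl
    rw [h1]
    rfl

theorem h89_red_evalO (R : h39_RedDatum K F k Fb) {x : F} (hx : x ∈ R.O) (p : Polynomial R.A) :
    R.red (h89_evalO R hx p) = Polynomial.aeval (R.red ⟨x, hx⟩) (p.map R.res) := by
  induction p using Polynomial.induction_on' with
  | add p q hp hq =>
    rw [map_add, map_add, Polynomial.map_add, map_add, hp, hq]
  | monomial n a =>
    rw [Polynomial.map_monomial, Polynomial.aeval_monomial]
    have h1 : h89_evalO R hx (Polynomial.monomial n a) =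
        (⟨algebraMap K F (a : K), (R.mem_iff (a : K)).mp a.2⟩ : R.O) * (⟨x, hx⟩ : R.O) ^ n := by
      simp [h89_evalO, Polynomial.eval₂_monomial]
      rfl
    rw [h1, map_mul, map_pow, R.red_algebraMap (a : K) a.2]

/-- For `p ∈ A[X]`, `p(x) ∈ O`. -/
theorem h89_gauss_red_mem (R : h39_RedDatum K F k Fb) {x : F} (hx : x ∈ R.O)
    (p : Polynomial R.A) : Polynomial.aeval x (p.map R.A.subtype) ∈ R.O := by
  rw [← h89_evalO_coe R hx p]
  exact Subtype.property _

/-- For `p ∈ A[X]`, the reduction of `p(x)` is `p̄(x̄)`. -/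
theorem h89_gauss_red (R : h39_RedDatum K F k Fb) {x : F} (hx : x ∈ R.O)
    (p : Polynomial R.A) :
    R.redF (Polynomial.aeval x (p.map R.A.subtype)) =
      Polynomial.aeval (R.redF x) (p.map R.res) := by
  rw [R.redF_of_mem (h89_gauss_red_mem R hx p), R.redF_of_mem hx, ← h89_red_evalO R hx p]
  congr 1
  exact Subtype.ext (h89_evalO_coe R hx p).symm

/-- Primitive scaling: a nonzero polynomial over `K` has a coefficient of largest norm. -/
theorem h89_exists_max_coeff (A : ValuationSubring K) {p : Polynomial K} (hp : p ≠ 0) :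
    ∃ j : ℕ, p.coeff j ≠ 0 ∧ ∀ i : ℕ, p.coeff i / p.coeff j ∈ A := by
  have hne : p.support.Nonempty := Polynomial.support_nonempty.mpr hp
  obtain ⟨j, hj, hmax⟩ := Finset.exists_max_image p.support (fun i => A.valuation (p.coeff i)) hne
  have hj0 : p.coeff j ≠ 0 := Polynomial.mem_support_iff.mp hj
  refine ⟨j, hj0, fun i => ?_⟩
  by_cases hi : i ∈ p.support
  · rw [← A.valuation_le_one_iff, map_div₀]
    have hpos : 0 < A.valuation (p.coeff j) := by
      rw [zero_lt_iff, Ne, map_eq_zero]
      exact hj0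
    rw [div_le_one₀ hpos]
    exact hmax i hi
  · rw [Polynomial.notMem_support_iff.mp hi, zero_div]
    exact A.zero_mem

/-- A nonzero polynomial over `K` is a nonzero constant times a polynomial over `A` with a
coefficient equal to `1`. -/
theorem h89_exists_primitive (A : ValuationSubring K) {p : Polynomial K} (hp : p ≠ 0) :
    ∃ (c : K) (q : Polynomial A) (j : ℕ), c ≠ 0 ∧ q.coeff j = 1 ∧
      p = Polynomial.C c * q.map A.subtype := by
  obtain ⟨j, hj0, hj⟩ := h89_exists_max_coeff A hp
  have hlift : Polynomial.C (p.coeff j)⁻¹ * p ∈ Polynomial.lifts A.subtype := by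
    rw [Polynomial.lifts_iff_coeff_lifts]
    intro n
    refine ⟨⟨p.coeff n / p.coeff j, hj n⟩, ?_⟩
    rw [Polynomial.coeff_C_mul]
    change p.coeff n / p.coeff j = _
    rw [div_eq_inv_mul]
  obtain ⟨q, hq⟩ := (Polynomial.mem_lifts _).mp hlift
  refine ⟨p.coeff j, q, j, hj0, ?_, ?_⟩
  · apply Subtype.ext
    have h1 := congrArg (fun r => Polynomial.coeff r j) hq
    simp only [Polynomial.coeff_map, Polynomial.coeff_C_mul] at h1
    have h2 : ((q.coeff j : A) : K) = (p.coeff j)⁻¹ * p.coeff j := h1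
    rw [h2, inv_mul_cancel₀ hj0]
    rfl
  · rw [hq, ← mul_assoc, ← Polynomial.C_mul, mul_inv_cancel₀ hj0, Polynomial.C_1, one_mul]

/-- A polynomial over `A` with a coefficient `1` has a unit value at `x` when `x̄` is
transcendental. -/
theorem h89_primitive_unit (R : h39_RedDatum K F k Fb) {x : F} (hx : x ∈ R.O)
    (htr : Transcendental k (R.redF x)) {q : Polynomial R.A} {j : ℕ} (hq : q.coeff j = 1) :
    R.redF (Polynomial.aeval x (q.map R.A.subtype)) ≠ 0 ∧
      (Polynomial.aeval x (q.map R.A.subtype))⁻¹ ∈ R.O := by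
  have hqbar : q.map R.res ≠ 0 := by
    intro h0
    have h1 := congrArg (fun r => Polynomial.coeff r j) h0
    simp only [Polynomial.coeff_map, hq, map_one, Polynomial.coeff_zero] at h1
    exact one_ne_zero h1
  have hne : R.redF (Polynomial.aeval x (q.map R.A.subtype)) ≠ 0 := by
    rw [h89_gauss_red R hx q]
    exact fun h0 => hqbar ((transcendental_iff.mp htr) _ h0)
  refine ⟨hne, ?_⟩
  have hmem := h89_gauss_red_mem R hx q
  rw [R.redF_of_mem hmem] at hne
  exact h89_inv_mem_of_red_ne_zero R hmem hne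

/-- **Gauss**: for `p ∈ K[X]`, `p(x) ∈ O` iff all coefficients of `p` lie in `A`. -/
theorem h89_gauss_mem_iff (R : h39_RedDatum K F k Fb) {x : F} (hx : x ∈ R.O)
    (htr : Transcendental k (R.redF x)) (p : Polynomial K) :
    Polynomial.aeval x p ∈ R.O ↔ ∀ i : ℕ, p.coeff i ∈ R.A := by
  constructor
  · intro hmem
    rcases eq_or_ne p 0 with rfl | hp
    · intro i
      rw [Polynomial.coeff_zero]
      exact R.A.zero_mem
    obtain ⟨c, q, j, hc0, hqj, hpq⟩ := h89_exists_primitive R.A hp
    obtain ⟨-, hinv⟩ := h89_primitive_unit R hx htr hqj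
    have hval : Polynomial.aeval x p =
        algebraMap K F c * Polynomial.aeval x (q.map R.A.subtype) := by
      rw [hpq, map_mul, Polynomial.aeval_C]
    have hunit0 : Polynomial.aeval x (q.map R.A.subtype) ≠ 0 := by
      intro h0
      have := (h89_primitive_unit R hx htr hqj).1
      rw [h0] at this
      apply this
      rw [R.redF_of_mem R.O.zero_mem]
      exact map_zero R.red
    have hcO : algebraMap K F c ∈ R.O := by
      have h1 : algebraMap K F c =
          Polynomial.aeval x p * (Polynomial.aeval x (q.map R.A.subtype))⁻¹ := by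
        rw [hval, mul_assoc, mul_inv_cancel₀ hunit0, mul_one]
      rw [h1]
      exact R.O.mul_mem _ _ hmem hinv
    have hcA : c ∈ R.A := (R.mem_iff c).mpr hcO
    intro i
    rw [hpq, Polynomial.coeff_C_mul, Polynomial.coeff_map]
    exact R.A.mul_mem _ _ hcA (q.coeff i).2
  · intro hcoeff
    have hlift : p ∈ Polynomial.lifts R.A.subtype := by
      rw [Polynomial.lifts_iff_coeff_lifts]
      exact fun n => ⟨⟨p.coeff n, hcoeff n⟩, rfl⟩
    obtain ⟨q, rfl⟩ := (Polynomial.mem_lifts _).mp hlift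
    exact h89_gauss_red_mem R hx q

/-- An element of `K(x) ∩ O` is `p(x)/q(x)` with `p, q ∈ A[X]` and `q` having a coefficient
`1` (so `q̄ ≠ 0` and `q(x)` is a unit of `O`). -/
theorem h89_gauss_ratfunc (R : h39_RedDatum K F k Fb) {x : F} (hx : x ∈ R.O)
    (htr : Transcendental k (R.redF x)) {c : F} (hc : c ∈ K⟮x⟯) (hcO : c ∈ R.O) :
    ∃ (p q : Polynomial R.A) (j : ℕ), q.coeff j = 1 ∧
      c * Polynomial.aeval x (q.map R.A.subtype) = Polynomial.aeval x (p.map R.A.subtype) := by
  obtain ⟨p0, q0, hc'⟩ := (IntermediateField.mem_adjoin_simple_iff K c).mp hc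
  by_cases hq0 : Polynomial.aeval x q0 = 0
  · refine ⟨0, 1, 0, Polynomial.coeff_one_zero, ?_⟩
    rw [hc', hq0, div_zero, zero_mul, Polynomial.map_zero, map_zero]
  have hq0' : q0 ≠ 0 := by
    rintro rfl
    exact hq0 (map_zero _)
  obtain ⟨d, q, j, hd0, hqj, hq0q⟩ := h89_exists_primitive R.A hq0'
  obtain ⟨hred, hinv⟩ := h89_primitive_unit R hx htr hqj
  have hqx0 : Polynomial.aeval x (q.map R.A.subtype) ≠ 0 := by
    intro h0
    rw [hq0q, map_mul, h0, mul_zero] at hq0
    exact hq0 rfl
  -- `p1 := d⁻¹ p0` has `p1(x) = c * q(x) ∈ O`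
  have hval : Polynomial.aeval x (Polynomial.C d⁻¹ * p0) =
      c * Polynomial.aeval x (q.map R.A.subtype) := by
    rw [hc', hq0q, map_mul, map_mul, Polynomial.aeval_C, Polynomial.aeval_C]
    have hd : algebraMap K F d ≠ 0 := by
      rw [Ne, map_eq_zero]
      exact hd0
    rw [map_inv₀]
    field_simp
  have hmem : Polynomial.aeval x (Polynomial.C d⁻¹ * p0) ∈ R.O := by
    rw [hval]
    exact R.O.mul_mem _ _ hcO (h89_gauss_red_mem R hx q)
  have hcoeff := (h89_gauss_mem_iff R hx htr _).mp hmem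
  have hlift : Polynomial.C d⁻¹ * p0 ∈ Polynomial.lifts R.A.subtype := by
    rw [Polynomial.lifts_iff_coeff_lifts]
    exact fun n => ⟨⟨_, hcoeff n⟩, rfl⟩
  obtain ⟨p, hp⟩ := (Polynomial.mem_lifts _).mp hlift
  exact ⟨p, q, j, hqj, by rw [hp, hval]⟩

/-- The reduction of an element of `K(x)` lies in `k(x̄)`. -/
theorem h89_gauss_redF_mem (R : h39_RedDatum K F k Fb) {x : F} (hx : x ∈ R.O)
    (htr : Transcendental k (R.redF x)) {c : F} (hc : c ∈ K⟮x⟯) :
    R.redF c ∈ k⟮R.redF x⟯ := by
  by_cases hcO : c ∈ R.O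
  · obtain ⟨p, q, j, hqj, hcq⟩ := h89_gauss_ratfunc R hx htr hc hcO
    obtain ⟨hred, hinv⟩ := h89_primitive_unit R hx htr hqj
    have hqmem := h89_gauss_red_mem R hx q
    have hpmem := h89_gauss_red_mem R hx p
    have h1 : R.redF c * R.redF (Polynomial.aeval x (q.map R.A.subtype)) =
        R.redF (Polynomial.aeval x (p.map R.A.subtype)) := by
      rw [R.redF_of_mem hcO, R.redF_of_mem hqmem, ← h89_red_mul R hcO hqmem]
      rw [R.redF_of_mem hpmem]
      congr 1
      exact Subtype.ext hcq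
    have h2 : R.redF c = R.redF (Polynomial.aeval x (p.map R.A.subtype)) /
        R.redF (Polynomial.aeval x (q.map R.A.subtype)) := by
      rw [← h1, mul_div_assoc, div_self hred, mul_one]
    rw [h2, h89_gauss_red R hx p, h89_gauss_red R hx q]
    refine (IntermediateField.mem_adjoin_simple_iff k _).mpr ⟨p.map R.res, q.map R.res, rfl⟩
  · unfold h39_RedDatum.redF
    rw [dif_neg hcO]
    exact zero_mem _

end Fermat.Agent.S18

end
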