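/-
S18 / MOD layer, split-off piece (c) of row 316 MOD-IG-C (helper11): the degree of the residual
function field.

`Qb = AlgebraicClosure ℚ`, `A` a valuation ring of `Qb` over `ℓ ∤ N`, `k = A/𝔪`,
`Fb N = modularFunctionFieldFullC k N ⊆ k((q))`, `n = [SL₂(ℤ) : Γ₀(N)]`.

* `h11_red_repr`   : reduction of the power-basis representation (IG-B) of an element of `F N`
                     with `A`-integral `q`-expansion `y`: `Q(j̄) ȳ = ∑_{i<n} P_i(j̄) j̄_N^i`, `Q ≠ 0`;
* `h11_finrank_fb` : `[Fb N : k(j̄)] = n`   (= `h54_finrank_fb` of the MOD skeleton).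

No reduction datum is used: only IG-A (`h84_igusa_field`), IG-B (`h69_exists_repr`) and
primitive scaling in the valuation ring.
-/
import Mathlib
import Fermat.Agent.S18.h54_ModDefs
import Fermat.Agent.S18.h54_ModSep
import Fermat.Agent.S18.h84_IgusaLinInd
import Fermat.Agent.S18.h69_PowerBasis
import Fermat.Agent.S18.h89_GaussCore
import Fermat.Agent.S18.h19_ResField
import Fermat.Agent.S28.Formal
import Fermat.Agent.S28.h73_KerInst

set_option autoImplicit false
set_option synthInstance.maxHeartbeats 400000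

noncomputable section

open ModularCurve AlgebraicCurve IntermediateField CongruenceSubgroup
open scoped MatrixGroups

namespace Fermat.Agent.S18

open Fermat.Agent.S28

local notation "Qb" => AlgebraicClosure ℚ

/-! ### Generic lemmas -/

/-- `coeffMap` commutes with polynomial evaluation. -/
theorem h11_coeffMap_eval₂ {R : Type*} [CommRing R] {K : Type*} [Field K] (φ : R →+* K)
    (x : LaurentSeries R) (r : Polynomial R) :
    coeffMap φ (Polynomial.eval₂ HahnSeries.C x r)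
      = Polynomial.aeval (coeffMap φ x) (r.map φ) := by
  rw [Polynomial.aeval_def, Polynomial.eval₂_map, Polynomial.hom_eval₂]
  congr 1
  ext a : 1
  have h : (HahnSeries.C a : LaurentSeries R) = HahnSeries.single 0 a := rfl
  rw [RingHom.comp_apply, RingHom.comp_apply, h, coeffMap_single,
    algebraMap_laurentSeries_eq_single]

/-- The structure map of `K((q))` is the constant-series map. -/
theorem h11_algebraMap_eq_C (K : Type*) [Field K] (c : K) :
    algebraMap K (LaurentSeries K) c = HahnSeries.C c := by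
  rw [algebraMap_laurentSeries_eq_single]
  rfl

/-- Joint primitive scaling of a finite family of polynomials, not all zero. -/
theorem h11_exists_primitive_family {K : Type*} [Field K] (A : ValuationSubring K) {n : ℕ}
    (p : Fin n → Polynomial K) (hp : ∃ i, p i ≠ 0) :
    ∃ (c : K) (p₀ : Fin n → Polynomial A), c ≠ 0 ∧
      (∀ i, p i = Polynomial.C c * (p₀ i).map A.subtype) ∧ ∃ i j, (p₀ i).coeff j = 1 := by
  classical
  set T : Finset (Σ _ : Fin n, ℕ) := Finset.univ.sigma (fun i => (p i).support) with hT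
  have hne : T.Nonempty := by
    obtain ⟨i, hi⟩ := hp
    obtain ⟨j, hj⟩ := Polynomial.support_nonempty.mpr hi
    exact ⟨⟨i, j⟩, Finset.mem_sigma.mpr ⟨Finset.mem_univ _, hj⟩⟩
  obtain ⟨⟨i₀, j₀⟩, hmem, hmax⟩ :=
    Finset.exists_max_image T (fun x => A.valuation ((p x.1).coeff x.2)) hne
  have hc : (p i₀).coeff j₀ ≠ 0 := Polynomial.mem_support_iff.mp (Finset.mem_sigma.mp hmem).2
  have hdiv : ∀ i j, (p i).coeff j / (p i₀).coeff j₀ ∈ A := by
    intro i j
    by_cases hij : j ∈ (p i).support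
    · rw [← A.valuation_le_one_iff, map_div₀]
      have hpos : 0 < A.valuation ((p i₀).coeff j₀) := by
        rw [zero_lt_iff, Ne, map_eq_zero]
        exact hc
      rw [div_le_one₀ hpos]
      exact hmax ⟨i, j⟩ (Finset.mem_sigma.mpr ⟨Finset.mem_univ _, hij⟩)
    · rw [Polynomial.notMem_support_iff.mp hij, zero_div]
      exact A.zero_mem
  have hlift : ∀ i, Polynomial.C ((p i₀).coeff j₀)⁻¹ * p i ∈ Polynomial.lifts A.subtype := by
    intro i
    rw [Polynomial.lifts_iff_coeff_lifts]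
    intro m
    refine ⟨⟨(p i).coeff m / (p i₀).coeff j₀, hdiv i m⟩, ?_⟩
    rw [Polynomial.coeff_C_mul]
    change (p i).coeff m / (p i₀).coeff j₀ = _
    rw [div_eq_inv_mul]
  choose p₀ hp₀ using fun i => (Polynomial.mem_lifts _).mp (hlift i)
  refine ⟨(p i₀).coeff j₀, p₀, hc, fun i => ?_, i₀, j₀, ?_⟩
  · rw [hp₀ i, ← mul_assoc, ← Polynomial.C_mul, mul_inv_cancel₀ hc, Polynomial.C_1, one_mul]
  · apply Subtype.ext
    have h1 := congrArg (fun r => Polynomial.coeff r j₀) (hp₀ i₀)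
    simp only [Polynomial.coeff_map, Polynomial.coeff_C_mul] at h1
    have h2 : (((p₀ i₀).coeff j₀ : A) : K) = ((p i₀).coeff j₀)⁻¹ * (p i₀).coeff j₀ := h1
    rw [h2, inv_mul_cancel₀ hc]
    rfl

/-- IG-A in the form of a sum: a nontrivial combination `∑_{i<n} P_i(j̄) j̄_N^i` is nonzero. -/
theorem h11_igusa_sum (N : ℕ) [NeZero N] (ℓ : ℕ) [Fact ℓ.Prime] (hℓN : ¬ ℓ ∣ N)
    (k : Type) [Field k] [CharP k ℓ]
    (P : Fin (Nat.card (SL(2, ℤ) ⧸ Gamma0 N)) → Polynomial k) (hP : ∃ i, P i ≠ 0) :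
    ∑ i, Polynomial.aeval (jqModC k) (P i) * qExpand k N (jqModC k) ^ (i : ℕ) ≠ 0 := by
  classical
  set H : Polynomial (Polynomial k) :=
    ∑ i : Fin (Nat.card (SL(2, ℤ) ⧸ Gamma0 N)), Polynomial.C (P i) * Polynomial.X ^ (i : ℕ)
    with hH
  have hcoeff : ∀ i : Fin (Nat.card (SL(2, ℤ) ⧸ Gamma0 N)), H.coeff (i : ℕ) = P i := by
    intro i
    rw [hH, Polynomial.finsetSum_coeff]
    rw [Finset.sum_eq_single i]
    · rw [Polynomial.coeff_C_mul, Polynomial.coeff_X_pow, if_pos rfl, mul_one]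
    · intro b _ hb
      rw [Polynomial.coeff_C_mul, Polynomial.coeff_X_pow, if_neg, mul_zero]
      intro h
      exact hb (Fin.ext h.symm)
    · intro h
      exact absurd (Finset.mem_univ i) h
  have hH0 : H ≠ 0 := by
    obtain ⟨i, hi⟩ := hP
    intro h0
    apply hi
    rw [← hcoeff i, h0, Polynomial.coeff_zero]
  have hdeg : H.natDegree < Nat.card (SL(2, ℤ) ⧸ Gamma0 N) := by
    rw [Polynomial.natDegree_lt_iff_degree_lt hH0, Polynomial.degree_lt_iff_coeff_zero]
    intro m hm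
    rw [hH, Polynomial.finsetSum_coeff]
    apply Finset.sum_eq_zero
    intro b _
    rw [Polynomial.coeff_C_mul, Polynomial.coeff_X_pow, if_neg, mul_zero]
    intro h
    have := b.2
    omega
  have key := h84_igusa_field N ℓ hℓN k H hH0 hdeg
  intro h0
  apply key
  rw [← h0, hH, Polynomial.map_sum, Polynomial.eval_finsetSum]
  refine Finset.sum_congr rfl fun i _ => ?_
  rw [Polynomial.map_mul, Polynomial.map_C, Polynomial.map_pow, Polynomial.map_X,
    Polynomial.eval_mul, Polynomial.eval_C, Polynomial.eval_pow, Polynomial.eval_X]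
  rfl

/-- If `v ∉ A` then `v⁻¹` lies in the maximal ideal of `A`. -/
theorem h11_residue_inv_eq_zero {K : Type*} [Field K] (A : ValuationSubring K) {v : K}
    (hv : v ∉ A) (hv' : v⁻¹ ∈ A) : IsLocalRing.residue A ⟨v⁻¹, hv'⟩ = 0 := by
  rw [IsLocalRing.residue_eq_zero_iff, IsLocalRing.mem_maximalIdeal, mem_nonunits_iff]
  rintro ⟨u, hu⟩
  apply hv
  have hv0 : v ≠ 0 := fun h => hv (h ▸ A.zero_mem)
  have h1 : ((u⁻¹ : Aˣ) : A) * (⟨v⁻¹, hv'⟩ : A) = 1 := by
    rw [← hu]
    exact Units.inv_mul u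
  have h2 : (((u⁻¹ : Aˣ) : A) : K) * v⁻¹ = 1 := congrArg Subtype.val h1
  have h3 : (((u⁻¹ : Aˣ) : A) : K) = v := (mul_inv_eq_one₀ hv0).mp h2
  rw [← h3]
  exact ((u⁻¹ : Aˣ) : A).2

/-! ### Reduction of the power-basis representation -/

/-- **Reduction of IG-B.** Let `f ∈ F N` have the `A`-integral `q`-expansion `y`. Then the
reduction `ȳ` satisfies `Q(j̄) ȳ = ∑_{i<n} P_i(j̄) j̄_N^i` with `Q ≠ 0`. -/
theorem h11_red_repr (N : ℕ) [NeZero N] {ℓ : ℕ} [Fact ℓ.Prime] (hℓN : ¬ ℓ ∣ N)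
    (A : ValuationSubring Qb) (hA : A.LiesOverPrime ℓ)
    (f : ↥(modularFunctionFieldBar N)) (y : LaurentSeries A)
    (hy : (f : LaurentSeries Qb) = coeffMap A.subtype y) :
    ∃ (P : Fin (Nat.card (SL(2, ℤ) ⧸ Gamma0 N)) → Polynomial (IsLocalRing.ResidueField A))
      (Q : Polynomial (IsLocalRing.ResidueField A)), Q ≠ 0 ∧
      Polynomial.aeval (jqModC (IsLocalRing.ResidueField A)) Q *
          coeffMap (IsLocalRing.residue A) y
        = ∑ i, Polynomial.aeval (jqModC (IsLocalRing.ResidueField A)) (P i) *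
            qExpand (IsLocalRing.ResidueField A) N (jqModC (IsLocalRing.ResidueField A))
              ^ (i : ℕ) := by
  classical
  have hchar : CharP (IsLocalRing.ResidueField A) ℓ := h19_residueField_charP A ℓ hA
  have hinj : Function.Injective (coeffMap A.subtype) :=
    coeffMap_injective A.subtype Subtype.val_injective
  by_cases hf0 : (f : LaurentSeries Qb) = 0
  · have hy0 : y = 0 := hinj (by rw [← hy, hf0, map_zero])
    refine ⟨fun _ => 0, 1, one_ne_zero, ?_⟩
    rw [hy0, map_zero, mul_zero]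
    simp
  obtain ⟨p, q, hq, hrep⟩ := h69_exists_repr N f
  have hp : ∃ i, p i ≠ 0 := by
    by_contra hcon
    simp only [not_exists, not_not] at hcon
    have h0 : Polynomial.aeval (jqModC Qb) q * (f : LaurentSeries Qb) = 0 := by
      rw [hrep]
      exact Finset.sum_eq_zero fun i _ => by rw [hcon i, map_zero, zero_mul]
    rcases mul_eq_zero.mp h0 with h | h
    · exact h73_aeval_jqModC_ne_zero Qb hq h
    · exact hf0 h
  obtain ⟨c, q₀, j₀, hc, hq₀, hqeq⟩ := h89_exists_primitive A hq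
  obtain ⟨c', p₀, hc', hpeq, i₁, j₁, hp₀⟩ := h11_exists_primitive_family A p hp
  -- the series over `A`
  set JA : LaurentSeries A := jqModC A with hJA
  set YA : LaurentSeries A := qExpand A N JA with hYA
  have hJQ : coeffMap A.subtype JA = jqModC Qb := coeffMap_jqModC _
  have hYQ : coeffMap A.subtype YA = qExpand Qb N (jqModC Qb) := by
    rw [hYA, coeffMap_qExpand, hJQ]
  have hJk : coeffMap (IsLocalRing.residue A) JA = jqModC (IsLocalRing.ResidueField A) :=
    coeffMap_jqModC _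
  have hYk : coeffMap (IsLocalRing.residue A) YA
      = qExpand (IsLocalRing.ResidueField A) N (jqModC (IsLocalRing.ResidueField A)) := by
    rw [hYA, coeffMap_qExpand, hJk]
  set LA : LaurentSeries A := Polynomial.eval₂ HahnSeries.C JA q₀ * y with hLA
  set RA : LaurentSeries A :=
    ∑ i, Polynomial.eval₂ HahnSeries.C JA (p₀ i) * YA ^ (i : ℕ) with hRA
  have hq' : Polynomial.aeval (jqModC Qb) q
      = HahnSeries.C c * coeffMap A.subtype (Polynomial.eval₂ HahnSeries.C JA q₀) := by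
    rw [hqeq, map_mul, Polynomial.aeval_C, h11_coeffMap_eval₂, hJQ, h11_algebraMap_eq_C]
  have hp' : ∀ i, Polynomial.aeval (jqModC Qb) (p i)
      = HahnSeries.C c' * coeffMap A.subtype (Polynomial.eval₂ HahnSeries.C JA (p₀ i)) := by
    intro i
    rw [hpeq i, map_mul, Polynomial.aeval_C, h11_coeffMap_eval₂, hJQ, h11_algebraMap_eq_C]
  have hstar : HahnSeries.C c * coeffMap A.subtype LA
      = HahnSeries.C c' * coeffMap A.subtype RA := by
    rw [hLA, hRA, map_mul, map_sum, Finset.mul_sum, ← hy, ← mul_assoc, ← hq', hrep]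
    refine Finset.sum_congr rfl fun i _ => ?_
    rw [map_mul, map_pow, hYQ, ← mul_assoc, ← hp' i]
  -- reductions
  have hLk : coeffMap (IsLocalRing.residue A) LA
      = Polynomial.aeval (jqModC (IsLocalRing.ResidueField A))
          (q₀.map (IsLocalRing.residue A)) * coeffMap (IsLocalRing.residue A) y := by
    rw [hLA, map_mul, h11_coeffMap_eval₂, hJk]
  have hRk : coeffMap (IsLocalRing.residue A) RA
      = ∑ i, Polynomial.aeval (jqModC (IsLocalRing.ResidueField A))
          ((p₀ i).map (IsLocalRing.residue A)) *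
            qExpand (IsLocalRing.ResidueField A) N (jqModC (IsLocalRing.ResidueField A))
              ^ (i : ℕ) := by
    rw [hRA, map_sum]
    refine Finset.sum_congr rfl fun i _ => ?_
    rw [map_mul, map_pow, h11_coeffMap_eval₂, hJk, hYk]
  have hQ0 : q₀.map (IsLocalRing.residue A) ≠ 0 := by
    intro h0
    have h1 := congrArg (fun r => Polynomial.coeff r j₀) h0
    simp only [Polynomial.coeff_map, Polynomial.coeff_zero] at h1
    rw [hq₀, map_one] at h1
    exact one_ne_zero h1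
  have hP0 : ∃ i, (p₀ i).map (IsLocalRing.residue A) ≠ 0 := by
    refine ⟨i₁, fun h0 => ?_⟩
    have h1 := congrArg (fun r => Polynomial.coeff r j₁) h0
    simp only [Polynomial.coeff_map, Polynomial.coeff_zero] at h1
    rw [hp₀, map_one] at h1
    exact one_ne_zero h1
  have hRk0 : coeffMap (IsLocalRing.residue A) RA ≠ 0 := by
    rw [hRk]
    exact h11_igusa_sum N ℓ hℓN _ _ hP0
  have hCc : (HahnSeries.C c : LaurentSeries Qb) ≠ 0 :=
    (map_ne_zero_iff _ HahnSeries.C_injective).mpr hc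
  have hCc' : (HahnSeries.C c' : LaurentSeries Qb) ≠ 0 :=
    (map_ne_zero_iff _ HahnSeries.C_injective).mpr hc'
  clear_value LA RA
  by_cases hv : c' / c ∈ A
  · have e1 : coeffMap A.subtype (HahnSeries.C (⟨c' / c, hv⟩ : A) * RA)
        = HahnSeries.C (c' / c) * coeffMap A.subtype RA := by
      rw [map_mul, coeffMap_C]
      rfl
    have h1 : LA = HahnSeries.C (⟨c' / c, hv⟩ : A) * RA := by
      apply hinj
      rw [e1]
      apply mul_left_cancel₀ hCc
      rw [hstar, ← mul_assoc, ← map_mul, mul_div_cancel₀ _ hc]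
    refine ⟨fun i => Polynomial.C (IsLocalRing.residue A ⟨c' / c, hv⟩) *
      (p₀ i).map (IsLocalRing.residue A), q₀.map (IsLocalRing.residue A), hQ0, ?_⟩
    rw [← hLk, h1, map_mul, coeffMap_C, hRk, Finset.mul_sum]
    refine Finset.sum_congr rfl fun i _ => ?_
    rw [map_mul, Polynomial.aeval_C, h11_algebraMap_eq_C, mul_assoc]
  · exfalso
    have hv' : (c' / c)⁻¹ ∈ A := (A.mem_or_inv_mem _).resolve_left hv
    have e1 : coeffMap A.subtype (HahnSeries.C (⟨(c' / c)⁻¹, hv'⟩ : A) * LA)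
        = HahnSeries.C ((c' / c)⁻¹) * coeffMap A.subtype LA := by
      rw [map_mul, coeffMap_C]
      rfl
    have h1 : HahnSeries.C (⟨(c' / c)⁻¹, hv'⟩ : A) * LA = RA := by
      apply hinj
      rw [e1]
      apply mul_left_cancel₀ hCc'
      rw [← hstar, ← mul_assoc, ← map_mul, inv_div, mul_div_cancel₀ _ hc']
    have h2 := congrArg (coeffMap (IsLocalRing.residue A)) h1
    rw [map_mul, coeffMap_C, h11_residue_inv_eq_zero A hv hv', map_zero, zero_mul] at h2
    exact hRk0 h2.symm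

/-! ### The generators of `Fb N` in terms of `j̄` and `j̄_N` -/

/-- `j(q^d)`, `d ∣ N`, lies in `F N`. -/
theorem h11_qExpand_mem_bar (N : ℕ) [NeZero N] {d : ℕ} [NeZero d] (hd : d ∣ N) :
    qExpand Qb d (jqModC Qb) ∈ modularFunctionFieldBar N := by
  have h1 : coeffEmb Qb (qExpand ℚ d jq) ∈ laurentBaseChange Qb (modularFunctionFieldFull N) :=
    coeffEmb_mem_laurentBaseChange Qb (jqd_mem_full N hd)
  have h2 : coeffEmb Qb (qExpand ℚ d jq) = qExpand Qb d (jqModC Qb) := by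
    rw [← h69_coeffEmb_jq]
    exact coeffMap_qExpand _ d jq
  rw [← h2]
  exact h1

/-- The relation for the generator `j̄(q^d)`, `d ∣ N`. -/
theorem h11_rel_gen (N : ℕ) [NeZero N] {ℓ : ℕ} [Fact ℓ.Prime] (hℓN : ¬ ℓ ∣ N)
    (A : ValuationSubring Qb) (hA : A.LiesOverPrime ℓ) {d : ℕ} [NeZero d] (hd : d ∣ N) :
    ∃ (P : Fin (Nat.card (SL(2, ℤ) ⧸ Gamma0 N)) → Polynomial (IsLocalRing.ResidueField A))
      (Q : Polynomial (IsLocalRing.ResidueField A)), Q ≠ 0 ∧
      Polynomial.aeval (jqModC (IsLocalRing.ResidueField A)) Q *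
          qExpand (IsLocalRing.ResidueField A) d (jqModC (IsLocalRing.ResidueField A))
        = ∑ i, Polynomial.aeval (jqModC (IsLocalRing.ResidueField A)) (P i) *
            qExpand (IsLocalRing.ResidueField A) N (jqModC (IsLocalRing.ResidueField A))
              ^ (i : ℕ) := by
  have h := h11_red_repr N hℓN A hA ⟨qExpand Qb d (jqModC Qb), h11_qExpand_mem_bar N hd⟩
    (qExpand A d (jqModC A)) (by
      show qExpand Qb d (jqModC Qb) = _
      rw [coeffMap_qExpand, coeffMap_jqModC])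
  rwa [coeffMap_qExpand, coeffMap_jqModC] at h

/-- The relation for `j̄_N ^ m`. -/
theorem h11_rel_pow (N : ℕ) [NeZero N] {ℓ : ℕ} [Fact ℓ.Prime] (hℓN : ¬ ℓ ∣ N)
    (A : ValuationSubring Qb) (hA : A.LiesOverPrime ℓ) (m : ℕ) :
    ∃ (P : Fin (Nat.card (SL(2, ℤ) ⧸ Gamma0 N)) → Polynomial (IsLocalRing.ResidueField A))
      (Q : Polynomial (IsLocalRing.ResidueField A)), Q ≠ 0 ∧
      Polynomial.aeval (jqModC (IsLocalRing.ResidueField A)) Q *
          qExpand (IsLocalRing.ResidueField A) N (jqModC (IsLocalRing.ResidueField A)) ^ m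
        = ∑ i, Polynomial.aeval (jqModC (IsLocalRing.ResidueField A)) (P i) *
            qExpand (IsLocalRing.ResidueField A) N (jqModC (IsLocalRing.ResidueField A))
              ^ (i : ℕ) := by
  have h := h11_red_repr N hℓN A hA
    (⟨qExpand Qb N (jqModC Qb), h11_qExpand_mem_bar N dvd_rfl⟩ ^ m)
    (qExpand A N (jqModC A) ^ m) (by
      show qExpand Qb N (jqModC Qb) ^ m = _
      rw [map_pow, coeffMap_qExpand, coeffMap_jqModC])
  rwa [map_pow, coeffMap_qExpand, coeffMap_jqModC] at h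

/-! ### Field theory: from the relations to the degree -/

section Field

variable {k L : Type*} [Field k] [Field L] [Algebra k L]

/-- Polynomial expressions in an element of an intermediate field stay in it. -/
theorem h11_aeval_mem (S : IntermediateField k L) {x : L} (hx : x ∈ S) (p : Polynomial k) :
    Polynomial.aeval x p ∈ S := by
  rw [Polynomial.aeval_eq_sum_range]
  exact sum_mem fun i _ => S.smul_mem (pow_mem hx i)

/-- An element `w` of `Fb` with `Q(j) w = ∑_{i<n} P_i(j) y^i`, `Q(j) ≠ 0`, is a combination of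
the powers `y^i`, `i < n`, with coefficients in `k(j) ⊆ Fb`. -/
theorem h11_exists_combination (Fb : IntermediateField k L) (j y : L) (hj : j ∈ Fb)
    (hy : y ∈ Fb) (n : ℕ) (w : L) (hw : w ∈ Fb) (P : Fin n → Polynomial k) (Q : Polynomial k)
    (hQ : Polynomial.aeval j Q ≠ 0)
    (hrel : Polynomial.aeval j Q * w = ∑ i, Polynomial.aeval j (P i) * y ^ (i : ℕ)) :
    ∃ e : Fin n → ↥(k⟮(⟨j, hj⟩ : Fb)⟯),
      (⟨w, hw⟩ : Fb) = ∑ i, e i • (⟨y, hy⟩ : Fb) ^ (i : ℕ) := by
  have hmem : ∀ p : Polynomial k, Polynomial.aeval j p ∈ k⟮j⟯ := fun p =>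
    h11_aeval_mem k⟮j⟯ (IntermediateField.mem_adjoin_simple_self k j) p
  refine ⟨fun i => (h54_adjoinEquiv Fb j hj).symm
    (⟨Polynomial.aeval j (P i), hmem (P i)⟩ * (⟨Polynomial.aeval j Q, hmem Q⟩ : ↥(k⟮j⟯))⁻¹), ?_⟩
  apply Subtype.ext
  have hcoe : ∀ (s : Finset (Fin n)) (g : Fin n → ↥Fb),
      ((∑ i ∈ s, g i : ↥Fb) : L) = ∑ i ∈ s, (g i : L) := fun s g =>
    map_sum Fb.val g s
  rw [hcoe]
  have hterm : ∀ i : Fin n,
      ((((h54_adjoinEquiv Fb j hj).symm
        (⟨Polynomial.aeval j (P i), hmem (P i)⟩ * (⟨Polynomial.aeval j Q, hmem Q⟩ : ↥(k⟮j⟯))⁻¹))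
          • (⟨y, hy⟩ : Fb) ^ (i : ℕ) : ↥Fb) : L)
        = Polynomial.aeval j (P i) * (Polynomial.aeval j Q)⁻¹ * y ^ (i : ℕ) := by
    intro i
    rw [IntermediateField.smul_def]
    show ((((h54_adjoinEquiv Fb j hj).symm _ : ↥(k⟮(⟨j, hj⟩ : Fb)⟯)) : Fb) : L) * _ = _
    rw [h54_adjoinEquiv_symm_coe]
    rfl
  rw [Finset.sum_congr rfl fun i _ => hterm i]
  show w = _
  have h2 : ∑ i, Polynomial.aeval j (P i) * (Polynomial.aeval j Q)⁻¹ * y ^ (i : ℕ)
      = (Polynomial.aeval j Q)⁻¹ * ∑ i, Polynomial.aeval j (P i) * y ^ (i : ℕ) := by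
    rw [Finset.mul_sum]
    refine Finset.sum_congr rfl fun i _ => ?_
    ring
  rw [h2, ← hrel, ← mul_assoc, inv_mul_cancel₀ hQ, one_mul]

/-- Generic degree computation: if `Fb = k(S)`, the powers `y^i` (`i < n`) are independent over
`k(j)`, and every generator in `S` as well as `y^n` is a `k(j)`-combination of these powers (in
the cleared-denominator form), then `[Fb : k(j)] = n`. -/
theorem h11_finrank_of_relations (Fb : IntermediateField k L) (j y : L) (hj : j ∈ Fb)
    (hy : y ∈ Fb) (n : ℕ) (hn : 0 < n) (S : Set L) (hFb : Fb = IntermediateField.adjoin k S)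
    (hlin : LinearIndependent ↥(k⟮j⟯) (fun i : Fin n => y ^ (i : ℕ)))
    (hgen : ∀ g ∈ S, ∃ (P : Fin n → Polynomial k) (Q : Polynomial k),
      Polynomial.aeval j Q ≠ 0 ∧
        Polynomial.aeval j Q * g = ∑ i, Polynomial.aeval j (P i) * y ^ (i : ℕ))
    (hpow : ∃ (P : Fin n → Polynomial k) (Q : Polynomial k), Polynomial.aeval j Q ≠ 0 ∧
      Polynomial.aeval j Q * y ^ n = ∑ i, Polynomial.aeval j (P i) * y ^ (i : ℕ)) :
    Module.finrank ↥(k⟮(⟨j, hj⟩ : Fb)⟯) ↥Fb = n := by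
  classical
  set W : Submodule ↥(k⟮(⟨j, hj⟩ : Fb)⟯) ↥Fb :=
    Submodule.span ↥(k⟮(⟨j, hj⟩ : Fb)⟯) (Set.range fun i : Fin n => (⟨y, hy⟩ : Fb) ^ (i : ℕ))
    with hWdef
  have hgenW : ∀ i : Fin n, (⟨y, hy⟩ : Fb) ^ (i : ℕ) ∈ W := fun i =>
    Submodule.subset_span ⟨i, rfl⟩
  -- `y ^ n ∈ W`
  have hpowW : (⟨y, hy⟩ : Fb) ^ n ∈ W := by
    obtain ⟨P, Q, hQ, hrel⟩ := hpow
    obtain ⟨e, he⟩ := h11_exists_combination Fb j y hj hy n (y ^ n) (pow_mem hy n) P Q hQ hrel
    have h1 : (⟨y, hy⟩ : Fb) ^ n = (⟨y ^ n, pow_mem hy n⟩ : Fb) := rfl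
    rw [h1, he]
    exact Submodule.sum_mem _ fun i _ => Submodule.smul_mem _ _ (hgenW i)
  -- `y • W ⊆ W`
  have hmul : ∀ w ∈ W, (⟨y, hy⟩ : Fb) * w ∈ W := by
    intro w hw
    refine Submodule.span_induction ?_ ?_ ?_ ?_ hw
    · rintro _ ⟨i, rfl⟩
      rw [← pow_succ']
      by_cases hi : (i : ℕ) + 1 < n
      · exact hgenW ⟨(i : ℕ) + 1, hi⟩
      · have h2 : (i : ℕ) + 1 = n := by
          have := i.2
          omega
        rw [h2]
        exact hpowW
    · rw [mul_zero]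
      exact W.zero_mem
    · intro a b _ _ ha hb
      rw [mul_add]
      exact W.add_mem ha hb
    · intro c a _ ha
      rw [mul_smul_comm]
      exact W.smul_mem c ha
  -- all powers
  have hall : ∀ m : ℕ, (⟨y, hy⟩ : Fb) ^ m ∈ W := by
    intro m
    induction m with
    | zero => exact hgenW ⟨0, hn⟩
    | succ m ih =>
      rw [pow_succ']
      exact hmul _ ih
  -- integrality of `y` over `k(j)`
  have hWne : W ≠ ⊥ := by
    intro h0
    have h1 : (1 : ↥Fb) ∈ W := by
      have := hall 0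
      rwa [pow_zero] at this
    rw [h0, Submodule.mem_bot] at h1
    exact one_ne_zero h1
  have hint : IsIntegral ↥(k⟮(⟨j, hj⟩ : Fb)⟯) (⟨y, hy⟩ : Fb) :=
    isIntegral_of_smul_mem_submodule W hWne (Submodule.fg_span (Set.finite_range _))
      (⟨y, hy⟩ : Fb) (fun w hw => hmul w hw)
  -- `k(j)(y) ⊆ W`
  have hXW : ∀ x : ↥Fb, x ∈ (k⟮(⟨j, hj⟩ : Fb)⟯)⟮(⟨y, hy⟩ : Fb)⟯ → x ∈ W := by
    intro x hx
    have h1 : x ∈ ((k⟮(⟨j, hj⟩ : Fb)⟯)⟮(⟨y, hy⟩ : Fb)⟯).toSubalgebra := hx
    rw [IntermediateField.adjoin_simple_toSubalgebra_of_isAlgebraic hint.isAlgebraic,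
      Algebra.adjoin_singleton_eq_range_aeval] at h1
    obtain ⟨p, rfl⟩ := h1
    show Polynomial.aeval (⟨y, hy⟩ : Fb) p ∈ W
    rw [Polynomial.aeval_eq_sum_range]
    exact Submodule.sum_mem _ fun m _ => Submodule.smul_mem _ _ (hall m)
  -- `k(j)(y) = Fb`
  have hX : ∀ x : ↥Fb, x ∈ (k⟮(⟨j, hj⟩ : Fb)⟯)⟮(⟨y, hy⟩ : Fb)⟯ := by
    intro x
    have hypow : ∀ i : ℕ, (⟨y, hy⟩ : Fb) ^ i ∈ (k⟮(⟨j, hj⟩ : Fb)⟯)⟮(⟨y, hy⟩ : Fb)⟯ := fun i =>
      pow_mem (IntermediateField.mem_adjoin_simple_self _ _) i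
    have hle : Fb ≤ (((k⟮(⟨j, hj⟩ : Fb)⟯)⟮(⟨y, hy⟩ : Fb)⟯).restrictScalars k).map Fb.val := by
      conv_lhs => rw [hFb]
      rw [IntermediateField.adjoin_le_iff]
      intro g hg
      obtain ⟨P, Q, hQ, hrel⟩ := hgen g hg
      have hgFb : g ∈ Fb := by
        rw [hFb]
        exact IntermediateField.subset_adjoin k S hg
      obtain ⟨e, he⟩ := h11_exists_combination Fb j y hj hy n g hgFb P Q hQ hrel
      refine ⟨⟨g, hgFb⟩, ?_, rfl⟩
      show (⟨g, hgFb⟩ : Fb) ∈ (k⟮(⟨j, hj⟩ : Fb)⟯)⟮(⟨y, hy⟩ : Fb)⟯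
      rw [he]
      exact sum_mem fun i _ => IntermediateField.smul_mem _ (hypow i)
    obtain ⟨x', hx', hxx'⟩ := hle x.2
    have h1 : x' = x := Subtype.ext hxx'
    rw [← h1]
    exact hx'
  have hW : W = ⊤ := eq_top_iff.mpr fun x _ => hXW x (hX x)
  have hli := h54_linearIndependent_pow Fb j y hj hy n hlin
  rw [Module.finrank_eq_card_basis (Module.Basis.mk hli (by rw [← hWdef, hW])), Fintype.card_fin]

end Field

/-! ### The degree of the residual function field -/

/-- **MOD-IG-C (c)** `= h54_finrank_fb`: the residual function field `Fb N` has degree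
`[SL₂(ℤ) : Γ₀(N)]` over `k(j̄)`. -/
theorem h11_finrank_fb (N : ℕ) [NeZero N] {ℓ : ℕ} [Fact ℓ.Prime] (hℓN : ¬ ℓ ∣ N)
    (A : ValuationSubring Qb) (hA : A.LiesOverPrime ℓ) :
    Module.finrank (IsLocalRing.ResidueField A)⟮h54_jk (IsLocalRing.ResidueField A) N⟯
        ↥(modularFunctionFieldFullC (IsLocalRing.ResidueField A) N)
      = Nat.card (SL(2, ℤ) ⧸ Gamma0 N) := by
  have hchar : CharP (IsLocalRing.ResidueField A) ℓ := h19_residueField_charP A ℓ hA
  have hne : ∀ Q : Polynomial (IsLocalRing.ResidueField A), Q ≠ 0 →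
      Polynomial.aeval (jqModC (IsLocalRing.ResidueField A)) Q ≠ 0 := fun Q hQ =>
    h73_aeval_jqModC_ne_zero _ hQ
  have hpos : 0 < Nat.card (SL(2, ℤ) ⧸ Gamma0 N) := by
    rw [← Fermat.Agent.S24.h78_finrank N]
    have := Fermat.Agent.S24.h78_finiteDimensional N
    exact Module.finrank_pos
  refine h11_finrank_of_relations (modularFunctionFieldFullC (IsLocalRing.ResidueField A) N)
    (jqModC (IsLocalRing.ResidueField A))
    (qExpand (IsLocalRing.ResidueField A) N (jqModC (IsLocalRing.ResidueField A)))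
    (jqModC_mem_full _ N) (jqModCd_mem_full _ N dvd_rfl) _ hpos
    (divisorExpansionsC (IsLocalRing.ResidueField A) N) rfl
    (h84_igusa_linearIndependent N ℓ hℓN _) ?_ ?_
  · rintro g ⟨d, hd0, hd, rfl⟩
    obtain ⟨P, Q, hQ, hrel⟩ := h11_rel_gen N hℓN A hA hd
    exact ⟨P, Q, hne Q hQ, hrel⟩
  · obtain ⟨P, Q, hQ, hrel⟩ := h11_rel_pow N hℓN A hA (Nat.card (SL(2, ℤ) ⧸ Gamma0 N))
    exact ⟨P, Q, hne Q hQ, hrel⟩

end Fermat.Agent.S18
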