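import Mathlib
import Fermat.Agent.S28.Formal

/-!
# S18, layer MOD, row MOD-H2 (helper11): the Hauptmodul `h₂` of `X₀(2)`

`h₂ = Δ(q)/Δ(q²)`; relations `j h₂² = (h₂ + 256)³` and `j(q²) h₂ = (h₂ + 16)³`, deduced from the
product trick (valence formula for `Γ₀(2)`, hypothesis `hPT`) and the first two `q`-coefficients of
`j` and of `∏ (1 - qⁿ)` (hypotheses `hJ`, `hE`, row MOD-QC).
-/

set_option autoImplicit false

noncomputable section

namespace Fermat.Agent.S18

open ModularCurve Fermat.Agent.S28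

/-- `h₂ = Δ(q)/Δ(q²) = q⁻¹ ∏ (1 + qⁿ)⁻²⁴`. -/
def h11_hm2 (R : Type) [CommRing R] : LaurentSeries R := deltaHat R * expand R 2 (deltaHatInv R)

theorem h11_coeffMap_hm2 {R S : Type} [CommRing R] [CommRing S] (f : R →+* S) :
    coeffMap f (h11_hm2 R) = h11_hm2 S := by
  rw [h11_hm2, h11_hm2, map_mul, coeffMap_deltaHat, coeffMap_expand, coeffMap_deltaHatInv]

/-! ### a small congruence calculus for integral Laurent series -/

/-- all coefficients below `n` vanish -/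
def h11_Big (n : ℤ) (f : LaurentSeries ℤ) : Prop := ∀ k < n, f.coeff k = 0

theorem h11_Big_mul {n m : ℤ} {f g : LaurentSeries ℤ} (hf : h11_Big n f) (hg : h11_Big m g) :
    h11_Big (n + m) (f * g) := by
  intro k hk
  rw [HahnSeries.coeff_mul]
  apply Finset.sum_eq_zero
  intro ij hij
  rw [Finset.mem_antidiagonal] at hij
  obtain ⟨-, -, hsum⟩ := hij
  by_cases h : ij.1 < n
  · rw [hf _ h, zero_mul]
  · rw [hg _ (by omega), mul_zero]

theorem h11_Big_sub {n : ℤ} {f g : LaurentSeries ℤ} (hf : h11_Big n f) (hg : h11_Big n g) :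
    h11_Big n (f - g) := by
  intro k hk
  rw [HahnSeries.coeff_sub, hf k hk, hg k hk, sub_zero]

theorem h11_Big_add {n : ℤ} {f g : LaurentSeries ℤ} (hf : h11_Big n f) (hg : h11_Big n g) :
    h11_Big n (f + g) := by
  intro k hk
  rw [HahnSeries.coeff_add, hf k hk, hg k hk, add_zero]

theorem h11_Big_single (n : ℤ) (c : ℤ) : h11_Big n (HahnSeries.single n c) := by
  intro k hk
  rw [HahnSeries.coeff_single_of_ne (ne_of_lt hk)]

theorem h11_Big_ofPowerSeries (P : PowerSeries ℤ) :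
    h11_Big 0 (HahnSeries.ofPowerSeries ℤ ℤ P) := fun _ hk => ofPowerSeries_coeff_of_neg P hk

theorem h11_Big_order {n : ℤ} {f : LaurentSeries ℤ} (hf : h11_Big n f) (h0 : f ≠ 0) :
    n ≤ f.order := by
  by_contra hlt
  exact h0 (HahnSeries.coeff_order_eq_zero.mp (hf _ (not_le.mp hlt)))

theorem h11_eq_ofPowerSeries {f : LaurentSeries ℤ} (hf : h11_Big 0 f) :
    f = HahnSeries.ofPowerSeries ℤ ℤ (PowerSeries.mk fun n => f.coeff n) := by
  ext k
  rcases lt_or_ge k 0 with hk | hk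
  · rw [hf k hk, ofPowerSeries_coeff_of_neg _ hk]
  · lift k to ℕ using hk
    rw [HahnSeries.ofPowerSeries_apply_coeff, PowerSeries.coeff_mk]

theorem h11_coeff_mul_nat {f g : LaurentSeries ℤ} (hf : h11_Big 0 f) (hg : h11_Big 0 g) (n : ℕ) :
    (f * g).coeff (n : ℤ) = ∑ p ∈ Finset.HasAntidiagonal.antidiagonal n, f.coeff (p.1 : ℤ) * g.coeff (p.2 : ℤ) := by
  conv_lhs => rw [h11_eq_ofPowerSeries hf, h11_eq_ofPowerSeries hg, ← map_mul,
    HahnSeries.ofPowerSeries_apply_coeff, PowerSeries.coeff_mul]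
  simp only [PowerSeries.coeff_mk]

/-- a power series `≡ 1 + a q (mod q²)` -/
def h11_Lin (a : ℤ) (f : LaurentSeries ℤ) : Prop :=
  h11_Big 0 f ∧ f.coeff 0 = 1 ∧ f.coeff 1 = a

theorem h11_Lin_mul {a b : ℤ} {f g : LaurentSeries ℤ} (hf : h11_Lin a f) (hg : h11_Lin b g) :
    h11_Lin (a + b) (f * g) := by
  refine ⟨by simpa using h11_Big_mul hf.1 hg.1, ?_, ?_⟩
  · have h := h11_coeff_mul_nat hf.1 hg.1 0
    rw [show Finset.HasAntidiagonal.antidiagonal 0 = {((0 : ℕ), (0 : ℕ))} from rfl,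
      Finset.sum_singleton] at h
    simp only [Nat.cast_zero] at h
    rw [h, hf.2.1, hg.2.1, mul_one]
  · have h := h11_coeff_mul_nat hf.1 hg.1 1
    rw [show Finset.HasAntidiagonal.antidiagonal 1 = {((0 : ℕ), (1 : ℕ)), ((1 : ℕ), (0 : ℕ))} from rfl,
      Finset.sum_pair (by decide)] at h
    simp only [Nat.cast_zero, Nat.cast_one] at h
    rw [h, hf.2.1, hf.2.2, hg.2.1, hg.2.2]
    ring

theorem h11_Lin_one : h11_Lin 0 (1 : LaurentSeries ℤ) := by
  refine ⟨fun k hk => ?_, ?_, ?_⟩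
  · rw [HahnSeries.coeff_one, if_neg (ne_of_lt hk)]
  · rw [HahnSeries.coeff_one, if_pos rfl]
  · rw [HahnSeries.coeff_one, if_neg one_ne_zero]

theorem h11_Lin_pow {a : ℤ} {f : LaurentSeries ℤ} (hf : h11_Lin a f) (n : ℕ) :
    h11_Lin (n * a) (f ^ n) := by
  induction n with
  | zero => simpa using h11_Lin_one
  | succ n ih =>
    rw [pow_succ]
    have := h11_Lin_mul ih hf
    rwa [show (n : ℤ) * a + a = ((n + 1 : ℕ) : ℤ) * a by push_cast; ring] at this

theorem h11_Lin_expand {a : ℤ} {f : LaurentSeries ℤ} (hf : h11_Lin a f) :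
    h11_Lin 0 (expand ℤ 2 f) := by
  refine ⟨fun k hk => ?_, ?_, ?_⟩
  · by_cases hd : ((2 : ℕ) : ℤ) ∣ k
    · obtain ⟨j, rfl⟩ := hd
      rw [expand_coeff_mul 2 (by norm_num)]
      exact hf.1 j (by push_cast at hk; omega)
    · exact expand_coeff_of_not_dvd 2 (by norm_num) f hd
  · have h := expand_coeff_mul 2 (by norm_num) f 0
    rw [mul_zero] at h
    rw [h, hf.2.1]
  · exact expand_coeff_of_not_dvd 2 (by norm_num) f (by norm_num)

theorem h11_Lin_ofPowerSeries {a : ℤ} {P : PowerSeries ℤ} (h0 : PowerSeries.coeff 0 P = 1)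
    (h1 : PowerSeries.coeff 1 P = a) : h11_Lin a (HahnSeries.ofPowerSeries ℤ ℤ P) := by
  refine ⟨h11_Big_ofPowerSeries P, ?_, ?_⟩
  · have h := HahnSeries.ofPowerSeries_apply_coeff (Γ := ℤ) P 0
    rw [Nat.cast_zero] at h
    rw [h, h0]
  · have h := HahnSeries.ofPowerSeries_apply_coeff (Γ := ℤ) P 1
    rw [Nat.cast_one] at h
    rw [h, h1]

theorem h11_Lin_add {a : ℤ} {f g : LaurentSeries ℤ} (hf : h11_Lin a f) (hg : h11_Big 1 g) :
    h11_Lin (a + g.coeff 1) (f + g) := by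
  refine ⟨fun k hk => ?_, ?_, ?_⟩
  · rw [HahnSeries.coeff_add, hf.1 k hk, hg k (by omega), add_zero]
  · rw [HahnSeries.coeff_add, hf.2.1, hg 0 (by norm_num), add_zero]
  · rw [HahnSeries.coeff_add, hf.2.2]

theorem h11_Lin_inv {a : ℤ} {f g : LaurentSeries ℤ} (hf : h11_Lin a f) (hg : h11_Big 0 g)
    (h : f * g = 1) : h11_Lin (-a) g := by
  have h0 := h11_coeff_mul_nat hf.1 hg 0
  rw [show Finset.HasAntidiagonal.antidiagonal 0 = {((0 : ℕ), (0 : ℕ))} from rfl,
    Finset.sum_singleton] at h0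
  simp only [Nat.cast_zero] at h0
  rw [h, HahnSeries.coeff_one, if_pos rfl, hf.2.1, one_mul] at h0
  have h1 := h11_coeff_mul_nat hf.1 hg 1
  rw [show Finset.HasAntidiagonal.antidiagonal 1 = {((0 : ℕ), (1 : ℕ)), ((1 : ℕ), (0 : ℕ))} from rfl,
    Finset.sum_pair (by decide)] at h1
  simp only [Nat.cast_zero, Nat.cast_one] at h1
  rw [h, HahnSeries.coeff_one, if_neg one_ne_zero, hf.2.1, hf.2.2, ← h0] at h1
  refine ⟨hg, h0.symm, ?_⟩
  linarith

theorem h11_Lin_sub {a : ℤ} {f g : LaurentSeries ℤ} (hf : h11_Lin a f) (hg : h11_Lin a g) :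
    h11_Big 2 (f - g) := by
  intro k hk
  rw [HahnSeries.coeff_sub]
  rcases lt_or_ge k 0 with h0 | h0
  · rw [hf.1 k h0, hg.1 k h0, sub_zero]
  · obtain rfl | rfl : k = 0 ∨ k = 1 := by omega
    · rw [hf.2.1, hg.2.1, sub_self]
    · rw [hf.2.2, hg.2.2, sub_self]

theorem h11_Big_C (c : ℤ) : h11_Big 0 (HahnSeries.C c : LaurentSeries ℤ) := by
  intro k hk
  rw [HahnSeries.C_apply, HahnSeries.coeff_single_of_ne (ne_of_lt hk)]

theorem h11_coeff_C_mul (c : ℤ) (f : LaurentSeries ℤ) (k : ℤ) :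
    (HahnSeries.C c * f).coeff k = c * f.coeff k := by
  rw [HahnSeries.C_mul_eq_smul, HahnSeries.coeff_smul, smul_eq_mul]

theorem h11_Lin_add_single {a : ℤ} {f W : LaurentSeries ℤ} (hf : h11_Lin a f)
    (hW : h11_Big 0 W) (c : ℤ) :
    h11_Lin (a + c * W.coeff 0)
      (f + HahnSeries.C c * (HahnSeries.single (1 : ℤ) (1 : ℤ) * W)) := by
  have hg : h11_Big 1 (HahnSeries.C c * (HahnSeries.single (1 : ℤ) (1 : ℤ) * W)) := by
    have h := h11_Big_mul (h11_Big_C c) (h11_Big_mul (h11_Big_single 1 1) hW)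
    norm_num at h
    exact h
  have h1 : (HahnSeries.C c * (HahnSeries.single (1 : ℤ) (1 : ℤ) * W)).coeff 1 = c * W.coeff 0 := by
    rw [h11_coeff_C_mul]
    have h := HahnSeries.coeff_single_mul_add (r := (1 : ℤ)) (x := W) (a := (0 : ℤ)) (b := (1 : ℤ))
    rw [zero_add, one_mul] at h
    rw [h]
  have h := h11_Lin_add hf hg
  rwa [h1] at h

theorem h11_C_mul_cancel {c : ℤ} (hc : c ≠ 0) {f g : LaurentSeries ℤ}
    (h : HahnSeries.C c * f = HahnSeries.C c * g) : f = g := by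
  ext k
  have hk := congrArg (fun x : LaurentSeries ℤ => x.coeff k) h
  simp only [h11_coeff_C_mul] at hk
  exact mul_left_cancel₀ hc hk

/-! ### the basic series -/

theorem h11_coeff_zero_one_add (c : ℤ) (Q : PowerSeries ℤ) :
    PowerSeries.coeff 0 (1 + PowerSeries.X * (PowerSeries.C c + PowerSeries.X * Q)) = 1 := by
  rw [map_add, PowerSeries.coeff_zero_X_mul, add_zero, PowerSeries.coeff_one, if_pos rfl]

theorem h11_coeff_one_one_add (c : ℤ) (Q : PowerSeries ℤ) :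
    PowerSeries.coeff 1 (1 + PowerSeries.X * (PowerSeries.C c + PowerSeries.X * Q)) = c := by
  rw [map_add, PowerSeries.coeff_one, if_neg one_ne_zero, zero_add,
    show (1 : ℕ) = 0 + 1 from rfl, PowerSeries.coeff_succ_X_mul, map_add,
    PowerSeries.coeff_zero_X_mul, add_zero, PowerSeries.coeff_zero_C]

theorem h11_Lin_jNum
    (hJ : ∃ S : PowerSeries ℤ,
      jNum = 1 + 744 * PowerSeries.X + 196884 * PowerSeries.X ^ 2 + PowerSeries.X ^ 3 * S) :
    h11_Lin 744 (HahnSeries.ofPowerSeries ℤ ℤ (jNum.map (Int.castRingHom ℤ))) := by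
  obtain ⟨S, hS⟩ := hJ
  have e : jNum = 1 + PowerSeries.X * (PowerSeries.C (744 : ℤ) + PowerSeries.X *
      (PowerSeries.C (196884 : ℤ) + PowerSeries.X * S)) := by
    rw [hS, show (PowerSeries.C (744 : ℤ) : PowerSeries ℤ) = 744 from map_ofNat _ 744,
      show (PowerSeries.C (196884 : ℤ) : PowerSeries ℤ) = 196884 from map_ofNat _ 196884]
    ring
  apply h11_Lin_ofPowerSeries
  · rw [PowerSeries.coeff_map, e, h11_coeff_zero_one_add, map_one]
  · rw [PowerSeries.coeff_map, e, h11_coeff_one_one_add]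
    rfl

theorem h11_Lin_eta
    (hE : ∃ S : PowerSeries ℤ, etaProd =
      (∏ n ∈ Finset.range 1, (1 - PowerSeries.X ^ (n + 1))) + PowerSeries.X ^ (1 + 1) * S) :
    h11_Lin (-24) (HahnSeries.ofPowerSeries ℤ ℤ (dedekindEtaUnit.map (Int.castRingHom ℤ))) := by
  obtain ⟨S, hS⟩ := hE
  have e : etaProd = 1 + PowerSeries.X * (PowerSeries.C (-1 : ℤ) + PowerSeries.X * S) := by
    rw [hS, Finset.prod_range_one, show (PowerSeries.C (-1 : ℤ) : PowerSeries ℤ) = -1 by simp]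
    ring
  have h1 : h11_Lin (-1) (HahnSeries.ofPowerSeries ℤ ℤ (etaProd.map (Int.castRingHom ℤ))) := by
    apply h11_Lin_ofPowerSeries
    · rw [PowerSeries.coeff_map, e, h11_coeff_zero_one_add, map_one]
    · rw [PowerSeries.coeff_map, e, h11_coeff_one_one_add]
      rfl
  have e2 : HahnSeries.ofPowerSeries ℤ ℤ (dedekindEtaUnit.map (Int.castRingHom ℤ)) =
      (HahnSeries.ofPowerSeries ℤ ℤ (etaProd.map (Int.castRingHom ℤ))) ^ 24 := by
    rw [dedekindEtaUnit, map_pow, map_pow]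
  rw [e2]
  have h := h11_Lin_pow h1 24
  rwa [show ((24 : ℕ) : ℤ) * -1 = -24 by norm_num] at h

theorem h11_etaL_mul_inv :
    HahnSeries.ofPowerSeries ℤ ℤ (dedekindEtaUnit.map (Int.castRingHom ℤ)) *
      HahnSeries.ofPowerSeries ℤ ℤ (dedekindEtaUnitInv.map (Int.castRingHom ℤ)) = 1 := by
  rw [← map_mul, ← map_mul, dedekindEtaUnit_mul_inv, map_one, map_one]

/-! ### the coordinates of the product trick (verbatim copies of the skeleton definitions) -/

/-- the `q`-expansions at `∞` of the coordinates `X_d = j(q^d)`, `U_d = d^12 Δ(q^d)/Δ(q)` -/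
def h11_coordInf (p : ℕ) (R : Type) [CommRing R] (x : Coord p) : LaurentSeries R :=
  bif x.1 then ((x.2 : ℕ) : LaurentSeries R) ^ 12 * expand R x.2 (deltaHat R) * deltaHatInv R
  else expand R x.2 (jqModC R)

/-- the expansions at the cusp `0` (in `t = q^(1/p)`, `p` prime): `X_1 ↦ j(t^p)`, `X_p ↦ j(t)`,
`U_1 ↦ 1`, `U_p ↦ Δ(t)/Δ(t^p)`. -/
def h11_coordZero (p : ℕ) (R : Type) [CommRing R] (x : Coord p) : LaurentSeries R :=
  bif x.1 then (if (x.2 : ℕ) = 1 then 1 else deltaHat R * expand R p (deltaHatInv R))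
  else (if (x.2 : ℕ) = 1 then expand R p (jqModC R) else jqModC R)

/-- the polynomial `X₁ U₂ - (U₂ + 16)³` -/
def h11_y2 : MvPolynomial (Coord 2) ℤ :=
  MvPolynomial.X (false, ⟨1, one_dvd 2⟩) * MvPolynomial.X (true, ⟨2, dvd_rfl⟩)
    - (MvPolynomial.X (true, ⟨2, dvd_rfl⟩) + 16) ^ 3

theorem h11_aeval_inf_y2 :
    MvPolynomial.aeval (h11_coordInf 2 ℤ) h11_y2 =
      jqModC ℤ * (4096 * (expand ℤ 2 (deltaHat ℤ) * deltaHatInv ℤ))
        - (4096 * (expand ℤ 2 (deltaHat ℤ) * deltaHatInv ℤ) + 16) ^ 3 := by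
  have h1 : h11_coordInf 2 ℤ (false, ⟨1, one_dvd 2⟩) = jqModC ℤ := by
    show expand ℤ 1 (jqModC ℤ) = jqModC ℤ
    exact expand_one _
  have h2 : h11_coordInf 2 ℤ (true, ⟨2, dvd_rfl⟩) =
      4096 * (expand ℤ 2 (deltaHat ℤ) * deltaHatInv ℤ) := by
    show ((2 : ℕ) : LaurentSeries ℤ) ^ 12 * expand ℤ 2 (deltaHat ℤ) * deltaHatInv ℤ = _
    rw [Nat.cast_ofNat]
    ring
  rw [h11_y2, map_sub, map_mul, map_pow, map_add, MvPolynomial.aeval_X, MvPolynomial.aeval_X,
    h1, h2, map_ofNat]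

theorem h11_aeval_zero_y2 :
    MvPolynomial.aeval (h11_coordZero 2 ℤ) h11_y2 =
      expand ℤ 2 (jqModC ℤ) * h11_hm2 ℤ - (h11_hm2 ℤ + 16) ^ 3 := by
  have h1 : h11_coordZero 2 ℤ (false, ⟨1, one_dvd 2⟩) = expand ℤ 2 (jqModC ℤ) := rfl
  have h2 : h11_coordZero 2 ℤ (true, ⟨2, dvd_rfl⟩) = h11_hm2 ℤ := rfl
  rw [h11_y2, map_sub, map_mul, map_pow, map_add, MvPolynomial.aeval_X, MvPolynomial.aeval_X,
    h1, h2, map_ofNat]

/-! ### the relations -/

/-- **H2** `j h₂² = (h₂ + 256)³` and `j(q²) h₂ = (h₂ + 16)³`, from the product trick at `p = 2`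
(`hPT`) and the `q`-coefficients (`hJ`, `hE`). -/
theorem h11_hm2_rel
    (hPT : ∀ y : MvPolynomial (Coord 2) ℤ,
      (MvPolynomial.aeval (h11_coordInf 2 ℤ) y ≠ 0 →
        MvPolynomial.aeval (h11_coordZero 2 ℤ) y ≠ 0 →
        0 < (MvPolynomial.aeval (h11_coordInf 2 ℤ) y).order
          + (MvPolynomial.aeval (h11_coordZero 2 ℤ) y).order) →
      MvPolynomial.aeval (h11_coordInf 2 ℤ) y = 0 ∧
        MvPolynomial.aeval (h11_coordZero 2 ℤ) y = 0)
    (hJ : ∃ S : PowerSeries ℤ,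
      jNum = 1 + 744 * PowerSeries.X + 196884 * PowerSeries.X ^ 2 + PowerSeries.X ^ 3 * S)
    (hE : ∃ S : PowerSeries ℤ, etaProd =
      (∏ n ∈ Finset.range 1, (1 - PowerSeries.X ^ (n + 1))) + PowerSeries.X ^ (1 + 1) * S) :
    jqModC ℤ * h11_hm2 ℤ ^ 2 = (h11_hm2 ℤ + 256) ^ 3 ∧
      expand ℤ 2 (jqModC ℤ) * h11_hm2 ℤ = (h11_hm2 ℤ + 16) ^ 3 := by
  -- notation
  set q : LaurentSeries ℤ := HahnSeries.single (1 : ℤ) (1 : ℤ) with hq
  set qi : LaurentSeries ℤ := HahnSeries.single (-1 : ℤ) (1 : ℤ) with hqi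
  set A : LaurentSeries ℤ := HahnSeries.ofPowerSeries ℤ ℤ (jNum.map (Int.castRingHom ℤ)) with hA
  set EL : LaurentSeries ℤ :=
    HahnSeries.ofPowerSeries ℤ ℤ (dedekindEtaUnit.map (Int.castRingHom ℤ)) with hEL
  set EiL : LaurentSeries ℤ :=
    HahnSeries.ofPowerSeries ℤ ℤ (dedekindEtaUnitInv.map (Int.castRingHom ℤ)) with hEiL
  have hJq : jqModC ℤ = qi * A := rfl
  have hD : deltaHat ℤ = q * EL := rfl
  have hDi : deltaHatInv ℤ = qi * EiL := rfl
  have hqq : qi * q = 1 := by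
    rw [hq, hqi, HahnSeries.single_mul_single, mul_one]
    rfl
  have e2q : expand ℤ 2 q = q * q := by
    rw [hq, expand_single 2 (by norm_num), HahnSeries.single_mul_single, mul_one]
    rfl
  have e2qi : expand ℤ 2 qi = qi * qi := by
    rw [hqi, expand_single 2 (by norm_num), HahnSeries.single_mul_single, mul_one]
    rfl
  -- linear parts
  have lA : h11_Lin 744 A := h11_Lin_jNum hJ
  have lEL : h11_Lin (-24) EL := h11_Lin_eta hE
  have lEiL : h11_Lin 24 EiL := by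
    have h := h11_Lin_inv lEL (h11_Big_ofPowerSeries _) h11_etaL_mul_inv
    rwa [neg_neg] at h
  set W : LaurentSeries ℤ := expand ℤ 2 EL * EiL with hW
  set H : LaurentSeries ℤ := EL * expand ℤ 2 EiL with hH
  set A₂ : LaurentSeries ℤ := expand ℤ 2 A with hA₂
  have lW : h11_Lin 24 W := by
    have h := h11_Lin_mul (h11_Lin_expand lEL) lEiL
    rwa [zero_add] at h
  have lH : h11_Lin (-24) H := by
    have h := h11_Lin_mul lEL (h11_Lin_expand lEiL)
    rwa [add_zero] at h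
  have lA₂ : h11_Lin 0 A₂ := h11_Lin_expand lA
  -- the two Hauptmodul series
  have hh2 : h11_hm2 ℤ = qi * H := by
    rw [h11_hm2, hD, hDi, map_mul, e2qi]
    linear_combination (qi * EL * expand ℤ 2 EiL) * hqq
  have hh2inv : expand ℤ 2 (deltaHat ℤ) * deltaHatInv ℤ = q * W := by
    rw [hD, hDi, map_mul, e2q]
    linear_combination (q * expand ℤ 2 EL * EiL) * hqq
  have hinv : h11_hm2 ℤ * (expand ℤ 2 (deltaHat ℤ) * deltaHatInv ℤ) = 1 := by
    rw [h11_hm2]
    have h1 : deltaHat ℤ * expand ℤ 2 (deltaHatInv ℤ) * (expand ℤ 2 (deltaHat ℤ) * deltaHatInv ℤ)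
        = (deltaHat ℤ * deltaHatInv ℤ) * expand ℤ 2 (deltaHatInv ℤ * deltaHat ℤ) := by
      rw [map_mul]; ring
    rw [h1, deltaHat_mul_deltaHatInv, deltaHatInv_mul_deltaHat, map_one, one_mul]
  have e2J : expand ℤ 2 (jqModC ℤ) = qi * qi * A₂ := by
    rw [hJq, map_mul, e2qi]
  -- numerals as constants
  have c4096 : (HahnSeries.C (4096 : ℤ) : LaurentSeries ℤ) = 4096 := map_ofNat _ 4096
  have c256 : (HahnSeries.C (256 : ℤ) : LaurentSeries ℤ) = 256 := map_ofNat _ 256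
  have c16 : (HahnSeries.C (16 : ℤ) : LaurentSeries ℤ) = 16 := map_ofNat _ 16
  -- order at infinity
  have bInf : h11_Big 2 (MvPolynomial.aeval (h11_coordInf 2 ℤ) h11_y2) := by
    have lT : h11_Lin 256 (1 + HahnSeries.C (256 : ℤ) * (q * W)) := by
      have h := h11_Lin_add_single h11_Lin_one lW.1 256
      rwa [lW.2.1, zero_add, mul_one] at h
    have lT3 : h11_Lin 768 ((1 + HahnSeries.C (256 : ℤ) * (q * W)) ^ 3) := by
      have h := h11_Lin_pow lT 3
      rwa [show ((3 : ℕ) : ℤ) * 256 = 768 by norm_num] at h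
    have lAW : h11_Lin 768 (A * W) := by
      have h := h11_Lin_mul lA lW
      rwa [show (744 : ℤ) + 24 = 768 by norm_num] at h
    have hb := h11_Big_mul (h11_Big_C 4096) (h11_Lin_sub lAW lT3)
    rw [zero_add] at hb
    have e : MvPolynomial.aeval (h11_coordInf 2 ℤ) h11_y2 =
        HahnSeries.C (4096 : ℤ) * (A * W - (1 + HahnSeries.C (256 : ℤ) * (q * W)) ^ 3) := by
      rw [h11_aeval_inf_y2, hh2inv, hJq, c4096, c256]
      linear_combination (4096 * A * W) * hqq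
    rw [e]
    exact hb
  -- order at zero
  have bZero : h11_Big (-1) (MvPolynomial.aeval (h11_coordZero 2 ℤ) h11_y2) := by
    have lT : h11_Lin (-8) (H + HahnSeries.C (16 : ℤ) * (q * 1)) := by
      have h := h11_Lin_add_single lH h11_Lin_one.1 16
      rwa [h11_Lin_one.2.1, show (-24 : ℤ) + 16 * 1 = -8 by norm_num] at h
    have lT3 : h11_Lin (-24) ((H + HahnSeries.C (16 : ℤ) * (q * 1)) ^ 3) := by
      have h := h11_Lin_pow lT 3
      rwa [show ((3 : ℕ) : ℤ) * -8 = -24 by norm_num] at h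
    have lAH : h11_Lin (-24) (A₂ * H) := by
      have h := h11_Lin_mul lA₂ lH
      rwa [zero_add] at h
    have bqi : h11_Big (-1) qi := h11_Big_single (-1) 1
    have hb := h11_Big_mul (h11_Big_mul (h11_Big_mul bqi bqi) bqi) (h11_Lin_sub lAH lT3)
    rw [show (-1 : ℤ) + -1 + -1 + 2 = -1 by norm_num] at hb
    have e : MvPolynomial.aeval (h11_coordZero 2 ℤ) h11_y2 =
        qi * qi * qi * (A₂ * H - (H + HahnSeries.C (16 : ℤ) * (q * 1)) ^ 3) := by
      rw [h11_aeval_zero_y2, hh2, e2J, c16]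
      linear_combination (16 * ((qi * H + 16) ^ 2 + (qi * H + 16) * (qi * H + 16 * (qi * q))
        + (qi * H + 16 * (qi * q)) ^ 2)) * hqq
    rw [e]
    exact hb
  -- the product trick
  obtain ⟨hI0, hZ0⟩ := hPT h11_y2 (fun hI hZ => by
    have h1 := h11_Big_order bInf hI
    have h2 := h11_Big_order bZero hZ
    omega)
  refine ⟨?_, ?_⟩
  · rw [h11_aeval_inf_y2, sub_eq_zero] at hI0
    set x := h11_hm2 ℤ with hx
    set z := expand ℤ 2 (deltaHat ℤ) * deltaHatInv ℤ with hz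
    have e1 : x * (4096 * z + 16) = 4096 + 16 * x := by linear_combination 4096 * hinv
    have e2 : x ^ 3 * (jqModC ℤ * (4096 * z)) = 4096 * (jqModC ℤ * x ^ 2) := by
      linear_combination (4096 * jqModC ℤ * x ^ 2) * hinv
    have e3 : (4096 : LaurentSeries ℤ) * (jqModC ℤ * x ^ 2) = 4096 * (x + 256) ^ 3 := by
      rw [← e2, hI0, ← mul_pow, e1]
      ring
    rw [← c4096] at e3
    exact h11_C_mul_cancel (by norm_num) e3
  · rw [h11_aeval_zero_y2, sub_eq_zero] at hZ0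
    exact hZ0

end Fermat.Agent.S18
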