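import Mathlib
import Fermat.Agent.S18.h75_RRDefs
import Fermat.Agent.S18.h17_HoloCore

/-!
# S18 / RR-B9: differentials versus the different (D1 any characteristic, D2 characteristic 0)

`h75_Omega x 0 = {φ | Tr(φ M_x(0)) ⊆ K[x], x² Tr(φ M_{1/x}(0)) ⊆ K[x⁻¹]}` against the
order conditions `ord_P φ ≥ 1 - e_P` (finite places) and `ord_P φ ≥ 1 + e_P` (poles of `x`).
-/

set_option autoImplicit false

open AlgebraicCurve IntermediateField

namespace Fermat.Agent.S18

open Fermat.Agent.S24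

section Holo

variable {K F : Type*} [Field K] [Field F] [Algebra K F]

/-- The order conditions for `x² φ` on the chart `x⁻¹`, from those for `φ`. -/
theorem h17_holo_inv {x : F} (hx0 : x ≠ 0) (φ : F) (P : Place K F)
    (h : (∀ a : K, 0 < P.ord (x - algebraMap K F a) →
        φ = 0 ∨ 1 - P.ord (x - algebraMap K F a) ≤ P.ord φ) ∧
      (P.ord x < 0 → φ = 0 ∨ 1 - P.ord x ≤ P.ord φ))
    (a' : K) (hpos : 0 < P.ord (x⁻¹ - algebraMap K F a')) :
    x ^ 2 * φ = 0 ∨ 1 - P.ord (x⁻¹ - algebraMap K F a') ≤ P.ord (x ^ 2 * φ) := by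
  by_cases hφ : φ = 0
  · left
    rw [hφ, mul_zero]
  right
  have hord : P.ord (x ^ 2 * φ) = 2 * P.ord x + P.ord φ := by
    rw [pow_two, mul_assoc, P.ord_mul hx0 (mul_ne_zero hx0 hφ), P.ord_mul hx0 hφ]
    ring
  rw [hord]
  by_cases ha : a' = 0
  · subst ha
    rw [map_zero, sub_zero, P.ord_inv] at hpos ⊢
    have h1 := (h.2 (by omega)).resolve_left hφ
    omega
  · have hinv0 : 0 ≤ P.ord x⁻¹ := h24_fibre_not_pole P x⁻¹ a' hpos
    have hinv1 : ¬ 0 < P.ord x⁻¹ := by
      intro h0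
      have h0' : 0 < P.ord (x⁻¹ - algebraMap K F 0) := by
        rwa [map_zero, sub_zero]
      exact ha (h24_fibre_disjoint P x⁻¹ a' 0 hpos h0')
    have hx : P.ord x = 0 := by
      rw [P.ord_inv] at hinv0 hinv1
      omega
    have ha'F : algebraMap K F a' ≠ 0 := by simpa using ha
    have hne : x⁻¹ - algebraMap K F a' ≠ 0 := by
      intro h0
      rw [h0] at hpos
      simp at hpos
    have hfac : x⁻¹ - algebraMap K F a' =
        (x - algebraMap K F a'⁻¹) * (algebraMap K F (-a') * x⁻¹) := by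
      rw [map_inv₀, map_neg]
      field_simp
      ring
    have hne2 : x - algebraMap K F a'⁻¹ ≠ 0 := by
      intro h0
      rw [hfac, h0, zero_mul] at hne
      exact hne rfl
    have hc : algebraMap K F (-a') ≠ 0 := by simpa using ha
    have hord2 : P.ord (x⁻¹ - algebraMap K F a') = P.ord (x - algebraMap K F a'⁻¹) := by
      rw [hfac, P.ord_mul hne2 (mul_ne_zero hc (inv_ne_zero hx0)),
        P.ord_mul hc (inv_ne_zero hx0), h24_ord_algebraMap, P.ord_inv, hx]
      ring
    rw [hord2] at hpos ⊢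
    have h1 := (h.1 a'⁻¹ hpos).resolve_left hφ
    omega

variable [IsAlgClosed K]

/-- (D1) any characteristic: `e - 1`-bounded poles give differentials. -/
theorem h17_mem_Omega_of_holo {x : F} (hx : h75_IsChart K x) (φ : F)
    (h : ∀ P : Place K F,
      (∀ a : K, 0 < P.ord (x - algebraMap K F a) →
        φ = 0 ∨ 1 - P.ord (x - algebraMap K F a) ≤ P.ord φ) ∧
      (P.ord x < 0 → φ = 0 ∨ 1 - P.ord x ≤ P.ord φ)) :
    φ ∈ h75_Omega x (0 : Divisor K F) := by
  refine ⟨fun m hm => ?_, fun l hl => ?_⟩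
  · rw [h17_mem_poly_iff]
    exact h17_trace_mem_of_holo hx φ (fun P a hpos => (h P).1 a hpos) m hm
  · rw [h17_mem_polyInv_iff, ← h17_trace_inv_chart]
    exact h17_trace_mem_of_holo (h17_isChart_inv hx) (x ^ 2 * φ)
      (fun P a' hpos => h17_holo_inv hx.ne_zero φ P (h P) a' hpos) l hl

omit [IsAlgClosed K] in
/-- (D2) characteristic zero: the converse (tame different). -/
theorem h17_holo_of_mem_Omega [CharZero K] {x : F} (hx : h75_IsChart K x) (φ : F)
    (hφ : φ ∈ h75_Omega x (0 : Divisor K F)) (P : Place K F) :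
      (∀ a : K, 0 < P.ord (x - algebraMap K F a) →
        φ = 0 ∨ 1 - P.ord (x - algebraMap K F a) ≤ P.ord φ) ∧
      (P.ord x < 0 → φ = 0 ∨ 1 - P.ord x ≤ P.ord φ) := by
  obtain ⟨h1, h2⟩ := hφ
  have hx0 := hx.ne_zero
  constructor
  · intro a hpos
    exact h17_holo_of_trace_mem hx φ (fun m hm => (h17_mem_poly_iff x _).mp (h1 m hm)) P a hpos
  · intro hneg
    by_cases hφ0 : φ = 0
    · exact Or.inl hφ0
    right
    have hpos : 0 < P.ord (x⁻¹ - algebraMap K F 0) := by
      rw [map_zero, sub_zero, P.ord_inv]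
      omega
    have key := h17_holo_of_trace_mem (h17_isChart_inv hx) (x ^ 2 * φ)
      (fun l hl => by
        rw [h17_trace_inv_chart]
        exact (h17_mem_polyInv_iff x _).mp (h2 l hl)) P 0 hpos
    have key2 := key.resolve_left (mul_ne_zero (pow_ne_zero 2 hx0) hφ0)
    have hord : P.ord (x ^ 2 * φ) = 2 * P.ord x + P.ord φ := by
      rw [pow_two, mul_assoc, P.ord_mul hx0 (mul_ne_zero hx0 hφ0), P.ord_mul hx0 hφ0]
      ring
    rw [hord, map_zero, sub_zero, P.ord_inv] at key2
    omega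

end Holo

end Fermat.Agent.S18
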