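import Mathlib
import Fermat.Prelude.Def_FLTPrelim_Ramification

set_option autoImplicit false

/-!
# `A ∩ K₁` is discrete for a number field `K₁` (valuation form)

`L` a field of characteristic zero, `A` a valuation subring lying over the prime `ℓ`,
`K₁ ⊆ L` a finite extension of `ℚ`.  Then the values `A.valuation x`, `x ∈ K₁ˣ`, form an
infinite cyclic group: there is a uniformizer, and every subset of `K₁` with bounded
denominators has an element of largest value.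
-/

namespace Fermat.Agent.S18

section

variable {L : Type*} [Field L] [Algebra ℚ L] (A : ValuationSubring L) (ℓ : ℕ) [Fact ℓ.Prime]

theorem h19_val_ell_lt_one (hA : A.LiesOverPrime ℓ) : A.valuation (ℓ : L) < 1 :=
  A.mem_nonunits_iff.1 hA

include ℓ in
theorem h19_val_ell_ne_zero : A.valuation (ℓ : L) ≠ 0 := by
  have := algebraRat.charZero L
  rw [Ne, Valuation.zero_iff]
  exact_mod_cast (Fact.out : ℓ.Prime).ne_zero

theorem h19_val_ell_pos : 0 < A.valuation (ℓ : L) :=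
  lt_of_le_of_ne zero_le (h19_val_ell_ne_zero A ℓ).symm

/-- Natural numbers prime to `ℓ` have value one. -/
theorem h19_val_natCast_eq_one (hA : A.LiesOverPrime ℓ) (a : ℕ) (ha : ¬ ℓ ∣ a) :
    A.valuation (a : L) = 1 := by
  have hle : A.valuation (a : L) ≤ 1 := (A.valuation_le_one_iff _).2 (natCast_mem A a)
  rcases hle.lt_or_eq with hlt | heq
  · exfalso
    have hcop : Nat.Coprime ℓ a := (Nat.Prime.coprime_iff_not_dvd Fact.out).2 ha
    have e : (1 : L) = (ℓ : L) * ((Nat.gcdA ℓ a : ℤ) : L) + (a : L) * ((Nat.gcdB ℓ a : ℤ) : L) := by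
      have h := Nat.gcd_eq_gcd_ab ℓ a
      rw [hcop] at h
      have h' := congrArg (Int.cast : ℤ → L) h
      push_cast at h'
      exact h'
    have h1 : A.valuation (1 : L) < 1 := by
      rw [e]
      refine Valuation.map_add_lt _ ?_ ?_
      · rw [map_mul]
        exact mul_lt_of_lt_of_le_one (h19_val_ell_lt_one A ℓ hA)
          ((A.valuation_le_one_iff _).2 (intCast_mem A _))
      · rw [map_mul]
        exact mul_lt_of_lt_of_le_one hlt ((A.valuation_le_one_iff _).2 (intCast_mem A _))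
    rw [map_one] at h1
    exact lt_irrefl _ h1
  · exact heq

/-- The value of a nonzero natural number is a power of the value of `ℓ`. -/
theorem h19_val_natCast (hA : A.LiesOverPrime ℓ) (a : ℕ) (ha : a ≠ 0) :
    ∃ e : ℕ, A.valuation (a : L) = A.valuation (ℓ : L) ^ e := by
  obtain ⟨e, a', ha', rfl⟩ :=
    Nat.exists_eq_pow_mul_and_not_dvd ha ℓ (Fact.out : ℓ.Prime).ne_one
  refine ⟨e, ?_⟩
  rw [Nat.cast_mul, Nat.cast_pow, map_mul, map_pow, h19_val_natCast_eq_one A ℓ hA a' ha', mul_one]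

/-- The value of a nonzero rational number is an integral power of the value of `ℓ`. -/
theorem h19_val_rat (hA : A.LiesOverPrime ℓ) (c : ℚ) (hc : c ≠ 0) :
    ∃ t : ℤ, A.valuation (algebraMap ℚ L c) = A.valuation (ℓ : L) ^ t := by
  obtain ⟨e1, h1⟩ := h19_val_natCast A ℓ hA c.num.natAbs
    (Int.natAbs_ne_zero.2 (Rat.num_ne_zero.2 hc))
  obtain ⟨e2, h2⟩ := h19_val_natCast A ℓ hA c.den c.den_ne_zero
  refine ⟨(e1 : ℤ) - e2, ?_⟩
  have hnum : A.valuation ((c.num : ℤ) : L) = A.valuation ((c.num.natAbs : ℕ) : L) := by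
    rcases Int.natAbs_eq c.num with h | h
    · conv_lhs => rw [h]
      rw [Int.cast_natCast]
    · conv_lhs => rw [h]
      rw [Int.cast_neg, Int.cast_natCast, Valuation.map_neg]
  have hc' : algebraMap ℚ L c = (c.num : L) / (c.den : L) := by
    conv_lhs => rw [← Rat.num_div_den c]
    rw [map_div₀, map_intCast, map_natCast]
  rw [hc', map_div₀, hnum, h1, h2, zpow_sub₀ (h19_val_ell_ne_zero A ℓ), zpow_natCast,
    zpow_natCast]

theorem h19_val_pow_aux (hA : A.LiesOverPrime ℓ) (x : L) (hx0 : x ≠ 0) (a b : ℕ)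
    (hab : a < b) (c₁ c₂ : ℚ) (h1 : c₁ ≠ 0) (h2 : c₂ ≠ 0)
    (h : A.valuation (algebraMap ℚ L c₁ * x ^ a) = A.valuation (algebraMap ℚ L c₂ * x ^ b)) :
    ∃ t : ℤ, A.valuation x ^ (b - a) = A.valuation (ℓ : L) ^ t := by
  obtain ⟨t, ht⟩ := h19_val_rat A ℓ hA (c₁ / c₂) (div_ne_zero h1 h2)
  refine ⟨t, ?_⟩
  rw [← ht, map_div₀, map_div₀]
  have hvx : A.valuation x ≠ 0 := (Valuation.ne_zero_iff _).2 hx0
  have hv2 : A.valuation (algebraMap ℚ L c₂) ≠ 0 :=
    (Valuation.ne_zero_iff _).2 ((map_ne_zero _).2 h2)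
  rw [map_mul, map_mul, map_pow, map_pow] at h
  rw [eq_div_iff hv2]
  have hb : b = (b - a) + a := by omega
  rw [hb, pow_add] at h
  have hxa : A.valuation x ^ a ≠ 0 := pow_ne_zero _ hvx
  have h' : A.valuation (algebraMap ℚ L c₁) * A.valuation x ^ a =
      (A.valuation (algebraMap ℚ L c₂) * A.valuation x ^ (b - a)) * A.valuation x ^ a := by
    rw [h, mul_assoc]
  have h'' := mul_right_cancel₀ hxa h'
  rw [h'', mul_comm]

variable (K1 : IntermediateField ℚ L) [FiniteDimensional ℚ K1]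

/-- Fundamental inequality, elementwise: some power `x ^ j`, `1 ≤ j ≤ [K₁ : ℚ]`, of an element
of `K₁ˣ` has the value of a power of `ℓ`. -/
theorem h19_val_pow_mem (hA : A.LiesOverPrime ℓ) (x : L) (hx : x ∈ K1) (hx0 : x ≠ 0) :
    ∃ j : ℕ, 0 < j ∧ j ≤ Module.finrank ℚ K1 ∧
      ∃ t : ℤ, A.valuation x ^ j = A.valuation (ℓ : L) ^ t := by
  classical
  set n := Module.finrank ℚ K1 with hn
  have hdep : ¬ LinearIndependent ℚ (fun i : Fin (n + 1) => (⟨x, hx⟩ : K1) ^ (i : ℕ)) := by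
    intro hli
    have h := hli.fintype_card_le_finrank
    rw [Fintype.card_fin] at h
    omega
  obtain ⟨g, hg, i₁, hi₁⟩ := Fintype.not_linearIndependent_iff.1 hdep
  have hsum : ∑ i : Fin (n + 1), algebraMap ℚ L (g i) * x ^ (i : ℕ) = 0 := by
    have h := congrArg (fun y : K1 => (y : L)) hg
    simp only [IntermediateField.coe_sum, IntermediateField.coe_smul, IntermediateField.coe_pow,
      IntermediateField.coe_zero, Algebra.smul_def] at h
    exact h
  set T : Fin (n + 1) → L := fun i => algebraMap ℚ L (g i) * x ^ (i : ℕ) with hT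
  obtain ⟨i₀, -, hmax⟩ := Finset.exists_max_image Finset.univ (fun i => A.valuation (T i))
    ⟨i₁, Finset.mem_univ _⟩
  have hTne : ∀ i, g i ≠ 0 → A.valuation (T i) ≠ 0 := fun i hi =>
    (Valuation.ne_zero_iff _).2 (mul_ne_zero ((map_ne_zero _).2 hi) (pow_ne_zero _ hx0))
  have hTz : ∀ i, g i = 0 → A.valuation (T i) = 0 := fun i hi => by
    simp only [hT, hi, map_zero, zero_mul]
  have hT0 : A.valuation (T i₀) ≠ 0 := fun h =>
    hTne i₁ hi₁ (le_antisymm (h ▸ hmax i₁ (Finset.mem_univ _)) zero_le)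
  have hex : ∃ i₂, i₂ ≠ i₀ ∧ A.valuation (T i₂) = A.valuation (T i₀) := by
    by_contra hcon
    push Not at hcon
    have hlt : ∀ i ∈ Finset.univ.erase i₀, A.valuation (T i) < A.valuation (T i₀) := fun i hi =>
      lt_of_le_of_ne (hmax i (Finset.mem_univ _)) (hcon i (Finset.ne_of_mem_erase hi))
    have h1 : A.valuation (∑ i ∈ Finset.univ.erase i₀, T i) < A.valuation (T i₀) :=
      Valuation.map_sum_lt _ hT0 hlt
    have h2 : ∑ i ∈ Finset.univ.erase i₀, T i = - T i₀ := by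
      have h3 := Finset.add_sum_erase Finset.univ T (Finset.mem_univ i₀)
      rw [hsum] at h3
      linear_combination h3
    rw [h2, Valuation.map_neg] at h1
    exact lt_irrefl _ h1
  obtain ⟨i₂, hne, heq⟩ := hex
  have hg0 : g i₀ ≠ 0 := fun h => hT0 (hTz i₀ h)
  have hg2 : g i₂ ≠ 0 := fun h => hT0 (heq ▸ hTz i₂ h)
  have hne' : (i₀ : ℕ) ≠ (i₂ : ℕ) := fun h => hne (Fin.ext h).symm
  rcases lt_or_gt_of_ne hne' with hlt | hlt
  · obtain ⟨t, ht⟩ := h19_val_pow_aux A ℓ hA x hx0 i₀ i₂ hlt (g i₀) (g i₂) hg0 hg2 heq.symm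
    exact ⟨i₂ - i₀, by omega, by have := i₂.isLt; omega, t, ht⟩
  · obtain ⟨t, ht⟩ := h19_val_pow_aux A ℓ hA x hx0 i₂ i₀ hlt (g i₂) (g i₀) hg2 hg0 heq
    exact ⟨i₀ - i₂, by omega, by have := i₀.isLt; omega, t, ht⟩

/-- The `[K₁ : ℚ]!`-th power of the value of an element of `K₁ˣ` is an integral power of the
value of `ℓ`. -/
theorem h19_val_pow_factorial (hA : A.LiesOverPrime ℓ) (x : L) (hx : x ∈ K1) (hx0 : x ≠ 0) :
    ∃ m : ℤ, A.valuation x ^ (Module.finrank ℚ K1).factorial = A.valuation (ℓ : L) ^ m := by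
  obtain ⟨j, hj0, hjn, t, ht⟩ := h19_val_pow_mem A ℓ K1 hA x hx hx0
  obtain ⟨r, hr⟩ := Nat.dvd_factorial hj0 hjn
  refine ⟨t * r, ?_⟩
  rw [hr, pow_mul, ht, zpow_mul, zpow_natCast]

/-- (MIN) A subset of `K₁` with bounded denominators has an element of largest value. -/
theorem h19_exists_min (hA : A.LiesOverPrime ℓ) (S : Set L) (hS : ∀ x ∈ S, x ∈ K1)
    (hne : ∃ x ∈ S, x ≠ 0) (hbd : ∃ d ∈ K1, d ≠ 0 ∧ ∀ x ∈ S, d * x ∈ A) :
    ∃ x₀ ∈ S, x₀ ≠ 0 ∧ ∀ x ∈ S, x / x₀ ∈ A := by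
  set Nf := (Module.finrank ℚ K1).factorial with hNf
  have hNf0 : Nf ≠ 0 := Nat.factorial_ne_zero _
  set ϖ := A.valuation (ℓ : L) with hϖ
  have hϖ0 : 0 < ϖ := h19_val_ell_pos A ℓ
  have hϖ1 : ϖ < 1 := h19_val_ell_lt_one A ℓ hA
  obtain ⟨d, hdK, hd0, hd⟩ := hbd
  obtain ⟨md, hmd⟩ := h19_val_pow_factorial A ℓ K1 hA d hdK hd0
  let P : ℤ → Prop := fun m => ∃ x ∈ S, x ≠ 0 ∧ A.valuation x ^ Nf = ϖ ^ m
  have hbdd : ∃ b : ℤ, ∀ z : ℤ, P z → b ≤ z := by
    refine ⟨-md, ?_⟩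
    rintro z ⟨x, hxS, hx0, hxz⟩
    have h1 : A.valuation (d * x) ≤ 1 := (A.valuation_le_one_iff _).2 (hd x hxS)
    have h2 : A.valuation (d * x) ^ Nf ≤ 1 := pow_le_one₀ zero_le h1
    rw [map_mul, mul_pow, hmd, hxz, ← zpow_add₀ hϖ0.ne', ← zpow_zero ϖ,
      zpow_le_zpow_iff_right_of_lt_one₀ hϖ0 hϖ1] at h2
    omega
  have hinh : ∃ z : ℤ, P z := by
    obtain ⟨x, hxS, hx0⟩ := hne
    obtain ⟨m, hm⟩ := h19_val_pow_factorial A ℓ K1 hA x (hS x hxS) hx0
    exact ⟨m, x, hxS, hx0, hm⟩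
  obtain ⟨m₀, ⟨x₀, hx₀S, hx₀0, hx₀⟩, hleast⟩ := Int.exists_least_of_bdd hbdd hinh
  refine ⟨x₀, hx₀S, hx₀0, fun x hxS => ?_⟩
  by_cases hx0 : x = 0
  · rw [hx0, zero_div]
    exact A.zero_mem
  obtain ⟨m, hm⟩ := h19_val_pow_factorial A ℓ K1 hA x (hS x hxS) hx0
  have hmm : m₀ ≤ m := hleast m ⟨x, hxS, hx0, hm⟩
  have hle : A.valuation x ^ Nf ≤ A.valuation x₀ ^ Nf := by
    rw [hm, hx₀]
    exact (zpow_le_zpow_iff_right_of_lt_one₀ hϖ0 hϖ1).2 hmm
  have hle' : A.valuation x ≤ A.valuation x₀ :=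
    (pow_le_pow_iff_left₀ zero_le zero_le hNf0).1 hle
  rw [← A.valuation_le_one_iff, map_div₀]
  exact div_le_one_of_le₀ hle' zero_le

/-- (UNIF) `K₁` has a uniformizer for the valuation of `A`. -/
theorem h19_exists_uniformizer (hA : A.LiesOverPrime ℓ) :
    ∃ π ∈ K1, π ≠ 0 ∧ π ∈ A.nonunits ∧
      ∀ x ∈ K1, x ≠ 0 → ∃ t : ℤ, A.valuation x = A.valuation π ^ t := by
  classical
  have := algebraRat.charZero L
  set Nf := (Module.finrank ℚ K1).factorial with hNf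
  have hNf0 : Nf ≠ 0 := Nat.factorial_ne_zero _
  set ϖ := A.valuation (ℓ : L) with hϖ
  have hϖ0 : 0 < ϖ := h19_val_ell_pos A ℓ
  have hϖ1 : ϖ < 1 := h19_val_ell_lt_one A ℓ hA
  let P : ℕ → Prop := fun d => 0 < d ∧ ∃ x ∈ K1, x ≠ 0 ∧ A.valuation x ^ Nf = ϖ ^ (d : ℤ)
  have hP : ∃ d, P d := by
    refine ⟨Nf, Nat.pos_of_ne_zero hNf0, (ℓ : L), natCast_mem K1 ℓ, ?_, ?_⟩
    · exact_mod_cast (Fact.out : ℓ.Prime).ne_zero
    · rw [zpow_natCast]
  obtain ⟨hd0, π, hπK, hπ0, hπ⟩ := Nat.find_spec hP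
  set d := Nat.find hP with hd
  have hvπ0 : A.valuation π ≠ 0 := (Valuation.ne_zero_iff _).2 hπ0
  refine ⟨π, hπK, hπ0, ?_, fun x hxK hx0 => ?_⟩
  · rw [A.mem_nonunits_iff]
    by_contra hcon
    push Not at hcon
    have h1 : 1 ≤ A.valuation π ^ Nf := one_le_pow₀ hcon
    rw [hπ, ← zpow_zero ϖ, zpow_le_zpow_iff_right_of_lt_one₀ hϖ0 hϖ1] at h1
    omega
  · obtain ⟨m, hm⟩ := h19_val_pow_factorial A ℓ K1 hA x hxK hx0
    have hdpos : (0 : ℤ) < d := by exact_mod_cast hd0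
    set t := m / (d : ℤ) with ht
    set r := m % (d : ℤ) with hr
    have hr0 : 0 ≤ r := Int.emod_nonneg _ hdpos.ne'
    have hrd : r < d := Int.emod_lt_of_pos _ hdpos
    have hmtr : m = d * t + r := (Int.mul_ediv_add_emod m d).symm
    -- the element `y = x * π ^ (-t)`
    have hyK : x * π ^ (-t) ∈ K1 := K1.mul_mem hxK (zpow_mem hπK _)
    have hy0 : x * π ^ (-t) ≠ 0 := mul_ne_zero hx0 (zpow_ne_zero _ hπ0)
    have hy : A.valuation (x * π ^ (-t)) ^ Nf = ϖ ^ r := by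
      rw [map_mul, mul_pow, hm, map_zpow₀, ← zpow_natCast (A.valuation π ^ (-t)) Nf, ← zpow_mul,
        mul_comm (-t) (Nf : ℤ), zpow_mul, zpow_natCast, hπ, ← zpow_mul, ← zpow_add₀ hϖ0.ne']
      congr 1
      rw [hmtr]
      ring
    have hr_zero : r = 0 := by
      by_contra hrne
      have hrpos : 0 < r := lt_of_le_of_ne hr0 (Ne.symm hrne)
      have hP' : P r.toNat := by
        refine ⟨by omega, x * π ^ (-t), hyK, hy0, ?_⟩
        rw [hy, Int.toNat_of_nonneg hr0]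
      have := Nat.find_min' hP hP'
      omega
    refine ⟨t, ?_⟩
    have hfin : A.valuation x ^ Nf = (A.valuation π ^ t) ^ Nf := by
      rw [hm, hmtr, hr_zero, add_zero, zpow_mul, ← hπ, ← zpow_natCast (A.valuation π ^ t) Nf,
        ← zpow_mul, mul_comm t (Nf : ℤ), zpow_mul, zpow_natCast]
    exact (pow_left_inj₀ zero_le zero_le hNf0).1 hfin

/-- A finite subset of `K₁` has a common denominator in `K₁ ∩ A`. -/
theorem h19_exists_common_den (K1 : IntermediateField ℚ L) (G : Set L) (hG : G.Finite)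
    (hGK : ∀ g ∈ G, g ∈ K1) :
    ∃ d ∈ K1, d ≠ 0 ∧ d ∈ A ∧ ∀ g ∈ G, d * g ∈ A := by
  induction G, hG using Set.Finite.induction_on with
  | empty => exact ⟨1, K1.one_mem, one_ne_zero, A.one_mem, fun g hg => absurd hg (Set.notMem_empty g)⟩
  | @insert g G hg hfin ih =>
    obtain ⟨d, hdK, hd0, hdA, hd⟩ := ih fun x hx => hGK x (Set.mem_insert_of_mem _ hx)
    by_cases hgA : g ∈ A
    · refine ⟨d, hdK, hd0, hdA, fun x hx => ?_⟩
      rcases Set.mem_insert_iff.1 hx with rfl | hx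
      · exact A.mul_mem _ _ hdA hgA
      · exact hd x hx
    · have hg0 : g ≠ 0 := fun h => hgA (h ▸ A.zero_mem)
      have hginv : g⁻¹ ∈ A := (A.mem_or_inv_mem g).resolve_left hgA
      refine ⟨d * g⁻¹, K1.mul_mem hdK (K1.inv_mem (hGK g (Set.mem_insert _ _))),
        mul_ne_zero hd0 (inv_ne_zero hg0), A.mul_mem _ _ hdA hginv, fun x hx => ?_⟩
      rcases Set.mem_insert_iff.1 hx with rfl | hx
      · rw [inv_mul_cancel_right₀ hg0]
        exact hdA
      · have : d * g⁻¹ * x = g⁻¹ * (d * x) := by ring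
        rw [this]
        exact A.mul_mem _ _ hginv (hd x hx)

/-- (MIN-FG) A set of elements of the `ℤ`-span of finitely many algebraic numbers (e.g. the
coefficients of a series `∑ cᵢ sᵢ` with `sᵢ` integral series) has an element of largest value. -/
theorem h19_exists_min_of_span (hA : A.LiesOverPrime ℓ) (G : Set L) (hG : G.Finite)
    (halg : ∀ g ∈ G, IsAlgebraic ℚ g) (S : Set L)
    (hS : ∀ x ∈ S, x ∈ Submodule.span ℤ G) (hne : ∃ x ∈ S, x ≠ 0) :
    ∃ x₀ ∈ S, x₀ ≠ 0 ∧ ∀ x ∈ S, x / x₀ ∈ A := by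
  have : Finite G := hG
  have : FiniteDimensional ℚ (IntermediateField.adjoin ℚ G) :=
    IntermediateField.finiteDimensional_adjoin fun x hx => (halg x hx).isIntegral
  have hGK : ∀ g ∈ G, g ∈ IntermediateField.adjoin ℚ G := fun g hg =>
    IntermediateField.subset_adjoin ℚ G hg
  obtain ⟨d, hdK, hd0, -, hd⟩ := h19_exists_common_den A (IntermediateField.adjoin ℚ G) G hG hGK
  have hspanK : ∀ x ∈ Submodule.span ℤ G, x ∈ IntermediateField.adjoin ℚ G := by
    intro x hx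
    induction hx using Submodule.span_induction with
    | mem x hx => exact hGK x hx
    | zero => exact zero_mem _
    | add x y _ _ hx hy => exact add_mem hx hy
    | smul n x _ hx => exact zsmul_mem hx n
  have hspanA : ∀ x ∈ Submodule.span ℤ G, d * x ∈ A := by
    intro x hx
    induction hx using Submodule.span_induction with
    | mem x hx => exact hd x hx
    | zero => rw [mul_zero]; exact A.zero_mem
    | add x y _ _ hx hy => rw [mul_add]; exact A.add_mem _ _ hx hy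
    | smul n x _ hx => rw [mul_smul_comm]; exact zsmul_mem hx n
  exact h19_exists_min A ℓ (IntermediateField.adjoin ℚ G) hA S (fun x hx => hspanK x (hS x hx)) hne
    ⟨d, hdK, hd0, fun x hx => hspanA x (hS x hx)⟩

/-- (VG-shape) A nonzero Laurent series whose coefficients lie in the `ℤ`-span of finitely many
algebraic numbers can be rescaled to an `A`-integral series with some coefficient equal to `1`. -/
theorem h19_exists_primitive_scaling (hA : A.LiesOverPrime ℓ) (G : Set L) (hG : G.Finite)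
    (halg : ∀ g ∈ G, IsAlgebraic ℚ g) (y : LaurentSeries L) (hy : y ≠ 0)
    (hcoef : ∀ n, y.coeff n ∈ Submodule.span ℤ G) :
    ∃ c : L, c ≠ 0 ∧ (∀ n, c * y.coeff n ∈ A) ∧ ∃ n, c * y.coeff n = 1 := by
  have hne : ∃ x ∈ Set.range y.coeff, x ≠ 0 := by
    by_contra hcon
    push Not at hcon
    exact hy (HahnSeries.ext (funext fun n => hcon _ ⟨n, rfl⟩))
  obtain ⟨x₀, ⟨n₀, rfl⟩, hx₀, hmin⟩ := h19_exists_min_of_span A ℓ hA G hG halg (Set.range y.coeff)
    (by rintro x ⟨n, rfl⟩; exact hcoef n) hne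
  refine ⟨(y.coeff n₀)⁻¹, inv_ne_zero hx₀, fun n => ?_, n₀, inv_mul_cancel₀ hx₀⟩
  have := hmin _ ⟨n, rfl⟩
  rwa [div_eq_inv_mul] at this

end

/-- (VG-shape) for `AlgebraicClosure ℚ`: no algebraicity hypothesis. -/
theorem h19_exists_primitive_scaling_Qbar (A : ValuationSubring (AlgebraicClosure ℚ)) (ℓ : ℕ)
    [Fact ℓ.Prime] (hA : A.LiesOverPrime ℓ) (G : Set (AlgebraicClosure ℚ)) (hG : G.Finite)
    (y : LaurentSeries (AlgebraicClosure ℚ)) (hy : y ≠ 0)
    (hcoef : ∀ n, y.coeff n ∈ Submodule.span ℤ G) :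
    ∃ c : AlgebraicClosure ℚ, c ≠ 0 ∧ (∀ n, c * y.coeff n ∈ A) ∧ ∃ n, c * y.coeff n = 1 :=
  h19_exists_primitive_scaling A ℓ hA G hG
    (fun g _ => (AlgebraicClosure.isAlgebraic ℚ).isAlgebraic g) y hy hcoef

/-- (MIN-FG) for `AlgebraicClosure ℚ`. -/
theorem h19_exists_min_of_span_Qbar (A : ValuationSubring (AlgebraicClosure ℚ)) (ℓ : ℕ)
    [Fact ℓ.Prime] (hA : A.LiesOverPrime ℓ) (G : Set (AlgebraicClosure ℚ)) (hG : G.Finite)
    (S : Set (AlgebraicClosure ℚ)) (hS : ∀ x ∈ S, x ∈ Submodule.span ℤ G)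
    (hne : ∃ x ∈ S, x ≠ 0) :
    ∃ x₀ ∈ S, x₀ ≠ 0 ∧ ∀ x ∈ S, x / x₀ ∈ A :=
  h19_exists_min_of_span A ℓ hA G hG
    (fun g _ => (AlgebraicClosure.isAlgebraic ℚ).isAlgebraic g) S hS hne

end Fermat.Agent.S18
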