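import Mathlib
import Fermat.Prelude.Def_ModularCurve_LaurentCoeff
import Fermat.Agent.S18.Defs

/-!
# S18 / MOD-IG-C, abstract core: a reduction datum from primitive scaling

`K` a field, `A` a valuation subring with residue field `k`, `F ⊆ K((q))` and `Fb ⊆ k((q))`
intermediate fields.  Put

  `O := {f ∈ F | ∃ y₁ y₂ ∈ A((q)), ȳ₂ ≠ 0 ∧ f · y₂ = y₁}`,   `red f := ȳ₁ / ȳ₂`.

If every nonzero `f ∈ F` can be scaled by a constant so that `c f = y₁ / y₂` with `ȳ₁, ȳ₂ ≠ 0`
(`hsc`), the reductions land in `Fb` (`hland`) and exhaust `Fb` (`hsurj`), then `(A, O, res, red)`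
is a reduction datum `h39_RedDatum K F k Fb`, with the four characterising properties used by the
modular layer.
-/

set_option autoImplicit false
set_option synthInstance.maxHeartbeats 400000

noncomputable section

open ModularCurve IntermediateField

namespace Fermat.Agent.S18

section Abs

variable {K : Type*} [Field K] (A : ValuationSubring K)

/-- `coeffMap A.subtype` is injective. -/
theorem h19_coeffMap_subtype_injective :
    Function.Injective (coeffMap A.subtype : LaurentSeries A → LaurentSeries K) := by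
  intro x y h
  ext n
  have := congrArg (fun z : LaurentSeries K => z.coeff n) h
  simp only [coeffMap_coeff] at this
  exact this

/-- Cross-multiplication: two integral representations of the same `f` have proportional
reductions. -/
theorem h19_cross (f : LaurentSeries K) (y₁ y₂ z₁ z₂ : LaurentSeries A)
    (hy : f * coeffMap A.subtype y₂ = coeffMap A.subtype y₁)
    (hz : f * coeffMap A.subtype z₂ = coeffMap A.subtype z₁) :
    coeffMap (IsLocalRing.residue A) y₁ * coeffMap (IsLocalRing.residue A) z₂ =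
      coeffMap (IsLocalRing.residue A) y₂ * coeffMap (IsLocalRing.residue A) z₁ := by
  have h1 : coeffMap A.subtype (y₁ * z₂) = coeffMap A.subtype (y₂ * z₁) := by
    rw [map_mul, map_mul, ← hy, ← hz]
    ring
  have h2 := h19_coeffMap_subtype_injective A h1
  rw [← map_mul, ← map_mul, h2]

variable (F : IntermediateField K (LaurentSeries K))

/-- The membership predicate of the Gauss valuation ring. -/
abbrev h19_InO (f : LaurentSeries K) : Prop :=
  ∃ y₁ y₂ : LaurentSeries A, coeffMap (IsLocalRing.residue A) y₂ ≠ 0 ∧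
    f * coeffMap A.subtype y₂ = coeffMap A.subtype y₁

variable {A}

theorem h19_InO_zero : h19_InO A (0 : LaurentSeries K) :=
  ⟨0, 1, by rw [map_one]; exact one_ne_zero, by rw [zero_mul, map_zero]⟩

theorem h19_InO_one : h19_InO A (1 : LaurentSeries K) :=
  ⟨1, 1, by rw [map_one]; exact one_ne_zero, by rw [one_mul]⟩

theorem h19_InO_add {f g : LaurentSeries K} (hf : h19_InO A f) (hg : h19_InO A g) :
    h19_InO A (f + g) := by
  obtain ⟨y₁, y₂, hy, hfy⟩ := hf
  obtain ⟨z₁, z₂, hz, hgz⟩ := hg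
  refine ⟨y₁ * z₂ + z₁ * y₂, y₂ * z₂, ?_, ?_⟩
  · rw [map_mul]
    exact mul_ne_zero hy hz
  · rw [map_mul, map_add, map_mul, map_mul, ← hfy, ← hgz]
    ring

theorem h19_InO_mul {f g : LaurentSeries K} (hf : h19_InO A f) (hg : h19_InO A g) :
    h19_InO A (f * g) := by
  obtain ⟨y₁, y₂, hy, hfy⟩ := hf
  obtain ⟨z₁, z₂, hz, hgz⟩ := hg
  refine ⟨y₁ * z₁, y₂ * z₂, ?_, ?_⟩
  · rw [map_mul]
    exact mul_ne_zero hy hz
  · rw [map_mul, map_mul, ← hfy, ← hgz]
    ring

theorem h19_InO_neg {f : LaurentSeries K} (hf : h19_InO A f) : h19_InO A (-f) := by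
  obtain ⟨y₁, y₂, hy, hfy⟩ := hf
  exact ⟨-y₁, y₂, hy, by rw [map_neg, ← hfy, neg_mul]⟩

/-- constants of `A` are in `O`. -/
theorem h19_InO_const {a : K} (ha : a ∈ A) : h19_InO A (algebraMap K (LaurentSeries K) a) := by
  refine ⟨HahnSeries.single 0 (⟨a, ha⟩ : A), 1, by rw [map_one]; exact one_ne_zero, ?_⟩
  rw [map_one, mul_one, coeffMap_single, algebraMap_laurentSeries_eq_single]
  rfl

/-- The scaling hypothesis. -/
def h19_Scal (A : ValuationSubring K) (F : IntermediateField K (LaurentSeries K)) : Prop :=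
  ∀ f : F, f ≠ 0 → ∃ (c : K) (y₁ y₂ : LaurentSeries A), c ≠ 0 ∧
    coeffMap (IsLocalRing.residue A) y₁ ≠ 0 ∧ coeffMap (IsLocalRing.residue A) y₂ ≠ 0 ∧
    algebraMap K (LaurentSeries K) c * (f : LaurentSeries K) * coeffMap A.subtype y₂ =
      coeffMap A.subtype y₁

/-- multiplication of an integral series by a constant of `A`. -/
theorem h19_coeffMap_const_mul {a : K} (ha : a ∈ A) (y : LaurentSeries A) :
    coeffMap A.subtype (HahnSeries.single 0 (⟨a, ha⟩ : A) * y) =
      algebraMap K (LaurentSeries K) a * coeffMap A.subtype y := by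
  rw [map_mul, coeffMap_single, algebraMap_laurentSeries_eq_single]
  rfl

theorem h19_InO_or_inv (hsc : h19_Scal A F) (f : F) :
    h19_InO A (f : LaurentSeries K) ∨ h19_InO A ((f⁻¹ : F) : LaurentSeries K) := by
  by_cases hf : f = 0
  · left
    rw [hf]
    exact h19_InO_zero
  obtain ⟨c, y₁, y₂, hc, hy₁, hy₂, h⟩ := hsc f hf
  have hfK : (f : LaurentSeries K) ≠ 0 := fun h0 => hf (Subtype.ext h0)
  have hcK : algebraMap K (LaurentSeries K) c ≠ 0 := (map_ne_zero _).2 hc
  rcases A.mem_or_inv_mem c with hcA | hcA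
  · -- `f⁻¹ = c y₂ / y₁`
    right
    refine ⟨HahnSeries.single 0 (⟨c, hcA⟩ : A) * y₂, y₁, hy₁, ?_⟩
    rw [h19_coeffMap_const_mul, ← h]
    push_cast
    field_simp
  · -- `f = c⁻¹ y₁ / y₂`
    left
    refine ⟨HahnSeries.single 0 (⟨c⁻¹, hcA⟩ : A) * y₁, y₂, hy₂, ?_⟩
    rw [h19_coeffMap_const_mul, ← h, map_inv₀]
    field_simp

/-- The Gauss valuation ring of `F`. -/
def h19_O (hsc : h19_Scal A F) : ValuationSubring F where
  carrier := {f | h19_InO A (f : LaurentSeries K)}
  mul_mem' := fun {f g} hf hg => by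
    show h19_InO A ((f * g : F) : LaurentSeries K)
    push_cast
    exact h19_InO_mul hf hg
  one_mem' := by
    show h19_InO A ((1 : F) : LaurentSeries K)
    push_cast
    exact h19_InO_one
  add_mem' := fun {f g} hf hg => by
    show h19_InO A ((f + g : F) : LaurentSeries K)
    push_cast
    exact h19_InO_add hf hg
  zero_mem' := by
    show h19_InO A ((0 : F) : LaurentSeries K)
    push_cast
    exact h19_InO_zero
  neg_mem' := fun {f} hf => by
    show h19_InO A ((-f : F) : LaurentSeries K)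
    push_cast
    exact h19_InO_neg hf
  mem_or_inv_mem' := fun f => h19_InO_or_inv F hsc f

theorem h19_mem_O_iff (hsc : h19_Scal A F) (f : F) :
    f ∈ h19_O F hsc ↔ ∃ y₁ y₂ : LaurentSeries A, coeffMap (IsLocalRing.residue A) y₂ ≠ 0 ∧
      (f : LaurentSeries K) * coeffMap A.subtype y₂ = coeffMap A.subtype y₁ :=
  Iff.rfl

/-- The reduction of an element of `O`, as a series over the residue field. -/
def h19_redFun (f : LaurentSeries K) (hf : h19_InO A f) :
    LaurentSeries (IsLocalRing.ResidueField A) :=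
  coeffMap (IsLocalRing.residue A) hf.choose / coeffMap (IsLocalRing.residue A) hf.choose_spec.choose

/-- Characterisation of the reduction: it is compatible with every integral representation. -/
theorem h19_redFun_spec (f : LaurentSeries K) (hf : h19_InO A f) (z₁ z₂ : LaurentSeries A)
    (hz : f * coeffMap A.subtype z₂ = coeffMap A.subtype z₁) :
    h19_redFun f hf * coeffMap (IsLocalRing.residue A) z₂ = coeffMap (IsLocalRing.residue A) z₁ := by
  have hy₂ := hf.choose_spec.choose_spec.1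
  have hy := hf.choose_spec.choose_spec.2
  have hcross := h19_cross A f _ _ z₁ z₂ hy hz
  unfold h19_redFun
  rw [div_mul_eq_mul_div, hcross]
  exact mul_div_cancel_left₀ _ hy₂

/-- Uniqueness: the reduction is determined by one representation with `ȳ₂ ≠ 0`. -/
theorem h19_redFun_eq (f : LaurentSeries K) (hf : h19_InO A f) (z₁ z₂ : LaurentSeries A)
    (hz₂ : coeffMap (IsLocalRing.residue A) z₂ ≠ 0)
    (hz : f * coeffMap A.subtype z₂ = coeffMap A.subtype z₁)
    (g : LaurentSeries (IsLocalRing.ResidueField A))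
    (hg : g * coeffMap (IsLocalRing.residue A) z₂ = coeffMap (IsLocalRing.residue A) z₁) :
    h19_redFun f hf = g := by
  have := h19_redFun_spec f hf z₁ z₂ hz
  exact mul_right_cancel₀ hz₂ (this.trans hg.symm)

theorem h19_redFun_add (f g : LaurentSeries K) (hf : h19_InO A f) (hg : h19_InO A g)
    (hfg : h19_InO A (f + g)) :
    h19_redFun (f + g) hfg = h19_redFun f hf + h19_redFun g hg := by
  obtain ⟨y₁, y₂, hy, hfy⟩ := hf
  obtain ⟨z₁, z₂, hz, hgz⟩ := hg
  refine h19_redFun_eq (f + g) hfg (y₁ * z₂ + z₁ * y₂) (y₂ * z₂) ?_ ?_ _ ?_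
  · rw [map_mul]
    exact mul_ne_zero hy hz
  · rw [map_mul, map_add, map_mul, map_mul, ← hfy, ← hgz]
    ring
  · have h1 := h19_redFun_spec f ⟨y₁, y₂, hy, hfy⟩ y₁ y₂ hfy
    have h2 := h19_redFun_spec g ⟨z₁, z₂, hz, hgz⟩ z₁ z₂ hgz
    rw [map_mul, map_add, map_mul, map_mul, ← h1, ← h2]
    ring

theorem h19_redFun_mul (f g : LaurentSeries K) (hf : h19_InO A f) (hg : h19_InO A g)
    (hfg : h19_InO A (f * g)) :
    h19_redFun (f * g) hfg = h19_redFun f hf * h19_redFun g hg := by
  obtain ⟨y₁, y₂, hy, hfy⟩ := hf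
  obtain ⟨z₁, z₂, hz, hgz⟩ := hg
  refine h19_redFun_eq (f * g) hfg (y₁ * z₁) (y₂ * z₂) ?_ ?_ _ ?_
  · rw [map_mul]
    exact mul_ne_zero hy hz
  · rw [map_mul, map_mul, ← hfy, ← hgz]
    ring
  · have h1 := h19_redFun_spec f ⟨y₁, y₂, hy, hfy⟩ y₁ y₂ hfy
    have h2 := h19_redFun_spec g ⟨z₁, z₂, hz, hgz⟩ z₁ z₂ hgz
    rw [map_mul, map_mul, ← h1, ← h2]
    ring

theorem h19_redFun_one (h : h19_InO A (1 : LaurentSeries K)) : h19_redFun 1 h = 1 :=
  h19_redFun_eq 1 h 1 1 (by rw [map_one]; exact one_ne_zero) (by rw [one_mul]) 1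
    (by rw [one_mul])

theorem h19_redFun_zero (h : h19_InO A (0 : LaurentSeries K)) : h19_redFun 0 h = 0 :=
  h19_redFun_eq 0 h 0 1 (by rw [map_one]; exact one_ne_zero) (by rw [zero_mul, map_zero]) 0
    (by rw [zero_mul, map_zero])

theorem h19_redFun_const {a : K} (ha : a ∈ A)
    (h : h19_InO A (algebraMap K (LaurentSeries K) a)) :
    h19_redFun (algebraMap K (LaurentSeries K) a) h =
      algebraMap (IsLocalRing.ResidueField A) (LaurentSeries (IsLocalRing.ResidueField A))
        (IsLocalRing.residue A ⟨a, ha⟩) := by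
  refine h19_redFun_eq _ h (HahnSeries.single 0 (⟨a, ha⟩ : A)) 1
    (by rw [map_one]; exact one_ne_zero) ?_ _ ?_
  · rw [map_one, mul_one, coeffMap_single, algebraMap_laurentSeries_eq_single]
    rfl
  · rw [map_one, mul_one, coeffMap_single, algebraMap_laurentSeries_eq_single]

variable (Fb : IntermediateField (IsLocalRing.ResidueField A)
  (LaurentSeries (IsLocalRing.ResidueField A)))

/-- The landing hypothesis: reductions lie in `Fb`. -/
def h19_Land (A : ValuationSubring K) (F : IntermediateField K (LaurentSeries K))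
    (Fb : IntermediateField (IsLocalRing.ResidueField A)
      (LaurentSeries (IsLocalRing.ResidueField A))) : Prop :=
  ∀ (f : F) (y₁ y₂ : LaurentSeries A), coeffMap (IsLocalRing.residue A) y₂ ≠ 0 →
    (f : LaurentSeries K) * coeffMap A.subtype y₂ = coeffMap A.subtype y₁ →
    ∃ g ∈ Fb, g * coeffMap (IsLocalRing.residue A) y₂ = coeffMap (IsLocalRing.residue A) y₁

/-- The surjectivity hypothesis: every element of `Fb` is a reduction. -/
def h19_Surj (A : ValuationSubring K) (F : IntermediateField K (LaurentSeries K))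
    (Fb : IntermediateField (IsLocalRing.ResidueField A)
      (LaurentSeries (IsLocalRing.ResidueField A))) : Prop :=
  ∀ g ∈ Fb, ∃ (f : F) (y₁ y₂ : LaurentSeries A), coeffMap (IsLocalRing.residue A) y₂ ≠ 0 ∧
    (f : LaurentSeries K) * coeffMap A.subtype y₂ = coeffMap A.subtype y₁ ∧
    g * coeffMap (IsLocalRing.residue A) y₂ = coeffMap (IsLocalRing.residue A) y₁

theorem h19_redFun_mem (hland : h19_Land A F Fb) (f : F)
    (hf : h19_InO A (f : LaurentSeries K)) : h19_redFun (f : LaurentSeries K) hf ∈ Fb := by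
  obtain ⟨y₁, y₂, hy, hfy⟩ := hf
  obtain ⟨g, hg, hgy⟩ := hland f y₁ y₂ hy hfy
  rw [h19_redFun_eq (f : LaurentSeries K) ⟨y₁, y₂, hy, hfy⟩ y₁ y₂ hy hfy g hgy]
  exact hg

/-- The reduction map `O → Fb`. -/
def h19_red (hsc : h19_Scal A F) (hland : h19_Land A F Fb) : h19_O F hsc →+* Fb where
  toFun f := ⟨h19_redFun ((f : F) : LaurentSeries K) f.2, h19_redFun_mem F Fb hland f f.2⟩
  map_one' := Subtype.ext (h19_redFun_one _)
  map_mul' f g := Subtype.ext (h19_redFun_mul _ _ f.2 g.2 _)
  map_zero' := Subtype.ext (h19_redFun_zero _)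
  map_add' f g := Subtype.ext (h19_redFun_add _ _ f.2 g.2 _)

theorem h19_coe_red (hsc : h19_Scal A F) (hland : h19_Land A F Fb) (f : h19_O F hsc) :
    ((h19_red F Fb hsc hland f : Fb) : LaurentSeries (IsLocalRing.ResidueField A)) =
      h19_redFun ((f : F) : LaurentSeries K) f.2 :=
  rfl

theorem h19_const_mem_iff (hsc : h19_Scal A F) (a : K) :
    a ∈ A ↔ algebraMap K F a ∈ h19_O F hsc := by
  constructor
  · intro ha
    exact h19_InO_const ha
  · rintro ⟨y₁, y₂, hy, h⟩
    by_contra haA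
    have hinv : a⁻¹ ∈ A := (A.mem_or_inv_mem a).resolve_left haA
    have ha0 : a ≠ 0 := fun h0 => haA (h0 ▸ A.zero_mem)
    have haK : algebraMap K (LaurentSeries K) a ≠ 0 := (map_ne_zero _).2 ha0
    have h' : algebraMap K (LaurentSeries K) a * coeffMap A.subtype y₂ = coeffMap A.subtype y₁ := h
    have h2 : coeffMap A.subtype y₂ =
        coeffMap A.subtype (HahnSeries.single 0 (⟨a⁻¹, hinv⟩ : A) * y₁) := by
      rw [h19_coeffMap_const_mul, ← h', map_inv₀, ← mul_assoc, inv_mul_cancel₀ haK, one_mul]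
    have h3 := h19_coeffMap_subtype_injective A h2
    have hres : IsLocalRing.residue A (⟨a⁻¹, hinv⟩ : A) = 0 := by
      rw [IsLocalRing.residue_eq_zero_iff, IsLocalRing.mem_maximalIdeal, mem_nonunits_iff]
      intro hu
      obtain ⟨u, hu⟩ := hu
      apply haA
      have h4 : ((u⁻¹ : Aˣ) : A) * (⟨a⁻¹, hinv⟩ : A) = 1 := by
        rw [← hu]
        exact u.inv_mul
      have h5 : (((u⁻¹ : Aˣ) : A) : K) * a⁻¹ = 1 := congrArg Subtype.val h4
      have h6 : (((u⁻¹ : Aˣ) : A) : K) = a := by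
        field_simp at h5
        exact h5
      rw [← h6]
      exact ((u⁻¹ : Aˣ) : A).2
    apply hy
    rw [h3, map_mul, coeffMap_single, hres, HahnSeries.single_eq_zero, zero_mul]

/-- **Abstract core of MOD-IG-C.** -/
theorem h19_exists_redDatum_abs (A : ValuationSubring K)
    (F : IntermediateField K (LaurentSeries K))
    (Fb : IntermediateField (IsLocalRing.ResidueField A)
      (LaurentSeries (IsLocalRing.ResidueField A)))
    (hsc : ∀ f : F, f ≠ 0 → ∃ (c : K) (y₁ y₂ : LaurentSeries A), c ≠ 0 ∧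
      coeffMap (IsLocalRing.residue A) y₁ ≠ 0 ∧ coeffMap (IsLocalRing.residue A) y₂ ≠ 0 ∧
      algebraMap K (LaurentSeries K) c * (f : LaurentSeries K) * coeffMap A.subtype y₂ =
        coeffMap A.subtype y₁)
    (hland : ∀ (f : F) (y₁ y₂ : LaurentSeries A), coeffMap (IsLocalRing.residue A) y₂ ≠ 0 →
      (f : LaurentSeries K) * coeffMap A.subtype y₂ = coeffMap A.subtype y₁ →
      ∃ g ∈ Fb, g * coeffMap (IsLocalRing.residue A) y₂ = coeffMap (IsLocalRing.residue A) y₁)
    (hsurj : ∀ g ∈ Fb, ∃ (f : F) (y₁ y₂ : LaurentSeries A),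
      coeffMap (IsLocalRing.residue A) y₂ ≠ 0 ∧
      (f : LaurentSeries K) * coeffMap A.subtype y₂ = coeffMap A.subtype y₁ ∧
      g * coeffMap (IsLocalRing.residue A) y₂ = coeffMap (IsLocalRing.residue A) y₁) :
    ∃ R : h39_RedDatum K ↥F (IsLocalRing.ResidueField A) ↥Fb,
      R.A = A ∧
      (∀ (a : K) (ha : a ∈ R.A) (ha' : a ∈ A),
        R.res ⟨a, ha⟩ = IsLocalRing.residue A ⟨a, ha'⟩) ∧
      (∀ f : ↥F, f ∈ R.O ↔ ∃ y₁ y₂ : LaurentSeries A,
        coeffMap (IsLocalRing.residue A) y₂ ≠ 0 ∧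
          (f : LaurentSeries K) * coeffMap A.subtype y₂ = coeffMap A.subtype y₁) ∧
      (∀ (f : ↥F) (hf : f ∈ R.O) (y₁ y₂ : LaurentSeries A),
        (f : LaurentSeries K) * coeffMap A.subtype y₂ = coeffMap A.subtype y₁ →
          ((R.red ⟨f, hf⟩ : ↥Fb) : LaurentSeries (IsLocalRing.ResidueField A)) *
              coeffMap (IsLocalRing.residue A) y₂
            = coeffMap (IsLocalRing.residue A) y₁) := by
  refine ⟨{ A := A
            O := h19_O F hsc
            res := IsLocalRing.residue A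
            red := h19_red F Fb hsc hland
            res_surjective := IsLocalRing.residue_surjective
            red_surjective := ?_
            mem_iff := h19_const_mem_iff F hsc
            red_algebraMap := ?_
            exists_scale := ?_ }, rfl, fun a ha ha' => rfl, fun f => Iff.rfl,
          fun f hf y₁ y₂ h => h19_redFun_spec _ hf y₁ y₂ h⟩
  · intro g
    obtain ⟨f, y₁, y₂, hy, hfy, hgy⟩ := hsurj g g.2
    refine ⟨⟨f, ⟨y₁, y₂, hy, hfy⟩⟩, Subtype.ext ?_⟩
    exact h19_redFun_eq _ _ y₁ y₂ hy hfy g hgy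
  · intro a ha ha'
    exact Subtype.ext (h19_redFun_const ha _)
  · intro f hf
    obtain ⟨c, y₁, y₂, hc, hy₁, hy₂, h⟩ := hsc f hf
    have hfK : (f : LaurentSeries K) ≠ 0 := fun h0 => hf (Subtype.ext h0)
    have hcK : algebraMap K (LaurentSeries K) c ≠ 0 := (map_ne_zero _).2 hc
    refine ⟨c, hc, ⟨y₁, y₂, hy₂, h⟩, ⟨y₂, y₁, hy₁, ?_⟩⟩
    show (algebraMap K (LaurentSeries K) c * (f : LaurentSeries K))⁻¹ * coeffMap A.subtype y₁ =
      coeffMap A.subtype y₂
    rw [← h]
    field_simp

end Abs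

end Fermat.Agent.S18
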