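import Mathlib
import Fermat.Prelude.Def_AlgebraicCurve_DivisorClassGroup
import Fermat.Agent.S24.h35_PlaceBasic
import Fermat.Agent.S24.h59_Gen

/-!
# S18, layer MOD, row MOD-BR (helper36): branch loci of the Hauptmodul charts

Generic statements: `F/K` a function field (any field extension with the prelude's `Place`),
`j, x ∈ F` with `j x² = (x+256)³` (resp. `j x³ = (x+27)(x+243)³`), and the pointwise
ramification statement (PP) for `j` as an explicit hypothesis.  Then `x - a` has order `≤ 1`
at every place unless `a ∈ {0, -64}` (resp. `{0, -27}`).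
-/

set_option autoImplicit false

namespace Fermat.Agent.S18

open AlgebraicCurve Fermat.Agent.S24

section Generic

variable {K F : Type*} [Field K] [Field F] [Algebra K F]

theorem h36_ord_pow (v : Place K F) (f : F) (n : ℕ) : v.ord (f ^ n) = n * v.ord f := by
  rw [← zpow_natCast, v.ord_zpow]

/-- A nonzero constant plus an element of positive order is nonzero. -/
theorem h36_const_add_ne_zero (v : Place K F) {c : K} (hc : c ≠ 0) {z : F}
    (hz : z = 0 ∨ 0 < v.ord z) : algebraMap K F c + z ≠ 0 := by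
  have hcF : algebraMap K F c ≠ 0 := by simpa using hc
  rcases hz with rfl | hz
  · simpa using hcF
  intro h
  have hz' : z = -algebraMap K F c := by linear_combination h
  rw [hz', h35_ord_neg, h35_ord_algebraMap] at hz
  exact lt_irrefl _ hz

/-- `ord (c + z) = 0` for a nonzero constant `c` and `z` with `z = 0` or `ord z > 0`. -/
theorem h36_ord_const_add (v : Place K F) {c : K} (hc : c ≠ 0) {z : F}
    (hz : z = 0 ∨ 0 < v.ord z) : v.ord (algebraMap K F c + z) = 0 := by
  have hcF : algebraMap K F c ≠ 0 := by simpa using hc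
  have hsum := h36_const_add_ne_zero v hc hz
  rcases hz with rfl | hz
  · simpa using h35_ord_algebraMap v c
  have hz0 : z ≠ 0 := by rintro rfl; simp at hz
  have h1 := h35_ord_add v hcF hz0 hsum
  rw [h35_ord_algebraMap] at h1
  have h3 : algebraMap K F c + z - z = algebraMap K F c := by ring
  have h2 := h35_ord_sub v hsum hz0 (by rw [h3]; exact hcF)
  rw [h3, h35_ord_algebraMap] at h2
  omega

/-- `y * w` is zero or of positive order when `ord y > 0` and `w` lies in the valuation ring. -/
theorem h36_mul_mem_pos (v : Place K F) {y w : F} (hy : 0 < v.ord y)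
    (hw : w ∈ v.toValuationSubring) : y * w = 0 ∨ 0 < v.ord (y * w) := by
  by_cases hw0 : w = 0
  · left; rw [hw0, mul_zero]
  right
  have hy0 : y ≠ 0 := by rintro rfl; simp at hy
  rw [v.ord_mul hy0 hw0]
  have := h35_ord_nonneg_of_mem v hw
  omega

end Generic

section Branch

variable {K F : Type*} [Field K] [CharZero K] [Field F] [Algebra K F]

/-- **BR2 (generic)**: if `j x² = (x+256)³` and `j` satisfies (PP), then `x - a` has a zero of
order `≥ 2` only for `a ∈ {0, -64}`. -/
theorem h36_branch_h2_generic (j x : F) (hrel : j * x ^ 2 = (x + 256) ^ 3)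
    (hPP : ∀ (v : Place K F) (a : K), 0 < v.ord (j - algebraMap K F a) →
      (a = 0 → v.ord (j - algebraMap K F a) ∣ 3) ∧
      (a = 1728 → v.ord (j - algebraMap K F a) ∣ 2) ∧
      (a ≠ 0 → a ≠ 1728 → v.ord (j - algebraMap K F a) = 1))
    (P : Place K F) (a : K) (h : 2 ≤ P.ord (x - algebraMap K F a)) :
    a = 0 ∨ a = -64 := by
  by_contra hcon
  push Not at hcon
  obtain ⟨ha0, ha64⟩ := hcon
  set y : F := x - algebraMap K F a with hy
  have hypos : 0 < P.ord y := by omega
  have hy0 : y ≠ 0 := by rintro h0; rw [h0] at hypos; simp at hypos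
  have hx : x = algebraMap K F a + y := by rw [hy]; ring
  have hordx : P.ord x = 0 := by rw [hx]; exact h36_ord_const_add P ha0 (Or.inr hypos)
  have hx0 : x ≠ 0 := by rw [hx]; exact h36_const_add_ne_zero P ha0 (Or.inr hypos)
  have hymem : y ∈ P.toValuationSubring := (h35_mem_iff_ord_nonneg P hy0).mpr hypos.le
  have hx2 : x ^ 2 ≠ 0 := pow_ne_zero 2 hx0
  have hordx2 : P.ord (x ^ 2) = 0 := by rw [h36_ord_pow, hordx]; simp
  by_cases h256 : a = -256
  · -- `j x² = y³`
    have e1 : j * x ^ 2 = y ^ 3 := by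
      rw [hrel, hy, h256, map_neg, map_ofNat]; ring
    have hj0 : j ≠ 0 := by
      rintro rfl
      rw [zero_mul] at e1
      exact pow_ne_zero 3 hy0 e1.symm
    have e2 := congrArg P.ord e1
    rw [P.ord_mul hj0 hx2, hordx2, h36_ord_pow] at e2
    have hpp := (hPP P 0 (by rw [map_zero, sub_zero]; push_cast at e2; omega)).1 rfl
    rw [map_zero, sub_zero] at hpp
    have := Int.le_of_dvd (by norm_num) hpp
    push_cast at e2
    omega
  by_cases h512 : a = 512
  · -- `(j - 1728) x² = y² (576 + y)`
    have e1 : (j - algebraMap K F 1728) * x ^ 2 = y ^ 2 * (algebraMap K F 576 + y) := by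
      rw [sub_mul, hrel, hy, h512]; simp only [map_ofNat]; ring
    have h576 : (576 : K) ≠ 0 := by norm_num
    have hw0 := h36_const_add_ne_zero P h576 (Or.inr hypos)
    have hw := h36_ord_const_add P h576 (Or.inr hypos)
    have hj0 : j - algebraMap K F 1728 ≠ 0 := by
      intro h0
      rw [h0, zero_mul] at e1
      exact mul_ne_zero (pow_ne_zero 2 hy0) hw0 e1.symm
    have e2 := congrArg P.ord e1
    rw [P.ord_mul hj0 hx2, hordx2, P.ord_mul (pow_ne_zero 2 hy0) hw0, hw, h36_ord_pow] at e2
    push_cast at e2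
    have hpp := (hPP P 1728 (by omega)).2.1 rfl
    have := Int.le_of_dvd (by norm_num) hpp
    omega
  -- generic case
  have ha2 : a ^ 2 ≠ 0 := pow_ne_zero 2 ha0
  set α : K := (a + 256) ^ 3 / a ^ 2 with hα
  have hαa : α * a ^ 2 = (a + 256) ^ 3 := by rw [hα]; field_simp
  have h256' : a + 256 ≠ 0 := fun h0 => h256 (by linear_combination h0)
  have h512' : a - 512 ≠ 0 := fun h0 => h512 (by linear_combination h0)
  have h64' : a + 64 ≠ 0 := fun h0 => ha64 (by linear_combination h0)
  have hα0 : α ≠ 0 := by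
    intro h0
    rw [h0, zero_mul] at hαa
    exact pow_ne_zero 3 h256' hαa.symm
  have hα1728 : α ≠ 1728 := by
    intro h0
    have : (a - 512) ^ 2 * (a + 64) = 0 := by rw [h0] at hαa; linear_combination -hαa
    exact mul_ne_zero (pow_ne_zero 2 h512') h64' this
  set c₁ : K := 768 - α + a with hc₁
  set qa : K := 3 * a ^ 2 + 1536 * a + 196608 - 2 * a * α with hqa
  have hqa0 : qa ≠ 0 := by
    intro h0
    have : (a + 256) ^ 2 * (a - 512) = 0 := by
      have : qa * a = (a + 256) ^ 2 * (a - 512) := by rw [hqa]; linear_combination (-2 : K) * hαa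
      rw [← this, h0, zero_mul]
    exact mul_ne_zero (pow_ne_zero 2 h256') h512' this
  have hαF : algebraMap K F α * algebraMap K F a ^ 2 = (algebraMap K F a + 256) ^ 3 := by
    have := congrArg (algebraMap K F) hαa
    simpa only [map_mul, map_pow, map_add, map_ofNat] using this
  set w : F := y + algebraMap K F (2 * a + c₁) with hw
  have hwmem : w ∈ P.toValuationSubring :=
    P.toValuationSubring.add_mem _ _ hymem (P.algebraMap_mem' _)
  have e1 : (j - algebraMap K F α) * x ^ 2 = y * (algebraMap K F qa + y * w) := by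
    rw [sub_mul, hrel, hw, hqa, hc₁, hx]
    simp only [map_add, map_sub, map_mul, map_pow, map_ofNat]
    linear_combination (-1 : F) * hαF
  have hz := h36_mul_mem_pos P hypos hwmem
  have hq0 := h36_const_add_ne_zero P hqa0 hz
  have hq := h36_ord_const_add P hqa0 hz
  have hj0 : j - algebraMap K F α ≠ 0 := by
    intro h0
    rw [h0, zero_mul] at e1
    exact mul_ne_zero hy0 hq0 e1.symm
  have e2 := congrArg P.ord e1
  rw [P.ord_mul hj0 hx2, hordx2, P.ord_mul hy0 hq0, hq] at e2
  have hpp := (hPP P α (by omega)).2.2 hα0 hα1728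
  omega

/-- **BR3 (generic)**: if `j x³ = (x+27)(x+243)³` and `j` satisfies (PP), then `x - a` has a
zero of order `≥ 2` only for `a ∈ {0, -27}`. -/
theorem h36_branch_h3_generic (j x : F) (hrel : j * x ^ 3 = (x + 27) * (x + 243) ^ 3)
    (hPP : ∀ (v : Place K F) (a : K), 0 < v.ord (j - algebraMap K F a) →
      (a = 0 → v.ord (j - algebraMap K F a) ∣ 3) ∧
      (a = 1728 → v.ord (j - algebraMap K F a) ∣ 2) ∧
      (a ≠ 0 → a ≠ 1728 → v.ord (j - algebraMap K F a) = 1))
    (P : Place K F) (a : K) (h : 2 ≤ P.ord (x - algebraMap K F a)) :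
    a = 0 ∨ a = -27 := by
  by_contra hcon
  push Not at hcon
  obtain ⟨ha0, ha27⟩ := hcon
  set y : F := x - algebraMap K F a with hy
  have hypos : 0 < P.ord y := by omega
  have hy0 : y ≠ 0 := by rintro h0; rw [h0] at hypos; simp at hypos
  have hx : x = algebraMap K F a + y := by rw [hy]; ring
  have hordx : P.ord x = 0 := by rw [hx]; exact h36_ord_const_add P ha0 (Or.inr hypos)
  have hx0 : x ≠ 0 := by rw [hx]; exact h36_const_add_ne_zero P ha0 (Or.inr hypos)
  have hymem : y ∈ P.toValuationSubring := (h35_mem_iff_ord_nonneg P hy0).mpr hypos.le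
  have hx3 : x ^ 3 ≠ 0 := pow_ne_zero 3 hx0
  have hordx3 : P.ord (x ^ 3) = 0 := by rw [h36_ord_pow, hordx]; simp
  by_cases h243 : a = -243
  · -- `j x³ = (y - 216) y³`
    have e1 : j * x ^ 3 = (algebraMap K F (-216) + y) * y ^ 3 := by
      rw [hrel, hy, h243]; simp only [map_neg, map_ofNat]; ring
    have h216 : (-216 : K) ≠ 0 := by norm_num
    have hw0 := h36_const_add_ne_zero P h216 (Or.inr hypos)
    have hw := h36_ord_const_add P h216 (Or.inr hypos)
    have hj0 : j ≠ 0 := by
      rintro rfl
      rw [zero_mul] at e1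
      exact mul_ne_zero hw0 (pow_ne_zero 3 hy0) e1.symm
    have e2 := congrArg P.ord e1
    rw [P.ord_mul hj0 hx3, hordx3, P.ord_mul hw0 (pow_ne_zero 3 hy0), hw, h36_ord_pow] at e2
    push_cast at e2
    have hpp := (hPP P 0 (by rw [map_zero, sub_zero]; omega)).1 rfl
    rw [map_zero, sub_zero] at hpp
    have := Int.le_of_dvd (by norm_num) hpp
    omega
  have h243' : a + 243 ≠ 0 := fun h0 => h243 (by linear_combination h0)
  have h27' : a + 27 ≠ 0 := fun h0 => ha27 (by linear_combination h0)
  by_cases hroot : a ^ 2 - 486 * a - 19683 = 0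
  · -- `(j - 1728) x³ = y² (2a - 486 + y)²`
    have hrootF : algebraMap K F a ^ 2 - 486 * algebraMap K F a - 19683 = 0 := by
      have := congrArg (algebraMap K F) hroot
      simpa only [map_sub, map_mul, map_pow, map_ofNat, map_zero] using this
    have hc : (2 * a - 486 : K) ≠ 0 := by
      intro h0
      have ha : a = 243 := by linear_combination (1 / 2 : K) * h0
      rw [ha] at hroot
      norm_num at hroot
    have e1 : (j - algebraMap K F 1728) * x ^ 3
        = y ^ 2 * (algebraMap K F (2 * a - 486) + y) ^ 2 := by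
      rw [sub_mul, hrel, hx]
      simp only [map_sub, map_mul, map_ofNat]
      linear_combination ((algebraMap K F a + y) ^ 2 - 486 * (algebraMap K F a + y) - 19683
        + y * (2 * algebraMap K F a - 486 + y)) * hrootF
    have hw0 := h36_const_add_ne_zero P hc (Or.inr hypos)
    have hw := h36_ord_const_add P hc (Or.inr hypos)
    have hj0 : j - algebraMap K F 1728 ≠ 0 := by
      intro h0
      rw [h0, zero_mul] at e1
      exact mul_ne_zero (pow_ne_zero 2 hy0) (pow_ne_zero 2 hw0) e1.symm
    have e2 := congrArg P.ord e1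
    rw [P.ord_mul hj0 hx3, hordx3, P.ord_mul (pow_ne_zero 2 hy0) (pow_ne_zero 2 hw0),
      h36_ord_pow, h36_ord_pow, hw] at e2
    push_cast at e2
    have hpp := (hPP P 1728 (by omega)).2.1 rfl
    have := Int.le_of_dvd (by norm_num) hpp
    omega
  -- generic case
  have ha3 : a ^ 3 ≠ 0 := pow_ne_zero 3 ha0
  set α : K := (a + 27) * (a + 243) ^ 3 / a ^ 3 with hα
  have hαa : α * a ^ 3 = (a + 27) * (a + 243) ^ 3 := by rw [hα]; field_simp
  have hα0 : α ≠ 0 := by
    intro h0
    rw [h0, zero_mul] at hαa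
    exact mul_ne_zero h27' (pow_ne_zero 3 h243') hαa.symm
  have hα1728 : α ≠ 1728 := by
    intro h0
    have : (a ^ 2 - 486 * a - 19683) ^ 2 = 0 := by rw [h0] at hαa; linear_combination -hαa
    exact hroot (by simpa using this)
  set c₂ : K := 756 - α + a with hc₂
  set c₁ : K := 196830 + a * c₂ with hc₁
  set qa : K := 4 * a ^ 3 + 3 * (756 - α) * a ^ 2 + 393660 * a + 19131876 with hqa
  have hqa0 : qa ≠ 0 := by
    intro h0
    have h1 : qa * a = (a + 243) ^ 2 * (a ^ 2 - 486 * a - 19683) := by
      rw [hqa]; linear_combination (-3 : K) * hαa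
    have : (a + 243) ^ 2 * (a ^ 2 - 486 * a - 19683) = 0 := by rw [← h1, h0, zero_mul]
    exact mul_ne_zero (pow_ne_zero 2 h243') hroot this
  have hαF : algebraMap K F α * algebraMap K F a ^ 3
      = (algebraMap K F a + 27) * (algebraMap K F a + 243) ^ 3 := by
    have := congrArg (algebraMap K F) hαa
    simpa only [map_mul, map_pow, map_add, map_ofNat] using this
  set w : F := y * y + algebraMap K F (3 * a + c₂) * y
    + algebraMap K F (3 * a ^ 2 + 2 * c₂ * a + c₁) with hw
  have hwmem : w ∈ P.toValuationSubring :=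
    P.toValuationSubring.add_mem _ _
      (P.toValuationSubring.add_mem _ _ (P.toValuationSubring.mul_mem _ _ hymem hymem)
        (P.toValuationSubring.mul_mem _ _ (P.algebraMap_mem' _) hymem))
      (P.algebraMap_mem' _)
  have e1 : (j - algebraMap K F α) * x ^ 3 = y * (algebraMap K F qa + y * w) := by
    rw [sub_mul, hrel, hw, hqa, hc₁, hc₂, hx]
    simp only [map_add, map_sub, map_mul, map_pow, map_ofNat]
    linear_combination (-1 : F) * hαF
  have hz := h36_mul_mem_pos P hypos hwmem
  have hq0 := h36_const_add_ne_zero P hqa0 hz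
  have hq := h36_ord_const_add P hqa0 hz
  have hj0 : j - algebraMap K F α ≠ 0 := by
    intro h0
    rw [h0, zero_mul] at e1
    exact mul_ne_zero hy0 hq0 e1.symm
  have e2 := congrArg P.ord e1
  rw [P.ord_mul hj0 hx3, hordx3, P.ord_mul hy0 hq0, hq] at e2
  have hpp := (hPP P α (by omega)).2.2 hα0 hα1728
  omega

end Branch

/-! ## The level-`N` forms (skeleton statements `h54_branch_h2`, `h54_branch_h3`, with the
Hauptmodul relation in `F N` and (PP) = `h54_ord_j_sub_dvd` as explicit hypotheses) -/

section Level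

open ModularCurve

local notation "Qb" => AlgebraicClosure ℚ

/-- **BR2** branch locus of `F N / Qb(h₂)`: only over `0`, `-64` (and `∞`). -/
theorem h36_branch_h2 (N : ℕ) [NeZero N] (x : ↥(modularFunctionFieldBar N))
    (hrel : h59_jbar N * x ^ 2 = (x + 256) ^ 3)
    (hPP : ∀ (v : Place Qb ↥(modularFunctionFieldBar N)) (a : Qb),
      0 < v.ord (h59_jbar N - algebraMap Qb ↥(modularFunctionFieldBar N) a) →
      (a = 0 → v.ord (h59_jbar N - algebraMap Qb ↥(modularFunctionFieldBar N) a) ∣ 3) ∧
      (a = 1728 → v.ord (h59_jbar N - algebraMap Qb ↥(modularFunctionFieldBar N) a) ∣ 2) ∧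
      (a ≠ 0 → a ≠ 1728 →
        v.ord (h59_jbar N - algebraMap Qb ↥(modularFunctionFieldBar N) a) = 1))
    (P : Place Qb ↥(modularFunctionFieldBar N)) (a : Qb)
    (h : 2 ≤ P.ord (x - algebraMap Qb ↥(modularFunctionFieldBar N) a)) :
    a = 0 ∨ a = -64 :=
  h36_branch_h2_generic (h59_jbar N) x hrel hPP P a h

/-- **BR3** branch locus of `F N / Qb(h₃)`: only over `0`, `-27` (and `∞`). -/
theorem h36_branch_h3 (N : ℕ) [NeZero N] (x : ↥(modularFunctionFieldBar N))
    (hrel : h59_jbar N * x ^ 3 = (x + 27) * (x + 243) ^ 3)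
    (hPP : ∀ (v : Place Qb ↥(modularFunctionFieldBar N)) (a : Qb),
      0 < v.ord (h59_jbar N - algebraMap Qb ↥(modularFunctionFieldBar N) a) →
      (a = 0 → v.ord (h59_jbar N - algebraMap Qb ↥(modularFunctionFieldBar N) a) ∣ 3) ∧
      (a = 1728 → v.ord (h59_jbar N - algebraMap Qb ↥(modularFunctionFieldBar N) a) ∣ 2) ∧
      (a ≠ 0 → a ≠ 1728 →
        v.ord (h59_jbar N - algebraMap Qb ↥(modularFunctionFieldBar N) a) = 1))
    (P : Place Qb ↥(modularFunctionFieldBar N)) (a : Qb)
    (h : 2 ≤ P.ord (x - algebraMap Qb ↥(modularFunctionFieldBar N) a)) :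
    a = 0 ∨ a = -27 :=
  h36_branch_h3_generic (h59_jbar N) x hrel hPP P a h

end Level

end Fermat.Agent.S18
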