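import Fermat.Agent.S18.Defs
import Fermat.Prelude.Def_ModularCurve_ReductionModL

/-!
# S18: top-level assembly, abstract part (owner helper39)

* `h39_IsModRed N A R` : the characterisation of the reduction datum of level `N` (MOD export (M1)).
* `h39_unit_of_int` : a quotient `U₂ / U₁` of integral `q`-series with equal nonzero reductions is
  an element of `R.O` with reduction `1`.
* `h39_principal_of_GT` : the core statement at a level where the generic theorem GT is available.
* `h39_principal_of_GT_level` : the core statement at level `N` from GT at level `p N`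
  (`p + 1` prime to `m`), by level transfer.
-/

set_option autoImplicit false
set_option synthInstance.maxHeartbeats 400000

noncomputable section

open AlgebraicCurve IntermediateField ModularCurve HahnSeries

namespace Fermat.Agent.S18

/-- A root of `u ^ d` with `d` prime to `m` gives a root of `u`. -/
theorem h39_root_of_pow_coprime {F : Type*} [Field F] (u g : F) (m d : ℕ) (hcop : Nat.Coprime d m)
    (hu : u ≠ 0) (h : g ^ m = u ^ d) :
    (g ^ (Nat.gcdA d m) * u ^ (Nat.gcdB d m)) ^ m = u := by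
  have hb : (d : ℤ) * Nat.gcdA d m + (m : ℤ) * Nat.gcdB d m = 1 := by
    have := Nat.gcd_eq_gcd_ab d m
    rw [hcop.gcd_eq_one] at this
    exact_mod_cast this.symm
  have h2 : (g ^ (Nat.gcdA d m) * u ^ (Nat.gcdB d m)) ^ m =
      (g ^ m) ^ (Nat.gcdA d m) * (u ^ (m : ℤ)) ^ (Nat.gcdB d m) := by
    rw [mul_pow, ← zpow_natCast (g ^ Nat.gcdA d m) m, ← zpow_mul,
      ← zpow_natCast (u ^ Nat.gcdB d m) m, ← zpow_mul, mul_comm (Nat.gcdA d m) (m : ℤ), zpow_mul,
      zpow_natCast, mul_comm (Nat.gcdB d m) (m : ℤ), zpow_mul]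
  rw [h2, h, ← zpow_natCast u d, ← zpow_mul, ← zpow_mul, ← zpow_add₀ hu, hb, zpow_one]

local notation "Qb" => AlgebraicClosure ℚ

/-- The characterisation of the reduction datum of level `N` at `A` (MOD export (M1)):
`R.A = A`, `R.res` is the residue map, `R.O` consists of the ratios `y₁ / y₂` of `A`-integral
`q`-series with `ȳ₂ ≠ 0`, and `R.red` is the coefficientwise reduction of such ratios. -/
def h39_IsModRed (N : ℕ) [NeZero N] (A : ValuationSubring Qb)
    (R : h39_RedDatum Qb ↥(modularFunctionFieldBar N) (IsLocalRing.ResidueField A)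
      ↥(modularFunctionFieldFullC (IsLocalRing.ResidueField A) N)) : Prop :=
  R.A = A ∧
  (∀ (a : Qb) (ha : a ∈ R.A) (ha' : a ∈ A),
    R.res ⟨a, ha⟩ = IsLocalRing.residue A ⟨a, ha'⟩) ∧
  (∀ f : ↥(modularFunctionFieldBar N), f ∈ R.O ↔ ∃ y₁ y₂ : LaurentSeries A,
    coeffMap (IsLocalRing.residue A) y₂ ≠ 0 ∧
      (f : LaurentSeries Qb) * coeffMap A.subtype y₂ = coeffMap A.subtype y₁) ∧
  (∀ (f : ↥(modularFunctionFieldBar N)) (hf : f ∈ R.O) (y₁ y₂ : LaurentSeries A),
    (f : LaurentSeries Qb) * coeffMap A.subtype y₂ = coeffMap A.subtype y₁ →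
      ((R.red ⟨f, hf⟩ : ↥(modularFunctionFieldFullC (IsLocalRing.ResidueField A) N)) :
          LaurentSeries (IsLocalRing.ResidueField A)) * coeffMap (IsLocalRing.residue A) y₂
        = coeffMap (IsLocalRing.residue A) y₁)

section Unit

variable {N : ℕ} [NeZero N] {A : ValuationSubring Qb}
  {R : h39_RedDatum Qb ↥(modularFunctionFieldBar N) (IsLocalRing.ResidueField A)
      ↥(modularFunctionFieldFullC (IsLocalRing.ResidueField A) N)}

/-- the reduction of a nonzero integral series is injective enough: a series with nonzero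
reduction is nonzero. -/
theorem h39_coeffMap_ne_zero {U : LaurentSeries A}
    (hne : coeffMap (IsLocalRing.residue A) U ≠ 0) : coeffMap A.subtype U ≠ 0 := by
  intro h0
  apply hne
  have hU : U = 0 := by
    ext n
    have h1 := congrArg (fun y : LaurentSeries Qb => y.coeff n) h0
    simpa [coeffMap] using h1
  rw [hU, map_zero]

/-- A quotient `u` of integral `q`-series with equal nonzero reductions lies in `R.O` and has
reduction `1`. -/
theorem h39_unit_of_int (hR : h39_IsModRed N A R) (U₁ U₂ : LaurentSeries A)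
    (u : ↥(modularFunctionFieldBar N))
    (hu : (u : LaurentSeries Qb) * coeffMap A.subtype U₁ = coeffMap A.subtype U₂)
    (hne : coeffMap (IsLocalRing.residue A) U₁ ≠ 0)
    (heq : coeffMap (IsLocalRing.residue A) U₁ = coeffMap (IsLocalRing.residue A) U₂) :
    ∃ huO : u ∈ R.O, R.red ⟨u, huO⟩ = 1 := by
  obtain ⟨-, -, hO, hred⟩ := hR
  have huO : u ∈ R.O := (hO u).2 ⟨U₂, U₁, hne, hu⟩
  refine ⟨huO, ?_⟩
  have h1 := hred u huO U₂ U₁ hu
  rw [← heq] at h1
  apply Subtype.ext
  have h2 : ((R.red ⟨u, huO⟩ : ↥(modularFunctionFieldFullC (IsLocalRing.ResidueField A) N)) :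
      LaurentSeries (IsLocalRing.ResidueField A)) * coeffMap (IsLocalRing.residue A) U₁
      = 1 * coeffMap (IsLocalRing.residue A) U₁ := by rw [h1, one_mul]
  exact mul_right_cancel₀ hne h2

end Unit

/-- The core statement at a level where GT is available: if `m D = div (U₂ / U₁)` for integral
`q`-series `U₁`, `U₂` with equal nonzero reductions, then `D` is principal. -/
theorem h39_principal_of_GT (N : ℕ) [NeZero N] (A : ValuationSubring Qb)
    (R : h39_RedDatum Qb ↥(modularFunctionFieldBar N) (IsLocalRing.ResidueField A)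
      ↥(modularFunctionFieldFullC (IsLocalRing.ResidueField A) N))
    (hR : h39_IsModRed N A R) (m : ℕ)
    (hGT : ∀ (D : Divisor Qb ↥(modularFunctionFieldBar N)) (u : ↥(modularFunctionFieldBar N))
      (hu : u ∈ R.O), R.red ⟨u, hu⟩ = 1 →
      (∀ P : Place Qb ↥(modularFunctionFieldBar N), P.ord u = m * D P) →
      ∃ g : ↥(modularFunctionFieldBar N), g ^ m = u ∧ g ≠ 0 ∧
        ∀ P : Place Qb ↥(modularFunctionFieldBar N), D P = P.ord g)
    (U₁ U₂ : LaurentSeries A)
    (h₁ : coeffMap A.subtype U₁ ∈ modularFunctionFieldBar N)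
    (h₂ : coeffMap A.subtype U₂ ∈ modularFunctionFieldBar N)
    (hne : coeffMap (IsLocalRing.residue A) U₁ ≠ 0)
    (heq : coeffMap (IsLocalRing.residue A) U₁ = coeffMap (IsLocalRing.residue A) U₂)
    (D : Divisor Qb ↥(modularFunctionFieldBar N))
    (hD : ∀ P : Place Qb ↥(modularFunctionFieldBar N),
      (m : ℤ) * D P = P.ord (⟨coeffMap A.subtype U₂, h₂⟩ : ↥(modularFunctionFieldBar N))
        - P.ord (⟨coeffMap A.subtype U₁, h₁⟩ : ↥(modularFunctionFieldBar N))) :
    D ∈ Divisor.principal (K := Qb) (F := ↥(modularFunctionFieldBar N)) := by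
  set u₁ : ↥(modularFunctionFieldBar N) := ⟨coeffMap A.subtype U₁, h₁⟩ with hu₁
  set u₂ : ↥(modularFunctionFieldBar N) := ⟨coeffMap A.subtype U₂, h₂⟩ with hu₂
  have hu₁0 : u₁ ≠ 0 := fun h => h39_coeffMap_ne_zero hne (congrArg Subtype.val h)
  have hu₂0 : u₂ ≠ 0 := fun h => h39_coeffMap_ne_zero (heq ▸ hne) (congrArg Subtype.val h)
  have hmul : ((u₂ * u₁⁻¹ : ↥(modularFunctionFieldBar N)) : LaurentSeries Qb)
      * coeffMap A.subtype U₁ = coeffMap A.subtype U₂ := by
    have : u₂ * u₁⁻¹ * u₁ = u₂ := by rw [mul_assoc, inv_mul_cancel₀ hu₁0, mul_one]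
    exact congrArg Subtype.val this
  obtain ⟨huO, hu1⟩ := h39_unit_of_int hR U₁ U₂ (u₂ * u₁⁻¹) hmul hne heq
  have hord : ∀ P : Place Qb ↥(modularFunctionFieldBar N), P.ord (u₂ * u₁⁻¹) = m * D P := by
    intro P
    rw [P.ord_mul hu₂0 (inv_ne_zero hu₁0), P.ord_inv, hD P]
    ring
  obtain ⟨g, -, hg0, hDg⟩ := hGT D (u₂ * u₁⁻¹) huO hu1 hord
  exact ⟨g, hg0, hDg⟩

/-- The core statement at level `N` from GT at a level `N₁` (a multiple of `N`) by level
transfer: `F(N) ⊆ F(N₁)`, an `m`-th root at level `N₁` descends to an `m`-th root of the `d`-th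
power at level `N` (norm), `d` prime to `m`. -/
theorem h39_principal_of_GT_level (N N₁ : ℕ) [NeZero N] [NeZero N₁] (A : ValuationSubring Qb)
    (R₁ : h39_RedDatum Qb ↥(modularFunctionFieldBar N₁) (IsLocalRing.ResidueField A)
      ↥(modularFunctionFieldFullC (IsLocalRing.ResidueField A) N₁))
    (hR₁ : h39_IsModRed N₁ A R₁) (m d : ℕ) (hm0 : m ≠ 0) (hcop : Nat.Coprime d m)
    (hle : modularFunctionFieldBar N ≤ modularFunctionFieldBar N₁)
    (hdesc : ∀ u g : LaurentSeries Qb, u ∈ modularFunctionFieldBar N →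
      g ∈ modularFunctionFieldBar N₁ → g ^ m = u → ∃ g' ∈ modularFunctionFieldBar N, g' ^ m = u ^ d)
    (hdvd : ∀ (u : LaurentSeries Qb) (hu : u ∈ modularFunctionFieldBar N),
      (∀ P : Place Qb ↥(modularFunctionFieldBar N), (m : ℤ) ∣ P.ord ⟨u, hu⟩) →
      ∀ P' : Place Qb ↥(modularFunctionFieldBar N₁), (m : ℤ) ∣ P'.ord ⟨u, hle hu⟩)
    (hfin : ∀ f : ↥(modularFunctionFieldBar N₁), f ≠ 0 →
      {P : Place Qb ↥(modularFunctionFieldBar N₁) | P.ord f ≠ 0}.Finite)
    (hGT : ∀ (D : Divisor Qb ↥(modularFunctionFieldBar N₁)) (u : ↥(modularFunctionFieldBar N₁))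
      (hu : u ∈ R₁.O), R₁.red ⟨u, hu⟩ = 1 →
      (∀ P : Place Qb ↥(modularFunctionFieldBar N₁), P.ord u = m * D P) →
      ∃ g : ↥(modularFunctionFieldBar N₁), g ^ m = u ∧ g ≠ 0 ∧
        ∀ P : Place Qb ↥(modularFunctionFieldBar N₁), D P = P.ord g)
    (U₁ U₂ : LaurentSeries A)
    (h₁ : coeffMap A.subtype U₁ ∈ modularFunctionFieldBar N)
    (h₂ : coeffMap A.subtype U₂ ∈ modularFunctionFieldBar N)
    (hne : coeffMap (IsLocalRing.residue A) U₁ ≠ 0)
    (heq : coeffMap (IsLocalRing.residue A) U₁ = coeffMap (IsLocalRing.residue A) U₂)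
    (D : Divisor Qb ↥(modularFunctionFieldBar N))
    (hD : ∀ P : Place Qb ↥(modularFunctionFieldBar N),
      (m : ℤ) * D P = P.ord (⟨coeffMap A.subtype U₂, h₂⟩ : ↥(modularFunctionFieldBar N))
        - P.ord (⟨coeffMap A.subtype U₁, h₁⟩ : ↥(modularFunctionFieldBar N))) :
    D ∈ Divisor.principal (K := Qb) (F := ↥(modularFunctionFieldBar N)) := by
  classical
  set u₁ : ↥(modularFunctionFieldBar N) := ⟨coeffMap A.subtype U₁, h₁⟩ with hu₁
  set u₂ : ↥(modularFunctionFieldBar N) := ⟨coeffMap A.subtype U₂, h₂⟩ with hu₂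
  have hu₁0 : u₁ ≠ 0 := fun h => h39_coeffMap_ne_zero hne (congrArg Subtype.val h)
  have hu₂0 : u₂ ≠ 0 := fun h => h39_coeffMap_ne_zero (heq ▸ hne) (congrArg Subtype.val h)
  set u : ↥(modularFunctionFieldBar N) := u₂ * u₁⁻¹ with hudef
  have hu0 : u ≠ 0 := mul_ne_zero hu₂0 (inv_ne_zero hu₁0)
  have hordN : ∀ P : Place Qb ↥(modularFunctionFieldBar N), P.ord u = m * D P := by
    intro P
    rw [hudef, P.ord_mul hu₂0 (inv_ne_zero hu₁0), P.ord_inv, hD P]
    ring
  -- the same element at level `N₁`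
  set v : ↥(modularFunctionFieldBar N₁) := ⟨(u : LaurentSeries Qb), hle u.2⟩ with hvdef
  have hv0 : v ≠ 0 := by
    intro h
    have h' : (v : LaurentSeries Qb) = ((0 : ↥(modularFunctionFieldBar N₁)) : LaurentSeries Qb) :=
      congrArg Subtype.val h
    exact hu0 (Subtype.ext h')
  have hmulv : (v : LaurentSeries Qb) * coeffMap A.subtype U₁ = coeffMap A.subtype U₂ := by
    have : u * u₁ = u₂ := by rw [hudef, mul_assoc, inv_mul_cancel₀ hu₁0, mul_one]
    exact congrArg Subtype.val this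
  obtain ⟨hvO, hv1⟩ := h39_unit_of_int hR₁ U₁ U₂ v hmulv hne heq
  have hdvdv : ∀ P' : Place Qb ↥(modularFunctionFieldBar N₁), (m : ℤ) ∣ P'.ord v := by
    intro P'
    have := hdvd (u : LaurentSeries Qb) u.2 (fun P => ⟨D P, by
      have := hordN P
      simpa using this⟩) P'
    exact this
  -- the divisor `(1/m) div v` at level `N₁`
  have hfinv : {P' : Place Qb ↥(modularFunctionFieldBar N₁) | P'.ord v / (m : ℤ) ≠ 0}.Finite := by
    refine (hfin v hv0).subset ?_
    intro P' hP'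
    show P'.ord v ≠ 0
    have hP'' : P'.ord v / (m : ℤ) ≠ 0 := hP'
    intro h0
    apply hP''
    rw [h0]
    simp
  set D₁ : Divisor Qb ↥(modularFunctionFieldBar N₁) :=
    Finsupp.ofSupportFinite (fun P' => P'.ord v / (m : ℤ)) hfinv with hD₁
  have hordv : ∀ P' : Place Qb ↥(modularFunctionFieldBar N₁), P'.ord v = m * D₁ P' := by
    intro P'
    have hcoe : D₁ P' = P'.ord v / (m : ℤ) := rfl
    rw [hcoe]
    exact (Int.mul_ediv_cancel' (hdvdv P')).symm
  obtain ⟨g₁, hg₁, -, -⟩ := hGT D₁ v hvO hv1 hordv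
  obtain ⟨g', hg'mem, hg'⟩ := hdesc (u : LaurentSeries Qb) (g₁ : LaurentSeries Qb) u.2 g₁.2
    (by
      have := congrArg Subtype.val hg₁
      simpa using this)
  set g : ↥(modularFunctionFieldBar N) := ⟨g', hg'mem⟩ with hgdef
  have hgd : g ^ m = u ^ d := Subtype.ext (by simpa using hg')
  have hroot := h39_root_of_pow_coprime u g m d hcop hu0 hgd
  set G : ↥(modularFunctionFieldBar N) := g ^ (Nat.gcdA d m) * u ^ (Nat.gcdB d m) with hGdef
  have hG0 : G ≠ 0 := by
    intro h0
    rw [h0, zero_pow hm0] at hroot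
    exact hu0 hroot.symm
  refine ⟨G, hG0, fun P => ?_⟩
  have h1 : P.ord (G ^ m) = m * P.ord G := by
    rw [← zpow_natCast, P.ord_zpow]
  rw [hroot, hordN P] at h1
  have hm' : (m : ℤ) ≠ 0 := by exact_mod_cast hm0
  exact mul_left_cancel₀ hm' h1

end Fermat.Agent.S18

end
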