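/-
S18 / [GR] (helper52): `h39_Lx_red` from the integrality transfer (I1) `h39_red_integral`
(the last statement of row GR3 from the second one): `L(n (x)_∞) ∩ O` reduces into
`L(n (x̄)_∞)`, by (I1) for the chart `x` applied to `f` and for the chart `x⁻¹` applied to
`f x⁻ⁿ`.
-/
import Mathlib
import Fermat.Agent.S18.Defs
import Fermat.Agent.S18.h75_RRDefs
import Fermat.Agent.S18.GR_RedAPI
import Fermat.Agent.S24.h35_PlaceBasic

set_option autoImplicit false

noncomputable section

open AlgebraicCurve IntermediateField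

namespace Fermat.Agent.S18

variable {K F k Fb : Type*} [Field K] [Field F] [Algebra K F] [Field k] [Field Fb] [Algebra k Fb]

/-- The statement of (I1) `h39_red_integral` for all weak charts of `R`. -/
def h52_RedInt (R : h39_RedDatum K F k Fb) : Prop :=
  ∀ {x : F}, h39_WeakChart R x → ∀ {f : F}, f ∈ R.O →
    (∀ P : Place K F, x ∈ P.toValuationSubring → f ∈ P.toValuationSubring) →
    ∀ Q : Place k Fb, R.redF x ∈ Q.toValuationSubring → R.redF f ∈ Q.toValuationSubring

/-- `h39_Lx_red` from (I1). -/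
theorem h52_Lx_red_of_int (R : h39_RedDatum K F k Fb) (hInt : h52_RedInt R)
    {x : F} (hx : h39_WeakChart R x) (n : ℕ) {f : F} (hf : f ∈ h39_Lx K x n) (hfO : f ∈ R.O) :
    R.redF f ∈ h39_Lx k (R.redF x) n := by
  have hne : R.redF x ≠ 0 := by
    intro h0
    exact hx.transcendental (h0 ▸ isAlgebraic_zero)
  have hx0 : x ≠ 0 := by
    rintro rfl
    exact hne (h39_redF_zero R)
  obtain ⟨hxinv, hredinv⟩ := h39_inv_of_redF_ne_zero R hne
  have hf' := (h39_mem_Lx_iff).1 hf
  rw [h39_mem_Lx_iff]
  intro Q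
  constructor
  · intro hQ
    have hxQ : R.redF x ∈ Q.toValuationSubring :=
      (Fermat.Agent.S24.h35_mem_iff_ord_nonneg Q hne).2 hQ
    have h1 : R.redF f ∈ Q.toValuationSubring := by
      refine hInt hx hfO (fun P hP => ?_) Q hxQ
      rcases (hf' P).1 (Fermat.Agent.S24.h35_ord_nonneg_of_mem P hP) with h0 | h1
      · rw [h0]; exact P.toValuationSubring.zero_mem
      · by_cases h0 : f = 0
        · rw [h0]; exact P.toValuationSubring.zero_mem
        · exact (Fermat.Agent.S24.h35_mem_iff_ord_nonneg P h0).2 h1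
    by_cases h0 : R.redF f = 0
    · exact Or.inl h0
    · exact Or.inr (Fermat.Agent.S24.h35_ord_nonneg_of_mem Q h1)
  · intro hQ
    by_cases hfb : R.redF f = 0
    · exact Or.inl hfb
    right
    -- `g = f * x⁻¹ ^ n` is regular on the chart `x⁻¹`
    have hgO : f * x⁻¹ ^ n ∈ R.O := R.O.mul_mem _ _ hfO (R.O.pow_mem hxinv n)
    have hgred : R.redF (f * x⁻¹ ^ n) = R.redF f * (R.redF x)⁻¹ ^ n := by
      rw [h39_redF_mul R hfO (R.O.pow_mem hxinv n), h39_redF_pow R hxinv, hredinv]
    have hxinvQ : R.redF x⁻¹ ∈ Q.toValuationSubring := by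
      rw [hredinv]
      refine (Fermat.Agent.S24.h35_mem_iff_ord_nonneg Q (inv_ne_zero hne)).2 ?_
      rw [Place.ord_inv]
      omega
    have hg : R.redF (f * x⁻¹ ^ n) ∈ Q.toValuationSubring := by
      refine hInt (h39_weakChart_inv R hx) hgO (fun P hP => ?_) Q hxinvQ
      by_cases h0 : f = 0
      · rw [h0, zero_mul]; exact P.toValuationSubring.zero_mem
      have hPx : P.ord x ≤ 0 := by
        have := Fermat.Agent.S24.h35_ord_nonneg_of_mem P hP
        rw [Place.ord_inv] at this
        omega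
      have hg0 : f * x⁻¹ ^ n ≠ 0 := mul_ne_zero h0 (pow_ne_zero _ (inv_ne_zero hx0))
      refine (Fermat.Agent.S24.h35_mem_iff_ord_nonneg P hg0).2 ?_
      rw [Place.ord_mul P h0 (pow_ne_zero _ (inv_ne_zero hx0)), ← zpow_natCast, Place.ord_zpow,
        Place.ord_inv]
      rcases hPx.lt_or_eq with hlt | heq
      · rcases (hf' P).2 hlt with h1 | h1
        · exact absurd h1 h0
        · linarith
      · rcases (hf' P).1 heq.ge with h1 | h1
        · exact absurd h1 h0
        · rw [heq]
          simpa using h1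
    rw [hgred] at hg
    have hg0 : R.redF f * (R.redF x)⁻¹ ^ n ≠ 0 :=
      mul_ne_zero hfb (pow_ne_zero _ (inv_ne_zero hne))
    have h2 := Fermat.Agent.S24.h35_ord_nonneg_of_mem Q hg
    rw [Place.ord_mul Q hfb (pow_ne_zero _ (inv_ne_zero hne)), ← zpow_natCast, Place.ord_zpow,
      Place.ord_inv] at h2
    linarith

end Fermat.Agent.S18
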