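/-
S18 / [GR] (helper52): the two consequences of (ON) `h39_exists_on` used by the genus rows:
"reduction does not lose dimension" and "equal dimensions force surjectivity of the reduction",
with the statement of (ON) as an explicit hypothesis.
-/
import Mathlib
import Fermat.Agent.S18.Defs
import Fermat.Agent.S18.h75_RRDefs
import Fermat.Agent.S18.GR_RedAPI
import Fermat.Agent.S18.h52_GenusCore

set_option autoImplicit false

noncomputable section

open AlgebraicCurve IntermediateField

namespace Fermat.Agent.S18

variable {K F k Fb : Type*} [Field K] [Field F] [Algebra K F] [Field k] [Field Fb] [Algebra k Fb]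

/-- The statement of (ON) `h39_exists_on` for all finite-dimensional `K`-subspaces of `F`. -/
def h52_ON (R : h39_RedDatum K F k Fb) : Prop :=
  ∀ (V : Submodule K F) [FiniteDimensional K V],
    ∃ e : Fin (Module.finrank K V) → F,
      (∀ i, e i ∈ V) ∧ (∀ i, e i ∈ R.O) ∧ LinearIndependent k (fun i => R.redF (e i))

/-- (ON) ⟹ reduction does not lose dimension (`h39_finrank_le_of_red`). -/
theorem h52_redLe_of_on (R : h39_RedDatum K F k Fb) (hON : h52_ON R) : h52_RedLe R := by
  intro V _ W _ h
  obtain ⟨e, heV, heO, hli⟩ := hON V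
  let w : Fin (Module.finrank K V) → W := fun i => ⟨R.redF (e i), h _ (heV i) (heO i)⟩
  have hw : LinearIndependent k w := by
    refine LinearIndependent.of_comp W.subtype ?_
    exact hli
  simpa using hw.fintype_card_le_finrank

/-- (ON) ⟹ equal dimensions force surjectivity of the reduction
(`h39_red_surjective_of_finrank`). -/
theorem h52_redSurj_of_on (R : h39_RedDatum K F k Fb) (hON : h52_ON R) : h52_RedSurj R := by
  intro V _ W _ h hd fb hfb
  obtain ⟨e, heV, heO, hli⟩ := hON V
  let w : Fin (Module.finrank K V) → W := fun i => ⟨R.redF (e i), h _ (heV i) (heO i)⟩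
  have hw : LinearIndependent k w := by
    refine LinearIndependent.of_comp W.subtype ?_
    exact hli
  have hcard : Fintype.card (Fin (Module.finrank K V)) = Module.finrank k W :=
    le_antisymm hw.fintype_card_le_finrank (by simpa using hd)
  have hspan : Submodule.span k (Set.range w) = ⊤ :=
    hw.span_eq_top_of_card_eq_finrank' hcard
  have hmem : (⟨fb, hfb⟩ : W) ∈ Submodule.span k (Set.range w) := by
    rw [hspan]; trivial
  obtain ⟨c, hc⟩ := (Submodule.mem_span_range_iff_exists_fun k).1 hmem
  choose a haA ha using fun i => h39_resK_surjective R (c i)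
  have hO : ∀ i, a i • e i ∈ R.O := fun i => by
    rw [Algebra.smul_def]
    exact R.O.mul_mem _ _ ((R.mem_iff (a i)).1 (haA i)) (heO i)
  refine ⟨∑ i, a i • e i, V.sum_mem (fun i _ => V.smul_mem _ (heV i)),
    R.O.sum_mem (fun i _ => hO i), ?_⟩
  rw [h39_redF_sum R _ _ (fun i _ => hO i)]
  have hc' : ∑ i, ((c i • w i : W) : Fb) = fb := by
    have := congrArg (Subtype.val) hc
    rwa [AddSubmonoidClass.coe_finsetSum] at this
  rw [← hc']
  refine Finset.sum_congr rfl (fun i _ => ?_)
  rw [Algebra.smul_def, h39_redF_mul R ((R.mem_iff (a i)).1 (haA i)) (heO i),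
    h39_redF_algebraMap R (haA i), ha i]
  simp [w, Algebra.smul_def]

end Fermat.Agent.S18
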