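import Mathlib

/-!
# S18 CORE: the two ring-level identities (Mathlib only)

* `h53_loc_alg` : the local congruence (LOC) in an arbitrary commutative ring.
* `h53_newton_alg` : the quadratic Newton step.
-/

set_option autoImplicit false

namespace Fermat.Agent.S18

open Polynomial

/-- Auxiliary form of `h53_loc_alg` with all abbreviations as variables. -/
theorem h53_loc_alg_aux {O : Type*} [CommRing O] (m : ℕ)
    (a g u w h winv uinv minv ρ z₀ sinv U V G S h1 : O)
    (hw : w * winv = 1) (hu : u * uinv = 1) (hm : (m : O) * minv = 1)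
    (hg : g ^ m = u * (1 + a * h))
    (hU : U = u * winv ^ m) (hG : G = g * winv)
    (hS : S = ∑ i ∈ Finset.range m, G ^ i * V ^ (m - 1 - i))
    (hh1 : h1 = sinv * (U * h - a * z₀ * ρ))
    (hVm : V ^ m = U + a ^ 2 * z₀ * ρ) (hs : S * sinv = 1) :
    G - V = a * h1 ∧ ∃ z, h * g * minv - h1 * w = a * z := by
  have hGm : G ^ m = U * (1 + a * h) := by
    rw [hG, mul_pow, hg, hU]; ring
  have key : S * (G - V) = a * (U * h - a * z₀ * ρ) := by
    rw [hS, geom_sum₂_mul, hGm, hVm]; ring
  have h_i : G - V = a * h1 := by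
    have : G - V = (S * sinv) * (G - V) := by rw [hs, one_mul]
    rw [this, hh1]
    calc S * sinv * (G - V) = sinv * (S * (G - V)) := by ring
      _ = _ := by rw [key]; ring
  refine ⟨h_i, ?_⟩
  -- second part: work modulo `a`
  let J : Ideal O := Ideal.span {a}
  suffices hmem : h * g * minv - h1 * w ∈ J by
    obtain ⟨z, hz⟩ := Ideal.mem_span_singleton'.1 hmem
    exact ⟨z, by rw [← hz, mul_comm]⟩
  rw [← Ideal.Quotient.eq_zero_iff_mem]
  obtain ⟨π, hπ⟩ : ∃ π : O →+* O ⧸ J, π = Ideal.Quotient.mk J := ⟨_, rfl⟩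
  rw [← hπ]
  have ha : π a = 0 := by
    rw [hπ]; exact Ideal.Quotient.eq_zero_iff_mem.2 (Ideal.mem_span_singleton_self a)
  have hGV : π G = π V := by
    have := congrArg π h_i
    rw [map_sub, map_mul, ha, zero_mul, sub_eq_zero] at this
    exact this
  have hSπ : π S = (m : O ⧸ J) * π V ^ (m - 1) := by
    rw [hS, map_sum]
    have : ∀ i ∈ Finset.range m, π (G ^ i * V ^ (m - 1 - i)) = π V ^ (m - 1) := by
      intro i hi
      rw [map_mul, map_pow, map_pow, hGV, ← pow_add]
      congr 1
      have := Finset.mem_range.1 hi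
      omega
    rw [Finset.sum_congr rfl this, Finset.sum_const, Finset.card_range, nsmul_eq_mul]
  have hUh : π U * π h = π S * π h1 := by
    have h2 : S * h1 = U * h - a * z₀ * ρ := by
      rw [hh1]
      calc S * (sinv * (U * h - a * z₀ * ρ)) = (S * sinv) * (U * h - a * z₀ * ρ) := by ring
        _ = _ := by rw [hs, one_mul]
    have := congrArg π h2
    rw [map_mul, map_sub, map_mul, map_mul, map_mul, ha] at this
    rw [this]; ring
  have hVU : π V ^ m = π U := by
    have := congrArg π hVm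
    rw [map_pow, map_add, map_mul, map_mul, map_pow, ha] at this
    rw [this]; ring
  have hgG : π g = π G * π w := by
    have : g = G * w := by
      rw [hG]
      calc g = g * (w * winv) := by rw [hw, mul_one]
        _ = _ := by ring
    rw [this, map_mul]
  have hmπ : (m : O ⧸ J) * π minv = 1 := by
    have := congrArg π hm
    rwa [map_mul, map_natCast, map_one] at this
  have hUinv : π U * π (uinv * w ^ m) = 1 := by
    rw [← map_mul, hU]
    have : u * winv ^ m * (uinv * w ^ m) = (u * uinv) * (w * winv) ^ m := by ring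
    rw [this, hu, hw]; simp
  -- main computation
  have main : π U * (m : O ⧸ J) * (π h * π g * π minv - π h1 * π w) = 0 := by
    rcases Nat.eq_zero_or_pos m with hm0 | hm0
    · subst hm0; simp
    have e1 : π U * (m : O ⧸ J) * (π h * π g * π minv) =
        (π U * π h) * π g * ((m : O ⧸ J) * π minv) := by ring
    have hpow : π V ^ (m - 1) * π V = π V ^ m := by
      rw [← pow_succ]; congr 1; omega
    rw [mul_sub, e1, hUh, hSπ, hgG, hGV, hmπ]
    calc (m : O ⧸ J) * π V ^ (m - 1) * π h1 * (π V * π w) * 1 - π U * (m : O ⧸ J) * (π h1 * π w)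
        = (m : O ⧸ J) * (π V ^ (m - 1) * π V) * π h1 * π w - π U * (m : O ⧸ J) * (π h1 * π w) := by
          ring
      _ = 0 := by rw [hpow, hVU]; ring
  rw [map_sub, map_mul, map_mul, map_mul]
  calc π h * π g * π minv - π h1 * π w
      = (π U * π (uinv * w ^ m)) * ((m : O ⧸ J) * π minv) *
          (π h * π g * π minv - π h1 * π w) := by rw [hUinv, hmπ]; ring
    _ = π (uinv * w ^ m) * π minv *
          (π U * (m : O ⧸ J) * (π h * π g * π minv - π h1 * π w)) := by ring
    _ = 0 := by rw [main, mul_zero]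

/-- **(LOC), ring level.** `G = g / w`, `U = u / w ^ m`, `V = 1 + (U - 1) * vv` an approximate
`m`-th root of `U` up to `a ^ 2`, `Σ = ∑ G ^ i V ^ (m - 1 - i)` invertible. Then `G - V = a * h1`
and `h * g / m ≡ h1 * w` modulo `a`. -/
theorem h53_loc_alg {O : Type*} [CommRing O] (m N : ℕ) (a g u w h winv uinv minv vv ρ z₀ sinv : O)
    (hw : w * winv = 1) (hu : u * uinv = 1) (hm : (m : O) * minv = 1)
    (hg : g ^ m = u * (1 + a * h))
    (hV : (1 + (u * winv ^ m - 1) * vv) ^ m =
      1 + (u * winv ^ m - 1) + (u * winv ^ m - 1) ^ N * ρ)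
    (hN : (u * winv ^ m - 1) ^ N = a ^ 2 * z₀)
    (hs : (∑ i ∈ Finset.range m, (g * winv) ^ i * (1 + (u * winv ^ m - 1) * vv) ^ (m - 1 - i))
      * sinv = 1) :
    g * winv - (1 + (u * winv ^ m - 1) * vv) = a * (sinv * (u * winv ^ m * h - a * z₀ * ρ)) ∧
      ∃ z, h * g * minv - sinv * (u * winv ^ m * h - a * z₀ * ρ) * w = a * z :=
  h53_loc_alg_aux m a g u w h winv uinv minv ρ z₀ sinv (u * winv ^ m)
    (1 + (u * winv ^ m - 1) * vv) (g * winv) _ _ hw hu hm hg rfl rfl rfl rfl
    (by rw [hV, hN]; ring) hs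

/-- **Quadratic Newton step, ring level.** -/
theorem h53_newton_alg {O : Type*} [CommRing O] (m : ℕ) (hm0 : m ≠ 0) (a g u uinv minv h c z : O)
    (hu : u * uinv = 1) (hm : (m : O) * minv = 1) (hg : g ^ m = u * (1 + a * h))
    (hc : h * g * minv = c + a * z) : ∃ h', (g - a * c) ^ m = u * (1 + a ^ 2 * h') := by
  obtain ⟨k, hk⟩ := powAddExpansion g (-(a * c)) m
  have hmc : (m : O) * c = h * g - (m : O) * a * z := by
    have : (m : O) * (h * g * minv) = h * g * ((m : O) * minv) := by ring
    rw [hm, mul_one] at this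
    rw [← this, hc]; ring
  have hgm : g ^ (m - 1) * g = g ^ m := by
    rw [← pow_succ]; congr 1; omega
  refine ⟨-h ^ 2 + uinv * ((m : O) * z * g ^ (m - 1) + k * c ^ 2), ?_⟩
  have e : g - a * c = g + -(a * c) := by ring
  rw [e, hk]
  have e2 : (m : O) * g ^ (m - 1) * -(a * c) = -(a * g ^ (m - 1) * ((m : O) * c)) := by ring
  rw [e2, hmc]
  have e3 : a * g ^ (m - 1) * (h * g - (m : O) * a * z) =
      a * h * (g ^ (m - 1) * g) - a ^ 2 * ((m : O) * z * g ^ (m - 1)) := by ring
  rw [e3, hgm, hg]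
  have e4 : u * (1 + a ^ 2 * (-h ^ 2 + uinv * ((m : O) * z * g ^ (m - 1) + k * c ^ 2))) =
      u - u * a ^ 2 * h ^ 2 + (u * uinv) * (a ^ 2 * ((m : O) * z * g ^ (m - 1) + k * c ^ 2)) := by
    ring
  rw [e4, hu]
  ring

end Fermat.Agent.S18
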