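import Mathlib
import Fermat.Prelude.Def_FLTPrelim_Ramification

/-!
# S18 CORE leaf: approximate common zeros give exact common zeros (Nullstellensatz certificate)

* `h53_exists_common_zero` : over an algebraically closed field `K` with a valuation subring `A`
  and an element `ϖ` such that no nonzero `d` is divisible by all powers of `ϖ`, a family of
  polynomials which has, for every `n`, an `A`-integral point where all of them are divisible
  by `ϖ ^ n`, has a common zero over `K`.
* `h53_not_divisible_of_liesOverPrime` : the divisibility hypothesis for a valuation subring of a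
  field algebraic over `ℚ` lying over a prime `ℓ`, with `ϖ = ℓ`.
-/

set_option autoImplicit false

namespace Fermat.Agent.S18

open MvPolynomial

/-- Common denominator in a valuation subring for a finite set of elements. -/
theorem h53_exists_common_denominator {K : Type*} [Field K] (A : ValuationSubring K)
    (S : Finset K) : ∃ d : K, d ≠ 0 ∧ d ∈ A ∧ ∀ a ∈ S, d * a ∈ A := by
  classical
  induction S using Finset.induction_on with
  | empty => exact ⟨1, one_ne_zero, A.one_mem, by simp⟩
  | insert a S _ ih =>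
    obtain ⟨d, hd0, hdA, hd⟩ := ih
    rcases A.mem_or_inv_mem a with ha | ha
    · refine ⟨d, hd0, hdA, fun b hb => ?_⟩
      rcases Finset.mem_insert.1 hb with hba | hb
      · rw [hba]; exact A.mul_mem _ _ hdA ha
      · exact hd b hb
    · by_cases ha0 : a = 0
      · refine ⟨d, hd0, hdA, fun b hb => ?_⟩
        rcases Finset.mem_insert.1 hb with hba | hb
        · rw [hba, ha0, mul_zero]; exact A.zero_mem
        · exact hd b hb
      · refine ⟨a⁻¹ * d, mul_ne_zero (inv_ne_zero ha0) hd0, A.mul_mem _ _ ha hdA, fun b hb => ?_⟩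
        rcases Finset.mem_insert.1 hb with hba | hb
        · have : a⁻¹ * d * b = d := by rw [hba]; field_simp
          rw [this]; exact hdA
        · rw [mul_assoc]; exact A.mul_mem _ _ ha (hd b hb)

/-- A polynomial with coefficients in `A` takes values in `A` at points of `A`. -/
theorem h53_eval_mem {K : Type*} [Field K] (A : ValuationSubring K) {σ : Type*}
    (p : MvPolynomial σ K) (hp : ∀ s, p.coeff s ∈ A) (x : σ → K) (hx : ∀ i, x i ∈ A) :
    MvPolynomial.eval x p ∈ A := by
  rw [MvPolynomial.eval_eq]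
  refine A.toSubring.sum_mem fun s _ => A.mul_mem _ _ (hp s) ?_
  exact A.toSubring.prod_mem fun i _ => A.toSubring.pow_mem (hx i) _

/-- **Nullstellensatz certificate lemma.** If for every `n` the polynomials `Ψ j` have an
`A`-integral point at which all of them are divisible by `ϖ ^ n`, then they have a common zero. -/
theorem h53_exists_common_zero {K : Type*} [Field K] [IsAlgClosed K] (A : ValuationSubring K)
    (ϖ : K) (hϖ : ∀ d : K, d ≠ 0 → ∃ n : ℕ, d * (ϖ ^ n)⁻¹ ∉ A)
    {σ : Type*} [Finite σ] {ι : Type*} (Ψ : ι → MvPolynomial σ K)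
    (happ : ∀ n : ℕ, ∃ x : σ → K, (∀ i, x i ∈ A) ∧
      ∀ j, MvPolynomial.eval x (Ψ j) * (ϖ ^ n)⁻¹ ∈ A) :
    ∃ x : σ → K, ∀ j, MvPolynomial.eval x (Ψ j) = 0 := by
  classical
  by_contra hno
  push Not at hno
  set I : Ideal (MvPolynomial σ K) := Ideal.span (Set.range Ψ) with hI
  have hzero : zeroLocus K I = ∅ := by
    ext x
    simp only [Set.mem_empty_iff_false, iff_false]
    intro hx
    obtain ⟨j, hj⟩ := hno x
    apply hj
    have := hx (Ψ j) (Ideal.subset_span ⟨j, rfl⟩)
    simpa [MvPolynomial.aeval_eq_eval] using this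
  have htop : I = ⊤ := by
    have h1 := vanishingIdeal_zeroLocus_eq_radical (K := K) I
    rw [hzero, vanishingIdeal_empty] at h1
    exact Ideal.radical_eq_top.1 h1.symm
  have h1 : (1 : MvPolynomial σ K) ∈ Ideal.span (Set.range Ψ) := by
    rw [← hI, htop]; exact Submodule.mem_top
  rw [Ideal.span, Finsupp.mem_span_range_iff_exists_finsupp] at h1
  obtain ⟨c, hc⟩ := h1
  -- common denominator for all coefficients of all `c j`
  obtain ⟨d, hd0, hdA, hd⟩ := h53_exists_common_denominator A
    (c.support.biUnion fun j => (c j).support.image fun s => (c j).coeff s)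
  obtain ⟨n, hn⟩ := hϖ d hd0
  obtain ⟨x, hxA, hx⟩ := happ n
  apply hn
  have hev : (1 : K) = c.sum fun j a => MvPolynomial.eval x a * MvPolynomial.eval x (Ψ j) := by
    have := congrArg (MvPolynomial.eval x) hc
    rw [Finsupp.sum, map_sum] at this
    simp only [smul_eq_mul, map_mul, map_one] at this
    rw [Finsupp.sum]; exact this.symm
  have : d * (ϖ ^ n)⁻¹ = c.sum fun j a =>
      MvPolynomial.eval x (C d * a) * (MvPolynomial.eval x (Ψ j) * (ϖ ^ n)⁻¹) := by
    calc d * (ϖ ^ n)⁻¹ = d * (ϖ ^ n)⁻¹ * 1 := (mul_one _).symm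
      _ = _ := by
        rw [hev, Finsupp.sum, Finsupp.sum, Finset.mul_sum]
        refine Finset.sum_congr rfl fun j _ => ?_
        simp only [map_mul, MvPolynomial.eval_C]
        ring
  rw [this, Finsupp.sum]
  refine A.toSubring.sum_mem fun j hj => A.mul_mem _ _ ?_ (hx j)
  refine h53_eval_mem A _ (fun s => ?_) x hxA
  rw [MvPolynomial.coeff_C_mul]
  by_cases hs : s ∈ (c j).support
  · exact hd _ (Finset.mem_biUnion.2 ⟨j, hj, Finset.mem_image_of_mem _ hs⟩)
  · rw [MvPolynomial.notMem_support_iff.1 hs, mul_zero]; exact A.zero_mem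

/-- For a valuation subring `A` of a field algebraic over `ℚ` lying over the prime `ℓ`,
no nonzero element is divisible in `A` by all powers of `ℓ`. -/
theorem h53_not_divisible_of_liesOverPrime {L : Type*} [Field L] [Algebra ℚ L]
    [Algebra.IsAlgebraic ℚ L] (A : ValuationSubring L) {ℓ : ℕ} (hℓ : ℓ.Prime)
    (hA : A.LiesOverPrime ℓ) (d : L) (hd : d ≠ 0) : ∃ n : ℕ, d * ((ℓ : L) ^ n)⁻¹ ∉ A := by
  classical
  by_contra hall
  push Not at hall
  have hdA : d ∈ A := by simpa using hall 0
  have hℓnu : (ℓ : L) ∈ A.nonunits := hA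
  -- an integer polynomial with nonzero constant term annihilating `d`
  have halg : IsAlgebraic ℤ d :=
    (IsFractionRing.isAlgebraic_iff ℤ ℚ L).2 (Algebra.IsAlgebraic.isAlgebraic d)
  obtain ⟨p, hp0, hpd⟩ := halg
  obtain ⟨q, hpq, hq⟩ := Polynomial.exists_eq_pow_rootMultiplicity_mul_and_not_dvd p hp0 0
  have hqd : Polynomial.aeval d q = 0 := by
    rw [hpq, map_mul, map_pow] at hpd
    simp only [map_zero, sub_zero, Polynomial.aeval_X] at hpd
    exact (mul_eq_zero.1 hpd).resolve_left (pow_ne_zero _ hd)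
  have hq0 : q.coeff 0 ≠ 0 := by
    intro h
    apply hq
    rw [map_zero, sub_zero]
    exact Polynomial.X_dvd_iff.2 h
  have hc : ((q.coeff 0 : ℤ) : L) = -(d * Polynomial.aeval d q.divX) := by
    have := congrArg (Polynomial.aeval d) (Polynomial.divX_mul_X_add q)
    rw [hqd, map_add, map_mul, Polynomial.aeval_X, Polynomial.aeval_C] at this
    simp only [eq_intCast] at this
    linear_combination this
  have hmem : Polynomial.aeval d q.divX ∈ A := by
    rw [Polynomial.aeval_eq_sum_range]
    refine A.toSubring.sum_mem fun i _ => ?_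
    rw [zsmul_eq_mul]
    exact A.mul_mem _ _ (intCast_mem A.toSubring _) (A.toSubring.pow_mem hdA _)
  obtain ⟨k, c', hc', hkc⟩ : ∃ (k : ℕ) (c' : ℤ), ¬ (ℓ : ℤ) ∣ c' ∧ q.coeff 0 = (ℓ : ℤ) ^ k * c' := by
    obtain ⟨k, c', hc', hkc⟩ := Nat.exists_eq_pow_mul_and_not_dvd
      (Int.natAbs_ne_zero.2 hq0) ℓ hℓ.ne_one
    rcases Int.natAbs_eq (q.coeff 0) with h | h
    · refine ⟨k, c', ?_, ?_⟩
      · exact_mod_cast hc'
      · rw [h, hkc]; push_cast; ring
    · refine ⟨k, -c', ?_, ?_⟩
      · rw [dvd_neg]; exact_mod_cast hc'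
      · rw [h, hkc]; push_cast; ring
  have hℓ0 : (ℓ : L) ≠ 0 := by
    have : algebraMap ℚ L (ℓ : ℚ) ≠ 0 := by
      rw [Ne, map_eq_zero]
      exact_mod_cast hℓ.ne_zero
    simpa using this
  -- c' / ℓ ∈ A
  have h1 : (c' : L) * (ℓ : L)⁻¹ ∈ A := by
    have h2 : (c' : L) * (ℓ : L)⁻¹ = -((d * ((ℓ : L) ^ (k + 1))⁻¹) * Polynomial.aeval d q.divX) := by
      have h3 : ((q.coeff 0 : ℤ) : L) = (ℓ : L) ^ k * (c' : L) := by
        rw [hkc]; push_cast; ring
      rw [h3] at hc
      field_simp
      linear_combination (ℓ : L) * hc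
    rw [h2]
    exact A.toSubring.neg_mem (A.mul_mem _ _ (hall (k + 1)) hmem)
  -- ℓ and c' are coprime
  have hcop : IsCoprime (ℓ : ℤ) c' := (Nat.prime_iff_prime_int.1 hℓ).coprime_iff_not_dvd.2 hc'
  obtain ⟨a, b, hab⟩ := hcop
  have hinv : (ℓ : L)⁻¹ ∈ A := by
    have : (ℓ : L)⁻¹ = (a : L) + (b : L) * ((c' : L) * (ℓ : L)⁻¹) := by
      have := congrArg (Int.cast : ℤ → L) hab
      push_cast at this
      field_simp
      linear_combination -this
    rw [this]
    exact A.add_mem _ _ (intCast_mem A.toSubring _) (A.mul_mem _ _ (intCast_mem A.toSubring _) h1)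
  rcases A.mem_nonunits_iff_or.1 hℓnu with h | h
  · exact hℓ0 h
  · exact h hinv

end Fermat.Agent.S18
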