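import Fermat.Agent.S18.h53_CoreIter
import Fermat.Agent.S18.h53_NullCert

/-!
# S18 CORE: the Nullstellensatz finish
-/

set_option autoImplicit false

namespace Fermat.Agent.S18

open AlgebraicCurve Fermat.Agent.S24

variable {K F k Fb : Type*} [Field K] [Field F] [Algebra K F] [Field k] [Field Fb] [Algebra k Fb]

/-- Orthonormal families are linearly independent over `K`. -/
theorem h53_linearIndependent_of_orthonormal (Ov : ValuationSubring F) {n : ℕ} (ω : Fin n → F)
    (hon : ∀ x : Fin n → K, (∀ i, algebraMap K F (x i) ∈ Ov) →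
      (∑ i, x i • ω i) ∈ Ov.nonunits → ∀ i, algebraMap K F (x i) ∈ Ov.nonunits) :
    LinearIndependent K ω := by
  classical
  rw [Fintype.linearIndependent_iff]
  intro c hc
  by_contra hne
  push Not at hne
  obtain ⟨i₀, hi₀⟩ := hne
  obtain ⟨j₀, -, hj₀⟩ := Finset.exists_max_image Finset.univ
    (fun j => Ov.valuation (algebraMap K F (c j))) ⟨i₀, Finset.mem_univ _⟩
  have hcj₀ : c j₀ ≠ 0 := by
    intro h0
    have h1 := hj₀ i₀ (Finset.mem_univ _)
    simp only [h0, map_zero] at h1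
    have : Ov.valuation (algebraMap K F (c i₀)) ≠ 0 :=
      (Valuation.ne_zero_iff _).2 (by simpa using hi₀)
    exact this (le_antisymm h1 zero_le)
  have hvj₀ : Ov.valuation (algebraMap K F (c j₀)) ≠ 0 :=
    (Valuation.ne_zero_iff _).2 (by simpa using hcj₀)
  have hx : ∀ i, algebraMap K F (c i / c j₀) ∈ Ov := by
    intro i
    rw [← ValuationSubring.valuation_le_one_iff, map_div₀, map_div₀]
    exact div_le_one_of_le₀ (hj₀ i (Finset.mem_univ _)) zero_le
  have hsum : (∑ i, (c i / c j₀) • ω i) ∈ Ov.nonunits := by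
    have : (∑ i, (c i / c j₀) • ω i) = (c j₀)⁻¹ • ∑ i, c i • ω i := by
      rw [Finset.smul_sum]
      refine Finset.sum_congr rfl fun i _ => ?_
      rw [smul_smul, div_eq_inv_mul]
    rw [this, hc, smul_zero]
    exact Ov.nonunits.zero_mem
  have := hon (fun i => c i / c j₀) hx hsum j₀
  rw [div_self hcj₀, map_one, ValuationSubring.mem_nonunits_iff, map_one] at this
  exact lt_irrefl _ this

/-- Applying a `K`-linear functional to the coefficients of a polynomial over `F` commutes with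
evaluation at `K`-points. -/
theorem h53_eval_mapCoeff {σ : Type*} (PF : MvPolynomial σ F) (φ : F →ₗ[K] K) (x : σ → K) :
    MvPolynomial.eval x (∑ s ∈ PF.support, MvPolynomial.monomial s (φ (PF.coeff s))) =
      φ (MvPolynomial.eval (fun i => algebraMap K F (x i)) PF) := by
  rw [map_sum, MvPolynomial.eval_eq, map_sum]
  refine Finset.sum_congr rfl fun s _ => ?_
  rw [MvPolynomial.eval_monomial, Finsupp.prod]
  have : PF.coeff s * ∏ i ∈ s.support, algebraMap K F (x i) ^ s i =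
      (∏ i ∈ s.support, x i ^ s i) • PF.coeff s := by
    rw [Algebra.smul_def, map_prod, mul_comm]
    simp
  rw [this, map_smul, smul_eq_mul, mul_comm]

namespace h53_RedDatum

variable (R : h53_RedDatum K F k Fb)

/-- **Finish**: approximate `m`-th roots of `u` in the fixed lattice `L(E - D) ∩ Ov` with errors
`a ^ (2 ^ n)` give an exact `m`-th root. -/
theorem finish [IsAlgClosed K] {m : ℕ} (D E : Divisor K F) (hE : 0 ≤ E)
    (u : F) (huO : u ∈ R.Ov) (hu : ∀ P : Place K F, P.ord u = m * D P)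
    (hL1 : R.Liftable (E - D)) (hL3 : R.Liftable (m • (E - D)))
    (a' : K) (ha0 : a' ≠ 0) (ha'O : algebraMap K F a' ∈ R.Ov)
    (hϖ : ∀ d : K, d ≠ 0 → ∃ n : ℕ, algebraMap K F (d * (a' ^ n)⁻¹) ∉ R.Ov)
    (happ : ∀ n : ℕ, ∃ g h : F, g ∈ R.Ov ∧ h ∈ R.Ov ∧ h53_InL (E - D) g ∧
      g ^ m = u * (1 + algebraMap K F (a' ^ (2 ^ n)) * h)) :
    ∃ g : F, g ^ m = u := by
  classical
  obtain ⟨⟨n₁, b, hb, hbspan, -⟩, -⟩ := hL1
  obtain ⟨⟨n₃, ω, hω, hωspan, hωon⟩, -⟩ := hL3
  have hωli : LinearIndependent K ω := h53_linearIndependent_of_orthonormal R.Ov ω hωon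
  obtain ⟨Lmap, hLmap⟩ : ∃ Lmap : (Fin n₃ → K) →ₗ[K] F, ∀ c, Lmap c = ∑ j, c j • ω j :=
    ⟨Fintype.linearCombination K ω, fun c => Fintype.linearCombination_apply K ω c⟩
  have hLinj : Function.Injective Lmap := by
    have := hωli.fintypeLinearCombination_injective
    intro c c' hcc
    apply this
    rw [Fintype.linearCombination_apply, Fintype.linearCombination_apply, ← hLmap, ← hLmap, hcc]
  obtain ⟨φ, hφ⟩ := Lmap.exists_leftInverse_of_injective (LinearMap.ker_eq_bot.2 hLinj)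
  have hφL : ∀ c, φ (Lmap c) = c := fun c => by
    have := congrArg (fun f => f c) hφ
    simpa using this
  -- the polynomial system
  obtain ⟨PF, hPF⟩ : ∃ PF : MvPolynomial (Fin n₁) F,
      PF = (∑ i, MvPolynomial.C (b i) * MvPolynomial.X i) ^ m - MvPolynomial.C u := ⟨_, rfl⟩
  have hPFeval : ∀ x : Fin n₁ → K, MvPolynomial.eval (fun i => algebraMap K F (x i)) PF =
      (∑ i, x i • b i) ^ m - u := by
    intro x
    rw [hPF, map_sub, map_pow, map_sum, MvPolynomial.eval_C]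
    congr 2
    refine Finset.sum_congr rfl fun i _ => ?_
    rw [map_mul, MvPolynomial.eval_C, MvPolynomial.eval_X, Algebra.smul_def, mul_comm]
  let Ψ : Fin n₃ → MvPolynomial (Fin n₁) K := fun j =>
    ∑ s ∈ PF.support, MvPolynomial.monomial s (((LinearMap.proj j) ∘ₗ φ) (PF.coeff s))
  have hΨ : ∀ (j : Fin n₃) (x : Fin n₁ → K),
      MvPolynomial.eval x (Ψ j) = φ ((∑ i, x i • b i) ^ m - u) j := by
    intro j x
    have := h53_eval_mapCoeff PF ((LinearMap.proj j) ∘ₗ φ) x
    rw [hPFeval] at this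
    exact this
  -- elements of `L(m (E - D))`
  have huL : h53_InL (m • (E - D)) u := by
    refine Or.inr fun P => ?_
    have e : (m • (E - D)) P = m * (E P - D P) := by
      rw [Finsupp.smul_apply, Finsupp.sub_apply]; simp
    rw [hu P, e]
    have := hE P
    simp only [Finsupp.coe_zero, Pi.zero_apply] at this
    nlinarith [mul_nonneg (Nat.cast_nonneg (α := ℤ) m) this]
  have hyL : ∀ G : F, h53_InL (E - D) G → h53_InL (m • (E - D)) (G ^ m - u) :=
    fun G hG => (hG.pow m).sub huL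
  have hGL : ∀ x : Fin n₁ → K, h53_InL (E - D) (∑ i, x i • b i) :=
    fun x => h53_InL.sum _ _ fun i _ => (hb i).2.smul (x i)
  -- the valuation ring of constants
  set A : ValuationSubring K := R.Ov.comap (algebraMap K F) with hA
  have hϖ' : ∀ d : K, d ≠ 0 → ∃ n : ℕ, d * (a' ^ n)⁻¹ ∉ A := by
    intro d hd
    obtain ⟨n, hn⟩ := hϖ d hd
    exact ⟨n, fun h => hn (ValuationSubring.mem_comap.1 h)⟩
  have happ' : ∀ n : ℕ, ∃ x : Fin n₁ → K, (∀ i, x i ∈ A) ∧
      ∀ j, MvPolynomial.eval x (Ψ j) * (a' ^ n)⁻¹ ∈ A := by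
    intro n
    obtain ⟨g, h, hgO, hhO, hgL, hgh⟩ := happ n
    obtain ⟨x, hxO, hgx⟩ := hbspan g hgO hgL
    refine ⟨x, fun i => ValuationSubring.mem_comap.2 (hxO i), fun j => ?_⟩
    -- `u * h ∈ L(m (E - D)) ∩ Ov`
    have hpow0 : a' ^ (2 ^ n) ≠ 0 := pow_ne_zero _ ha0
    have hpowF : algebraMap K F (a' ^ (2 ^ n)) ≠ 0 := by simpa using hpow0
    have huh : u * h = algebraMap K F (a' ^ (2 ^ n))⁻¹ * (g ^ m - u) := by
      rw [hgh, map_inv₀]; field_simp; ring
    have huhL : h53_InL (m • (E - D)) (u * h) := by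
      rw [huh]; exact (hyL g hgL).const_mul _
    obtain ⟨ψ, hψO, hψ⟩ := hωspan (u * h) (R.Ov.mul_mem _ _ huO hhO) huhL
    have hy : (∑ i, x i • b i) ^ m - u = Lmap (fun j => a' ^ (2 ^ n) * ψ j) := by
      rw [hLmap, ← hgx]
      have : g ^ m - u = algebraMap K F (a' ^ (2 ^ n)) * (u * h) := by rw [hgh]; ring
      rw [this, hψ, Finset.mul_sum]
      refine Finset.sum_congr rfl fun j _ => ?_
      rw [mul_smul, Algebra.smul_def (a' ^ (2 ^ n))]
    rw [hΨ, hy, hφL]
    have hle : n ≤ 2 ^ n := Nat.lt_two_pow_self.le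
    have : a' ^ (2 ^ n) * ψ j * (a' ^ n)⁻¹ = a' ^ (2 ^ n - n) * ψ j := by
      rw [pow_sub₀ _ ha0 hle]; ring
    rw [this]
    exact A.mul_mem _ _ (pow_mem (ValuationSubring.mem_comap.2 ha'O) _)
      (ValuationSubring.mem_comap.2 (hψO j))
  obtain ⟨x, hx⟩ := h53_exists_common_zero A a' hϖ' Ψ happ'
  refine ⟨∑ i, x i • b i, ?_⟩
  -- the error lies in the span of `ω` and all its coordinates vanish
  have hy0 : φ ((∑ i, x i • b i) ^ m - u) = 0 := by
    funext j
    rw [← hΨ, hx j]; rfl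
  by_contra hne
  have hyne : (∑ i, x i • b i) ^ m - u ≠ 0 := sub_ne_zero.2 hne
  obtain ⟨c, hc0, hc⟩ := R.exists_const _ hyne
  have hcO : algebraMap K F c * ((∑ i, x i • b i) ^ m - u) ∈ R.Ov := by
    rw [← ValuationSubring.valuation_le_one_iff, hc]
  obtain ⟨ψ, -, hψ⟩ := hωspan _ hcO ((hyL _ (hGL x)).const_mul c)
  have hy : (∑ i, x i • b i) ^ m - u = Lmap (fun j => c⁻¹ * ψ j) := by
    rw [hLmap]
    have hcF : algebraMap K F c ≠ 0 := by simpa using hc0
    have : (∑ i, x i • b i) ^ m - u =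
        algebraMap K F c⁻¹ * (algebraMap K F c * ((∑ i, x i • b i) ^ m - u)) := by
      rw [map_inv₀]; field_simp
    rw [this, hψ, Finset.mul_sum]
    refine Finset.sum_congr rfl fun j _ => ?_
    rw [mul_smul, Algebra.smul_def c⁻¹]
  rw [hy, hφL] at hy0
  apply hyne
  rw [hy, hy0, map_zero]

end h53_RedDatum

end Fermat.Agent.S18
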