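import Mathlib
import Fermat.Agent.S18.h53_CoreDefs
import Fermat.Agent.S18.h64_SatCore

set_option autoImplicit false

/-!
# S18 core: the saturation lemma (SAT) in the `h53_RedDatum` language

`h64_sat` is the statement fixed by the CORE owner (helper53, board #1137), verbatim.  The proof
is `h64_sat_core` (file `h64_SatCore.lean`).
-/

namespace Fermat.Agent.S18

open AlgebraicCurve

variable {K F k Fb : Type*} [Field K] [Field F] [Algebra K F] [Field k] [Field Fb] [Algebra k Fb]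

/-- **Saturation lemma.**  `D1 ≤ D2` liftable, `t ∈ L(D2) ∩ Ov`; if for every place `Q` of `Fb`
the element `t` is congruent modulo `a` to some `l ∈ Ov` whose poles on the tube of `Q` are bounded
by `D1`, then `t ∈ L(D1) ∩ Ov + a • Ov`. -/
theorem h64_sat [HasPrincipalDivisors K F] (R : h53_RedDatum K F k Fb) {D1 D2 : Divisor K F}
    (hle : D1 ≤ D2) (h1 : R.Liftable D1) (h2 : R.Liftable D2)
    (t : F) (htO : t ∈ R.Ov) (ht : h53_InL D2 t) (a : K) (ha : algebraMap K F a ∈ R.Ov)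
    (hloc : ∀ Q : Place k Fb, ∃ l z : F, l ∈ R.Ov ∧ z ∈ R.Ov ∧ t - l = algebraMap K F a * z ∧
      (l = 0 ∨ ∀ P, R.r0 P = Q → -D1 P ≤ P.ord l)) :
    ∃ c z : F, c ∈ R.Ov ∧ h53_InL D1 c ∧ z ∈ R.Ov ∧ t - c = algebraMap K F a * z := by
  have _ := ha
  obtain ⟨⟨n₁, b₁, hb₁, hspan₁, hon₁⟩, hlift₁⟩ := h1
  obtain ⟨⟨n₂, b₂, hb₂, hspan₂, hon₂⟩, -⟩ := h2
  exact h64_sat_core R.Ov R.red R.red_eq_zero R.r0 R.red_div hle b₁ hb₁ hspan₁ hon₁ hlift₁ b₂
    (fun j => (hb₂ j).1) hspan₂ hon₂ t htO ht a hloc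

end Fermat.Agent.S18
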