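import Fermat.Agent.S18.h53_CoreLocal
import Fermat.Agent.S18.h64_Sat

/-!
# S18 CORE: the quadratic Newton iteration
-/

set_option autoImplicit false

namespace Fermat.Agent.S18

open AlgebraicCurve Fermat.Agent.S24

variable {K F k Fb : Type*} [Field K] [Field F] [Algebra K F] [Field k] [Field Fb] [Algebra k Fb]

namespace h53_RedDatum

variable (R : h53_RedDatum K F k Fb)

/-- **(STEP)**: one quadratic Newton step inside the lattice `L(E - D) ∩ Ov`. -/
theorem step [HasPrincipalDivisors K F]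
    (hrank : ∀ a d : K, a ≠ 0 → algebraMap K F a ∈ R.Ov.nonunits → d ≠ 0 →
      ∃ n : ℕ, algebraMap K F (d * (a ^ n)⁻¹) ∉ R.Ov)
    {m : ℕ} (hm : (m : Fb) ≠ 0) (D E : Divisor K F) (hE : 0 ≤ E)
    (u : R.Ov) (hu1 : R.red u = 1) (hu : ∀ P : Place K F, P.ord (u : F) = m * D P)
    (hgen : ∀ Q : Place k Fb, ∃ w : R.Ov, R.red w = 1 ∧
      ∀ P : Place K F, R.r0 P = Q → P.ord (w : F) = D P)
    (hL1 : R.Liftable (E - D)) (hL2 : R.Liftable ((m + 1) • E - D))
    (g : R.Ov) (hg1 : R.red g = 1) (hgL : h53_InL (E - D) (g : F))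
    (a : R.Ov) (a' : K) (haa' : (a : F) = algebraMap K F a') (ha0 : a' ≠ 0)
    (hanu : (a : F) ∈ R.Ov.nonunits)
    (h : R.Ov) (hgh : g ^ m = u * (1 + a * h)) :
    ∃ g' h' : R.Ov, R.red g' = 1 ∧ h53_InL (E - D) (g' : F) ∧
      g' ^ m = u * (1 + a ^ 2 * h') := by
  have hm0 : m ≠ 0 := by rintro rfl; simp at hm
  obtain ⟨minv, hminv⟩ := (R.isUnit_natCast hm).exists_right_inv
  obtain ⟨uinv, huinv⟩ := (R.isUnit_of_red_eq_one hu1).exists_right_inv
  have huF : (u : F) ≠ 0 := R.coe_ne_zero_of_red_ne_zero (by rw [hu1]; exact one_ne_zero)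
  have haF : (a : F) ≠ 0 := by rw [haa']; simpa using ha0
  have hminvF : (minv : F) = algebraMap K F ((m : K)⁻¹) := by
    have := congrArg (Subtype.val) hminv
    push_cast at this
    rw [map_inv₀, map_natCast]
    exact eq_inv_of_mul_eq_one_right this
  -- `t = h g / m` lies in `L((m+1)E - D)`
  have hghF : (g : F) ^ m = (u : F) * (1 + (a : F) * (h : F)) := by
    have := congrArg (Subtype.val) hgh
    push_cast at this
    exact this
  have hhF : (h : F) = ((g : F) ^ m / (u : F) - 1) * algebraMap K F a'⁻¹ := by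
    rw [hghF, map_inv₀, ← haa']
    field_simp
    ring
  have htL : h53_InL ((m + 1) • E - D) ((h * g * minv : R.Ov) : F) := by
    rw [h53_inL_iff]
    intro P
    have h1 : h53_OrdGE P ((g : F) ^ m / (u : F)) (-(m * E P)) := by
      have := ((h53_inL_iff.1 hgL P).pow m).div_of_ord_eq (g := (u : F))
      rw [hu P] at this
      refine this.mono ?_
      have e : (E - D) P = E P - D P := Finsupp.sub_apply ..
      rw [e]; ring_nf; exact le_rfl
    have h2 : h53_OrdGE P (1 : F) (-(m * E P)) :=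
      h53_OrdGE.one.mono (by
        have := hE P
        simp only [Finsupp.coe_zero, Pi.zero_apply] at this
        exact neg_nonpos.2 (mul_nonneg (Nat.cast_nonneg m) this))
    have h3 : h53_OrdGE P (h : F) (-(m * E P)) := by
      rw [hhF]
      have := (h1.sub h2).mul (h53_OrdGE.const (P := P) a'⁻¹)
      rwa [add_zero] at this
    have h4 := (h3.mul (h53_inL_iff.1 hgL P)).mul (h53_OrdGE.const (P := P) ((m : K)⁻¹))
    have e1 : ((h * g * minv : R.Ov) : F) = (h : F) * (g : F) * algebraMap K F ((m : K)⁻¹) := by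
      rw [← hminvF]; rfl
    rw [e1]
    refine h4.mono ?_
    have e : (E - D) P = E P - D P := Finsupp.sub_apply ..
    have e' : ((m + 1) • E - D) P = (m + 1) * E P - D P := by
      rw [Finsupp.sub_apply, Finsupp.smul_apply]; simp
    rw [e, e']; ring_nf; exact le_rfl
  -- local congruences
  have hloc : ∀ Q : Place k Fb, ∃ l z : F, l ∈ R.Ov ∧ z ∈ R.Ov ∧
      ((h * g * minv : R.Ov) : F) - l = algebraMap K F a' * z ∧
      (l = 0 ∨ ∀ P, R.r0 P = Q → -(E - D) P ≤ P.ord l) := by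
    intro Q
    obtain ⟨w, hw1, hw⟩ := hgen Q
    obtain ⟨l, z, hlz, hl⟩ := R.loc hrank hm D E hE u hu1 hu Q w hw1 hw g hg1 hgL a a' haa' ha0
      minv hminv h hgh
    refine ⟨l, z, l.2, z.2, ?_, hl⟩
    have := congrArg (Subtype.val) hlz
    push_cast at this
    rw [← haa']
    push_cast
    exact this
  have hle : E - D ≤ (m + 1) • E - D := by
    intro P
    have e : (E - D) P = E P - D P := Finsupp.sub_apply ..
    have e' : ((m + 1) • E - D) P = (m + 1) * E P - D P := by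
      rw [Finsupp.sub_apply, Finsupp.smul_apply]; simp
    rw [e, e']
    have := hE P
    simp only [Finsupp.coe_zero, Pi.zero_apply] at this
    nlinarith
  obtain ⟨c, z, hcO, hcL, hzO, hcz⟩ := h64_sat R hle hL1 hL2 _ (h * g * minv : R.Ov).2 htL a'
    (by rw [← haa']; exact a.2) hloc
  -- Newton
  have hc : h * g * minv = (⟨c, hcO⟩ : R.Ov) + a * (⟨z, hzO⟩ : R.Ov) := by
    apply Subtype.ext
    have hcz' : (h : F) * (g : F) * (minv : F) - c = algebraMap K F a' * z := hcz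
    push_cast
    rw [haa']
    linear_combination hcz'
  obtain ⟨h', hh'⟩ := h53_newton_alg m hm0 a g u uinv minv h ⟨c, hcO⟩ ⟨z, hzO⟩ huinv hminv hgh hc
  refine ⟨g - a * ⟨c, hcO⟩, h', ?_, ?_, hh'⟩
  · rw [map_sub, map_mul, hg1, R.red_eq_zero_of_nonunit hanu, zero_mul, sub_zero]
  · have : ((g - a * ⟨c, hcO⟩ : R.Ov) : F) = (g : F) - algebraMap K F a' * c := by
      push_cast; rw [haa']
    rw [this]
    exact hgL.sub (hcL.const_mul a')

/-- **Iteration**: errors `a, a², a⁴, …` in the same lattice. -/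
theorem iter [HasPrincipalDivisors K F]
    (hrank : ∀ a d : K, a ≠ 0 → algebraMap K F a ∈ R.Ov.nonunits → d ≠ 0 →
      ∃ n : ℕ, algebraMap K F (d * (a ^ n)⁻¹) ∉ R.Ov)
    {m : ℕ} (hm : (m : Fb) ≠ 0) (D E : Divisor K F) (hE : 0 ≤ E)
    (u : R.Ov) (hu1 : R.red u = 1) (hu : ∀ P : Place K F, P.ord (u : F) = m * D P)
    (hgen : ∀ Q : Place k Fb, ∃ w : R.Ov, R.red w = 1 ∧
      ∀ P : Place K F, R.r0 P = Q → P.ord (w : F) = D P)
    (hL1 : R.Liftable (E - D)) (hL2 : R.Liftable ((m + 1) • E - D))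
    (g₀ : R.Ov) (hg₀1 : R.red g₀ = 1) (hg₀L : h53_InL (E - D) (g₀ : F))
    (a : R.Ov) (a' : K) (haa' : (a : F) = algebraMap K F a') (ha0 : a' ≠ 0)
    (hanu : (a : F) ∈ R.Ov.nonunits)
    (h₀ : R.Ov) (hgh₀ : g₀ ^ m = u * (1 + a * h₀)) (n : ℕ) :
    ∃ g h : R.Ov, R.red g = 1 ∧ h53_InL (E - D) (g : F) ∧
      g ^ m = u * (1 + a ^ (2 ^ n) * h) := by
  induction n with
  | zero => exact ⟨g₀, h₀, hg₀1, hg₀L, by simpa using hgh₀⟩
  | succ n ih =>
    obtain ⟨g, h, hg1, hgL, hgh⟩ := ih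
    have hnu : ((a ^ (2 ^ n) : R.Ov) : F) ∈ R.Ov.nonunits := by
      have h2 : 2 ^ n ≠ 0 := by positivity
      obtain ⟨j, hj⟩ : ∃ j, 2 ^ n = j + 1 := Nat.exists_eq_succ_of_ne_zero h2
      rw [hj, pow_succ]
      push_cast
      rw [mul_comm]
      exact h53_nonunits_mul_mem hanu (pow_mem a.2 j)
    obtain ⟨g', h', hg'1, hg'L, hg'h⟩ := R.step hrank hm D E hE u hu1 hu hgen hL1 hL2 g hg1 hgL
      (a ^ (2 ^ n)) (a' ^ (2 ^ n)) (by rw [map_pow, ← haa']; rfl) (pow_ne_zero _ ha0) hnu h hgh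
    refine ⟨g', h', hg'1, hg'L, ?_⟩
    rw [hg'h, ← pow_mul, pow_succ]

end h53_RedDatum

end Fermat.Agent.S18
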