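import Mathlib

/-!
# S18 CORE leaves (Mathlib only)

* `h53_root_approx` : if `m` is invertible in `R`, then for every `n` there is a polynomial
  `1 + X * P₁` whose `m`-th power is `1 + X` modulo `X ^ n`.
* `h53_root_approx_eval` : the same, evaluated at an element `x` of an `R`-algebra.
-/

set_option autoImplicit false

namespace Fermat.Agent.S18

open Polynomial

/-- Truncated `m`-th root of `1 + X`: for `m` invertible, `(1 + X * P₁) ^ m = 1 + X + X ^ n * Q`. -/
theorem h53_root_approx {R : Type*} [CommRing R] (m : ℕ) (hm : IsUnit (m : R)) (n : ℕ) :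
    ∃ P₁ Q : R[X], (1 + X * P₁) ^ m = 1 + X + X ^ n * Q := by
  obtain ⟨mi, hmi⟩ := hm.exists_right_inv
  induction n with
  | zero => exact ⟨0, -X, by ring⟩
  | succ n ih =>
    rcases Nat.eq_zero_or_pos n with rfl | hn
    · exact ⟨0, -1, by ring⟩
    · obtain ⟨P₁, Q, hPQ⟩ := ih
      obtain ⟨n', rfl⟩ : ∃ n', n = n' + 1 := ⟨n - 1, by omega⟩
      -- new root: P - X^(n'+1) * (mi * Q)
      obtain ⟨k, hk⟩ := powAddExpansion (1 + X * P₁) (-(X ^ (n' + 1) * (C mi * Q))) m
      -- (1 + X P₁)^(m-1) = 1 + X * T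
      obtain ⟨T, hT⟩ : ∃ T : R[X], (1 + X * P₁) ^ (m - 1) = 1 + X * T := by
        obtain ⟨k', hk'⟩ := powAddExpansion (1 : R[X]) (X * P₁) (m - 1)
        exact ⟨((m - 1 : ℕ) : R[X]) * P₁ + k' * X * P₁ ^ 2, by rw [hk']; simp; ring⟩
      have hmC : (m : R[X]) * C mi = 1 := by
        rw [← map_natCast (C : R →+* R[X]), ← C_mul, hmi, C_1]
      refine ⟨P₁ - X ^ n' * (C mi * Q),
        -(Q * T) + k * X ^ n' * (C mi * Q) ^ 2, ?_⟩
      have h1 : (1 + X * (P₁ - X ^ n' * (C mi * Q))) =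
          (1 + X * P₁) + (-(X ^ (n' + 1) * (C mi * Q))) := by ring
      rw [h1, hk, hPQ, hT]
      have : (m : R[X]) * (1 + X * T) * -(X ^ (n' + 1) * (C mi * Q)) =
          -(((m : R[X]) * C mi) * ((1 + X * T) * (X ^ (n' + 1) * Q))) := by ring
      rw [this, hmC]
      ring

/-- Evaluated form: in a commutative `R`-algebra `S`, for `x : S` and `m` invertible in `R`,
there are `v ρ : S`, polynomial expressions in `x`, with `(1 + x * v) ^ m = 1 + x + x ^ n * ρ`. -/
theorem h53_root_approx_eval {R S : Type*} [CommRing R] [CommRing S] [Algebra R S]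
    (m : ℕ) (hm : IsUnit (m : R)) (n : ℕ) (x : S) :
    ∃ v ρ : S, v ∈ Algebra.adjoin R {x} ∧ ρ ∈ Algebra.adjoin R {x} ∧
      (1 + x * v) ^ m = 1 + x + x ^ n * ρ := by
  obtain ⟨P₁, Q, h⟩ := h53_root_approx (R := R) m hm n
  refine ⟨aeval x P₁, aeval x Q, ?_, ?_, ?_⟩
  · rw [Algebra.adjoin_singleton_eq_range_aeval]; exact ⟨P₁, rfl⟩
  · rw [Algebra.adjoin_singleton_eq_range_aeval]; exact ⟨Q, rfl⟩
  · have := congrArg (aeval x) h
    simpa using this

end Fermat.Agent.S18
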