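import Fermat.Agent.S18.h53_CoreBasic
import Fermat.Agent.S18.h53_CoreAlg
import Fermat.Agent.S18.h53_RootApprox

/-!
# S18 CORE: local generators and the local congruence (LOC)
-/

set_option autoImplicit false

namespace Fermat.Agent.S18

open AlgebraicCurve Fermat.Agent.S24

variable {K F k Fb : Type*} [Field K] [Field F] [Algebra K F] [Field k] [Field Fb] [Algebra k Fb]

/-! ### Valuation subring helpers -/

theorem h53_nonunits_mul_mem {A : ValuationSubring F} {x y : F} (hx : x ∈ A.nonunits)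
    (hy : y ∈ A) : x * y ∈ A.nonunits := by
  rw [ValuationSubring.mem_nonunits_iff] at *
  rw [map_mul]
  have hy' := (A.valuation_le_one_iff y).2 hy
  calc A.valuation x * A.valuation y ≤ A.valuation x * 1 := by gcongr
    _ = A.valuation x := mul_one _
    _ < 1 := hx

theorem h53_nonunits_add_mem {A : ValuationSubring F} {x y : F} (hx : x ∈ A.nonunits)
    (hy : y ∈ A.nonunits) : x + y ∈ A.nonunits :=
  A.nonunits.add_mem hx hy

namespace h53_RedDatum

variable (R : h53_RedDatum K F k Fb)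

theorem red_eq_zero_of_nonunit {y : R.Ov} (hy : (y : F) ∈ R.Ov.nonunits) : R.red y = 0 :=
  (R.red_eq_zero y).2 hy

theorem sub_one_mem_nonunits {y : R.Ov} (hy : R.red y = 1) : (y : F) - 1 ∈ R.Ov.nonunits := by
  have : R.red (y - 1) = 0 := by rw [map_sub, hy, map_one, sub_self]
  exact (R.red_eq_zero (y - 1)).1 this

theorem red_eq_one_of_sub_one {y : R.Ov} (hy : (y : F) - 1 ∈ R.Ov.nonunits) : R.red y = 1 := by
  have : R.red (y - 1) = 0 := (R.red_eq_zero (y - 1)).2 hy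
  rw [map_sub, map_one, sub_eq_zero] at this
  exact this

/-- A natural number which is nonzero in `Fb` is a unit of `Ov`. -/
theorem isUnit_natCast {m : ℕ} (hm : (m : Fb) ≠ 0) : IsUnit ((m : ℕ) : R.Ov) :=
  (R.red_ne_zero_iff _).1 (by rwa [map_natCast])

/-- `r0_* D = 0` when `m D = div u` with `red u = 1`. -/
theorem mapDomain_eq_zero_of_div {m : ℕ} (hm : m ≠ 0) (D : Divisor K F) (u : R.Ov)
    (hu1 : R.red u = 1) (hu : ∀ P : Place K F, P.ord (u : F) = m * D P) :
    Finsupp.mapDomain R.r0 D = 0 := by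
  ext Q
  have h1 := R.red_div u (by rw [hu1]; exact one_ne_zero) ((m : ℤ) • D)
    (fun P => by rw [Finsupp.smul_apply, hu P, smul_eq_mul]) Q
  rw [Finsupp.mapDomain_smul, Finsupp.smul_apply, hu1, Place.ord_one, smul_eq_mul] at h1
  rcases mul_eq_zero.1 h1 with h | h
  · exact absurd (by exact_mod_cast h) hm
  · simpa using h

/-- **Local generators**: if `r0_* D = 0`, `E' ≥ 0` has no point over `Q`, and `E' - D` is
liftable, there is `w` with `red w = 1` and `ord_P w = D P` at all `P` reducing to `Q`. -/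
theorem exists_local_generator [HasPrincipalDivisors K F] (D : Divisor K F)
    (hD : Finsupp.mapDomain R.r0 D = 0) (E' : Divisor K F) (hE' : 0 ≤ E')
    (hlift : R.Liftable (E' - D)) (Q : Place k Fb) (hQ : ∀ P, R.r0 P = Q → E' P = 0) :
    ∃ w : R.Ov, R.red w = 1 ∧ ∀ P, R.r0 P = Q → P.ord (w : F) = D P := by
  have h1 : h53_InL (Finsupp.mapDomain R.r0 (E' - D)) (1 : Fb) := by
    refine Or.inr fun Q' => ?_
    rw [Finsupp.mapDomain_sub, hD, sub_zero, Place.ord_one, neg_nonpos]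
    exact h53_mapDomain_nonneg _ _ _ fun P _ => hE' P
  obtain ⟨w, hwL, hw1⟩ := hlift.2 1 h1
  refine ⟨w, hw1, fun P hP => ?_⟩
  have hw0 : R.red w ≠ 0 := by rw [hw1]; exact one_ne_zero
  have hwne : (w : F) ≠ 0 := R.coe_ne_zero_of_red_ne_zero hw0
  obtain ⟨Dw, hDw, -⟩ := HasPrincipalDivisors.exists_divisor (K := K) (w : F) hwne
  have hZ : ∀ P' : Place K F, 0 ≤ (Dw + E' - D) P' := by
    intro P'
    rcases hwL with h | h
    · exact absurd h hwne
    · have := h P'
      rw [Finsupp.sub_apply] at this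
      rw [Finsupp.sub_apply, Finsupp.add_apply, hDw P']
      omega
  have h2 : Finsupp.mapDomain R.r0 (Dw + E' - D) Q = 0 := by
    rw [Finsupp.mapDomain_sub, Finsupp.mapDomain_add, hD, sub_zero, Finsupp.add_apply,
      R.red_div w hw0 Dw hDw Q, hw1, Place.ord_one, zero_add]
    classical
    rw [h53_mapDomain_apply]
    refine Finset.sum_eq_zero fun P' _ => ?_
    split_ifs with h
    · exact hQ P' h
    · rfl
  have h3 := h53_eq_zero_of_mapDomain_eq_zero R.r0 (Dw + E' - D) Q (fun P' _ => hZ P') h2 P hP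
  rw [Finsupp.sub_apply, Finsupp.add_apply, hDw P, hQ P hP] at h3
  omega

/-- The ring of functions which are `v`-integral and regular at all places over `Q`. -/
def tubeRing (Q : Place k Fb) : Subring F :=
  R.Ov.toSubring ⊓ ⨅ P : {P : Place K F // R.r0 P = Q}, P.1.toValuationSubring.toSubring

theorem mem_tubeRing {Q : Place k Fb} {y : F} :
    y ∈ R.tubeRing Q ↔ y ∈ R.Ov ∧ ∀ P : Place K F, R.r0 P = Q → y ∈ P.toValuationSubring := by
  simp only [tubeRing, Subring.mem_inf, Subring.mem_iInf, Subtype.forall]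
  rfl

/-- Rank one, in the form used by (LOC): a power of a `v`-small element is divisible by `a ^ 2`. -/
theorem exists_pow_eq_const_mul
    (hrank : ∀ a d : K, a ≠ 0 → algebraMap K F a ∈ R.Ov.nonunits → d ≠ 0 →
      ∃ n : ℕ, algebraMap K F (d * (a ^ n)⁻¹) ∉ R.Ov)
    {x : F} (hx : x ∈ R.Ov.nonunits) {d : K} (hd : d ≠ 0) :
    ∃ (N : ℕ) (z : F), z ∈ R.Ov ∧ x ^ N = algebraMap K F d * z := by
  by_cases hx0 : x = 0
  · exact ⟨1, 0, R.Ov.zero_mem, by rw [hx0]; simp⟩
  obtain ⟨c, hc0, hc⟩ := R.exists_const x hx0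
  -- a₀ := c⁻¹ has the same valuation as `x`
  have hcF : algebraMap K F c ≠ 0 := by simpa using hc0
  have ha₀ : algebraMap K F c⁻¹ ∈ R.Ov.nonunits := by
    rw [ValuationSubring.mem_nonunits_iff] at hx ⊢
    rw [map_mul] at hc
    rw [map_inv₀, map_inv₀]
    have hv : R.Ov.valuation (algebraMap K F c) ≠ 0 := (Valuation.ne_zero_iff _).2 hcF
    have : (R.Ov.valuation (algebraMap K F c))⁻¹ = R.Ov.valuation x := by
      rw [inv_eq_iff_eq_inv]
      exact eq_inv_of_mul_eq_one_left hc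
    rw [this]; exact hx
  obtain ⟨n, hn⟩ := hrank c⁻¹ d (inv_ne_zero hc0) ha₀ hd
  -- `d / a₀^n ∉ Ov` hence `a₀^n / d ∈ Ov`
  have hmem : algebraMap K F (c⁻¹ ^ n * d⁻¹) ∈ R.Ov := by
    rcases R.Ov.mem_or_inv_mem (algebraMap K F (d * (c⁻¹ ^ n)⁻¹)) with h | h
    · exact absurd h hn
    · rw [← map_inv₀] at h
      have e : (d * (c⁻¹ ^ n)⁻¹)⁻¹ = c⁻¹ ^ n * d⁻¹ := by
        rw [mul_inv, inv_inv, mul_comm]
      rwa [e] at h
  have hcx : algebraMap K F c * x ∈ R.Ov := by
    rw [← ValuationSubring.valuation_le_one_iff, hc]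
  refine ⟨n, (algebraMap K F c * x) ^ n * algebraMap K F (c⁻¹ ^ n * d⁻¹),
    R.Ov.mul_mem _ _ (pow_mem hcx n) hmem, ?_⟩
  have hdF : algebraMap K F d ≠ 0 := by simpa using hd
  rw [map_mul, map_pow, map_inv₀, map_inv₀, mul_pow, inv_pow]
  have hcn : algebraMap K F c ^ n ≠ 0 := pow_ne_zero n hcF
  field_simp

/-- **(LOC)**: local congruence modulo `a` at a place `Q` of the reduction. -/
theorem loc [HasPrincipalDivisors K F]
    (hrank : ∀ a d : K, a ≠ 0 → algebraMap K F a ∈ R.Ov.nonunits → d ≠ 0 →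
      ∃ n : ℕ, algebraMap K F (d * (a ^ n)⁻¹) ∉ R.Ov)
    {m : ℕ} (hm : (m : Fb) ≠ 0) (D E : Divisor K F) (hE : 0 ≤ E)
    (u : R.Ov) (hu1 : R.red u = 1) (hu : ∀ P : Place K F, P.ord (u : F) = m * D P)
    (Q : Place k Fb) (w : R.Ov) (hw1 : R.red w = 1)
    (hw : ∀ P : Place K F, R.r0 P = Q → P.ord (w : F) = D P)
    (g : R.Ov) (hg1 : R.red g = 1) (hgL : h53_InL (E - D) (g : F))
    (a : R.Ov) (a' : K) (haa' : (a : F) = algebraMap K F a') (ha0 : a' ≠ 0)
    (minv : R.Ov) (hminv : ((m : ℕ) : R.Ov) * minv = 1)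
    (h : R.Ov) (hgh : g ^ m = u * (1 + a * h)) :
    ∃ l z : R.Ov, h * g * minv - l = a * z ∧
      ((l : F) = 0 ∨ ∀ P : Place K F, R.r0 P = Q → -(E - D) P ≤ P.ord (l : F)) := by
  classical
  -- units
  obtain ⟨winv, hwinv⟩ := (R.isUnit_of_red_eq_one hw1).exists_right_inv
  obtain ⟨uinv, huinv⟩ := (R.isUnit_of_red_eq_one hu1).exists_right_inv
  have hwinv1 : R.red winv = 1 := by
    have := congrArg R.red hwinv
    rwa [map_mul, hw1, one_mul, map_one] at this
  have hwF : (w : F) ≠ 0 := R.coe_ne_zero_of_red_ne_zero (by rw [hw1]; exact one_ne_zero)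
  have huF : (u : F) ≠ 0 := R.coe_ne_zero_of_red_ne_zero (by rw [hu1]; exact one_ne_zero)
  have hwinvF : (winv : F) = (w : F)⁻¹ := by
    have := congrArg (Subtype.val) hwinv
    push_cast at this
    exact eq_inv_of_mul_eq_one_right this
  have hm0 : m ≠ 0 := by rintro rfl; simp at hm
  have hmF : ((m : ℕ) : F) ≠ 0 := by
    intro h0
    have := congrArg (Subtype.val) hminv
    push_cast at this
    rw [h0, zero_mul] at this
    exact zero_ne_one this
  have hminvF : (minv : F) = ((m : ℕ) : F)⁻¹ := by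
    have := congrArg (Subtype.val) hminv
    push_cast at this
    exact eq_inv_of_mul_eq_one_right this
  obtain ⟨x, hx⟩ : ∃ x : R.Ov, x = u * winv ^ m - 1 := ⟨_, rfl⟩
  have hxred : R.red x = 0 := by
    rw [hx, map_sub, map_mul, map_pow, hu1, hwinv1]; simp
  have hxnu : (x : F) ∈ R.Ov.nonunits := (R.red_eq_zero x).1 hxred
  -- rank one
  obtain ⟨N, z₀', hz₀', hN'⟩ :=
    R.exists_pow_eq_const_mul hrank hxnu (d := a' ^ 2) (pow_ne_zero 2 ha0)
  obtain ⟨z₀, hz₀⟩ : ∃ z₀ : R.Ov, (z₀ : F) = z₀' := ⟨⟨z₀', hz₀'⟩, rfl⟩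
  have hN : x ^ N = a ^ 2 * z₀ := by
    apply Subtype.ext
    push_cast
    rw [hN', haa', hz₀, map_pow]
  -- the tube ring
  have hUT : ∀ P : Place K F, R.r0 P = Q → (u : F) * (winv : F) ^ m ∈ P.toValuationSubring := by
    intro P hP
    have hne : (u : F) * (winv : F) ^ m ≠ 0 := by
      rw [hwinvF]; exact mul_ne_zero huF (pow_ne_zero _ (inv_ne_zero hwF))
    rw [h35_mem_iff_ord_nonneg P hne, hwinvF, P.ord_mul huF (pow_ne_zero _ (inv_ne_zero hwF)),
      hu P, ← zpow_natCast, P.ord_zpow, P.ord_inv, hw P hP]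
    simp
  have hxT : (x : F) ∈ R.tubeRing Q := by
    rw [R.mem_tubeRing]
    refine ⟨x.2, fun P hP => ?_⟩
    rw [hx]
    push_cast
    exact sub_mem (hUT P hP) P.toValuationSubring.one_mem
  have hminvT : (minv : F) ∈ R.tubeRing Q := by
    rw [R.mem_tubeRing]
    refine ⟨minv.2, fun P _ => ?_⟩
    rw [hminvF]
    have : ((m : ℕ) : F)⁻¹ = algebraMap K F ((m : K)⁻¹) := by
      rw [map_inv₀, map_natCast]
    rw [this]
    exact P.algebraMap_mem' _
  have hmT : IsUnit ((m : ℕ) : R.tubeRing Q) := by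
    refine IsUnit.of_mul_eq_one (⟨(minv : F), hminvT⟩ : R.tubeRing Q) ?_
    apply Subtype.ext
    have := congrArg (Subtype.val) hminv
    push_cast at this ⊢
    exact this
  obtain ⟨v, ρ, -, -, hvρ⟩ := h53_root_approx_eval (R := R.tubeRing Q) (S := R.tubeRing Q) m hmT N
    (⟨(x : F), hxT⟩ : R.tubeRing Q)
  obtain ⟨vv, hvv⟩ : ∃ vv : R.Ov, (vv : F) = (v : F) := ⟨⟨(v : F), (R.mem_tubeRing.1 v.2).1⟩, rfl⟩
  obtain ⟨ρO, hρO⟩ : ∃ ρO : R.Ov, (ρO : F) = (ρ : F) := ⟨⟨(ρ : F), (R.mem_tubeRing.1 ρ.2).1⟩, rfl⟩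
  have hvρF : (1 + (x : F) * (v : F)) ^ m = 1 + (x : F) + (x : F) ^ N * (ρ : F) := by
    have := congrArg (Subtype.val) hvρ
    push_cast at this
    exact this
  have hV : (1 + x * vv) ^ m = 1 + x + x ^ N * ρO := by
    apply Subtype.ext
    push_cast
    rw [hvv, hρO]
    exact hvρF
  have hVT : ∀ P : Place K F, R.r0 P = Q → 1 + (x : F) * (vv : F) ∈ P.toValuationSubring := by
    intro P hP
    rw [hvv]
    exact P.toValuationSubring.add_mem _ _ P.toValuationSubring.one_mem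
      (P.toValuationSubring.mul_mem _ _ ((R.mem_tubeRing.1 hxT).2 P hP)
        ((R.mem_tubeRing.1 v.2).2 P hP))
  -- the geometric sum is a unit
  obtain ⟨S, hS⟩ : ∃ S : R.Ov,
      S = ∑ i ∈ Finset.range m, (g * winv) ^ i * (1 + x * vv) ^ (m - 1 - i) := ⟨_, rfl⟩
  have hSred : R.red S = (m : Fb) := by
    rw [hS, map_sum]
    have : ∀ i ∈ Finset.range m, R.red ((g * winv) ^ i * (1 + x * vv) ^ (m - 1 - i)) = 1 := by
      intro i _
      rw [map_mul, map_pow, map_pow, map_mul, map_add, map_mul, hg1, hwinv1, hxred]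
      simp
    rw [Finset.sum_congr rfl this]
    simp
  obtain ⟨sinv, hsinv⟩ := ((R.red_ne_zero_iff S).1 (by rw [hSred]; exact hm)).exists_right_inv
  -- ring-level LOC
  have hV' : (1 + (u * winv ^ m - 1) * vv) ^ m =
      1 + (u * winv ^ m - 1) + (u * winv ^ m - 1) ^ N * ρO := by rw [← hx]; exact hV
  have hN'' : (u * winv ^ m - 1) ^ N = a ^ 2 * z₀ := by rw [← hx]; exact hN
  have hs' : (∑ i ∈ Finset.range m, (g * winv) ^ i * (1 + (u * winv ^ m - 1) * vv) ^ (m - 1 - i))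
      * sinv = 1 := by rw [← hx, ← hS]; exact hsinv
  obtain ⟨h_i, z, hz⟩ := h53_loc_alg m N a g u w h winv uinv minv vv ρO z₀ sinv hwinv huinv hminv
    hgh hV' hN'' hs'
  rw [← hx] at h_i
  obtain ⟨h1, hh1⟩ : ∃ h1 : R.Ov, h1 = sinv * (u * winv ^ m * h - a * z₀ * ρO) := ⟨_, rfl⟩
  rw [← hh1] at h_i hz
  refine ⟨h1 * w, z, hz, ?_⟩
  by_cases hl : ((h1 * w : R.Ov) : F) = 0
  · exact Or.inl hl
  refine Or.inr fun P hP => ?_
  have haF : (a : F) ≠ 0 := by rw [haa']; simpa using ha0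
  -- orders
  have hG : h53_OrdGE P ((g : F) * (winv : F)) (-E P) := by
    have := (h53_inL_iff.1 hgL P).div_of_ord_eq (g := (w : F))
    rw [hw P hP, Finsupp.sub_apply, div_eq_mul_inv, ← hwinvF] at this
    exact this.mono (by omega)
  have hVo : h53_OrdGE P (1 + (x : F) * (vv : F)) (-E P) :=
    (h53_OrdGE.mem_iff.2 (hVT P hP)).mono (by have := hE P; simpa using this)
  have hh1F : (h1 : F) = ((g : F) * (winv : F) - (1 + (x : F) * (vv : F))) * (a : F)⁻¹ := by
    have := congrArg (Subtype.val) h_i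
    push_cast at this
    rw [this]
    field_simp
  have hainv : (a : F)⁻¹ = algebraMap K F a'⁻¹ := by rw [haa', map_inv₀]
  have h1o : h53_OrdGE P (h1 : F) (-E P) := by
    rw [hh1F, hainv]
    have := (hG.sub hVo).mul (h53_OrdGE.const (P := P) a'⁻¹)
    rwa [add_zero] at this
  have hlo : h53_OrdGE P ((h1 : F) * (w : F)) (-E P + D P) :=
    h1o.mul (Or.inr (hw P hP).ge)
  have hl' : (h1 : F) * (w : F) ≠ 0 := by
    intro h0; apply hl; push_cast; exact h0
  have := (h53_OrdGE.of_ne hl').1 hlo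
  have e : (E - D) P = E P - D P := Finsupp.sub_apply ..
  have hcoe : ((h1 * w : R.Ov) : F) = (h1 : F) * (w : F) := by push_cast; rfl
  rw [e, hcoe]
  omega

end h53_RedDatum

end Fermat.Agent.S18
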