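import Fermat.Agent.S18.h53_ChartLe1Core
import Fermat.Agent.S18.h53_GlueCore
import Fermat.Agent.S18.h24_ChartRegCore
import Fermat.Agent.S18.h6_ChartLeCore
import Fermat.Agent.S18.RR_Riemann

/-!
# S18 / [GR-PL]: the reduction map on places and (6) from (†) alone

The cores of the rows PL1 .. PL5 chained together, with (†) (`h66_Dagger`, the statement of
`h39_lift_integral`) for the charts `x` and `x⁻¹` as the only hypotheses:

* `h53_chart_le_of_dagger`: the local inequality `ord_Q ȳ ≤ ∑_{P in the tube of Q} ord_P y` for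
  every unit `y` of `O`;
* `h53_exists_r0_of_dagger`: the glued reduction map `r0` with the two chart characterisations
  and (6) `r0_* div y = div ȳ`.
-/

set_option autoImplicit false

noncomputable section

open AlgebraicCurve

namespace Fermat.Agent.S18

variable {K F k Fb : Type*} [Field K] [Field F] [Algebra K F] [Field k] [Field Fb] [Algebra k Fb]

variable [IsAlgClosed K] [CharZero K] [IsAlgClosed k]
variable (R : h39_RedDatum K F k Fb)

/-- (S5) from (†): for every `y ∈ O` with `ȳ ≠ 0` and every place `Q` of the chart `t̄`,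
`ord_Q ȳ` is at most the sum of the orders of `y` over the tube of `Q`. -/
theorem h53_chart_le_of_dagger {t : F} (ht : h39_WeakChart R t) (hdag : h66_Dagger R t)
    {r : Place K F → Place k Fb} (hr : h39_IsChartRed R t r) (y : F) (hy : y ∈ R.O)
    (hy0 : R.redF y ≠ 0) (Q : Place k Fb) (hQ : R.redF t ∈ Q.toValuationSubring)
    (s : Finset (Place K F))
    (hs : ∀ P : Place K F, P ∈ s ↔ P.ord y ≠ 0 ∧ h39_InDisc R t P ∧ r P = Q) :
    Q.ord (R.redF y) ≤ ∑ P ∈ s, P.ord y := by
  have hOver : ∀ (P : Place K F) (a : K), a ∈ R.A → h39_Val P t a →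
      h39_Val (r P) (R.redF t) (R.resK a) :=
    fun P a ha hPa => h66_chartRed_over R ht hr P a ha hPa
  have hS3 : ∀ y : F, y ∈ R.O → R.redF y ≠ 0 → h39_Reg K t y → ∀ Q : Place k Fb,
      R.redF t ∈ Q.toValuationSubring → ∀ s : Finset (Place K F),
      (∀ P : Place K F, P ∈ s ↔ P.ord y ≠ 0 ∧ h39_InDisc R t P ∧ r P = Q) →
      Q.ord (R.redF y) ≤ ∑ P ∈ s, P.ord y :=
    fun y hy hy0 hyreg Q hQ s hs =>
      h53_chart_le_of_reg_core R ht hdag Q hQ
        (fun f hf h => h24_chart_regular R ht hdag hr f hf Q hQ h) y hy hy0 hyreg s hs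
  have hS3' : ∀ y : F, y ∈ R.O → R.redF y ≠ 0 →
      (∀ P : Place K F, h39_InDisc R t P → r P = Q → y ∈ P.toValuationSubring) →
      ∀ s : Finset (Place K F),
      (∀ P : Place K F, P ∈ s ↔ P.ord y ≠ 0 ∧ h39_InDisc R t P ∧ r P = Q) →
      Q.ord (R.redF y) ≤ ∑ P ∈ s, P.ord y :=
    fun y hy hy0 hreg s hs =>
      h6_chart_le_of_tube_core R
        (fun y hy0 Q hQ => h24_exists_clear R ht hdag hr y hy0 Q hQ)
        (fun g hgO hgreg Q hg0 hgQ P hP hPQ =>
          h24_tube_ord_eq_zero R ht hr g hgO hgreg Q hg0 hgQ P hP hPQ)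
        hS3 y hy hy0 Q hQ hreg s hs
  have hS4 : ∀ a : K, a ∈ R.A → h39_Val Q (R.redF t) (R.resK a) → ∀ s : Finset (Place K F),
      (∀ P : Place K F, P ∈ s ↔
        P.ord (t - algebraMap K F a) ≠ 0 ∧ h39_InDisc R t P ∧ r P = Q) →
      ∑ P ∈ s, P.ord (t - algebraMap K F a) =
        Q.ord (R.redF t - algebraMap k Fb (R.resK a)) :=
    fun a ha hQa s hs => h6_chart_fibre_core R ht hOver hS3 a ha Q hQa s hs
  exact h6_chart_le_core R ht hOver Q hS3' hS4 y hy hy0 s hs

/-- The reduction map `r0` on all places with (6), from (†) for the charts `x` and `x⁻¹`. -/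
theorem h53_exists_r0_of_dagger {x : F} (hx : h39_WeakChart R x) (hdag : h66_Dagger R x)
    (hdag' : h66_Dagger R x⁻¹) :
    ∃ r0 : Place K F → Place k Fb,
      (∃ r : Place K F → Place k Fb, h39_IsChartRed R x r ∧
        ∀ P : Place K F, h39_InDisc R x P → r0 P = r P) ∧
      (∃ r' : Place K F → Place k Fb, h39_IsChartRed R x⁻¹ r' ∧
        ∀ P : Place K F, ¬ h39_InDisc R x P → r0 P = r' P) ∧
      ∀ (y : F) (hy : y ∈ R.O), R.red ⟨y, hy⟩ ≠ 0 → ∀ D : Divisor K F,
        (∀ P, D P = P.ord y) → ∀ Q : Place k Fb,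
          Finsupp.mapDomain r0 D Q = Q.ord (R.red ⟨y, hy⟩) := by
  have hw' : h39_WeakChart R x⁻¹ := h39_weakChart_inv R hx
  have hxK : h75_IsChart K x := h39_weakChart_isChart R hx
  have hxk : h75_IsChart k (R.redF x) := h39_weakChart_isChart_red R hx
  obtain ⟨r, hr⟩ := h66_exists_chartRed_core R hx hdag
  obtain ⟨r', hr'⟩ := h66_exists_chartRed_core R hw' hdag'
  have := h75_hasPrincipalDivisors hxK
  have := h75_hasPrincipalDivisors hxk
  obtain ⟨r0, h1, h2, h3⟩ := h53_glue_core R hx hxK (h75_deg_eq_one hxK) (h75_deg_eq_one hxk)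
    hr hr'
    (fun y hy hy0 Q hQ s hs => h53_chart_le_of_dagger R hx hdag hr y hy hy0 Q hQ s hs)
    (fun y hy hy0 Q hQ s hs => h53_chart_le_of_dagger R hw' hdag' hr' y hy hy0 Q hQ s hs)
  exact ⟨r0, ⟨r, hr, h1⟩, ⟨r', hr', h2⟩, h3⟩

end Fermat.Agent.S18

end
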