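/-
S18 / MOD layer (helper54): the chart assembly for a Hauptmodul (`h₂` at levels `2 ∣ N`,
`h₃` at levels `3 ∣ N`), conditional on the characterising properties of the reduction datum.
-/
import Mathlib
import Fermat.Agent.S18.h54_ModCharts
import Fermat.Agent.S18.h59_HFFinal
import Fermat.Agent.S18.h36_Branch

set_option autoImplicit false
set_option synthInstance.maxHeartbeats 400000

noncomputable section

open ModularCurve AlgebraicCurve IntermediateField CongruenceSubgroup
open scoped MatrixGroups

namespace Fermat.Agent.S18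

open Fermat.Agent.S24 Fermat.Agent.S28

local notation "Qb" => AlgebraicClosure ℚ

/-- Separability passes to the top of a tower of intermediate fields. -/
theorem h54_isSeparable_of_le {k E : Type*} [Field k] [Field E] [Algebra k E]
    {K₁ K₂ : IntermediateField k E} (hle : K₁ ≤ K₂) (hsep : Algebra.IsSeparable ↥K₁ E) :
    Algebra.IsSeparable ↥K₂ E := by
  letI : Algebra ↥K₁ ↥K₂ := (IntermediateField.inclusion hle).toRingHom.toAlgebra
  haveI : IsScalarTower ↥K₁ ↥K₂ E := IsScalarTower.of_algebraMap_eq (fun _ => rfl)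
  exact Algebra.isSeparable_tower_top_of_isSeparable ↥K₁ ↥K₂ E

/-- **Chart assembly for a Hauptmodul** `x` (integral model `xA`, reduction `xk`), of degree `e`
under `j`, with finite branch values `0`, `-c` (`ℓ ∤ c`). -/
theorem h54_chart_haupt_of (N : ℕ) [NeZero N] {ℓ : ℕ} [Fact ℓ.Prime]
    (A : ValuationSubring Qb) (hA : A.LiesOverPrime ℓ)
    {R : h39_RedDatum Qb ↥(modularFunctionFieldBar N) (IsLocalRing.ResidueField A)
      ↥(modularFunctionFieldFullC (IsLocalRing.ResidueField A) N)} (h : h54_IsModRed N A R)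
    (e : ℕ) (he : 0 < e)
    (x : ↥(modularFunctionFieldBar N)) (xA : LaurentSeries A)
    (hx : (x : LaurentSeries Qb) = coeffMap A.subtype xA)
    (xk : ↥(modularFunctionFieldFullC (IsLocalRing.ResidueField A) N))
    (hxk : (xk : LaurentSeries (IsLocalRing.ResidueField A))
      = coeffMap (IsLocalRing.residue A) xA)
    (htr : Transcendental (IsLocalRing.ResidueField A) xk)
    (hfinQ : Module.Finite ↥(Qb⟮x⟯) ↥(modularFunctionFieldBar N))
    (hdegQ : e * Module.finrank ↥(Qb⟮x⟯) ↥(modularFunctionFieldBar N)
      = Nat.card (SL(2, ℤ) ⧸ Gamma0 N))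
    (hdegk : e * Module.finrank ↥((IsLocalRing.ResidueField A)⟮xk⟯)
        ↥(modularFunctionFieldFullC (IsLocalRing.ResidueField A) N)
      = Module.finrank ↥((IsLocalRing.ResidueField A)⟮h54_jk (IsLocalRing.ResidueField A) N⟯)
        ↥(modularFunctionFieldFullC (IsLocalRing.ResidueField A) N))
    (hfb : Module.finrank (IsLocalRing.ResidueField A)⟮h54_jk (IsLocalRing.ResidueField A) N⟯
        ↥(modularFunctionFieldFullC (IsLocalRing.ResidueField A) N)
      = Nat.card (SL(2, ℤ) ⧸ Gamma0 N))
    (hsep : Algebra.IsSeparable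
      (IsLocalRing.ResidueField A)⟮h54_jk (IsLocalRing.ResidueField A) N⟯
        ↥(modularFunctionFieldFullC (IsLocalRing.ResidueField A) N))
    (hjmem : h54_jk (IsLocalRing.ResidueField A) N ∈ (IsLocalRing.ResidueField A)⟮xk⟯)
    (c : ℕ) (hc : ¬ ℓ ∣ c)
    (hbr : ∀ (P : Place Qb ↥(modularFunctionFieldBar N)) (a : Qb),
      2 ≤ P.ord (x - algebraMap Qb ↥(modularFunctionFieldBar N) a) → a = 0 ∨ a = -(c : Qb)) :
    h39_Chart R x := by
  have hred : R.redF x = xk := by
    apply Subtype.ext
    rw [h.redF_of_integral x xA hx, hxk]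
  refine ⟨⟨h.mem_of_integral x xA hx, ?_, hfinQ, ?_, ?_⟩, ?_⟩
  · rw [hred]
    exact htr
  · rw [hred]
    have h1 : e * Module.finrank ↥((IsLocalRing.ResidueField A)⟮xk⟯)
        ↥(modularFunctionFieldFullC (IsLocalRing.ResidueField A) N)
        = e * Module.finrank ↥(Qb⟮x⟯) ↥(modularFunctionFieldBar N) := by
      rw [hdegk, hfb, hdegQ]
    exact Nat.eq_of_mul_eq_mul_left he h1
  · rw [hred]
    refine h54_isSeparable_of_le ?_ hsep
    rw [IntermediateField.adjoin_simple_le_iff]
    exact hjmem
  · classical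
    have hcA : (c : Qb) ∈ R.A := by
      rw [h.A_eq]
      exact natCast_mem A c
    refine ⟨{0, -(c : Qb)}, ?_, ?_, ?_⟩
    · intro z hz
      rcases Finset.mem_insert.1 hz with rfl | hz
      · exact zero_mem _
      · rw [Finset.mem_singleton.1 hz]
        exact neg_mem hcA
    · have hne : R.resK (-(c : Qb)) ≠ 0 := by
        rw [h54_resK_neg _ hcA, neg_ne_zero]
        exact h54_resK_natCast_ne_zero h hA c hc
      intro z hz z' hz' hzz
      rcases Finset.mem_insert.1 hz with rfl | hz
      · rcases Finset.mem_insert.1 hz' with rfl | hz'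
        · rfl
        · rw [Finset.mem_singleton.1 hz', h54_resK_zero] at hzz
          exact absurd hzz.symm hne
      · rcases Finset.mem_insert.1 hz' with rfl | hz'
        · rw [Finset.mem_singleton.1 hz, h54_resK_zero] at hzz
          exact absurd hzz hne
        · rw [Finset.mem_singleton.1 hz, Finset.mem_singleton.1 hz']
    · intro P a hP
      rcases hbr P a hP with rfl | rfl
      · exact Finset.mem_insert_self _ _
      · exact Finset.mem_insert_of_mem (Finset.mem_singleton_self _)

end Fermat.Agent.S18
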