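import Mathlib
import Fermat.Agent.S18.Defs
import Fermat.Prelude.Def_ModularCurve_LaurentCoeff

/-!
# S18, layer MOD, row IG-C (helper9): the abstract Gauss valuation ring and its reduction map

`K` a field, `A` a valuation ring of `K` with residue field `k`, `F ⊆ K((q))` and `Fb ⊆ k((q))`
intermediate fields.  The Gauss ring of `K((q))` consists of the ratios `y₁ / y₂` of `A`-integral
series with `ȳ₂ ≠ 0`; coefficientwise reduction of such ratios is a ring homomorphism to `k((q))`.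
Given a power basis `1, Y, …, Y^(n-1)` of `F` over `K(J)` (`igB`) whose reductions stay independent
over `k(J̄)` (`igA`), the Gauss ring cuts out a valuation ring `O` of `F`, reduction maps `O` onto
`Fb`, and `[Fb : k(J̄)] = n`.  This is packaged as an `h39_RedDatum` (`h9_datum`) together with its
four characterising properties (`h9_datum_A`, `h9_datum_res`, `h9_datum_mem_O`, `h9_datum_red`) and
the degree formula `h9_finrank`.
-/

set_option autoImplicit false
set_option synthInstance.maxHeartbeats 400000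

noncomputable section

open ModularCurve IntermediateField

namespace Fermat.Agent.S18

/-! ## Coefficient maps of Laurent series: basics -/

section Basics

variable {R S : Type*} [CommRing R] [CommRing S]

theorem h9_cm_injective {f : R →+* S} (hf : Function.Injective f) :
    Function.Injective (coeffMap f) := by
  intro x y h
  ext n
  have h1 := congrArg (fun z => z.coeff n) h
  simp only [coeffMap_coeff] at h1
  exact hf h1

theorem h9_algebraMap_single (c : R) :
    algebraMap R (LaurentSeries R) c = HahnSeries.single 0 c := by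
  have h1 : algebraMap R (PowerSeries R) c = PowerSeries.C c := by
    simp
  rw [HahnSeries.algebraMap_apply', h1, HahnSeries.ofPowerSeries_C]
  rfl

theorem h9_cm_algebraMap (f : R →+* S) (c : R) :
    coeffMap f (algebraMap R (LaurentSeries R) c) = algebraMap S (LaurentSeries S) (f c) := by
  rw [h9_algebraMap_single, h9_algebraMap_single, coeffMap_single]

theorem h9_cm_aeval (f : R →+* S) (p : Polynomial R) (y : LaurentSeries R) :
    coeffMap f (Polynomial.aeval y p) = Polynomial.aeval (coeffMap f y) (p.map f) := by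
  induction p using Polynomial.induction_on with
  | C a =>
    rw [Polynomial.aeval_C, Polynomial.map_C, Polynomial.aeval_C, h9_cm_algebraMap]
  | add p q hp hq =>
    rw [map_add, map_add, Polynomial.map_add, map_add, hp, hq]
  | monomial n a _ =>
    simp only [map_mul, Polynomial.aeval_C, map_pow, Polynomial.aeval_X, Polynomial.map_mul,
      Polynomial.map_C, Polynomial.map_pow, Polynomial.map_X, h9_cm_algebraMap]

end Basics

/-! ## Primitive scaling in a valuation ring -/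

section Scale

variable {K : Type*} [Field K] (A : ValuationSubring K)

theorem h9_exists_scale_finset (S : Finset K) (hS : ∃ s ∈ S, s ≠ 0) :
    ∃ c : K, c ≠ 0 ∧ (∀ s ∈ S, c * s ∈ A) ∧ ∃ s ∈ S, c * s = 1 := by
  obtain ⟨s₀, hs₀, hs₀0⟩ := hS
  obtain ⟨m, hm, hmax⟩ := Finset.exists_max_image S A.valuation ⟨s₀, hs₀⟩
  have hm0 : m ≠ 0 := by
    intro h
    have h1 := hmax s₀ hs₀
    rw [h, map_zero] at h1
    exact hs₀0 ((map_eq_zero _).1 (le_antisymm h1 zero_le))
  have hvm : 0 < A.valuation m := lt_of_le_of_ne zero_le (Ne.symm ((map_ne_zero _).2 hm0))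
  refine ⟨m⁻¹, inv_ne_zero hm0, fun s hs => ?_, m, hm, inv_mul_cancel₀ hm0⟩
  rw [← A.valuation_le_one_iff, map_mul, map_inv₀]
  exact (inv_mul_le_one₀ hvm).2 (hmax s hs)

theorem h9_exists_scale_poly {ι' : Type*} [Fintype ι'] (p : ι' → Polynomial K) (hp : p ≠ 0) :
    ∃ (c : K) (p₀ : ι' → Polynomial A), c ≠ 0 ∧
      (∀ i, (p₀ i).map A.subtype = Polynomial.C c * p i) ∧
      ∃ i, (p₀ i).map (IsLocalRing.residue A) ≠ 0 := by
  classical
  have hp' : ∃ i, p i ≠ 0 := by
    by_contra h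
    exact hp (funext fun i => by simpa using not_exists.1 h i)
  obtain ⟨i₀, hi₀⟩ := hp'
  obtain ⟨n₀, hn₀⟩ : ∃ n, (p i₀).coeff n ≠ 0 := by
    by_contra h
    exact hi₀ (Polynomial.ext fun n => by simpa using not_exists.1 h n)
  set S : Finset K := Finset.univ.biUnion fun i => (p i).coeffs with hSdef
  have hmemS : ∀ i n, (p i).coeff n ≠ 0 → (p i).coeff n ∈ S := by
    intro i n h
    rw [hSdef, Finset.mem_biUnion]
    exact ⟨i, Finset.mem_univ _, Polynomial.coeff_mem_coeffs h⟩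
  obtain ⟨c, hc0, hcA, s, hsS, hcs⟩ := h9_exists_scale_finset A S ⟨_, hmemS i₀ n₀ hn₀, hn₀⟩
  have hlift : ∀ i, ∃ q : Polynomial A, q.map A.subtype = Polynomial.C c * p i := by
    intro i
    have : Polynomial.C c * p i ∈ Polynomial.lifts A.subtype := by
      rw [Polynomial.lifts_iff_coeff_lifts]
      intro n
      rw [Polynomial.coeff_C_mul]
      by_cases h : (p i).coeff n = 0
      · exact ⟨0, by rw [h, mul_zero, map_zero]⟩
      · exact ⟨⟨_, hcA _ (hmemS i n h)⟩, rfl⟩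
    exact (Polynomial.mem_lifts _).1 this
  choose p₀ hp₀ using hlift
  refine ⟨c, p₀, hc0, hp₀, ?_⟩
  rw [hSdef, Finset.mem_biUnion] at hsS
  obtain ⟨i, -, hsi⟩ := hsS
  rw [Polynomial.mem_coeffs_iff] at hsi
  obtain ⟨n, -, rfl⟩ := hsi
  refine ⟨i, fun h => ?_⟩
  have h1 : ((p₀ i).coeff n : K) = 1 := by
    have h2 := congrArg (fun q => q.coeff n) (hp₀ i)
    simp only [Polynomial.coeff_map, Polynomial.coeff_C_mul] at h2
    rw [← hcs]
    exact h2
  have h3 : (p₀ i).coeff n = 1 := Subtype.ext h1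
  have h4 := congrArg (fun q => q.coeff n) h
  simp only [Polynomial.coeff_map, Polynomial.coeff_zero, h3, map_one] at h4
  exact one_ne_zero h4

end Scale

/-! ## The Gauss ring of `K((q))` and its reduction map -/

section Gauss

variable {K : Type*} [Field K] (A : ValuationSubring K)

local notation "kA" => IsLocalRing.ResidueField A
local notation "ιA" => coeffMap A.subtype
local notation "ρA" => coeffMap (IsLocalRing.residue A)

theorem h9_ι_injective : Function.Injective (ιA : LaurentSeries A → LaurentSeries K) :=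
  h9_cm_injective Subtype.val_injective

/-- Ratios `y₁ / y₂` of `A`-integral series with `ȳ₂ ≠ 0`. -/
def h9_gauss : Subring (LaurentSeries K) where
  carrier := {f | ∃ y₁ y₂ : LaurentSeries A, ρA y₂ ≠ 0 ∧ f * ιA y₂ = ιA y₁}
  mul_mem' := by
    rintro f g ⟨y₁, y₂, hy, hfy⟩ ⟨z₁, z₂, hz, hgz⟩
    refine ⟨y₁ * z₁, y₂ * z₂, ?_, ?_⟩
    · rw [map_mul]
      exact mul_ne_zero hy hz
    · rw [map_mul, map_mul, ← hfy, ← hgz]
      ring
  one_mem' := ⟨1, 1, by rw [map_one]; exact one_ne_zero, by rw [one_mul]⟩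
  add_mem' := by
    rintro f g ⟨y₁, y₂, hy, hfy⟩ ⟨z₁, z₂, hz, hgz⟩
    refine ⟨y₁ * z₂ + z₁ * y₂, y₂ * z₂, ?_, ?_⟩
    · rw [map_mul]
      exact mul_ne_zero hy hz
    · rw [map_mul, map_add, map_mul, map_mul, ← hfy, ← hgz]
      ring
  zero_mem' := ⟨0, 1, by rw [map_one]; exact one_ne_zero, by rw [zero_mul, map_zero]⟩
  neg_mem' := by
    rintro f ⟨y₁, y₂, hy, hfy⟩
    exact ⟨-y₁, y₂, hy, by rw [map_neg, ← hfy, neg_mul]⟩

theorem h9_mem_gauss {f : LaurentSeries K} :
    f ∈ h9_gauss A ↔ ∃ y₁ y₂ : LaurentSeries A, ρA y₂ ≠ 0 ∧ f * ιA y₂ = ιA y₁ :=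
  Iff.rfl

theorem h9_cross {f : LaurentSeries K} {y₁ y₂ z₁ z₂ : LaurentSeries A}
    (hy : f * ιA y₂ = ιA y₁) (hz : f * ιA z₂ = ιA z₁) :
    ρA y₁ * ρA z₂ = ρA z₁ * ρA y₂ := by
  have h : y₁ * z₂ = z₁ * y₂ := by
    apply h9_ι_injective A
    rw [map_mul, map_mul, ← hy, ← hz]
    ring
  rw [← map_mul, ← map_mul, h]

open Classical in
/-- The reduction `ȳ₁ / ȳ₂` of `f = y₁ / y₂` (zero outside the Gauss ring). -/
def h9_red₀ (f : LaurentSeries K) : LaurentSeries kA :=
  if h : f ∈ h9_gauss A then ρA h.choose / ρA h.choose_spec.choose else 0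

theorem h9_red₀_mul {f : LaurentSeries K} (hf : f ∈ h9_gauss A) {y₁ y₂ : LaurentSeries A}
    (h : f * ιA y₂ = ιA y₁) : h9_red₀ A f * ρA y₂ = ρA y₁ := by
  rw [h9_red₀, dif_pos hf]
  have h1 := hf.choose_spec.choose_spec
  have h2 := h9_cross A h h1.2
  rw [div_mul_eq_mul_div, div_eq_iff h1.1]
  exact h2.symm

theorem h9_red₀_eq {f : LaurentSeries K} {y₁ y₂ : LaurentSeries A}
    (h : f * ιA y₂ = ιA y₁) (h2 : ρA y₂ ≠ 0) : h9_red₀ A f = ρA y₁ / ρA y₂ := by
  rw [eq_div_iff h2]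
  exact h9_red₀_mul A ⟨y₁, y₂, h2, h⟩ h

theorem h9_red₀_zero : h9_red₀ A 0 = 0 := by
  have h := h9_red₀_eq A (f := 0) (y₁ := 0) (y₂ := 1) (by rw [zero_mul, map_zero])
    (by rw [map_one]; exact one_ne_zero)
  rw [h, map_zero, zero_div]

theorem h9_red₀_one : h9_red₀ A 1 = 1 := by
  have h := h9_red₀_eq A (f := 1) (y₁ := 1) (y₂ := 1) (by rw [one_mul])
    (by rw [map_one]; exact one_ne_zero)
  rw [h, map_one, div_one]

theorem h9_red₀_add {f g : LaurentSeries K} (hf : f ∈ h9_gauss A) (hg : g ∈ h9_gauss A) :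
    h9_red₀ A (f + g) = h9_red₀ A f + h9_red₀ A g := by
  obtain ⟨y₁, y₂, hy, hfy⟩ := hf
  obtain ⟨z₁, z₂, hz, hgz⟩ := hg
  have h : (f + g) * ιA (y₂ * z₂) = ιA (y₁ * z₂ + z₁ * y₂) := by
    rw [map_mul, map_add, map_mul, map_mul, ← hfy, ← hgz]
    ring
  rw [h9_red₀_eq A h (by rw [map_mul]; exact mul_ne_zero hy hz), h9_red₀_eq A hfy hy,
    h9_red₀_eq A hgz hz, map_add, map_mul, map_mul, map_mul]
  field_simp

theorem h9_red₀_mul' {f g : LaurentSeries K} (hf : f ∈ h9_gauss A) (hg : g ∈ h9_gauss A) :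
    h9_red₀ A (f * g) = h9_red₀ A f * h9_red₀ A g := by
  obtain ⟨y₁, y₂, hy, hfy⟩ := hf
  obtain ⟨z₁, z₂, hz, hgz⟩ := hg
  have h : (f * g) * ιA (y₂ * z₂) = ιA (y₁ * z₁) := by
    rw [map_mul, map_mul, ← hfy, ← hgz]
    ring
  rw [h9_red₀_eq A h (by rw [map_mul]; exact mul_ne_zero hy hz), h9_red₀_eq A hfy hy,
    h9_red₀_eq A hgz hz, map_mul, map_mul]
  field_simp

/-- The reduction map as a ring homomorphism on the Gauss ring. -/
def h9_redHom : ↥(h9_gauss A) →+* LaurentSeries kA where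
  toFun f := h9_red₀ A (f : LaurentSeries K)
  map_one' := h9_red₀_one A
  map_mul' f g := h9_red₀_mul' A f.2 g.2
  map_zero' := h9_red₀_zero A
  map_add' f g := h9_red₀_add A f.2 g.2

theorem h9_redHom_apply (f : ↥(h9_gauss A)) : h9_redHom A f = h9_red₀ A (f : LaurentSeries K) :=
  rfl

/-- Integral series belong to the Gauss ring and reduce coefficientwise. -/
theorem h9_ι_mem_gauss (y : LaurentSeries A) : ιA y ∈ h9_gauss A :=
  ⟨y, 1, by rw [map_one]; exact one_ne_zero, by rw [map_one, mul_one]⟩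

theorem h9_red₀_ι (y : LaurentSeries A) : h9_red₀ A (ιA y) = ρA y := by
  have h := h9_red₀_eq A (f := ιA y) (y₁ := y) (y₂ := 1) (by rw [map_one, mul_one])
    (by rw [map_one]; exact one_ne_zero)
  rw [h, map_one, div_one]

theorem h9_algebraMap_eq_ι (a : A) :
    algebraMap K (LaurentSeries K) (a : K) = ιA (algebraMap A (LaurentSeries A) a) := by
  rw [h9_cm_algebraMap]
  rfl

theorem h9_algebraMap_mem_gauss {a : K} (ha : a ∈ A) :
    algebraMap K (LaurentSeries K) a ∈ h9_gauss A := by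
  rw [h9_algebraMap_eq_ι A ⟨a, ha⟩]
  exact h9_ι_mem_gauss A _

theorem h9_red₀_algebraMap {a : K} (ha : a ∈ A) :
    h9_red₀ A (algebraMap K (LaurentSeries K) a) =
      algebraMap kA (LaurentSeries kA) (IsLocalRing.residue A ⟨a, ha⟩) := by
  rw [h9_algebraMap_eq_ι A ⟨a, ha⟩, h9_red₀_ι, h9_cm_algebraMap]

/-- If `a ∉ A` then `a⁻¹` lies in `A` and reduces to zero. -/
theorem h9_inv_mem_of_not_mem {a : K} (ha : a ∉ A) :
    ∃ h : a⁻¹ ∈ A, IsLocalRing.residue A ⟨a⁻¹, h⟩ = 0 := by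
  have h1 : a⁻¹ ∈ A := (A.mem_or_inv_mem a).resolve_left ha
  refine ⟨h1, ?_⟩
  rw [IsLocalRing.residue_eq_zero_iff, ValuationSubring.valuation_lt_one_iff]
  have h2 : ¬ A.valuation a ≤ 1 := fun h => ha ((A.valuation_le_one_iff a).1 h)
  have h3 : 1 < A.valuation a := not_le.1 h2
  show A.valuation a⁻¹ < 1
  rw [map_inv₀]
  exact inv_lt_one_of_one_lt₀ h3

/-- Key comparison: if `f y₂ = u y₁` with `u ≠ 0` and `ȳ₁, ȳ₂ ≠ 0`, then `f` is in the Gauss ring
exactly when `u ∈ A`. -/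
theorem h9_mem_gauss_iff_of_eq {f : LaurentSeries K} {u : K} {y₁ y₂ : LaurentSeries A}
    (h : f * ιA y₂ = algebraMap K (LaurentSeries K) u * ιA y₁) (h1 : ρA y₁ ≠ 0)
    (h2 : ρA y₂ ≠ 0) : f ∈ h9_gauss A ↔ u ∈ A := by
  constructor
  · rintro ⟨z₁, z₂, hz, hfz⟩
    by_contra hu
    obtain ⟨hv, hv0⟩ := h9_inv_mem_of_not_mem A hu
    have hu0 : u ≠ 0 := fun h0 => hu (h0 ▸ A.zero_mem)
    -- y₁ z₂ = u⁻¹ z₁ y₂
    have h3 : y₁ * z₂ = algebraMap A (LaurentSeries A) ⟨u⁻¹, hv⟩ * z₁ * y₂ := by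
      apply h9_ι_injective A
      rw [map_mul, map_mul, map_mul, ← h9_algebraMap_eq_ι A ⟨u⁻¹, hv⟩, ← hfz]
      have h4 : ιA y₁ = algebraMap K (LaurentSeries K) u⁻¹ * (f * ιA y₂) := by
        rw [h, ← mul_assoc, ← map_mul, inv_mul_cancel₀ hu0, map_one, one_mul]
      rw [h4]
      ring
    have h5 := congrArg ρA h3
    rw [map_mul, map_mul, map_mul, h9_cm_algebraMap, hv0, map_zero, zero_mul, zero_mul] at h5
    exact mul_ne_zero h1 hz h5
  · intro hu
    refine ⟨algebraMap A (LaurentSeries A) ⟨u, hu⟩ * y₁, y₂, h2, ?_⟩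
    rw [map_mul, ← h9_algebraMap_eq_ι A ⟨u, hu⟩, h]

theorem h9_red₀_of_eq {f : LaurentSeries K} {u : K} {y₁ y₂ : LaurentSeries A}
    (h : f * ιA y₂ = algebraMap K (LaurentSeries K) u * ιA y₁) (h2 : ρA y₂ ≠ 0) (hu : u ∈ A) :
    h9_red₀ A f =
      algebraMap kA (LaurentSeries kA) (IsLocalRing.residue A ⟨u, hu⟩) * ρA y₁ / ρA y₂ := by
  have h3 : f * ιA y₂ = ιA (algebraMap A (LaurentSeries A) ⟨u, hu⟩ * y₁) := by
    rw [map_mul, ← h9_algebraMap_eq_ι A ⟨u, hu⟩, h]
  rw [h9_red₀_eq A h3 h2, map_mul, h9_cm_algebraMap]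

theorem h9_algebraMap_mem_gauss_iff (a : K) :
    algebraMap K (LaurentSeries K) a ∈ h9_gauss A ↔ a ∈ A := by
  refine ⟨fun h => ?_, h9_algebraMap_mem_gauss A⟩
  have h1 : algebraMap K (LaurentSeries K) a * ιA 1 = algebraMap K (LaurentSeries K) a * ιA 1 :=
    rfl
  exact (h9_mem_gauss_iff_of_eq A h1 (by rw [map_one]; exact one_ne_zero)
    (by rw [map_one]; exact one_ne_zero)).1 h

end Gauss

/-! ## The reduction datum of a function field `F ⊆ K((q))` with a power basis -/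

section Datum

variable {K : Type*} [Field K] (A : ValuationSubring K)

local notation "kA" => IsLocalRing.ResidueField A
local notation "ιA" => coeffMap A.subtype
local notation "ρA" => coeffMap (IsLocalRing.residue A)

/-- The hypotheses of the abstract construction: `F ⊆ K((q))`, `Fb ⊆ k((q))`, two `A`-integral
series `J`, `Y` lying in both, the power basis of `F` (`igB`), the independence of the reduced
powers (`igA`), and generation of `Fb` by reductions of integral elements of `F`. -/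
structure h9_GaussHyp (F : IntermediateField K (LaurentSeries K))
    (Fb : IntermediateField kA (LaurentSeries kA)) (n : ℕ) (J Y : LaurentSeries A) : Prop where
  pos : 0 < n
  J_mem : ιA J ∈ F
  Y_mem : ιA Y ∈ F
  Jb_mem : ρA J ∈ Fb
  Yb_mem : ρA Y ∈ Fb
  gen : ∀ x ∈ Fb, x ∈ IntermediateField.adjoin kA
    {s | ∃ y : LaurentSeries A, ιA y ∈ F ∧ ρA y = s}
  igA : ∀ p : Fin n → Polynomial kA, p ≠ 0 →
    ∑ i, Polynomial.aeval (ρA J) (p i) * (ρA Y) ^ (i : ℕ) ≠ 0
  igB : ∀ f ∈ F, ∃ (p : Fin n → Polynomial K) (q : Polynomial K), q ≠ 0 ∧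
    Polynomial.aeval (ιA J) q * f = ∑ i, Polynomial.aeval (ιA J) (p i) * (ιA Y) ^ (i : ℕ)

variable {A}
variable {F : IntermediateField K (LaurentSeries K)}
  {Fb : IntermediateField (IsLocalRing.ResidueField A)
    (LaurentSeries (IsLocalRing.ResidueField A))} {n : ℕ} {J Y : LaurentSeries A}

theorem h9_aeval_ne_zero (H : h9_GaussHyp A F Fb n J Y) {q : Polynomial kA} (hq : q ≠ 0) :
    Polynomial.aeval (ρA J) q ≠ 0 := by
  classical
  have h := H.igA (fun i : Fin n => if i = ⟨0, H.pos⟩ then q else 0) (by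
    intro h0
    have h1 := congrFun h0 ⟨0, H.pos⟩
    simp only [if_true, Pi.zero_apply] at h1
    exact hq h1)
  rw [Fintype.sum_eq_single ⟨0, H.pos⟩] at h
  · simpa using h
  · intro i hi
    rw [if_neg hi, map_zero, zero_mul]

theorem h9_aeval_mem {k L : Type*} [Field k] [Field L] [Algebra k L] (E : IntermediateField k L)
    {x : L} (hx : x ∈ E) (p : Polynomial k) : Polynomial.aeval x p ∈ E := by
  have h := Polynomial.aeval_algHom_apply E.val ⟨x, hx⟩ p
  have h1 : Polynomial.aeval x p = ((Polynomial.aeval (⟨x, hx⟩ : ↥E) p : ↥E) : L) := h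
  rw [h1]
  exact Subtype.property _

/-- Structure lemma: every nonzero `f ∈ F` is `u · y₁ / y₂` with `u ∈ Kˣ` and `y₁, y₂` integral
with nonzero reductions in `k(J̄)[Ȳ]`, `k[J̄]`. -/
theorem h9_struct (H : h9_GaussHyp A F Fb n J Y) {f : LaurentSeries K} (hf : f ∈ F)
    (hf0 : f ≠ 0) :
    ∃ (u : K) (y₁ y₂ : LaurentSeries A) (pb : Fin n → Polynomial kA) (qb : Polynomial kA),
      u ≠ 0 ∧ ρA y₁ ≠ 0 ∧ ρA y₂ ≠ 0 ∧
      ρA y₁ = ∑ i, Polynomial.aeval (ρA J) (pb i) * (ρA Y) ^ (i : ℕ) ∧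
      ρA y₂ = Polynomial.aeval (ρA J) qb ∧
      f * ιA y₂ = algebraMap K (LaurentSeries K) u * ιA y₁ := by
  obtain ⟨p, q, hq, hpq⟩ := H.igB f hf
  obtain ⟨c₂, q₀', hc₂, hq₀, i, hi⟩ := h9_exists_scale_poly A (fun _ : Unit => q)
    (fun h => hq (congrFun h ()))
  have hq₀ι : ιA (Polynomial.aeval J (q₀' ())) =
      algebraMap K (LaurentSeries K) c₂ * Polynomial.aeval (ιA J) q := by
    rw [h9_cm_aeval, hq₀ (), map_mul, Polynomial.aeval_C]
  have hq₀ρ : ρA (Polynomial.aeval J (q₀' ())) ≠ 0 := by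
    rw [h9_cm_aeval]
    exact h9_aeval_ne_zero H hi
  have hqJ : Polynomial.aeval (ιA J) q ≠ 0 := by
    intro h0
    rw [h0, mul_zero] at hq₀ι
    have h1 : Polynomial.aeval J (q₀' ()) = 0 := h9_ι_injective A (by rw [hq₀ι, map_zero])
    rw [h1, map_zero] at hq₀ρ
    exact hq₀ρ rfl
  have hp : p ≠ 0 := by
    intro h0
    rw [h0] at hpq
    simp only [Pi.zero_apply, map_zero, zero_mul, Finset.sum_const_zero, mul_eq_zero] at hpq
    rcases hpq with h | h
    · exact hqJ h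
    · exact hf0 h
  obtain ⟨c₁, p₀, hc₁, hp₀, i₁, hi₁⟩ := h9_exists_scale_poly A p hp
  have hE : ιA (∑ i, Polynomial.aeval J (p₀ i) * Y ^ (i : ℕ)) =
      algebraMap K (LaurentSeries K) c₁ *
        ∑ i, Polynomial.aeval (ιA J) (p i) * (ιA Y) ^ (i : ℕ) := by
    rw [map_sum, Finset.mul_sum]
    refine Finset.sum_congr rfl fun i _ => ?_
    rw [map_mul, map_pow, h9_cm_aeval, hp₀ i, map_mul, Polynomial.aeval_C, mul_assoc]
  have hEρ : ρA (∑ i, Polynomial.aeval J (p₀ i) * Y ^ (i : ℕ)) =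
      ∑ i, Polynomial.aeval (ρA J) ((p₀ i).map (IsLocalRing.residue A)) * (ρA Y) ^ (i : ℕ) := by
    rw [map_sum]
    refine Finset.sum_congr rfl fun i _ => ?_
    rw [map_mul, map_pow, h9_cm_aeval]
  refine ⟨c₂ * c₁⁻¹, ∑ i, Polynomial.aeval J (p₀ i) * Y ^ (i : ℕ), Polynomial.aeval J (q₀' ()),
    fun i => (p₀ i).map (IsLocalRing.residue A), (q₀' ()).map (IsLocalRing.residue A),
    mul_ne_zero hc₂ (inv_ne_zero hc₁), ?_, hq₀ρ, hEρ, h9_cm_aeval _ _ _, ?_⟩
  · rw [hEρ]
    exact H.igA _ (fun h => hi₁ (congrFun h i₁))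
  · rw [hq₀ι, hE, ← hpq, map_mul, map_inv₀]
    have hc₁' : algebraMap K (LaurentSeries K) c₁ ≠ 0 := by
      rw [Ne, map_eq_zero]
      exact hc₁
    field_simp

theorem h9_inv_rel {L : Type*} [Field L] {f a y₁ y₂ : L} (hf : f ≠ 0) (ha : a ≠ 0)
    (h : f * y₂ = a * y₁) : f⁻¹ * y₁ = a⁻¹ * y₂ := by
  have h1 : y₁ = a⁻¹ * (f * y₂) := by
    rw [h, ← mul_assoc, inv_mul_cancel₀ ha, one_mul]
  rw [h1, ← mul_assoc, ← mul_assoc, mul_comm f⁻¹, mul_assoc, mul_assoc, inv_mul_cancel_left₀ hf]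

/-- The reduction of an element of `F` in the Gauss ring lies in `Fb`. -/
theorem h9_red₀_mem (H : h9_GaussHyp A F Fb n J Y) {f : LaurentSeries K} (hf : f ∈ F)
    (hg : f ∈ h9_gauss A) : h9_red₀ A f ∈ Fb := by
  by_cases hf0 : f = 0
  · rw [hf0, h9_red₀_zero]
    exact Fb.zero_mem
  · obtain ⟨u, y₁, y₂, pb, qb, hu, h1, h2, h3, h4, h⟩ := h9_struct H hf hf0
    have huA : u ∈ A := (h9_mem_gauss_iff_of_eq A h h1 h2).1 hg
    rw [h9_red₀_of_eq A h h2 huA, h3, h4]
    refine Fb.div_mem (Fb.mul_mem (Fb.algebraMap_mem _) ?_) (h9_aeval_mem Fb H.Jb_mem _)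
    exact Fb.sum_mem fun i _ => Fb.mul_mem (h9_aeval_mem Fb H.Jb_mem _) (pow_mem H.Yb_mem _)

/-- Every element of `Fb` is the reduction of an element of `F` in the Gauss ring. -/
theorem h9_red₀_surj (H : h9_GaussHyp A F Fb n J Y) (x : LaurentSeries kA) (hx : x ∈ Fb) :
    ∃ f, f ∈ F ∧ f ∈ h9_gauss A ∧ h9_red₀ A f = x := by
  have hx' := H.gen x hx
  clear hx
  induction hx' using IntermediateField.adjoin_induction with
  | mem x hx =>
    obtain ⟨y, hyF, rfl⟩ := hx
    exact ⟨ιA y, hyF, h9_ι_mem_gauss A y, h9_red₀_ι A y⟩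
  | algebraMap c =>
    obtain ⟨a, rfl⟩ := IsLocalRing.residue_surjective c
    exact ⟨algebraMap K (LaurentSeries K) (a : K), F.algebraMap_mem _,
      h9_algebraMap_mem_gauss A a.2, h9_red₀_algebraMap A a.2⟩
  | add x y _ _ hx hy =>
    obtain ⟨f, hfF, hfg, rfl⟩ := hx
    obtain ⟨g, hgF, hgg, rfl⟩ := hy
    exact ⟨f + g, F.add_mem hfF hgF, (h9_gauss A).add_mem hfg hgg, h9_red₀_add A hfg hgg⟩
  | mul x y _ _ hx hy =>
    obtain ⟨f, hfF, hfg, rfl⟩ := hx
    obtain ⟨g, hgF, hgg, rfl⟩ := hy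
    exact ⟨f * g, F.mul_mem hfF hgF, (h9_gauss A).mul_mem hfg hgg, h9_red₀_mul' A hfg hgg⟩
  | inv x _ hx =>
    obtain ⟨f, hfF, hfg, rfl⟩ := hx
    by_cases h0 : h9_red₀ A f = 0
    · exact ⟨0, F.zero_mem, (h9_gauss A).zero_mem, by rw [h9_red₀_zero, h0, inv_zero]⟩
    · have hf0 : f ≠ 0 := fun h => h0 (h ▸ h9_red₀_zero A)
      obtain ⟨u, y₁, y₂, pb, qb, hu, h1, h2, -, -, h⟩ := h9_struct H hfF hf0
      have huA : u ∈ A := (h9_mem_gauss_iff_of_eq A h h1 h2).1 hfg
      have hr := h9_red₀_of_eq A h h2 huA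
      have hπu : IsLocalRing.residue A ⟨u, huA⟩ ≠ 0 := by
        intro h3
        apply h0
        rw [hr, h3, map_zero, zero_mul, zero_div]
      have hinv : u⁻¹ ∈ A := by
        by_contra hn
        obtain ⟨hv, hv0⟩ := h9_inv_mem_of_not_mem A hn
        apply hπu
        have h5 : (⟨u, huA⟩ : A) = ⟨u⁻¹⁻¹, hv⟩ := Subtype.ext (inv_inv u).symm
        rw [h5]
        exact hv0
      have hrel : f⁻¹ * ιA y₁ = algebraMap K (LaurentSeries K) u⁻¹ * ιA y₂ := by
        rw [map_inv₀]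
        exact h9_inv_rel hf0 (by rw [Ne, map_eq_zero]; exact hu) h
      have hfinv : f⁻¹ ∈ h9_gauss A := (h9_mem_gauss_iff_of_eq A hrel h2 h1).2 hinv
      refine ⟨f⁻¹, F.inv_mem hfF, hfinv, ?_⟩
      have h4 : h9_red₀ A f⁻¹ * h9_red₀ A f = 1 := by
        rw [← h9_red₀_mul' A hfinv hfg, inv_mul_cancel₀ hf0, h9_red₀_one]
      exact eq_inv_of_mul_eq_one_left h4

/-- The valuation ring of `F`: elements of `F` lying in the Gauss ring. -/
def h9_O (H : h9_GaussHyp A F Fb n J Y) : ValuationSubring ↥F :=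
  { (h9_gauss A).comap (algebraMap ↥F (LaurentSeries K)) with
    mem_or_inv_mem' := by
      intro f
      by_cases hf0 : f = 0
      · left
        rw [hf0]
        exact Subring.zero_mem _
      · have hf0' : (f : LaurentSeries K) ≠ 0 := fun h => hf0 (Subtype.ext h)
        obtain ⟨u, y₁, y₂, pb, qb, hu, h1, h2, -, -, h⟩ := h9_struct H f.2 hf0'
        rcases A.mem_or_inv_mem u with hu' | hu'
        · left
          show (f : LaurentSeries K) ∈ h9_gauss A
          exact (h9_mem_gauss_iff_of_eq A h h1 h2).2 hu'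
        · right
          show ((f : LaurentSeries K))⁻¹ ∈ h9_gauss A
          have hrel : (f : LaurentSeries K)⁻¹ * ιA y₁ =
              algebraMap K (LaurentSeries K) u⁻¹ * ιA y₂ := by
            rw [map_inv₀]
            exact h9_inv_rel hf0' (by rw [Ne, map_eq_zero]; exact hu) h
          exact (h9_mem_gauss_iff_of_eq A hrel h2 h1).2 hu' }

theorem h9_mem_O (H : h9_GaussHyp A F Fb n J Y) (f : ↥F) :
    f ∈ h9_O H ↔ (f : LaurentSeries K) ∈ h9_gauss A :=
  Iff.rfl

/-- The reduction map `O → Fb`. -/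
def h9_red (H : h9_GaussHyp A F Fb n J Y) : ↥(h9_O H) →+* ↥Fb :=
  RingHom.codRestrict
    ((h9_redHom A).comp
      (RingHom.codRestrict ((algebraMap ↥F (LaurentSeries K)).comp (h9_O H).subtype)
        (h9_gauss A) (fun x => x.2)))
    Fb (fun x => h9_red₀_mem H x.1.2 x.2)

theorem h9_red_coe (H : h9_GaussHyp A F Fb n J Y) (x : ↥(h9_O H)) :
    ((h9_red H x : ↥Fb) : LaurentSeries kA) = h9_red₀ A ((x : ↥F) : LaurentSeries K) :=
  rfl

/-- The reduction datum. -/
def h9_datum (H : h9_GaussHyp A F Fb n J Y) : h39_RedDatum K ↥F kA ↥Fb where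
  A := A
  O := h9_O H
  res := IsLocalRing.residue A
  red := h9_red H
  res_surjective := IsLocalRing.residue_surjective
  red_surjective := by
    intro x
    obtain ⟨f, hfF, hfg, hfx⟩ := h9_red₀_surj H x x.2
    exact ⟨⟨⟨f, hfF⟩, hfg⟩, Subtype.ext hfx⟩
  mem_iff := fun a => (h9_algebraMap_mem_gauss_iff A a).symm
  red_algebraMap := fun a ha _ => Subtype.ext (h9_red₀_algebraMap A ha)
  exists_scale := by
    intro f hf0
    have hf0' : (f : LaurentSeries K) ≠ 0 := fun h => hf0 (Subtype.ext h)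
    obtain ⟨u, y₁, y₂, pb, qb, hu, h1, h2, -, -, h⟩ := h9_struct H f.2 hf0'
    have hu' : algebraMap K (LaurentSeries K) u ≠ 0 := by
      rw [Ne, map_eq_zero]
      exact hu
    have hrel : algebraMap K (LaurentSeries K) u⁻¹ * (f : LaurentSeries K) * ιA y₂ = ιA y₁ := by
      rw [mul_assoc, h, ← mul_assoc, ← map_mul, inv_mul_cancel₀ hu, map_one, one_mul]
    refine ⟨u⁻¹, inv_ne_zero hu, ?_, ?_⟩
    · show algebraMap K (LaurentSeries K) u⁻¹ * (f : LaurentSeries K) ∈ h9_gauss A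
      exact ⟨y₁, y₂, h2, hrel⟩
    · show (algebraMap K (LaurentSeries K) u⁻¹ * (f : LaurentSeries K))⁻¹ ∈ h9_gauss A
      refine ⟨y₂, y₁, h1, ?_⟩
      rw [← hrel, inv_mul_cancel_left₀]
      exact mul_ne_zero (by rw [map_inv₀]; exact inv_ne_zero hu') hf0'

theorem h9_datum_A (H : h9_GaussHyp A F Fb n J Y) : (h9_datum H).A = A :=
  rfl

theorem h9_datum_res (H : h9_GaussHyp A F Fb n J Y) (a : K) (ha : a ∈ (h9_datum H).A)
    (ha' : a ∈ A) : (h9_datum H).res ⟨a, ha⟩ = IsLocalRing.residue A ⟨a, ha'⟩ :=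
  rfl

theorem h9_datum_mem_O (H : h9_GaussHyp A F Fb n J Y) (f : ↥F) :
    f ∈ (h9_datum H).O ↔ ∃ y₁ y₂ : LaurentSeries A, ρA y₂ ≠ 0 ∧
      (f : LaurentSeries K) * ιA y₂ = ιA y₁ :=
  Iff.rfl

theorem h9_datum_red (H : h9_GaussHyp A F Fb n J Y) (f : ↥F) (hf : f ∈ (h9_datum H).O)
    (y₁ y₂ : LaurentSeries A) (h : (f : LaurentSeries K) * ιA y₂ = ιA y₁) :
    (((h9_datum H).red ⟨f, hf⟩ : ↥Fb) : LaurentSeries kA) * ρA y₂ = ρA y₁ :=
  h9_red₀_mul A hf h

/-- Power basis of `Fb` over `k(J̄)`: every element of `Fb` is `(∑ p̄_i(J̄) Ȳ^i) / q̄(J̄)`. -/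
theorem h9_repr_k (H : h9_GaussHyp A F Fb n J Y) (x : LaurentSeries kA) (hx : x ∈ Fb) :
    ∃ (p : Fin n → Polynomial kA) (q : Polynomial kA), Polynomial.aeval (ρA J) q ≠ 0 ∧
      Polynomial.aeval (ρA J) q * x = ∑ i, Polynomial.aeval (ρA J) (p i) * (ρA Y) ^ (i : ℕ) := by
  obtain ⟨f, hfF, hfg, rfl⟩ := h9_red₀_surj H x hx
  by_cases hf0 : f = 0
  · refine ⟨0, 1, ?_, ?_⟩
    · rw [map_one]
      exact one_ne_zero
    · rw [hf0, h9_red₀_zero, mul_zero]
      simp
  · obtain ⟨u, y₁, y₂, pb, qb, hu, h1, h2, h3, h4, h⟩ := h9_struct H hfF hf0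
    have huA : u ∈ A := (h9_mem_gauss_iff_of_eq A h h1 h2).1 hfg
    refine ⟨fun i => Polynomial.C (IsLocalRing.residue A ⟨u, huA⟩) * pb i, qb, ?_, ?_⟩
    · rw [← h4]
      exact h2
    · rw [h9_red₀_of_eq A h h2 huA, ← h4, mul_div_cancel₀ _ h2, h3, Finset.mul_sum]
      refine Finset.sum_congr rfl fun i _ => ?_
      rw [map_mul, Polynomial.aeval_C, mul_assoc]

end Datum

/-! ## Degree from a power basis -/

section Finrank

theorem h9_finrank_of_powerBasis {k E : Type*} [Field k] [Field E] [Algebra k E] (j y : E)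
    (n : ℕ)
    (hind : ∀ p : Fin n → Polynomial k, p ≠ 0 →
      ∑ i, Polynomial.aeval j (p i) * y ^ (i : ℕ) ≠ 0)
    (hspan : ∀ x : E, ∃ (p : Fin n → Polynomial k) (q : Polynomial k),
      Polynomial.aeval j q ≠ 0 ∧
        Polynomial.aeval j q * x = ∑ i, Polynomial.aeval j (p i) * y ^ (i : ℕ)) :
    Module.finrank k⟮j⟯ E = n := by
  classical
  have hcoe : ∀ p : Polynomial k,
      ((Polynomial.aeval (IntermediateField.AdjoinSimple.gen k j) p : k⟮j⟯) : E) =
        Polynomial.aeval j p := by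
    intro p
    exact (Polynomial.aeval_algHom_apply (k⟮j⟯.val) (IntermediateField.AdjoinSimple.gen k j)
      p).symm
  have hli : LinearIndependent k⟮j⟯ (fun i : Fin n => y ^ (i : ℕ)) := by
    rw [Fintype.linearIndependent_iff]
    intro g hg
    have hrep : ∀ i, ∃ r s : Polynomial k, Polynomial.aeval j s ≠ 0 ∧
        (g i : E) * Polynomial.aeval j s = Polynomial.aeval j r := by
      intro i
      obtain ⟨r, s, hrs⟩ := (IntermediateField.mem_adjoin_simple_iff k (g i : E)).1 (g i).2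
      by_cases hs : Polynomial.aeval j s = 0
      · refine ⟨0, 1, by rw [map_one]; exact one_ne_zero, ?_⟩
        rw [hrs, hs, div_zero, zero_mul, map_zero]
      · exact ⟨r, s, hs, by rw [hrs, div_mul_cancel₀ _ hs]⟩
    choose r s hs hrs using hrep
    have hD : Polynomial.aeval j (∏ i, s i) ≠ 0 := by
      rw [map_prod]
      exact Finset.prod_ne_zero_iff.2 fun i _ => hs i
    have hp : ∀ i, (g i : E) * Polynomial.aeval j (∏ i, s i) =
        Polynomial.aeval j (r i * ∏ l ∈ Finset.univ.erase i, s l) := by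
      intro i
      have h1 : ∏ i, s i = s i * ∏ l ∈ Finset.univ.erase i, s l :=
        (Finset.mul_prod_erase _ _ (Finset.mem_univ i)).symm
      rw [h1, map_mul, map_mul, ← mul_assoc, hrs]
    have hsum : ∑ i, Polynomial.aeval j (r i * ∏ l ∈ Finset.univ.erase i, s l) * y ^ (i : ℕ)
        = 0 := by
      have h1 := congrArg (fun z => Polynomial.aeval j (∏ i, s i) * z) hg
      simp only [mul_zero, Finset.mul_sum] at h1
      rw [← h1]
      refine Finset.sum_congr rfl fun i _ => ?_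
      rw [← hp i, Algebra.smul_def, IntermediateField.algebraMap_apply]
      ring
    have hp0 : (fun i => r i * ∏ l ∈ Finset.univ.erase i, s l) = 0 := by
      by_contra h
      exact hind _ h hsum
    intro i
    have h2 := hp i
    rw [congrFun hp0 i, Pi.zero_apply, map_zero] at h2
    rcases mul_eq_zero.1 h2 with h3 | h3
    · exact Subtype.ext h3
    · exact absurd h3 hD
  have hsp : ⊤ ≤ Submodule.span k⟮j⟯ (Set.range fun i : Fin n => y ^ (i : ℕ)) := by
    intro x _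
    obtain ⟨p, q, hq, hpq⟩ := hspan x
    have hterm : ∀ i : Fin n,
        (Polynomial.aeval (IntermediateField.AdjoinSimple.gen k j) (p i) /
          Polynomial.aeval (IntermediateField.AdjoinSimple.gen k j) q : k⟮j⟯) • y ^ (i : ℕ) =
        Polynomial.aeval j (p i) * y ^ (i : ℕ) / Polynomial.aeval j q := by
      intro i
      rw [Algebra.smul_def, IntermediateField.algebraMap_apply, IntermediateField.coe_div, hcoe,
        hcoe]
      ring
    have hx : x = ∑ i : Fin n,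
        (Polynomial.aeval (IntermediateField.AdjoinSimple.gen k j) (p i) /
          Polynomial.aeval (IntermediateField.AdjoinSimple.gen k j) q : k⟮j⟯) • y ^ (i : ℕ) := by
      rw [Finset.sum_congr rfl fun i _ => hterm i, ← Finset.sum_div, ← hpq,
        mul_div_cancel_left₀ _ hq]
    rw [hx]
    exact Submodule.sum_mem _ fun i _ =>
      Submodule.smul_mem _ _ (Submodule.subset_span ⟨i, rfl⟩)
  rw [Module.finrank_eq_card_basis (Module.Basis.mk hli hsp), Fintype.card_fin]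

end Finrank

section DatumFinrank

variable {K : Type*} [Field K] {A : ValuationSubring K}
variable {F : IntermediateField K (LaurentSeries K)}
  {Fb : IntermediateField (IsLocalRing.ResidueField A)
    (LaurentSeries (IsLocalRing.ResidueField A))} {n : ℕ} {J Y : LaurentSeries A}

/-- `[Fb : k(J̄)] = n`. -/
theorem h9_finrank (H : h9_GaussHyp A F Fb n J Y) (jk : ↥Fb)
    (hjk : (jk : LaurentSeries (IsLocalRing.ResidueField A)) =
      coeffMap (IsLocalRing.residue A) J) :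
    Module.finrank (IsLocalRing.ResidueField A)⟮jk⟯ ↥Fb = n := by
  have hcoe : ∀ p : Polynomial (IsLocalRing.ResidueField A),
      ((Polynomial.aeval jk p : ↥Fb) : LaurentSeries (IsLocalRing.ResidueField A)) =
        Polynomial.aeval (coeffMap (IsLocalRing.residue A) J) p := by
    intro p
    rw [← hjk]
    exact (Polynomial.aeval_algHom_apply Fb.val jk p).symm
  have hsumcoe : ∀ p : Fin n → Polynomial (IsLocalRing.ResidueField A),
      ((∑ i, Polynomial.aeval jk (p i) *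
          (⟨coeffMap (IsLocalRing.residue A) Y, H.Yb_mem⟩ : ↥Fb) ^ (i : ℕ) : ↥Fb) :
        LaurentSeries (IsLocalRing.ResidueField A)) =
      ∑ i, Polynomial.aeval (coeffMap (IsLocalRing.residue A) J) (p i) *
        (coeffMap (IsLocalRing.residue A) Y) ^ (i : ℕ) := by
    intro p
    rw [AddSubmonoidClass.coe_finsetSum]
    refine Finset.sum_congr rfl fun i _ => ?_
    rw [MulMemClass.coe_mul, SubmonoidClass.coe_pow, hcoe]
  refine h9_finrank_of_powerBasis jk ⟨coeffMap (IsLocalRing.residue A) Y, H.Yb_mem⟩ n ?_ ?_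
  · intro p hp h0
    have h1 := congrArg (Subtype.val) h0
    rw [hsumcoe] at h1
    exact H.igA p hp h1
  · intro x
    obtain ⟨p, q, hq, hpq⟩ := h9_repr_k H x x.2
    refine ⟨p, q, ?_, ?_⟩
    · intro h0
      apply hq
      rw [← hcoe, h0]
      rfl
    · apply Subtype.ext
      rw [hsumcoe, MulMemClass.coe_mul, hcoe]
      exact hpq

end DatumFinrank

end Fermat.Agent.S18

end
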