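import Mathlib
import Fermat.Agent.S18.h9_RedAbs
import Fermat.Agent.S18.h19_ResField
import Fermat.Prelude.Def_ModularCurve_ReductionModL
import Fermat.Prelude.Def_FLTPrelim_Ramification
import Fermat.Agent.S24.h59_Gen

/-!
# S18, layer MOD, row IG-C (helper9): the reduction datum of `F(N)`

Instantiation of `h9_RedAbs` at `K = Qb`, `F = modularFunctionFieldBar N`,
`Fb = modularFunctionFieldFullC k N`, `J = j(q)`, `Y = j(q^N)`, `n = [SL₂(ℤ) : Γ₀(N)]`.

The two inputs IG-A (Igusa's degree bound over `k`) and IG-B (the power basis of `F(N)` over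
`Qb(j)`) are explicit hypotheses; `h9_exists_redDatum` / `h9_finrank_fb` take them in exactly the
shape of `h54_igusa_field` / `h54_exists_repr` of the MOD skeleton.
-/

set_option autoImplicit false
set_option synthInstance.maxHeartbeats 400000

noncomputable section

open ModularCurve AlgebraicCurve IntermediateField CongruenceSubgroup
open scoped MatrixGroups

namespace Fermat.Agent.S18

open Fermat.Agent.S24

local notation "Qb" => AlgebraicClosure ℚ

/-- The family form `∑ p_i(J) Y^i ≠ 0` of a degree bound `H(J, Y) ≠ 0` for `deg_Y H < n`. -/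
theorem h9_igA_family {k : Type*} [Field k] (Jb Yb : LaurentSeries k) (n : ℕ)
    (igA : ∀ H : Polynomial (Polynomial k), H ≠ 0 → H.natDegree < n →
      (H.map (Polynomial.aeval Jb).toRingHom).eval Yb ≠ 0)
    (p : Fin n → Polynomial k) (hp : p ≠ 0) :
    ∑ i, Polynomial.aeval Jb (p i) * Yb ^ (i : ℕ) ≠ 0 := by
  classical
  have hcoeff : ∀ i : Fin n,
      (∑ l : Fin n, Polynomial.C (p l) * Polynomial.X ^ (l : ℕ)).coeff i = p i := by
    intro i
    rw [Polynomial.finsetSum_coeff, Finset.sum_eq_single i]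
    · rw [Polynomial.coeff_C_mul_X_pow, if_pos rfl]
    · intro b _ hb
      rw [Polynomial.coeff_C_mul_X_pow, if_neg]
      intro h
      exact hb (Fin.ext h.symm)
    · intro h
      exact absurd (Finset.mem_univ i) h
  have hH0 : (∑ l : Fin n, Polynomial.C (p l) * Polynomial.X ^ (l : ℕ)) ≠ 0 := by
    intro h0
    apply hp
    funext i
    rw [← hcoeff i, h0, Polynomial.coeff_zero]
    rfl
  have hdeg : (∑ l : Fin n, Polynomial.C (p l) * Polynomial.X ^ (l : ℕ)).natDegree < n := by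
    rw [Polynomial.natDegree_lt_iff_degree_lt hH0]
    exact Polynomial.degree_sum_fin_lt p
  have h := igA _ hH0 hdeg
  have heval : ((∑ l : Fin n, Polynomial.C (p l) * Polynomial.X ^ (l : ℕ)).map
      (Polynomial.aeval Jb).toRingHom).eval Yb = ∑ i, Polynomial.aeval Jb (p i) * Yb ^ (i : ℕ) := by
    rw [Polynomial.map_sum, Polynomial.eval_finsetSum]
    refine Finset.sum_congr rfl fun i _ => ?_
    rw [Polynomial.map_mul, Polynomial.map_C, Polynomial.map_pow, Polynomial.map_X,
      Polynomial.eval_mul, Polynomial.eval_C, Polynomial.eval_pow, Polynomial.eval_X]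
    rfl
  rwa [heval] at h

theorem h9_coeffEmb_jq : coeffEmb Qb jq = jqModC Qb :=
  coeffMap_jqModC (algebraMap ℚ Qb)

/-- The hypotheses of the abstract construction hold for `F(N)`, given IG-A and IG-B. -/
theorem h9_gaussHyp (N : ℕ) [NeZero N] (A : ValuationSubring Qb)
    (igA : ∀ H : Polynomial (Polynomial (IsLocalRing.ResidueField A)), H ≠ 0 →
      H.natDegree < Nat.card (SL(2, ℤ) ⧸ Gamma0 N) →
      (H.map (Polynomial.aeval (jqModC (IsLocalRing.ResidueField A))).toRingHom).eval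
        (qExpand (IsLocalRing.ResidueField A) N (jqModC (IsLocalRing.ResidueField A))) ≠ 0)
    (igB : ∀ f : ↥(modularFunctionFieldBar N),
      ∃ (p : Fin (Nat.card (SL(2, ℤ) ⧸ Gamma0 N)) → Polynomial Qb) (q : Polynomial Qb), q ≠ 0 ∧
        Polynomial.aeval (jqModC Qb) q * (f : LaurentSeries Qb)
          = ∑ i, Polynomial.aeval (jqModC Qb) (p i) * qExpand Qb N (jqModC Qb) ^ (i : ℕ)) :
    h9_GaussHyp A (modularFunctionFieldBar N)
      (modularFunctionFieldFullC (IsLocalRing.ResidueField A) N)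
      (Nat.card (SL(2, ℤ) ⧸ Gamma0 N)) (jqModC A) (qExpand A N (jqModC A)) where
  pos := Nat.card_pos
  J_mem := by
    rw [coeffMap_jqModC, ← h9_coeffEmb_jq]
    exact h59_jq_mem_bar N
  Y_mem := by
    rw [coeffMap_qExpand, coeffMap_jqModC, ← h9_coeffEmb_jq]
    exact h59_gen_mem_bar dvd_rfl
  Jb_mem := by
    rw [coeffMap_jqModC]
    exact jqModC_mem_full _ N
  Yb_mem := by
    rw [coeffMap_qExpand, coeffMap_jqModC]
    exact jqModCd_mem_full _ N dvd_rfl
  gen := by
    intro x hx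
    refine IntermediateField.adjoin.mono _ _ _ ?_ hx
    rintro s ⟨d, hd, hdN, rfl⟩
    have := hd
    refine ⟨qExpand A d (jqModC A), ?_, ?_⟩
    · rw [coeffMap_qExpand, coeffMap_jqModC, ← h9_coeffEmb_jq]
      exact h59_gen_mem_bar hdN
    · rw [coeffMap_qExpand, coeffMap_jqModC]
  igA := by
    intro p hp
    rw [coeffMap_qExpand, coeffMap_jqModC]
    exact h9_igA_family _ _ _ igA p hp
  igB := by
    intro f hf
    rw [coeffMap_qExpand, coeffMap_jqModC]
    exact igB ⟨f, hf⟩

/-- **IG-C**, with IG-A (over the residue field of `A`) and IG-B as hypotheses. -/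
theorem h9_exists_redDatum_of (N : ℕ) [NeZero N] (A : ValuationSubring Qb)
    (igA : ∀ H : Polynomial (Polynomial (IsLocalRing.ResidueField A)), H ≠ 0 →
      H.natDegree < Nat.card (SL(2, ℤ) ⧸ Gamma0 N) →
      (H.map (Polynomial.aeval (jqModC (IsLocalRing.ResidueField A))).toRingHom).eval
        (qExpand (IsLocalRing.ResidueField A) N (jqModC (IsLocalRing.ResidueField A))) ≠ 0)
    (igB : ∀ f : ↥(modularFunctionFieldBar N),
      ∃ (p : Fin (Nat.card (SL(2, ℤ) ⧸ Gamma0 N)) → Polynomial Qb) (q : Polynomial Qb), q ≠ 0 ∧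
        Polynomial.aeval (jqModC Qb) q * (f : LaurentSeries Qb)
          = ∑ i, Polynomial.aeval (jqModC Qb) (p i) * qExpand Qb N (jqModC Qb) ^ (i : ℕ)) :
    ∃ R : h39_RedDatum Qb ↥(modularFunctionFieldBar N) (IsLocalRing.ResidueField A)
        ↥(modularFunctionFieldFullC (IsLocalRing.ResidueField A) N),
      R.A = A ∧
      (∀ (a : Qb) (ha : a ∈ R.A) (ha' : a ∈ A),
        R.res ⟨a, ha⟩ = IsLocalRing.residue A ⟨a, ha'⟩) ∧
      (∀ f : ↥(modularFunctionFieldBar N), f ∈ R.O ↔ ∃ y₁ y₂ : LaurentSeries A,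
        coeffMap (IsLocalRing.residue A) y₂ ≠ 0 ∧
          (f : LaurentSeries Qb) * coeffMap A.subtype y₂ = coeffMap A.subtype y₁) ∧
      (∀ (f : ↥(modularFunctionFieldBar N)) (hf : f ∈ R.O) (y₁ y₂ : LaurentSeries A),
        (f : LaurentSeries Qb) * coeffMap A.subtype y₂ = coeffMap A.subtype y₁ →
          ((R.red ⟨f, hf⟩ : ↥(modularFunctionFieldFullC (IsLocalRing.ResidueField A) N)) :
              LaurentSeries (IsLocalRing.ResidueField A)) * coeffMap (IsLocalRing.residue A) y₂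
            = coeffMap (IsLocalRing.residue A) y₁) :=
  ⟨h9_datum (h9_gaussHyp N A igA igB), rfl, fun _ _ _ => rfl, fun _ => Iff.rfl,
    fun f hf y₁ y₂ h => h9_datum_red (h9_gaussHyp N A igA igB) f hf y₁ y₂ h⟩

/-- `j̄` as an element of `Fb N` (the skeleton's `h54_jk`). -/
def h9_jk (k : Type) [Field k] (N : ℕ) [NeZero N] : ↥(modularFunctionFieldFullC k N) :=
  ⟨jqModC k, jqModC_mem_full k N⟩

/-- **IG-D**, with IG-A (over the residue field of `A`) and IG-B as hypotheses. -/
theorem h9_finrank_fb_of (N : ℕ) [NeZero N] (A : ValuationSubring Qb)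
    (igA : ∀ H : Polynomial (Polynomial (IsLocalRing.ResidueField A)), H ≠ 0 →
      H.natDegree < Nat.card (SL(2, ℤ) ⧸ Gamma0 N) →
      (H.map (Polynomial.aeval (jqModC (IsLocalRing.ResidueField A))).toRingHom).eval
        (qExpand (IsLocalRing.ResidueField A) N (jqModC (IsLocalRing.ResidueField A))) ≠ 0)
    (igB : ∀ f : ↥(modularFunctionFieldBar N),
      ∃ (p : Fin (Nat.card (SL(2, ℤ) ⧸ Gamma0 N)) → Polynomial Qb) (q : Polynomial Qb), q ≠ 0 ∧
        Polynomial.aeval (jqModC Qb) q * (f : LaurentSeries Qb)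
          = ∑ i, Polynomial.aeval (jqModC Qb) (p i) * qExpand Qb N (jqModC Qb) ^ (i : ℕ)) :
    Module.finrank (IsLocalRing.ResidueField A)⟮h9_jk (IsLocalRing.ResidueField A) N⟯
        ↥(modularFunctionFieldFullC (IsLocalRing.ResidueField A) N)
      = Nat.card (SL(2, ℤ) ⧸ Gamma0 N) :=
  h9_finrank (h9_gaussHyp N A igA igB) (h9_jk (IsLocalRing.ResidueField A) N)
    (coeffMap_jqModC _).symm

/-- **IG-C** in the shape of the MOD skeleton: `igusa` is the statement of `h54_igusa_field`,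
`repr` the statement of `h54_exists_repr`. -/
theorem h9_exists_redDatum (N : ℕ) [NeZero N] {ℓ : ℕ} [Fact ℓ.Prime]
    (A : ValuationSubring Qb) (hA : A.LiesOverPrime ℓ)
    (igusa : ∀ (k : Type) [Field k] [CharP k ℓ] (H : Polynomial (Polynomial k)), H ≠ 0 →
      H.natDegree < Nat.card (SL(2, ℤ) ⧸ Gamma0 N) →
      (H.map (Polynomial.aeval (jqModC k)).toRingHom).eval (qExpand k N (jqModC k)) ≠ 0)
    (repr : ∀ f : ↥(modularFunctionFieldBar N),
      ∃ (p : Fin (Nat.card (SL(2, ℤ) ⧸ Gamma0 N)) → Polynomial Qb) (q : Polynomial Qb), q ≠ 0 ∧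
        Polynomial.aeval (jqModC Qb) q * (f : LaurentSeries Qb)
          = ∑ i, Polynomial.aeval (jqModC Qb) (p i) * qExpand Qb N (jqModC Qb) ^ (i : ℕ)) :
    ∃ R : h39_RedDatum Qb ↥(modularFunctionFieldBar N) (IsLocalRing.ResidueField A)
        ↥(modularFunctionFieldFullC (IsLocalRing.ResidueField A) N),
      R.A = A ∧
      (∀ (a : Qb) (ha : a ∈ R.A) (ha' : a ∈ A),
        R.res ⟨a, ha⟩ = IsLocalRing.residue A ⟨a, ha'⟩) ∧
      (∀ f : ↥(modularFunctionFieldBar N), f ∈ R.O ↔ ∃ y₁ y₂ : LaurentSeries A,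
        coeffMap (IsLocalRing.residue A) y₂ ≠ 0 ∧
          (f : LaurentSeries Qb) * coeffMap A.subtype y₂ = coeffMap A.subtype y₁) ∧
      (∀ (f : ↥(modularFunctionFieldBar N)) (hf : f ∈ R.O) (y₁ y₂ : LaurentSeries A),
        (f : LaurentSeries Qb) * coeffMap A.subtype y₂ = coeffMap A.subtype y₁ →
          ((R.red ⟨f, hf⟩ : ↥(modularFunctionFieldFullC (IsLocalRing.ResidueField A) N)) :
              LaurentSeries (IsLocalRing.ResidueField A)) * coeffMap (IsLocalRing.residue A) y₂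
            = coeffMap (IsLocalRing.residue A) y₁) := by
  have _ : CharP (IsLocalRing.ResidueField A) ℓ := h19_residueField_charP A ℓ hA
  exact h9_exists_redDatum_of N A (fun H hH hdeg => igusa _ H hH hdeg) repr

/-- **IG-D** in the shape of the MOD skeleton. -/
theorem h9_finrank_fb (N : ℕ) [NeZero N] {ℓ : ℕ} [Fact ℓ.Prime]
    (A : ValuationSubring Qb) (hA : A.LiesOverPrime ℓ)
    (igusa : ∀ (k : Type) [Field k] [CharP k ℓ] (H : Polynomial (Polynomial k)), H ≠ 0 →
      H.natDegree < Nat.card (SL(2, ℤ) ⧸ Gamma0 N) →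
      (H.map (Polynomial.aeval (jqModC k)).toRingHom).eval (qExpand k N (jqModC k)) ≠ 0)
    (repr : ∀ f : ↥(modularFunctionFieldBar N),
      ∃ (p : Fin (Nat.card (SL(2, ℤ) ⧸ Gamma0 N)) → Polynomial Qb) (q : Polynomial Qb), q ≠ 0 ∧
        Polynomial.aeval (jqModC Qb) q * (f : LaurentSeries Qb)
          = ∑ i, Polynomial.aeval (jqModC Qb) (p i) * qExpand Qb N (jqModC Qb) ^ (i : ℕ)) :
    Module.finrank (IsLocalRing.ResidueField A)⟮h9_jk (IsLocalRing.ResidueField A) N⟯
        ↥(modularFunctionFieldFullC (IsLocalRing.ResidueField A) N)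
      = Nat.card (SL(2, ℤ) ⧸ Gamma0 N) := by
  have _ : CharP (IsLocalRing.ResidueField A) ℓ := h19_residueField_charP A ℓ hA
  exact h9_finrank_fb_of N A (fun H hH hdeg => igusa _ H hH hdeg) repr

end Fermat.Agent.S18

end
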