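/-
S18 / MOD layer (helper54): the final exports of the modular layer.

`Qb = AlgebraicClosure ℚ`, `F N = modularFunctionFieldBar N`, `A` a valuation ring of `Qb` over a
prime `ℓ ∤ N`, `k = A/𝔪`, `Fb N = modularFunctionFieldFullC k N`.

* (M1)  `h54_redDatum N hℓN A hA` with `h54_isModRed`, `h54_finrank_fb`, `h54_separable_fb`;
* (M1w) `h54_weakChart_j` (every prime `ℓ ∤ N`);
* (M2)  `h54_chart_j` (`5 ≤ ℓ`);
* (M3)  `h54_chart_h2` (`2 ∣ N`);  (M4) `h54_chart_h3` (`3 ∣ N`).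
-/
import Mathlib
import Fermat.Agent.S18.h54_ModHaupt
import Fermat.Agent.S18.h9_RedDatum
import Fermat.Agent.S18.h69_PowerBasis

set_option autoImplicit false
set_option synthInstance.maxHeartbeats 400000

noncomputable section

open ModularCurve AlgebraicCurve IntermediateField CongruenceSubgroup
open scoped MatrixGroups

namespace Fermat.Agent.S18

open Fermat.Agent.S24 Fermat.Agent.S28

local notation "Qb" => AlgebraicClosure ℚ

/-! ## (M1) the reduction datum -/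

/-- **IG-C** the modular reduction datum exists. -/
theorem h54_exists_isModRed (N : ℕ) [NeZero N] {ℓ : ℕ} [Fact ℓ.Prime] (hℓN : ¬ ℓ ∣ N)
    (A : ValuationSubring Qb) (hA : A.LiesOverPrime ℓ) :
    ∃ R : h39_RedDatum Qb ↥(modularFunctionFieldBar N) (IsLocalRing.ResidueField A)
        ↥(modularFunctionFieldFullC (IsLocalRing.ResidueField A) N), h54_IsModRed N A R := by
  obtain ⟨R, h1, h2, h3, h4⟩ := h9_exists_redDatum N A hA
    (fun k _ _ H hH hdeg => h84_igusa_field N ℓ hℓN k H hH hdeg) (h69_exists_repr N)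
  exact ⟨R, ⟨h1, h2, h3, h4⟩⟩

/-- The reduction datum of level `N` at `A` (MOD export, stable name). -/
def h54_redDatum (N : ℕ) [NeZero N] {ℓ : ℕ} [Fact ℓ.Prime] (hℓN : ¬ ℓ ∣ N)
    (A : ValuationSubring Qb) (hA : A.LiesOverPrime ℓ) :
    h39_RedDatum Qb ↥(modularFunctionFieldBar N) (IsLocalRing.ResidueField A)
      ↥(modularFunctionFieldFullC (IsLocalRing.ResidueField A) N) :=
  (h54_exists_isModRed N hℓN A hA).choose

theorem h54_isModRed (N : ℕ) [NeZero N] {ℓ : ℕ} [Fact ℓ.Prime] (hℓN : ¬ ℓ ∣ N)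
    (A : ValuationSubring Qb) (hA : A.LiesOverPrime ℓ) :
    h54_IsModRed N A (h54_redDatum N hℓN A hA) :=
  (h54_exists_isModRed N hℓN A hA).choose_spec

/-- **IG-D** the residue field extension `Fb N / k(j̄)` has degree `[SL₂(ℤ) : Γ₀(N)]` … -/
theorem h54_finrank_fb (N : ℕ) [NeZero N] {ℓ : ℕ} [Fact ℓ.Prime] (hℓN : ¬ ℓ ∣ N)
    (A : ValuationSubring Qb) (hA : A.LiesOverPrime ℓ) :
    Module.finrank (IsLocalRing.ResidueField A)⟮h54_jk (IsLocalRing.ResidueField A) N⟯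
        ↥(modularFunctionFieldFullC (IsLocalRing.ResidueField A) N)
      = Nat.card (SL(2, ℤ) ⧸ Gamma0 N) :=
  h9_finrank_fb N A hA (fun k _ _ H hH hdeg => h84_igusa_field N ℓ hℓN k H hH hdeg)
    (h69_exists_repr N)

/-- **IG-E** … and is separable. -/
theorem h54_separable_fb (N : ℕ) [NeZero N] {ℓ : ℕ} [Fact ℓ.Prime] (hℓN : ¬ ℓ ∣ N)
    (A : ValuationSubring Qb) (hA : A.LiesOverPrime ℓ) :
    Algebra.IsSeparable (IsLocalRing.ResidueField A)⟮h54_jk (IsLocalRing.ResidueField A) N⟯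
        ↥(modularFunctionFieldFullC (IsLocalRing.ResidueField A) N) := by
  haveI : CharP (IsLocalRing.ResidueField A) ℓ := h19_residueField_charP A ℓ hA
  haveI : IsAlgClosed (IsLocalRing.ResidueField A) := h19_residueField_isAlgClosed A
  exact h54_separable_fb_of N ℓ hℓN _ (h54_finrank_fb N hℓN A hA)

/-! ## (M1w), (M2) the chart `j` -/

/-- **(M1w)** `j` is a weak chart at every level prime to `ℓ` (no condition on `ℓ`). -/
theorem h54_weakChart_j (N : ℕ) [NeZero N] {ℓ : ℕ} [Fact ℓ.Prime] (hℓN : ¬ ℓ ∣ N)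
    (A : ValuationSubring Qb) (hA : A.LiesOverPrime ℓ) :
    h39_WeakChart (h54_redDatum N hℓN A hA) (h59_jbar N) := by
  have h := h54_isModRed N hℓN A hA
  have hred := h54_redF_jbar h
  refine ⟨h.mem_of_integral _ _ (h54_coe_jbar N A), ?_, h78_finiteDimensional N, ?_, ?_⟩
  · rw [hred]
    exact h54_jk_transcendental _ N
  · rw [hred, h54_finrank_fb N hℓN A hA, h78_finrank]
  · rw [hred]
    exact h54_separable_fb N hℓN A hA

/-- **CJ** (M2) `x = j` is a chart for `ℓ ≥ 5`, `Z = {0, 1728}`. -/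
theorem h54_chart_j (N : ℕ) [NeZero N] {ℓ : ℕ} [Fact ℓ.Prime] (hℓN : ¬ ℓ ∣ N) (hℓ : 5 ≤ ℓ)
    (A : ValuationSubring Qb) (hA : A.LiesOverPrime ℓ) :
    h39_Chart (h54_redDatum N hℓN A hA) (h59_jbar N) :=
  h54_chart_j_of N hℓ A hA (h54_isModRed N hℓN A hA) (h54_finrank_fb N hℓN A hA)
    (h54_separable_fb N hℓN A hA)

/-! ## (M3), (M4) the Hauptmodul charts -/

theorem h54_transcendental_subtype {k L : Type*} [Field k] [Field L] [Algebra k L]
    (Fb : IntermediateField k L) (x : L) (hx : x ∈ Fb) (h : Transcendental k x) :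
    Transcendental k (⟨x, hx⟩ : Fb) := by
  rw [Transcendental]
  rintro ⟨P, hP, h0⟩
  apply h
  refine ⟨P, hP, ?_⟩
  have := congrArg (fun y : Fb => (y : L)) h0
  simp only [ZeroMemClass.coe_zero] at this
  rw [← this, ← IntermediateField.aeval_coe]

/-- `j x² = (x + 256)³` puts `j` in `k(x)` (inside an intermediate field `Fb`). -/
theorem h54_mem_adjoin_of_rel2 {k L : Type*} [Field k] [Field L] [Algebra k L]
    (Fb : IntermediateField k L) (j x : L) (hj : j ∈ Fb) (hx : x ∈ Fb) (hx0 : x ≠ 0)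
    (hrel : j * x ^ 2 = (x + 256) ^ 3) : (⟨j, hj⟩ : Fb) ∈ k⟮(⟨x, hx⟩ : Fb)⟯ := by
  have hx0' : (⟨x, hx⟩ : Fb) ≠ 0 := fun h0 => hx0 (congrArg Subtype.val h0)
  have e : (⟨j, hj⟩ : Fb) = ((⟨x, hx⟩ : Fb) + 256) ^ 3 / (⟨x, hx⟩ : Fb) ^ 2 := by
    rw [eq_div_iff (pow_ne_zero 2 hx0')]
    apply Fb.val.injective
    simp only [map_mul, map_pow, map_add, map_ofNat, IntermediateField.coe_val]
    exact hrel
  rw [e]
  exact div_mem (pow_mem (add_mem (mem_adjoin_simple_self k _) (ofNat_mem _ 256)) 3)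
    (pow_mem (mem_adjoin_simple_self k _) 2)

/-- `j x³ = (x + 27)(x + 243)³` puts `j` in `k(x)` (inside an intermediate field `Fb`). -/
theorem h54_mem_adjoin_of_rel3 {k L : Type*} [Field k] [Field L] [Algebra k L]
    (Fb : IntermediateField k L) (j x : L) (hj : j ∈ Fb) (hx : x ∈ Fb) (hx0 : x ≠ 0)
    (hrel : j * x ^ 3 = (x + 27) * (x + 243) ^ 3) : (⟨j, hj⟩ : Fb) ∈ k⟮(⟨x, hx⟩ : Fb)⟯ := by
  have hx0' : (⟨x, hx⟩ : Fb) ≠ 0 := fun h0 => hx0 (congrArg Subtype.val h0)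
  have e : (⟨j, hj⟩ : Fb)
      = (((⟨x, hx⟩ : Fb) + 27) * ((⟨x, hx⟩ : Fb) + 243) ^ 3) / (⟨x, hx⟩ : Fb) ^ 3 := by
    rw [eq_div_iff (pow_ne_zero 3 hx0')]
    apply Fb.val.injective
    simp only [map_mul, map_pow, map_add, map_ofNat, IntermediateField.coe_val]
    exact hrel
  rw [e]
  exact div_mem (mul_mem (add_mem (mem_adjoin_simple_self k _) (ofNat_mem _ 27))
    (pow_mem (add_mem (mem_adjoin_simple_self k _) (ofNat_mem _ 243)) 3))
    (pow_mem (mem_adjoin_simple_self k _) 3)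

/-- A relation `j x² = (x + 256)³` between Laurent series, read in an intermediate field. -/
theorem h54_rel2_subtype {k L : Type*} [Field k] [Field L] [Algebra k L]
    (F : IntermediateField k L) (j x : F)
    (hrel : (j : L) * (x : L) ^ 2 = ((x : L) + 256) ^ 3) : j * x ^ 2 = (x + 256) ^ 3 := by
  apply F.val.injective
  simp only [map_mul, map_pow, map_add, map_ofNat, IntermediateField.coe_val]
  exact hrel

theorem h54_rel3_subtype {k L : Type*} [Field k] [Field L] [Algebra k L]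
    (F : IntermediateField k L) (j x : F)
    (hrel : (j : L) * (x : L) ^ 3 = ((x : L) + 27) * ((x : L) + 243) ^ 3) :
    j * x ^ 3 = (x + 27) * (x + 243) ^ 3 := by
  apply F.val.injective
  simp only [map_mul, map_pow, map_add, map_ofNat, IntermediateField.coe_val]
  exact hrel

theorem h54_hm2_mem_bar (N : ℕ) [NeZero N] (h2 : 2 ∣ N) :
    h54_hm2 Qb ∈ modularFunctionFieldBar N :=
  h59_hm2_mem_bar_final N h2

theorem h54_hm3_mem_bar (N : ℕ) [NeZero N] (h3 : 3 ∣ N) :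
    h54_hm3 Qb ∈ modularFunctionFieldBar N :=
  h59_hm3_mem_bar_final N h3

/-- `h₂` as an element of `F N`, `2 ∣ N`. -/
def h54_h2bar (N : ℕ) [NeZero N] (h2 : 2 ∣ N) : ↥(modularFunctionFieldBar N) :=
  ⟨h54_hm2 Qb, h54_hm2_mem_bar N h2⟩

/-- `h₃` as an element of `F N`, `3 ∣ N`. -/
def h54_h3bar (N : ℕ) [NeZero N] (h3 : 3 ∣ N) : ↥(modularFunctionFieldBar N) :=
  ⟨h54_hm3 Qb, h54_hm3_mem_bar N h3⟩

theorem h54_coeffMap_hm2 {R S : Type} [CommRing R] [CommRing S] (f : R →+* S) :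
    coeffMap f (h54_hm2 R) = h54_hm2 S :=
  h3_coeffMap_hm2 f

theorem h54_coeffMap_hm3 {R S : Type} [CommRing R] [CommRing S] (f : R →+* S) :
    coeffMap f (h54_hm3 R) = h54_hm3 S :=
  h24_coeffMap_hm3_h54 f

/-- **H2** over every ring: `j h₂² = (h₂ + 256)³`. -/
theorem h54_hm2_rel1 (R : Type) [CommRing R] :
    jqModC R * h54_hm2 R ^ 2 = (h54_hm2 R + 256) ^ 3 :=
  h3_hm2_rel1 R

/-- **H3** over every ring: `j h₃³ = (h₃ + 27)(h₃ + 243)³`. -/
theorem h54_hm3_rel1 (R : Type) [CommRing R] :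
    jqModC R * h54_hm3 R ^ 3 = (h54_hm3 R + 27) * (h54_hm3 R + 243) ^ 3 := by
  have h := congrArg (coeffMap (Int.castRingHom R)) h24_hm3_rel.1
  simpa only [map_mul, map_pow, map_add, map_ofNat, coeffMap_jqModC, h54_coeffMap_hm3] using h

/-- **BR2** branch locus of `F N / Qb(h₂)`: only over `0`, `-64` (and `∞`). -/
theorem h54_branch_h2 (N : ℕ) [NeZero N] (h2 : 2 ∣ N) (P : Place Qb ↥(modularFunctionFieldBar N))
    (a : Qb) (h : 2 ≤ P.ord (h54_h2bar N h2 - algebraMap Qb ↥(modularFunctionFieldBar N) a)) :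
    a = 0 ∨ a = -64 := by
  have hrel : h59_jbar N * h54_h2bar N h2 ^ 2 = (h54_h2bar N h2 + 256) ^ 3 := by
    refine h54_rel2_subtype (modularFunctionFieldBar N) (h59_jbar N) (h54_h2bar N h2) ?_
    rw [h69_coe_jbar]
    exact h54_hm2_rel1 Qb
  exact h36_branch_h2 N (h54_h2bar N h2) hrel (fun v a => h54_ord_j_sub_dvd N v a) P a h

/-- **BR3** branch locus of `F N / Qb(h₃)`: only over `0`, `-27` (and `∞`). -/
theorem h54_branch_h3 (N : ℕ) [NeZero N] (h3 : 3 ∣ N) (P : Place Qb ↥(modularFunctionFieldBar N))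
    (a : Qb) (h : 2 ≤ P.ord (h54_h3bar N h3 - algebraMap Qb ↥(modularFunctionFieldBar N) a)) :
    a = 0 ∨ a = -27 := by
  have hrel : h59_jbar N * h54_h3bar N h3 ^ 3
      = (h54_h3bar N h3 + 27) * (h54_h3bar N h3 + 243) ^ 3 := by
    refine h54_rel3_subtype (modularFunctionFieldBar N) (h59_jbar N) (h54_h3bar N h3) ?_
    rw [h69_coe_jbar]
    exact h54_hm3_rel1 Qb
  exact h36_branch_h3 N (h54_h3bar N h3) hrel (fun v a => h54_ord_j_sub_dvd N v a) P a h

/-- **CH2** (M3) `x = h₂` is a chart at every level `N` with `2 ∣ N`, `ℓ ∤ N`; `Z = {0, -64}`. -/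
theorem h54_chart_h2 (N : ℕ) [NeZero N] (h2 : 2 ∣ N) {ℓ : ℕ} [Fact ℓ.Prime] (hℓN : ¬ ℓ ∣ N)
    (A : ValuationSubring Qb) (hA : A.LiesOverPrime ℓ) :
    h39_Chart (h54_redDatum N hℓN A hA) (h54_h2bar N h2) := by
  have hℓp : ℓ.Prime := Fact.out
  have hℓ2 : ℓ ≠ 2 := fun h => hℓN (h ▸ h2)
  haveI : CharP (IsLocalRing.ResidueField A) ℓ := h19_residueField_charP A ℓ hA
  have hxkmem := h59_h2k_mem_final (IsLocalRing.ResidueField A) N h2 hℓ2
  have htr := h54_transcendental_subtype _ _ hxkmem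
    (h59_h2k_transcendental_final (IsLocalRing.ResidueField A))
  have hfin := h59_h2_finrank_final N h2
  have hc : ¬ ℓ ∣ 64 := by
    intro hd
    have h' : ℓ ∣ 2 ^ 6 := by norm_num; exact hd
    exact hℓ2 ((Nat.prime_dvd_prime_iff_eq hℓp Nat.prime_two).1 (hℓp.dvd_of_dvd_pow h'))
  refine h54_chart_haupt_of N A hA (h54_isModRed N hℓN A hA) 3 (by norm_num)
    (h54_h2bar N h2) (h54_hm2 A) (h54_coeffMap_hm2 A.subtype).symm
    ⟨h54_hm2 (IsLocalRing.ResidueField A), hxkmem⟩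
    (h54_coeffMap_hm2 (IsLocalRing.residue A)).symm htr hfin.1 hfin.2
    (h59_h2k_finrank_final (IsLocalRing.ResidueField A) N h2 hℓ2)
    (h54_finrank_fb N hℓN A hA) (h54_separable_fb N hℓN A hA) ?_ 64 hc ?_
  · exact h54_mem_adjoin_of_rel2 (modularFunctionFieldFullC (IsLocalRing.ResidueField A) N)
      (jqModC (IsLocalRing.ResidueField A)) (h54_hm2 (IsLocalRing.ResidueField A))
      (jqModC_mem_full (IsLocalRing.ResidueField A) N) hxkmem
      (fun h0 => (h59_h2k_transcendental_final (IsLocalRing.ResidueField A))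
        (h0 ▸ isAlgebraic_zero))
      (h54_hm2_rel1 (IsLocalRing.ResidueField A))
  · intro P a hP
    rcases h54_branch_h2 N h2 P a hP with h0 | h64
    · exact Or.inl h0
    · right
      rw [h64]
      norm_num

/-- **CH3** (M4) `x = h₃` is a chart at every level `N` with `3 ∣ N`, `ℓ ∤ N`; `Z = {0, -27}`. -/
theorem h54_chart_h3 (N : ℕ) [NeZero N] (h3 : 3 ∣ N) {ℓ : ℕ} [Fact ℓ.Prime] (hℓN : ¬ ℓ ∣ N)
    (A : ValuationSubring Qb) (hA : A.LiesOverPrime ℓ) :
    h39_Chart (h54_redDatum N hℓN A hA) (h54_h3bar N h3) := by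
  have hℓp : ℓ.Prime := Fact.out
  have hℓ3 : ℓ ≠ 3 := fun h => hℓN (h ▸ h3)
  haveI : CharP (IsLocalRing.ResidueField A) ℓ := h19_residueField_charP A ℓ hA
  have hxkmem := h59_h3k_mem_final (IsLocalRing.ResidueField A) N h3 hℓ3
  have htr := h54_transcendental_subtype _ _ hxkmem
    (h59_h3k_transcendental_final (IsLocalRing.ResidueField A))
  have hfin := h59_h3_finrank_final N h3
  have hc : ¬ ℓ ∣ 27 := by
    intro hd
    have h' : ℓ ∣ 3 ^ 3 := by norm_num; exact hd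
    exact hℓ3 ((Nat.prime_dvd_prime_iff_eq hℓp Nat.prime_three).1 (hℓp.dvd_of_dvd_pow h'))
  refine h54_chart_haupt_of N A hA (h54_isModRed N hℓN A hA) 4 (by norm_num)
    (h54_h3bar N h3) (h54_hm3 A) (h54_coeffMap_hm3 A.subtype).symm
    ⟨h54_hm3 (IsLocalRing.ResidueField A), hxkmem⟩
    (h54_coeffMap_hm3 (IsLocalRing.residue A)).symm htr hfin.1 hfin.2
    (h59_h3k_finrank_final (IsLocalRing.ResidueField A) N h3 hℓ3)
    (h54_finrank_fb N hℓN A hA) (h54_separable_fb N hℓN A hA) ?_ 27 hc ?_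
  · exact h54_mem_adjoin_of_rel3 (modularFunctionFieldFullC (IsLocalRing.ResidueField A) N)
      (jqModC (IsLocalRing.ResidueField A)) (h54_hm3 (IsLocalRing.ResidueField A))
      (jqModC_mem_full (IsLocalRing.ResidueField A) N) hxkmem
      (fun h0 => (h59_h3k_transcendental_final (IsLocalRing.ResidueField A))
        (h0 ▸ isAlgebraic_zero))
      (h54_hm3_rel1 (IsLocalRing.ResidueField A))
  · intro P a hP
    rcases h54_branch_h3 N h3 P a hP with h0 | h27
    · exact Or.inl h0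
    · right
      rw [h27]
      norm_num

end Fermat.Agent.S18
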