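import Mathlib
import Fermat.Agent.S18.h59_Haupt

/-!
# S18, layer MOD (for IG-C/IG-D): the degree of a field with a power-basis representation

`Fb ⊆ E` fields over `k`, `j y ∈ Fb`, `j` transcendental.  If every element of `Fb` is
`(∑_{i<n} p_i(j) y^i) / q(j)` and no nonzero polynomial of `Y`-degree `< n` over `k[j]` vanishes
at `y`, then `[Fb : k(j)] = n` (and `Fb = k(j, y)`, `y` of degree `n` over `k(j)`).
-/

set_option autoImplicit false

noncomputable section

namespace Fermat.Agent.S18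

open IntermediateField Polynomial

section Generic

variable {k E : Type*} [Field k] [Field E] [Algebra k E]

/-- A representation `q(j) y^n = ∑_{i<n} p_i(j) y^i` with `q(j) ≠ 0` makes `y` a root of a monic
polynomial of degree `n` over `k(j)`. -/
theorem h59_exists_monic_of_repr (j y : E) (n : ℕ) (p : Fin n → k[X]) (q : k[X])
    (hq : aeval j q ≠ 0) (h : aeval j q * y ^ n = ∑ i, aeval j (p i) * y ^ (i : ℕ)) :
    ∃ g : k⟮j⟯[X], g.Monic ∧ g.natDegree = n ∧ aeval y g = 0 := by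
  have hmem : ∀ r : k[X], aeval j r ∈ k⟮j⟯ := fun r =>
    IntermediateField.algebra_adjoin_le_adjoin k _ (Polynomial.aeval_mem_adjoin_singleton k j)
  set c : Fin n → k⟮j⟯ := fun i => ⟨aeval j (p i) / aeval j q, div_mem (hmem _) (hmem _)⟩ with hc
  have hdeg : (∑ i : Fin n, C (c i) * X ^ (i : ℕ) : k⟮j⟯[X]).degree < n :=
    Polynomial.degree_sum_fin_lt c
  refine ⟨X ^ n - ∑ i : Fin n, C (c i) * X ^ (i : ℕ), Polynomial.monic_X_pow_sub hdeg, ?_, ?_⟩
  · apply Polynomial.natDegree_eq_of_degree_eq_some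
    rw [Polynomial.degree_sub_eq_left_of_degree_lt, Polynomial.degree_X_pow]
    rw [Polynomial.degree_X_pow]
    exact hdeg
  · rw [map_sub, map_pow, aeval_X, map_sum]
    have h2 : ∀ i : Fin n, aeval y (C (c i) * X ^ (i : ℕ) : k⟮j⟯[X]) =
        aeval j (p i) / aeval j q * y ^ (i : ℕ) := by
      intro i
      rw [map_mul, aeval_C, map_pow, aeval_X]
      rfl
    rw [Finset.sum_congr rfl (fun i _ => h2 i)]
    have h3 : y ^ n = (∑ i, aeval j (p i) * y ^ (i : ℕ)) / aeval j q := by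
      rw [← h, mul_div_cancel_left₀ _ hq]
    rw [h3, Finset.sum_div, sub_eq_zero]
    refine Finset.sum_congr rfl fun i _ => ?_
    ring

/-- **Degree from a power-basis representation.** -/
theorem h59_finrank_of_repr_core (Fb : IntermediateField k E) (j y : E) (hj : j ∈ Fb)
    (hy : y ∈ Fb) (n : ℕ) (hjt : Transcendental k j)
    (hle : Fb ≤ adjoin k ({j} ∪ {y}))
    (hrep : ∃ (p : Fin n → k[X]) (q : k[X]), q ≠ 0 ∧
      aeval j q * y ^ n = ∑ i, aeval j (p i) * y ^ (i : ℕ))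
    (hIG : ∀ H : k[X][X], H ≠ 0 → H.natDegree < n →
      (H.map (Polynomial.aeval j).toRingHom).eval y ≠ 0) :
    Fb = adjoin k ({j} ∪ {y}) ∧ IsIntegral k⟮j⟯ y ∧ (minpoly k⟮j⟯ y).natDegree = n ∧
      Module.finrank ↥(k⟮(⟨j, hj⟩ : ↥Fb)⟯) ↥Fb = n := by
  obtain ⟨p, q, hq, h⟩ := hrep
  have hq' : aeval j q ≠ 0 := fun h0 => hq ((transcendental_iff.1 hjt) q h0)
  obtain ⟨g, hg, hgn, hgy⟩ := h59_exists_monic_of_repr j y n p q hq' h
  have hint : IsIntegral k⟮j⟯ y := ⟨g, hg, hgy⟩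
  have hFb : Fb = adjoin k ({j} ∪ {y}) := by
    refine le_antisymm hle ?_
    rw [adjoin_le_iff]
    rintro z (hz | hz)
    · rw [Set.mem_singleton_iff] at hz
      rw [hz]
      exact hj
    · rw [Set.mem_singleton_iff] at hz
      rw [hz]
      exact hy
  have hdeg : (minpoly k⟮j⟯ y).natDegree = n := by
    apply le_antisymm
    · rw [← hgn]
      exact Polynomial.natDegree_le_of_dvd (minpoly.dvd _ _ hgy) hg.ne_zero
    · by_contra hlt
      exact h59_hmin_of_poly j y hjt n hIG (minpoly k⟮j⟯ y) (minpoly.ne_zero hint)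
        (not_le.1 hlt) (minpoly.aeval _ _)
  refine ⟨hFb, hint, hdeg, ?_⟩
  have h1 : k⟮j⟯ ≤ Fb := adjoin_simple_le_iff.2 hj
  rw [h59_finrank_adjoin_subtype, relfinrank_eq_finrank_of_le h1,
    h59_extendScalars_eq_adjoin Fb j y h1 hFb, IntermediateField.adjoin.finrank hint, hdeg]

/-- **Degree from a power-basis representation**, with the representation assumed for every
element of `Fb` (the shape of `h54_exists_repr`). -/
theorem h59_finrank_of_repr (Fb : IntermediateField k E) (j y : E) (hj : j ∈ Fb) (hy : y ∈ Fb)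
    (n : ℕ) (hjt : Transcendental k j)
    (hrep : ∀ f ∈ Fb, ∃ (p : Fin n → k[X]) (q : k[X]), q ≠ 0 ∧
      aeval j q * f = ∑ i, aeval j (p i) * y ^ (i : ℕ))
    (hIG : ∀ H : k[X][X], H ≠ 0 → H.natDegree < n →
      (H.map (Polynomial.aeval j).toRingHom).eval y ≠ 0) :
    Module.finrank ↥(k⟮(⟨j, hj⟩ : ↥Fb)⟯) ↥Fb = n := by
  refine (h59_finrank_of_repr_core Fb j y hj hy n hjt ?_ (hrep _ (pow_mem hy n)) hIG).2.2.2
  intro f hf
  obtain ⟨p, q, hq, h⟩ := hrep f hf
  have hq' : aeval j q ≠ 0 := fun h0 => hq ((transcendental_iff.1 hjt) q h0)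
  have hjm : j ∈ adjoin k ({j} ∪ {y} : Set E) := subset_adjoin k _ (Set.mem_union_left _ rfl)
  have hym : y ∈ adjoin k ({j} ∪ {y} : Set E) := subset_adjoin k _ (Set.mem_union_right _ rfl)
  have hmem : ∀ r : k[X], aeval j r ∈ adjoin k ({j} ∪ {y} : Set E) := fun r =>
    (adjoin_simple_le_iff.2 hjm)
      (IntermediateField.algebra_adjoin_le_adjoin k _ (Polynomial.aeval_mem_adjoin_singleton k j))
  have hf' : f = (∑ i, aeval j (p i) * y ^ (i : ℕ)) / aeval j q := by
    rw [← h, mul_div_cancel_left₀ _ hq']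
  rw [hf']
  exact div_mem (sum_mem fun i _ => mul_mem (hmem _) (pow_mem hym _)) (hmem _)

/-- The full structure: `Fb = k(j, y)`, `y` integral of degree `n` over `k(j)`. -/
theorem h59_structure_of_repr (Fb : IntermediateField k E) (j y : E) (hj : j ∈ Fb) (hy : y ∈ Fb)
    (n : ℕ) (hjt : Transcendental k j)
    (hrep : ∀ f ∈ Fb, ∃ (p : Fin n → k[X]) (q : k[X]), q ≠ 0 ∧
      aeval j q * f = ∑ i, aeval j (p i) * y ^ (i : ℕ))
    (hIG : ∀ H : k[X][X], H ≠ 0 → H.natDegree < n →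
      (H.map (Polynomial.aeval j).toRingHom).eval y ≠ 0) :
    Fb = adjoin k ({j} ∪ {y}) ∧ IsIntegral k⟮j⟯ y ∧ (minpoly k⟮j⟯ y).natDegree = n := by
  have hle : Fb ≤ adjoin k ({j} ∪ {y}) := by
    intro f hf
    obtain ⟨p, q, hq, h⟩ := hrep f hf
    have hq' : aeval j q ≠ 0 := fun h0 => hq ((transcendental_iff.1 hjt) q h0)
    have hjm : j ∈ adjoin k ({j} ∪ {y} : Set E) := subset_adjoin k _ (Set.mem_union_left _ rfl)
    have hym : y ∈ adjoin k ({j} ∪ {y} : Set E) :=
      subset_adjoin k _ (Set.mem_union_right _ rfl)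
    have hmem : ∀ r : k[X], aeval j r ∈ adjoin k ({j} ∪ {y} : Set E) := fun r =>
      (adjoin_simple_le_iff.2 hjm)
        (IntermediateField.algebra_adjoin_le_adjoin k _
          (Polynomial.aeval_mem_adjoin_singleton k j))
    have hf' : f = (∑ i, aeval j (p i) * y ^ (i : ℕ)) / aeval j q := by
      rw [← h, mul_div_cancel_left₀ _ hq']
    rw [hf']
    exact div_mem (sum_mem fun i _ => mul_mem (hmem _) (pow_mem hym _)) (hmem _)
  have h := h59_finrank_of_repr_core Fb j y hj hy n hjt hle (hrep _ (pow_mem hy n)) hIG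
  exact ⟨h.1, h.2.1, h.2.2.1⟩

end Generic

end Fermat.Agent.S18
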