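import Mathlib
import Fermat.Agent.S18.h69_PowerBasis
import Fermat.Agent.S18.h84_IgusaField
import Fermat.Agent.S18.h19_ResField
import Fermat.Agent.S18.h54_ModDefs
import Fermat.Agent.S18.h59_FinrankRepr
import Fermat.Agent.S18.h59_HauptFull

/-!
# S18, layer MOD (IG-C/IG-D): integral power-basis representation and the residue degree

* `h59_exists_scale_poly`: a finite family of polynomials over the fraction field of a valuation
  ring, not all zero, can be scaled into the valuation ring with nonzero reduction.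
* `h59_rep` (REP+): every `f ≠ 0` in `F N` satisfies `f · q₀(J) = c · ∑_{i<n} p₀ᵢ(J) Yⁱ` with
  `c ≠ 0`, `q₀, p₀ᵢ ∈ A[X]`, `q̄₀ ≠ 0`, some `p̄₀ᵢ ≠ 0` (`J = j`, `Y = j(q^N)` over `A`).
* `h59_rep_red`: the reductions of both sides are nonzero elements of `Fb N` (IG-A).
* `h59_finrank_fb_of`: for a reduction datum with `h54_IsModRed`, `[Fb N : k(j̄)] = index`.
-/

set_option autoImplicit false
set_option synthInstance.maxHeartbeats 400000

noncomputable section

namespace Fermat.Agent.S18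

open ModularCurve IntermediateField Polynomial CongruenceSubgroup

open scoped MatrixGroups

open Fermat.Agent.S24 Fermat.Agent.S28

local notation "Qb" => AlgebraicClosure ℚ

/-- Primitive scaling of a finite family of polynomials over a valuation ring. -/
theorem h59_exists_scale_poly {K : Type*} [Field K] (A : ValuationSubring K) {ι : Type*}
    [Fintype ι] (p : ι → K[X]) (hp : ∃ i, p i ≠ 0) :
    ∃ (c : K) (p₀ : ι → (↥A)[X]), c ≠ 0 ∧ (∀ i, (p₀ i).map A.subtype = C c * p i) ∧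
      ∃ i, (p₀ i).map (IsLocalRing.residue ↥A) ≠ 0 := by
  classical
  set S : Finset (Σ _ : ι, ℕ) := Finset.univ.sigma (fun i => (p i).support) with hS
  have hne : S.Nonempty := by
    obtain ⟨i, hi⟩ := hp
    obtain ⟨m, hm⟩ := Polynomial.nonempty_support_iff.2 hi
    exact ⟨⟨i, m⟩, Finset.mem_sigma.2 ⟨Finset.mem_univ _, hm⟩⟩
  obtain ⟨⟨i₀, m₀⟩, hmem, hmax⟩ :=
    Finset.exists_max_image S (fun x => A.valuation ((p x.1).coeff x.2)) hne
  have ha₀ : (p i₀).coeff m₀ ≠ 0 := Polynomial.mem_support_iff.1 (Finset.mem_sigma.1 hmem).2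
  have key : ∀ i m, ((p i₀).coeff m₀)⁻¹ * (p i).coeff m ∈ A := by
    intro i m
    by_cases h0 : (p i).coeff m = 0
    · rw [h0, mul_zero]
      exact A.zero_mem
    · have hmem' : (⟨i, m⟩ : Σ _ : ι, ℕ) ∈ S :=
        Finset.mem_sigma.2 ⟨Finset.mem_univ _, Polynomial.mem_support_iff.2 h0⟩
      have hle := hmax ⟨i, m⟩ hmem'
      rw [← A.valuation_le_one_iff, map_mul, map_inv₀]
      have hpos : A.valuation ((p i₀).coeff m₀) ≠ 0 := (A.valuation.ne_zero_iff).2 ha₀
      rw [inv_mul_le_iff₀ (zero_lt_iff.2 hpos), mul_one]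
      exact hle
  have hlift : ∀ i, (C ((p i₀).coeff m₀)⁻¹ * p i) ∈ Polynomial.lifts A.subtype := by
    intro i
    rw [Polynomial.lifts_iff_coeff_lifts]
    intro m
    rw [Polynomial.coeff_C_mul]
    exact ⟨⟨_, key i m⟩, rfl⟩
  choose p₀ hp₀ using fun i => (Polynomial.mem_lifts _).1 (hlift i)
  refine ⟨((p i₀).coeff m₀)⁻¹, p₀, inv_ne_zero ha₀, hp₀, i₀, ?_⟩
  intro h
  have h1 := congrArg (fun P => P.coeff m₀) h
  simp only [Polynomial.coeff_map, Polynomial.coeff_zero] at h1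
  have h2 : (p₀ i₀).coeff m₀ = 1 := by
    apply Subtype.ext
    have h3 := congrArg (fun P => P.coeff m₀) (hp₀ i₀)
    simp only [Polynomial.coeff_map, Polynomial.coeff_C_mul] at h3
    rw [inv_mul_cancel₀ ha₀] at h3
    exact h3
  rw [h2, map_one] at h1
  exact one_ne_zero h1

theorem h59_cm_algebraMap_single (R : Type) [CommRing R] (r : R) :
    algebraMap R (LaurentSeries R) r = HahnSeries.single 0 r := by
  have h1 : algebraMap R (PowerSeries R) r = PowerSeries.C r := by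
    simp
  rw [HahnSeries.algebraMap_apply', h1, HahnSeries.ofPowerSeries_C]
  rfl

theorem h59_cm_algebraMap {R S : Type} [CommRing R] [CommRing S] (φ : R →+* S) (r : R) :
    coeffMap φ (algebraMap R (LaurentSeries R) r) = algebraMap S (LaurentSeries S) (φ r) := by
  rw [h59_cm_algebraMap_single, h59_cm_algebraMap_single, coeffMap_single]

/-- Coefficientwise maps commute with polynomial evaluation. -/
theorem h59_cm_aeval {R S : Type} [CommRing R] [CommRing S] (φ : R →+* S)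
    (x : LaurentSeries R) (p : R[X]) :
    coeffMap φ (aeval x p) = aeval (coeffMap φ x) (p.map φ) := by
  rw [aeval_def, aeval_def, Polynomial.eval₂_map, Polynomial.hom_eval₂]
  congr 1
  apply RingHom.ext
  intro r
  rw [RingHom.comp_apply, RingHom.comp_apply]
  exact h59_cm_algebraMap φ r

/-- The series `∑_{i<n} pᵢ(J) Yⁱ` over `R` (`J = j`, `Y = j(q^N)`). -/
def h59_PY (R : Type) [CommRing R] (N : ℕ) [NeZero N] {n : ℕ} (p : Fin n → R[X]) :
    LaurentSeries R :=
  ∑ i, aeval (jqModC R) (p i) * qExpand R N (jqModC R) ^ (i : ℕ)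

theorem h59_coeffMap_PY {R S : Type} [CommRing R] [CommRing S] (φ : R →+* S) (N : ℕ) [NeZero N]
    {n : ℕ} (p : Fin n → R[X]) :
    coeffMap φ (h59_PY R N p) = h59_PY S N (fun i => (p i).map φ) := by
  unfold h59_PY
  rw [map_sum]
  refine Finset.sum_congr rfl fun i _ => ?_
  rw [map_mul, map_pow, h59_cm_aeval, coeffMap_jqModC, coeffMap_qExpand, coeffMap_jqModC]

theorem h59_PY_eq_eval (R : Type) [CommRing R] (N : ℕ) [NeZero N] {n : ℕ} (p : Fin n → R[X]) :
    h59_PY R N p = ((∑ i, C (p i) * X ^ (i : ℕ) : R[X][X]).map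
      (aeval (jqModC R)).toRingHom).eval (qExpand R N (jqModC R)) := by
  unfold h59_PY
  rw [Polynomial.map_sum, Polynomial.eval_finsetSum]
  refine Finset.sum_congr rfl fun i _ => ?_
  rw [Polynomial.map_mul, Polynomial.map_C, Polynomial.map_pow, Polynomial.map_X, eval_mul,
    eval_C, eval_pow, eval_X]
  rfl

theorem h59_coeff_sum_fin {R : Type*} [Semiring R] {n : ℕ} (a : Fin n → R) (i₀ : Fin n) :
    (∑ i, C (a i) * X ^ (i : ℕ) : R[X]).coeff (i₀ : ℕ) = a i₀ := by
  rw [Polynomial.finsetSum_coeff, Finset.sum_eq_single i₀]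
  · rw [coeff_C_mul, coeff_X_pow, if_pos rfl, mul_one]
  · intro b _ hb
    rw [coeff_C_mul, coeff_X_pow, if_neg (fun h => hb (Fin.ext h.symm)), mul_zero]
  · intro h
    exact absurd (Finset.mem_univ _) h

theorem h59_aeval_jq_mem (k : Type) [Field k] (N : ℕ) [NeZero N] (q : k[X]) :
    aeval (jqModC k) q ∈ modularFunctionFieldFullC k N := by
  have h1 : Algebra.adjoin k {jqModC k} ≤ (modularFunctionFieldFullC k N).toSubalgebra :=
    Algebra.adjoin_le (Set.singleton_subset_iff.2 (jqModC_mem_full k N))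
  exact h1 (Polynomial.aeval_mem_adjoin_singleton k _)

theorem h59_PY_mem (k : Type) [Field k] (N : ℕ) [NeZero N] {n : ℕ} (p : Fin n → k[X]) :
    h59_PY k N p ∈ modularFunctionFieldFullC k N :=
  sum_mem fun i _ => mul_mem (h59_aeval_jq_mem k N (p i))
    (pow_mem (jqModCd_mem_full k N dvd_rfl) _)

/-- IG-A in the form used here: a nonzero family of polynomials gives a nonzero series. -/
theorem h59_PY_ne_zero (N : ℕ) [NeZero N] (ℓ : ℕ) [Fact ℓ.Prime] (hℓN : ¬ ℓ ∣ N) (k : Type)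
    [Field k] [CharP k ℓ] (p : Fin (Nat.card (SL(2, ℤ) ⧸ Gamma0 N)) → k[X])
    (hp : ∃ i, p i ≠ 0) : h59_PY k N p ≠ 0 := by
  rw [h59_PY_eq_eval]
  obtain ⟨i₀, hi₀⟩ := hp
  have hH : (∑ i, C (p i) * X ^ (i : ℕ) : k[X][X]) ≠ 0 := by
    intro h0
    apply hi₀
    rw [← h59_coeff_sum_fin p i₀, h0, coeff_zero]
  exact h84_igusa_field N ℓ hℓN k _ hH
    ((Polynomial.natDegree_lt_iff_degree_lt hH).2 (Polynomial.degree_sum_fin_lt _))

/-- **REP+** power-basis representation with `A`-integral, primitive numerator and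
denominator. -/
theorem h59_rep (N : ℕ) [NeZero N] (A : ValuationSubring Qb)
    (f : ↥(modularFunctionFieldBar N)) (hf : f ≠ 0) :
    ∃ (c : Qb) (p : Fin (Nat.card (SL(2, ℤ) ⧸ Gamma0 N)) → (↥A)[X]) (q : (↥A)[X]), c ≠ 0 ∧
      q.map (IsLocalRing.residue ↥A) ≠ 0 ∧ (∃ i, (p i).map (IsLocalRing.residue ↥A) ≠ 0) ∧
      (f : LaurentSeries Qb) * coeffMap A.subtype (aeval (jqModC ↥A) q) =
        algebraMap Qb (LaurentSeries Qb) c * coeffMap A.subtype (h59_PY ↥A N p) := by
  obtain ⟨p, q, hq, h⟩ := h69_exists_repr N f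
  have hf' : (f : LaurentSeries Qb) ≠ 0 := fun h0 => hf (Subtype.ext h0)
  have hqJ : aeval (jqModC Qb) q ≠ 0 := fun h0 =>
    hq ((transcendental_iff.1 (h59_jqModC_transcendental Qb)) q h0)
  have hp : ∃ i, p i ≠ 0 := by
    by_contra hcon
    have hcon' : ∀ i, p i = 0 := fun i => by_contra fun hi => hcon ⟨i, hi⟩
    rw [Finset.sum_eq_zero (fun i _ => by rw [hcon' i, map_zero, zero_mul])] at h
    exact mul_ne_zero hqJ hf' h
  obtain ⟨c₂, p₀, hc₂, hp₀, hp₀'⟩ := h59_exists_scale_poly A p hp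
  obtain ⟨c₁, q₀, hc₁, hq₀, hq₀'⟩ := h59_exists_scale_poly A (fun _ : Unit => q) ⟨(), hq⟩
  obtain ⟨u, hu⟩ := hq₀'
  refine ⟨c₁ / c₂, p₀, q₀ u, div_ne_zero hc₁ hc₂, hu, hp₀', ?_⟩
  have hPY : h59_PY Qb N (fun i => (p₀ i).map A.subtype) =
      algebraMap Qb (LaurentSeries Qb) c₂ * h59_PY Qb N p := by
    unfold h59_PY
    rw [Finset.mul_sum]
    refine Finset.sum_congr rfl fun i _ => ?_
    dsimp only
    rw [hp₀ i, map_mul, aeval_C, mul_assoc]
  have h' : h59_PY Qb N p = aeval (jqModC Qb) q * (f : LaurentSeries Qb) := h.symm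
  rw [h59_cm_aeval, coeffMap_jqModC, hq₀ u, h59_coeffMap_PY, hPY, map_mul, aeval_C,
    ← mul_assoc (algebraMap Qb (LaurentSeries Qb) (c₁ / c₂)), ← map_mul, div_mul_cancel₀ _ hc₂,
    h']
  ring

/-- The reductions of numerator and denominator in REP+ are nonzero elements of `Fb N`. -/
theorem h59_rep_red (N : ℕ) [NeZero N] {ℓ : ℕ} [Fact ℓ.Prime] (hℓN : ¬ ℓ ∣ N)
    (A : ValuationSubring Qb) (hA : A.LiesOverPrime ℓ)
    (p : Fin (Nat.card (SL(2, ℤ) ⧸ Gamma0 N)) → (↥A)[X]) (q : (↥A)[X])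
    (hq : q.map (IsLocalRing.residue ↥A) ≠ 0)
    (hp : ∃ i, (p i).map (IsLocalRing.residue ↥A) ≠ 0) :
    coeffMap (IsLocalRing.residue ↥A) (aeval (jqModC ↥A) q) ≠ 0 ∧
    coeffMap (IsLocalRing.residue ↥A) (h59_PY ↥A N p) ≠ 0 ∧
    coeffMap (IsLocalRing.residue ↥A) (aeval (jqModC ↥A) q) ∈
      modularFunctionFieldFullC (IsLocalRing.ResidueField ↥A) N ∧
    coeffMap (IsLocalRing.residue ↥A) (h59_PY ↥A N p) ∈
      modularFunctionFieldFullC (IsLocalRing.ResidueField ↥A) N := by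
  have hchar : CharP (IsLocalRing.ResidueField ↥A) ℓ := h19_residueField_charP A ℓ hA
  rw [h59_cm_aeval, coeffMap_jqModC, h59_coeffMap_PY]
  refine ⟨fun h0 => hq ((transcendental_iff.1 (h59_jqModC_transcendental _)) _ h0),
    h59_PY_ne_zero N ℓ hℓN _ _ hp, h59_aeval_jq_mem _ N _, h59_PY_mem _ N _⟩

/-- (REP) in the shape consumed by the abstract construction of the reduction datum
(`h60_exists_redDatum_of_rep`). -/
theorem h59_rep_series (N : ℕ) [NeZero N] {ℓ : ℕ} [Fact ℓ.Prime] (hℓN : ¬ ℓ ∣ N)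
    (A : ValuationSubring Qb) (hA : A.LiesOverPrime ℓ) (f : ↥(modularFunctionFieldBar N))
    (hf : f ≠ 0) :
    ∃ (c : Qb) (y₁ y₂ : LaurentSeries ↥A), c ≠ 0 ∧
      coeffMap (IsLocalRing.residue ↥A) y₁ ≠ 0 ∧ coeffMap (IsLocalRing.residue ↥A) y₂ ≠ 0 ∧
      coeffMap (IsLocalRing.residue ↥A) y₁ ∈
        modularFunctionFieldFullC (IsLocalRing.ResidueField ↥A) N ∧
      coeffMap (IsLocalRing.residue ↥A) y₂ ∈
        modularFunctionFieldFullC (IsLocalRing.ResidueField ↥A) N ∧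
      (f : LaurentSeries Qb) * coeffMap A.subtype y₂ =
        algebraMap Qb (LaurentSeries Qb) c * coeffMap A.subtype y₁ := by
  obtain ⟨c, p, q, hc, hq, hp, h⟩ := h59_rep N A f hf
  obtain ⟨h1, h2, h3, h4⟩ := h59_rep_red N hℓN A hA p q hq hp
  exact ⟨c, h59_PY ↥A N p, aeval (jqModC ↥A) q, hc, h2, h1, h4, h3, h⟩

/-- **IG-D** `[Fb N : k(j̄)] = [SL₂(ℤ) : Γ₀(N)]` for the residue field of a modular reduction
datum. -/
theorem h59_finrank_fb_of (N : ℕ) [NeZero N] {ℓ : ℕ} [Fact ℓ.Prime] (hℓN : ¬ ℓ ∣ N)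
    (A : ValuationSubring Qb) (hA : A.LiesOverPrime ℓ)
    (R : h39_RedDatum Qb ↥(modularFunctionFieldBar N) (IsLocalRing.ResidueField ↥A)
      ↥(modularFunctionFieldFullC (IsLocalRing.ResidueField ↥A) N))
    (h : h54_IsModRed N A R) :
    Module.finrank (IsLocalRing.ResidueField ↥A)⟮h54_jk (IsLocalRing.ResidueField ↥A) N⟯
        ↥(modularFunctionFieldFullC (IsLocalRing.ResidueField ↥A) N)
      = Nat.card (SL(2, ℤ) ⧸ Gamma0 N) := by
  have hchar : CharP (IsLocalRing.ResidueField ↥A) ℓ := h19_residueField_charP A ℓ hA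
  refine h59_finrank_of_repr (modularFunctionFieldFullC (IsLocalRing.ResidueField ↥A) N)
    (jqModC (IsLocalRing.ResidueField ↥A))
    (qExpand (IsLocalRing.ResidueField ↥A) N (jqModC (IsLocalRing.ResidueField ↥A)))
    (jqModC_mem_full _ N) (jqModCd_mem_full _ N dvd_rfl) _ (h59_jqModC_transcendental _) ?_
    (h84_igusa_field N ℓ hℓN _)
  intro g hg
  obtain ⟨u, hu⟩ := R.red_surjective ⟨g, hg⟩
  have hug : ((R.red u : ↥(modularFunctionFieldFullC (IsLocalRing.ResidueField ↥A) N)) :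
      LaurentSeries (IsLocalRing.ResidueField ↥A)) = g := by
    rw [hu]
  by_cases hu0 : (u : ↥(modularFunctionFieldBar N)) = 0
  · have hu0' : u = 0 := Subtype.ext hu0
    rw [hu0', map_zero] at hug
    refine ⟨fun _ => 0, 1, one_ne_zero, ?_⟩
    rw [← hug]
    simp
  · obtain ⟨c, p, q, hc, hq, hp, hrel⟩ := h59_rep N A (u : ↥(modularFunctionFieldBar N)) hu0
    obtain ⟨hq', hp', -, -⟩ := h59_rep_red N hℓN A hA p q hq hp
    have hcA : c ∈ A := by
      by_contra hcn
      have hinv : c⁻¹ ∈ A := (A.mem_or_inv_mem c).resolve_left hcn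
      have hres : IsLocalRing.residue ↥A ⟨c⁻¹, hinv⟩ = 0 := by
        rw [IsLocalRing.residue_eq_zero_iff, IsLocalRing.mem_maximalIdeal, mem_nonunits_iff]
        intro hunit
        obtain ⟨b, hb⟩ := hunit.exists_right_inv
        have hb' : c⁻¹ * (b : Qb) = 1 := congrArg Subtype.val hb
        apply hcn
        have hbc : (b : Qb) = c := by
          rw [← mul_one c, ← hb', mul_inv_cancel_left₀ hc]
        rw [← hbc]
        exact b.2
      obtain ⟨y₁, y₂, hy₂, hy⟩ := (h.mem_iff u).1 u.2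
      have e1 : coeffMap A.subtype (h59_PY ↥A N p * y₂) =
          coeffMap A.subtype (algebraMap ↥A (LaurentSeries ↥A) ⟨c⁻¹, hinv⟩ * y₁ *
            aeval (jqModC ↥A) q) := by
        rw [map_mul, map_mul, map_mul, h59_cm_algebraMap, ← hy]
        have e0 : coeffMap A.subtype (h59_PY ↥A N p) =
            algebraMap Qb (LaurentSeries Qb) c⁻¹ *
              ((u : ↥(modularFunctionFieldBar N)) : LaurentSeries Qb) *
              coeffMap A.subtype (aeval (jqModC ↥A) q) := by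
          rw [mul_assoc, hrel, ← mul_assoc, ← map_mul, inv_mul_cancel₀ hc, map_one, one_mul]
        rw [e0]
        show _ = algebraMap Qb (LaurentSeries Qb) c⁻¹ * _ * _
        ring
      have e2 := coeffMap_injective A.subtype Subtype.val_injective e1
      have e3 := congrArg (coeffMap (IsLocalRing.residue ↥A)) e2
      rw [map_mul, map_mul, map_mul, h59_cm_algebraMap, hres, map_zero, zero_mul,
        zero_mul] at e3
      exact mul_ne_zero hp' hy₂ e3
    have hred := h.red_eq u u.2 (algebraMap ↥A (LaurentSeries ↥A) ⟨c, hcA⟩ * h59_PY ↥A N p)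
      (aeval (jqModC ↥A) q) (by rw [map_mul, h59_cm_algebraMap]; exact hrel)
    rw [hug, map_mul, h59_cm_algebraMap, h59_cm_aeval, coeffMap_jqModC,
      h59_coeffMap_PY] at hred
    refine ⟨fun i => C (IsLocalRing.residue ↥A ⟨c, hcA⟩) * (p i).map (IsLocalRing.residue ↥A),
      q.map (IsLocalRing.residue ↥A), hq, ?_⟩
    rw [mul_comm, hred]
    unfold h59_PY
    rw [Finset.mul_sum]
    refine Finset.sum_congr rfl fun i _ => ?_
    rw [map_mul, aeval_C, mul_assoc]

end Fermat.Agent.S18
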