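import Mathlib
import Fermat.Agent.S18.h59_Rep

/-!
# S18, layer MOD (IG-C): the three inputs of the abstract construction of the reduction datum

For `F = F N ⊆ Qb((q))`, `Fb = Fb N ⊆ k((q))`, `A` a valuation ring of `Qb` over `ℓ ∤ N`:
* `h59_hsc`   : primitive scaling of every `f ≠ 0` (numerator and denominator `A`-integral with
  nonzero reductions);
* `h59_hland` : reductions of ratios of integral series representing elements of `F N` land in
  `Fb N`;
* `h59_hsurj` : every element of `Fb N` is such a reduction.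
These are the hypotheses `hsc`, `hland`, `hsurj` of `h19_exists_redDatum_abs` (board #1620).
-/

set_option autoImplicit false
set_option synthInstance.maxHeartbeats 400000

noncomputable section

namespace Fermat.Agent.S18

open ModularCurve IntermediateField Polynomial CongruenceSubgroup

open scoped MatrixGroups

open Fermat.Agent.S24 Fermat.Agent.S28

local notation "Qb" => AlgebraicClosure ℚ

/-- A scalar `c` with `f · Q = c · P` (`P` primitive) for an `f` that is a ratio of integral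
series with primitive denominator is integral. -/
theorem h59_scalar_mem {K : Type} [Field K] (A : ValuationSubring K) (f : LaurentSeries K)
    (c : K) (hc : c ≠ 0) (P Q y₁ y₂ : LaurentSeries ↥A)
    (hP : coeffMap (IsLocalRing.residue ↥A) P ≠ 0)
    (hy₂ : coeffMap (IsLocalRing.residue ↥A) y₂ ≠ 0)
    (h1 : f * coeffMap A.subtype Q = algebraMap K (LaurentSeries K) c * coeffMap A.subtype P)
    (h2 : f * coeffMap A.subtype y₂ = coeffMap A.subtype y₁) : c ∈ A := by
  by_contra hcn
  have hinv : c⁻¹ ∈ A := (A.mem_or_inv_mem c).resolve_left hcn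
  have hres : IsLocalRing.residue ↥A ⟨c⁻¹, hinv⟩ = 0 := by
    rw [IsLocalRing.residue_eq_zero_iff, IsLocalRing.mem_maximalIdeal, mem_nonunits_iff]
    intro hunit
    obtain ⟨b, hb⟩ := hunit.exists_right_inv
    have hb' : c⁻¹ * (b : K) = 1 := congrArg Subtype.val hb
    apply hcn
    have hbc : (b : K) = c := by
      rw [← mul_one c, ← hb', mul_inv_cancel_left₀ hc]
    rw [← hbc]
    exact b.2
  have e1 : coeffMap A.subtype (P * y₂) =
      coeffMap A.subtype (algebraMap ↥A (LaurentSeries ↥A) ⟨c⁻¹, hinv⟩ * y₁ * Q) := by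
    rw [map_mul, map_mul, map_mul, h59_cm_algebraMap, ← h2]
    have e0 : coeffMap A.subtype P =
        algebraMap K (LaurentSeries K) c⁻¹ * f * coeffMap A.subtype Q := by
      rw [mul_assoc, h1, ← mul_assoc, ← map_mul, inv_mul_cancel₀ hc, map_one, one_mul]
    rw [e0]
    show _ = algebraMap K (LaurentSeries K) c⁻¹ * _ * _
    ring
  have e2 := coeffMap_injective A.subtype Subtype.val_injective e1
  have e3 := congrArg (coeffMap (IsLocalRing.residue ↥A)) e2
  rw [map_mul, map_mul, map_mul, h59_cm_algebraMap, hres, map_zero, zero_mul, zero_mul] at e3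
  exact mul_ne_zero hP hy₂ e3

variable (N : ℕ) [NeZero N] {ℓ : ℕ} [Fact ℓ.Prime] (hℓN : ¬ ℓ ∣ N) (A : ValuationSubring Qb)
  (hA : A.LiesOverPrime ℓ)

include hℓN hA in
/-- `hsc`: primitive scaling. -/
theorem h59_hsc (f : ↥(modularFunctionFieldBar N)) (hf : f ≠ 0) :
    ∃ (c : Qb) (y₁ y₂ : LaurentSeries ↥A), c ≠ 0 ∧
      coeffMap (IsLocalRing.residue ↥A) y₁ ≠ 0 ∧ coeffMap (IsLocalRing.residue ↥A) y₂ ≠ 0 ∧
      algebraMap Qb (LaurentSeries Qb) c * (f : LaurentSeries Qb) * coeffMap A.subtype y₂ =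
        coeffMap A.subtype y₁ := by
  obtain ⟨c, y₁, y₂, hc, h1, h2, -, -, h⟩ := h59_rep_series N hℓN A hA f hf
  refine ⟨c⁻¹, y₁, y₂, inv_ne_zero hc, h1, h2, ?_⟩
  rw [mul_assoc, h, ← mul_assoc, ← map_mul, inv_mul_cancel₀ hc, map_one, one_mul]

include hℓN hA in
/-- `hland`: reductions land in `Fb N`. -/
theorem h59_hland (f : ↥(modularFunctionFieldBar N)) (y₁ y₂ : LaurentSeries ↥A)
    (hy₂ : coeffMap (IsLocalRing.residue ↥A) y₂ ≠ 0)
    (h : (f : LaurentSeries Qb) * coeffMap A.subtype y₂ = coeffMap A.subtype y₁) :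
    ∃ g ∈ modularFunctionFieldFullC (IsLocalRing.ResidueField ↥A) N,
      g * coeffMap (IsLocalRing.residue ↥A) y₂ = coeffMap (IsLocalRing.residue ↥A) y₁ := by
  by_cases hf : f = 0
  · refine ⟨0, zero_mem _, ?_⟩
    rw [hf, ZeroMemClass.coe_zero, zero_mul] at h
    have hy₁ : y₁ = 0 := by
      apply coeffMap_injective A.subtype Subtype.val_injective
      rw [← h, map_zero]
    rw [hy₁, map_zero, zero_mul]
  · obtain ⟨c, p, q, hc, hq, hp, hrel⟩ := h59_rep N A f hf
    obtain ⟨hq', hp', hqm, hpm⟩ := h59_rep_red N hℓN A hA p q hq hp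
    have hcA : c ∈ A := h59_scalar_mem A _ c hc _ _ y₁ y₂ hp' hy₂ hrel h
    refine ⟨algebraMap _ _ (IsLocalRing.residue ↥A ⟨c, hcA⟩) *
      coeffMap (IsLocalRing.residue ↥A) (h59_PY ↥A N p) /
      coeffMap (IsLocalRing.residue ↥A) (aeval (jqModC ↥A) q),
      div_mem (mul_mem (IntermediateField.algebraMap_mem _ _) hpm) hqm, ?_⟩
    have hsub : A.subtype ⟨c, hcA⟩ = c := rfl
    have e1 : coeffMap A.subtype (y₁ * aeval (jqModC ↥A) q) =
        coeffMap A.subtype (y₂ * (algebraMap ↥A (LaurentSeries ↥A) ⟨c, hcA⟩ * h59_PY ↥A N p)) := by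
      rw [map_mul, map_mul, map_mul, h59_cm_algebraMap, ← h, hsub]
      linear_combination (coeffMap A.subtype y₂) * hrel
    have e2 := coeffMap_injective A.subtype Subtype.val_injective e1
    have e3 := congrArg (coeffMap (IsLocalRing.residue ↥A)) e2
    rw [map_mul, map_mul, map_mul, h59_cm_algebraMap] at e3
    rw [div_mul_eq_mul_div, div_eq_iff hq', e3]
    ring

omit [NeZero N] in
/-- `hsurj`: every element of `Fb N` is the reduction of an element of `F N`. -/
theorem h59_hsurj (g : LaurentSeries (IsLocalRing.ResidueField ↥A))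
    (hg : g ∈ modularFunctionFieldFullC (IsLocalRing.ResidueField ↥A) N) :
    ∃ (f : ↥(modularFunctionFieldBar N)) (y₁ y₂ : LaurentSeries ↥A),
      coeffMap (IsLocalRing.residue ↥A) y₂ ≠ 0 ∧
      (f : LaurentSeries Qb) * coeffMap A.subtype y₂ = coeffMap A.subtype y₁ ∧
      g * coeffMap (IsLocalRing.residue ↥A) y₂ = coeffMap (IsLocalRing.residue ↥A) y₁ := by
  unfold modularFunctionFieldFullC at hg
  induction hg using IntermediateField.adjoin_induction with
  | mem x hx =>
    obtain ⟨d, hd, hdN, rfl⟩ := hx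
    have hmem : qExpand Qb d (jqModC Qb) ∈ modularFunctionFieldBar N := by
      rw [h59_bar_eq_fullC]
      exact jqModCd_mem_full Qb N hdN
    refine ⟨⟨_, hmem⟩, qExpand ↥A d (jqModC ↥A), 1, ?_, ?_, ?_⟩
    · rw [map_one]
      exact one_ne_zero
    · rw [map_one, mul_one, coeffMap_qExpand, coeffMap_jqModC]
    · rw [map_one, mul_one, coeffMap_qExpand, coeffMap_jqModC]
  | algebraMap a =>
    obtain ⟨a', rfl⟩ := IsLocalRing.residue_surjective a
    refine ⟨algebraMap Qb _ (a' : Qb), algebraMap ↥A (LaurentSeries ↥A) a', 1, ?_, ?_, ?_⟩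
    · rw [map_one]
      exact one_ne_zero
    · rw [map_one, mul_one, h59_cm_algebraMap]
      rfl
    · rw [map_one, mul_one, h59_cm_algebraMap]
  | add x y _ _ hx hy =>
    obtain ⟨f, y₁, y₂, h0, h1, h2⟩ := hx
    obtain ⟨f', y₁', y₂', h0', h1', h2'⟩ := hy
    refine ⟨f + f', y₁ * y₂' + y₁' * y₂, y₂ * y₂', ?_, ?_, ?_⟩
    · rw [map_mul]
      exact mul_ne_zero h0 h0'
    · rw [map_add, map_mul, map_mul, map_mul, ← h1, ← h1']
      push_cast
      ring
    · rw [map_add, map_mul, map_mul, map_mul, ← h2, ← h2']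
      ring
  | inv x _ hx =>
    obtain ⟨f, y₁, y₂, h0, h1, h2⟩ := hx
    by_cases hx0 : x = 0
    · refine ⟨0, 0, 1, ?_, ?_, ?_⟩
      · rw [map_one]
        exact one_ne_zero
      · rw [map_zero, ZeroMemClass.coe_zero, zero_mul]
      · rw [hx0, inv_zero, zero_mul, map_zero]
    · have hy₁ : coeffMap (IsLocalRing.residue ↥A) y₁ ≠ 0 := by
        rw [← h2]
        exact mul_ne_zero hx0 h0
      have hy₁' : coeffMap A.subtype y₁ ≠ 0 := by
        intro h
        have : y₁ = 0 := coeffMap_injective A.subtype Subtype.val_injective (by rw [h, map_zero])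
        exact hy₁ (by rw [this, map_zero])
      have hf : (f : LaurentSeries Qb) ≠ 0 := by
        intro h
        rw [h, zero_mul] at h1
        exact hy₁' h1.symm
      refine ⟨f⁻¹, y₂, y₁, hy₁, ?_, ?_⟩
      · rw [← h1]
        push_cast
        rw [← mul_assoc, inv_mul_cancel₀ hf, one_mul]
      · rw [← h2, ← mul_assoc, inv_mul_cancel₀ hx0, one_mul]
  | mul x y _ _ hx hy =>
    obtain ⟨f, y₁, y₂, h0, h1, h2⟩ := hx
    obtain ⟨f', y₁', y₂', h0', h1', h2'⟩ := hy
    refine ⟨f * f', y₁ * y₁', y₂ * y₂', ?_, ?_, ?_⟩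
    · rw [map_mul]
      exact mul_ne_zero h0 h0'
    · rw [map_mul, map_mul, ← h1, ← h1']
      push_cast
      ring
    · rw [map_mul, map_mul, ← h2, ← h2']
      ring

end Fermat.Agent.S18
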