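/-
S18 TOP-RED, EXPORT 2 in the shape requested by the S18 lead (helper39, board #1652):
`h60_S18_of_core_one`.  The divisor `D` is a `Divisor` (finitely supported), so one needs that
non-zero functions of `F(N)` have finitely many zeros and poles (`hfin`, e.g. `h75_finite_ord_ne`).
-/
import Mathlib
import Fermat.Agent.S18.h60_Red

set_option autoImplicit false
set_option synthInstance.maxHeartbeats 400000

noncomputable section

open HahnSeries IntermediateField AlgebraicCurve ModularCurve

namespace Fermat.Agent.S18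

/-- **TOP-RED, EXPORT 2.**  If, for integral `U₁ U₂` with the same reduction and a divisor `D`
with `m • D = div (U₂ / U₁)`, the divisor `D` is principal, then the frozen S18 conclusion holds. -/
theorem h60_S18_of_core_one (N : ℕ) [NeZero N] (A : ValuationSubring (AlgebraicClosure ℚ)) (m : ℕ)
    (hfin : ∀ f : modularFunctionFieldBar N, f ≠ 0 →
      {P : Place (AlgebraicClosure ℚ) (modularFunctionFieldBar N) | P.ord f ≠ 0}.Finite)
    (hconst : ∀ g : modularFunctionFieldFullC (IsLocalRing.ResidueField A) N, g ≠ 0 →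
      (∀ Q : Place (IsLocalRing.ResidueField A)
          (modularFunctionFieldFullC (IsLocalRing.ResidueField A) N), Q.ord g = 0) →
      ∃ c : IsLocalRing.ResidueField A,
        g = algebraMap (IsLocalRing.ResidueField A)
          (modularFunctionFieldFullC (IsLocalRing.ResidueField A) N) c)
    (hcore : ∀ (U₁ U₂ : LaurentSeries A) (h₁ : h60_IsInt N A U₁) (h₂ : h60_IsInt N A U₂)
      (D : Divisor (AlgebraicClosure ℚ) (modularFunctionFieldBar N)),
      (∀ P : Place (AlgebraicClosure ℚ) (modularFunctionFieldBar N),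
        (m : ℤ) * D P =
          P.ord (⟨coeffMap A.subtype U₂, h₂.1⟩ : modularFunctionFieldBar N) -
            P.ord (⟨coeffMap A.subtype U₁, h₁.1⟩ : modularFunctionFieldBar N)) →
      coeffMap (IsLocalRing.residue A) U₁ = coeffMap (IsLocalRing.residue A) U₂ →
      D ∈ Divisor.principal (K := AlgebraicClosure ℚ) (F := modularFunctionFieldBar N))
    (h : ReductionInputsModL A N) (z : JZero N) (hmz : m • z = 0)
    (hz : reductionModL A N z = 0) : z = 0 := by
  by_cases hm0 : m = 0
  · -- `m = 0`: `hcore` with `U₁ = U₂ = 1` makes every divisor principal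
    obtain ⟨D, rfl⟩ := Pic0.mk_surjective z
    have hD : (D : Divisor (AlgebraicClosure ℚ) (modularFunctionFieldBar N)) ∈
        Divisor.principal (K := AlgebraicClosure ℚ) (F := modularFunctionFieldBar N) :=
      hcore 1 1 h60_isInt_one h60_isInt_one D (fun P => by rw [hm0]; simp) rfl
    exact (QuotientAddGroup.eq_zero_iff _).mpr (by
      rw [AddSubgroup.mem_addSubgroupOf]
      exact hD)
  · refine h60_S18_of_core1 N A h m hconst (fun U₁ U₂ hU₁ hU₂ d heq hd => ?_) z hmz hz
    have hu0 : h60_up U₂ hU₂ / h60_up U₁ hU₁ ≠ 0 :=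
      div_ne_zero (h60_up_ne_zero _ _) (h60_up_ne_zero _ _)
    have hsupp : ∀ P : Place (AlgebraicClosure ℚ) (modularFunctionFieldBar N),
        d P ≠ 0 → P ∈ (hfin _ hu0).toFinset := by
      intro P hP
      rw [Set.Finite.mem_toFinset]
      show P.ord (h60_up U₂ hU₂ / h60_up U₁ hU₁) ≠ 0
      rw [h60_ord_div P (h60_up_ne_zero _ _) (h60_up_ne_zero _ _), ← hd P]
      exact mul_ne_zero (Nat.cast_ne_zero.mpr hm0) hP
    obtain ⟨D, hDd⟩ : ∃ D : Divisor (AlgebraicClosure ℚ) (modularFunctionFieldBar N),
        ∀ P, D P = d P := ⟨Finsupp.onFinset (hfin _ hu0).toFinset d hsupp, fun P => rfl⟩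
    obtain ⟨g, hg0, hg⟩ := hcore U₁ U₂ hU₁ hU₂ D (fun P => by rw [hDd P]; exact hd P) heq
    exact ⟨g, hg0, fun P => by rw [← hDd P]; exact hg P⟩

end Fermat.Agent.S18
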