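/-
S18 / MOD, row IG-C, abstract half (helper60): the modular reduction datum from (REP).

`Qb = AlgebraicClosure ℚ`, `F = modularFunctionFieldBar N ⊆ Qb((q))`, `A` a valuation ring of `Qb`,
`k = A/𝔪`, `Fb = modularFunctionFieldFullC k N ⊆ k((q))`, `sub = coeffMap A.subtype`,
`bar = coeffMap (residue A)`.

(REP): every `f ≠ 0` of `F` is `c · y₁ / y₂` with `c ∈ Qbˣ` and `y₁, y₂` `A`-integral `q`-series whose
reductions are non-zero elements of `Fb`.

From (REP) we build `R : h39_RedDatum Qb F k Fb` with `h54_IsModRed N A R`: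
`R.O = {f | ∃ y₁ y₂, ȳ₂ ≠ 0 ∧ f · y₂ = y₁}`, `R.red f = ȳ₁ / ȳ₂`.
-/
import Mathlib
import Fermat.Agent.S18.h54_ModDefs
import Fermat.Agent.S18.h60_Red

set_option autoImplicit false
set_option synthInstance.maxHeartbeats 400000

noncomputable section

open HahnSeries IntermediateField AlgebraicCurve ModularCurve

namespace Fermat.Agent.S18

section Basic

variable {A : ValuationSubring (AlgebraicClosure ℚ)}

theorem h60_sub_single (a : A) :
    coeffMap A.subtype (HahnSeries.single 0 a) =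
      algebraMap (AlgebraicClosure ℚ) (LaurentSeries (AlgebraicClosure ℚ))
        (a : AlgebraicClosure ℚ) := by
  rw [coeffMap_single]
  exact (algebraMap_laurentSeries_eq_single (AlgebraicClosure ℚ) _).symm

theorem h60_bar_single (a : A) :
    coeffMap (IsLocalRing.residue A) (HahnSeries.single 0 a) =
      algebraMap (IsLocalRing.ResidueField A) (LaurentSeries (IsLocalRing.ResidueField A))
        (IsLocalRing.residue A a) := by
  rw [coeffMap_single]
  exact (algebraMap_laurentSeries_eq_single (IsLocalRing.ResidueField A) _).symm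

/-- the inverse of a non-element of `A` has residue `0`. -/
theorem h60_residue_inv_eq_zero {c : AlgebraicClosure ℚ} (hc : c ∉ A) (hcinv : c⁻¹ ∈ A) :
    IsLocalRing.residue A ⟨c⁻¹, hcinv⟩ = 0 := by
  rw [IsLocalRing.residue_eq_zero_iff, ← ValuationSubring.coe_mem_nonunits_iff,
    ValuationSubring.mem_nonunits_iff_or]
  right
  rw [inv_inv]
  exact hc

/-- cross multiplication: two integral representations of the same series as a ratio have
proportional reductions. -/
theorem h60_cross {x : LaurentSeries (AlgebraicClosure ℚ)} {y₁ y₂ z₁ z₂ : LaurentSeries A}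
    (h₁ : x * coeffMap A.subtype y₂ = coeffMap A.subtype y₁)
    (h₂ : x * coeffMap A.subtype z₂ = coeffMap A.subtype z₁) :
    coeffMap (IsLocalRing.residue A) y₁ * coeffMap (IsLocalRing.residue A) z₂ =
      coeffMap (IsLocalRing.residue A) z₁ * coeffMap (IsLocalRing.residue A) y₂ := by
  have h3 : y₁ * z₂ = z₁ * y₂ := by
    apply h60_coeffMap_subtype_injective
    rw [map_mul, map_mul, ← h₁, ← h₂]
    ring
  rw [← map_mul, ← map_mul, h3]

end Basic

section Construction

variable (N : ℕ) (A : ValuationSubring (AlgebraicClosure ℚ))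

/-- membership in the ring of ratios `y₁ / y₂` with `ȳ₂ ≠ 0`. -/
def h60_InO (f : modularFunctionFieldBar N) : Prop :=
  ∃ y₁ y₂ : LaurentSeries A, coeffMap (IsLocalRing.residue A) y₂ ≠ 0 ∧
    (f : LaurentSeries (AlgebraicClosure ℚ)) * coeffMap A.subtype y₂ = coeffMap A.subtype y₁

/-- the hypothesis (REP). -/
def h60_Rep : Prop :=
  ∀ f : modularFunctionFieldBar N, f ≠ 0 →
    ∃ (c : AlgebraicClosure ℚ) (y₁ y₂ : LaurentSeries A), c ≠ 0 ∧
      coeffMap (IsLocalRing.residue A) y₁ ≠ 0 ∧ coeffMap (IsLocalRing.residue A) y₂ ≠ 0 ∧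
      coeffMap (IsLocalRing.residue A) y₁ ∈
        modularFunctionFieldFullC (IsLocalRing.ResidueField A) N ∧
      coeffMap (IsLocalRing.residue A) y₂ ∈
        modularFunctionFieldFullC (IsLocalRing.ResidueField A) N ∧
      (f : LaurentSeries (AlgebraicClosure ℚ)) * coeffMap A.subtype y₂ =
        algebraMap (AlgebraicClosure ℚ) (LaurentSeries (AlgebraicClosure ℚ)) c *
          coeffMap A.subtype y₁

variable {N A}

theorem h60_inO_zero : h60_InO N A 0 :=
  ⟨0, 1, by rw [map_one]; exact one_ne_zero, by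
    have h0 : ((0 : modularFunctionFieldBar N) : LaurentSeries (AlgebraicClosure ℚ)) = 0 := rfl
    rw [h0, zero_mul, map_zero]⟩

theorem h60_inO_one : h60_InO N A 1 :=
  ⟨1, 1, by rw [map_one]; exact one_ne_zero, by
    have h1 : ((1 : modularFunctionFieldBar N) : LaurentSeries (AlgebraicClosure ℚ)) = 1 := rfl
    rw [h1, one_mul]⟩

theorem h60_inO_add {f g : modularFunctionFieldBar N} (hf : h60_InO N A f) (hg : h60_InO N A g) :
    h60_InO N A (f + g) := by
  obtain ⟨y₁, y₂, hy, h1⟩ := hf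
  obtain ⟨z₁, z₂, hz, h2⟩ := hg
  refine ⟨y₁ * z₂ + z₁ * y₂, y₂ * z₂, by rw [map_mul]; exact mul_ne_zero hy hz, ?_⟩
  have hc : ((f + g : modularFunctionFieldBar N) : LaurentSeries (AlgebraicClosure ℚ)) =
      (f : LaurentSeries (AlgebraicClosure ℚ)) + (g : LaurentSeries (AlgebraicClosure ℚ)) := rfl
  rw [hc, map_mul, map_add, map_mul, map_mul, ← h1, ← h2]
  ring

theorem h60_inO_mul {f g : modularFunctionFieldBar N} (hf : h60_InO N A f) (hg : h60_InO N A g) :
    h60_InO N A (f * g) := by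
  obtain ⟨y₁, y₂, hy, h1⟩ := hf
  obtain ⟨z₁, z₂, hz, h2⟩ := hg
  refine ⟨y₁ * z₁, y₂ * z₂, by rw [map_mul]; exact mul_ne_zero hy hz, ?_⟩
  have hc : ((f * g : modularFunctionFieldBar N) : LaurentSeries (AlgebraicClosure ℚ)) =
      (f : LaurentSeries (AlgebraicClosure ℚ)) * (g : LaurentSeries (AlgebraicClosure ℚ)) := rfl
  rw [hc, map_mul, map_mul, ← h1, ← h2]
  ring

theorem h60_inO_neg {f : modularFunctionFieldBar N} (hf : h60_InO N A f) : h60_InO N A (-f) := by
  obtain ⟨y₁, y₂, hy, h1⟩ := hf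
  refine ⟨-y₁, y₂, hy, ?_⟩
  have hc : ((-f : modularFunctionFieldBar N) : LaurentSeries (AlgebraicClosure ℚ)) =
      -(f : LaurentSeries (AlgebraicClosure ℚ)) := rfl
  rw [hc, map_neg, ← h1, neg_mul]

theorem h60_inO_or_inv (hrep : h60_Rep N A) (f : modularFunctionFieldBar N) :
    h60_InO N A f ∨ h60_InO N A f⁻¹ := by
  by_cases hf0 : f = 0
  · left
    rw [hf0]
    exact h60_inO_zero
  obtain ⟨c, y₁, y₂, hc0, hy₁, hy₂, -, -, h⟩ := hrep f hf0
  rcases A.mem_or_inv_mem c with hc | hc
  · left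
    refine ⟨HahnSeries.single 0 ⟨c, hc⟩ * y₁, y₂, hy₂, ?_⟩
    rw [h, map_mul, h60_sub_single]
  · right
    refine ⟨HahnSeries.single 0 ⟨c⁻¹, hc⟩ * y₂, y₁, hy₁, ?_⟩
    have hfL : (f : LaurentSeries (AlgebraicClosure ℚ)) ≠ 0 := fun h0 => hf0 (Subtype.ext h0)
    have hci : ((f⁻¹ : modularFunctionFieldBar N) : LaurentSeries (AlgebraicClosure ℚ)) =
        (f : LaurentSeries (AlgebraicClosure ℚ))⁻¹ := rfl
    have h3 : coeffMap A.subtype y₁ =
        algebraMap (AlgebraicClosure ℚ) (LaurentSeries (AlgebraicClosure ℚ)) c⁻¹ *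
          ((f : LaurentSeries (AlgebraicClosure ℚ)) * coeffMap A.subtype y₂) := by
      rw [h, ← mul_assoc, ← map_mul, inv_mul_cancel₀ hc0, map_one, one_mul]
    rw [hci, map_mul, h60_sub_single, h3, mul_left_comm,
      ← mul_assoc (f : LaurentSeries (AlgebraicClosure ℚ))⁻¹, inv_mul_cancel₀ hfL, one_mul]

/-- the reduction of an element of `O`, as a Laurent series over `k`. -/
def h60_redval (f : modularFunctionFieldBar N) (hf : h60_InO N A f) :
    LaurentSeries (IsLocalRing.ResidueField A) :=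
  coeffMap (IsLocalRing.residue A) hf.choose /
    coeffMap (IsLocalRing.residue A) hf.choose_spec.choose

theorem h60_redval_mul (f : modularFunctionFieldBar N) (hf : h60_InO N A f)
    (y₁ y₂ : LaurentSeries A)
    (h : (f : LaurentSeries (AlgebraicClosure ℚ)) * coeffMap A.subtype y₂ =
      coeffMap A.subtype y₁) :
    h60_redval f hf * coeffMap (IsLocalRing.residue A) y₂ =
      coeffMap (IsLocalRing.residue A) y₁ := by
  have hz := hf.choose_spec.choose_spec.1
  have h2 := hf.choose_spec.choose_spec.2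
  have hx := h60_cross h h2
  unfold h60_redval
  rw [div_mul_eq_mul_div, div_eq_iff hz]
  exact hx.symm

theorem h60_redval_eq (f : modularFunctionFieldBar N) (hf : h60_InO N A f)
    (y₁ y₂ : LaurentSeries A) (hy₂ : coeffMap (IsLocalRing.residue A) y₂ ≠ 0)
    (h : (f : LaurentSeries (AlgebraicClosure ℚ)) * coeffMap A.subtype y₂ =
      coeffMap A.subtype y₁) :
    h60_redval f hf =
      coeffMap (IsLocalRing.residue A) y₁ / coeffMap (IsLocalRing.residue A) y₂ := by
  rw [eq_div_iff hy₂]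
  exact h60_redval_mul f hf y₁ y₂ h

theorem h60_redval_zero (hf : h60_InO N A (0 : modularFunctionFieldBar N)) :
    h60_redval 0 hf = 0 := by
  have h := h60_redval_mul (0 : modularFunctionFieldBar N) hf 0 1 (by
    have h0 : ((0 : modularFunctionFieldBar N) : LaurentSeries (AlgebraicClosure ℚ)) = 0 := rfl
    rw [h0, zero_mul, map_zero])
  rwa [map_one, mul_one, map_zero] at h

theorem h60_redval_one (hf : h60_InO N A (1 : modularFunctionFieldBar N)) :
    h60_redval 1 hf = 1 := by
  have h := h60_redval_mul (1 : modularFunctionFieldBar N) hf 1 1 (by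
    have h1 : ((1 : modularFunctionFieldBar N) : LaurentSeries (AlgebraicClosure ℚ)) = 1 := rfl
    rw [h1, one_mul])
  rwa [map_one, mul_one] at h

theorem h60_redval_add {f g : modularFunctionFieldBar N} (hf : h60_InO N A f)
    (hg : h60_InO N A g) (hfg : h60_InO N A (f + g)) :
    h60_redval (f + g) hfg = h60_redval f hf + h60_redval g hg := by
  obtain ⟨y₁, y₂, hy, h1⟩ := hf
  obtain ⟨z₁, z₂, hz, h2⟩ := hg
  have e1 := h60_redval_mul f ⟨y₁, y₂, hy, h1⟩ y₁ y₂ h1
  have e2 := h60_redval_mul g ⟨z₁, z₂, hz, h2⟩ z₁ z₂ h2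
  have h3 : ((f + g : modularFunctionFieldBar N) : LaurentSeries (AlgebraicClosure ℚ)) *
      coeffMap A.subtype (y₂ * z₂) = coeffMap A.subtype (y₁ * z₂ + z₁ * y₂) := by
    have hc : ((f + g : modularFunctionFieldBar N) : LaurentSeries (AlgebraicClosure ℚ)) =
        (f : LaurentSeries (AlgebraicClosure ℚ)) + (g : LaurentSeries (AlgebraicClosure ℚ)) := rfl
    rw [hc, map_mul, map_add, map_mul, map_mul, ← h1, ← h2]
    ring
  have e3 := h60_redval_mul (f + g) hfg _ _ h3
  rw [map_mul, map_add, map_mul, map_mul, ← e1, ← e2] at e3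
  have hne : coeffMap (IsLocalRing.residue A) y₂ * coeffMap (IsLocalRing.residue A) z₂ ≠ 0 :=
    mul_ne_zero hy hz
  apply mul_right_cancel₀ hne
  rw [e3]
  ring

theorem h60_redval_mul_eq {f g : modularFunctionFieldBar N} (hf : h60_InO N A f)
    (hg : h60_InO N A g) (hfg : h60_InO N A (f * g)) :
    h60_redval (f * g) hfg = h60_redval f hf * h60_redval g hg := by
  obtain ⟨y₁, y₂, hy, h1⟩ := hf
  obtain ⟨z₁, z₂, hz, h2⟩ := hg
  have e1 := h60_redval_mul f ⟨y₁, y₂, hy, h1⟩ y₁ y₂ h1
  have e2 := h60_redval_mul g ⟨z₁, z₂, hz, h2⟩ z₁ z₂ h2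
  have h3 : ((f * g : modularFunctionFieldBar N) : LaurentSeries (AlgebraicClosure ℚ)) *
      coeffMap A.subtype (y₂ * z₂) = coeffMap A.subtype (y₁ * z₁) := by
    have hc : ((f * g : modularFunctionFieldBar N) : LaurentSeries (AlgebraicClosure ℚ)) =
        (f : LaurentSeries (AlgebraicClosure ℚ)) * (g : LaurentSeries (AlgebraicClosure ℚ)) := rfl
    rw [hc, map_mul, map_mul, ← h1, ← h2]
    ring
  have e3 := h60_redval_mul (f * g) hfg _ _ h3
  rw [map_mul, map_mul, ← e1, ← e2] at e3
  have hne : coeffMap (IsLocalRing.residue A) y₂ * coeffMap (IsLocalRing.residue A) z₂ ≠ 0 :=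
    mul_ne_zero hy hz
  apply mul_right_cancel₀ hne
  rw [e3]
  ring

/-- the reduction of an element of `O` lies in `Fb` (this is where (REP) forces `c ∈ A`). -/
theorem h60_redval_mem (hrep : h60_Rep N A) (f : modularFunctionFieldBar N)
    (hf : h60_InO N A f) :
    h60_redval f hf ∈ modularFunctionFieldFullC (IsLocalRing.ResidueField A) N := by
  by_cases hf0 : f = 0
  · subst hf0
    rw [h60_redval_zero]
    exact zero_mem _
  obtain ⟨c, y₁, y₂, hc0, hy₁, hy₂, hm₁, hm₂, h⟩ := hrep f hf0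
  have hcA : c ∈ A := by
    by_contra hc
    have hcinv : c⁻¹ ∈ A := (A.mem_or_inv_mem c).resolve_left hc
    obtain ⟨z₁, z₂, hz, h2⟩ := hf
    have h4 : (f : LaurentSeries (AlgebraicClosure ℚ)) *
        coeffMap A.subtype (HahnSeries.single 0 ⟨c⁻¹, hcinv⟩ * y₂) = coeffMap A.subtype y₁ := by
      rw [map_mul, h60_sub_single, mul_left_comm, h, ← mul_assoc, ← map_mul,
        inv_mul_cancel₀ hc0, map_one, one_mul]
    have hx := h60_cross h4 h2
    rw [map_mul, h60_bar_single, h60_residue_inv_eq_zero hc hcinv, map_zero, zero_mul,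
      mul_zero] at hx
    exact mul_ne_zero hy₁ hz hx
  have h5 : (f : LaurentSeries (AlgebraicClosure ℚ)) * coeffMap A.subtype y₂ =
      coeffMap A.subtype (HahnSeries.single 0 ⟨c, hcA⟩ * y₁) := by
    rw [h, map_mul, h60_sub_single]
  rw [h60_redval_eq f hf _ y₂ hy₂ h5, map_mul, h60_bar_single]
  exact div_mem (mul_mem (IntermediateField.algebraMap_mem _ _) hm₁) hm₂

variable (N A)

/-- the valuation subring `O` of `F` of ratios `y₁ / y₂`, `ȳ₂ ≠ 0`. -/
def h60_O (hrep : h60_Rep N A) : ValuationSubring (modularFunctionFieldBar N) where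
  carrier := {f | h60_InO N A f}
  mul_mem' := fun hf hg => h60_inO_mul hf hg
  one_mem' := h60_inO_one
  add_mem' := fun hf hg => h60_inO_add hf hg
  zero_mem' := h60_inO_zero
  neg_mem' := fun hf => h60_inO_neg hf
  mem_or_inv_mem' := fun f => h60_inO_or_inv hrep f

theorem h60_mem_O (hrep : h60_Rep N A) (f : modularFunctionFieldBar N) :
    f ∈ h60_O N A hrep ↔ h60_InO N A f := Iff.rfl

/-- the reduction map `O → Fb`. -/
def h60_red (hrep : h60_Rep N A) :
    h60_O N A hrep →+* modularFunctionFieldFullC (IsLocalRing.ResidueField A) N where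
  toFun f := ⟨h60_redval f.1 f.2, h60_redval_mem hrep f.1 f.2⟩
  map_one' := Subtype.ext (h60_redval_one _)
  map_mul' f g := Subtype.ext (h60_redval_mul_eq f.2 g.2 _)
  map_zero' := Subtype.ext (h60_redval_zero _)
  map_add' f g := Subtype.ext (h60_redval_add f.2 g.2 _)

theorem h60_red_coe (hrep : h60_Rep N A) (f : modularFunctionFieldBar N)
    (hf : f ∈ h60_O N A hrep) :
    ((h60_red N A hrep ⟨f, hf⟩ : modularFunctionFieldFullC (IsLocalRing.ResidueField A) N) :
      LaurentSeries (IsLocalRing.ResidueField A)) = h60_redval f hf := rfl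

theorem h60_red_surjective (hrep : h60_Rep N A) : Function.Surjective (h60_red N A hrep) := by
  intro φ
  by_cases hφ : φ = 0
  · exact ⟨0, by rw [hφ, map_zero]⟩
  obtain ⟨y₃, h₃, y₄, h₄, rfl⟩ := h60_exists_frac φ hφ
  have hmul : ((h60_up y₃ h₃ / h60_up y₄ h₄ : modularFunctionFieldBar N) :
      LaurentSeries (AlgebraicClosure ℚ)) * coeffMap A.subtype y₄ = coeffMap A.subtype y₃ := by
    have hc : ((h60_up y₃ h₃ / h60_up y₄ h₄ : modularFunctionFieldBar N) :
        LaurentSeries (AlgebraicClosure ℚ)) = coeffMap A.subtype y₃ / coeffMap A.subtype y₄ := rfl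
    have hne : coeffMap A.subtype y₄ ≠ 0 := fun h0 => h60_up_ne_zero y₄ h₄ (Subtype.ext h0)
    rw [hc, div_mul_cancel₀ _ hne]
  have hf : h60_InO N A (h60_up y₃ h₃ / h60_up y₄ h₄) := ⟨y₃, y₄, h₄.2.2, hmul⟩
  refine ⟨⟨_, hf⟩, Subtype.ext ?_⟩
  rw [h60_red_coe, h60_redval_eq _ hf y₃ y₄ h₄.2.2 hmul]
  rfl

theorem h60_O_mem_iff (hrep : h60_Rep N A) (a : AlgebraicClosure ℚ) :
    a ∈ A ↔ algebraMap (AlgebraicClosure ℚ) (modularFunctionFieldBar N) a ∈ h60_O N A hrep := by
  constructor
  · intro ha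
    refine ⟨HahnSeries.single 0 ⟨a, ha⟩, 1, by rw [map_one]; exact one_ne_zero, ?_⟩
    rw [map_one, mul_one, h60_sub_single]
    rfl
  · rintro ⟨y₁, y₂, hy₂, h⟩
    by_contra ha
    have hinv : a⁻¹ ∈ A := (A.mem_or_inv_mem a).resolve_left ha
    have ha0 : a ≠ 0 := fun h0 => ha (h0 ▸ A.zero_mem)
    have hc : ((algebraMap (AlgebraicClosure ℚ) (modularFunctionFieldBar N) a :
        modularFunctionFieldBar N) : LaurentSeries (AlgebraicClosure ℚ)) =
        algebraMap (AlgebraicClosure ℚ) (LaurentSeries (AlgebraicClosure ℚ)) a := rfl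
    rw [hc] at h
    have h2 : y₂ = HahnSeries.single 0 ⟨a⁻¹, hinv⟩ * y₁ := by
      apply h60_coeffMap_subtype_injective
      rw [map_mul, h60_sub_single, ← h, ← mul_assoc, ← map_mul, inv_mul_cancel₀ ha0, map_one,
        one_mul]
    apply hy₂
    rw [h2, map_mul, h60_bar_single, h60_residue_inv_eq_zero ha hinv, map_zero, zero_mul]

/-- **The modular reduction datum from (REP).** -/
def h60_redDatumOfRep (hrep : h60_Rep N A) :
    h39_RedDatum (AlgebraicClosure ℚ) (modularFunctionFieldBar N) (IsLocalRing.ResidueField A)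
      (modularFunctionFieldFullC (IsLocalRing.ResidueField A) N) where
  A := A
  O := h60_O N A hrep
  res := IsLocalRing.residue A
  red := h60_red N A hrep
  res_surjective := IsLocalRing.residue_surjective
  red_surjective := h60_red_surjective N A hrep
  mem_iff := h60_O_mem_iff N A hrep
  red_algebraMap := by
    intro a ha ha'
    apply Subtype.ext
    rw [h60_red_coe]
    have hmul : ((algebraMap (AlgebraicClosure ℚ) (modularFunctionFieldBar N) a :
        modularFunctionFieldBar N) : LaurentSeries (AlgebraicClosure ℚ)) *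
        coeffMap A.subtype 1 = coeffMap A.subtype (HahnSeries.single 0 ⟨a, ha⟩) := by
      rw [map_one, mul_one, h60_sub_single]
      rfl
    have h := h60_redval_mul _ ha' _ _ hmul
    rw [map_one, mul_one, h60_bar_single] at h
    rw [h]
    rfl
  exists_scale := by
    intro f hf0
    obtain ⟨c, y₁, y₂, hc0, hy₁, hy₂, -, -, h⟩ := hrep f hf0
    have hfL : (f : LaurentSeries (AlgebraicClosure ℚ)) ≠ 0 := fun h0 => hf0 (Subtype.ext h0)
    have hcL : algebraMap (AlgebraicClosure ℚ) (LaurentSeries (AlgebraicClosure ℚ)) c⁻¹ ≠ 0 := by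
      rw [Ne, map_eq_zero]
      exact inv_ne_zero hc0
    have hc : ((algebraMap (AlgebraicClosure ℚ) (modularFunctionFieldBar N) c⁻¹ * f :
        modularFunctionFieldBar N) : LaurentSeries (AlgebraicClosure ℚ)) =
        algebraMap (AlgebraicClosure ℚ) (LaurentSeries (AlgebraicClosure ℚ)) c⁻¹ *
          (f : LaurentSeries (AlgebraicClosure ℚ)) := rfl
    have h1 : ((algebraMap (AlgebraicClosure ℚ) (modularFunctionFieldBar N) c⁻¹ * f :
        modularFunctionFieldBar N) : LaurentSeries (AlgebraicClosure ℚ)) *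
        coeffMap A.subtype y₂ = coeffMap A.subtype y₁ := by
      rw [hc, mul_assoc, h, ← mul_assoc, ← map_mul, inv_mul_cancel₀ hc0, map_one, one_mul]
    refine ⟨c⁻¹, inv_ne_zero hc0, ⟨y₁, y₂, hy₂, h1⟩, ⟨y₂, y₁, hy₁, ?_⟩⟩
    have hci : (((algebraMap (AlgebraicClosure ℚ) (modularFunctionFieldBar N) c⁻¹ * f)⁻¹ :
        modularFunctionFieldBar N) : LaurentSeries (AlgebraicClosure ℚ)) =
        (algebraMap (AlgebraicClosure ℚ) (LaurentSeries (AlgebraicClosure ℚ)) c⁻¹ *
          (f : LaurentSeries (AlgebraicClosure ℚ)))⁻¹ := rfl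
    rw [hci, ← h1, hc, ← mul_assoc, inv_mul_cancel₀ (mul_ne_zero hcL hfL), one_mul]

/-- **IG-C from (REP)**: the reduction datum with helper54's four characterising properties. -/
theorem h60_exists_redDatum_of_rep (N : ℕ) [NeZero N] (A : ValuationSubring (AlgebraicClosure ℚ))
    (hrep : h60_Rep N A) :
    ∃ R : h39_RedDatum (AlgebraicClosure ℚ) (modularFunctionFieldBar N)
        (IsLocalRing.ResidueField A) (modularFunctionFieldFullC (IsLocalRing.ResidueField A) N),
      h54_IsModRed N A R :=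
  ⟨h60_redDatumOfRep N A hrep,
    { A_eq := rfl
      res_eq := fun _ _ _ => rfl
      mem_iff := fun _ => Iff.rfl
      red_eq := fun f hf y₁ y₂ h => h60_redval_mul f hf y₁ y₂ h }⟩

end Construction

end Fermat.Agent.S18
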