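import Mathlib
import Fermat.Agent.S18.h60_RedDatumOfRep
import Fermat.Agent.S18.h69_PowerBasis
import Fermat.Agent.S18.h84_IgusaField
import Fermat.Agent.S18.h54_ModCharts
import Fermat.Agent.S18.h19_ResField
import Fermat.Agent.S28.h73_KerInst

/-!
# S18 / MOD, row IG-C, the (REP) half (helper84)

`h84_rep` : for a prime `ℓ ∤ N` and a valuation ring `A` of `ℚ̄` over `ℓ`, every nonzero element
`f` of `F(N) = modularFunctionFieldBar N` is `c · y₁ / y₂` with `c ∈ ℚ̄ˣ` and `A`-integral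
`q`-series `y₁, y₂` whose reductions are nonzero elements of `Fb(N)` (`= h60_Rep N A`).

Proof: the power-basis representation `q(J) f = Σ p_i(J) Y^i` (`h69_exists_repr`), scaling of the
two finite coefficient families by a coefficient of maximal valuation, and Igusa's theorem over
the residue field (`h84_igusa_field`) for the non-vanishing of the reductions.

Consequently `h84_exists_redDatum` (via helper60's `h60_exists_redDatum_of_rep`).
-/

set_option autoImplicit false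
set_option synthInstance.maxHeartbeats 400000

noncomputable section

open HahnSeries IntermediateField AlgebraicCurve ModularCurve CongruenceSubgroup
open scoped MatrixGroups

namespace Fermat.Agent.S18

open Fermat.Agent.S28

/-! ### Coefficient-table sums -/

section Tables

variable {R : Type*} [CommRing R]

/-- `Σ_{a ≤ D} t_a J^a`. -/
def h84_E1 (D : ℕ) (t : ℕ → R) (J : LaurentSeries R) : LaurentSeries R :=
  ∑ a ∈ Finset.range (D + 1), HahnSeries.single 0 (t a) * J ^ a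

/-- `Σ_{b < n} Σ_{a ≤ D} T_{a,b} J^a Y^b`. -/
def h84_E2 (n D : ℕ) (T : ℕ → ℕ → R) (J Y : LaurentSeries R) : LaurentSeries R :=
  ∑ b ∈ Finset.range n, ∑ a ∈ Finset.range (D + 1),
    HahnSeries.single 0 (T a b) * (J ^ a * Y ^ b)

theorem h84_coeffMap_E1 {S : Type*} [CommRing S] (φ : R →+* S) (D : ℕ) (t : ℕ → R)
    (J : LaurentSeries R) :
    coeffMap φ (h84_E1 D t J) = h84_E1 D (fun a => φ (t a)) (coeffMap φ J) := by
  simp only [h84_E1, map_sum, map_mul, map_pow, coeffMap_single]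

theorem h84_coeffMap_E2 {S : Type*} [CommRing S] (φ : R →+* S) (n D : ℕ) (T : ℕ → ℕ → R)
    (J Y : LaurentSeries R) :
    coeffMap φ (h84_E2 n D T J Y) =
      h84_E2 n D (fun a b => φ (T a b)) (coeffMap φ J) (coeffMap φ Y) := by
  simp only [h84_E2, map_sum, map_mul, map_pow, coeffMap_single]

theorem h84_E1_congr (D : ℕ) {t t' : ℕ → R} (J : LaurentSeries R)
    (h : ∀ a ∈ Finset.range (D + 1), t a = t' a) : h84_E1 D t J = h84_E1 D t' J :=
  Finset.sum_congr rfl fun a ha => by rw [h a ha]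

theorem h84_E2_congr (n D : ℕ) {T T' : ℕ → ℕ → R} (J Y : LaurentSeries R)
    (h : ∀ b ∈ Finset.range n, ∀ a ∈ Finset.range (D + 1), T a b = T' a b) :
    h84_E2 n D T J Y = h84_E2 n D T' J Y :=
  Finset.sum_congr rfl fun b hb => Finset.sum_congr rfl fun a ha => by rw [h b hb a ha]

theorem h84_single_mul (c t : R) :
    (HahnSeries.single 0 (c * t) : LaurentSeries R) =
      HahnSeries.single 0 c * HahnSeries.single 0 t := by
  rw [HahnSeries.single_mul_single, zero_add]

theorem h84_E1_scale (D : ℕ) (c : R) (t : ℕ → R) (J : LaurentSeries R) :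
    h84_E1 D (fun a => c * t a) J = HahnSeries.single 0 c * h84_E1 D t J := by
  simp only [h84_E1, Finset.mul_sum]
  refine Finset.sum_congr rfl fun a _ => ?_
  rw [h84_single_mul, mul_assoc]

theorem h84_E2_scale (n D : ℕ) (c : R) (T : ℕ → ℕ → R) (J Y : LaurentSeries R) :
    h84_E2 n D (fun a b => c * T a b) J Y = HahnSeries.single 0 c * h84_E2 n D T J Y := by
  simp only [h84_E2, Finset.mul_sum]
  refine Finset.sum_congr rfl fun b _ => Finset.sum_congr rfl fun a _ => ?_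
  rw [h84_single_mul, mul_assoc]

/-- the one-variable sum as a two-variable sum with `n = 1`. -/
theorem h84_E1_eq_E2 (D : ℕ) (t : ℕ → R) (J Y : LaurentSeries R) :
    h84_E1 D t J = h84_E2 1 D (fun a _ => t a) J Y := by
  simp only [h84_E1, h84_E2, Finset.sum_range_one, pow_zero, mul_one]

theorem h84_aeval_eq_E1 (D : ℕ) (q : Polynomial R) (hq : q.natDegree ≤ D) (J : LaurentSeries R) :
    Polynomial.aeval J q = h84_E1 D q.coeff J := by
  rw [Polynomial.aeval_eq_sum_range' (Nat.lt_succ_of_le hq), h84_E1]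
  refine Finset.sum_congr rfl fun a _ => ?_
  rw [Algebra.smul_def, h1_algebraMap_eq_single]

theorem h84_sum_aeval_eq_E2 (n D : ℕ) (p : Fin n → Polynomial R)
    (hp : ∀ i, (p i).natDegree ≤ D) (J Y : LaurentSeries R) :
    ∑ i, Polynomial.aeval J (p i) * Y ^ (i : ℕ) =
      h84_E2 n D (fun a b => if h : b < n then (p ⟨b, h⟩).coeff a else 0) J Y := by
  rw [Finset.sum_fin_eq_sum_range, h84_E2]
  refine Finset.sum_congr rfl fun b hb => ?_
  have hb' : b < n := Finset.mem_range.1 hb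
  rw [dif_pos hb', h84_aeval_eq_E1 D _ (hp ⟨b, hb'⟩), h84_E1, Finset.sum_mul]
  refine Finset.sum_congr rfl fun a _ => ?_
  rw [dif_pos hb', mul_assoc]

theorem h84_E2_eq_zero (n D : ℕ) (T : ℕ → ℕ → R) (J Y : LaurentSeries R)
    (h : ∀ b ∈ Finset.range n, ∀ a ∈ Finset.range (D + 1), T a b = 0) :
    h84_E2 n D T J Y = 0 := by
  rw [h84_E2]
  refine Finset.sum_eq_zero fun b hb => Finset.sum_eq_zero fun a ha => ?_
  rw [h b hb a ha, HahnSeries.single_eq_zero, zero_mul]

/-- membership of table sums in an intermediate field. -/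
theorem h84_E2_mem {k : Type*} [Field k] (Fb : IntermediateField k (LaurentSeries k))
    (n D : ℕ) (T : ℕ → ℕ → k) {J Y : LaurentSeries k} (hJ : J ∈ Fb) (hY : Y ∈ Fb) :
    h84_E2 n D T J Y ∈ Fb := by
  rw [h84_E2]
  refine Fb.sum_mem fun b _ => Fb.sum_mem fun a _ => Fb.mul_mem ?_
    (Fb.mul_mem (Fb.pow_mem hJ a) (Fb.pow_mem hY b))
  rw [← h1_algebraMap_eq_single]
  exact Fb.algebraMap_mem _

end Tables

/-! ### Maximal valuation in a finite family -/

/-- In a finite family of elements of a field, not all zero, some nonzero member divides all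
the others in a given valuation ring. -/
theorem h84_exists_max {K : Type*} [Field K] (A : ValuationSubring K) {ι : Type*} (s : Finset ι)
    (x : ι → K) (hx : ∃ i ∈ s, x i ≠ 0) :
    ∃ i₀ ∈ s, x i₀ ≠ 0 ∧ ∀ i ∈ s, x i / x i₀ ∈ A := by
  obtain ⟨i₁, hi₁, hxi₁⟩ := hx
  obtain ⟨i₀, hi₀, hmax⟩ := Finset.exists_max_image s (fun i => A.valuation (x i)) ⟨i₁, hi₁⟩
  have hpos : 0 < A.valuation (x i₀) := by
    refine lt_of_lt_of_le ?_ (hmax i₁ hi₁)
    rw [zero_lt_iff, Ne, map_eq_zero]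
    exact hxi₁
  have hx0 : x i₀ ≠ 0 := by
    intro h
    rw [h, map_zero] at hpos
    exact lt_irrefl _ hpos
  refine ⟨i₀, hi₀, hx0, fun i hi => ?_⟩
  rw [← A.valuation_le_one_iff, map_div₀, div_le_one₀ hpos]
  exact hmax i hi

/-! ### Igusa: nonvanishing of table sums over the residue field -/

/-- Igusa's theorem in table form: a nonzero coefficient table of `Y`-degree `< [SL₂(ℤ):Γ₀(N)]`
gives a nonzero series in characteristic `ℓ ∤ N`. -/
theorem h84_E2_ne_zero (N : ℕ) [NeZero N] (ℓ : ℕ) [Fact ℓ.Prime] (hℓN : ¬ ℓ ∣ N)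
    (k : Type) [Field k] [CharP k ℓ] (n D : ℕ) (hn : n ≤ Nat.card (SL(2, ℤ) ⧸ Gamma0 N))
    (T : ℕ → ℕ → k) (hT : ∃ b ∈ Finset.range n, ∃ a ∈ Finset.range (D + 1), T a b ≠ 0) :
    h84_E2 n D T (jqModC k) (qExpand k N (jqModC k)) ≠ 0 := by
  obtain ⟨b₀, hb₀, a₀, ha₀, hne⟩ := hT
  have hb₀' : b₀ < n := Finset.mem_range.1 hb₀
  have ha₀' : a₀ < D + 1 := Finset.mem_range.1 ha₀
  obtain ⟨d, rfl⟩ : ∃ d, n = d + 1 := ⟨n - 1, by omega⟩
  have hH : h84_poly2 d D T ≠ 0 := by
    intro h0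
    have h1 := h84_poly2_coeff_coeff d D T a₀ b₀
    rw [h0, if_pos hb₀', if_pos ha₀'] at h1
    exact hne (by simpa using h1.symm)
  have hdeg : (h84_poly2 d D T).natDegree < Nat.card (SL(2, ℤ) ⧸ Gamma0 N) :=
    lt_of_le_of_lt (h84_poly2_natDegree_le d D T) (by omega)
  have hig := h84_igusa_field N ℓ hℓN k (h84_poly2 d D T) hH hdeg
  rw [h84_eval_expand (jqModC k) (qExpand k N (jqModC k)) (h84_poly2 d D T) d D
    (h84_poly2_natDegree_le d D T) (fun b => h84_poly2_coeff_natDegree_le d D T b)] at hig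
  intro h0
  apply hig
  rw [← h0, h84_E2]
  refine Finset.sum_congr rfl fun b hb => Finset.sum_congr rfl fun a ha => ?_
  rw [h84_poly2_coeff_coeff, if_pos (Finset.mem_range.1 hb), if_pos (Finset.mem_range.1 ha)]

/-! ### (REP) -/

/-- The core of (REP), for an abstract number `n ≤ [SL₂(ℤ) : Γ₀(N)]` of powers of `Y`. -/
theorem h84_rep_core (N : ℕ) [NeZero N] {ℓ : ℕ} [Fact ℓ.Prime] (hℓN : ¬ ℓ ∣ N)
    (A : ValuationSubring (AlgebraicClosure ℚ)) (hA : A.LiesOverPrime ℓ)
    (n : ℕ) (hn : n ≤ Nat.card (SL(2, ℤ) ⧸ Gamma0 N))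
    (f : LaurentSeries (AlgebraicClosure ℚ)) (hfL : f ≠ 0)
    (p : Fin n → Polynomial (AlgebraicClosure ℚ)) (q : Polynomial (AlgebraicClosure ℚ))
    (hq : q ≠ 0)
    (hrel : Polynomial.aeval (jqModC (AlgebraicClosure ℚ)) q * f =
      ∑ i, Polynomial.aeval (jqModC (AlgebraicClosure ℚ)) (p i) *
        qExpand (AlgebraicClosure ℚ) N (jqModC (AlgebraicClosure ℚ)) ^ (i : ℕ)) :
    ∃ (c : AlgebraicClosure ℚ) (y₁ y₂ : LaurentSeries A), c ≠ 0 ∧
      coeffMap (IsLocalRing.residue A) y₁ ≠ 0 ∧ coeffMap (IsLocalRing.residue A) y₂ ≠ 0 ∧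
      coeffMap (IsLocalRing.residue A) y₁ ∈
        modularFunctionFieldFullC (IsLocalRing.ResidueField A) N ∧
      coeffMap (IsLocalRing.residue A) y₂ ∈
        modularFunctionFieldFullC (IsLocalRing.ResidueField A) N ∧
      f * coeffMap A.subtype y₂ =
        algebraMap (AlgebraicClosure ℚ) (LaurentSeries (AlgebraicClosure ℚ)) c *
          coeffMap A.subtype y₁ := by
  classical
  have : CharP (IsLocalRing.ResidueField A) ℓ := h19_residueField_charP A ℓ hA
  have hnpos : 0 < Nat.card (SL(2, ℤ) ⧸ Gamma0 N) := h54_card_pos N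
  -- a common degree bound
  obtain ⟨D, hDq, hDp⟩ : ∃ D : ℕ, q.natDegree ≤ D ∧ ∀ i, (p i).natDegree ≤ D :=
    ⟨max q.natDegree (Finset.univ.sup fun i => (p i).natDegree), le_max_left _ _,
      fun i => le_trans (Finset.le_sup (f := fun i => (p i).natDegree) (Finset.mem_univ i))
        (le_max_right _ _)⟩
  set T : ℕ → ℕ → AlgebraicClosure ℚ :=
    fun a b => if h : b < n then (p ⟨b, h⟩).coeff a else 0 with hT
  rw [h84_aeval_eq_E1 D q hDq, h84_sum_aeval_eq_E2 n D p hDp] at hrel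
  have hqJ : h84_E1 D q.coeff (jqModC (AlgebraicClosure ℚ)) ≠ 0 := by
    rw [← h84_aeval_eq_E1 D q hDq]
    exact h73_aeval_jqModC_ne_zero _ hq
  have hR : h84_E2 n D T (jqModC (AlgebraicClosure ℚ))
      (qExpand (AlgebraicClosure ℚ) N (jqModC (AlgebraicClosure ℚ))) ≠ 0 := by
    rw [← hrel]
    exact mul_ne_zero hqJ hfL
  -- maximal coefficients
  obtain ⟨a₂, ha₂, hc₂, hmax₂⟩ := h84_exists_max A (Finset.range (D + 1)) q.coeff (by
    by_contra hcon
    push Not at hcon
    apply hq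
    ext a
    rw [Polynomial.coeff_zero]
    by_cases ha : a ∈ Finset.range (D + 1)
    · exact hcon a ha
    · exact Polynomial.coeff_eq_zero_of_natDegree_lt
        (lt_of_le_of_lt hDq (by rw [Finset.mem_range] at ha; omega)))
  obtain ⟨ab₁, hab₁, hc₁, hmax₁⟩ := h84_exists_max A
    (Finset.range (D + 1) ×ˢ Finset.range n) (fun ab : ℕ × ℕ => T ab.1 ab.2) (by
      by_contra hcon
      push Not at hcon
      exact hR (h84_E2_eq_zero n D T _ _ fun b hb a ha =>
        hcon (a, b) (Finset.mem_product.2 ⟨ha, hb⟩)))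
  obtain ⟨ha₁, hb₁⟩ := Finset.mem_product.1 hab₁
  set c₂ := q.coeff a₂ with hc₂def
  set c₁ := T ab₁.1 ab₁.2 with hc₁def
  -- integral tables
  let t₂ : ℕ → A := fun a => if h : q.coeff a / c₂ ∈ A then ⟨q.coeff a / c₂, h⟩ else 0
  let T₁ : ℕ → ℕ → A := fun a b => if h : T a b / c₁ ∈ A then ⟨T a b / c₁, h⟩ else 0
  have ht₂ : ∀ a ∈ Finset.range (D + 1), ((t₂ a : A) : AlgebraicClosure ℚ) = q.coeff a / c₂ :=
    fun a ha => by
      show ((if h : q.coeff a / c₂ ∈ A then (⟨q.coeff a / c₂, h⟩ : A) else 0 : A) :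
        AlgebraicClosure ℚ) = _
      rw [dif_pos (hmax₂ a ha)]
  have hT₁ : ∀ b ∈ Finset.range n, ∀ a ∈ Finset.range (D + 1),
      ((T₁ a b : A) : AlgebraicClosure ℚ) = T a b / c₁ := fun b hb a ha => by
    show ((if h : T a b / c₁ ∈ A then (⟨T a b / c₁, h⟩ : A) else 0 : A) :
      AlgebraicClosure ℚ) = _
    rw [dif_pos (hmax₁ (a, b) (Finset.mem_product.2 ⟨ha, hb⟩))]
  have ht₂one : t₂ a₂ = 1 := by
    apply Subtype.ext
    rw [ht₂ a₂ ha₂, div_self hc₂]
    rfl
  have hT₁one : T₁ ab₁.1 ab₁.2 = 1 := by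
    apply Subtype.ext
    rw [hT₁ ab₁.2 hb₁ ab₁.1 ha₁, div_self hc₁]
    rfl
  -- the integral series
  let y₂ : LaurentSeries A := h84_E1 D t₂ (jqModC A)
  let y₁ : LaurentSeries A := h84_E2 n D T₁ (jqModC A) (qExpand A N (jqModC A))
  have hsub₂ : HahnSeries.single 0 c₂ * coeffMap A.subtype y₂ =
      h84_E1 D q.coeff (jqModC (AlgebraicClosure ℚ)) := by
    show HahnSeries.single 0 c₂ * coeffMap A.subtype (h84_E1 D t₂ (jqModC A)) = _
    rw [h84_coeffMap_E1, coeffMap_jqModC, ← h84_E1_scale]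
    refine h84_E1_congr D _ fun a ha => ?_
    show c₂ * ((t₂ a : A) : AlgebraicClosure ℚ) = q.coeff a
    rw [ht₂ a ha, mul_div_cancel₀ _ hc₂]
  have hsub₁ : HahnSeries.single 0 c₁ * coeffMap A.subtype y₁ =
      h84_E2 n D T (jqModC (AlgebraicClosure ℚ))
        (qExpand (AlgebraicClosure ℚ) N (jqModC (AlgebraicClosure ℚ))) := by
    show HahnSeries.single 0 c₁ * coeffMap A.subtype
      (h84_E2 n D T₁ (jqModC A) (qExpand A N (jqModC A))) = _
    rw [h84_coeffMap_E2, coeffMap_qExpand, coeffMap_jqModC, ← h84_E2_scale]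
    refine h84_E2_congr n D _ _ fun b hb a ha => ?_
    show c₁ * ((T₁ a b : A) : AlgebraicClosure ℚ) = T a b
    rw [hT₁ b hb a ha, mul_div_cancel₀ _ hc₁]
  -- the reductions
  have hbar₂ : coeffMap (IsLocalRing.residue A) y₂ =
      h84_E2 1 D (fun a _ => IsLocalRing.residue A (t₂ a)) (jqModC (IsLocalRing.ResidueField A))
        (qExpand (IsLocalRing.ResidueField A) N (jqModC (IsLocalRing.ResidueField A))) := by
    show coeffMap (IsLocalRing.residue A) (h84_E1 D t₂ (jqModC A)) = _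
    rw [h84_coeffMap_E1, coeffMap_jqModC, h84_E1_eq_E2]
  have hbar₁ : coeffMap (IsLocalRing.residue A) y₁ =
      h84_E2 n D (fun a b => IsLocalRing.residue A (T₁ a b))
        (jqModC (IsLocalRing.ResidueField A))
        (qExpand (IsLocalRing.ResidueField A) N (jqModC (IsLocalRing.ResidueField A))) := by
    show coeffMap (IsLocalRing.residue A)
      (h84_E2 n D T₁ (jqModC A) (qExpand A N (jqModC A))) = _
    rw [h84_coeffMap_E2, coeffMap_qExpand, coeffMap_jqModC]
  have hJmem : jqModC (IsLocalRing.ResidueField A) ∈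
      modularFunctionFieldFullC (IsLocalRing.ResidueField A) N := jqModC_mem_full _ N
  have hYmem : qExpand (IsLocalRing.ResidueField A) N (jqModC (IsLocalRing.ResidueField A)) ∈
      modularFunctionFieldFullC (IsLocalRing.ResidueField A) N := jqModCd_mem_full _ N dvd_rfl
  refine ⟨c₂⁻¹ * c₁, y₁, y₂, mul_ne_zero (inv_ne_zero hc₂) hc₁, ?_, ?_, ?_, ?_, ?_⟩
  · rw [hbar₁]
    refine h84_E2_ne_zero N ℓ hℓN _ n D hn _ ⟨ab₁.2, hb₁, ab₁.1, ha₁, ?_⟩
    show IsLocalRing.residue A (T₁ ab₁.1 ab₁.2) ≠ 0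
    rw [hT₁one, map_one]
    exact one_ne_zero
  · rw [hbar₂]
    refine h84_E2_ne_zero N ℓ hℓN _ 1 D hnpos _ ⟨0, Finset.mem_range.2 Nat.one_pos, a₂, ha₂, ?_⟩
    show IsLocalRing.residue A (t₂ a₂) ≠ 0
    rw [ht₂one, map_one]
    exact one_ne_zero
  · rw [hbar₁]
    exact h84_E2_mem _ n D _ hJmem hYmem
  · rw [hbar₂]
    exact h84_E2_mem _ 1 D _ hJmem hYmem
  · -- the identity
    rw [← hsub₂, ← hsub₁] at hrel
    have hC : (HahnSeries.single 0 c₂⁻¹ : LaurentSeries (AlgebraicClosure ℚ)) *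
        HahnSeries.single 0 c₂ = 1 := by
      rw [HahnSeries.single_mul_single, zero_add, inv_mul_cancel₀ hc₂]
      rfl
    rw [algebraMap_laurentSeries_eq_single, h84_single_mul]
    calc f * coeffMap A.subtype y₂
        = (HahnSeries.single 0 c₂⁻¹ * HahnSeries.single 0 c₂) *
            (f * coeffMap A.subtype y₂) := by
          rw [hC, one_mul]
      _ = HahnSeries.single 0 c₂⁻¹ * (HahnSeries.single 0 c₂ * coeffMap A.subtype y₂ * f) := by
          ring
      _ = HahnSeries.single 0 c₂⁻¹ * (HahnSeries.single 0 c₁ * coeffMap A.subtype y₁) := by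
          rw [hrel]
      _ = HahnSeries.single 0 c₂⁻¹ * HahnSeries.single 0 c₁ * coeffMap A.subtype y₁ := by ring

/-- **(REP)**: every nonzero element of `F(N)` is `c · y₁ / y₂` with `A`-integral `y₁, y₂` whose
reductions are nonzero elements of `Fb(N)`. -/
theorem h84_rep (N : ℕ) [NeZero N] {ℓ : ℕ} [Fact ℓ.Prime] (hℓN : ¬ ℓ ∣ N)
    (A : ValuationSubring (AlgebraicClosure ℚ)) (hA : A.LiesOverPrime ℓ) : h60_Rep N A := by
  intro f hf
  obtain ⟨p, q, hq, hrel⟩ := h69_exists_repr N f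
  exact h84_rep_core N hℓN A hA _ le_rfl (f : LaurentSeries (AlgebraicClosure ℚ))
    (fun h => hf (Subtype.ext h)) p q hq hrel

/-- **IG-C**: the modular reduction datum with helper54's four characterising properties. -/
theorem h84_exists_redDatum (N : ℕ) [NeZero N] {ℓ : ℕ} [Fact ℓ.Prime] (hℓN : ¬ ℓ ∣ N)
    (A : ValuationSubring (AlgebraicClosure ℚ)) (hA : A.LiesOverPrime ℓ) :
    ∃ R : h39_RedDatum (AlgebraicClosure ℚ) (modularFunctionFieldBar N)
        (IsLocalRing.ResidueField A) (modularFunctionFieldFullC (IsLocalRing.ResidueField A) N),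
      h54_IsModRed N A R :=
  h60_exists_redDatum_of_rep N A (h84_rep N hℓN A hA)

end Fermat.Agent.S18
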