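import Mathlib
import Fermat.Agent.S18.h3_ChartH
import Fermat.Agent.S18.h84_ModRep
import Fermat.Agent.S18.h59_Rep
import Fermat.Agent.S18.h59_HFFinal

/-!
S18 MOD wrapper (helper60, hedge for `h54_Mod.lean`): the reduction datum of `F(N)`, the weak chart `j`,
and the charts `j` (`ℓ ≥ 5`), `h₂` (`2 ∣ N`), `h₃` (`3 ∣ N`), all unconditional.
-/

set_option autoImplicit false
set_option synthInstance.maxHeartbeats 400000

noncomputable section

open ModularCurve AlgebraicCurve IntermediateField CongruenceSubgroup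
open scoped MatrixGroups

namespace Fermat.Agent.S18

open Fermat.Agent.S24 Fermat.Agent.S28

local notation "Qb" => AlgebraicClosure ℚ

/-- (M1) the reduction datum of `F(N)` at a place of `Qb` over `ℓ ∤ N`. -/
def h60m_redDatum (N : ℕ) [NeZero N] {ℓ : ℕ} [Fact ℓ.Prime] (hℓN : ¬ ℓ ∣ N)
    (A : ValuationSubring Qb) (hA : A.LiesOverPrime ℓ) :
    h39_RedDatum Qb ↥(modularFunctionFieldBar N) (IsLocalRing.ResidueField A)
      ↥(modularFunctionFieldFullC (IsLocalRing.ResidueField A) N) :=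
  (h84_exists_redDatum N hℓN A hA).choose

theorem h60m_isModRed (N : ℕ) [NeZero N] {ℓ : ℕ} [Fact ℓ.Prime] (hℓN : ¬ ℓ ∣ N)
    (A : ValuationSubring Qb) (hA : A.LiesOverPrime ℓ) :
    h54_IsModRed N A (h60m_redDatum N hℓN A hA) :=
  (h84_exists_redDatum N hℓN A hA).choose_spec

theorem h60m_finrank_fb (N : ℕ) [NeZero N] {ℓ : ℕ} [Fact ℓ.Prime] (hℓN : ¬ ℓ ∣ N)
    (A : ValuationSubring Qb) (hA : A.LiesOverPrime ℓ) :
    Module.finrank (IsLocalRing.ResidueField A)⟮h54_jk (IsLocalRing.ResidueField A) N⟯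
        ↥(modularFunctionFieldFullC (IsLocalRing.ResidueField A) N)
      = Nat.card (SL(2, ℤ) ⧸ Gamma0 N) :=
  h59_finrank_fb_of N hℓN A hA _ (h60m_isModRed N hℓN A hA)

theorem h60m_separable_fb (N : ℕ) [NeZero N] {ℓ : ℕ} [Fact ℓ.Prime] (hℓN : ¬ ℓ ∣ N)
    (A : ValuationSubring Qb) (hA : A.LiesOverPrime ℓ) :
    Algebra.IsSeparable
      (IsLocalRing.ResidueField A)⟮h54_jk (IsLocalRing.ResidueField A) N⟯
        ↥(modularFunctionFieldFullC (IsLocalRing.ResidueField A) N) := by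
  have : CharP (IsLocalRing.ResidueField A) ℓ := h19_residueField_charP A ℓ hA
  have : IsAlgClosed (IsLocalRing.ResidueField A) := h19_residueField_isAlgClosed A
  exact h54_separable_fb_of N ℓ hℓN _ (h60m_finrank_fb N hℓN A hA)

/-- (M1w) `j` is a weak chart for EVERY prime `ℓ ∤ N`. -/
theorem h60m_weakChart_j (N : ℕ) [NeZero N] {ℓ : ℕ} [Fact ℓ.Prime] (hℓN : ¬ ℓ ∣ N)
    (A : ValuationSubring Qb) (hA : A.LiesOverPrime ℓ) :
    h39_WeakChart (h60m_redDatum N hℓN A hA) (h59_jbar N) := by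
  have h := h60m_isModRed N hℓN A hA
  have hred := h54_redF_jbar h
  refine ⟨h.mem_of_integral _ _ (h54_coe_jbar N A), ?_, h78_finiteDimensional N, ?_, ?_⟩
  · rw [hred]
    exact h54_jk_transcendental _ N
  · rw [hred, h60m_finrank_fb N hℓN A hA, h78_finrank]
  · rw [hred]
    exact h60m_separable_fb N hℓN A hA

/-- (M2) `j` is a chart for `ℓ ≥ 5`. -/
theorem h60m_chart_j (N : ℕ) [NeZero N] {ℓ : ℕ} [Fact ℓ.Prime] (hℓN : ¬ ℓ ∣ N) (hℓ : 5 ≤ ℓ)
    (A : ValuationSubring Qb) (hA : A.LiesOverPrime ℓ) :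
    h39_Chart (h60m_redDatum N hℓN A hA) (h59_jbar N) :=
  h54_chart_j_of N hℓ A hA (h60m_isModRed N hℓN A hA) (h60m_finrank_fb N hℓN A hA)
    (h60m_separable_fb N hℓN A hA)

/-- `h₂` as an element of `F N`, `2 ∣ N`. -/
def h60m_h2bar (N : ℕ) [NeZero N] (h2 : 2 ∣ N) : ↥(modularFunctionFieldBar N) :=
  ⟨h54_hm2 Qb, h59_hm2_mem_bar_final N h2⟩

/-- `h₃` as an element of `F N`, `3 ∣ N`. -/
def h60m_h3bar (N : ℕ) [NeZero N] (h3 : 3 ∣ N) : ↥(modularFunctionFieldBar N) :=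
  ⟨h54_hm3 Qb, h59_hm3_mem_bar_final N h3⟩

/-- (M3) `h₂` is a chart when `2 ∣ N` (so `ℓ ≠ 2`). -/
theorem h60m_chart_h2 (N : ℕ) [NeZero N] (h2 : 2 ∣ N) {ℓ : ℕ} [Fact ℓ.Prime] (hℓN : ¬ ℓ ∣ N)
    (A : ValuationSubring Qb) (hA : A.LiesOverPrime ℓ) :
    h39_Chart (h60m_redDatum N hℓN A hA) (h60m_h2bar N h2) := by
  have hℓ2 : ℓ ≠ 2 := fun h => hℓN (h ▸ h2)
  have : CharP (IsLocalRing.ResidueField A) ℓ := h19_residueField_charP A ℓ hA
  exact h3_chart_h2_of N hℓ2 A hA (h60m_isModRed N hℓN A hA) (h60m_h2bar N h2) rfl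
    (h59_h2k_mem_final _ N h2 hℓ2) (h59_h2_finrank_final N h2).1 (h59_h2_finrank_final N h2).2
    (h59_h2k_finrank_final _ N h2 hℓ2) (h60m_finrank_fb N hℓN A hA)
    (h60m_separable_fb N hℓN A hA)

/-- (M4) `h₃` is a chart when `3 ∣ N` (so `ℓ ≠ 3`). -/
theorem h60m_chart_h3 (N : ℕ) [NeZero N] (h3 : 3 ∣ N) {ℓ : ℕ} [Fact ℓ.Prime] (hℓN : ¬ ℓ ∣ N)
    (A : ValuationSubring Qb) (hA : A.LiesOverPrime ℓ) :
    h39_Chart (h60m_redDatum N hℓN A hA) (h60m_h3bar N h3) := by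
  have hℓ3 : ℓ ≠ 3 := fun h => hℓN (h ▸ h3)
  have : CharP (IsLocalRing.ResidueField A) ℓ := h19_residueField_charP A ℓ hA
  exact h3_chart_h3_of N hℓ3 A hA (h60m_isModRed N hℓN A hA) (h60m_h3bar N h3) rfl
    (h59_h3k_mem_final _ N h3 hℓ3) (h59_h3_finrank_final N h3).1 (h59_h3_finrank_final N h3).2
    (h59_h3k_finrank_final _ N h3 hℓ3) (h60m_finrank_fb N hℓN A hA)
    (h60m_separable_fb N hℓN A hA)

end Fermat.Agent.S18

end
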