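/-
S18 TOP (helper60): the frozen S18 statement from the project interface `h39_RedDatum`
(on top of `h60_Red`), plus the small generic glue lemmas the top assembly needs:

* `h60_exists_divisor_of_dvd` : orders all divisible by `m` ⟹ `div u = m • D` for a divisor `D`;
* `h60_pow_of_coprime`        : `g ^ m = u ^ e`, `gcd(e, m) = 1` ⟹ `u` is an `m`-th power;
* `h60_const_of_finrank_rr_zero` : `dim L(0) = 1` ⟹ functions without zeros and poles are
  constants (the hypothesis `hconst` of `h60_Red`);
* `h60_isChart_bar` : a weak chart `x` gives the chart `x̄` of the reduced function field;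
* `h60_S18_of_h39` : the frozen conclusion from a reduction datum `R : h39_RedDatum` compatible
  with coefficientwise reduction, `hconst`, and "`red u = 1`, `m ∣ ord_P u` for all `P`
  ⟹ `u` is an `m`-th power".
-/
import Mathlib
import Fermat.Agent.S18.h60_Red
import Fermat.Agent.S18.Defs
import Fermat.Agent.S18.h75_RRDefs

set_option autoImplicit false
set_option synthInstance.maxHeartbeats 400000

noncomputable section

open HahnSeries IntermediateField AlgebraicCurve ModularCurve

namespace Fermat.Agent.S18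

section Generic

variable {K F : Type*} [Field K] [Field F] [Algebra K F]

/-- A function all of whose orders are divisible by `m ≠ 0` has divisor `m • D`. -/
theorem h60_exists_divisor_of_dvd [HasPrincipalDivisors K F] (u : F) (hu : u ≠ 0) (m : ℕ)
    (hdvd : ∀ P : Place K F, (m : ℤ) ∣ P.ord u) :
    ∃ D : Divisor K F, ∀ P : Place K F, P.ord u = m * D P := by
  obtain ⟨E, hE, -⟩ := HasPrincipalDivisors.exists_divisor (K := K) u hu
  have hsupp : ∀ P : Place K F, P.ord u / (m : ℤ) ≠ 0 → P ∈ E.support := by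
    intro P hP
    rw [Finsupp.mem_support_iff, hE P]
    intro h0
    exact hP (by rw [h0, Int.zero_ediv])
  obtain ⟨D, hD⟩ : ∃ D : Divisor K F, ∀ P, D P = P.ord u / (m : ℤ) :=
    ⟨Finsupp.onFinset E.support (fun P => P.ord u / (m : ℤ)) hsupp, fun P => rfl⟩
  exact ⟨D, fun P => by rw [hD P]; exact (Int.mul_ediv_cancel' (hdvd P)).symm⟩

/-- Coprime exponents: `g ^ m = u ^ e` with `gcd(e, m) = 1` makes `u` an `m`-th power. -/
theorem h60_pow_of_coprime {E : Type*} [Field E] {u g : E} {m e : ℕ} (hu : u ≠ 0)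
    (h : g ^ m = u ^ e) (hcop : Nat.Coprime e m) : ∃ g' : E, g' ^ m = u := by
  obtain ⟨a, b, hab⟩ : ∃ a b : ℤ, a * (e : ℤ) + b * (m : ℤ) = 1 :=
    Nat.isCoprime_iff_coprime.mpr hcop
  refine ⟨g ^ a * u ^ b, ?_⟩
  have h1 : (g ^ a) ^ m = u ^ ((e : ℤ) * a) := by
    rw [← zpow_natCast (g ^ a) m, ← zpow_mul, mul_comm, zpow_mul, zpow_natCast, h,
      ← zpow_natCast u e, ← zpow_mul]
  have h2 : (u ^ b) ^ m = u ^ (b * (m : ℤ)) := by
    rw [← zpow_natCast (u ^ b) m, ← zpow_mul]
  rw [mul_pow, h1, h2, ← zpow_add₀ hu]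
  have h3 : (e : ℤ) * a + b * (m : ℤ) = 1 := by linarith
  rw [h3, zpow_one]

/-- If `L(0)` is one-dimensional, a function without zeros and poles is a constant. -/
theorem h60_const_of_finrank_rr_zero
    (h1 : Module.finrank K ↥(riemannRochSpace (0 : Divisor K F)) = 1)
    (g : F) (hord : ∀ Q : Place K F, Q.ord g = 0) : ∃ c : K, g = algebraMap K F c := by
  have hg : g ∈ riemannRochSpace (0 : Divisor K F) := by
    rw [mem_riemannRochSpace_iff]
    intro v
    right
    rw [hord v]
    simp
  have hone : (1 : F) ∈ riemannRochSpace (0 : Divisor K F) := by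
    rw [mem_riemannRochSpace_iff]
    intro v
    right
    simp
  have hne : (⟨1, hone⟩ : ↥(riemannRochSpace (0 : Divisor K F))) ≠ 0 := by
    intro h0
    exact one_ne_zero (congrArg Subtype.val h0)
  obtain ⟨c, hc⟩ := (finrank_eq_one_iff_of_nonzero' _ hne).mp h1 ⟨g, hg⟩
  refine ⟨c, ?_⟩
  have h2 := congrArg Subtype.val hc
  simp only [Submodule.coe_smul] at h2
  rw [← h2, Algebra.smul_def, mul_one]

end Generic

section Chart

variable {K F k Fb : Type*} [Field K] [Field F] [Algebra K F] [Field k] [Field Fb] [Algebra k Fb]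

/-- A weak chart `x` of a reduction datum gives a chart `x̄ = red x` of the reduced field. -/
theorem h60_isChart_bar (R : h39_RedDatum K F k Fb) {x : F} (hx : h39_WeakChart R x) :
    h75_IsChart k (R.redF x) := by
  refine ⟨hx.transcendental, ?_, hx.separable⟩
  have hfin := hx.finite
  have hpos : 0 < Module.finrank K⟮x⟯ F := Module.finrank_pos
  rw [← hx.finrank_eq] at hpos
  exact Module.finite_of_finrank_pos hpos

end Chart

section Top

/-- **S18 from the project interface.**  `R` is a reduction datum for `F = F(N)` over `Qb`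
compatible with the coefficientwise reduction of the Prelude's integral Laurent series
(`hcompat`); functions of `Fk` without zeros and poles are constant (`hconst`); and every `u ∈ R.O`
with `red u = 1` all of whose orders are divisible by `m` is an `m`-th power (`hpow`).
Then the frozen conclusion holds. -/
theorem h60_S18_of_h39 (N : ℕ) [NeZero N] (A : ValuationSubring (AlgebraicClosure ℚ))
    [HasPrincipalDivisors (AlgebraicClosure ℚ) (modularFunctionFieldBar N)]
    (h : ReductionInputsModL A N) (m : ℕ) (hm0 : m ≠ 0)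
    (R : h39_RedDatum (AlgebraicClosure ℚ) (modularFunctionFieldBar N)
      (IsLocalRing.ResidueField A) (modularFunctionFieldFullC (IsLocalRing.ResidueField A) N))
    (hcompat : ∀ (y : LaurentSeries A) (hy : h60_IsInt N A y),
      ∃ hmem : h60_up y hy ∈ R.O, R.red ⟨h60_up y hy, hmem⟩ = h60_dn y hy)
    (hconst : ∀ g : modularFunctionFieldFullC (IsLocalRing.ResidueField A) N, g ≠ 0 →
      (∀ Q : Place (IsLocalRing.ResidueField A)
          (modularFunctionFieldFullC (IsLocalRing.ResidueField A) N), Q.ord g = 0) →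
      ∃ c : IsLocalRing.ResidueField A,
        g = algebraMap (IsLocalRing.ResidueField A)
          (modularFunctionFieldFullC (IsLocalRing.ResidueField A) N) c)
    (hpow : ∀ (u : modularFunctionFieldBar N) (hu : u ∈ R.O), R.red ⟨u, hu⟩ = 1 →
      (∀ P : Place (AlgebraicClosure ℚ) (modularFunctionFieldBar N), (m : ℤ) ∣ P.ord u) →
      ∃ g : modularFunctionFieldBar N, g ^ m = u)
    (z : JZero N) (hmz : m • z = 0) (hz : reductionModL A N z = 0) : z = 0 := by
  refine h60_S18_of_datum N A h m hm0 R.O R.red (fun y => ?_) hcompat hconst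
    (fun D u hu1 hu => ?_) z hmz hz
  · rw [ValuationSubring.coe_mem_nonunits_iff,
      ← IsLocalRing.ker_eq_maximalIdeal R.red R.red_surjective, RingHom.mem_ker]
  · obtain ⟨g, hg⟩ := hpow (u : modularFunctionFieldBar N) u.2 hu1 (fun P => ⟨D P, hu P⟩)
    have hu0 : (u : modularFunctionFieldBar N) ≠ 0 := by
      intro h0
      have h1 : u = 0 := Subtype.ext h0
      rw [h1, map_zero] at hu1
      exact zero_ne_one hu1
    have hg0 : g ≠ 0 := by
      rintro rfl
      rw [zero_pow hm0] at hg
      exact hu0 hg.symm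
    refine ⟨g, hg0, fun P => ?_⟩
    have h1 : P.ord (u : modularFunctionFieldBar N) = m * P.ord g := by
      rw [← hg, h60_ord_pow]
    exact mul_left_cancel₀ (Nat.cast_ne_zero.mpr hm0 : (m : ℤ) ≠ 0) ((hu P).symm.trans h1)

/-- `R` is the *standard* reduction datum of level `N` at `A` (helper54's (M1) characterisation):
`R.O` consists of the ratios `y₁ / y₂` of `A`-integral `q`-series with `ȳ₂ ≠ 0`, and `R.red` is
the coefficientwise reduction of such ratios. -/
def h60_IsStd (N : ℕ) (A : ValuationSubring (AlgebraicClosure ℚ))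
    (R : h39_RedDatum (AlgebraicClosure ℚ) (modularFunctionFieldBar N)
      (IsLocalRing.ResidueField A) (modularFunctionFieldFullC (IsLocalRing.ResidueField A) N)) :
    Prop :=
  (∀ f : modularFunctionFieldBar N, f ∈ R.O ↔ ∃ y₁ y₂ : LaurentSeries A,
      coeffMap (IsLocalRing.residue A) y₂ ≠ 0 ∧
        (f : LaurentSeries (AlgebraicClosure ℚ)) * coeffMap A.subtype y₂ =
          coeffMap A.subtype y₁) ∧
  (∀ (f : modularFunctionFieldBar N) (hf : f ∈ R.O) (y₁ y₂ : LaurentSeries A),
      (f : LaurentSeries (AlgebraicClosure ℚ)) * coeffMap A.subtype y₂ = coeffMap A.subtype y₁ →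
        ((R.red ⟨f, hf⟩ : modularFunctionFieldFullC (IsLocalRing.ResidueField A) N) :
            LaurentSeries (IsLocalRing.ResidueField A)) * coeffMap (IsLocalRing.residue A) y₂ =
          coeffMap (IsLocalRing.residue A) y₁)

/-- The standard reduction datum is compatible with the Prelude's integral Laurent series. -/
theorem h60_hcompat_of_isStd {N : ℕ} {A : ValuationSubring (AlgebraicClosure ℚ)}
    {R : h39_RedDatum (AlgebraicClosure ℚ) (modularFunctionFieldBar N)
      (IsLocalRing.ResidueField A) (modularFunctionFieldFullC (IsLocalRing.ResidueField A) N)}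
    (hR : h60_IsStd N A R) (y : LaurentSeries A) (hy : h60_IsInt N A y) :
    ∃ hmem : h60_up y hy ∈ R.O, R.red ⟨h60_up y hy, hmem⟩ = h60_dn y hy := by
  have hmul : ((h60_up y hy : modularFunctionFieldBar N) : LaurentSeries (AlgebraicClosure ℚ)) *
      coeffMap A.subtype 1 = coeffMap A.subtype y := by
    rw [map_one, mul_one]
    rfl
  have hmem : h60_up y hy ∈ R.O :=
    (hR.1 _).mpr ⟨y, 1, by rw [map_one]; exact one_ne_zero, hmul⟩
  refine ⟨hmem, Subtype.ext ?_⟩
  have h2 := hR.2 (h60_up y hy) hmem y 1 hmul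
  rw [map_one, mul_one] at h2
  rw [h2]
  rfl

/-- Level compatibility of standard reduction data: an element of `F(N)` which reduces to `1`
at level `N` lies in `R₁.O` and reduces to `1` at any level `N₁` with `F(N) ≤ F(N₁)`. -/
theorem h60_level_of_isStd {N N₁ : ℕ} {A : ValuationSubring (AlgebraicClosure ℚ)}
    (hle : modularFunctionFieldBar N ≤ modularFunctionFieldBar N₁)
    {R : h39_RedDatum (AlgebraicClosure ℚ) (modularFunctionFieldBar N)
      (IsLocalRing.ResidueField A) (modularFunctionFieldFullC (IsLocalRing.ResidueField A) N)}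
    {R₁ : h39_RedDatum (AlgebraicClosure ℚ) (modularFunctionFieldBar N₁)
      (IsLocalRing.ResidueField A) (modularFunctionFieldFullC (IsLocalRing.ResidueField A) N₁)}
    (hR : h60_IsStd N A R) (hR₁ : h60_IsStd N₁ A R₁)
    (u : LaurentSeries (AlgebraicClosure ℚ)) (hu : u ∈ modularFunctionFieldBar N)
    (hO : (⟨u, hu⟩ : modularFunctionFieldBar N) ∈ R.O)
    (h1 : R.red ⟨⟨u, hu⟩, hO⟩ = 1) :
    ∃ hO₁ : (⟨u, hle hu⟩ : modularFunctionFieldBar N₁) ∈ R₁.O,
      R₁.red ⟨⟨u, hle hu⟩, hO₁⟩ = 1 := by
  obtain ⟨y₁, y₂, hy₂, hmul⟩ := (hR.1 _).mp hO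
  have hO₁ : (⟨u, hle hu⟩ : modularFunctionFieldBar N₁) ∈ R₁.O :=
    (hR₁.1 _).mpr ⟨y₁, y₂, hy₂, hmul⟩
  refine ⟨hO₁, Subtype.ext ?_⟩
  have e1 := hR.2 ⟨u, hu⟩ hO y₁ y₂ hmul
  have e2 := hR₁.2 ⟨u, hle hu⟩ hO₁ y₁ y₂ hmul
  rw [h1] at e1
  have e3 : ((1 : modularFunctionFieldFullC (IsLocalRing.ResidueField A) N) :
      LaurentSeries (IsLocalRing.ResidueField A)) = 1 := rfl
  rw [e3, one_mul] at e1
  rw [← e1] at e2
  have e4 := mul_right_cancel₀ hy₂ (e2.trans (one_mul _).symm)
  rw [e4]
  rfl

/-- **S18 with level change.**  `R`, `R₁` standard reduction data at levels `N`, `N₁` with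
`F(N) ≤ F(N₁)`; at level `N₁` every `u ∈ R₁.O` with `red u = 1` and all orders divisible by `m` is
an `m`-th power (`hpow₁`, the generic theorem GT with a chart at level `N₁`); `m`-th roots at level
`N₁` of elements of `F(N)` descend to `m`-th roots of the `e`-th power (`hdesc`, norm descent),
`gcd(e, m) = 1`; divisibility of orders passes from level `N` to level `N₁` (`hord`).
Then the frozen conclusion holds at level `N`.  (`N₁ = N`, `e = 1` is the direct case.) -/
theorem h60_S18_of_level (N N₁ : ℕ) [NeZero N] (A : ValuationSubring (AlgebraicClosure ℚ))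
    [HasPrincipalDivisors (AlgebraicClosure ℚ) (modularFunctionFieldBar N)]
    (h : ReductionInputsModL A N) (m : ℕ) (hm0 : m ≠ 0) (e : ℕ) (hcop : Nat.Coprime e m)
    (hle : modularFunctionFieldBar N ≤ modularFunctionFieldBar N₁)
    (R : h39_RedDatum (AlgebraicClosure ℚ) (modularFunctionFieldBar N)
      (IsLocalRing.ResidueField A) (modularFunctionFieldFullC (IsLocalRing.ResidueField A) N))
    (hR : h60_IsStd N A R)
    (hconst : ∀ g : modularFunctionFieldFullC (IsLocalRing.ResidueField A) N, g ≠ 0 →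
      (∀ Q : Place (IsLocalRing.ResidueField A)
          (modularFunctionFieldFullC (IsLocalRing.ResidueField A) N), Q.ord g = 0) →
      ∃ c : IsLocalRing.ResidueField A,
        g = algebraMap (IsLocalRing.ResidueField A)
          (modularFunctionFieldFullC (IsLocalRing.ResidueField A) N) c)
    (R₁ : h39_RedDatum (AlgebraicClosure ℚ) (modularFunctionFieldBar N₁)
      (IsLocalRing.ResidueField A) (modularFunctionFieldFullC (IsLocalRing.ResidueField A) N₁))
    (hR₁ : h60_IsStd N₁ A R₁)
    (hpow₁ : ∀ (u : modularFunctionFieldBar N₁) (hu : u ∈ R₁.O), R₁.red ⟨u, hu⟩ = 1 →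
      (∀ P : Place (AlgebraicClosure ℚ) (modularFunctionFieldBar N₁), (m : ℤ) ∣ P.ord u) →
      ∃ g : modularFunctionFieldBar N₁, g ^ m = u)
    (hdesc : ∀ u g : LaurentSeries (AlgebraicClosure ℚ), u ∈ modularFunctionFieldBar N →
      g ∈ modularFunctionFieldBar N₁ → g ^ m = u →
      ∃ g' ∈ modularFunctionFieldBar N, g' ^ m = u ^ e)
    (hord : ∀ (u : LaurentSeries (AlgebraicClosure ℚ)) (hu : u ∈ modularFunctionFieldBar N),
      (∀ P : Place (AlgebraicClosure ℚ) (modularFunctionFieldBar N),
        (m : ℤ) ∣ P.ord (⟨u, hu⟩ : modularFunctionFieldBar N)) →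
      ∀ P' : Place (AlgebraicClosure ℚ) (modularFunctionFieldBar N₁),
        (m : ℤ) ∣ P'.ord (⟨u, hle hu⟩ : modularFunctionFieldBar N₁))
    (z : JZero N) (hmz : m • z = 0) (hz : reductionModL A N z = 0) : z = 0 := by
  refine h60_S18_of_h39 N A h m hm0 R (h60_hcompat_of_isStd hR) hconst
    (fun u hu hu1 hdvd => ?_) z hmz hz
  have hu0 : u ≠ 0 := by
    rintro rfl
    have h1 : (⟨0, hu⟩ : R.O) = 0 := rfl
    rw [h1, map_zero] at hu1
    exact zero_ne_one hu1
  obtain ⟨hO₁, h1⟩ := h60_level_of_isStd hle hR hR₁ u.1 u.2 hu hu1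
  obtain ⟨g, hg⟩ := hpow₁ ⟨u.1, hle u.2⟩ hO₁ h1 (hord u.1 u.2 hdvd)
  have hg' : (g : LaurentSeries (AlgebraicClosure ℚ)) ^ m = u.1 := congrArg Subtype.val hg
  obtain ⟨g', hg'mem, hg'pow⟩ := hdesc u.1 g.1 u.2 g.2 hg'
  exact h60_pow_of_coprime (u := u) (g := ⟨g', hg'mem⟩) hu0 (Subtype.ext hg'pow) hcop

end Top

end Fermat.Agent.S18
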