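/-
S18 STEP 0 in existential form (helper60), matching `h39_step0` of the S18 skeleton:
from the frozen hypotheses one gets a unit `u` of `R.O` with `redF u = 1` and `div u = m • D`
such that an `m`-th root of `u` forces `z = 0`.  (`R` is ANY reduction datum compatible with the
coefficientwise reduction of the Prelude's integral Laurent series.)
-/
import Mathlib
import Fermat.Agent.S18.h60_Top

set_option autoImplicit false
set_option synthInstance.maxHeartbeats 400000

noncomputable section

open HahnSeries IntermediateField AlgebraicCurve ModularCurve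

namespace Fermat.Agent.S18

/-- `hcompat` from the `redF` form of (M1c): elements of the Prelude's shape lie in `R.O` and
reduce coefficientwise. -/
theorem h60_hcompat_of_redF {N : ℕ} {A : ValuationSubring (AlgebraicClosure ℚ)}
    (R : h39_RedDatum (AlgebraicClosure ℚ) (modularFunctionFieldBar N)
      (IsLocalRing.ResidueField A) (modularFunctionFieldFullC (IsLocalRing.ResidueField A) N))
    (hM1c : ∀ (y : LaurentSeries A) (hy : coeffMap A.subtype y ∈ modularFunctionFieldBar N)
      (hyk : coeffMap (IsLocalRing.residue A) y ∈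
        modularFunctionFieldFullC (IsLocalRing.ResidueField A) N),
      (⟨coeffMap A.subtype y, hy⟩ : modularFunctionFieldBar N) ∈ R.O ∧
      R.redF (⟨coeffMap A.subtype y, hy⟩ : modularFunctionFieldBar N) =
        (⟨coeffMap (IsLocalRing.residue A) y, hyk⟩ :
          modularFunctionFieldFullC (IsLocalRing.ResidueField A) N))
    (y : LaurentSeries A) (hy : h60_IsInt N A y) :
    ∃ hmem : h60_up y hy ∈ R.O, R.red ⟨h60_up y hy, hmem⟩ = h60_dn y hy := by
  have hmem : h60_up y hy ∈ R.O := (hM1c y hy.1 hy.2.1).1
  have hred : R.redF (h60_up y hy) = h60_dn y hy := (hM1c y hy.1 hy.2.1).2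
  refine ⟨hmem, ?_⟩
  rw [← R.redF_of_mem hmem]
  exact hred

/-- **STEP 0, existential form** (the statement `h39_step0` of the skeleton, for a general
compatible reduction datum `R`). -/
theorem h60_step0 (N : ℕ) [NeZero N] (A : ValuationSubring (AlgebraicClosure ℚ))
    [HasPrincipalDivisors (AlgebraicClosure ℚ) (modularFunctionFieldBar N)]
    (h : ReductionInputsModL A N) (m : ℕ) (hm0 : m ≠ 0)
    (R : h39_RedDatum (AlgebraicClosure ℚ) (modularFunctionFieldBar N)
      (IsLocalRing.ResidueField A) (modularFunctionFieldFullC (IsLocalRing.ResidueField A) N))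
    (hcompat : ∀ (y : LaurentSeries A) (hy : h60_IsInt N A y),
      ∃ hmem : h60_up y hy ∈ R.O, R.red ⟨h60_up y hy, hmem⟩ = h60_dn y hy)
    (hconst : ∀ g : modularFunctionFieldFullC (IsLocalRing.ResidueField A) N, g ≠ 0 →
      (∀ Q : Place (IsLocalRing.ResidueField A)
          (modularFunctionFieldFullC (IsLocalRing.ResidueField A) N), Q.ord g = 0) →
      ∃ c : IsLocalRing.ResidueField A,
        g = algebraMap (IsLocalRing.ResidueField A)
          (modularFunctionFieldFullC (IsLocalRing.ResidueField A) N) c)
    (z : JZero N) (hmz : m • z = 0) (hz : reductionModL A N z = 0) :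
    ∃ (u : modularFunctionFieldBar N)
      (D : Divisor (AlgebraicClosure ℚ) (modularFunctionFieldBar N)),
      u ∈ R.O ∧ R.redF u = 1 ∧
      (∀ P : Place (AlgebraicClosure ℚ) (modularFunctionFieldBar N), P.ord u = m * D P) ∧
      ((∃ g : modularFunctionFieldBar N, g ^ m = u) → z = 0) := by
  by_cases hz0 : z = 0
  · refine ⟨1, 0, R.O.one_mem, ?_, fun P => by simp, fun _ => hz0⟩
    rw [R.redF_of_mem R.O.one_mem]
    exact map_one R.red
  · by_contra hcon
    push Not at hcon
    refine hz0 (h60_S18_of_h39 N A h m hm0 R hcompat hconst (fun u hu hu1 hdvd => ?_) z hmz hz)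
    have hu0 : u ≠ 0 := by
      rintro rfl
      have h1 : (⟨0, hu⟩ : R.O) = 0 := rfl
      rw [h1, map_zero] at hu1
      exact zero_ne_one hu1
    obtain ⟨D, hD⟩ := h60_exists_divisor_of_dvd u hu0 m hdvd
    exact (hcon u D hu (by rw [R.redF_of_mem hu]; exact hu1) hD).1

end Fermat.Agent.S18
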