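/-
S18 TOP, GT plug (helper60): the frozen S18 conclusion from the generic theorem GT (`h64_GT`)
applied at an auxiliary level `N₁` (with `F(N) ≤ F(N₁)`; `N₁ = N`, `e = 1` is the direct case).

* `h60_hpow_of_GT`  : GT in the "all orders divisible by `m` ⟹ `m`-th power" form;
* `h60_S18_of_GT`   : the frozen conclusion at level `N` from standard reduction data at levels
  `N`, `N₁`, a place reduction at level `N₁`, the RR facts at level `N₁`, `dim L(0) = 1` for `Fk(N)`,
  norm descent and restriction of places.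
-/
import Mathlib
import Fermat.Agent.S18.h60_Top
import Fermat.Agent.S18.h64_GT
import Fermat.Agent.S18.h19_ResField

set_option autoImplicit false
set_option synthInstance.maxHeartbeats 400000

noncomputable section

open HahnSeries IntermediateField AlgebraicCurve ModularCurve

namespace Fermat.Agent.S18

section Generic

variable {K F k Fb : Type*} [Field K] [Field F] [Algebra K F] [Field k] [Field Fb] [Algebra k Fb]

/-- GT in the form consumed by `h60_S18_of_h39` / `h60_S18_of_level`. -/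
theorem h60_hpow_of_GT [IsAlgClosed K] [HasPrincipalDivisors K F]
    (R : h39_RedDatum K F k Fb) (PR : h39_PlaceRed R) (hR1 : h39_RankOne R.A)
    (hfinK : ∀ D : Divisor K F, Module.Finite K (riemannRochSpace D))
    (hfink : ∀ D : Divisor k Fb, Module.Finite k (riemannRochSpace D))
    (hdeg : ∀ P : Place K F, P.deg = 1)
    (m : ℕ) (hm : (m : k) ≠ 0) (u : F) (hu : u ∈ R.O)
    (hu1 : R.red ⟨u, hu⟩ = 1) (hdvd : ∀ P : Place K F, (m : ℤ) ∣ P.ord u) :
    ∃ g : F, g ^ m = u := by
  have hu0 : u ≠ 0 := by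
    rintro rfl
    have h1 : (⟨0, hu⟩ : R.O) = 0 := rfl
    rw [h1, map_zero] at hu1
    exact zero_ne_one hu1
  obtain ⟨D, hD⟩ := h60_exists_divisor_of_dvd u hu0 m hdvd
  exact h64_GT_root R PR hR1 hfinK hfink hdeg m hm D u hu hu1 hD

end Generic

section Top

/-- **S18 from GT at an auxiliary level.** -/
theorem h60_S18_of_GT (N N₁ : ℕ) [NeZero N] {ℓ : ℕ} [Fact ℓ.Prime]
    (A : ValuationSubring (AlgebraicClosure ℚ)) (hA : A.LiesOverPrime ℓ)
    [HasPrincipalDivisors (AlgebraicClosure ℚ) (modularFunctionFieldBar N)]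
    [HasPrincipalDivisors (AlgebraicClosure ℚ) (modularFunctionFieldBar N₁)]
    (h : ReductionInputsModL A N) (m : ℕ) (hm : ¬ ℓ ∣ m) (e : ℕ) (hcop : Nat.Coprime e m)
    (hle : modularFunctionFieldBar N ≤ modularFunctionFieldBar N₁)
    (R : h39_RedDatum (AlgebraicClosure ℚ) (modularFunctionFieldBar N)
      (IsLocalRing.ResidueField A) (modularFunctionFieldFullC (IsLocalRing.ResidueField A) N))
    (hR : h60_IsStd N A R)
    (hfin0 : Module.finrank (IsLocalRing.ResidueField A)
      ↥(riemannRochSpace (0 : Divisor (IsLocalRing.ResidueField A)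
        (modularFunctionFieldFullC (IsLocalRing.ResidueField A) N))) = 1)
    (R₁ : h39_RedDatum (AlgebraicClosure ℚ) (modularFunctionFieldBar N₁)
      (IsLocalRing.ResidueField A) (modularFunctionFieldFullC (IsLocalRing.ResidueField A) N₁))
    (hR₁ : h60_IsStd N₁ A R₁) (hRA : R₁.A = A) (PR₁ : h39_PlaceRed R₁)
    (hfinK : ∀ D : Divisor (AlgebraicClosure ℚ) (modularFunctionFieldBar N₁),
      Module.Finite (AlgebraicClosure ℚ) (riemannRochSpace D))
    (hfink : ∀ D : Divisor (IsLocalRing.ResidueField A)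
        (modularFunctionFieldFullC (IsLocalRing.ResidueField A) N₁),
      Module.Finite (IsLocalRing.ResidueField A) (riemannRochSpace D))
    (hdeg : ∀ P : Place (AlgebraicClosure ℚ) (modularFunctionFieldBar N₁), P.deg = 1)
    (hdesc : ∀ u g : LaurentSeries (AlgebraicClosure ℚ), u ∈ modularFunctionFieldBar N →
      g ∈ modularFunctionFieldBar N₁ → g ^ m = u →
      ∃ g' ∈ modularFunctionFieldBar N, g' ^ m = u ^ e)
    (hord : ∀ (u : LaurentSeries (AlgebraicClosure ℚ)) (hu : u ∈ modularFunctionFieldBar N),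
      (∀ P : Place (AlgebraicClosure ℚ) (modularFunctionFieldBar N),
        (m : ℤ) ∣ P.ord (⟨u, hu⟩ : modularFunctionFieldBar N)) →
      ∀ P' : Place (AlgebraicClosure ℚ) (modularFunctionFieldBar N₁),
        (m : ℤ) ∣ P'.ord (⟨u, hle hu⟩ : modularFunctionFieldBar N₁))
    (z : JZero N) (hmz : m • z = 0) (hz : reductionModL A N z = 0) : z = 0 := by
  have hm0 : m ≠ 0 := fun h0 => hm (h0 ▸ dvd_zero ℓ)
  have hmk : ((m : ℕ) : IsLocalRing.ResidueField A) ≠ 0 :=
    h19_natCast_residueField_ne_zero A ℓ hA m hm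
  have hR1 : h39_RankOne R₁.A := by
    rw [hRA]
    exact h64_rankOne_h39 (Fact.out : ℓ.Prime) A hA
  exact h60_S18_of_level N N₁ A h m hm0 e hcop hle R hR
    (fun g _ hg => h60_const_of_finrank_rr_zero hfin0 g hg) R₁ hR₁
    (fun u hu hu1 hdvd => h60_hpow_of_GT R₁ PR₁ hR1 hfinK hfink hdeg m hmk u hu hu1 hdvd)
    hdesc hord z hmz hz

end Top

end Fermat.Agent.S18
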