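import Fermat.Agent.S18.GR_RedAPI
import Fermat.Agent.S18.GR_Integral
import Fermat.Agent.S18.GR_ChartPt
import Fermat.Agent.S18.h39_GRDefs

/-!
# S18 / [GR] (S2) = (W): tube-regular ⟹ regular

`R : h39_RedDatum K F k Fb`, `t` a weak chart, `r` a chart reduction on the unit disc of `t`
(`h39_IsChartRed R t r`), and (†) `red (B ∩ O) = B̄` for the chart `t` (hypothesis `hlift`, the
statement of `h39_lift_integral`).

`h64_chart_regular_core`: if `y ∈ O` is regular at all places of the disc reducing to `Q`, then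
`ȳ` is regular at `Q`.

Proof: the finitely many poles of `y` on the chart are killed by factors `z ∈ B ∩ O` whose
reductions are units at `Q` (`h64_exists_kill`: `z = h - h(P)` with `h̄(r P) = 0`, `h̄(Q) = 1` for a
pole `P` in the disc; `z = 1 - t / t(P)` for a pole outside the disc); then (I1)
(`h39_red_integral`).
-/

set_option autoImplicit false

noncomputable section

open AlgebraicCurve IntermediateField
open Fermat.Agent.S24

namespace Fermat.Agent.S18

variable {K F k Fb : Type*} [Field K] [Field F] [Algebra K F] [Field k] [Field Fb] [Algebra k Fb]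

/-- Reduction of finite products of elements of `O`. -/
theorem h64_redF_prod (R : h39_RedDatum K F k Fb) {ι : Type*} (s : Finset ι) (f : ι → F)
    (hf : ∀ i ∈ s, f i ∈ R.O) :
    (∏ i ∈ s, f i) ∈ R.O ∧ R.redF (∏ i ∈ s, f i) = ∏ i ∈ s, R.redF (f i) := by
  classical
  induction s using Finset.induction_on with
  | empty => exact ⟨by simp [R.O.one_mem], by simpa using h39_redF_one R⟩
  | insert a s ha ih =>
    have h1 := ih fun i hi => hf i (Finset.mem_insert_of_mem hi)
    have h2 := hf a (Finset.mem_insert_self a s)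
    rw [Finset.prod_insert ha, Finset.prod_insert ha]
    exact ⟨R.O.mul_mem _ _ h2 h1.1, by rw [h39_redF_mul R h2 h1.1, h1.2]⟩

/-- A place is regular at a nonzero function of order zero, and at its inverse. -/
theorem h64_inv_mem_of_ord_eq_zero (Q : Place K F) {v : F} (h : Q.ord v = 0) :
    v⁻¹ ∈ Q.toValuationSubring :=
  h24_mem_of_ord_nonneg Q (by rw [Q.ord_inv, h, neg_zero])

theorem h64_ord_pow (P : Place K F) (z : F) (n : ℕ) : P.ord (z ^ n) = n * P.ord z := by
  have := P.ord_zpow z (n : ℤ)
  rwa [zpow_natCast] at this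

section

variable [IsAlgClosed K] [CharZero K] [IsAlgClosed k]
variable (R : h39_RedDatum K F k Fb) {t : F}

/-- A factor killing a pole at a place `P` of the chart which is not in the tube of `Q`:
`z ∈ B ∩ O` vanishing at `P` whose reduction is a unit at `Q`. -/
theorem h64_exists_kill (ht : h39_WeakChart R t)
    (hlift : ∀ fb : Fb, (∀ Q : Place k Fb, R.redF t ∈ Q.toValuationSubring →
        fb ∈ Q.toValuationSubring) →
      ∃ f : F, f ∈ R.O ∧ (∀ P : Place K F, t ∈ P.toValuationSubring →
        f ∈ P.toValuationSubring) ∧ R.redF f = fb)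
    {r : Place K F → Place k Fb} (hr : h39_IsChartRed R t r) (Q : Place k Fb)
    (hQ : R.redF t ∈ Q.toValuationSubring) (P : Place K F) (hP : t ∈ P.toValuationSubring)
    (hPQ : h39_InDisc R t P → r P ≠ Q) :
    ∃ z : F, z ∈ R.O ∧ h39_Reg K t z ∧ 0 < P.ord z ∧ R.redF z ∈ Q.toValuationSubring ∧
      Q.ord (R.redF z) = 0 ∧ R.redF z ≠ 0 := by
  have hchart : h75_IsChart K t := h39_weakChart_isChart R ht
  have hchartb : h75_IsChart k (R.redF t) := h39_weakChart_isChart_red R ht
  obtain ⟨a, hPa⟩ := h39_exists_val hchart P hP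
  have hta : t ≠ algebraMap K F a := by
    intro h
    apply hchart.tr
    rw [h]
    exact isAlgebraic_algebraMap _
  have hPa' : 0 < P.ord (t - algebraMap K F a) := hPa.resolve_left hta
  by_cases ha : a ∈ R.A
  · -- the pole is in the disc: separate `r P` from `Q`
    have hdisc : h39_InDisc R t P := ⟨a, ha, hPa⟩
    have hne := hPQ hdisc
    obtain ⟨hrP, hrval⟩ := hr P hdisc
    obtain ⟨hb, hbreg, hbQ, hbP⟩ := h39_exists_separating hchartb Q (r P) hQ hrP (Ne.symm hne)
    obtain ⟨f, hfO, hfreg, hfred⟩ := hlift hb hbreg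
    obtain ⟨ε, hε⟩ := h39_exists_val hchart P (hfreg P hP)
    have hεA : ε ∈ R.A := h39_eval_integral R ht hfO hfreg P a ε ha hPa' hε
    have hres : R.resK ε = 0 := by
      have h1 := hrval f hfO hfreg ε hε
      rw [hfred] at h1
      exact h39_val_unique (r P) h1 hbP
    have hb0 : hb ≠ 0 := by
      rintro rfl
      rcases hbQ with h | h
      · rw [map_one] at h
        exact zero_ne_one h
      · rw [map_one, zero_sub, h35_ord_neg, Q.ord_one] at h
        exact lt_irrefl 0 h
    have hεO : algebraMap K F ε ∈ R.O := (R.mem_iff ε).mp hεA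
    have hzred : R.redF (f - algebraMap K F ε) = hb := by
      rw [h39_redF_sub R hfO hεO, h39_redF_algebraMap R hεA, hres, map_zero, sub_zero, hfred]
    refine ⟨f - algebraMap K F ε, sub_mem hfO hεO, ?_, ?_, ?_, ?_, ?_⟩
    · intro P' hP'
      exact sub_mem (hfreg P' hP') (P'.algebraMap_mem' ε)
    · rcases hε with h | h
      · exfalso
        apply hb0
        rw [← hfred, h, h39_redF_algebraMap R hεA, hres, map_zero]
      · exact h
    · rw [hzred]
      exact h39_val_mem Q hbQ
    · rw [hzred]
      exact h39_ord_eq_zero_of_val Q hbQ one_ne_zero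
    · rw [hzred]
      exact hb0
  · -- the pole is outside the disc: `1 - t / a`
    have ha0 : a ≠ 0 := by
      rintro rfl
      exact ha R.A.zero_mem
    have hai : a⁻¹ ∈ R.A := (R.A.mem_or_inv_mem a).resolve_left ha
    have hres : R.resK a⁻¹ = 0 := by
      rw [h39_resK_eq_zero_iff R hai]
      right
      rwa [inv_inv]
    have haiO : algebraMap K F a⁻¹ ∈ R.O := (R.mem_iff a⁻¹).mp hai
    have htO : t ∈ R.O := ht.mem
    have hzred : R.redF (1 - algebraMap K F a⁻¹ * t) = 1 := by
      rw [h39_redF_sub R R.O.one_mem (R.O.mul_mem _ _ haiO htO), h39_redF_one,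
        h39_redF_mul R haiO htO, h39_redF_algebraMap R hai, hres, map_zero, zero_mul, sub_zero]
    refine ⟨1 - algebraMap K F a⁻¹ * t, sub_mem R.O.one_mem (R.O.mul_mem _ _ haiO htO),
      ?_, ?_, ?_, ?_, ?_⟩
    · intro P' hP'
      exact sub_mem P'.toValuationSubring.one_mem
        (P'.toValuationSubring.mul_mem _ _ (P'.algebraMap_mem' _) hP')
    · have haF : algebraMap K F a ≠ 0 := by simpa using ha0
      have heq : 1 - algebraMap K F a⁻¹ * t
          = -(algebraMap K F a⁻¹ * (t - algebraMap K F a)) := by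
        rw [map_inv₀]
        field_simp
        ring
      have h1 : algebraMap K F a⁻¹ ≠ 0 := by simpa using ha0
      rw [heq, h35_ord_neg, P.ord_mul h1 (sub_ne_zero.mpr hta), h24_ord_algebraMap, zero_add]
      exact hPa'
    · rw [hzred]
      exact Q.toValuationSubring.one_mem
    · rw [hzred]
      exact Q.ord_one
    · rw [hzred]
      exact one_ne_zero

/-- **(S2) = (W)**: if `y ∈ O` is regular at all places of the tube of `Q`, then `ȳ` is regular
at `Q`. -/
theorem h64_chart_regular_core (ht : h39_WeakChart R t)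
    (hlift : ∀ fb : Fb, (∀ Q : Place k Fb, R.redF t ∈ Q.toValuationSubring →
        fb ∈ Q.toValuationSubring) →
      ∃ f : F, f ∈ R.O ∧ (∀ P : Place K F, t ∈ P.toValuationSubring →
        f ∈ P.toValuationSubring) ∧ R.redF f = fb)
    {r : Place K F → Place k Fb} (hr : h39_IsChartRed R t r) (y : F) (hy : y ∈ R.O)
    (Q : Place k Fb) (hQ : R.redF t ∈ Q.toValuationSubring)
    (h : ∀ P : Place K F, h39_InDisc R t P → r P = Q → y ∈ P.toValuationSubring) :
    R.redF y ∈ Q.toValuationSubring := by
  classical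
  have hchart : h75_IsChart K t := h39_weakChart_isChart R ht
  by_cases hy0 : y = 0
  · rw [hy0, h39_redF_zero]
    exact Q.toValuationSubring.zero_mem
  -- the poles of `y` on the chart
  have hfin : {P : Place K F | t ∈ P.toValuationSubring ∧ P.ord y < 0}.Finite :=
    (h75_finite_ord_ne_chart hchart y hy0).subset fun P hP => ⟨hP.1, ne_of_lt hP.2⟩
  let S : Finset (Place K F) := hfin.toFinset
  have hS : ∀ P : Place K F, P ∈ S ↔ t ∈ P.toValuationSubring ∧ P.ord y < 0 := by
    intro P
    rw [Set.Finite.mem_toFinset]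
    rfl
  -- the killing factors
  have hkill : ∀ P : Place K F, ∃ z : F, z ∈ R.O ∧ h39_Reg K t z ∧ (P ∈ S → 0 < P.ord z) ∧
      R.redF z ∈ Q.toValuationSubring ∧ Q.ord (R.redF z) = 0 ∧ R.redF z ≠ 0 := by
    intro P
    by_cases hPS : P ∈ S
    · obtain ⟨hPt, hPy⟩ := (hS P).mp hPS
      obtain ⟨z, h1, h2, h3, h4, h5, h6⟩ := h64_exists_kill R ht hlift hr Q hQ P hPt (by
        intro hdisc hrP
        have := h24_ord_nonneg_of_mem P (h P hdisc hrP)
        omega)
      exact ⟨z, h1, h2, fun _ => h3, h4, h5, h6⟩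
    · refine ⟨1, R.O.one_mem, fun P' _ => P'.toValuationSubring.one_mem, fun h => absurd h hPS,
        ?_, ?_, ?_⟩
      · rw [h39_redF_one]
        exact Q.toValuationSubring.one_mem
      · rw [h39_redF_one]
        exact Q.ord_one
      · rw [h39_redF_one]
        exact one_ne_zero
  choose z hzO hzreg hzord hzQ hzQord hzne using hkill
  let N : Place K F → ℕ := fun P => (-P.ord y).toNat
  have hprodO := h64_redF_prod R S (fun P => z P ^ N P) (fun P _ => R.O.pow_mem (hzO P) _)
  set u : F := ∏ P ∈ S, z P ^ N P with hu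
  -- `y * u` is regular on the chart
  have hreg : ∀ P' : Place K F, t ∈ P'.toValuationSubring → y * u ∈ P'.toValuationSubring := by
    intro P' hP'
    by_cases hPS : P' ∈ S
    · have hsplit : u = z P' ^ N P' * ∏ P ∈ S.erase P', z P ^ N P :=
        (Finset.mul_prod_erase S (fun P => z P ^ N P) hPS).symm
      rw [hsplit, ← mul_assoc]
      refine P'.toValuationSubring.mul_mem _ _ ?_ (Subring.prod_mem _ fun P _ =>
        P'.toValuationSubring.pow_mem (hzreg P P' hP') _)
      have hz0 : z P' ≠ 0 := by
        intro h0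
        have := hzord P' hPS
        rw [h0, P'.ord_zero] at this
        exact lt_irrefl 0 this
      apply h24_mem_of_ord_nonneg
      rw [P'.ord_mul hy0 (pow_ne_zero _ hz0), h64_ord_pow]
      have h1 := hzord P' hPS
      have h2 : (-P'.ord y) ≤ ((N P' : ℕ) : ℤ) := Int.self_le_toNat _
      have h3 : ((N P' : ℕ) : ℤ) ≤ (N P' : ℤ) * P'.ord (z P') := by
        nlinarith [Int.natCast_nonneg (N P')]
      omega
    · have hyP : y ∈ P'.toValuationSubring := by
        apply h24_mem_of_ord_nonneg
        by_contra hneg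
        exact hPS ((hS P').mpr ⟨hP', not_le.mp hneg⟩)
      exact P'.toValuationSubring.mul_mem _ _ hyP (Subring.prod_mem _ fun P _ =>
        P'.toValuationSubring.pow_mem (hzreg P P' hP') _)
  have hyuO : y * u ∈ R.O := R.O.mul_mem _ _ hy hprodO.1
  have hmain := h39_red_integral R ht hyuO hreg Q hQ
  rw [h39_redF_mul R hy hprodO.1, hprodO.2] at hmain
  -- the reduction of `u` is a unit at `Q`
  have hunit : ∀ P ∈ S, (R.redF (z P ^ N P))⁻¹ ∈ Q.toValuationSubring := by
    intro P _
    rw [h39_redF_pow R (hzO P), ← inv_pow]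
    exact Q.toValuationSubring.pow_mem (h64_inv_mem_of_ord_eq_zero Q (hzQord P)) _
  have hne : ∏ P ∈ S, R.redF (z P ^ N P) ≠ 0 :=
    Finset.prod_ne_zero_iff.mpr fun P _ => by
      rw [h39_redF_pow R (hzO P)]
      exact pow_ne_zero _ (hzne P)
  have hinv : (∏ P ∈ S, R.redF (z P ^ N P))⁻¹ ∈ Q.toValuationSubring := by
    rw [← Finset.prod_inv_distrib]
    exact Subring.prod_mem _ hunit
  have := Q.toValuationSubring.mul_mem _ _ hmain hinv
  rwa [mul_assoc, mul_inv_cancel₀ hne, mul_one] at this

end

end Fermat.Agent.S18
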