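import Mathlib

set_option autoImplicit false

/-!
# S18 core: pure ring identities for the `m`-th root Newton iteration

* `h64_root_approx`: in a commutative ring where `m` is invertible, `1 + a h` has `m`-th roots
  modulo every power of `a` (of the form `1 + a σ`).
* `h64_newton_step`: the quadratic Newton step `g ↦ g - a c`.
-/

namespace Fermat.Agent.S18

section
variable {R : Type*} [CommRing R]

/-- `(1 + a σ) ^ n = 1 + a σ'`. -/
theorem h64_one_add_pow (a σ : R) (n : ℕ) : ∃ σ' : R, (1 + a * σ) ^ n = 1 + a * σ' := by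
  induction n with
  | zero => exact ⟨0, by simp⟩
  | succ n ih =>
    obtain ⟨τ, hτ⟩ := ih
    exact ⟨τ + σ + a * τ * σ, by rw [pow_succ, hτ]; ring⟩

/-- **Approximate `m`-th roots.**  If `m' * m = 1` in `R`, then for every `N` there is
`V = 1 + a σ` with `V ^ m = 1 + a h + a ^ (N + 1) ρ`. -/
theorem h64_root_approx (m : ℕ) (m' : R) (hm : m' * (m : R) = 1) (a h : R) (N : ℕ) :
    ∃ V ρ σ : R, V = 1 + a * σ ∧ V ^ m = 1 + a * h + a ^ (N + 1) * ρ := by
  induction N with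
  | zero => exact ⟨1, -h, 0, by ring, by ring⟩
  | succ N ih =>
    obtain ⟨V, ρ, σ, hV, hVm⟩ := ih
    -- V' = V - a^(N+1) m' ρ
    obtain ⟨κ, hκ⟩ := Polynomial.powAddExpansion V (-(a ^ (N + 1) * m' * ρ)) m
    obtain ⟨σ', hσ'⟩ := h64_one_add_pow a σ (m - 1)
    refine ⟨V + -(a ^ (N + 1) * m' * ρ), -(ρ * σ') + κ * a ^ N * m' ^ 2 * ρ ^ 2,
      σ - a ^ N * m' * ρ, by rw [hV]; ring, ?_⟩
    rw [hκ, hVm, hV, hσ']
    have e : (m : R) * (1 + a * σ') * -(a ^ (N + 1) * m' * ρ)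
        = -(m' * (m : R)) * (a ^ (N + 1) * ρ * (1 + a * σ')) := by ring
    rw [e, hm]
    ring

/-- **Quadratic Newton step.**  If `g ^ m = u (1 + a h)` and `m c = h g + a e`, then
`(g - a c) ^ m = u + a ^ 2 w` for some `w`. -/
theorem h64_newton_step (m : ℕ) (hmpos : 0 < m) (g u h c a e : R)
    (hg : g ^ m = u * (1 + a * h)) (hc : (m : R) * c = h * g + a * e) :
    ∃ w : R, (g - a * c) ^ m = u + a ^ 2 * w := by
  obtain ⟨κ, hκ⟩ := Polynomial.powAddExpansion g (-(a * c)) m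
  have hsplit : g ^ m = g ^ (m - 1) * g := by
    rw [← pow_succ, Nat.sub_add_cancel hmpos]
  refine ⟨-(u * h ^ 2) - g ^ (m - 1) * e + κ * c ^ 2, ?_⟩
  rw [sub_eq_add_neg, hκ]
  have e1 : (m : R) * g ^ (m - 1) * -(a * c) = -(a * g ^ (m - 1) * ((m : R) * c)) := by ring
  rw [e1, hc]
  have e2 : -(a * g ^ (m - 1) * (h * g + a * e)) = -(a * h * (g ^ (m - 1) * g)) - a ^ 2 * g ^ (m - 1) * e := by
    ring
  rw [e2, ← hsplit, hg]
  ring

end

end Fermat.Agent.S18
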