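import Fermat.Agent.S18.GR_Integral
import Fermat.Agent.S18.GR_ChartPt

/-!
# S18 / GR5e core : the reduction map on the unit disc of a chart (owner helper66)

For a weak chart `t` such that every function regular on the chart `t̄` lifts to a function of
`O` regular on the chart `t` (`h66_Dagger R t`, the statement of `h39_lift_integral`), we
construct the reduction map `r` on the places of the disc `t(P) ∈ A`:
`f̄ (r P) = res (f(P))` for all `f ∈ O` regular on the chart `t` (`h39_IsChartRed R t r`).

For `P` in the disc, `f̄ ↦ res (f(P))` is a well defined `k`-algebra map from the chart ring of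
`t̄` to `k` (a lift of `0` is `c g` with `c ∈ 𝔪_A`, `g ∈ O` regular on the chart, and values of
such `g` at `P` are integral), hence a place of the chart `t̄`.
-/

set_option autoImplicit false

noncomputable section

open AlgebraicCurve IntermediateField Polynomial

namespace Fermat.Agent.S18

variable {K F k Fb : Type*} [Field K] [Field F] [Algebra K F] [Field k] [Field Fb] [Algebra k Fb]

/-- (†) for the chart `t`: every function regular on the chart `t̄` is the reduction of a
function of `O` regular on the chart `t` (the conclusion of `h39_lift_integral`). -/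
def h66_Dagger (R : h39_RedDatum K F k Fb) (t : F) : Prop :=
  ∀ fb : Fb, (∀ Q : Place k Fb, R.redF t ∈ Q.toValuationSubring → fb ∈ Q.toValuationSubring) →
    ∃ f : F, f ∈ R.O ∧ (∀ P : Place K F, t ∈ P.toValuationSubring → f ∈ P.toValuationSubring) ∧
      R.redF f = fb

/-- The graph of `f̄ ↦ res (f(P))`. -/
def h66_Rel (R : h39_RedDatum K F k Fb) (t : F) (P : Place K F) (fb : Fb) (β : k) : Prop :=
  ∃ (f : F) (b : K), f ∈ R.O ∧ h39_Reg K t f ∧ R.redF f = fb ∧ h39_Val P f b ∧ R.resK b = β

section Core

variable [IsAlgClosed K] [CharZero K] [IsAlgClosed k]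
variable (R : h39_RedDatum K F k Fb) {t : F} (ht : h39_WeakChart R t)

include ht

set_option linter.unusedSectionVars false in
/-- A value of the chart function is attained with positive order. -/
theorem h66_ord_pos_of_val {P : Place K F} {a : K} (hPa : h39_Val P t a) :
    0 < P.ord (t - algebraMap K F a) := by
  rcases hPa with h | h
  · exfalso
    have htr := h39_transcendental_of_redF R ht.transcendental
    exact htr (h ▸ isAlgebraic_algebraMap a)
  · exact h

/-- (In2b) in the language of `h39_Val` / `h39_InDisc`. -/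
theorem h66_val_mem_A {P : Place K F} (hP : h39_InDisc R t P) {f : F} (hf : f ∈ R.O)
    (hreg : h39_Reg K t f) {b : K} (hb : h39_Val P f b) : b ∈ R.A := by
  obtain ⟨a, ha, hPa⟩ := hP
  exact h39_eval_integral R ht hf hreg P a b ha (h66_ord_pos_of_val R ht hPa) hb

set_option linter.unusedSectionVars false in
/-- Functions regular on the chart have values at the places of the disc. -/
theorem h66_exists_val {P : Place K F} (hP : h39_InDisc R t P) {f : F}
    (hreg : h39_Reg K t f) : ∃ b : K, h39_Val P f b := by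
  obtain ⟨a, -, hPa⟩ := hP
  exact h39_exists_val (h39_weakChart_isChart R ht) P (hreg P (h39_val_mem P hPa))

/-- The values on the disc of a function of the maximal ideal of `O` (regular on the chart)
lie in the maximal ideal of `A`. -/
theorem h66_resK_val_eq_zero {P : Place K F} (hP : h39_InDisc R t P) {f : F} (hf : f ∈ R.O)
    (hreg : h39_Reg K t f) (h0 : R.redF f = 0) {b : K} (hb : h39_Val P f b) :
    R.resK b = 0 := by
  obtain ⟨c, g, hcA, hc0, hgO, hfg⟩ := h39_exists_factor_of_redF_eq_zero R hf h0
  by_cases hc : c = 0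
  · have hf0 : f = 0 := by rw [hfg, hc, map_zero, zero_mul]
    have h1 : h39_Val P f 0 := by
      rw [hf0]
      simpa using h39_val_algebraMap P (0 : K)
    have h2 : b = 0 := h39_val_unique P hb h1
    rw [h2, ← hc]
    exact hc0
  · have hcF : algebraMap K F c ≠ 0 := by simpa using hc
    have hg : g = algebraMap K F c⁻¹ * f := by
      rw [hfg, map_inv₀]
      field_simp
    have hgreg : h39_Reg K t g := by
      intro P' hP'
      rw [hg]
      exact P'.toValuationSubring.mul_mem _ _ (P'.algebraMap_mem' _) (hreg P' hP')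
    obtain ⟨b', hb'⟩ := h66_exists_val R ht hP hgreg
    have hb'A := h66_val_mem_A R ht hP hgO hgreg hb'
    have h1 : h39_Val P f (c * b') := by
      rw [hfg]
      exact h39_val_mul P (h39_val_algebraMap P c) hb'
    have h2 : b = c * b' := h39_val_unique P hb h1
    rw [h2, h39_resK_mul R hcA hb'A, hc0, zero_mul]

/-- Two functions of `O`, regular on the chart, with the same reduction have values with the
same residue at every place of the disc. -/
theorem h66_resK_val_congr {P : Place K F} (hP : h39_InDisc R t P) {f f' : F} (hf : f ∈ R.O)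
    (hf' : f' ∈ R.O) (hreg : h39_Reg K t f) (hreg' : h39_Reg K t f')
    (h : R.redF f = R.redF f') {b b' : K} (hb : h39_Val P f b) (hb' : h39_Val P f' b') :
    R.resK b = R.resK b' := by
  have hbA := h66_val_mem_A R ht hP hf hreg hb
  have hb'A := h66_val_mem_A R ht hP hf' hreg' hb'
  have hsub : h39_Val P (f - f') (b - b') := by
    have h1 := h39_val_add P hb (h39_val_mul P (h39_val_algebraMap P (-1 : K)) hb')
    have e1 : f + algebraMap K F (-1) * f' = f - f' := by
      rw [map_neg, map_one]
      ring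
    have e2 : b + -1 * b' = b - b' := by ring
    rwa [e1, e2] at h1
  have hreg'' : h39_Reg K t (f - f') := fun P' hP' =>
    sub_mem (hreg P' hP') (hreg' P' hP')
  have h0 : R.redF (f - f') = 0 := by rw [h39_redF_sub R hf hf', h, sub_self]
  have h2 := h66_resK_val_eq_zero R ht hP (sub_mem hf hf') hreg'' h0 hsub
  rw [R.resK_of_mem (sub_mem hbA hb'A)] at h2
  rw [R.resK_of_mem hbA, R.resK_of_mem hb'A]
  have h3 : (⟨b - b', sub_mem hbA hb'A⟩ : R.A) = ⟨b, hbA⟩ - ⟨b', hb'A⟩ := rfl
  rw [h3, map_sub, sub_eq_zero] at h2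
  exact h2

theorem h66_Rel_unique {P : Place K F} (hP : h39_InDisc R t P) {fb : Fb} {β β' : k}
    (h : h66_Rel R t P fb β) (h' : h66_Rel R t P fb β') : β = β' := by
  obtain ⟨f, b, hf, hreg, hfb, hb, rfl⟩ := h
  obtain ⟨f', b', hf', hreg', hfb', hb', rfl⟩ := h'
  exact h66_resK_val_congr R ht hP hf hf' hreg hreg' (hfb.trans hfb'.symm) hb hb'

set_option linter.unusedSectionVars false in
theorem h66_Rel_exists (hdag : h66_Dagger R t) {P : Place K F} (hP : h39_InDisc R t P)
    (fb : Fb) (hfb : h39_Reg k (R.redF t) fb) : ∃ β : k, h66_Rel R t P fb β := by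
  obtain ⟨f, hf, hreg, hred⟩ := hdag fb hfb
  obtain ⟨b, hb⟩ := h66_exists_val R ht hP hreg
  exact ⟨R.resK b, f, b, hf, hreg, hred, hb, rfl⟩

theorem h66_Rel_add {P : Place K F} (hP : h39_InDisc R t P) {fb gb : Fb} {β γ : k}
    (h : h66_Rel R t P fb β) (h' : h66_Rel R t P gb γ) : h66_Rel R t P (fb + gb) (β + γ) := by
  obtain ⟨f, b, hf, hreg, rfl, hb, rfl⟩ := h
  obtain ⟨g, c, hg, hreg', rfl, hc, rfl⟩ := h'
  refine ⟨f + g, b + c, R.O.add_mem _ _ hf hg,
    fun P' hP' => P'.toValuationSubring.add_mem _ _ (hreg P' hP') (hreg' P' hP'),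
    h39_redF_add R hf hg, h39_val_add P hb hc, ?_⟩
  exact h39_resK_add R (h66_val_mem_A R ht hP hf hreg hb) (h66_val_mem_A R ht hP hg hreg' hc)

theorem h66_Rel_mul {P : Place K F} (hP : h39_InDisc R t P) {fb gb : Fb} {β γ : k}
    (h : h66_Rel R t P fb β) (h' : h66_Rel R t P gb γ) : h66_Rel R t P (fb * gb) (β * γ) := by
  obtain ⟨f, b, hf, hreg, rfl, hb, rfl⟩ := h
  obtain ⟨g, c, hg, hreg', rfl, hc, rfl⟩ := h'
  refine ⟨f * g, b * c, R.O.mul_mem _ _ hf hg,
    fun P' hP' => P'.toValuationSubring.mul_mem _ _ (hreg P' hP') (hreg' P' hP'),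
    h39_redF_mul R hf hg, h39_val_mul P hb hc, ?_⟩
  exact h39_resK_mul R (h66_val_mem_A R ht hP hf hreg hb) (h66_val_mem_A R ht hP hg hreg' hc)

omit ht in
set_option linter.unusedSectionVars false in
theorem h66_Rel_const (P : Place K F) (c : k) :
    h66_Rel R t P (algebraMap k Fb c) c := by
  obtain ⟨a, haA, hac⟩ := h39_resK_surjective R c
  refine ⟨algebraMap K F a, a, (R.mem_iff a).1 haA, fun P' _ => P'.algebraMap_mem' a, ?_,
    h39_val_algebraMap P a, hac⟩
  rw [h39_redF_algebraMap R haA, hac]

/-- For `P` in the disc, `f̄ ↦ res (f(P))` is a `k`-algebra map on the chart ring of `t̄`. -/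
theorem h66_exists_algHom (hdag : h66_Dagger R t) {P : Place K F} (hP : h39_InDisc R t P) :
    ∃ φ : h39_chartRing k (R.redF t) →ₐ[k] k,
      ∀ fb : h39_chartRing k (R.redF t), h66_Rel R t P (fb : Fb) (φ fb) := by
  classical
  have hex : ∀ fb : h39_chartRing k (R.redF t), ∃ β, h66_Rel R t P (fb : Fb) β :=
    fun fb => h66_Rel_exists R ht hdag hP fb fb.2
  choose φ hφ using hex
  have huniq : ∀ (fb : h39_chartRing k (R.redF t)) (β : k), h66_Rel R t P (fb : Fb) β →
      φ fb = β := fun fb β h => h66_Rel_unique R ht hP (hφ fb) h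
  have hone : φ 1 = 1 := by
    refine huniq 1 1 ?_
    have h1 := h66_Rel_const R (t := t) P (1 : k)
    rwa [map_one] at h1
  have hzero : φ 0 = 0 := by
    refine huniq 0 0 ?_
    have h1 := h66_Rel_const R (t := t) P (0 : k)
    rwa [map_zero] at h1
  refine ⟨{ toFun := φ
            map_one' := hone
            map_mul' := fun x y => huniq (x * y) _ (h66_Rel_mul R ht hP (hφ x) (hφ y))
            map_zero' := hzero
            map_add' := fun x y => huniq (x + y) _ (h66_Rel_add R ht hP (hφ x) (hφ y))
            commutes' := fun c => huniq _ c (h66_Rel_const R P c) }, hφ⟩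

/-- (S1) / GR5e, core form: the reduction map on the unit disc of the chart `t`, with (†)
as a hypothesis. -/
theorem h66_exists_chartRed_core (hdag : h66_Dagger R t) :
    ∃ r : Place K F → Place k Fb, h39_IsChartRed R t r := by
  classical
  have hchb : h75_IsChart k (R.redF t) := h39_weakChart_isChart_red R ht
  have key : ∀ P : Place K F, h39_InDisc R t P →
      ∃ Q : Place k Fb, R.redF t ∈ Q.toValuationSubring ∧
        ∀ f : F, f ∈ R.O → h39_Reg K t f → ∀ b : K, h39_Val P f b →
          h39_Val Q (R.redF f) (R.resK b) := by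
    intro P hP
    obtain ⟨φ, hφ⟩ := h66_exists_algHom R ht hdag hP
    obtain ⟨Q, hQ, hQv⟩ := h39_exists_place_of_algHom hchb φ
    refine ⟨Q, hQ, fun f hf hreg b hb => ?_⟩
    have hfb : h39_Reg k (R.redF t) (R.redF f) := h39_red_integral R ht hf hreg
    have h1 := hQv ⟨R.redF f, hfb⟩
    have h2 : φ ⟨R.redF f, hfb⟩ = R.resK b :=
      h66_Rel_unique R ht hP (hφ _) ⟨f, b, hf, hreg, rfl, hb, rfl⟩
    rw [h2] at h1
    exact h1
  have hne : Nonempty (Place k Fb) := by
    obtain ⟨s, -, hsum⟩ := h75_fibre_main hchb (0 : k)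
    by_contra hemp
    have hs : s = ∅ := Finset.eq_empty_of_forall_notMem (fun Q _ => hemp ⟨Q⟩)
    rw [hs, Finset.sum_empty] at hsum
    have := hchb.fin
    have hpos : 0 < Module.finrank k⟮R.redF t⟯ Fb := Module.finrank_pos
    omega
  obtain ⟨Q0⟩ := hne
  refine ⟨fun P => if h : h39_InDisc R t P then Classical.choose (key P h) else Q0, ?_⟩
  intro P hP
  simp only [dif_pos hP]
  exact Classical.choose_spec (key P hP)

/-- Uniqueness of the chart reduction on the disc (core form, (†) as a hypothesis). -/
theorem h66_chartRed_unique_core (hdag : h66_Dagger R t) {r r' : Place K F → Place k Fb}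
    (hr : h39_IsChartRed R t r) (hr' : h39_IsChartRed R t r') (P : Place K F)
    (hP : h39_InDisc R t P) : r P = r' P := by
  have hchb : h75_IsChart k (R.redF t) := h39_weakChart_isChart_red R ht
  obtain ⟨hQ, hv⟩ := hr P hP
  obtain ⟨hQ', hv'⟩ := hr' P hP
  refine h39_place_eq_of_val hchb (r P) (r' P) hQ hQ' ?_
  intro fb hfb β hβ
  obtain ⟨f, hf, hreg, hred⟩ := hdag fb hfb
  obtain ⟨b, hb⟩ := h66_exists_val R ht hP hreg
  have h1 := hv f hf hreg b hb
  have h2 := hv' f hf hreg b hb
  rw [hred] at h1 h2
  have h3 : β = R.resK b := h39_val_unique (r P) hβ h1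
  rw [h3]
  exact h2

omit [IsAlgClosed K] [CharZero K] [IsAlgClosed k] in
/-- `r P` lies over `res (t(P))`. -/
theorem h66_chartRed_over {r : Place K F → Place k Fb}
    (hr : h39_IsChartRed R t r) (P : Place K F) (a : K) (ha : a ∈ R.A) (hPa : h39_Val P t a) :
    h39_Val (r P) (R.redF t) (R.resK a) :=
  (hr P ⟨a, ha, hPa⟩).2 t ht.mem (fun _ h => h) a hPa

end Core

end Fermat.Agent.S18

end
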