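import Fermat.Agent.S18.h75_RRDefs
import Fermat.Agent.S24.h35_PlaceBasic

/-!
# S18 / RR-B: basic API for charts (shared by the RR-B rows)
-/

set_option autoImplicit false

open AlgebraicCurve IntermediateField

namespace Fermat.Agent.S18

open Fermat.Agent.S24

section Basic

variable {K F : Type*} [Field K] [Field F] [Algebra K F]

theorem h75_mulEquiv_symm_apply (x : F) (hx : x ≠ 0) (y : F) :
    (h75_mulEquiv K x hx).symm y = x⁻¹ * y := rfl

theorem h75_mulEquiv_pow_apply (x : F) (hx : x ≠ 0) (s : ℕ) (y : F) :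
    ((h75_mulEquiv K x hx) ^ s) y = x ^ s * y := by
  induction s generalizing y with
  | zero => simp
  | succ s ih =>
    rw [pow_succ, LinearEquiv.mul_apply, ih, h75_mulEquiv_apply, pow_succ]
    ring

theorem h75_mulEquiv_zpow_apply (x : F) (hx : x ≠ 0) (s : ℤ) (y : F) :
    ((h75_mulEquiv K x hx) ^ s) y = x ^ s * y := by
  obtain ⟨n, rfl | rfl⟩ := s.eq_nat_or_neg
  · rw [zpow_natCast, zpow_natCast, h75_mulEquiv_pow_apply]
  · rw [zpow_neg, zpow_natCast, zpow_neg, zpow_natCast]
    have h1 : ((h75_mulEquiv K x hx) ^ n) (((h75_mulEquiv K x hx) ^ n)⁻¹ y) = y := by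
      rw [← LinearEquiv.mul_apply, mul_inv_cancel]
      rfl
    rw [h75_mulEquiv_pow_apply] at h1
    have hxn : x ^ n ≠ 0 := pow_ne_zero n hx
    field_simp
    rw [mul_comm]
    exact h1

theorem h75_mem_map_zpow {x : F} (hx : x ≠ 0) (L : Submodule K F) (s : ℤ) (f : F) :
    f ∈ L.map (((h75_mulEquiv K x hx) ^ s : F ≃ₗ[K] F) : F →ₗ[K] F) ↔ x ^ (-s) * f ∈ L := by
  have hxs : x ^ s ≠ 0 := zpow_ne_zero s hx
  constructor
  · rintro ⟨g, hg, rfl⟩
    have : x ^ (-s) * (((h75_mulEquiv K x hx) ^ s : F ≃ₗ[K] F) : F →ₗ[K] F) g = g := by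
      show x ^ (-s) * ((h75_mulEquiv K x hx) ^ s) g = g
      rw [h75_mulEquiv_zpow_apply, zpow_neg, ← mul_assoc, inv_mul_cancel₀ hxs, one_mul]
    rw [this]
    exact hg
  · intro h
    refine ⟨x ^ (-s) * f, h, ?_⟩
    show ((h75_mulEquiv K x hx) ^ s) (x ^ (-s) * f) = f
    rw [h75_mulEquiv_zpow_apply, zpow_neg, ← mul_assoc, mul_inv_cancel₀ hxs, one_mul]

theorem h75_chart_mono (t : F) {D D' : Divisor K F} (h : D ≤ D') :
    h75_chart t D ≤ h75_chart t D' := fun _ hf P hP =>
  (hf P hP).trans (WithZero.exp_le_exp.mpr (Finsupp.le_def.mp h P))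

theorem h75_overlap_mono (t : F) {D D' : Divisor K F} (h : D ≤ D') :
    h75_overlap t D ≤ h75_overlap t D' := fun _ hf P hP hP' =>
  (hf P hP hP').trans (WithZero.exp_le_exp.mpr (Finsupp.le_def.mp h P))

theorem h75_overlap_inv (x : F) (D : Divisor K F) :
    h75_overlap x⁻¹ D = h75_overlap x D := by
  ext f
  constructor
  · intro hf P hP hP'
    exact hf P hP' (by rwa [inv_inv])
  · intro hf P hP hP'
    exact hf P (by rwa [inv_inv] at hP') hP

theorem h75_mem_chart_zero_iff {t f : F} :
    f ∈ h75_chart t (0 : Divisor K F) ↔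
      ∀ P : Place K F, t ∈ P.toValuationSubring → f ∈ P.toValuationSubring := by
  rw [h75_mem_chart_iff]
  refine forall_congr' fun P => imp_congr_right fun _ => ?_
  simp only [Finsupp.coe_zero, Pi.zero_apply, neg_zero]
  constructor
  · rintro (rfl | h)
    · exact P.toValuationSubring.zero_mem
    · by_cases h0 : f = 0
      · rw [h0]; exact P.toValuationSubring.zero_mem
      · exact (h35_mem_iff_ord_nonneg P h0).mpr h
  · intro h
    exact Or.inr (h35_ord_nonneg_of_mem P h)

theorem h75_mul_mem_chart {t : F} {D D' : Divisor K F} {f g : F}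
    (hf : f ∈ h75_chart t D) (hg : g ∈ h75_chart t D') : f * g ∈ h75_chart t (D + D') := by
  intro P hP
  rw [map_mul, Finsupp.add_apply, WithZero.exp_add]
  exact mul_le_mul' (hf P hP) (hg P hP)

theorem h75_mul_mem_overlap {t : F} {D D' : Divisor K F} {f g : F}
    (hf : f ∈ h75_overlap t D) (hg : g ∈ h75_overlap t D') :
    f * g ∈ h75_overlap t (D + D') := by
  intro P hP hP'
  rw [map_mul, Finsupp.add_apply, WithZero.exp_add]
  exact mul_le_mul' (hf P hP hP') (hg P hP hP')

theorem h75_self_mem_chart_zero (t : F) : t ∈ h75_chart t (0 : Divisor K F) :=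
  h75_mem_chart_zero_iff.mpr fun _ hP => hP

theorem h75_one_mem_chart_zero (t : F) : (1 : F) ∈ h75_chart t (0 : Divisor K F) :=
  h75_mem_chart_zero_iff.mpr fun P _ => P.toValuationSubring.one_mem

/-- a chart space is stable under multiplication by functions regular on the chart. -/
theorem h75_mul_mem_chart_of_zero {t : F} {D : Divisor K F} {f g : F}
    (hg : g ∈ h75_chart t (0 : Divisor K F)) (hf : f ∈ h75_chart t D) :
    g * f ∈ h75_chart t D := by
  have := h75_mul_mem_chart hg hf
  rwa [zero_add] at this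

theorem h75_pow_mul_mem_chart {t : F} {D : Divisor K F} {f : F} (hf : f ∈ h75_chart t D)
    (s : ℕ) : t ^ s * f ∈ h75_chart t D := by
  refine h75_mul_mem_chart_of_zero ?_ hf
  rw [h75_mem_chart_zero_iff]
  intro P hP
  exact pow_mem hP s

theorem h75_zpow_mul_mem_overlap {t : F} {D : Divisor K F} {f : F}
    (hf : f ∈ h75_overlap t D) (s : ℤ) : t ^ s * f ∈ h75_overlap t D := by
  intro P hP hP'
  have h1 : P.adicValuation (t ^ s) ≤ 1 := by
    apply P.adicValuation_le_one_of_mem
    obtain ⟨n, rfl | rfl⟩ := s.eq_nat_or_neg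
    · rw [zpow_natCast]; exact pow_mem hP n
    · rw [zpow_neg, zpow_natCast, ← inv_pow]; exact pow_mem hP' n
  rw [map_mul]
  exact (mul_le_of_le_one_left' h1).trans (hf P hP hP')

/-- the integer powers of a transcendental element are linearly independent. -/
theorem h75_linearIndependent_zpow {x : F} (hx : Transcendental K x) :
    LinearIndependent K (fun s : ℤ => x ^ s) := by
  have hx0 : x ≠ 0 := by
    rintro rfl
    exact hx isAlgebraic_zero
  rw [linearIndependent_iff']
  intro S g hg s hs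
  classical
  -- shift all exponents to be nonnegative
  obtain ⟨N, hN⟩ : ∃ N : ℤ, ∀ i ∈ S, 0 ≤ i + N := by
    refine ⟨S.sup' ⟨s, hs⟩ (fun i => -i), fun i hi => ?_⟩
    have := Finset.le_sup' (fun i => -i) hi
    omega
  let p : Polynomial K := ∑ i ∈ S, Polynomial.monomial (i + N).toNat (g i)
  have hp : Polynomial.aeval x p = 0 := by
    have h1 : Polynomial.aeval x p = x ^ N * ∑ i ∈ S, g i • x ^ i := by
      simp only [p, map_sum, Polynomial.aeval_monomial, Finset.mul_sum]
      refine Finset.sum_congr rfl fun i hi => ?_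
      have : x ^ (i + N).toNat = x ^ (i + N) := by
        rw [← zpow_natCast, Int.toNat_of_nonneg (hN i hi)]
      rw [this, zpow_add₀ hx0, Algebra.smul_def]
      ring
    rw [h1, hg, mul_zero]
  have hp0 : p = 0 := by
    by_contra hne
    exact hx ⟨p, hne, hp⟩
  have hcoeff := congrArg (fun q => Polynomial.coeff q (s + N).toNat) hp0
  simp only [p, Polynomial.finsetSum_coeff, Polynomial.coeff_monomial, Polynomial.coeff_zero]
    at hcoeff
  rw [Finset.sum_eq_single s] at hcoeff
  · simpa using hcoeff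
  · intro i hi his
    rw [if_neg]
    intro heq
    apply his
    have h1 := hN i hi
    have h2 := hN s hs
    omega
  · intro h
    exact absurd hs h

end Basic

end Fermat.Agent.S18
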