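import Mathlib
import Fermat.Agent.S18.h75_RRBasic
import Fermat.Agent.S18.Tate_Sand

/-!
# S18 / RR-B4 helper (helper6): two frames with the same overlap are sandwiched

Generic (no places): if `e'` lies in `Wstd T e` and `e` lies in `Wstd T e'`, then
`Lstd T e' b` is commensurable with the standard `L`-lattices of `e`.  Applied to frames of the
two charts `x`, `x⁻¹` (with `T⁻¹ = ` multiplication by `x⁻¹`) this is the `h75_IsSandL` clause of
`h75_exists_frame`.
-/

set_option autoImplicit false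

open AlgebraicCurve IntermediateField

namespace Fermat.Agent.S18

section Generic

variable {K V : Type*} [Field K] [AddCommGroup V] [Module K V]
variable (T : V ≃ₗ[K] V) {n n' : ℕ} (e : Fin n → V) (e' : Fin n' → V)

/-- every element of `Wstd` lies in a bounded window of the frame. -/
theorem h6_exists_window (v : V) (hv : v ∈ h75_Wstd T e) :
    ∃ a : ℤ, 0 ≤ a ∧ ∀ t : ℤ,
      (T ^ t) v ∈ h75_Lstd T e (t + a) ∧ (T ^ t) v ∈ h75_Mstd T e (t - a) := by
  induction hv using Submodule.span_induction with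
  | mem v hv =>
    obtain ⟨j, s, rfl⟩ := hv
    refine ⟨|s|, abs_nonneg s, fun t => ?_⟩
    rw [h89_zpow_apply_zpow]
    have h1 := le_abs_self s
    have h2 := neg_abs_le s
    exact ⟨h89_mem_Lstd T e (by omega) j, h89_mem_Mstd T e (by omega) j⟩
  | zero => exact ⟨0, le_rfl, fun t => by simp⟩
  | add v w _ _ hv hw =>
    obtain ⟨a, ha, hva⟩ := hv
    obtain ⟨b, hb, hwb⟩ := hw
    have h1 := le_max_left a b
    have h2 := le_max_right a b
    refine ⟨max a b, le_max_of_le_left ha, fun t => ?_⟩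
    rw [map_add]
    exact ⟨add_mem (h89_Lstd_mono T e (by omega) (hva t).1)
        (h89_Lstd_mono T e (by omega) (hwb t).1),
      add_mem (h89_Mstd_anti T e (by omega) (hva t).2)
        (h89_Mstd_anti T e (by omega) (hwb t).2)⟩
  | smul c v _ hv =>
    obtain ⟨a, ha, hva⟩ := hv
    refine ⟨a, ha, fun t => ?_⟩
    rw [map_smul]
    exact ⟨Submodule.smul_mem _ c (hva t).1, Submodule.smul_mem _ c (hva t).2⟩

/-- a uniform window for finitely many vectors of `Wstd`. -/
theorem h6_exists_window_fin (w : Fin n' → V) (hw : ∀ j, w j ∈ h75_Wstd T e) :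
    ∃ a : ℤ, 0 ≤ a ∧ ∀ (j : Fin n') (t : ℤ),
      (T ^ t) (w j) ∈ h75_Lstd T e (t + a) ∧ (T ^ t) (w j) ∈ h75_Mstd T e (t - a) := by
  choose a ha hva using fun j => h6_exists_window T e (w j) (hw j)
  refine ⟨∑ j, a j, Finset.sum_nonneg (fun j _ => ha j), fun j t => ?_⟩
  have hle : a j ≤ ∑ j, a j := Finset.single_le_sum (fun i _ => ha i) (Finset.mem_univ j)
  exact ⟨h89_Lstd_mono T e (by omega) (hva j t).1, h89_Mstd_anti T e (by omega) (hva j t).2⟩

theorem h6_Lstd_le_of_window (a b : ℤ)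
    (h : ∀ (j : Fin n') (t : ℤ), (T ^ t) (e' j) ∈ h75_Lstd T e (t + a)) :
    h75_Lstd T e' b ≤ h75_Lstd T e (b + a) := by
  apply Submodule.span_le.mpr
  rintro v ⟨j, s, hs, rfl⟩
  exact h89_Lstd_mono T e (by omega) (h j s)

theorem h6_Mstd_le_of_window (a b : ℤ)
    (h : ∀ (j : Fin n') (t : ℤ), (T ^ t) (e' j) ∈ h75_Mstd T e (t - a)) :
    h75_Mstd T e' b ≤ h75_Mstd T e (b - a) := by
  apply Submodule.span_le.mpr
  rintro v ⟨j, s, hs, rfl⟩
  exact h89_Mstd_anti T e (by omega) (h j s)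

/-- Two families spanning the same `Wstd`: the `L`-lattices are commensurable. -/
theorem h6_isSandL_of_mem_Wstd (h1 : ∀ j, e' j ∈ h75_Wstd T e) (h2 : ∀ i, e i ∈ h75_Wstd T e')
    (b : ℤ) : h75_IsSandL T e (h75_Lstd T e' b) := by
  obtain ⟨a, ha, hA⟩ := h6_exists_window_fin T e e' h1
  obtain ⟨c, hc, hC⟩ := h6_exists_window_fin T e' e h2
  have hb1 := le_abs_self b
  have hb2 := neg_abs_le b
  refine ⟨|b| + a + c, ?_, ?_⟩
  · exact (h6_Lstd_le_of_window T e' e c (-(|b| + a + c)) (fun j t => (hC j t).1)).trans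
      (h89_Lstd_mono T e' (by omega))
  · exact (h6_Lstd_le_of_window T e e' a b (fun j t => (hA j t).1)).trans
      (h89_Lstd_mono T e (by omega))

/-- Two families spanning the same `Wstd`: the `M`-lattices are commensurable. -/
theorem h6_isSandM_of_mem_Wstd (h1 : ∀ j, e' j ∈ h75_Wstd T e) (h2 : ∀ i, e i ∈ h75_Wstd T e')
    (b : ℤ) : h75_IsSandM T e (h75_Mstd T e' b) := by
  obtain ⟨a, ha, hA⟩ := h6_exists_window_fin T e e' h1
  obtain ⟨c, hc, hC⟩ := h6_exists_window_fin T e' e h2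
  have hb1 := le_abs_self b
  have hb2 := neg_abs_le b
  refine ⟨|b| + a + c, ?_, ?_⟩
  · exact (h6_Mstd_le_of_window T e' e c (|b| + a + c) (fun j t => (hC j t).2)).trans
      (h89_Mstd_anti T e' (by omega))
  · exact (h6_Mstd_le_of_window T e e' a b (fun j t => (hA j t).2)).trans
      (h89_Mstd_anti T e (by omega))

/-- The standard `M`-lattice of `T⁻¹` is the standard `L`-lattice of `T`. -/
theorem h6_Mstd_inv (a : ℤ) : h75_Mstd T⁻¹ e a = h75_Lstd T e (-a) := by
  apply le_antisymm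
  · apply Submodule.span_le.mpr
    rintro v ⟨j, s, hs, rfl⟩
    rw [inv_zpow']
    exact h89_mem_Lstd T e (by omega) j
  · apply Submodule.span_le.mpr
    rintro v ⟨j, s, hs, rfl⟩
    have h1 : T ^ s = T⁻¹ ^ (-s) := by rw [inv_zpow', neg_neg]
    rw [h1]
    exact h89_mem_Mstd T⁻¹ e (by omega) j

theorem h6_Lstd_inv (a : ℤ) : h75_Lstd T⁻¹ e a = h75_Mstd T e (-a) := by
  apply le_antisymm
  · apply Submodule.span_le.mpr
    rintro v ⟨j, s, hs, rfl⟩
    rw [inv_zpow']
    exact h89_mem_Mstd T e (by omega) j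
  · apply Submodule.span_le.mpr
    rintro v ⟨j, s, hs, rfl⟩
    have h1 : T ^ s = T⁻¹ ^ (-s) := by rw [inv_zpow', neg_neg]
    rw [h1]
    exact h89_mem_Lstd T⁻¹ e (by omega) j

theorem h6_Wstd_inv : h75_Wstd T⁻¹ e = h75_Wstd T e := by
  apply le_antisymm
  · apply Submodule.span_le.mpr
    rintro v ⟨j, s, rfl⟩
    rw [inv_zpow']
    exact h89_mem_Wstd T e _ j
  · apply Submodule.span_le.mpr
    rintro v ⟨j, s, rfl⟩
    have h1 : T ^ s = T⁻¹ ^ (-s) := by rw [inv_zpow', neg_neg]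
    rw [h1]
    exact h89_mem_Wstd T⁻¹ e _ j

theorem h6_self_mem_Wstd (j : Fin n) : e j ∈ h75_Wstd T e := by
  have h := h89_mem_Wstd T e 0 j
  rwa [zpow_zero] at h

end Generic

section Chart

variable {K F : Type*} [Field K] [Field F] [Algebra K F]

theorem h6_mulEquiv_inv (x : F) (hx : x ≠ 0) :
    h75_mulEquiv K x⁻¹ (inv_ne_zero hx) = (h75_mulEquiv K x hx)⁻¹ := by
  ext y
  rfl

/-- **B4 assembly**: frames of the two charts `x`, `x⁻¹` (of the same overlap) give the
`h75_IsSandL` clause of `h75_exists_frame`. -/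
theorem h6_isSandL_chart_inv {x : F} (hx : x ≠ 0) (D : Divisor K F) {n n' : ℕ}
    (e : Fin n → F) (e' : Fin n' → F)
    (hW : h75_Wstd (h75_mulEquiv K x hx) e = h75_overlap x D)
    (hM' : h75_Mstd (h75_mulEquiv K x⁻¹ (inv_ne_zero hx)) e' 0 = h75_chart x⁻¹ D)
    (hW' : h75_Wstd (h75_mulEquiv K x⁻¹ (inv_ne_zero hx)) e' = h75_overlap x⁻¹ D) :
    h75_IsSandL (h75_mulEquiv K x hx) e (h75_chart x⁻¹ D) := by
  rw [h6_mulEquiv_inv x hx, h6_Mstd_inv, neg_zero] at hM'
  rw [h6_mulEquiv_inv x hx, h6_Wstd_inv, h75_overlap_inv, ← hW] at hW'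
  rw [← hM']
  refine h6_isSandL_of_mem_Wstd _ e e' (fun j => ?_) (fun i => ?_) 0
  · rw [← hW']
    exact h6_self_mem_Wstd _ e' j
  · rw [hW']
    exact h6_self_mem_Wstd _ e i

end Chart

end Fermat.Agent.S18
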