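import Mathlib
import Fermat.Agent.S18.h75_RRBasic
import Fermat.Agent.S18.Tate_Sand
import Fermat.Agent.S18.RR_Chart
import Fermat.Agent.S18.h6_FrameSand

/-!
# S18 / RR-B4 helper (helper6): frames from a free basis of the chart module

* `h6_isFrame_of_linearIndependent` : a `K(x)`-independent family is a frame for multiplication
  by `x`.
* `h6_Wstd_eq_overlap` : if `Mstd 0 = M_x(D)` then `Wstd = overlap x D` (`overlap = M_x(D)[1/x]`).
* `h6_exists_frame_of` : `h75_exists_frame` from the free-basis statement on the two charts.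
-/

set_option autoImplicit false

open AlgebraicCurve IntermediateField

namespace Fermat.Agent.S18

open Fermat.Agent.S24

variable {K F : Type*} [Field K] [Field F] [Algebra K F]

/-- A `K(x)`-linearly independent family is a frame for multiplication by `x`. -/
theorem h6_isFrame_of_linearIndependent {x : F} (hx : Transcendental K x) (hx0 : x ≠ 0) {n : ℕ}
    (e : Fin n → F) (he : LinearIndependent K⟮x⟯ e) :
    h75_IsFrame (h75_mulEquiv K x hx0) e := by
  unfold h75_IsFrame
  have hb : LinearIndependent K (fun s : ℤ => (AdjoinSimple.gen K x) ^ s) := by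
    apply LinearIndependent.of_comp (K⟮x⟯.val.toLinearMap)
    have h1 : (K⟮x⟯.val.toLinearMap) ∘ (fun s : ℤ => (AdjoinSimple.gen K x) ^ s)
        = fun s : ℤ => x ^ s := by
      funext s
      show K⟮x⟯.val (AdjoinSimple.gen K x ^ s) = x ^ s
      rw [map_zpow₀]
      rfl
    rw [h1]
    exact h75_linearIndependent_zpow hx
  have h1 := linearIndependent_smul hb he
  have h2 : (fun p : Fin n × ℤ => ((h75_mulEquiv K x hx0) ^ p.2) (e p.1))
      = (fun p : ℤ × Fin n => (AdjoinSimple.gen K x) ^ p.1 • e p.2) ∘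
        (Equiv.prodComm (Fin n) ℤ) := by
    funext p
    rw [h75_mulEquiv_zpow_apply]
    simp [Algebra.smul_def]
  rw [h2]
  exact h1.comp _ (Equiv.prodComm _ _).injective

section

variable [IsAlgClosed K]

/-- `overlap x D = M_x(D)[1/x]`: every overlap section becomes a chart section after
multiplication by a power of `x`. -/
theorem h6_exists_pow_mul_mem_chart {x : F} (hx : h75_IsChart K x) (D : Divisor K F) (f : F)
    (hf : f ∈ h75_overlap x D) : ∃ s : ℕ, x ^ s * f ∈ h75_chart x D := by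
  by_cases hf0 : f = 0
  · exact ⟨0, by simp [hf0]⟩
  have hx0 := hx.ne_zero
  have hfin : {P : Place K F | 0 < P.ord x}.Finite := by
    have h := h75_fibre_finite hx 0
    simpa using h
  obtain ⟨s, hs⟩ : ∃ s : ℕ, ∀ P : Place K F, 0 < P.ord x → -D P - P.ord f ≤ s := by
    refine ⟨∑ P ∈ hfin.toFinset, (-D P - P.ord f).toNat, fun P hP => ?_⟩
    have hmem : P ∈ hfin.toFinset := by simpa using hP
    have h1 := Finset.single_le_sum (f := fun P : Place K F => (-D P - P.ord f).toNat)
      (fun _ _ => Nat.zero_le _) hmem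
    have h2 := Int.self_le_toNat (-D P - P.ord f)
    have h3 : ((-D P - P.ord f).toNat : ℤ) ≤
        ((∑ P ∈ hfin.toFinset, (-D P - P.ord f).toNat : ℕ) : ℤ) := by
      exact_mod_cast h1
    exact h2.trans h3
  refine ⟨s, ?_⟩
  rw [h75_mem_chart_iff]
  intro P hP
  right
  have hxs : x ^ s ≠ 0 := pow_ne_zero s hx0
  have hpow : P.ord (x ^ s) = s * P.ord x := by
    have h := P.ord_zpow x s
    rwa [zpow_natCast] at h
  rw [P.ord_mul hxs hf0, hpow]
  by_cases hP' : x⁻¹ ∈ P.toValuationSubring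
  · have h0 : P.ord x = 0 := by
      have h1 := h35_ord_nonneg_of_mem P hP
      have h2 := h35_ord_nonneg_of_mem P hP'
      rw [P.ord_inv] at h2
      omega
    rw [h0, mul_zero, zero_add]
    exact ((h75_mem_overlap_iff.mp hf) P hP hP').resolve_left hf0
  · have hpos : 0 < P.ord x := (h35_ord_pos_iff P hx0).mpr ⟨hP, hP'⟩
    have h1 := hs P hpos
    have h2 : (0 : ℤ) ≤ (s : ℤ) * (P.ord x - 1) :=
      mul_nonneg (Int.natCast_nonneg s) (by omega)
    nlinarith

/-- If `Mstd 0 = M_x(D)` then `Wstd = overlap x D`. -/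
theorem h6_Wstd_eq_overlap {x : F} (hx : h75_IsChart K x) (D : Divisor K F) {n : ℕ}
    (e : Fin n → F) (hM : h75_Mstd (h75_mulEquiv K x hx.ne_zero) e 0 = h75_chart x D) :
    h75_Wstd (h75_mulEquiv K x hx.ne_zero) e = h75_overlap x D := by
  apply le_antisymm
  · apply Submodule.span_le.mpr
    rintro v ⟨j, s, rfl⟩
    rw [h75_mulEquiv_zpow_apply]
    apply h75_zpow_mul_mem_overlap
    apply h75_chart_le_overlap
    rw [← hM]
    have h := h89_mem_Mstd (h75_mulEquiv K x hx.ne_zero) e (le_refl 0) j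
    rwa [zpow_zero] at h
  · intro f hf
    obtain ⟨s, hs⟩ := h6_exists_pow_mul_mem_chart hx D f hf
    rw [← hM] at hs
    have h1 : x ^ s * f ∈ h75_Wstd (h75_mulEquiv K x hx.ne_zero) e :=
      h89_Mstd_le_Wstd _ e 0 hs
    have h2 : ((h75_mulEquiv K x hx.ne_zero) ^ (-(s : ℤ))) (x ^ s * f) ∈
        h75_Wstd (h75_mulEquiv K x hx.ne_zero) e := by
      have h3 := h89_map_Wstd (h75_mulEquiv K x hx.ne_zero) e (-(s : ℤ))
      rw [← h3]
      exact Submodule.mem_map_of_mem h1
    rw [h75_mulEquiv_zpow_apply] at h2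
    have h3 : x ^ (-(s : ℤ)) * (x ^ s * f) = f := by
      rw [zpow_neg, zpow_natCast, ← mul_assoc, inv_mul_cancel₀ (pow_ne_zero s hx.ne_zero),
        one_mul]
    rwa [h3] at h2

/-- **B4 reduction**: `h75_exists_frame` follows from the free-basis statement
(`M_t(D) = ⊕ K[t] e_j` with `e` a `K(t)`-independent family of `[F : K(t)]` elements) on the two
charts `t = x`, `t = x⁻¹`. -/
theorem h6_exists_frame_of {x : F} (hx : h75_IsChart K x) (D : Divisor K F)
    (hFB : ∀ {t : F} (ht : h75_IsChart K t),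
      ∃ e : Fin (Module.finrank K⟮t⟯ F) → F, LinearIndependent K⟮t⟯ e ∧
        h75_Mstd (h75_mulEquiv K t ht.ne_zero) e 0 = h75_chart t D) :
    ∃ e : Fin (Module.finrank K⟮x⟯ F) → F,
      h75_IsFrame (h75_mulEquiv K x hx.ne_zero) e ∧ LinearIndependent K⟮x⟯ e ∧
      h75_Mstd (h75_mulEquiv K x hx.ne_zero) e 0 = h75_chart x D ∧
      h75_Wstd (h75_mulEquiv K x hx.ne_zero) e = h75_overlap x D ∧
      h75_IsSandL (h75_mulEquiv K x hx.ne_zero) e (h75_chart x⁻¹ D) := by
  obtain ⟨e, heli, hM⟩ := hFB hx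
  have hxi := h75_isChart_inv hx
  obtain ⟨e', -, hM'⟩ := hFB hxi
  have hW := h6_Wstd_eq_overlap hx D e hM
  have hW' := h6_Wstd_eq_overlap hxi D e' hM'
  exact ⟨e, h6_isFrame_of_linearIndependent hx.tr hx.ne_zero e heli, heli, hM, hW,
    h6_isSandL_chart_inv hx.ne_zero D e e' hW hM' hW'⟩

end

end Fermat.Agent.S18
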