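import Fermat.Agent.S18.RR_Chart

/-!
# S18 / RR-B9 (D1): `e - 1`-bounded poles give differentials (any characteristic)

`h75_mem_Omega_of_holo`.  On each chart the statement is `φ ∈ 𝔇⁻¹ = dual of B under the trace`,
where `𝔇` is the different of `B / K[x]`; Mathlib's `pow_sub_one_dvd_differentIdeal` gives
`ord_P d ≥ e_P - 1` for `d ∈ 𝔇`.  The chart of `x⁻¹` is treated with `x² φ`.
-/

set_option autoImplicit false

open AlgebraicCurve IntermediateField IsDedekindDomain
open scoped IntermediateField.algebraAdjoinAdjoin nonZeroDivisors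

namespace Fermat.Agent.S18

section Generic

variable (A K : Type*) {L : Type*} {B : Type*} [CommRing A] [Field K] [CommRing B] [Field L]
variable [Algebra A K] [Algebra B L] [Algebra A B] [Algebra K L] [Algebra A L]
variable [IsScalarTower A K L] [IsScalarTower A B L]
variable [IsDedekindDomain A] [IsFractionRing A K] [FiniteDimensional K L]
  [Algebra.IsSeparable K L] [IsIntegralClosure B A L] [IsFractionRing B L] [IsDedekindDomain B]
  [Module.IsTorsionFree A B]

/-- `P ^ e ∣ p B` implies `P ^ (e - 1) ∣ 𝔇` (Mathlib, with separability stated for `L / K`). -/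
theorem h75_pow_sub_one_dvd_different (L : Type*) [Field L] [Algebra B L] [Algebra K L]
    [Algebra A L] [IsScalarTower A K L] [IsScalarTower A B L] [FiniteDimensional K L]
    [Algebra.IsSeparable K L] [IsIntegralClosure B A L] [IsFractionRing B L] [Module.Finite A B]
    {p : Ideal A} [p.IsMaximal] (P : Ideal B) (e : ℕ) (hp : p ≠ ⊥)
    (hP : P ^ e ∣ p.map (algebraMap A B)) : P ^ (e - 1) ∣ differentIdeal A B := by
  letI : Algebra (FractionRing A) (FractionRing B) := FractionRing.liftAlgebra A (FractionRing B)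
  haveI : IsScalarTower A (FractionRing A) (FractionRing B) :=
    FractionRing.isScalarTower_liftAlgebra A (FractionRing B)
  haveI : Algebra.IsSeparable (FractionRing A) (FractionRing B) := by
    refine Algebra.IsSeparable.of_equiv_equiv (FractionRing.algEquiv A K).symm.toRingEquiv
      (FractionRing.algEquiv B L).symm.toRingEquiv ?_
    ext _
    exact IsFractionRing.algEquiv_commutes (FractionRing.algEquiv A K).symm
      (FractionRing.algEquiv B L).symm _
  exact pow_sub_one_dvd_differentIdeal A P e hp hP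

/-- if `φ 𝔇 ⊆ B` then `Tr(φ B) ⊆ A`. -/
theorem h75_trace_mem_of_mul_different (φ : L)
    (h : ∀ d ∈ differentIdeal A B, ∃ b : B, algebraMap B L b = φ * algebraMap B L d) (m : B) :
    Algebra.trace K L (φ * algebraMap B L m) ∈ (algebraMap A K).range := by
  have h10 : (1 : FractionalIdeal B⁰ L) ≠ 0 := one_ne_zero
  have hφ : φ ∈ FractionalIdeal.dual A K (1 : FractionalIdeal B⁰ L) := by
    have h1 : FractionalIdeal.dual A K (1 : FractionalIdeal B⁰ L) =
        (↑(differentIdeal A B) : FractionalIdeal B⁰ L)⁻¹ := by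
      rw [coeIdeal_differentIdeal A K L B, inv_inv]
    have hne : (↑(differentIdeal A B) : FractionalIdeal B⁰ L) ≠ 0 := by
      rw [coeIdeal_differentIdeal A K L B]
      exact inv_ne_zero (FractionalIdeal.dual_ne_zero A K h10)
    rw [h1, FractionalIdeal.mem_inv_iff hne]
    intro y hy
    obtain ⟨d, hd, rfl⟩ := (FractionalIdeal.mem_coeIdeal _).mp hy
    rw [FractionalIdeal.mem_one_iff]
    exact h d hd
  rw [FractionalIdeal.mem_dual h10] at hφ
  have := hφ (algebraMap B L m) ((FractionalIdeal.mem_one_iff _).mpr ⟨m, rfl⟩)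
  rwa [Algebra.traceForm_apply] at this

end Generic


open Fermat.Agent.S24

variable {K F : Type*} [Field K] [Field F] [Algebra K F]

/-- `ord ≥ n` at the place of a prime `w` of `B` is membership in `w ^ n`. -/
theorem h75_ord_ge_iff_mem_pow {R : Type*} [CommRing R] [IsDedekindDomain R] [Algebra R F]
    [IsFractionRing R F] [Algebra K R] [IsScalarTower K R F] (w : HeightOneSpectrum R) (b : R)
    (hb : b ≠ 0) (n : ℕ) :
    (n : ℤ) ≤ (Place.ofHeightOneSpectrum (K := K) (F := F) w).ord (algebraMap R F b) ↔
      b ∈ w.asIdeal ^ n := by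
  rw [h24_ofHeightOneSpectrum_ord, ← w.intValuation_le_pow_iff_mem,
    HeightOneSpectrum.valuation_of_algebraMap]
  have hne : w.intValuation b ≠ 0 := w.intValuation_ne_zero b hb
  conv_rhs => rw [← WithZero.exp_log hne, WithZero.exp_le_exp]
  constructor <;> intro h <;> omega

/-- `(x - a)` generates a maximal ideal of `K[x]`. -/
theorem h75_span_sub_isMaximal {x : F} (hx : Transcendental K x) (a : K) :
    (Ideal.span {(h75_genA K x - algebraMap K (h75_ringA K x) a)} :
      Ideal (h75_ringA K x)).IsMaximal := by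
  let e : Polynomial K ≃ₐ[K] h75_ringA K x := Polynomial.algEquivOfTranscendental K x hx
  have h1 : (Ideal.span {Polynomial.X - Polynomial.C a} : Ideal (Polynomial K)).IsMaximal := by
    rw [← Polynomial.ker_evalRingHom a]
    exact RingHom.ker_isMaximal_of_surjective _ (fun c => ⟨Polynomial.C c, by simp⟩)
  have h2 := h1.map_bijective (e : Polynomial K →+* h75_ringA K x) e.bijective
  have h3 : Ideal.map (e : Polynomial K →+* h75_ringA K x)
      (Ideal.span {Polynomial.X - Polynomial.C a}) =
      Ideal.span {(h75_genA K x - algebraMap K (h75_ringA K x) a)} := by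
    rw [Ideal.map_span, Set.image_singleton]
    congr 2
    apply Subtype.ext
    simp [e, h75_genA, Polynomial.algEquivOfTranscendental]
  rw [← h3]
  exact h2


section D1
variable [IsAlgClosed K]

/-- one-chart (D1): `e - 1`-bounded poles on the chart of `x` give `Tr(φ B) ⊆ K[x]`. -/
theorem h75_trace_mem_of_holo {x : F} (hx : h75_IsChart K x) (φ : F)
    (h : ∀ (P : Place K F) (a : K), 0 < P.ord (x - algebraMap K F a) →
        φ = 0 ∨ 1 - P.ord (x - algebraMap K F a) ≤ P.ord φ)
    (m : F) (hm : m ∈ h75_chart x (0 : Divisor K F)) :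
    ((Algebra.trace K⟮x⟯ F (φ * m) : K⟮x⟯) : F) ∈ Algebra.adjoin K {x} := by
  classical
  have hAP := h75_ringA_isPrincipalIdealRing hx.tr
  have hfin := hx.fin
  have hsep := hx.sep
  have hBD := h75_ringB_isDedekindDomain hx
  have hBF := h75_ringB_isFractionRing hx
  have hBfin := h75_ringB_finite hx
  have hinjAB : Function.Injective (algebraMap (h75_ringA K x) (h75_ringB K x)) := by
    intro u v huv
    have : ((algebraMap (h75_ringA K x) (h75_ringB K x) u : h75_ringB K x) : F) =
        ((algebraMap (h75_ringA K x) (h75_ringB K x) v : h75_ringB K x) : F) := by rw [huv]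
    exact Subtype.ext this
  have htf : Module.IsTorsionFree (h75_ringA K x) (h75_ringB K x) :=
    Module.isTorsionFree_iff_algebraMap_injective.mpr hinjAB
  have key : ∀ d ∈ differentIdeal (h75_ringA K x) (h75_ringB K x),
      ∃ b : h75_ringB K x, algebraMap (h75_ringB K x) F b = φ * algebraMap (h75_ringB K x) F d := by
    intro d hd
    suffices hint : IsIntegral (h75_ringA K x) (φ * (d : F)) from ⟨⟨_, hint⟩, rfl⟩
    rw [h75_isIntegral_iff hx]
    intro P hxP
    rcases eq_or_ne (φ * (d : F)) 0 with h0 | h0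
    · rw [h0]; exact zero_mem _
    have hφ0 : φ ≠ 0 := left_ne_zero_of_mul h0
    have hd0 : (d : F) ≠ 0 := right_ne_zero_of_mul h0
    have hd0' : d ≠ 0 := fun h => hd0 (by rw [h]; rfl)
    obtain ⟨a, hPa⟩ := h75_exists_value hx P hxP
    have hφP := (h P a hPa).resolve_left hφ0
    obtain ⟨w, rfl⟩ := h75_exists_heightOneSpectrum P hxP
    -- the element `x - a` of `A`
    let t : h75_ringA K x := h75_genA K x - algebraMap K (h75_ringA K x) a
    have ht0 : algebraMap (h75_ringA K x) (h75_ringB K x) t ≠ 0 := by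
      intro h0
      have : x - algebraMap K F a = 0 := by
        have h1 : ((algebraMap (h75_ringA K x) (h75_ringB K x) t : h75_ringB K x) : F) = 0 := by
          rw [h0]; rfl
        exact h1
      exact hx.tr (by rw [sub_eq_zero.mp this]; exact isAlgebraic_algebraMap _)
    obtain ⟨e, he⟩ := Int.eq_ofNat_of_zero_le hPa.le
    have hmax := h75_span_sub_isMaximal hx.tr a
    have hpbot : (Ideal.span {t} : Ideal (h75_ringA K x)) ≠ ⊥ := by
      rw [Ne, Ideal.span_singleton_eq_bot]
      intro h0
      exact ht0 (by rw [h0, map_zero])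
    have hdvd : w.asIdeal ^ e ∣ (Ideal.span {t} : Ideal (h75_ringA K x)).map
        (algebraMap (h75_ringA K x) (h75_ringB K x)) := by
      rw [Ideal.map_span, Set.image_singleton, Ideal.dvd_span_singleton]
      rw [← h75_ord_ge_iff_mem_pow (K := K) (F := F) w _ ht0]
      show (e : ℤ) ≤ (Place.ofHeightOneSpectrum (K := K) (F := F) w).ord (x - algebraMap K F a)
      rw [he]
    have hdiff := h75_pow_sub_one_dvd_different (h75_ringA K x) K⟮x⟯ F w.asIdeal e hpbot hdvd
    have hmem : d ∈ w.asIdeal ^ (e - 1) := Ideal.dvd_iff_le.mp hdiff hd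
    have h1 : ((e - 1 : ℕ) : ℤ) ≤ (Place.ofHeightOneSpectrum (K := K) (F := F) w).ord (d : F) :=
      (h75_ord_ge_iff_mem_pow (K := K) (F := F) w d hd0' (e - 1)).mpr hmem
    apply h24_mem_of_ord_nonneg
    rw [Place.ord_mul _ hφ0 hd0]
    omega
  have hm' : IsIntegral (h75_ringA K x) m :=
    (h75_isIntegral_iff hx m).mpr (h75_mem_chart_zero_iff.mp hm)
  have i3 : IsScalarTower (h75_ringA K x) (h75_ringB K x) F :=
    IsScalarTower.of_algebraMap_eq (fun _ => rfl)
  obtain ⟨c, hc⟩ := h75_trace_mem_of_mul_different (h75_ringA K x) K⟮x⟯ (L := F)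
    (B := h75_ringB K x) φ key ⟨m, hm'⟩
  have hc' : Algebra.trace K⟮x⟯ F (φ * m) = algebraMap (h75_ringA K x) K⟮x⟯ c := hc.symm
  rw [hc']
  exact c.2

end D1


section D1final
variable [IsAlgClosed K]

omit [IsAlgClosed K] in
/-- the trace does not depend on how the base field is presented. -/
theorem h75_trace_congr {E₁ E₂ : IntermediateField K F} (h : E₁ = E₂) (z : F) :
    ((Algebra.trace E₁ F z : E₁) : F) = ((Algebra.trace E₂ F z : E₂) : F) := by
  subst h
  rfl

omit [IsAlgClosed K] in
/-- membership in `K[g]` can be tested in `F`. -/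
theorem h75_mem_adjoin_of_coe {x : F} (g c : K⟮x⟯)
    (h : (c : F) ∈ Algebra.adjoin K {(g : F)}) : c ∈ Algebra.adjoin K {g} := by
  have h3 : (Algebra.adjoin K {g}).map (K⟮x⟯.val) = Algebra.adjoin K {(g : F)} := by
    rw [AlgHom.map_adjoin, Set.image_singleton]
    rfl
  rw [← h3] at h
  obtain ⟨c', hc', hcc'⟩ := h
  have : c' = c := Subtype.ext hcc'
  rwa [← this]

/-- (D1) any characteristic: `e - 1`-bounded poles give differentials. -/
theorem h75_mem_Omega_of_holo {x : F} (hx : h75_IsChart K x) (φ : F)
    (h : ∀ P : Place K F,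
      (∀ a : K, 0 < P.ord (x - algebraMap K F a) →
        φ = 0 ∨ 1 - P.ord (x - algebraMap K F a) ≤ P.ord φ) ∧
      (P.ord x < 0 → φ = 0 ∨ 1 - P.ord x ≤ P.ord φ)) :
    φ ∈ h75_Omega x (0 : Divisor K F) := by
  have hx0 := hx.ne_zero
  have hx' := h75_isChart_inv hx
  refine ⟨fun m hm => ?_, fun l hl => ?_⟩
  · apply h75_mem_adjoin_of_coe
    rw [AdjoinSimple.coe_gen]
    exact h75_trace_mem_of_holo hx φ (fun P a hPa => (h P).1 a hPa) m hm
  · -- the chart of `x⁻¹` with `x² φ`
    have hyp : ∀ (P : Place K F) (b : K), 0 < P.ord (x⁻¹ - algebraMap K F b) →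
        x ^ 2 * φ = 0 ∨ 1 - P.ord (x⁻¹ - algebraMap K F b) ≤ P.ord (x ^ 2 * φ) := by
      intro P b hPb
      rcases eq_or_ne φ 0 with hφ | hφ
      · left; rw [hφ, mul_zero]
      right
      have hord2 : P.ord (x ^ 2 * φ) = 2 * P.ord x + P.ord φ := by
        rw [P.ord_mul (pow_ne_zero 2 hx0) hφ, ← zpow_natCast, P.ord_zpow]
        norm_num
      rw [hord2]
      rcases eq_or_ne b 0 with hb | hb
      · subst hb
        rw [map_zero, sub_zero, P.ord_inv] at hPb ⊢
        have := ((h P).2 (by omega)).resolve_left hφ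
        omega
      · -- `x(P) = b⁻¹` is finite and nonzero
        have hbF : algebraMap K F b ≠ 0 := by simpa using hb
        have hu0 : x⁻¹ - algebraMap K F b ≠ 0 := by
          intro h0
          rw [h0, P.ord_zero] at hPb
          exact lt_irrefl _ hPb
        have hinv0 : x⁻¹ ≠ 0 := inv_ne_zero hx0
        have hordb : P.ord (algebraMap K F b) = 0 := h35_ord_algebraMap P b
        -- ord x⁻¹ = 0
        have h1 : min (P.ord (x⁻¹ - algebraMap K F b)) (P.ord (algebraMap K F b)) ≤ P.ord x⁻¹ := by
          have := h35_ord_add P hu0 hbF (by rw [sub_add_cancel]; exact hinv0)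
          rwa [sub_add_cancel] at this
        have h2 : min (P.ord x⁻¹) (P.ord (x⁻¹ - algebraMap K F b)) ≤
            P.ord (algebraMap K F b) := by
          have := h35_ord_sub P hinv0 hu0 (by rw [sub_sub_cancel]; exact hbF)
          rwa [sub_sub_cancel] at this
        rw [hordb] at h1 h2
        have hinv : P.ord x⁻¹ = 0 := by
          rcases le_total (P.ord x⁻¹) (P.ord (x⁻¹ - algebraMap K F b)) with h3 | h3
          · rw [min_eq_left h3] at h2
            rw [min_eq_right hPb.le] at h1
            omega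
          · rw [min_eq_right h3] at h2
            omega
        have hordx : P.ord x = 0 := by
          rw [P.ord_inv] at hinv
          omega
        -- x - b⁻¹ = -(x⁻¹ - b) x b⁻¹
        have hkey : x - algebraMap K F b⁻¹ =
            -((x⁻¹ - algebraMap K F b) * x * algebraMap K F b⁻¹) := by
          rw [map_inv₀]
          field_simp
          ring
        have hbinvF : algebraMap K F b⁻¹ ≠ 0 := by simpa using hb
        have hord : P.ord (x - algebraMap K F b⁻¹) = P.ord (x⁻¹ - algebraMap K F b) := by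
          rw [hkey, h35_ord_neg, P.ord_mul (mul_ne_zero hu0 hx0) hbinvF, P.ord_mul hu0 hx0, hordx,
            h35_ord_algebraMap]
          ring
        have := ((h P).1 b⁻¹ (by rw [hord]; exact hPb)).resolve_left hφ
        rw [hord] at this
        omega
    have hmem := h75_trace_mem_of_holo hx' (x ^ 2 * φ) hyp l hl
    rw [h75_trace_congr (h24_adjoin_inv_eq x) (x ^ 2 * φ * l)] at hmem
    have h4 : x ^ 2 * φ * l = ((AdjoinSimple.gen K x) ^ 2 : K⟮x⟯) • (φ * l) := by
      rw [Algebra.smul_def]
      show _ = (((AdjoinSimple.gen K x) ^ 2 : K⟮x⟯) : F) * _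
      rw [IntermediateField.coe_pow, AdjoinSimple.coe_gen]
      ring
    rw [h4, map_smul, smul_eq_mul] at hmem
    apply h75_mem_adjoin_of_coe
    rw [IntermediateField.coe_inv, AdjoinSimple.coe_gen]
    exact hmem

end D1final

end Fermat.Agent.S18
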