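/-
S18 / MOD, shared tool (helper76): polynomial identities between `E₄`, `E₆` and their level
raises `E₄(Mτ)`, `E₆(Mτ)` on `Γ₀(M)` are decided by finitely many integer coefficients
(prelude Sturm bound), and then hold as identities of formal power series over `ℤ`.

* `h76_cv`, `h76_vv`, `h76_e4`, `h76_e6` : computable coefficient functions `ℕ → ℤ`
  (convolution, `q ↦ q^M`, `E₄`, `E₆`).
* `h76_QZ F a` : the modular form `F` on `Γ₀(M)` has `q`-expansion coefficients `a n`.
  Closed under `mul`, `add`, `sub`, `smul` by integers, `mcast`.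
* `h76_QZ.eq_zero` : Sturm — `F = 0` as soon as `a n = 0` for `n ≤ k * I / 12`, where `I` is
  any upper bound for the index of `Γ₀(M)`.
* `h76_QZ.coeff_eq_zero` : then `a n = 0` for all `n`.
-/
import Mathlib
import Fermat.Prelude.Def_ModularCurve_X0
import Fermat.Prelude.Thm_ModularForm_sturm_bound_Gamma0
import Fermat.Prelude.Thm_CongruenceSubgroup_one_mem_strictPeriods_Gamma0
import Fermat.Agent.S23.h97_LevelRaise

set_option autoImplicit false

open UpperHalfPlane ModularForm Filter Topology CongruenceSubgroup EisensteinSeries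
open scoped MatrixGroups ModularForm Manifold Pointwise

namespace Fermat.Agent.S18

/-! ### Computable coefficient functions -/

/-- Convolution of coefficient functions (coefficients of a product of power series). -/
def h76_cv (a b : ℕ → ℤ) : ℕ → ℤ := fun k => ∑ i ∈ Finset.range (k + 1), a i * b (k - i)

/-- Coefficients of `f(q^M)`. -/
def h76_vv (M : ℕ) (a : ℕ → ℤ) : ℕ → ℤ := fun n => if M ∣ n then a (n / M) else 0

/-- Coefficients of `E₄ = 1 + 240 ∑ σ₃(n) qⁿ`. -/
def h76_e4 : ℕ → ℤ := fun n => if n = 0 then 1 else 240 * ∑ d ∈ n.divisors, (d : ℤ) ^ 3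

/-- Coefficients of `E₆ = 1 - 504 ∑ σ₅(n) qⁿ`. -/
def h76_e6 : ℕ → ℤ := fun n => if n = 0 then 1 else -504 * ∑ d ∈ n.divisors, (d : ℤ) ^ 5

theorem h76_mk_cv (a b : ℕ → ℤ) :
    PowerSeries.mk (h76_cv a b) = PowerSeries.mk a * PowerSeries.mk b := by
  ext n
  rw [PowerSeries.coeff_mk, PowerSeries.coeff_mul,
    Finset.Nat.sum_antidiagonal_eq_sum_range_succ_mk]
  simp only [PowerSeries.coeff_mk, h76_cv]

/-! ### Modular forms on `Γ₀(M)` with integral `q`-expansions -/

/-- `Γ₀(M)` as a subgroup of `GL₂(ℝ)`. -/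
abbrev h76_Γ (M : ℕ) : Subgroup (GL (Fin 2) ℝ) :=
  ((Gamma0 M : Subgroup SL(2, ℤ)) : Subgroup (GL (Fin 2) ℝ))

theorem h76_hΓ (M : ℕ) : (1 : ℝ) ∈ (h76_Γ M).strictPeriods :=
  CongruenceSubgroup.one_mem_strictPeriods_Gamma0 M

/-- The `q`-expansion of `F` has the integer coefficients `a n`. -/
def h76_QZ {M : ℕ} {k : ℤ} (F : ModularForm (h76_Γ M) k) (a : ℕ → ℤ) : Prop :=
  ∀ n, (qExpansion 1 F).coeff n = (a n : ℂ)

namespace h76_QZ

variable {M : ℕ} {k k' : ℤ}

theorem mul {F : ModularForm (h76_Γ M) k} {G : ModularForm (h76_Γ M) k'} {a b : ℕ → ℤ}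
    (hF : h76_QZ F a) (hG : h76_QZ G b) : h76_QZ (F.mul G) (h76_cv a b) := by
  intro n
  rw [ModularForm.qExpansion_mul one_pos (h76_hΓ M) F G, PowerSeries.coeff_mul,
    Finset.Nat.sum_antidiagonal_eq_sum_range_succ_mk, h76_cv]
  push_cast
  exact Finset.sum_congr rfl fun i _ => by rw [hF i, hG (n - i)]

theorem add {F G : ModularForm (h76_Γ M) k} {a b : ℕ → ℤ}
    (hF : h76_QZ F a) (hG : h76_QZ G b) : h76_QZ (F + G) (fun n => a n + b n) := by
  intro n
  rw [FunLike.coe_add, ModularForm.qExpansion_add one_pos (h76_hΓ M) F G, map_add, hF n,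
    hG n]
  push_cast
  rfl

theorem sub {F G : ModularForm (h76_Γ M) k} {a b : ℕ → ℤ}
    (hF : h76_QZ F a) (hG : h76_QZ G b) : h76_QZ (F - G) (fun n => a n - b n) := by
  intro n
  rw [FunLike.coe_sub, ModularForm.qExpansion_sub one_pos (h76_hΓ M) F G, map_sub, hF n,
    hG n]
  push_cast
  rfl

theorem smul {F : ModularForm (h76_Γ M) k} {a : ℕ → ℤ} (c : ℤ)
    (hF : h76_QZ F a) : h76_QZ ((c : ℂ) • F) (fun n => c * a n) := by
  intro n
  rw [FunLike.coe_smul, ModularForm.qExpansion_smul one_pos (h76_hΓ M) (c : ℂ) F,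
    PowerSeries.coeff_smul, hF n]
  push_cast
  rfl

theorem mcast {F : ModularForm (h76_Γ M) k} {a : ℕ → ℤ} (h : k = k')
    (hF : h76_QZ F a) : h76_QZ (ModularForm.mcast h F rfl) a := by
  intro n
  rw [ModularForm.qExpansion_mcast]
  exact hF n

/-- **Sturm.** -/
theorem eq_zero [NeZero M] {F : ModularForm (h76_Γ M) k} {a : ℕ → ℤ} (hF : h76_QZ F a)
    (I : ℕ) (hI : (Gamma0 M).index ≤ I) (h0 : ∀ n, n ≤ (k * I).toNat / 12 → a n = 0) :
    F = 0 := by
  apply ModularForm.sturm_bound_Gamma0 M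
  intro n hn
  rw [hF n, h0 n, Int.cast_zero]
  refine hn.trans (Nat.div_le_div_right ?_)
  rcases le_or_gt 0 k with hk | hk
  · exact Int.toNat_le_toNat (mul_le_mul_of_nonneg_left (by exact_mod_cast hI) hk)
  · have : k * ((Gamma0 M).index : ℤ) ≤ 0 :=
      mul_nonpos_of_nonpos_of_nonneg hk.le (Int.natCast_nonneg _)
    rw [Int.toNat_of_nonpos this]
    exact Nat.zero_le _

theorem coeff_eq_zero {F : ModularForm (h76_Γ M) k} {a : ℕ → ℤ} (hF : h76_QZ F a)
    (h : F = 0) (n : ℕ) : a n = 0 := by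
  have h1 := hF n
  rw [h, FunLike.coe_zero, UpperHalfPlane.qExpansion_zero, map_zero] at h1
  exact_mod_cast h1.symm

end h76_QZ

/-! ### The basic forms: `E₄`, `E₆` and their level raises -/

/-- Restriction of a level one form to `Γ₀(M)`. -/
noncomputable def h76_res (M : ℕ) {k : ℤ} (A : ModularForm 𝒮ℒ k) : ModularForm (h76_Γ M) k where
  toFun := A
  slash_action_eq' γ hγ := A.slash_action_eq' γ (Subgroup.map_le_range _ _ hγ)
  holo' := A.holo'
  bdd_at_cusps' hc := A.bdd_at_cusps' (hc.mono (Subgroup.map_le_range _ _))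

theorem h76_res_coe (M : ℕ) {k : ℤ} (A : ModularForm 𝒮ℒ k) :
    (⇑(h76_res M A) : ℍ → ℂ) = ⇑A := rfl

theorem h76_coeff_E4 (n : ℕ) : (qExpansion 1 E₄).coeff n = (h76_e4 n : ℂ) := by
  rw [EisensteinSeries.E_qExpansion_coeff _ ⟨2, rfl⟩, h76_e4]
  have hb : bernoulli 4 = -1 / 30 := by decide +kernel
  by_cases hn : n = 0
  · simp [hn]
  · simp only [hn, if_false, hb]
    rw [ArithmeticFunction.sigma_apply]
    push_cast
    ring

theorem h76_coeff_E6 (n : ℕ) : (qExpansion 1 E₆).coeff n = (h76_e6 n : ℂ) := by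
  rw [EisensteinSeries.E_qExpansion_coeff _ ⟨3, rfl⟩, h76_e6]
  have hb : bernoulli 6 = 1 / 42 := by decide +kernel
  by_cases hn : n = 0
  · simp [hn]
  · simp only [hn, if_false, hb]
    rw [ArithmeticFunction.sigma_apply]
    push_cast
    ring

theorem h76_QZ_E4 (M : ℕ) : h76_QZ (h76_res M E₄) h76_e4 := fun n => by
  rw [h76_res_coe]
  exact h76_coeff_E4 n

theorem h76_QZ_E6 (M : ℕ) : h76_QZ (h76_res M E₆) h76_e6 := fun n => by
  rw [h76_res_coe]
  exact h76_coeff_E6 n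

theorem h76_QZ_E4v (M : ℕ) [NeZero M] :
    h76_QZ (Fermat.Agent.S23.h97_levelRaise M E₄) (h76_vv M h76_e4) := fun n => by
  rw [Fermat.Agent.S23.h97_qExpansion_levelRaise, h76_vv]
  split_ifs
  · exact h76_coeff_E4 _
  · simp

theorem h76_QZ_E6v (M : ℕ) [NeZero M] :
    h76_QZ (Fermat.Agent.S23.h97_levelRaise M E₆) (h76_vv M h76_e6) := fun n => by
  rw [Fermat.Agent.S23.h97_qExpansion_levelRaise, h76_vv]
  split_ifs
  · exact h76_coeff_E6 _
  · simp

/-! ### Back to formal power series over `ℤ` -/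

/-- The formal `E₆`. -/
def h76_E6 : PowerSeries ℤ := PowerSeries.mk h76_e6

theorem h76_mk_e4 : PowerSeries.mk h76_e4 = ModularCurve.eisenstein4 := rfl

theorem h76_mk_vv (M : ℕ) (hM : M ≠ 0) (a : ℕ → ℤ) :
    PowerSeries.mk (h76_vv M a) = PowerSeries.expand M hM (PowerSeries.mk a) := by
  ext n
  rw [PowerSeries.coeff_mk, PowerSeries.coeff_expand, h76_vv]
  simp only [PowerSeries.coeff_mk]

theorem h76_mk_add (a b : ℕ → ℤ) :
    PowerSeries.mk (fun n => a n + b n) = PowerSeries.mk a + PowerSeries.mk b := by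
  ext n; simp

theorem h76_mk_sub (a b : ℕ → ℤ) :
    PowerSeries.mk (fun n => a n - b n) = PowerSeries.mk a - PowerSeries.mk b := by
  ext n; simp

theorem h76_mk_smul (c : ℤ) (a : ℕ → ℤ) :
    PowerSeries.mk (fun n => c * a n) = PowerSeries.C c * PowerSeries.mk a := by
  ext n
  rw [PowerSeries.coeff_mk, PowerSeries.coeff_C_mul, PowerSeries.coeff_mk]

theorem h76_mk_eq_zero {a : ℕ → ℤ} (h : ∀ n, a n = 0) : PowerSeries.mk a = 0 := by
  ext n; simp [h n]

end Fermat.Agent.S18
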