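/-
S18 / MOD, shared tool (helper76): the formal identity `E₄³ - E₆² = 1728 q ∏ (1 - qⁿ)²⁴`
in `ℤ[[q]]`, for the prelude's formal `eisenstein4`, `dedekindEtaUnit` and the formal `E₆`
(`h76_E6`).
-/
import Fermat.Agent.S18.h76_SturmTool
import Fermat.Agent.S24.h59_InvQ
import Fermat.Agent.S28.h77_DeltaQ

set_option autoImplicit false

open UpperHalfPlane ModularForm EisensteinSeries ModularCurve
open scoped MatrixGroups

namespace Fermat.Agent.S18

open Fermat.Agent.S24 Fermat.Agent.S28

/-- The `q`-expansion of `Δ` is `q ∏ (1 - qⁿ)²⁴`. -/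
theorem h76_qExpansion_discriminant :
    qExpansion 1 ModularForm.discriminant =
      PowerSeries.X * (dedekindEtaUnit.map (Int.castRingHom ℂ)) := by
  have h1 := h59_isQExp_discriminant
  have h2 := h77_isQExp_deltaHat
  have h3 := h77_IsQExp.unique one_pos h1 h2
  rw [deltaHat, ← HahnSeries.ofPowerSeries_X, ← map_mul] at h3
  exact HahnSeries.ofPowerSeries_injective h3

theorem h76_cast_injective :
    Function.Injective (PowerSeries.map (Int.castRingHom ℂ)) := by
  intro p q h
  ext n
  have := congrArg (PowerSeries.coeff n) h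
  simpa using this

/-- **The formal discriminant identity over `ℤ`.** -/
theorem h76_delta_formal :
    (eisenstein4 ^ 3 - h76_E6 ^ 2 : PowerSeries ℤ) =
      1728 * (PowerSeries.X * dedekindEtaUnit) := by
  apply h76_cast_injective
  have h4 : qExpansion 1 E₄ = eisenstein4.map (Int.castRingHom ℂ) := by
    ext n
    rw [h76_coeff_E4, ← h76_mk_e4, PowerSeries.coeff_map, PowerSeries.coeff_mk]
    simp
  have h6 : qExpansion 1 E₆ = h76_E6.map (Int.castRingHom ℂ) := by
    ext n
    rw [h76_coeff_E6, h76_E6, PowerSeries.coeff_map, PowerSeries.coeff_mk]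
    simp
  have h := h59_qExpansion_discriminant
  rw [CuspForm.coe_discriminant, h76_qExpansion_discriminant, h4, h6] at h
  rw [map_sub, map_pow, map_pow, ← h, map_mul, map_mul, PowerSeries.map_X]
  rw [Algebra.smul_def, map_ofNat]
  congr 1
  exact (map_ofNat (PowerSeries.map (Int.castRingHom ℂ)) 1728).symm

end Fermat.Agent.S18
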