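/-
S18 / MOD, M4 (helper76): the two weight-16 identities on `Γ₀(3)` behind the Hauptmodul
`h₃ = (η(τ)/η(3τ))¹²`, as identities in `ℤ[[q]]`.  With `E = E₄(q)`, `E' = E₄(q³)`,
`U = E - 81 E'`, `V = E' - E`, `W = E + 9 E'`, `Δ = q ∏(1-qⁿ)²⁴`:

* `h76_id3b : U³ V = 12288000 Δ(q) W`
* `h76_id3c : U V³ = 110592000 Δ(q³) W`

Proof: Sturm bound on `Γ₀(3)` in weight 16 (coefficients `n ≤ 5`), via `h76_SturmTool`.
-/
import Fermat.Agent.S18.h76_DeltaFormal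
import Fermat.Agent.S24.h29_Index

set_option autoImplicit false

open UpperHalfPlane ModularForm EisensteinSeries ModularCurve CongruenceSubgroup
open scoped MatrixGroups

namespace Fermat.Agent.S18

open Fermat.Agent.S23

/-- Coefficients of `U = E₄(q) - 81 E₄(q³)`. -/
def h76_U3 : ℕ → ℤ := fun n => h76_e4 n - 81 * h76_vv 3 h76_e4 n
/-- Coefficients of `V = E₄(q³) - E₄(q)`. -/
def h76_V3 : ℕ → ℤ := fun n => h76_vv 3 h76_e4 n - h76_e4 n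
/-- Coefficients of `W = E₄(q) + 9 E₄(q³)`. -/
def h76_W3 : ℕ → ℤ := fun n => h76_e4 n + 9 * h76_vv 3 h76_e4 n
/-- Coefficients of `1728 Δ(q) = E₄³ - E₆²`. -/
def h76_Dc : ℕ → ℤ := fun n =>
  h76_cv h76_e4 (h76_cv h76_e4 h76_e4) n - h76_cv h76_e6 h76_e6 n
/-- Coefficients of `1728 Δ(q^M) = E₄(q^M)³ - E₆(q^M)²`. -/
def h76_DcV (M : ℕ) : ℕ → ℤ := fun n =>
  h76_cv (h76_vv M h76_e4) (h76_cv (h76_vv M h76_e4) (h76_vv M h76_e4)) n
    - h76_cv (h76_vv M h76_e6) (h76_vv M h76_e6) n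

/-- `[SL₂(ℤ) : Γ₀(p)] = p + 1` for a prime `p`, in the `dedekindPsi` form. -/
theorem h76_psi_prime (p : ℕ) (hp : p.Prime) : dedekindPsi p = p + 1 := by
  have h := Fermat.Agent.S24.h29_psi_mul_of_not_dvd p 1 hp one_pos
    (fun h => hp.one_lt.ne' (Nat.dvd_one.mp h))
  rwa [mul_one, dedekindPsi_one, mul_one] at h

theorem h76_index_three : (Gamma0 3).index ≤ 4 := by
  rw [Fermat.Agent.S24.h29_index_Gamma0 3 (by norm_num), h76_psi_prime 3 (by norm_num)]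

section Forms

/-- `U` as a form on `Γ₀(3)`. -/
noncomputable def h76_Uf : ModularForm (h76_Γ 3) 4 :=
  h76_res 3 E₄ - ((81 : ℤ) : ℂ) • h97_levelRaise 3 E₄
noncomputable def h76_Vf : ModularForm (h76_Γ 3) 4 :=
  h97_levelRaise 3 E₄ - h76_res 3 E₄
noncomputable def h76_Wf : ModularForm (h76_Γ 3) 4 :=
  h76_res 3 E₄ + ((9 : ℤ) : ℂ) • h97_levelRaise 3 E₄
/-- `1728 Δ` as a form on `Γ₀(M)`. -/
noncomputable def h76_Df (M : ℕ) : ModularForm (h76_Γ M) 12 :=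
  ModularForm.mcast (by norm_num) ((h76_res M E₄).mul ((h76_res M E₄).mul (h76_res M E₄)))
    - ModularForm.mcast (by norm_num) ((h76_res M E₆).mul (h76_res M E₆))
/-- `1728 Δ(Mτ)` as a form on `Γ₀(M)`. -/
noncomputable def h76_DfV (M : ℕ) [NeZero M] : ModularForm (h76_Γ M) 12 :=
  ModularForm.mcast (by norm_num)
      ((h97_levelRaise M E₄).mul ((h97_levelRaise M E₄).mul (h97_levelRaise M E₄)))
    - ModularForm.mcast (by norm_num) ((h97_levelRaise M E₆).mul (h97_levelRaise M E₆))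

theorem h76_QZ_Uf : h76_QZ h76_Uf h76_U3 :=
  (h76_QZ_E4 3).sub ((h76_QZ_E4v 3).smul 81)
theorem h76_QZ_Vf : h76_QZ h76_Vf h76_V3 :=
  (h76_QZ_E4v 3).sub (h76_QZ_E4 3)
theorem h76_QZ_Wf : h76_QZ h76_Wf h76_W3 :=
  (h76_QZ_E4 3).add ((h76_QZ_E4v 3).smul 9)
theorem h76_QZ_Df (M : ℕ) : h76_QZ (h76_Df M) h76_Dc :=
  ((((h76_QZ_E4 M).mul ((h76_QZ_E4 M).mul (h76_QZ_E4 M))).mcast _).sub
    (((h76_QZ_E6 M).mul (h76_QZ_E6 M)).mcast _))
theorem h76_QZ_DfV (M : ℕ) [NeZero M] : h76_QZ (h76_DfV M) (h76_DcV M) :=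
  ((((h76_QZ_E4v M).mul ((h76_QZ_E4v M).mul (h76_QZ_E4v M))).mcast _).sub
    (((h76_QZ_E6v M).mul (h76_QZ_E6v M)).mcast _))

end Forms

/-- Coefficients of `1728 U³V - 12288000 (1728 Δ) W`. -/
def h76_a3b : ℕ → ℤ := fun n =>
  1728 * h76_cv h76_U3 (h76_cv h76_U3 (h76_cv h76_U3 h76_V3)) n
    - 12288000 * h76_cv h76_Dc h76_W3 n

/-- Coefficients of `1728 U V³ - 110592000 (1728 Δ(q³)) W`. -/
def h76_a3c : ℕ → ℤ := fun n =>
  1728 * h76_cv h76_U3 (h76_cv h76_V3 (h76_cv h76_V3 h76_V3)) n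
    - 110592000 * h76_cv (h76_DcV 3) h76_W3 n

set_option maxRecDepth 100000 in
theorem h76_a3b_low : ∀ n, n ≤ ((16 : ℤ) * (4 : ℕ)).toNat / 12 → h76_a3b n = 0 := by
  decide

set_option maxRecDepth 100000 in
theorem h76_a3c_low : ∀ n, n ≤ ((16 : ℤ) * (4 : ℕ)).toNat / 12 → h76_a3c n = 0 := by
  decide

theorem h76_a3b_zero (n : ℕ) : h76_a3b n = 0 := by
  have hF : h76_QZ
      (((1728 : ℤ) : ℂ) • ModularForm.mcast (show (4 : ℤ) + (4 + (4 + 4)) = 16 by norm_num)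
          (h76_Uf.mul (h76_Uf.mul (h76_Uf.mul h76_Vf)))
        - ((12288000 : ℤ) : ℂ) • ModularForm.mcast (show (12 : ℤ) + 4 = 16 by norm_num)
          ((h76_Df 3).mul h76_Wf)) h76_a3b :=
    (((h76_QZ_Uf.mul (h76_QZ_Uf.mul (h76_QZ_Uf.mul h76_QZ_Vf))).mcast _).smul 1728).sub
      ((((h76_QZ_Df 3).mul h76_QZ_Wf).mcast _).smul 12288000)
  exact hF.coeff_eq_zero (hF.eq_zero 4 h76_index_three h76_a3b_low) n

theorem h76_a3c_zero (n : ℕ) : h76_a3c n = 0 := by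
  have hF : h76_QZ
      (((1728 : ℤ) : ℂ) • ModularForm.mcast (show (4 : ℤ) + (4 + (4 + 4)) = 16 by norm_num)
          (h76_Uf.mul (h76_Vf.mul (h76_Vf.mul h76_Vf)))
        - ((110592000 : ℤ) : ℂ) • ModularForm.mcast (show (12 : ℤ) + 4 = 16 by norm_num)
          ((h76_DfV 3).mul h76_Wf)) h76_a3c :=
    (((h76_QZ_Uf.mul (h76_QZ_Vf.mul (h76_QZ_Vf.mul h76_QZ_Vf))).mcast _).smul 1728).sub
      ((((h76_QZ_DfV 3).mul h76_QZ_Wf).mcast _).smul 110592000)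
  exact hF.coeff_eq_zero (hF.eq_zero 4 h76_index_three h76_a3c_low) n

end Fermat.Agent.S18
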