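/-
S18 / MOD, M4 (helper76): the level-3 identities as identities in `ℤ[[q]]` between the
prelude's formal series.
-/
import Fermat.Agent.S18.h76_H3Sturm

set_option autoImplicit false

open ModularCurve

namespace Fermat.Agent.S18

/-- The formal `E₄(q³)`. -/
noncomputable def h76_E4' : PowerSeries ℤ := PowerSeries.expand 3 (by norm_num) eisenstein4

/-- The formal `∏ (1 - q³ⁿ)²⁴`. -/
noncomputable def h76_eta3 : PowerSeries ℤ := PowerSeries.expand 3 (by norm_num) dedekindEtaUnit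

theorem h76_ofNat_ne_zero (n : ℕ) [n.AtLeastTwo] : (OfNat.ofNat n : PowerSeries ℤ) ≠ 0 := by
  intro h
  have h1 := congrArg (PowerSeries.constantCoeff (R := ℤ)) h
  rw [map_ofNat, map_zero] at h1
  exact absurd h1 (OfNat.ofNat_ne_zero n)

theorem h76_mk_U3 : PowerSeries.mk h76_U3 = eisenstein4 - 81 * h76_E4' := by
  unfold h76_U3
  rw [h76_mk_sub, h76_mk_smul, h76_mk_vv 3 (by norm_num), h76_mk_e4, map_ofNat]
  rfl

theorem h76_mk_V3 : PowerSeries.mk h76_V3 = h76_E4' - eisenstein4 := by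
  unfold h76_V3
  rw [h76_mk_sub, h76_mk_vv 3 (by norm_num), h76_mk_e4]
  rfl

theorem h76_mk_W3 : PowerSeries.mk h76_W3 = eisenstein4 + 9 * h76_E4' := by
  unfold h76_W3
  rw [h76_mk_add, h76_mk_smul, h76_mk_vv 3 (by norm_num), h76_mk_e4, map_ofNat]
  rfl

theorem h76_mk_Dc : PowerSeries.mk h76_Dc = 1728 * (PowerSeries.X * dedekindEtaUnit) := by
  unfold h76_Dc
  rw [h76_mk_sub, h76_mk_cv, h76_mk_cv, h76_mk_cv, h76_mk_e4]
  have h := h76_delta_formal
  rw [h76_E6] at h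
  linear_combination h

theorem h76_mk_DcV (M : ℕ) (hM : M ≠ 0) :
    PowerSeries.mk (h76_DcV M) =
      1728 * (PowerSeries.X ^ M * PowerSeries.expand M hM dedekindEtaUnit) := by
  unfold h76_DcV
  rw [h76_mk_sub, h76_mk_cv, h76_mk_cv, h76_mk_cv, h76_mk_vv M hM, h76_mk_vv M hM, h76_mk_e4]
  have h := congrArg (PowerSeries.expand M hM) h76_delta_formal
  rw [h76_E6, map_sub, map_pow, map_pow, map_mul, map_mul, PowerSeries.expand_X, map_ofNat] at h
  linear_combination h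

/-- **`U³ V = 12288000 Δ(q) W`** in `ℤ[[q]]`. -/
theorem h76_id3b :
    (eisenstein4 - 81 * h76_E4') ^ 3 * (h76_E4' - eisenstein4) =
      12288000 * (PowerSeries.X * dedekindEtaUnit) * (eisenstein4 + 9 * h76_E4') := by
  have h0 : PowerSeries.mk h76_a3b = 0 := h76_mk_eq_zero h76_a3b_zero
  unfold h76_a3b at h0
  rw [h76_mk_sub, h76_mk_smul, h76_mk_smul, h76_mk_cv, h76_mk_cv, h76_mk_cv, h76_mk_cv,
    h76_mk_U3, h76_mk_V3, h76_mk_W3, h76_mk_Dc, map_ofNat, map_ofNat] at h0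
  apply mul_left_cancel₀ (h76_ofNat_ne_zero 1728)
  linear_combination h0

/-- **`U V³ = 110592000 Δ(q³) W`** in `ℤ[[q]]`. -/
theorem h76_id3c :
    (eisenstein4 - 81 * h76_E4') * (h76_E4' - eisenstein4) ^ 3 =
      110592000 * (PowerSeries.X ^ 3 * h76_eta3) * (eisenstein4 + 9 * h76_E4') := by
  have h0 : PowerSeries.mk h76_a3c = 0 := h76_mk_eq_zero h76_a3c_zero
  unfold h76_a3c at h0
  rw [h76_mk_sub, h76_mk_smul, h76_mk_smul, h76_mk_cv, h76_mk_cv, h76_mk_cv, h76_mk_cv,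
    h76_mk_U3, h76_mk_V3, h76_mk_W3, h76_mk_DcV 3 (by norm_num), map_ofNat, map_ofNat] at h0
  apply mul_left_cancel₀ (h76_ofNat_ne_zero 1728)
  rw [h76_eta3]
  linear_combination h0

end Fermat.Agent.S18
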