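/-
S18 / MOD, M4 (helper76): the formal Hauptmodul of level 3 as a power series unit
`u₃ = ∏ ((1 - qⁿ)/(1 - q³ⁿ))¹²` (so `h₃ = q⁻¹ u₃`) and its two relations with `j`, in `ℤ[[q]]`:

* `h76_u3_rel  : jNum * u₃³ = (u₃ + 27 q) (u₃ + 243 q)³`
* `h76_u3_rel' : jNum(q³) * u₃ = (u₃ + 27 q) (u₃ + 3 q)³`
-/
import Fermat.Agent.S18.h76_H3Formal

set_option autoImplicit false

open ModularCurve

namespace Fermat.Agent.S18

/-- The inverse of `∏ (1 - qⁿ)`. -/
noncomputable def h76_etaInv : PowerSeries ℤ := etaProd.invOfUnit 1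

theorem h76_eta_mul_inv : etaProd * h76_etaInv = 1 :=
  PowerSeries.mul_invOfUnit _ _ (by rw [constantCoeff_etaProd]; rfl)

/-- `u₃ = ∏ ((1 - qⁿ)/(1 - q³ⁿ))¹²`. -/
noncomputable def h76_u3 : PowerSeries ℤ :=
  etaProd ^ 12 * (PowerSeries.expand 3 (by norm_num) h76_etaInv) ^ 12

theorem h76_constantCoeff_etaInv : PowerSeries.constantCoeff h76_etaInv = 1 := by
  have h := congrArg (PowerSeries.constantCoeff (R := ℤ)) h76_eta_mul_inv
  rwa [map_mul, constantCoeff_etaProd, one_mul, map_one] at h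

theorem h76_constantCoeff_u3 : PowerSeries.constantCoeff h76_u3 = 1 := by
  rw [h76_u3, map_mul, map_pow, map_pow, PowerSeries.constantCoeff_expand,
    constantCoeff_etaProd, h76_constantCoeff_etaInv]
  norm_num

/-- `u₃² ∏(1 - q³ⁿ)²⁴ = ∏(1 - qⁿ)²⁴`, i.e. `h₃² = Δ(q)/Δ(q³)`. -/
theorem h76_u3_sq : h76_u3 ^ 2 * h76_eta3 = dedekindEtaUnit := by
  have h := congrArg (PowerSeries.expand 3 (by norm_num : (3 : ℕ) ≠ 0)) h76_eta_mul_inv
  rw [map_mul, map_one] at h
  rw [h76_u3, h76_eta3, dedekindEtaUnit, map_pow]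
  generalize PowerSeries.expand 3 (by norm_num : (3 : ℕ) ≠ 0) etaProd = a at h ⊢
  generalize PowerSeries.expand 3 (by norm_num : (3 : ℕ) ≠ 0) h76_etaInv = b at h ⊢
  have h24 : (a * b) ^ 24 = 1 := by rw [h, one_pow]
  linear_combination (etaProd ^ 24) * h24

theorem h76_constantCoeff_E4' : PowerSeries.constantCoeff h76_E4' = 1 := by
  rw [h76_E4', PowerSeries.constantCoeff_expand, constantCoeff_eisenstein4]

theorem h76_constantCoeff_eta3 : PowerSeries.constantCoeff h76_eta3 = 1 := by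
  rw [h76_eta3, PowerSeries.constantCoeff_expand, constantCoeff_dedekindEtaUnit]

/-- The key factorisation: `E₄(q³) - E₄(q) = q V₀` and `u₃ V₀ = 3 (E₄(q) - 81 E₄(q³))`,
i.e. `h₃ = 3 (E₄(q) - 81 E₄(q³)) / (E₄(q³) - E₄(q))`. -/
theorem h76_exists_V0 : ∃ V0 : PowerSeries ℤ, V0 ≠ 0 ∧
    h76_E4' - eisenstein4 = PowerSeries.X * V0 ∧
    h76_u3 * V0 = 3 * (eisenstein4 - 81 * h76_E4') ∧
    (eisenstein4 - 81 * h76_E4') ^ 3 * V0 =
      12288000 * dedekindEtaUnit * (eisenstein4 + 9 * h76_E4') ∧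
    (eisenstein4 - 81 * h76_E4') * V0 ^ 3 =
      110592000 * h76_eta3 * (eisenstein4 + 9 * h76_E4') := by
  have hdvd : PowerSeries.X ∣ h76_E4' - eisenstein4 := by
    rw [PowerSeries.X_dvd_iff, map_sub, h76_constantCoeff_E4', constantCoeff_eisenstein4,
      sub_self]
  obtain ⟨V0, hV⟩ := hdvd
  have hX : (PowerSeries.X : PowerSeries ℤ) ≠ 0 := PowerSeries.X_ne_zero
  -- the two identities with the powers of `q` cancelled
  have hb : (eisenstein4 - 81 * h76_E4') ^ 3 * V0 =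
      12288000 * dedekindEtaUnit * (eisenstein4 + 9 * h76_E4') := by
    have h := h76_id3b
    rw [hV] at h
    apply mul_left_cancel₀ hX
    linear_combination h
  have hc : (eisenstein4 - 81 * h76_E4') * V0 ^ 3 =
      110592000 * h76_eta3 * (eisenstein4 + 9 * h76_E4') := by
    have h := h76_id3c
    rw [hV] at h
    apply mul_left_cancel₀ (pow_ne_zero 3 hX)
    linear_combination h
  -- constant coefficients
  have ccU : PowerSeries.constantCoeff (eisenstein4 - 81 * h76_E4') = -80 := by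
    rw [map_sub, map_mul, map_ofNat, h76_constantCoeff_E4', constantCoeff_eisenstein4]
    norm_num
  have ccW : PowerSeries.constantCoeff (eisenstein4 + 9 * h76_E4') = 10 := by
    rw [map_add, map_mul, map_ofNat, h76_constantCoeff_E4', constantCoeff_eisenstein4]
    norm_num
  have hU : eisenstein4 - 81 * h76_E4' ≠ 0 := by
    intro h
    rw [h, map_zero] at ccU
    norm_num at ccU
  have hV0 : V0 ≠ 0 := by
    intro h
    have h1 := congrArg (PowerSeries.constantCoeff (R := ℤ)) hb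
    rw [h, mul_zero, map_zero, map_mul, map_mul, map_ofNat, constantCoeff_dedekindEtaUnit,
      ccW] at h1
    norm_num at h1
  have heta3 : h76_eta3 ≠ 0 := by
    intro h
    have h1 := h76_constantCoeff_eta3
    rw [h, map_zero] at h1
    norm_num at h1
  -- `(u₃ V₀)² = (3 U)²`
  have hsq : (h76_u3 * V0) ^ 2 = (3 * (eisenstein4 - 81 * h76_E4')) ^ 2 := by
    have h1 : (eisenstein4 - 81 * h76_E4') * V0 * h76_eta3 * (h76_u3 * V0) ^ 2 =
        (eisenstein4 - 81 * h76_E4') * V0 * h76_eta3 *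
          (3 * (eisenstein4 - 81 * h76_E4')) ^ 2 := by
      have hs := h76_u3_sq
      linear_combination (h76_eta3 * h76_u3 ^ 2) * hc - (9 * h76_eta3) * hb
        + (9 * 12288000 * h76_eta3 * (eisenstein4 + 9 * h76_E4')) * hs
    exact mul_left_cancel₀ (mul_ne_zero (mul_ne_zero hU hV0) heta3) h1
  have hfac : (h76_u3 * V0 - 3 * (eisenstein4 - 81 * h76_E4')) *
      (h76_u3 * V0 + 3 * (eisenstein4 - 81 * h76_E4')) = 0 := by
    linear_combination hsq
  refine ⟨V0, hV0, hV, ?_, hb, hc⟩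
  rcases mul_eq_zero.mp hfac with h | h
  · exact sub_eq_zero.mp h
  · exfalso
    -- then `-3 U⁴ = 12288000 u₃³ η₃ W`, impossible at the constant coefficient
    have h2 : h76_u3 * V0 = -(3 * (eisenstein4 - 81 * h76_E4')) := by linear_combination h
    have h3 : -3 * (eisenstein4 - 81 * h76_E4') ^ 4 =
        12288000 * h76_u3 ^ 3 * h76_eta3 * (eisenstein4 + 9 * h76_E4') := by
      have hs := h76_u3_sq
      linear_combination h76_u3 * hb - ((eisenstein4 - 81 * h76_E4') ^ 3) * h2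
        - (12288000 * h76_u3 * (eisenstein4 + 9 * h76_E4')) * hs
    have h4 := congrArg (PowerSeries.constantCoeff (R := ℤ)) h3
    simp only [map_mul, map_pow, map_neg, map_ofNat, ccU, ccW, h76_constantCoeff_u3,
      h76_constantCoeff_eta3] at h4
    norm_num at h4

/-- **`j h₃³ = (h₃ + 27)(h₃ + 243)³`**, cleared of denominators, in `ℤ[[q]]`. -/
theorem h76_u3_rel :
    jNum * h76_u3 ^ 3 =
      (h76_u3 + 27 * PowerSeries.X) * (h76_u3 + 243 * PowerSeries.X) ^ 3 := by
  obtain ⟨V0, hV0, hV, h2, hb, -⟩ := h76_exists_V0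
  have hi := dedekindEtaUnit_mul_inv
  have hη : dedekindEtaUnit ≠ 0 := by
    intro h
    have h1 := constantCoeff_dedekindEtaUnit
    rw [h, map_zero] at h1
    norm_num at h1
  have hA : (h76_u3 + 27 * PowerSeries.X) * V0 = -24 * (eisenstein4 + 9 * h76_E4') := by
    linear_combination h2 - 27 * hV
  have hB : (h76_u3 + 243 * PowerSeries.X) * V0 = -240 * eisenstein4 := by
    linear_combination h2 - 243 * hV
  have key : V0 ^ 4 * dedekindEtaUnit * (jNum * h76_u3 ^ 3) =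
      V0 ^ 4 * dedekindEtaUnit *
        ((h76_u3 + 27 * PowerSeries.X) * (h76_u3 + 243 * PowerSeries.X) ^ 3) := by
    have e1 : V0 ^ 4 * dedekindEtaUnit * (jNum * h76_u3 ^ 3) =
        (dedekindEtaUnit * dedekindEtaUnitInv) * eisenstein4 ^ 3 *
          ((h76_u3 * V0) ^ 3 * V0) := by
      rw [jNum]; ring
    have e2 : V0 ^ 4 * dedekindEtaUnit *
        ((h76_u3 + 27 * PowerSeries.X) * (h76_u3 + 243 * PowerSeries.X) ^ 3) =
        dedekindEtaUnit * (((h76_u3 + 27 * PowerSeries.X) * V0) *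
          ((h76_u3 + 243 * PowerSeries.X) * V0) ^ 3) := by ring
    rw [e1, e2, hi, h2, hA, hB]
    linear_combination (27 * eisenstein4 ^ 3) * hb
  exact mul_left_cancel₀ (mul_ne_zero (pow_ne_zero 4 hV0) hη) key

/-- **`j(q³) h₃ = (h₃ + 27)(h₃ + 3)³`**, cleared of denominators, in `ℤ[[q]]`. -/
theorem h76_u3_rel' :
    PowerSeries.expand 3 (by norm_num) jNum * h76_u3 =
      (h76_u3 + 27 * PowerSeries.X) * (h76_u3 + 3 * PowerSeries.X) ^ 3 := by
  obtain ⟨V0, hV0, hV, h2, -, hc⟩ := h76_exists_V0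
  have hi := congrArg (PowerSeries.expand 3 (by norm_num : (3 : ℕ) ≠ 0)) dedekindEtaUnit_mul_inv
  rw [map_mul, map_one] at hi
  have hη : h76_eta3 ≠ 0 := by
    intro h
    have h1 := h76_constantCoeff_eta3
    rw [h, map_zero] at h1
    norm_num at h1
  have hA : (h76_u3 + 27 * PowerSeries.X) * V0 = -24 * (eisenstein4 + 9 * h76_E4') := by
    linear_combination h2 - 27 * hV
  have hC : (h76_u3 + 3 * PowerSeries.X) * V0 = -240 * h76_E4' := by
    linear_combination h2 - 3 * hV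
  have hj : PowerSeries.expand 3 (by norm_num : (3 : ℕ) ≠ 0) jNum =
      h76_E4' ^ 3 * PowerSeries.expand 3 (by norm_num : (3 : ℕ) ≠ 0) dedekindEtaUnitInv := by
    rw [jNum, map_mul, map_pow, h76_E4']
  have key : V0 ^ 4 * h76_eta3 * (PowerSeries.expand 3 (by norm_num) jNum * h76_u3) =
      V0 ^ 4 * h76_eta3 *
        ((h76_u3 + 27 * PowerSeries.X) * (h76_u3 + 3 * PowerSeries.X) ^ 3) := by
    have e1 : V0 ^ 4 * h76_eta3 * (PowerSeries.expand 3 (by norm_num) jNum * h76_u3) =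
        (h76_eta3 * PowerSeries.expand 3 (by norm_num : (3 : ℕ) ≠ 0) dedekindEtaUnitInv) *
          h76_E4' ^ 3 * ((h76_u3 * V0) * V0 ^ 3) := by
      rw [hj]; ring
    have e2 : V0 ^ 4 * h76_eta3 *
        ((h76_u3 + 27 * PowerSeries.X) * (h76_u3 + 3 * PowerSeries.X) ^ 3) =
        h76_eta3 * (((h76_u3 + 27 * PowerSeries.X) * V0) *
          ((h76_u3 + 3 * PowerSeries.X) * V0) ^ 3) := by ring
    rw [e1, e2, h76_eta3, hi, h2, hA, hC, ← h76_eta3]
    linear_combination (3 * h76_E4' ^ 3) * hc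
  exact mul_left_cancel₀ (mul_ne_zero (pow_ne_zero 4 hV0) hη) key

end Fermat.Agent.S18
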