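import Fermat.Agent.S18.Defs
import Fermat.Agent.S18.h64_CoreAdapter

/-!
# S18 / GR5c core: roots of a polynomial over a valuation ring and of its reduction

`A` a valuation ring of an algebraically closed field `K` with residue map `res : A → k`.
For `p ∈ A[X]` with `p̄ ≠ 0`, the multiplicity of `β` as a root of `p̄` is the number of roots of
`p` in `A` (with multiplicity) reducing to `β`.
-/

set_option autoImplicit false

noncomputable section

open Polynomial

namespace Fermat.Agent.S18

variable {K F k Fb : Type*} [Field K] [Field F] [Algebra K F] [Field k] [Field Fb] [Algebra k Fb]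

/-- The inverse of an element outside `A` reduces to zero. -/
theorem h89_res_inv_eq_zero (R : h39_RedDatum K F k Fb) {r : K} (hr : r ∉ R.A)
    (hri : r⁻¹ ∈ R.A) : R.res ⟨r⁻¹, hri⟩ = 0 := by
  rw [h64_res_eq_zero_iff]
  change r⁻¹ ∈ R.A.nonunits
  rw [ValuationSubring.mem_nonunits_iff_exists_mem_maximalIdeal]
  refine ⟨hri, ?_⟩
  rw [IsLocalRing.mem_maximalIdeal, mem_nonunits_iff]
  rintro ⟨u, hu⟩
  apply hr
  have h1 : r⁻¹ * ((u⁻¹ : (R.A)ˣ) : R.A).1 = 1 := by
    have h2 := congrArg Subtype.val (Units.mul_inv u)
    rw [hu] at h2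
    exact h2
  have h3 : ((u⁻¹ : (R.A)ˣ) : R.A).1 = r := by
    have h4 := eq_inv_of_mul_eq_one_right h1
    rw [inv_inv] at h4
    exact h4
  rw [← h3]
  exact Subtype.property _

open Classical in
/-- The primitive factor over `A` attached to a root `r ∈ K`: `X - r` if `r ∈ A`, and
`1 - r⁻¹ X` otherwise. -/
def h89_fac (A : ValuationSubring K) (r : K) : Polynomial A :=
  if h : r ∈ A then X - C ⟨r, h⟩ else 1 - C ⟨r⁻¹, (A.mem_or_inv_mem r).resolve_left h⟩ * X

open Classical in
/-- The scalar with `X - r = facScal r * fac r`. -/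
def h89_facScal (A : ValuationSubring K) (r : K) : K := if r ∈ A then 1 else -r

theorem h89_fac_map (A : ValuationSubring K) (r : K) :
    (X - C r : Polynomial K) = C (h89_facScal A r) * (h89_fac A r).map (algebraMap A K) := by
  by_cases h : r ∈ A
  · rw [h89_fac, h89_facScal, dif_pos h, if_pos h, Polynomial.map_sub, Polynomial.map_X,
      Polynomial.map_C, C_1, one_mul]
    rfl
  · have hr0 : r ≠ 0 := by
      rintro rfl
      exact h A.zero_mem
    rw [h89_fac, h89_facScal, dif_neg h, if_neg h, Polynomial.map_sub, Polynomial.map_mul,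
      Polynomial.map_X, Polynomial.map_C, Polynomial.map_one]
    have h1 : (algebraMap A K) ⟨r⁻¹, (A.mem_or_inv_mem r).resolve_left h⟩ = r⁻¹ := rfl
    rw [h1, mul_sub, mul_one, ← mul_assoc, ← C_mul, neg_mul, mul_inv_cancel₀ hr0, C_neg, C_neg,
      C_1]
    ring

open Classical in
theorem h89_fac_red (R : h39_RedDatum K F k Fb) (r : K) :
    (h89_fac R.A r).map R.res = if r ∈ R.A then X - C (R.resK r) else 1 := by
  by_cases h : r ∈ R.A
  · rw [h89_fac, dif_pos h, if_pos h, Polynomial.map_sub, Polynomial.map_X, Polynomial.map_C,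
      R.resK_of_mem h]
  · rw [h89_fac, dif_neg h, if_neg h, Polynomial.map_sub, Polynomial.map_mul, Polynomial.map_X,
      Polynomial.map_C, Polynomial.map_one, h89_res_inv_eq_zero R h, C_0, zero_mul, sub_zero]

/-- A product of linear factors over `K` is a scalar times a product of primitive factors
over `A`. -/
theorem h89_prod_fac_map (A : ValuationSubring K) (M : Multiset K) :
    (M.map (fun r => (X - C r : Polynomial K))).prod =
      C (M.map (h89_facScal A)).prod * ((M.map (h89_fac A)).prod).map (algebraMap A K) := by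
  induction M using Multiset.induction_on with
  | empty => simp
  | cons r M ih =>
    rw [Multiset.map_cons, Multiset.prod_cons, Multiset.map_cons, Multiset.prod_cons,
      Multiset.map_cons, Multiset.prod_cons, ih, h89_fac_map A r, C_mul, Polynomial.map_mul]
    ring

open Classical in
/-- The reduction of the product of primitive factors: only the roots in `A` survive. -/
theorem h89_prod_fac_red (R : h39_RedDatum K F k Fb) (M : Multiset K) :
    ((M.map (h89_fac R.A)).prod).map R.res =
      (((M.filter (fun r => r ∈ R.A)).map R.resK).map (fun b => (X - C b : Polynomial k))).prod := by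
  induction M using Multiset.induction_on with
  | empty => simp
  | cons r M ih =>
    rw [Multiset.map_cons, Multiset.prod_cons, Polynomial.map_mul, ih, h89_fac_red]
    by_cases h : r ∈ R.A
    · rw [if_pos h, Multiset.filter_cons_of_pos _ h, Multiset.map_cons, Multiset.map_cons,
        Multiset.prod_cons]
    · rw [if_neg h, Multiset.filter_cons_of_neg _ h, one_mul]

open Classical in
/-- **Roots and reduction.** For `p ∈ A[X]` with `p̄ ≠ 0` (`K` algebraically closed): the
multiplicity of `β` as a root of `p̄` is the number of roots of `p` in `A`, counted with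
multiplicity, that reduce to `β`. -/
theorem h89_rootMultiplicity_red_card [IsAlgClosed K] (R : h39_RedDatum K F k Fb)
    (p : Polynomial R.A) (hp : p.map R.res ≠ 0) (β : k) :
    (p.map R.res).rootMultiplicity β =
      Multiset.card ((p.map (algebraMap R.A K)).roots.filter
        (fun a => a ∈ R.A ∧ R.resK a = β)) := by
  set P : Polynomial K := p.map (algebraMap R.A K) with hP
  set M : Multiset K := P.roots with hM
  have hinj : Function.Injective (algebraMap R.A K) := Subtype.val_injective
  have hsplit : P.Splits := IsAlgClosed.splits P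
  -- factorisation of `P`
  have hfact : P = C P.leadingCoeff * (M.map (fun r => (X - C r : Polynomial K))).prod :=
    hsplit.eq_prod_roots
  set Q : Polynomial R.A := (M.map (h89_fac R.A)).prod with hQ
  set c' : K := P.leadingCoeff * (M.map (h89_facScal R.A)).prod with hc'
  have hPQ : P = C c' * Q.map (algebraMap R.A K) := by
    rw [hfact, h89_prod_fac_map R.A M, ← mul_assoc, ← C_mul]
  -- the reduction of `Q`
  set MA : Multiset k := (M.filter (fun r => r ∈ R.A)).map R.resK with hMA
  have hQred : Q.map R.res = (MA.map (fun b => (X - C b : Polynomial k))).prod :=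
    h89_prod_fac_red R M
  have hQmonic : (Q.map R.res).Monic := by
    rw [hQred]
    exact Polynomial.monic_multiset_prod_of_monic _ _ (fun b _ => Polynomial.monic_X_sub_C b)
  -- a unit coefficient of `Q`
  set j : ℕ := (Q.map R.res).natDegree with hj
  have hqj : R.res (Q.coeff j) = 1 := by
    have h1 : (Q.map R.res).coeff j = 1 := hQmonic.coeff_natDegree
    rw [Polynomial.coeff_map] at h1
    exact h1
  have hqj_inv : ((Q.coeff j : R.A) : K)⁻¹ ∈ R.A := by
    have hne : R.res (Q.coeff j) ≠ 0 := by
      rw [hqj]
      exact one_ne_zero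
    by_contra hni
    apply hne
    rcases eq_or_ne ((Q.coeff j : R.A) : K) 0 with h0 | h0
    · have : Q.coeff j = 0 := Subtype.ext h0
      rw [this, map_zero]
    · have h2 := h89_res_inv_eq_zero R hni (by rw [inv_inv]; exact (Q.coeff j).2)
      have h3 : (⟨(((Q.coeff j : R.A) : K)⁻¹)⁻¹, by rw [inv_inv]; exact (Q.coeff j).2⟩ : R.A) =
          Q.coeff j := Subtype.ext (inv_inv _)
      rw [h3] at h2
      exact h2
  -- `c' ∈ A`
  have hc'A : c' ∈ R.A := by
    have h1 : P.coeff j = c' * ((Q.coeff j : R.A) : K) := by
      rw [hPQ, Polynomial.coeff_C_mul, Polynomial.coeff_map]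
      rfl
    have h2 : P.coeff j ∈ R.A := by
      rw [hP, Polynomial.coeff_map]
      exact (p.coeff j).2
    have hq0 : ((Q.coeff j : R.A) : K) ≠ 0 := by
      intro h0
      have : Q.coeff j = 0 := Subtype.ext h0
      rw [this, map_zero] at hqj
      exact zero_ne_one hqj
    have h3 : c' = P.coeff j * ((Q.coeff j : R.A) : K)⁻¹ := by
      rw [h1, mul_assoc, mul_inv_cancel₀ hq0, mul_one]
    rw [h3]
    exact R.A.mul_mem _ _ h2 hqj_inv
  -- `p = c' Q` over `A`
  have hpQ : p = C (⟨c', hc'A⟩ : R.A) * Q := by
    apply Polynomial.map_injective (algebraMap R.A K) hinj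
    rw [Polynomial.map_mul, Polynomial.map_C, ← hP, hPQ]
    rfl
  have hpred : p.map R.res = C (R.res ⟨c', hc'A⟩) * Q.map R.res := by
    conv_lhs => rw [hpQ]
    rw [Polynomial.map_mul, Polynomial.map_C]
  have hcres : R.res ⟨c', hc'A⟩ ≠ 0 := by
    intro h0
    apply hp
    rw [hpred, h0, C_0, zero_mul]
  -- root multiplicities
  have hP0 : P ≠ 0 := by
    intro h0
    apply hp
    have : p = 0 := Polynomial.map_injective (algebraMap R.A K) hinj (by rw [← hP, h0, Polynomial.map_zero])
    rw [this, Polynomial.map_zero]
  have h1 : (p.map R.res).rootMultiplicity β = (Q.map R.res).rootMultiplicity β := by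
    rw [hpred, Polynomial.rootMultiplicity_mul (by rw [← hpred]; exact hp),
      Polynomial.rootMultiplicity_C, zero_add]
  have h2 : (Q.map R.res).rootMultiplicity β = MA.count β := by
    rw [← Polynomial.count_roots, hQred, Polynomial.roots_multiset_prod_X_sub_C]
  rw [h1, h2, hMA, Multiset.count_map, Multiset.filter_filter]
  congr 1
  apply Multiset.filter_congr
  intro a _
  constructor
  · rintro ⟨h3, h4⟩
    exact ⟨h4, h3.symm⟩
  · rintro ⟨h3, h4⟩
    exact ⟨h4.symm, h3⟩

/-- **Roots and reduction**, finset form: for `p ∈ A[X]` with `p̄ ≠ 0`, the multiplicity of `β`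
as a root of `p̄` is the sum of the multiplicities of the roots of `p` in `A` reducing to
`β`. -/
theorem h89_rootMultiplicity_red [IsAlgClosed K] (R : h39_RedDatum K F k Fb)
    (p : Polynomial R.A) (hp : p.map R.res ≠ 0) (β : k) (s : Finset K)
    (hs : ∀ a : K, a ∈ s ↔ (p.map (algebraMap R.A K)).IsRoot a ∧ a ∈ R.A ∧ R.resK a = β) :
    ((p.map R.res).rootMultiplicity β : ℤ) =
      ∑ a ∈ s, ((p.map (algebraMap R.A K)).rootMultiplicity a : ℤ) := by
  classical
  have hinj : Function.Injective (algebraMap R.A K) := Subtype.val_injective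
  have hP0 : p.map (algebraMap R.A K) ≠ 0 := by
    intro h0
    apply hp
    have : p = 0 := Polynomial.map_injective (algebraMap R.A K) hinj
      (by rw [h0, Polynomial.map_zero])
    rw [this, Polynomial.map_zero]
  rw [h89_rootMultiplicity_red_card R p hp β]
  set N : Multiset K := (p.map (algebraMap R.A K)).roots.filter
    (fun a => a ∈ R.A ∧ R.resK a = β) with hN
  have hsN : s = N.toFinset := by
    ext a
    rw [hs a, Multiset.mem_toFinset, hN, Multiset.mem_filter, Polynomial.mem_roots hP0]
  rw [hsN, ← Multiset.toFinset_sum_count_eq N]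
  push_cast
  refine Finset.sum_congr rfl fun a ha => ?_
  rw [Multiset.mem_toFinset, hN, Multiset.mem_filter] at ha
  rw [hN, Multiset.count_filter_of_pos (p := fun a => a ∈ R.A ∧ R.resK a = β) ha.2,
    Polynomial.count_roots]

end Fermat.Agent.S18

end
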