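import Mathlib

/-!
# S18 / RR-B9: the different, abstractly (Mathlib only)

`A ⊆ B` Dedekind domains, `B` finite over `A`, fraction fields `K ⊆ L` separable.

* `h89_tame_not_dvd`: `p` maximal in `A` with residue characteristic zero, `p B = P * Q` with
  `P`, `Q` coprime, `P ≠ ⊤` ⟹ `P` does not divide the different (tame ramification).
* `h89_different_le_pow`: `p B ≤ 𝔓 ^ e` ⟹ `different ≤ 𝔓 ^ (e - 1)` (any characteristic).
* `h89_different_not_le_pow`: residue characteristic zero, `p B ≤ 𝔓 ^ e`, `p B ≰ 𝔓 ^ (e + 1)`,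
  `e ≠ 0` ⟹ `different ≰ 𝔓 ^ e`.
* `h89_mem_dual_iff_mul_mem`, `h89_mem_dual_iff_trace`: `Tr(w B) ⊆ A` iff `w * different ⊆ B`.
-/

set_option autoImplicit false
set_option linter.unusedSectionVars false

noncomputable section

namespace Fermat.Agent.S18

open Module nonZeroDivisors

attribute [local instance] FractionRing.liftAlgebra FractionRing.isScalarTower_liftAlgebra
  Ideal.Quotient.field

section Tame

variable {A B : Type*} [CommRing A] [CommRing B] [Algebra A B]
  [IsDedekindDomain A] [IsDedekindDomain B] [Module.IsTorsionFree A B] [Module.Finite A B]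

/-- **Tameness in residue characteristic zero.** -/
theorem h89_tame_not_dvd [Algebra.IsSeparable (FractionRing A) (FractionRing B)]
    {p : Ideal A} [p.IsMaximal] [CharZero (A ⧸ p)] (P Q : Ideal B) (hPtop : P ≠ ⊤)
    (hPQ : IsCoprime P Q) (hP : P * Q = Ideal.map (algebraMap A B) p) :
    ¬ P ∣ differentIdeal A B := by
  let : Algebra (A ⧸ p) (B ⧸ Q) := Ideal.Quotient.algebraQuotientOfLEComap (by
      rw [← Ideal.map_le_iff_le_comap, ← hP]
      exact Ideal.mul_le_right)
  let : Algebra (A ⧸ p) (B ⧸ P) := Ideal.Quotient.algebraQuotientOfLEComap (by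
      rw [← Ideal.map_le_iff_le_comap, ← hP]
      exact Ideal.mul_le_left)
  have : IsScalarTower A (A ⧸ p) (B ⧸ Q) := .of_algebraMap_eq' rfl
  have : IsScalarTower A (A ⧸ p) (B ⧸ P) := .of_algebraMap_eq' rfl
  have : Module.Finite (A ⧸ p) (B ⧸ Q) :=
    Module.Finite.of_restrictScalars_finite A (A ⧸ p) (B ⧸ Q)
  have : Module.Finite (A ⧸ p) (B ⧸ P) :=
    Module.Finite.of_restrictScalars_finite A (A ⧸ p) (B ⧸ P)
  have : Nontrivial (B ⧸ P) := Ideal.Quotient.nontrivial_iff.mpr hPtop
  let e : (B ⧸ p.map (algebraMap A B)) ≃ₐ[A ⧸ p] ((B ⧸ P) × B ⧸ Q) :=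
    { __ := (Ideal.quotEquivOfEq hP.symm).trans (Ideal.quotientMulEquivQuotientProd P Q hPQ),
      commutes' := Quotient.ind fun _ ↦ rfl }
  obtain ⟨y, hy⟩ := Ideal.Quotient.mk_surjective (e.symm (1, 0))
  refine not_dvd_differentIdeal_of_intTrace_not_mem A P Q hP y ?_ ?_
  · have := congr((e $hy).2)
    simp at this
    simpa [e, Ideal.Quotient.eq_zero_iff_mem] using this
  · rw [← Ideal.Quotient.eq_zero_iff_mem, ← Algebra.trace_quotient_eq_of_isDedekindDomain,
      hy, Algebra.trace_eq_of_algEquiv, Algebra.trace_prod_apply]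
    have h1 : Algebra.trace (A ⧸ p) (B ⧸ P) (1 : B ⧸ P) =
        (Module.finrank (A ⧸ p) (B ⧸ P) : A ⧸ p) := by
      have h2 := Algebra.trace_algebraMap (R := A ⧸ p) (S := B ⧸ P) (1 : A ⧸ p)
      rw [map_one, nsmul_eq_mul, mul_one] at h2
      exact h2
    rw [h1, map_zero, add_zero]
    have hpos : 0 < Module.finrank (A ⧸ p) (B ⧸ P) := Module.finrank_pos
    exact_mod_cast hpos.ne'

end Tame

section AKLB

variable (A K L B : Type*) [CommRing A] [Field K] [CommRing B] [Field L]
  [Algebra A K] [Algebra B L] [Algebra A B] [Algebra K L] [Algebra A L]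
  [IsScalarTower A K L] [IsScalarTower A B L]
  [IsFractionRing A K] [FiniteDimensional K L] [Algebra.IsSeparable K L]
  [IsIntegralClosure B A L] [IsFractionRing B L] [IsDedekindDomain A] [IsDedekindDomain B]
  [Module.IsTorsionFree A B] [Module.Finite A B]

include K L in
/-- separability transfers to the canonical fraction fields. -/
theorem h89_fractionRing_isSeparable :
    Algebra.IsSeparable (FractionRing A) (FractionRing B) := by
  have H : RingHom.comp (algebraMap (FractionRing A) (FractionRing B))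
      ↑(FractionRing.algEquiv A K).symm.toRingEquiv =
        RingHom.comp ↑(FractionRing.algEquiv B L).symm.toRingEquiv (algebraMap K L) := by
    apply IsLocalization.ringHom_ext A⁰
    ext
    simp only [RingHom.coe_comp, RingHom.coe_coe,
      AlgEquiv.coe_ringEquiv, Function.comp_apply, AlgEquiv.commutes,
      ← IsScalarTower.algebraMap_apply]
    rw [IsScalarTower.algebraMap_apply A B L, AlgEquiv.commutes, ← IsScalarTower.algebraMap_apply]
  exact Algebra.IsSeparable.of_equiv_equiv _ _ H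

include K L in
theorem h89_different_ne_bot : differentIdeal A B ≠ ⊥ := by
  have := h89_fractionRing_isSeparable A K L B
  exact differentIdeal_ne_bot

include K L in
/-- `𝔓 ^ (e - 1)` divides the different when `𝔓 ^ e` divides `p B`. -/
theorem h89_different_le_pow {p : Ideal A} [p.IsMaximal] (hp : p ≠ ⊥) (P : Ideal B) (e : ℕ)
    (h : p.map (algebraMap A B) ≤ P ^ e) : differentIdeal A B ≤ P ^ (e - 1) := by
  by_cases he : e = 0
  · subst he
    simp
  · exact Ideal.dvd_iff_le.mp
      (pow_sub_one_dvd_differentIdeal_aux A K L P he hp (Ideal.dvd_iff_le.mpr h))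

include K L in
/-- tameness: in residue characteristic zero the different is not in `𝔓 ^ e`, `e` the exact
ramification index. -/
theorem h89_different_not_le_pow {p : Ideal A} [p.IsMaximal] [CharZero (A ⧸ p)]
    (P : Ideal B) [P.IsMaximal] (e : ℕ) (he : e ≠ 0)
    (h1 : p.map (algebraMap A B) ≤ P ^ e) (h2 : ¬ p.map (algebraMap A B) ≤ P ^ (e + 1)) :
    ¬ differentIdeal A B ≤ P ^ e := by
  have := h89_fractionRing_isSeparable A K L B
  intro hle
  obtain ⟨Q, hQ⟩ := Ideal.dvd_iff_le.mpr h1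
  have hQP : ¬ Q ≤ P := by
    intro hQP
    apply h2
    rw [hQ, pow_succ]
    exact Ideal.mul_mono_right hQP
  have hsup : P ⊔ Q = ⊤ := by
    by_contra hne
    have h3 : P = P ⊔ Q := Ideal.IsMaximal.eq_of_le ‹P.IsMaximal› hne le_sup_left
    exact hQP (h3 ▸ le_sup_right)
  have hPQ : IsCoprime (P ^ e) Q := by
    rw [Ideal.isCoprime_iff_sup_eq]
    exact Ideal.pow_sup_eq_top hsup
  have hPtop : P ^ e ≠ ⊤ := by
    intro h
    exact (‹P.IsMaximal›.ne_top) ((Ideal.pow_eq_top_iff.mp h).resolve_right he)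
  exact h89_tame_not_dvd (P ^ e) Q hPtop hPQ hQ.symm (Ideal.dvd_iff_le.mpr hle)

open FractionalIdeal in
theorem h89_mem_dual_iff_mul_mem (w : L) :
    w ∈ FractionalIdeal.dual A K (1 : FractionalIdeal B⁰ L) ↔
      ∀ d ∈ differentIdeal A B, ∃ b : B, w * algebraMap B L d = algebraMap B L b := by
  have h1 : FractionalIdeal.dual A K (1 : FractionalIdeal B⁰ L) =
      ((differentIdeal A B : Ideal B) : FractionalIdeal B⁰ L)⁻¹ := by
    rw [coeIdeal_differentIdeal A K L B, inv_inv]
  have h0 : ((differentIdeal A B : Ideal B) : FractionalIdeal B⁰ L) ≠ 0 := by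
    rw [Ne, FractionalIdeal.coeIdeal_eq_zero]
    exact h89_different_ne_bot A K L B
  rw [h1, FractionalIdeal.mem_inv_iff h0]
  constructor
  · intro h d hd
    have := h (algebraMap B L d) ((FractionalIdeal.mem_coeIdeal _).mpr ⟨d, hd, rfl⟩)
    obtain ⟨b, hb⟩ := (FractionalIdeal.mem_one_iff _).mp this
    exact ⟨b, hb.symm⟩
  · intro h y hy
    obtain ⟨d, hd, rfl⟩ := (FractionalIdeal.mem_coeIdeal _).mp hy
    obtain ⟨b, hb⟩ := h d hd
    exact (FractionalIdeal.mem_one_iff _).mpr ⟨b, hb.symm⟩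

theorem h89_mem_dual_iff_trace (w : L) :
    w ∈ FractionalIdeal.dual A K (1 : FractionalIdeal B⁰ L) ↔
      ∀ m : B, ∃ a : A, Algebra.trace K L (w * algebraMap B L m) = algebraMap A K a := by
  rw [FractionalIdeal.mem_dual (one_ne_zero : (1 : FractionalIdeal B⁰ L) ≠ 0)]
  constructor
  · intro h m
    obtain ⟨a, ha⟩ := h (algebraMap B L m) ((FractionalIdeal.mem_one_iff _).mpr ⟨m, rfl⟩)
    exact ⟨a, ha.symm⟩
  · intro h y hy
    obtain ⟨m, rfl⟩ := (FractionalIdeal.mem_one_iff _).mp hy
    obtain ⟨a, ha⟩ := h m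
    exact ⟨a, ha.symm⟩

end AKLB

end Fermat.Agent.S18

end
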